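/-
S55 (T4), block LO4 part 3 (= LOC9 "local instantiation"): the abstract local theory of
`Local/CompleteDVR` (helper8) and `Local/Unram*` (helper1) instantiated at
`O = ℤ_q`, `K = ℚ_q`, `Ω = PadicAlgCl q`.

* instances: `Finite (ResidueField ℤ_[q])`, `Unram.HenselianTower ℤ_[q] ℚ_[q] (PadicAlgCl q)`;
* integers of a subfield `E` of `PadicAlgCl q` = unit ball; maximal ideal = open unit ball;
* unramified criterion: `IsUnramifiedIn ℤ_[q] E ↔` the value group of `E` is `q ^ ℤ`.
-/
import Mathlib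
import Fermat.Agent.S55.Local.CompleteDVR
import Fermat.Agent.S55.Local.UnramField

set_option autoImplicit false
set_option linter.style.haveILetI false

namespace Fermat.Agent.S55.LocalInt

open Polynomial IntermediateField IsLocalRing Fermat.Agent.S55.Local Fermat.Agent.S55.Local.Unram

variable (q : ℕ) [Fact q.Prime]

/-! ### Instances for `ℤ_q ⊆ ℚ_q ⊆ PadicAlgCl q` -/

instance finite_residueField_padicInt : Finite (ResidueField ℤ_[q]) :=
  Finite.of_equiv (ZMod q) (PadicInt.residueField (p := q)).symm.toEquiv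

theorem card_residueField_padicInt : Nat.card (ResidueField ℤ_[q]) = q := by
  rw [Nat.card_congr (PadicInt.residueField (p := q)).toEquiv, Nat.card_zmod]

instance isScalarTower_padicInt_mid (E : IntermediateField ℚ_[q] (PadicAlgCl q)) :
    IsScalarTower ℤ_[q] E (PadicAlgCl q) :=
  IsScalarTower.of_algebraMap_eq (fun _ => rfl)

instance henselianTower_padic : HenselianTower ℤ_[q] ℚ_[q] (PadicAlgCl q) where
  henselian E _ := by
    haveI : IsLocalRing (integralClosure ℤ_[q] E) :=
      isLocalRing_of_isIntegralClosure ℤ_[q] ℚ_[q] E (integralClosure ℤ_[q] E)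
    haveI : IsAdicComplete (maximalIdeal (integralClosure ℤ_[q] E)) (integralClosure ℤ_[q] E) :=
      isAdicComplete_maximalIdeal_of_isIntegralClosure ℤ_[q] ℚ_[q] E (integralClosure ℤ_[q] E)
    exact henselianLocalRing_of_isAdicComplete _

/-! ### Integral elements are the elements of norm `≤ 1` -/

theorem algebraMap_padicInt_apply (c : ℤ_[q]) :
    algebraMap ℤ_[q] (PadicAlgCl q) c = algebraMap ℚ_[q] (PadicAlgCl q) (c : ℚ_[q]) :=
  IsScalarTower.algebraMap_apply ℤ_[q] ℚ_[q] (PadicAlgCl q) c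

theorem norm_natCast_self : ‖((q : ℕ) : PadicAlgCl q)‖ = (q : ℝ)⁻¹ := by
  have h : ((q : ℕ) : PadicAlgCl q) = algebraMap ℚ_[q] (PadicAlgCl q) (q : ℚ_[q]) := by
    rw [map_natCast]
  rw [h, PadicAlgCl.norm_extends, Padic.norm_p]

/-- **Integers of `PadicAlgCl q`**: `y` is integral over `ℤ_q` iff `‖y‖ ≤ 1`. -/
theorem isIntegral_padicInt_iff_norm_le_one (y : PadicAlgCl q) :
    IsIntegral ℤ_[q] y ↔ ‖y‖ ≤ 1 := by
  have hint : IsIntegral ℚ_[q] y := Algebra.IsIntegral.isIntegral y
  have hmon : (minpoly ℚ_[q] y).Monic := minpoly.monic hint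
  rw [← PadicAlgCl.spectralNorm_eq, spectralNorm, spectralValue_le_one_iff hmon]
  constructor
  · intro hy n
    rw [minpoly.isIntegrallyClosed_eq_field_fractions' ℚ_[q] hy, coeff_map]
    exact PadicInt.norm_le_one _
  · intro h
    have hlift : minpoly ℚ_[q] y ∈ Polynomial.lifts (algebraMap ℤ_[q] ℚ_[q]) := by
      rw [Polynomial.lifts_iff_coeff_lifts]
      intro n
      exact ⟨⟨(minpoly ℚ_[q] y).coeff n, h n⟩, rfl⟩
    obtain ⟨P, hP, _, hPm⟩ := Polynomial.lifts_and_degree_eq_and_monic hlift hmon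
    refine ⟨P, hPm, ?_⟩
    have : eval₂ (algebraMap ℤ_[q] (PadicAlgCl q)) y P =
        eval₂ (algebraMap ℚ_[q] (PadicAlgCl q)) y (P.map (algebraMap ℤ_[q] ℚ_[q])) := by
      rw [eval₂_map, ← IsScalarTower.algebraMap_eq]
    rw [this, hP]
    exact minpoly.aeval ℚ_[q] y

variable {q}
variable (E : IntermediateField ℚ_[q] (PadicAlgCl q))

/-- The ring of integers of `E ⊆ PadicAlgCl q` is its unit ball. -/
theorem mem_integralClosure_iff_norm_le_one (x : E) :
    x ∈ integralClosure ℤ_[q] E ↔ ‖(x : PadicAlgCl q)‖ ≤ 1 := by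
  rw [mem_integralClosure_iff, ← isIntegral_padicInt_iff_norm_le_one]
  exact (isIntegral_algebraMap_iff
    (FaithfulSMul.algebraMap_injective E (PadicAlgCl q))).symm

theorem norm_le_one_of_mem (b : integralClosure ℤ_[q] E) : ‖((b : E) : PadicAlgCl q)‖ ≤ 1 :=
  (mem_integralClosure_iff_norm_le_one E b).mp b.2

/-- Units of the ring of integers of `E` are the elements of norm one. -/
theorem isUnit_iff_norm_eq_one (b : integralClosure ℤ_[q] E) :
    IsUnit b ↔ ‖((b : E) : PadicAlgCl q)‖ = 1 := by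
  constructor
  · rintro ⟨u, rfl⟩
    have h1 := norm_le_one_of_mem E (u : integralClosure ℤ_[q] E)
    have h2 := norm_le_one_of_mem E ((u⁻¹ : (integralClosure ℤ_[q] E)ˣ) : integralClosure ℤ_[q] E)
    have h3 : ((((u : integralClosure ℤ_[q] E) : E)) : PadicAlgCl q) *
        (((((u⁻¹ : (integralClosure ℤ_[q] E)ˣ) : integralClosure ℤ_[q] E) : E)) : PadicAlgCl q)
          = 1 := by
      have h5 : (((u : integralClosure ℤ_[q] E) *
          ((u⁻¹ : (integralClosure ℤ_[q] E)ˣ) : integralClosure ℤ_[q] E) :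
            integralClosure ℤ_[q] E) : E) = 1 := by
        rw [u.mul_inv]; rfl
      have h6 := congrArg (fun z : E => (z : PadicAlgCl q)) h5
      simp only [MulMemClass.coe_mul, IntermediateField.coe_one] at h6
      exact h6
    have h4 := congrArg norm h3
    rw [norm_mul, norm_one] at h4
    nlinarith [norm_nonneg ((((u : integralClosure ℤ_[q] E) : E)) : PadicAlgCl q),
      norm_nonneg (((((u⁻¹ : (integralClosure ℤ_[q] E)ˣ) : integralClosure ℤ_[q] E) : E)) :
        PadicAlgCl q)]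
  · intro h
    have hb0 : (b : E) ≠ 0 := by
      intro h0
      rw [h0] at h
      simp at h
    have hinv : (b : E)⁻¹ ∈ integralClosure ℤ_[q] E := by
      rw [mem_integralClosure_iff_norm_le_one]
      push_cast
      rw [norm_inv, h, inv_one]
    refine isUnit_iff_exists_inv.mpr ⟨⟨(b : E)⁻¹, hinv⟩, ?_⟩
    apply Subtype.ext
    push_cast
    exact mul_inv_cancel₀ hb0

instance isLocalRing_integralClosure_padic : IsLocalRing (integralClosure ℤ_[q] E) := by
  refine IsLocalRing.of_nonunits_add fun a b ha hb => ?_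
  rw [mem_nonunits_iff, isUnit_iff_norm_eq_one] at ha hb ⊢
  have ha' := lt_of_le_of_ne (norm_le_one_of_mem E a) ha
  have hb' := lt_of_le_of_ne (norm_le_one_of_mem E b) hb
  refine ne_of_lt ?_
  push_cast
  exact lt_of_le_of_lt (IsUltrametricDist.norm_add_le_max _ _) (max_lt ha' hb')

/-- The maximal ideal of the ring of integers of `E` is the open unit ball. -/
theorem mem_maximalIdeal_iff_norm_lt_one (b : integralClosure ℤ_[q] E) :
    b ∈ maximalIdeal (integralClosure ℤ_[q] E) ↔ ‖((b : E) : PadicAlgCl q)‖ < 1 := by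
  rw [mem_maximalIdeal, mem_nonunits_iff, isUnit_iff_norm_eq_one]
  exact ⟨fun h => lt_of_le_of_ne (norm_le_one_of_mem E b) h, fun h => ne_of_lt h⟩

/-! ### The unramified criterion -/

theorem map_maximalIdeal_eq_span :
    (maximalIdeal ℤ_[q]).map (algebraMap ℤ_[q] (integralClosure ℤ_[q] E)) =
      Ideal.span {((q : ℕ) : integralClosure ℤ_[q] E)} := by
  rw [PadicInt.maximalIdeal_eq_span_p, Ideal.map_span, Set.image_singleton, map_natCast]

theorem natCast_mem_maximalIdeal :
    ((q : ℕ) : integralClosure ℤ_[q] E) ∈ maximalIdeal (integralClosure ℤ_[q] E) := by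
  rw [mem_maximalIdeal_iff_norm_lt_one]
  push_cast
  rw [norm_natCast_self]
  have hq : (1 : ℝ) < q := by exact_mod_cast (Fact.out : q.Prime).one_lt
  exact inv_lt_one_of_one_lt₀ hq

theorem mem_span_natCast_iff (b : integralClosure ℤ_[q] E) :
    b ∈ Ideal.span {((q : ℕ) : integralClosure ℤ_[q] E)} ↔
      ‖((b : E) : PadicAlgCl q)‖ ≤ (q : ℝ)⁻¹ := by
  have hq0 : (0 : ℝ) < q := by exact_mod_cast (Fact.out : q.Prime).pos
  have hqE : ((q : ℕ) : E) ≠ 0 := by exact_mod_cast (Fact.out : q.Prime).ne_zero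
  rw [Ideal.mem_span_singleton']
  constructor
  · rintro ⟨c, rfl⟩
    push_cast
    rw [norm_mul, norm_natCast_self]
    exact mul_le_of_le_one_left (inv_nonneg.mpr hq0.le) (norm_le_one_of_mem E c)
  · intro h
    have hc : (b : E) / ((q : ℕ) : E) ∈ integralClosure ℤ_[q] E := by
      rw [mem_integralClosure_iff_norm_le_one]
      push_cast
      rw [norm_div, norm_natCast_self, div_le_one (inv_pos.mpr hq0)]
      exact h
    refine ⟨⟨_, hc⟩, ?_⟩
    apply Subtype.ext
    push_cast
    exact div_mul_cancel₀ _ hqE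

/-- **Unramified criterion**: a finite subextension `E` of `PadicAlgCl q / ℚ_q` is unramified
iff its value group is `q ^ ℤ`. -/
theorem isUnramifiedIn_iff_forall_norm_eq_zpow [FiniteDimensional ℚ_[q] E] :
    IsUnramifiedIn ℤ_[q] E ↔
      ∀ x : E, x ≠ 0 → ∃ n : ℤ, ‖(x : PadicAlgCl q)‖ = (q : ℝ) ^ n := by
  have hq0 : (0 : ℝ) < q := by exact_mod_cast (Fact.out : q.Prime).pos
  have hq1 : (1 : ℝ) < q := by exact_mod_cast (Fact.out : q.Prime).one_lt
  have hqE : ((q : ℕ) : E) ≠ 0 := by exact_mod_cast (Fact.out : q.Prime).ne_zero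
  have hle : Ideal.span {((q : ℕ) : integralClosure ℤ_[q] E)} ≤
      maximalIdeal (integralClosure ℤ_[q] E) := by
    rw [Ideal.span_singleton_le_iff_mem]
    exact natCast_mem_maximalIdeal E
  unfold IsUnramifiedIn
  rw [map_maximalIdeal_eq_span]
  constructor
  · rintro ⟨_, hmax⟩ x hx
    have heq : Ideal.span {((q : ℕ) : integralClosure ℤ_[q] E)} =
        maximalIdeal (integralClosure ℤ_[q] E) := IsLocalRing.eq_maximalIdeal hmax
    have hxpos : 0 < ‖(x : PadicAlgCl q)‖ := by
      rw [norm_pos_iff]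
      exact_mod_cast hx
    obtain ⟨n, hn1, hn2⟩ := exists_mem_Ico_zpow hxpos hq1
    refine ⟨n, le_antisymm ?_ hn1⟩
    by_contra hlt
    rw [not_le] at hlt
    -- `w = q ^ n * x⁻¹ ... ` has norm in `(q⁻¹, 1)`
    set w : E := ((q : ℕ) : E) ^ (-n) * x⁻¹ with hw
    have hwnorm : ‖(w : PadicAlgCl q)‖ = (q : ℝ) ^ n * ‖(x : PadicAlgCl q)‖⁻¹ := by
      have hcoe : ((w : E) : PadicAlgCl q) =
          ((q : ℕ) : PadicAlgCl q) ^ (-n) * ((x : E) : PadicAlgCl q)⁻¹ := by
        rw [hw]
        have := map_zpow₀ (algebraMap E (PadicAlgCl q)) ((q : ℕ) : E) (-n)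
        rw [map_natCast] at this
        rw [MulMemClass.coe_mul, IntermediateField.coe_inv]
        exact congrArg (· * ((x : E) : PadicAlgCl q)⁻¹) this
      rw [hcoe, norm_mul, norm_zpow, norm_natCast_self, norm_inv, inv_zpow', neg_neg]
    have hw1 : ‖(w : PadicAlgCl q)‖ < 1 := by
      rw [hwnorm, ← div_eq_mul_inv, div_lt_one hxpos]
      exact hlt
    have hw2 : (q : ℝ)⁻¹ < ‖(w : PadicAlgCl q)‖ := by
      rw [hwnorm, ← div_eq_mul_inv, lt_div_iff₀ hxpos, inv_mul_lt_iff₀ hq0, ← zpow_one_add₀ hq0.ne',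
        add_comm]
      exact hn2
    have hwB : w ∈ integralClosure ℤ_[q] E :=
      (mem_integralClosure_iff_norm_le_one E w).mpr hw1.le
    have hwm : (⟨w, hwB⟩ : integralClosure ℤ_[q] E) ∈
        maximalIdeal (integralClosure ℤ_[q] E) :=
      (mem_maximalIdeal_iff_norm_lt_one E _).mpr hw1
    rw [← heq, mem_span_natCast_iff] at hwm
    exact absurd hwm (not_le.mpr hw2)
  · intro h
    refine ⟨inferInstance, ?_⟩
    have heq : Ideal.span {((q : ℕ) : integralClosure ℤ_[q] E)} =
        maximalIdeal (integralClosure ℤ_[q] E) := by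
      refine le_antisymm hle fun b hb => ?_
      rw [mem_span_natCast_iff]
      rw [mem_maximalIdeal_iff_norm_lt_one] at hb
      by_cases hb0 : (b : E) = 0
      · rw [hb0]
        simp only [ZeroMemClass.coe_zero, norm_zero, inv_nonneg]
        exact hq0.le
      · obtain ⟨n, hn⟩ := h b hb0
        rw [hn] at hb ⊢
        have hn0 : n < 0 := by
          by_contra hn0
          rw [not_lt] at hn0
          exact absurd hb (not_lt.mpr (one_le_zpow₀ hq1.le hn0))
        rw [← zpow_neg_one]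
        exact zpow_le_zpow_right₀ hq1.le (by omega)
    rw [heq]
    infer_instance

/-! ### Frobenius in norm form -/

/-- The Frobenius of an unramified `E/ℚ_q` satisfies `‖Frob x - x ^ q‖ < 1` on integers. -/
theorem norm_frob_sub_pow_lt_one [FiniteDimensional ℚ_[q] E] (h : IsUnramifiedIn ℤ_[q] E)
    (x : E) (hx : ‖(x : PadicAlgCl q)‖ ≤ 1) :
    ‖((h.frob x : E) : PadicAlgCl q) - (x : PadicAlgCl q) ^ q‖ < 1 := by
  have hxB : x ∈ integralClosure ℤ_[q] E := (mem_integralClosure_iff_norm_le_one E x).mpr hx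
  obtain ⟨c, hc, hfc⟩ := h.frob_apply ⟨x, hxB⟩
  rw [card_residueField_padicInt] at hfc
  rw [mem_maximalIdeal_iff_norm_lt_one] at hc
  have h1 : ((h.frob x : E) : PadicAlgCl q) =
      (x : PadicAlgCl q) ^ q + ((c : E) : PadicAlgCl q) := by
    have := congrArg (fun z : E => (z : PadicAlgCl q)) hfc
    simpa using this
  rw [h1, add_sub_cancel_left]
  exact hc

/-- Characterisation of the Frobenius of an unramified `E/ℚ_q` in norm form. -/
theorem eq_frob_of_norm_sub_pow_lt_one [FiniteDimensional ℚ_[q] E] (h : IsUnramifiedIn ℤ_[q] E)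
    (σ : E ≃ₐ[ℚ_[q]] E)
    (hσ : ∀ x : E, ‖(x : PadicAlgCl q)‖ ≤ 1 →
      ‖((σ x : E) : PadicAlgCl q) - (x : PadicAlgCl q) ^ q‖ < 1) :
    σ = h.frob := by
  refine h.eq_frob σ fun b => ?_
  rw [card_residueField_padicInt]
  have hb := norm_le_one_of_mem E b
  have h1 := hσ b hb
  have hpow : (b : E) ^ q ∈ integralClosure ℤ_[q] E := (b ^ q).2
  have hσb : σ (b : E) ∈ integralClosure ℤ_[q] E := by
    rw [mem_integralClosure_iff_norm_le_one]
    have h2 : ((σ (b : E) : E) : PadicAlgCl q) =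
        (((σ (b : E) : E) : PadicAlgCl q) - ((b : E) : PadicAlgCl q) ^ q) +
          ((b : E) : PadicAlgCl q) ^ q := by ring
    rw [h2]
    refine (IsUltrametricDist.norm_add_le_max _ _).trans (max_le h1.le ?_)
    rw [norm_pow]
    exact pow_le_one₀ (norm_nonneg _) hb
  refine ⟨⟨σ (b : E), hσb⟩ - b ^ q, ?_, ?_⟩
  · rw [mem_maximalIdeal_iff_norm_lt_one]
    have : (((⟨σ (b : E), hσb⟩ - b ^ q : integralClosure ℤ_[q] E) : E) : PadicAlgCl q) =
        ((σ (b : E) : E) : PadicAlgCl q) - ((b : E) : PadicAlgCl q) ^ q := by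
      push_cast
      rfl
    rw [this]
    exact h1
  · rw [add_sub_cancel]

end Fermat.Agent.S55.LocalInt
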