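/-
S55 / BR5: the twisted dual `A.dualTwist χ = Hom(A, k(χ))`.

Part (A) (abstract): the evaluation pairings `A' × A → k(χ)`, `A × A' → k(χ)` and their
equivariance (in the shape consumed by the cup product), contravariant functoriality and exactness
of `A ↦ A.dualTwist χ`, biduality `A ≅ A''`, compatibility with restriction, twisted duals of
characters.

Part (B) (arithmetic): `χ = cycloChar p` on `Gal(ℚ̄/ℚ)`: the character is the action on `μ_p(ℚ̄)`;
the hypotheses `hsm`, `hMur` of the frozen statement S55 pass from `M` to `M.dualTwist (cycloChar p)`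
and give a finite Galois trivialising field unramified outside `S`.
-/
import Mathlib
import Fermat.Prelude.Def_GroupCohomology_ContinuousUnramified
import Fermat.Agent.S55.GL.KummerUnram

set_option autoImplicit false
set_option linter.unusedSectionVars false

open CategoryTheory Module groupCohomology

namespace Fermat.Agent.S55.DualTwist

universe u

section Abstract

variable {k G : Type u} [Field k] [Group G] (χ : G →* kˣ) (A B C : Rep.{u} k G)

/-! ### The twisted dual: action formulas -/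

theorem dualTwist_ρ_apply_apply (g : G) (f : A.dualTwist χ) (a : A) :
    ((A.dualTwist χ).ρ g f : Module.Dual k A) a =
      (χ g : k) * (f : Module.Dual k A) (A.ρ g⁻¹ a) := rfl

theorem ofChar_ρ_apply (g : G) (x : ofChar χ) :
    (ofChar χ).ρ g x = ((χ g : k) * (x : k) : k) := rfl

/-- The twisted dual is the internal Hom `Hom_k(A, k(χ))` with the conjugation action. -/
theorem dual_twist_eq_linHom :
    A.ρ.dual.twist χ = Representation.linHom A.ρ ((Representation.trivial k G k).twist χ) := by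
  refine MonoidHom.ext fun g => LinearMap.ext fun f => LinearMap.ext fun a => ?_
  rfl

/-! ### Evaluation pairings -/

/-- The evaluation pairing `A' × A → k(χ)`, `(f, a) ↦ f a`. -/
noncomputable def evalPairing : (A.dualTwist χ) →ₗ[k] A →ₗ[k] (ofChar χ) :=
  (LinearMap.id : Module.Dual k A →ₗ[k] Module.Dual k A)

@[simp] theorem evalPairing_apply (f : A.dualTwist χ) (a : A) :
    evalPairing χ A f a = (f : Module.Dual k A) a := rfl

/-- Equivariance of the evaluation pairing, in the shape of the hypothesis of `Cup.d_cup`. -/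
theorem evalPairing_equivariant (g : G) (f : A.dualTwist χ) (a : A) :
    evalPairing χ A ((A.dualTwist χ).ρ g f) (A.ρ g a) = (ofChar χ).ρ g (evalPairing χ A f a) := by
  rw [evalPairing_apply, dualTwist_ρ_apply_apply, ofChar_ρ_apply, evalPairing_apply,
    ← Module.End.mul_apply, ← map_mul, inv_mul_cancel, map_one, Module.End.one_apply]

/-- The evaluation pairing in the other order `A × A' → k(χ)`, `(a, f) ↦ f a`. -/
noncomputable def evalPairing' : A →ₗ[k] (A.dualTwist χ) →ₗ[k] (ofChar χ) :=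
  (evalPairing χ A).flip

@[simp] theorem evalPairing'_apply (a : A) (f : A.dualTwist χ) :
    evalPairing' χ A a f = (f : Module.Dual k A) a := rfl

theorem evalPairing'_equivariant (g : G) (a : A) (f : A.dualTwist χ) :
    evalPairing' χ A (A.ρ g a) ((A.dualTwist χ).ρ g f) = (ofChar χ).ρ g (evalPairing' χ A a f) :=
  evalPairing_equivariant χ A g f a

theorem evalPairing_left_nondegenerate (f : A.dualTwist χ) (h : ∀ a, evalPairing χ A f a = 0) :
    f = 0 :=
  LinearMap.ext (f := (f : Module.Dual k A)) (g := 0) h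

theorem evalPairing_right_nondegenerate (a : A) (h : ∀ f, evalPairing χ A f a = 0) : a = 0 :=
  (Module.forall_dual_apply_eq_zero_iff k a).1 h

/-! ### Contravariant functoriality -/

variable {A B C}

/-- The map `B' → A'` induced by `f : A ⟶ B`. -/
noncomputable def dualTwistMap (f : A ⟶ B) : B.dualTwist χ ⟶ A.dualTwist χ :=
  Rep.ofHom ⟨(f.hom.toLinearMap.dualMap : Module.Dual k B →ₗ[k] Module.Dual k A), fun g => by
    refine LinearMap.ext fun φ => LinearMap.ext fun a => ?_
    change (χ g : k) * (φ : Module.Dual k B) (B.ρ g⁻¹ (f.hom a)) =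
      (χ g : k) * (φ : Module.Dual k B) (f.hom (A.ρ g⁻¹ a))
    rw [Rep.hom_comm_apply]⟩

theorem dualTwistMap_apply (f : A ⟶ B) (φ : B.dualTwist χ) (a : A) :
    ((dualTwistMap χ f).hom φ : Module.Dual k A) a = (φ : Module.Dual k B) (f.hom a) := rfl

/-- Adjointness of `f` and `dualTwistMap χ f` for the evaluation pairings. -/
theorem evalPairing_dualTwistMap (f : A ⟶ B) (φ : B.dualTwist χ) (a : A) :
    evalPairing χ A ((dualTwistMap χ f).hom φ) a = evalPairing χ B φ (f.hom a) := rfl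

theorem dualTwistMap_id : dualTwistMap χ (𝟙 A) = 𝟙 (A.dualTwist χ) := by
  refine Rep.hom_ext (Representation.IntertwiningMap.ext (LinearMap.ext fun φ => ?_))
  exact LinearMap.ext (f := ((dualTwistMap χ (𝟙 A)).hom φ : Module.Dual k A)) fun a => rfl

theorem dualTwistMap_comp (f : A ⟶ B) (g : B ⟶ C) :
    dualTwistMap χ (f ≫ g) = dualTwistMap χ g ≫ dualTwistMap χ f := by
  refine Rep.hom_ext (Representation.IntertwiningMap.ext (LinearMap.ext fun φ => ?_))
  exact LinearMap.ext (f := ((dualTwistMap χ (f ≫ g)).hom φ : Module.Dual k A)) fun a => rfl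

theorem dualTwistMap_injective (f : A ⟶ B) (hf : Function.Surjective f.hom) :
    Function.Injective (dualTwistMap χ f).hom := by
  intro φ ψ h
  refine LinearMap.ext (f := (φ : Module.Dual k B)) (g := (ψ : Module.Dual k B)) fun b => ?_
  obtain ⟨a, rfl⟩ := hf b
  have := congrArg (fun θ : A.dualTwist χ => (θ : Module.Dual k A) a) h
  exact this

theorem dualTwistMap_surjective (f : A ⟶ B) (hf : Function.Injective f.hom) :
    Function.Surjective (dualTwistMap χ f).hom := by
  intro φ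
  obtain ⟨ψ, hψ⟩ := LinearMap.dualMap_surjective_of_injective
    (f := f.hom.toLinearMap) hf (φ : Module.Dual k A)
  exact ⟨ψ, hψ⟩

/-- Exactness of the twisted dual: if `A → B → C` is exact at `B` (as maps of sets), then
`C' → B' → A'` is exact at `B'`. -/
theorem dualTwistMap_exact (f : A ⟶ B) (g : B ⟶ C)
    (hfg : ∀ b : B, g.hom b = 0 ↔ ∃ a : A, f.hom a = b) (φ : B.dualTwist χ) :
    (dualTwistMap χ f).hom φ = 0 ↔ ∃ ψ : C.dualTwist χ, (dualTwistMap χ g).hom ψ = φ := by
  constructor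
  · intro h
    have hφ : LinearMap.ker g.hom.toLinearMap ≤ LinearMap.ker (φ : Module.Dual k B) := by
      intro b hb
      obtain ⟨a, rfl⟩ := (hfg b).1 hb
      have := congrArg (fun θ : A.dualTwist χ => (θ : Module.Dual k A) a) h
      exact this
    -- factor `φ` through the range of `g`, then extend to `C`
    obtain ⟨ψ₀, hψ₀⟩ : ∃ ψ₀ : Module.Dual k C,
        ψ₀ ∘ₗ g.hom.toLinearMap = (φ : Module.Dual k B) := by
      obtain ⟨θ, hθ⟩ := LinearMap.exists_extend
        (p := LinearMap.range g.hom.toLinearMap)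
        (f := (LinearMap.ker g.hom.toLinearMap).liftQ (φ : Module.Dual k B) hφ ∘ₗ
          (g.hom.toLinearMap.quotKerEquivRange).symm.toLinearMap)
      refine ⟨θ, LinearMap.ext fun b => ?_⟩
      have h1 := LinearMap.congr_fun hθ ⟨g.hom b, ⟨b, rfl⟩⟩
      simp only [LinearMap.coe_comp, Function.comp_apply, Submodule.coe_subtype,
        LinearEquiv.coe_coe] at h1
      rw [LinearMap.comp_apply, Representation.IntertwiningMap.toLinearMap_apply, h1]
      have h2 : (g.hom.toLinearMap.quotKerEquivRange).symm ⟨g.hom b, ⟨b, rfl⟩⟩ =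
          Submodule.Quotient.mk b := by
        rw [LinearEquiv.symm_apply_eq]
        rfl
      rw [h2]
      rfl
    exact ⟨ψ₀, hψ₀⟩
  · rintro ⟨ψ, rfl⟩
    refine LinearMap.ext (f := ((dualTwistMap χ f).hom ((dualTwistMap χ g).hom ψ) :
      Module.Dual k A)) (g := 0) fun a => ?_
    rw [dualTwistMap_apply, dualTwistMap_apply, ((hfg (f.hom a)).2 ⟨a, rfl⟩), map_zero]
    rfl

/-! ### Biduality -/

variable (A)

/-- The biduality isomorphism `A ≅ A''`, `a ↦ (f ↦ f a)`, for finite-dimensional `A`. -/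
noncomputable def doubleDualTwistIso [FiniteDimensional k A] :
    A ≅ (A.dualTwist χ).dualTwist χ :=
  Rep.mkIso (ρ := A.ρ) (σ := (A.ρ.dual.twist χ).dual.twist χ)
    (Representation.Equiv.mk (Module.evalEquiv k A) fun g => by
      refine LinearMap.ext fun a => LinearMap.ext fun φ => ?_
      change (φ : Module.Dual k A) (A.ρ g a) =
        (χ g : k) * ((χ g⁻¹ : k) * (φ : Module.Dual k A) (A.ρ g⁻¹⁻¹ a))
      rw [inv_inv, ← mul_assoc, ← Units.val_mul, ← map_mul, mul_inv_cancel, map_one,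
        Units.val_one, one_mul])

theorem doubleDualTwistIso_hom_apply [FiniteDimensional k A] (a : A) (φ : A.dualTwist χ) :
    (((doubleDualTwistIso χ A).hom.hom a : (A.dualTwist χ).dualTwist χ) :
      Module.Dual k (Module.Dual k A)) φ = (φ : Module.Dual k A) a := rfl

/-- Under biduality the pairing `A'' × A' → k(χ)` is the flipped pairing `A × A' → k(χ)`. -/
theorem evalPairing_doubleDualTwistIso [FiniteDimensional k A] (a : A) (φ : A.dualTwist χ) :
    evalPairing χ (A.dualTwist χ) ((doubleDualTwistIso χ A).hom.hom a) φ =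
      evalPairing' χ A a φ := rfl

/-! ### Restriction -/

variable {H : Type u} [Group H] (φ : H →* G)

theorem comp_dual_twist (ρ : Representation k G A) :
    (ρ.dual.twist χ).comp φ =
      (Representation.dual (ρ.comp φ : Representation k H A)).twist (χ.comp φ) := by
  refine MonoidHom.ext fun h => LinearMap.ext fun f => LinearMap.ext fun a => ?_
  change (χ (φ h) : k) * f (ρ (φ h)⁻¹ a) = (χ (φ h) : k) * f (ρ (φ h⁻¹) a)
  rw [map_inv φ h]

/-- Restriction commutes with the twisted dual (equality of representations on the same space). -/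
theorem res_dualTwist :
    Rep.res φ (A.dualTwist χ) = (Rep.res φ A).dualTwist (χ.comp φ) :=
  congrArg (fun ρ' : Representation k H (Module.Dual k A) => Rep.of ρ') (comp_dual_twist χ A φ A.ρ)

/-- Restriction commutes with the twisted dual: the identity map as an isomorphism. -/
noncomputable def resDualTwistIso :
    Rep.res φ (A.dualTwist χ) ≅ (Rep.res φ A).dualTwist (χ.comp φ) :=
  Rep.mkIso (ρ := (A.ρ.dual.twist χ).comp φ)
    (σ := (Representation.dual (A.ρ.comp φ : Representation k H A)).twist (χ.comp φ))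
    (Representation.Equiv.mk (LinearEquiv.refl k (Module.Dual k A)) fun h => by
      rw [comp_dual_twist]; rfl)

theorem resDualTwistIso_hom_apply (f : Module.Dual k A) :
    (resDualTwistIso χ A φ).hom.hom f = f := rfl

theorem res_ofChar : Rep.res φ (ofChar χ) = ofChar (χ.comp φ) := rfl

/-! ### Characters -/

variable (ψ : G →* kˣ)

theorem ofChar_one : ofChar (1 : G →* kˣ) = Rep.of (Representation.trivial k G k) :=
  congrArg (fun ρ' : Representation k G k => Rep.of ρ') (Representation.twist_one _)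

/-- If `χ ∘ φ = 1` then the restriction of `k(χ)` along `φ` is the trivial representation. -/
theorem res_ofChar_of_comp_eq_one (h : χ.comp φ = 1) :
    Rep.res φ (ofChar χ) = Rep.of (Representation.trivial k H k) := by
  rw [res_ofChar, h, ofChar_one]

/-- `k(ψ)' ≅ k(χ ψ⁻¹)`, `f ↦ f 1`. -/
noncomputable def ofCharDualTwistIso : (ofChar ψ).dualTwist χ ≅ ofChar (χ * ψ⁻¹) :=
  Rep.mkIso (ρ := ((Representation.trivial k G k).twist ψ).dual.twist χ)
    (σ := (Representation.trivial k G k).twist (χ * ψ⁻¹))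
    (Representation.Equiv.mk (LinearMap.ringLmapEquivSelf k k k) fun g => by
      refine LinearMap.ext fun f => ?_
      change (χ g : k) * f ((ψ g⁻¹ : k) * 1) = ((χ * ψ⁻¹) g : k) * f 1
      rw [← smul_eq_mul (ψ g⁻¹ : k) (1 : k), map_smul, smul_eq_mul, map_inv,
        MonoidHom.mul_apply, MonoidHom.inv_apply, Units.val_mul, mul_assoc])

theorem ofCharDualTwistIso_hom_apply (f : Module.Dual k k) :
    (ofCharDualTwistIso χ ψ).hom.hom f = f 1 := rfl

end Abstract

section Arithmetic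

open ExtCitation IntermediateField

local notation "Qbar" => AlgebraicClosure ℚ
local notation "Γ" => (AlgebraicClosure ℚ ≃ₐ[ℚ] AlgebraicClosure ℚ)

local instance isAlgebraicQbar_BR5 : Algebra.IsAlgebraic ℚ (AlgebraicClosure ℚ) :=
  AlgebraicClosure.isAlgebraic ℚ
local instance isAlgClosureQbar_BR5 : IsAlgClosure ℚ (AlgebraicClosure ℚ) :=
  ⟨inferInstance, inferInstance⟩
local instance normalQbar_BR5 : Normal ℚ (AlgebraicClosure ℚ) :=
  IsAlgClosure.normal ℚ (AlgebraicClosure ℚ)

/-! ### The mod `p` cyclotomic character is the action on `μ_p(ℚ̄)` -/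

section Cyclo

variable (p : ℕ) [Fact p.Prime]

/-- The defining property of the cyclotomic character on `p`-th roots of unity. -/
theorem cycloChar_spec (σ : Γ) {ζ : Qbar} (hζ : ζ ^ p = 1) :
    σ ζ = ζ ^ ((cycloChar p σ : (ZMod p)ˣ) : ZMod p).val := by
  have : NeZero p := ⟨(Fact.out : p.Prime).ne_zero⟩
  have h := modularCyclotomicCharacter.spec Qbar (card_rootsOfUnity_eq_self p)
    (σ : Qbar ≃+* Qbar) (t := (rootsOfUnity.mkOfPowEq ζ hζ : Qbarˣ)) (rootsOfUnity.mkOfPowEq ζ hζ).2
  have h2 : σ ζ = ζ ^ ((modularCyclotomicCharacter Qbar (card_rootsOfUnity_eq_self p)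
      (σ : Qbar ≃+* Qbar) : (ZMod p)ˣ) : ZMod p).val := by simpa using h
  exact h2

theorem exists_primitiveRoot : ∃ ζ : Qbar, IsPrimitiveRoot ζ p := by
  have : NeZero p := ⟨(Fact.out : p.Prime).ne_zero⟩
  exact HasEnoughRootsOfUnity.exists_primitiveRoot Qbar p

theorem cycloChar_eq_one_iff (σ : Γ) {ζ : Qbar} (hζ : IsPrimitiveRoot ζ p) :
    cycloChar p σ = 1 ↔ σ ζ = ζ := by
  have hp1 : 1 < p := (Fact.out : p.Prime).one_lt
  have : Fact (1 < p) := ⟨hp1⟩
  have : NeZero p := ⟨(Fact.out : p.Prime).ne_zero⟩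
  rw [cycloChar_spec p σ hζ.pow_eq_one]
  constructor
  · intro h
    rw [h, Units.val_one, ZMod.val_one, pow_one]
  · intro h
    apply Units.ext
    rw [Units.val_one]
    have h3 : ζ ^ ((cycloChar p σ : (ZMod p)ˣ) : ZMod p).val = ζ ^ 1 := by rw [h, pow_one]
    have h4 := hζ.pow_inj (ZMod.val_lt _) hp1 h3
    rw [← ZMod.natCast_zmod_val ((cycloChar p σ : (ZMod p)ˣ) : ZMod p), h4, Nat.cast_one]

/-- The kernel of the cyclotomic character is `Gal(ℚ̄/ℚ(ζ_p))`. -/
theorem ker_cycloChar {ζ : Qbar} (hζ : IsPrimitiveRoot ζ p) :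
    (cycloChar p).ker = (ℚ⟮ζ⟯).fixingSubgroup := by
  ext σ
  rw [MonoidHom.mem_ker, cycloChar_eq_one_iff p σ hζ,
    Fermat.Agent.S55.GL.KummerUnram.mem_fixingSubgroup_adjoin_simple_iff]

/-- `a ↦ ζ ^ a`, `ZMod p → ℚ̄`. -/
noncomputable def zetaPow (ζ : Qbar) (a : ZMod p) : Qbar := ζ ^ a.val

variable {p}

theorem zetaPow_natCast {ζ : Qbar} (hζ : ζ ^ p = 1) (n : ℕ) : zetaPow p ζ (n : ZMod p) = ζ ^ n := by
  rw [zetaPow, ZMod.val_natCast]
  conv_rhs => rw [← Nat.mod_add_div n p]
  rw [pow_add, pow_mul, hζ, one_pow, mul_one]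

theorem zetaPow_zero (ζ : Qbar) : zetaPow p ζ 0 = 1 := by
  rw [zetaPow, ZMod.val_zero, pow_zero]

theorem zetaPow_one (ζ : Qbar) : zetaPow p ζ 1 = ζ := by
  have : Fact (1 < p) := ⟨(Fact.out : p.Prime).one_lt⟩
  rw [zetaPow, ZMod.val_one, pow_one]

theorem zetaPow_add {ζ : Qbar} (hζ : ζ ^ p = 1) (a b : ZMod p) :
    zetaPow p ζ (a + b) = zetaPow p ζ a * zetaPow p ζ b := by
  have : NeZero p := ⟨(Fact.out : p.Prime).ne_zero⟩
  have h : a + b = ((a.val + b.val : ℕ) : ZMod p) := by
    rw [Nat.cast_add, ZMod.natCast_zmod_val, ZMod.natCast_zmod_val]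
  rw [h, zetaPow_natCast hζ, pow_add]
  rfl

theorem zetaPow_mul {ζ : Qbar} (hζ : ζ ^ p = 1) (a b : ZMod p) :
    zetaPow p ζ (a * b) = zetaPow p ζ b ^ a.val := by
  have : NeZero p := ⟨(Fact.out : p.Prime).ne_zero⟩
  have h : a * b = ((b.val * a.val : ℕ) : ZMod p) := by
    rw [Nat.cast_mul, ZMod.natCast_zmod_val, ZMod.natCast_zmod_val, mul_comm]
  rw [h, zetaPow_natCast hζ, pow_mul]
  rfl

theorem zetaPow_pow_eq_one {ζ : Qbar} (hζ : ζ ^ p = 1) (a : ZMod p) : zetaPow p ζ a ^ p = 1 := by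
  rw [zetaPow, ← pow_mul, mul_comm, pow_mul, hζ, one_pow]

theorem zetaPow_injective {ζ : Qbar} (hζ : IsPrimitiveRoot ζ p) :
    Function.Injective (zetaPow p ζ) := by
  have : NeZero p := ⟨(Fact.out : p.Prime).ne_zero⟩
  intro a b h
  exact ZMod.val_injective p (hζ.pow_inj (ZMod.val_lt a) (ZMod.val_lt b) h)

theorem exists_zetaPow_eq {ζ : Qbar} (hζ : IsPrimitiveRoot ζ p) {ξ : Qbar} (hξ : ξ ^ p = 1) :
    ∃ a : ZMod p, zetaPow p ζ a = ξ := by
  have : NeZero p := ⟨(Fact.out : p.Prime).ne_zero⟩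
  obtain ⟨i, -, hi⟩ := hζ.eq_pow_of_pow_eq_one hξ
  exact ⟨(i : ZMod p), by rw [zetaPow_natCast hζ.pow_eq_one, hi]⟩

/-- `μ_p(ℚ̄) ≅ 𝔽_p(χ_cyc)` as Galois modules: `σ (ζ ^ a) = ζ ^ (χ(σ) a)`. -/
theorem apply_zetaPow {ζ : Qbar} (hζ : ζ ^ p = 1) (σ : Γ) (a : ZMod p) :
    σ (zetaPow p ζ a) = zetaPow p ζ (((cycloChar p σ : (ZMod p)ˣ) : ZMod p) * a) := by
  rw [zetaPow_mul hζ, cycloChar_spec p σ (zetaPow_pow_eq_one hζ a)]

end Cyclo

/-! ### Trivialising fields and the frozen hypotheses `hsm`, `hMur` -/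

section Discrete

variable {p : ℕ} [Fact p.Prime] (M : Rep.{0} (ZMod p) Γ)

/-- The kernel of the action on `M`. -/
noncomputable def actKer : Subgroup Γ := (M.ρ : Γ →* (M →ₗ[ZMod p] M)).ker

theorem mem_actKer {σ : Γ} : σ ∈ actKer M ↔ M.ρ σ = 1 := MonoidHom.mem_ker

instance actKer_normal : (actKer M).Normal := MonoidHom.normal_ker _

variable [FiniteDimensional (ZMod p) M]

/-- From `hsm`: a finite extension of `ℚ` whose absolute Galois group acts trivially on `M`. -/
theorem exists_finiteDimensional_le_actKer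
    (hsm : ∀ m : M, ∃ F : IntermediateField ℚ Qbar, FiniteDimensional ℚ F ∧
      ∀ s ∈ F.fixingSubgroup, M.ρ s m = m) :
    ∃ F : IntermediateField ℚ Qbar, FiniteDimensional ℚ F ∧ F.fixingSubgroup ≤ actKer M := by
  have hp : NeZero p := ⟨(Fact.out : p.Prime).ne_zero⟩
  have hfin : Finite M := Module.finite_of_finite (ZMod p)
  choose F hF hfix using hsm
  have := hF
  refine ⟨⨆ m : M, F m, IntermediateField.finiteDimensional_iSup_of_finite, fun s hs => ?_⟩
  rw [mem_actKer]
  refine LinearMap.ext fun m => ?_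
  exact hfix m s (IntermediateField.fixingSubgroup_antitone (le_iSup F m) hs)

theorem isOpen_actKer
    (hsm : ∀ m : M, ∃ F : IntermediateField ℚ Qbar, FiniteDimensional ℚ F ∧
      ∀ s ∈ F.fixingSubgroup, M.ρ s m = m) : IsOpen (actKer M : Set Γ) := by
  obtain ⟨F, hF, hle⟩ := exists_finiteDimensional_le_actKer M hsm
  exact Subgroup.isOpen_mono hle ((InfiniteGalois.isOpen_iff_finite F).mpr hF)

/-- The trivialising field of `M`: the fixed field of the kernel of the action. -/
noncomputable def trivField : IntermediateField ℚ Qbar := IntermediateField.fixedField (actKer M)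

theorem fixingSubgroup_trivField
    (hsm : ∀ m : M, ∃ F : IntermediateField ℚ Qbar, FiniteDimensional ℚ F ∧
      ∀ s ∈ F.fixingSubgroup, M.ρ s m = m) : (trivField M).fixingSubgroup = actKer M :=
  InfiniteGalois.fixingSubgroup_fixedField
    ⟨actKer M, Subgroup.isClosed_of_isOpen _ (isOpen_actKer M hsm)⟩

theorem finiteDimensional_trivField
    (hsm : ∀ m : M, ∃ F : IntermediateField ℚ Qbar, FiniteDimensional ℚ F ∧
      ∀ s ∈ F.fixingSubgroup, M.ρ s m = m) : FiniteDimensional ℚ (trivField M) :=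
  (InfiniteGalois.isOpen_iff_finite (trivField M)).mp (by
    rw [fixingSubgroup_trivField M hsm]
    exact isOpen_actKer M hsm)

theorem isGalois_trivField
    (hsm : ∀ m : M, ∃ F : IntermediateField ℚ Qbar, FiniteDimensional ℚ F ∧
      ∀ s ∈ F.fixingSubgroup, M.ρ s m = m) : IsGalois ℚ (trivField M) :=
  (InfiniteGalois.normal_iff_isGalois (trivField M)).mp (by
    rw [fixingSubgroup_trivField M hsm]
    infer_instance)

theorem ρ_eq_one_of_mem_fixingSubgroup_trivField
    (hsm : ∀ m : M, ∃ F : IntermediateField ℚ Qbar, FiniteDimensional ℚ F ∧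
      ∀ s ∈ F.fixingSubgroup, M.ρ s m = m) {s : Γ} (hs : s ∈ (trivField M).fixingSubgroup) :
    M.ρ s = 1 := by
  rw [fixingSubgroup_trivField M hsm] at hs
  exact (mem_actKer M).1 hs

variable (S : Finset Nat.Primes)

theorem isUnramifiedOutside_trivField
    (hsm : ∀ m : M, ∃ F : IntermediateField ℚ Qbar, FiniteDimensional ℚ F ∧
      ∀ s ∈ F.fixingSubgroup, M.ρ s m = m)
    (hMur : ∀ q : Nat.Primes, q ∉ S → ∀ A : ValuationSubring Qbar,
      A.LiesOverPrime (q : ℕ) → ∀ g ∈ A.inertiaSubgroupIn ℚ, M.ρ g = 1) :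
    (trivField M).IsUnramifiedOutside S := by
  refine ⟨finiteDimensional_trivField M hsm, fun q hq A hA g hg => ?_⟩
  rw [fixingSubgroup_trivField M hsm]
  exact (mem_actKer M).2 (hMur q hq A hA g hg)

/-- **Trivialising field of `M`**: a finite Galois extension of `ℚ`, unramified outside `S`,
whose absolute Galois group acts trivially on `M`. -/
theorem exists_trivialising_field
    (hsm : ∀ m : M, ∃ F : IntermediateField ℚ Qbar, FiniteDimensional ℚ F ∧
      ∀ s ∈ F.fixingSubgroup, M.ρ s m = m)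
    (hMur : ∀ q : Nat.Primes, q ∉ S → ∀ A : ValuationSubring Qbar,
      A.LiesOverPrime (q : ℕ) → ∀ g ∈ A.inertiaSubgroupIn ℚ, M.ρ g = 1) :
    ∃ F : IntermediateField ℚ Qbar, F.IsUnramifiedOutside S ∧ IsGalois ℚ F ∧
      ∀ s ∈ F.fixingSubgroup, M.ρ s = 1 :=
  ⟨trivField M, isUnramifiedOutside_trivField M S hsm hMur, isGalois_trivField M hsm,
    fun _ hs => ρ_eq_one_of_mem_fixingSubgroup_trivField M hsm hs⟩

end Discrete

/-! ### The twisted dual satisfies the same hypotheses -/

section DualHyp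

variable {p : ℕ} [Fact p.Prime] (M : Rep.{0} (ZMod p) Γ)

/-- The cyclotomic character mod `p` is unramified at every prime `q ≠ p`. -/
theorem cycloChar_eq_one_of_mem_inertiaSubgroupIn {q : Nat.Primes} (hq : (q : ℕ) ≠ p)
    {A : ValuationSubring Qbar} (hA : A.LiesOverPrime (q : ℕ)) {g : Γ}
    (hg : g ∈ A.inertiaSubgroupIn ℚ) : cycloChar p g = 1 := by
  obtain ⟨ζ, hζ⟩ := exists_primitiveRoot p
  have h := Fermat.Agent.S55.GL.KummerUnram.isUnramifiedOutside_adjoin_rootOfUnity
    (S := {pPrime p}) (Fact.out : p.Prime) (Finset.mem_singleton_self _) 1 (ζ := ζ)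
    (by rw [pow_one]; exact hζ.pow_eq_one)
  have hq' : q ∉ ({pPrime p} : Finset Nat.Primes) := by
    rw [Finset.mem_singleton]
    intro h
    exact hq (by rw [h]; rfl)
  have h2 := h.2 q hq' A hA hg
  rwa [← ker_cycloChar p hζ, MonoidHom.mem_ker] at h2

theorem ρ_inv_eq_one {g : Γ} (h : M.ρ g = 1) : M.ρ g⁻¹ = 1 := by
  have h1 : M.ρ g⁻¹ * M.ρ g = 1 := by rw [← map_mul, inv_mul_cancel, map_one]
  rwa [h, mul_one] at h1

theorem dualTwist_ρ_eq_one {g : Γ} (h1 : M.ρ g = 1) (h2 : cycloChar p g = 1) :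
    (M.dualTwist (cycloChar p)).ρ g = 1 := by
  refine LinearMap.ext fun f => ?_
  refine LinearMap.ext (f := ((M.dualTwist (cycloChar p)).ρ g f : Module.Dual (ZMod p) M))
    (g := (f : Module.Dual (ZMod p) M)) fun m => ?_
  rw [dualTwist_ρ_apply_apply, h2, ρ_inv_eq_one M h1, Units.val_one, one_mul,
    Module.End.one_apply]

variable [FiniteDimensional (ZMod p) M]

instance finiteDimensional_dualTwist (χ : Γ →* (ZMod p)ˣ) :
    FiniteDimensional (ZMod p) (M.dualTwist χ) :=
  inferInstanceAs (FiniteDimensional (ZMod p) (Module.Dual (ZMod p) M))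

/-- `hsm` passes to the twisted dual. -/
theorem hsm_dualTwist
    (hsm : ∀ m : M, ∃ F : IntermediateField ℚ Qbar, FiniteDimensional ℚ F ∧
      ∀ s ∈ F.fixingSubgroup, M.ρ s m = m) :
    ∀ m' : M.dualTwist (cycloChar p), ∃ F : IntermediateField ℚ Qbar, FiniteDimensional ℚ F ∧
      ∀ s ∈ F.fixingSubgroup, (M.dualTwist (cycloChar p)).ρ s m' = m' := by
  intro m'
  obtain ⟨ζ, hζ⟩ := exists_primitiveRoot p
  have h1 := finiteDimensional_trivField M hsm
  have h2 : FiniteDimensional ℚ ℚ⟮ζ⟯ :=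
    IntermediateField.adjoin.finiteDimensional (Algebra.IsIntegral.isIntegral ζ)
  refine ⟨trivField M ⊔ ℚ⟮ζ⟯, IntermediateField.finiteDimensional_sup _ _, fun s hs => ?_⟩
  rw [IntermediateField.fixingSubgroup_sup, Subgroup.mem_inf] at hs
  have hs2 : cycloChar p s = 1 := by
    have := hs.2
    rwa [← ker_cycloChar p hζ, MonoidHom.mem_ker] at this
  rw [dualTwist_ρ_eq_one M (ρ_eq_one_of_mem_fixingSubgroup_trivField M hsm hs.1) hs2,
    Module.End.one_apply]

/-- `hMur` passes to the twisted dual (as `p ∈ S`). -/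
theorem hMur_dualTwist (S : Finset Nat.Primes) (hpS : pPrime p ∈ S)
    (hMur : ∀ q : Nat.Primes, q ∉ S → ∀ A : ValuationSubring Qbar,
      A.LiesOverPrime (q : ℕ) → ∀ g ∈ A.inertiaSubgroupIn ℚ, M.ρ g = 1) :
    ∀ q : Nat.Primes, q ∉ S → ∀ A : ValuationSubring Qbar,
      A.LiesOverPrime (q : ℕ) → ∀ g ∈ A.inertiaSubgroupIn ℚ,
        (M.dualTwist (cycloChar p)).ρ g = 1 := by
  intro q hq A hA g hg
  refine dualTwist_ρ_eq_one M (hMur q hq A hA g hg)
    (cycloChar_eq_one_of_mem_inertiaSubgroupIn (p := p) (q := q) ?_ hA hg)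
  intro h
  apply hq
  have : q = pPrime p := Subtype.ext h
  rwa [this]

/-- **Trivialising field of the twisted dual**. -/
theorem exists_trivialising_field_dualTwist (S : Finset Nat.Primes) (hpS : pPrime p ∈ S)
    (hsm : ∀ m : M, ∃ F : IntermediateField ℚ Qbar, FiniteDimensional ℚ F ∧
      ∀ s ∈ F.fixingSubgroup, M.ρ s m = m)
    (hMur : ∀ q : Nat.Primes, q ∉ S → ∀ A : ValuationSubring Qbar,
      A.LiesOverPrime (q : ℕ) → ∀ g ∈ A.inertiaSubgroupIn ℚ, M.ρ g = 1) :
    ∃ F : IntermediateField ℚ Qbar, F.IsUnramifiedOutside S ∧ IsGalois ℚ F ∧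
      ∀ s ∈ F.fixingSubgroup, (M.dualTwist (cycloChar p)).ρ s = 1 :=
  exists_trivialising_field (M.dualTwist (cycloChar p)) S (hsm_dualTwist M hsm)
    (hMur_dualTwist M S hpS hMur)

/-- A common trivialising field for `M` and its twisted dual, containing `ζ_p`. -/
theorem exists_trivialising_field_both (S : Finset Nat.Primes) (hpS : pPrime p ∈ S)
    (hsm : ∀ m : M, ∃ F : IntermediateField ℚ Qbar, FiniteDimensional ℚ F ∧
      ∀ s ∈ F.fixingSubgroup, M.ρ s m = m)
    (hMur : ∀ q : Nat.Primes, q ∉ S → ∀ A : ValuationSubring Qbar,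
      A.LiesOverPrime (q : ℕ) → ∀ g ∈ A.inertiaSubgroupIn ℚ, M.ρ g = 1) :
    ∃ F : IntermediateField ℚ Qbar, F.IsUnramifiedOutside S ∧ IsGalois ℚ F ∧
      (∀ ζ : Qbar, ζ ^ p = 1 → ζ ∈ F) ∧
      (∀ s ∈ F.fixingSubgroup, cycloChar p s = 1) ∧
      (∀ s ∈ F.fixingSubgroup, M.ρ s = 1) ∧
      ∀ s ∈ F.fixingSubgroup, (M.dualTwist (cycloChar p)).ρ s = 1 := by
  obtain ⟨ζ, hζ⟩ := exists_primitiveRoot p
  have hζS : (ℚ⟮ζ⟯).IsUnramifiedOutside S :=
    Fermat.Agent.S55.GL.KummerUnram.isUnramifiedOutside_adjoin_rootOfUnity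
      (Fact.out : p.Prime) hpS 1 (by rw [pow_one]; exact hζ.pow_eq_one)
  obtain ⟨F, hle, hFS, hFG⟩ :=
    Fermat.Agent.S55.GL.KummerUnram.exists_isGalois_isUnramifiedOutside
      ((isUnramifiedOutside_trivField M S hsm hMur).sup hζS)
  have hχ : ∀ s ∈ F.fixingSubgroup, cycloChar p s = 1 := by
    intro s hs
    have h1 : s ∈ (ℚ⟮ζ⟯).fixingSubgroup :=
      IntermediateField.fixingSubgroup_antitone (le_sup_right.trans hle) hs
    rwa [← ker_cycloChar p hζ, MonoidHom.mem_ker] at h1
  have hM : ∀ s ∈ F.fixingSubgroup, M.ρ s = 1 := fun s hs =>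
    ρ_eq_one_of_mem_fixingSubgroup_trivField M hsm
      (IntermediateField.fixingSubgroup_antitone (le_sup_left.trans hle) hs)
  refine ⟨F, hFS, hFG, fun ξ hξ => ?_, hχ, hM, fun s hs => dualTwist_ρ_eq_one M (hM s hs) (hχ s hs)⟩
  obtain ⟨i, -, rfl⟩ := hζ.eq_pow_of_pow_eq_one hξ
  exact pow_mem ((le_sup_right.trans hle) (IntermediateField.mem_adjoin_simple_self ℚ ζ)) i

end DualHyp

end Arithmetic

end Fermat.Agent.S55.DualTwist
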