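/-
Conjugation of decomposition and inertia subgroups of valuation subrings, and stability of
"unramified outside S" under Galois conjugation and normal closure.
-/
import Mathlib
import Fermat.Prelude.Def_GroupCohomology_ContinuousUnramified
import Fermat.Agent.S05.Inertia

set_option autoImplicit false

open scoped Pointwise

namespace Fermat.Agent.S55.InertiaConj

section General

variable {K L : Type*} [Field K] [Field L] [Algebra K L]

theorem mem_smul_iff (A : ValuationSubring L) (τ : L ≃ₐ[K] L) (x : L) :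
    x ∈ τ • A ↔ τ.symm x ∈ A := by
  rw [ValuationSubring.mem_pointwise_smul_iff_inv_smul_mem]
  rfl

theorem mem_nonunits_smul_iff (A : ValuationSubring L) (τ : L ≃ₐ[K] L) (x : L) :
    x ∈ (τ • A).nonunits ↔ τ.symm x ∈ A.nonunits := by
  rw [ValuationSubring.mem_nonunits_iff_or, ValuationSubring.mem_nonunits_iff_or, mem_smul_iff,
    map_inv₀]
  constructor
  · rintro (h | h)
    · left; rw [h, map_zero]
    · right; exact h
  · rintro (h | h)
    · left
      have := congrArg τ h
      simpa using this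
    · right; exact h

theorem liesOverPrime_smul (A : ValuationSubring L) (τ : L ≃ₐ[K] L) {q : ℕ}
    (h : A.LiesOverPrime q) : (τ • A).LiesOverPrime q := by
  unfold ValuationSubring.LiesOverPrime at h ⊢
  rw [mem_nonunits_smul_iff, map_natCast]
  exact h

/-- Membership in the (prelude) inertia subgroup, elementwise. -/
theorem mem_inertiaSubgroupIn_iff (A : ValuationSubring L) (σ : L ≃ₐ[K] L) :
    σ ∈ A.inertiaSubgroupIn K ↔
      σ ∈ A.decompositionSubgroup K ∧ ∀ x ∈ A, σ x - x ∈ A.nonunits := by
  constructor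
  · intro h
    exact ⟨Fermat.Agent.S05.Inertia.mem_decompositionSubgroup_of_mem_inertiaSubgroupIn A h,
      fun x hx => Fermat.Agent.S05.Inertia.apply_sub_mem_nonunits_of_mem_inertiaSubgroupIn A h hx⟩
  · rintro ⟨hσ, hin⟩
    refine ⟨⟨σ, hσ⟩, ?_, rfl⟩
    change (⟨σ, hσ⟩ : A.decompositionSubgroup K) ∈
      (MulSemiringAction.toRingAut (A.decompositionSubgroup K) (IsLocalRing.ResidueField A)).ker
    rw [MonoidHom.mem_ker]
    ext x
    change (⟨σ, hσ⟩ : A.decompositionSubgroup K) • x = x
    obtain ⟨a, rfl⟩ := IsLocalRing.residue_surjective x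
    rw [← IsLocalRing.ResidueField.residue_smul, ← sub_eq_zero, ← map_sub,
      IsLocalRing.residue_eq_zero_iff, ← ValuationSubring.coe_mem_nonunits_iff]
    exact hin a a.2

theorem conj_mem_decompositionSubgroup (A : ValuationSubring L) (τ σ : L ≃ₐ[K] L)
    (hσ : σ ∈ A.decompositionSubgroup K) : τ * σ * τ⁻¹ ∈ (τ • A).decompositionSubgroup K := by
  have h : σ • A = A := MulAction.mem_stabilizer_iff.mp hσ
  refine MulAction.mem_stabilizer_iff.mpr ?_
  rw [mul_smul, mul_smul, inv_smul_smul, h]

/-- Conjugating an inertia element of `A` by `τ` gives an inertia element of `τ • A`. -/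
theorem conj_mem_inertiaSubgroupIn (A : ValuationSubring L) (τ σ : L ≃ₐ[K] L)
    (hσ : σ ∈ A.inertiaSubgroupIn K) : τ * σ * τ⁻¹ ∈ (τ • A).inertiaSubgroupIn K := by
  rw [mem_inertiaSubgroupIn_iff] at hσ ⊢
  refine ⟨conj_mem_decompositionSubgroup A τ σ hσ.1, fun x hx => ?_⟩
  rw [mem_smul_iff] at hx
  rw [mem_nonunits_smul_iff]
  have h := hσ.2 _ hx
  have e : τ.symm ((τ * σ * τ⁻¹) x - x) = σ (τ.symm x) - τ.symm x := by
    rw [map_sub]
    congr 1
    change τ.symm (τ (σ (τ.symm x))) = _
    exact τ.symm_apply_apply _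
  rw [e]
  exact h

end General

section Unramified

local notation "Qbar" => AlgebraicClosure ℚ
local notation "Γ" => (AlgebraicClosure ℚ ≃ₐ[ℚ] AlgebraicClosure ℚ)

instance normalQbar : Normal ℚ Qbar :=
  haveI : IsAlgClosure ℚ Qbar := ⟨inferInstance, AlgebraicClosure.isAlgebraic ℚ⟩
  IsAlgClosure.normal ℚ Qbar

/-- "Unramified outside `S`" is stable under Galois conjugation. -/
theorem isUnramifiedOutside_map {S : Finset Nat.Primes} {F : IntermediateField ℚ Qbar}
    (hF : F.IsUnramifiedOutside S) (τ : Γ) :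
    (F.map (τ : Qbar →ₐ[ℚ] Qbar)).IsUnramifiedOutside S := by
  have := hF.1
  refine ⟨?_, fun q hq A hA σ hσ => ?_⟩
  · exact LinearEquiv.finiteDimensional (F.equivMap (τ : Qbar →ₐ[ℚ] Qbar)).toLinearEquiv
  · rw [IsGalois.map_fixingSubgroup, Subgroup.mem_pointwise_smul_iff_inv_smul_mem]
    have h1 := conj_mem_inertiaSubgroupIn A τ⁻¹ σ hσ
    have h2 := hF.2 q hq (τ⁻¹ • A) (liesOverPrime_smul A τ⁻¹ hA) h1
    simpa [MulAut.smul_def, mul_assoc] using h2

/-- The normal closure of a field unramified outside `S` is unramified outside `S`. -/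
theorem isUnramifiedOutside_normalClosure {S : Finset Nat.Primes}
    {F : IntermediateField ℚ Qbar} (hF : F.IsUnramifiedOutside S) :
    (IntermediateField.normalClosure ℚ F Qbar).IsUnramifiedOutside S := by
  have := hF.1
  refine ⟨inferInstance, fun q hq A hA σ hσ => ?_⟩
  have hdef := IntermediateField.normalClosure_def'' (F := ℚ) (L := Qbar) F
  rw [IntermediateField.mem_fixingSubgroup_iff]
  intro x hx
  have hx' := (le_of_eq hdef) hx
  -- the elements fixed by σ form an intermediate field containing every conjugate of F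
  have hle : (⨆ f : Γ, F.map (f : Qbar →ₐ[ℚ] Qbar)) ≤
      IntermediateField.fixedField (Subgroup.zpowers σ) := by
    refine iSup_le fun f => ?_
    rw [IntermediateField.le_iff_le]
    rw [Subgroup.zpowers_le]
    exact (isUnramifiedOutside_map hF f).2 q hq A hA hσ
  have := hle hx'
  exact this ⟨σ, Subgroup.mem_zpowers σ⟩

end Unramified

end Fermat.Agent.S55.InertiaConj
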