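/-
Element-level tools for the homology of cochain complexes of modules indexed by `ℕ`:
cocycle / coboundary submodules, the class map, a criterion for vanishing of classes, and
lifting of bilinear pairings of complexes satisfying a Leibniz rule to homology.
Mathlib only.  Namespace `Fermat.Agent.S55.CochainTools`.
-/
import Mathlib

set_option autoImplicit false

namespace Fermat.Agent.S55.CochainTools

open CategoryTheory

universe v u

variable {k : Type u} [CommRing k] (K : CochainComplex (ModuleCat.{v} k) ℕ)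

/-- The `n`-cocycles of a cochain complex of modules, as a submodule of the `n`-cochains. -/
def Z (n : ℕ) : Submodule k (K.X n) := LinearMap.ker (K.d n (n + 1)).hom

theorem mem_Z_iff {n : ℕ} (x : K.X n) : x ∈ Z K n ↔ (K.d n (n + 1)).hom x = 0 := Iff.rfl

/-- The `n`-coboundaries, as a submodule of the `n`-cocycles. -/
noncomputable def B (n : ℕ) : Submodule k (Z K n) :=
  LinearMap.range (K.sc' ((ComplexShape.up ℕ).prev n) n (n + 1)).moduleCatToCycles

theorem mem_B_iff {n : ℕ} (z : Z K n) :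
    z ∈ B K n ↔ ∃ x : K.X ((ComplexShape.up ℕ).prev n),
      (K.d ((ComplexShape.up ℕ).prev n) n).hom x = z := by
  constructor
  · rintro ⟨x, rfl⟩
    exact ⟨x, rfl⟩
  · rintro ⟨x, hx⟩
    exact ⟨x, Subtype.ext hx⟩

theorem mem_B_succ_iff {n : ℕ} (z : Z K (n + 1)) :
    z ∈ B K (n + 1) ↔ ∃ x : K.X n, (K.d n (n + 1)).hom x = z := by
  rw [mem_B_iff]
  have h : (ComplexShape.up ℕ).prev (n + 1) = n := CochainComplex.prev_nat_succ n
  constructor
  · rintro ⟨x, hx⟩
    refine ⟨(K.XIsoOfEq h).hom.hom x, ?_⟩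
    rw [← hx]
    have := K.XIsoOfEq_hom_comp_d h (n + 1)
    exact congrArg (fun f => f.hom x) this
  · rintro ⟨x, hx⟩
    refine ⟨(K.XIsoOfEq h).inv.hom x, ?_⟩
    rw [← hx]
    have := K.XIsoOfEq_inv_comp_d h (n + 1)
    exact congrArg (fun f => f.hom x) this

theorem mem_B_zero_iff (z : Z K 0) : z ∈ B K 0 ↔ z = 0 := by
  rw [mem_B_iff]
  have h : (ComplexShape.up ℕ).prev 0 = 0 := CochainComplex.prev_nat_zero
  have hd : K.d ((ComplexShape.up ℕ).prev 0) 0 = 0 := by
    apply K.shape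
    rw [h]
    simp
  constructor
  · rintro ⟨x, hx⟩
    apply Subtype.ext
    rw [← hx, hd]
    rfl
  · rintro rfl
    exact ⟨0, by simp⟩

/-- The explicit description of the homology as cocycles modulo coboundaries. -/
noncomputable def homologyEquiv (n : ℕ) : K.homology n ≃ₗ[k] (Z K n ⧸ B K n) :=
  ((K.homologyIsoSc' ((ComplexShape.up ℕ).prev n) n (n + 1) rfl (CochainComplex.next ℕ n)) ≪≫
    (K.sc' ((ComplexShape.up ℕ).prev n) n (n + 1)).moduleCatHomologyIso).toLinearEquiv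

/-- The class of a cocycle in homology. -/
noncomputable def cls (n : ℕ) : Z K n →ₗ[k] K.homology n :=
  (homologyEquiv K n).symm.toLinearMap ∘ₗ (B K n).mkQ

theorem cls_surjective (n : ℕ) : Function.Surjective (cls K n) :=
  (homologyEquiv K n).symm.surjective.comp (Submodule.mkQ_surjective _)

theorem cls_eq_zero_iff {n : ℕ} (z : Z K n) : cls K n z = 0 ↔ z ∈ B K n := by
  simp only [cls, LinearMap.coe_comp, Function.comp_apply, LinearEquiv.coe_coe,
    LinearEquiv.map_eq_zero_iff, Submodule.mkQ_apply, Submodule.Quotient.mk_eq_zero]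

theorem cls_eq_cls_iff {n : ℕ} (z z' : Z K n) : cls K n z = cls K n z' ↔ z - z' ∈ B K n := by
  rw [← sub_eq_zero, ← map_sub, cls_eq_zero_iff]

theorem homologyEquiv_cls {n : ℕ} (z : Z K n) :
    homologyEquiv K n (cls K n z) = Submodule.Quotient.mk z := by
  simp [cls]

/-- The abstract cycles object of the homology API identified with the cocycle submodule. -/
noncomputable def cyclesEquiv (n : ℕ) : K.cycles n ≃ₗ[k] Z K n :=
  ((K.cyclesIsoSc' ((ComplexShape.up ℕ).prev n) n (n + 1) rfl (CochainComplex.next ℕ n)) ≪≫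
    (K.sc' ((ComplexShape.up ℕ).prev n) n (n + 1)).moduleCatCyclesIso).toLinearEquiv

theorem coe_cyclesEquiv {n : ℕ} (c : K.cycles n) :
    ((cyclesEquiv K n c : Z K n) : K.X n) = (K.iCycles n).hom c := by
  have h1 := (K.sc' ((ComplexShape.up ℕ).prev n) n (n + 1)).moduleCatCyclesIso_hom_i
  have h2 := K.cyclesIsoSc'_hom_iCycles ((ComplexShape.up ℕ).prev n) n (n + 1) rfl
    (CochainComplex.next ℕ n)
  rw [← h2, ← h1]
  rfl

theorem cls_cyclesEquiv {n : ℕ} (c : K.cycles n) :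
    cls K n (cyclesEquiv K n c) = (K.homologyπ n).hom c := by
  apply (homologyEquiv K n).injective
  rw [homologyEquiv_cls]
  have h1 := (K.sc' ((ComplexShape.up ℕ).prev n) n (n + 1)).π_moduleCatCyclesIso_hom
  have h2 := K.π_homologyIsoSc'_hom ((ComplexShape.up ℕ).prev n) n (n + 1) rfl
    (CochainComplex.next ℕ n)
  have h3 : (K.homologyπ n ≫ (K.homologyIsoSc' ((ComplexShape.up ℕ).prev n) n (n + 1) rfl
      (CochainComplex.next ℕ n)).hom) ≫
      (K.sc' ((ComplexShape.up ℕ).prev n) n (n + 1)).moduleCatHomologyIso.hom =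
      ((K.cyclesIsoSc' ((ComplexShape.up ℕ).prev n) n (n + 1) rfl (CochainComplex.next ℕ n)).hom ≫
        (K.sc' ((ComplexShape.up ℕ).prev n) n (n + 1)).moduleCatCyclesIso.hom) ≫
      (K.sc' ((ComplexShape.up ℕ).prev n) n (n + 1)).moduleCatLeftHomologyData.π := by
    rw [h2, Category.assoc, h1, Category.assoc]
  exact (congrArg (fun f => f.hom c) h3).symm

theorem homologyπ_cyclesEquiv_symm {n : ℕ} (z : Z K n) :
    (K.homologyπ n).hom ((cyclesEquiv K n).symm z) = cls K n z := by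
  rw [← cls_cyclesEquiv, LinearEquiv.apply_symm_apply]

theorem iCycles_cyclesEquiv_symm {n : ℕ} (z : Z K n) :
    (K.iCycles n).hom ((cyclesEquiv K n).symm z) = z := by
  rw [← coe_cyclesEquiv, LinearEquiv.apply_symm_apply]

section Functoriality

variable {K} {L : CochainComplex (ModuleCat.{v} k) ℕ} (φ : K ⟶ L)

theorem map_mem_Z {n : ℕ} {x : K.X n} (hx : x ∈ Z K n) : (φ.f n).hom x ∈ Z L n := by
  rw [mem_Z_iff] at hx ⊢
  have := congrArg (fun f => f.hom x) (φ.comm n (n + 1))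
  simp only [ModuleCat.hom_comp, LinearMap.comp_apply] at this
  rw [this, hx, map_zero]

/-- The map induced on cocycles by a morphism of complexes. -/
def mapZ (n : ℕ) : Z K n →ₗ[k] Z L n :=
  ((φ.f n).hom.restrict fun _ hx => map_mem_Z φ hx)

@[simp] theorem coe_mapZ {n : ℕ} (z : Z K n) : (mapZ φ n z : L.X n) = (φ.f n).hom z := rfl

theorem homologyMap_cls {n : ℕ} (z : Z K n) :
    (HomologicalComplex.homologyMap φ n).hom (cls K n z) = cls L n (mapZ φ n z) := by
  obtain ⟨c, rfl⟩ := (cyclesEquiv K n).surjective z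
  rw [cls_cyclesEquiv]
  have h1 := congrArg (fun f => f.hom c) (HomologicalComplex.homologyπ_naturality φ n)
  simp only [ModuleCat.hom_comp, LinearMap.comp_apply] at h1
  rw [h1, ← cls_cyclesEquiv]
  congr 1
  apply Subtype.ext
  rw [coe_cyclesEquiv, coe_mapZ, coe_cyclesEquiv]
  have h2 := congrArg (fun f => f.hom c) (HomologicalComplex.cyclesMap_i φ n)
  simpa only [ModuleCat.hom_comp, LinearMap.comp_apply] using h2

end Functoriality

section Lift

variable {K}

/-- Linear maps out of homology from linear maps on cocycles killing coboundaries. -/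
noncomputable def liftH {P : Type*} [AddCommGroup P] [Module k P] (n : ℕ) (f : Z K n →ₗ[k] P)
    (hf : ∀ z ∈ B K n, f z = 0) : K.homology n →ₗ[k] P :=
  ((B K n).liftQ f fun z hz => hf z hz) ∘ₗ (homologyEquiv K n).toLinearMap

@[simp] theorem liftH_cls {P : Type*} [AddCommGroup P] [Module k P] (n : ℕ) (f : Z K n →ₗ[k] P)
    (hf : ∀ z ∈ B K n, f z = 0) (z : Z K n) : liftH n f hf (cls K n z) = f z := by
  simp only [liftH, LinearMap.coe_comp, LinearEquiv.coe_coe, Function.comp_apply,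
    homologyEquiv_cls]
  exact Submodule.liftQ_apply _ _ _

variable {L M : CochainComplex (ModuleCat.{v} k) ℕ}

/-- Bilinear maps on homology from bilinear maps on cocycles killing coboundaries in
each variable. -/
noncomputable def liftH₂ {P : Type*} [AddCommGroup P] [Module k P] (m n : ℕ)
    (f : Z K m →ₗ[k] Z L n →ₗ[k] P)
    (h1 : ∀ a ∈ B K m, ∀ b, f a b = 0) (h2 : ∀ a, ∀ b ∈ B L n, f a b = 0) :
    K.homology m →ₗ[k] L.homology n →ₗ[k] P :=
  ((f.liftQ₂ (B K m) (B L n) (fun a ha => LinearMap.ext fun b => h1 a ha b)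
      (fun b hb => LinearMap.ext fun a => h2 a b hb)).compl₂
        (homologyEquiv L n).toLinearMap) ∘ₗ (homologyEquiv K m).toLinearMap

@[simp] theorem liftH₂_cls {P : Type*} [AddCommGroup P] [Module k P] (m n : ℕ)
    (f : Z K m →ₗ[k] Z L n →ₗ[k] P)
    (h1 : ∀ a ∈ B K m, ∀ b, f a b = 0) (h2 : ∀ a, ∀ b ∈ B L n, f a b = 0)
    (a : Z K m) (b : Z L n) : liftH₂ m n f h1 h2 (cls K m a) (cls L n b) = f a b := by
  simp only [liftH₂, LinearMap.coe_comp, LinearEquiv.coe_coe, Function.comp_apply,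
    LinearMap.compl₂_apply, homologyEquiv_cls]
  exact LinearMap.liftQ₂_mk _ _ _ _

end Lift

section MemB

theorem mem_B_of_d_eq {i n : ℕ} (h : i + 1 = n) (x : K.X i) (z : Z K n)
    (hx : (K.d i n).hom x = z) : z ∈ B K n := by
  subst h
  exact (mem_B_succ_iff K z).2 ⟨x, hx⟩

theorem exists_of_mem_B {i n : ℕ} (h : i + 1 = n) (z : Z K n) (hz : z ∈ B K n) :
    ∃ x : K.X i, (K.d i n).hom x = z := by
  subst h
  exact (mem_B_succ_iff K z).1 hz

theorem eq_zero_of_mem_B_zero (z : Z K 0) (hz : z ∈ B K 0) : z = 0 :=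
  (mem_B_zero_iff K z).1 hz

end MemB

section PairingH

variable {K} {L M : CochainComplex (ModuleCat.{v} k) ℕ}

/-- The restriction of a bilinear map on cochains to cocycles, with values in cocycles. -/
def restrictZ {m n p : ℕ} (μ : K.X m →ₗ[k] L.X n →ₗ[k] M.X p)
    (hZ : ∀ a ∈ Z K m, ∀ b ∈ Z L n, μ a b ∈ Z M p) : Z K m →ₗ[k] Z L n →ₗ[k] Z M p :=
  LinearMap.mk₂ k (fun a b => ⟨μ a b, hZ a a.2 b b.2⟩)
    (fun a a' b => Subtype.ext (by simp))
    (fun c a b => Subtype.ext (by simp))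
    (fun a b b' => Subtype.ext (by simp))
    (fun c a b => Subtype.ext (by simp))

@[simp] theorem coe_restrictZ {m n p : ℕ} (μ : K.X m →ₗ[k] L.X n →ₗ[k] M.X p)
    (hZ : ∀ a ∈ Z K m, ∀ b ∈ Z L n, μ a b ∈ Z M p) (a : Z K m) (b : Z L n) :
    (restrictZ μ hZ a b : M.X p) = μ a b := rfl

/-- The bilinear map induced on homology by a bilinear map on cochains which maps
cocycles × cocycles to cocycles, coboundaries × cocycles and cocycles × coboundaries to
coboundaries. -/
noncomputable def pairH {m n p : ℕ} (μ : K.X m →ₗ[k] L.X n →ₗ[k] M.X p)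
    (hZ : ∀ a ∈ Z K m, ∀ b ∈ Z L n, μ a b ∈ Z M p)
    (hB1 : ∀ a ∈ B K m, ∀ b : Z L n, restrictZ μ hZ a b ∈ B M p)
    (hB2 : ∀ a : Z K m, ∀ b ∈ B L n, restrictZ μ hZ a b ∈ B M p) :
    K.homology m →ₗ[k] L.homology n →ₗ[k] M.homology p :=
  liftH₂ m n ((restrictZ μ hZ).compr₂ (cls M p))
    (fun a ha b => by
      rw [LinearMap.compr₂_apply, cls_eq_zero_iff]
      exact hB1 a ha b)
    (fun a b hb => by
      rw [LinearMap.compr₂_apply, cls_eq_zero_iff]
      exact hB2 a b hb)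

theorem pairH_cls {m n p : ℕ} (μ : K.X m →ₗ[k] L.X n →ₗ[k] M.X p)
    (hZ : ∀ a ∈ Z K m, ∀ b ∈ Z L n, μ a b ∈ Z M p)
    (hB1 : ∀ a ∈ B K m, ∀ b : Z L n, restrictZ μ hZ a b ∈ B M p)
    (hB2 : ∀ a : Z K m, ∀ b ∈ B L n, restrictZ μ hZ a b ∈ B M p) (a : Z K m) (b : Z L n) :
    pairH μ hZ hB1 hB2 (cls K m a) (cls L n b) = cls M p (restrictZ μ hZ a b) := by
  rw [pairH, liftH₂_cls]
  rfl

end PairingH

section CyclesMk

/-- The class of a cocycle built with Mathlib's `cyclesMk` is `cls`. -/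
theorem homologyπ_cyclesMk {n : ℕ} (x : K.X n) (j : ℕ) (hj : (ComplexShape.up ℕ).next n = j)
    (hx : (K.d n j).hom x = 0) (hx' : x ∈ Z K n) :
    (K.homologyπ n).hom (K.cyclesMk x j hj hx) = cls K n ⟨x, hx'⟩ := by
  rw [← cls_cyclesEquiv]
  congr 1
  apply Subtype.ext
  rw [coe_cyclesEquiv]
  exact K.i_cyclesMk x j hj hx

end CyclesMk

section Delta

open ShortComplex

/-- The connecting homomorphism of a short exact sequence of cochain complexes of modules in
terms of `cls`. -/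
theorem δ_cls {S : ShortComplex (CochainComplex (ModuleCat.{v} k) ℕ)} (hS : S.ShortExact)
    (i : ℕ) (x₃ : Z S.X₃ i) (x₂ : S.X₂.X i) (hx₂ : (S.g.f i).hom x₂ = x₃.1)
    (x₁ : S.X₁.X (i + 1)) (hx₁ : (S.f.f (i + 1)).hom x₁ = (S.X₂.d i (i + 1)).hom x₂) :
    ∃ h : x₁ ∈ Z S.X₁ (i + 1),
      (hS.δ i (i + 1) rfl).hom (cls S.X₃ i x₃) = cls S.X₁ (i + 1) ⟨x₁, h⟩ := by
  have h1 : x₁ ∈ Z S.X₁ (i + 1) :=
    hS.d_eq_zero_of_f_eq_d_apply i (i + 1) x₂ x₁ hx₁ (i + 1 + 1)
  refine ⟨h1, ?_⟩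
  have key := hS.δ_apply i (i + 1) rfl x₃.1 x₃.2 x₂ hx₂ x₁ hx₁ (i + 1 + 1) (by simp)
  rw [← homologyπ_cyclesMk S.X₃ x₃.1 (i + 1) (by simp) x₃.2 x₃.2,
    ← homologyπ_cyclesMk S.X₁ x₁ (i + 1 + 1) (by simp) h1 h1]
  exact key

end Delta

end Fermat.Agent.S55.CochainTools
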