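/-
S55 foundation: cohomology of a group relative to a directed family of normal subgroups of
finite index ("level cohomology").  For `G = Gal(Q̄/ℚ)` and the family of `Gal(Q̄/F)`, `F` finite
normal unramified outside `S`, this is the cohomology of `G_S`; for a local Galois group mapped to
`G_ℚ` it is the usual local Galois cohomology.  Everything is a SUBCOMPLEX of Mathlib's complex of
inhomogeneous cochains, so no topology is involved.
-/
import Mathlib

set_option autoImplicit false

open CategoryTheory

namespace Fermat.Agent.S55.Level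

universe u

/-- A level structure on a group: a nonempty downward-directed family of normal subgroups of
finite index. -/
structure LevelStructure (G : Type u) [Group G] where
  /-- the family of "open normal subgroups" -/
  sets : Set (Subgroup G)
  nonempty : sets.Nonempty
  normal : ∀ U ∈ sets, U.Normal
  finiteIndex : ∀ U ∈ sets, U.FiniteIndex
  directed : ∀ U ∈ sets, ∀ V ∈ sets, ∃ W ∈ sets, W ≤ U ⊓ V

section Basic

variable {G : Type u} [Group G]

/-- `f` is invariant under right multiplication by elements of `U` in each variable. -/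
def IsRightInv (U : Subgroup G) {n : ℕ} {X : Type*} (f : (Fin n → G) → X) : Prop :=
  ∀ g s : Fin n → G, (∀ i, s i ∈ U) → f (g * s) = f g

lemma IsRightInv.mono {U W : Subgroup G} (h : W ≤ U) {n : ℕ} {X : Type*}
    {f : (Fin n → G) → X} (hf : IsRightInv U f) : IsRightInv W f :=
  fun g s hs => hf g s fun i => h (hs i)

lemma IsRightInv.comp {U : Subgroup G} {n : ℕ} {X Y : Type*} {f : (Fin n → G) → X}
    (hf : IsRightInv U f) (φ : X → Y) : IsRightInv U (φ ∘ f) :=
  fun g s hs => by simp only [Function.comp_apply, hf g s hs]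

lemma isRightInv_const (U : Subgroup G) {n : ℕ} {X : Type*} (x : X) :
    IsRightInv U (fun _ : Fin n → G => x) := fun _ _ _ => rfl

lemma IsRightInv.map₂ {U : Subgroup G} {n : ℕ} {X Y Z : Type*} {f : (Fin n → G) → X}
    {f' : (Fin n → G) → Y} (hf : IsRightInv U f) (hf' : IsRightInv U f') (φ : X → Y → Z) :
    IsRightInv U (fun g => φ (f g) (f' g)) :=
  fun g s hs => by simp only [hf g s hs, hf' g s hs]

/-- A right-`U`-invariant function with `U` of finite index has finitely many values. -/
lemma IsRightInv.finite_range {U : Subgroup G} [U.FiniteIndex] {n : ℕ} {X : Type*}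
    {f : (Fin n → G) → X} (hf : IsRightInv U f) : (Set.range f).Finite := by
  let f' : (Fin n → G ⧸ U) → X := fun q => f fun i => (q i).out
  have hff' : ∀ g, f g = f' fun i => (QuotientGroup.mk (g i) : G ⧸ U) := by
    intro g
    choose h hh using fun i => QuotientGroup.mk_out_eq_mul U (g i)
    have : (fun i => ((QuotientGroup.mk (g i) : G ⧸ U)).out) = g * fun i => (h i : G) := by
      funext i; simp only [Pi.mul_apply]; exact hh i
    simp only [f', this]
    exact (hf g _ fun i => (h i).2).symm
  refine (Set.finite_range f').subset ?_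
  rintro _ ⟨g, rfl⟩
  exact ⟨_, (hff' g).symm⟩

variable (𝒰 : LevelStructure G)

/-- `f` is of finite level with respect to `𝒰`. -/
def IsLevel {n : ℕ} {X : Type*} (f : (Fin n → G) → X) : Prop :=
  ∃ U ∈ 𝒰.sets, IsRightInv U f

variable {𝒰}

lemma IsLevel.comp {n : ℕ} {X Y : Type*} {f : (Fin n → G) → X} (hf : IsLevel 𝒰 f) (φ : X → Y) :
    IsLevel 𝒰 (φ ∘ f) := by
  obtain ⟨U, hU, h⟩ := hf
  exact ⟨U, hU, h.comp φ⟩

lemma IsLevel.map₂ {n : ℕ} {X Y Z : Type*} {f : (Fin n → G) → X} {f' : (Fin n → G) → Y}
    (hf : IsLevel 𝒰 f) (hf' : IsLevel 𝒰 f') (φ : X → Y → Z) :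
    IsLevel 𝒰 (fun g => φ (f g) (f' g)) := by
  obtain ⟨U, hU, h⟩ := hf
  obtain ⟨U', hU', h'⟩ := hf'
  obtain ⟨W, hW, hWU⟩ := 𝒰.directed U hU U' hU'
  exact ⟨W, hW, (h.mono (hWU.trans inf_le_left)).map₂ (h'.mono (hWU.trans inf_le_right)) φ⟩

lemma IsLevel.add {n : ℕ} {X : Type*} [Add X] {f f' : (Fin n → G) → X}
    (hf : IsLevel 𝒰 f) (hf' : IsLevel 𝒰 f') : IsLevel 𝒰 (f + f') :=
  hf.map₂ hf' (· + ·)

variable (𝒰) in
lemma isLevel_const {n : ℕ} {X : Type*} (x : X) : IsLevel 𝒰 (fun _ : Fin n → G => x) := by
  obtain ⟨U, hU⟩ := 𝒰.nonempty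
  exact ⟨U, hU, isRightInv_const U x⟩

lemma IsLevel.finite_range {n : ℕ} {X : Type*} {f : (Fin n → G) → X} (hf : IsLevel 𝒰 f) :
    (Set.range f).Finite := by
  obtain ⟨U, hU, h⟩ := hf
  have := 𝒰.finiteIndex U hU
  exact h.finite_range

end Basic

section Cochains

variable {k G : Type u} [CommRing k] [Group G] (𝒰 : LevelStructure G) (A : Rep.{u} k G)

/-- The level cochains: those inhomogeneous cochains that are of finite level. -/
def levelCochains (n : ℕ) : Submodule k ((Fin n → G) → A) where
  carrier := {f | IsLevel 𝒰 f}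
  add_mem' hf hf' := hf.add hf'
  zero_mem' := isLevel_const 𝒰 (0 : A)
  smul_mem' c _ hf := hf.comp (c • ·)

lemma mem_levelCochains_iff {n : ℕ} (f : (Fin n → G) → A) :
    f ∈ levelCochains 𝒰 A n ↔ IsLevel 𝒰 f := Iff.rfl

/-- A representation is discrete for the level structure if every vector is fixed by some
member of the family. -/
class IsDiscrete : Prop where
  exists_fix : ∀ a : A, ∃ U ∈ 𝒰.sets, ∀ u ∈ U, A.ρ u a = a

variable {𝒰 A}

/-- A finite set of vectors of a discrete representation is fixed by a common member. -/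
lemma exists_fix_finset [IsDiscrete 𝒰 A] (s : Finset A) :
    ∃ U ∈ 𝒰.sets, ∀ a ∈ s, ∀ u ∈ U, A.ρ u a = a := by
  classical
  induction s using Finset.induction_on with
  | empty =>
    obtain ⟨U, hU⟩ := 𝒰.nonempty
    exact ⟨U, hU, fun a ha => absurd ha (Finset.notMem_empty a)⟩
  | insert a s _ ih =>
    obtain ⟨U, hU, h⟩ := ih
    obtain ⟨V, hV, h'⟩ := IsDiscrete.exists_fix (𝒰 := 𝒰) a
    obtain ⟨W, hW, hWUV⟩ := 𝒰.directed U hU V hV
    refine ⟨W, hW, fun b hb u hu => ?_⟩
    rcases Finset.mem_insert.1 hb with rfl | hb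
    · exact h' u ((hWUV.trans inf_le_right) hu)
    · exact h b hb u ((hWUV.trans inf_le_left) hu)

/-- For a level cochain with values in a discrete representation there is a member of the family
under which the cochain is right invariant and which fixes all its values. -/
lemma IsLevel.exists_fix [IsDiscrete 𝒰 A] {n : ℕ} {f : (Fin n → G) → A} (hf : IsLevel 𝒰 f) :
    ∃ W ∈ 𝒰.sets, IsRightInv W f ∧ ∀ g, ∀ u ∈ W, A.ρ u (f g) = f g := by
  obtain ⟨U, hU, h⟩ := hf
  obtain ⟨V, hV, hfix⟩ := exists_fix_finset (𝒰 := 𝒰) (A := A)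
    (IsLevel.finite_range ⟨U, hU, h⟩).toFinset
  obtain ⟨W, hW, hWUV⟩ := 𝒰.directed U hU V hV
  refine ⟨W, hW, h.mono (hWUV.trans inf_le_left), fun g u hu => ?_⟩
  exact hfix (f g) ((Set.Finite.mem_toFinset _).2 ⟨g, rfl⟩) u ((hWUV.trans inf_le_right) hu)

/-- Contraction of a product `g * s` with `s` in a normal subgroup `W` is the contraction of `g`
times something in `W`. -/
lemma contractNth_mul_mem {W : Subgroup G} [W.Normal] {n : ℕ} (j : Fin (n + 1))
    (g s : Fin (n + 1) → G) (hs : ∀ i, s i ∈ W) :
    ∃ s' : Fin n → G, (∀ i, s' i ∈ W) ∧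
      Fin.contractNth j (· * ·) (g * s) = Fin.contractNth j (· * ·) g * s' := by
  refine ⟨fun i => (Fin.contractNth j (· * ·) g i)⁻¹ * Fin.contractNth j (· * ·) (g * s) i,
    fun i => ?_, ?_⟩
  · simp only [Fin.contractNth, Pi.mul_apply]
    split_ifs with h1 h2
    · simpa using hs _
    · have : (g (Fin.castSucc i) * g i.succ)⁻¹ *
          (g (Fin.castSucc i) * s (Fin.castSucc i) * (g i.succ * s i.succ)) =
          ((g i.succ)⁻¹ * s (Fin.castSucc i) * ((g i.succ)⁻¹)⁻¹) * s i.succ := by group
      rw [this]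
      exact W.mul_mem (Subgroup.Normal.conj_mem inferInstance _ (hs _) _) (hs _)
    · simpa using hs _
  · funext i
    simp only [Pi.mul_apply, mul_inv_cancel_left]

/-- The differential of Mathlib's inhomogeneous cochain complex preserves level cochains with
values in a discrete representation. -/
theorem d_mem_levelCochains [IsDiscrete 𝒰 A] {n : ℕ} {f : (Fin n → G) → A}
    (hf : f ∈ levelCochains 𝒰 A n) :
    (inhomogeneousCochains.d A n).hom f ∈ levelCochains 𝒰 A (n + 1) := by
  obtain ⟨W, hW, hinv, hfix⟩ := IsLevel.exists_fix (𝒰 := 𝒰) hf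
  have := 𝒰.normal W hW
  refine ⟨W, hW, fun g s hs => ?_⟩
  rw [inhomogeneousCochains.d_hom_apply, inhomogeneousCochains.d_hom_apply]
  congr 1
  · have h1 : (fun i : Fin n => (g * s) i.succ) = (fun i => g i.succ) * fun i => s i.succ := rfl
    rw [h1, hinv _ _ fun i => hs _, Pi.mul_apply, map_mul, Module.End.mul_apply, hfix _ _ (hs 0)]
  · refine Finset.sum_congr rfl fun j _ => ?_
    obtain ⟨s', hs', h2⟩ := contractNth_mul_mem j g s hs
    rw [h2, hinv _ _ hs']

end Cochains

section Complex

variable {k G : Type u} [CommRing k] [Group G] (𝒰 : LevelStructure G) (A : Rep.{u} k G)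
  [IsDiscrete 𝒰 A]

/-- The differential of the level complex. -/
noncomputable def levelD (n : ℕ) :
    ModuleCat.of k (levelCochains 𝒰 A n) ⟶ ModuleCat.of k (levelCochains 𝒰 A (n + 1)) :=
  ModuleCat.ofHom ((inhomogeneousCochains.d A n).hom.restrict fun _ hf => d_mem_levelCochains hf)

@[simp]
lemma levelD_apply_coe (n : ℕ) (f : levelCochains 𝒰 A n) :
    ((levelD 𝒰 A n).hom f : (Fin (n + 1) → G) → A) = (inhomogeneousCochains.d A n).hom f := rfl

lemma levelD_comp_levelD (n : ℕ) : levelD 𝒰 A n ≫ levelD 𝒰 A (n + 1) = 0 := by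
  refine ModuleCat.hom_ext (LinearMap.ext fun f => Subtype.ext ?_)
  have := congrArg (fun φ => ModuleCat.Hom.hom φ (f : (Fin n → G) → A))
    (groupCohomology.inhomogeneousCochains.d_comp_d (A := A) (n := n))
  simp only [ModuleCat.hom_comp, LinearMap.comp_apply, ModuleCat.hom_zero,
    LinearMap.zero_apply] at this
  simp only [ModuleCat.hom_comp, LinearMap.comp_apply, ModuleCat.hom_zero,
    LinearMap.zero_apply, ZeroMemClass.coe_zero]
  exact this

/-- The complex of level cochains of a discrete representation. -/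
noncomputable def levelComplex : CochainComplex (ModuleCat k) ℕ :=
  CochainComplex.of (fun n => ModuleCat.of k (levelCochains 𝒰 A n)) (levelD 𝒰 A)
    (levelD_comp_levelD 𝒰 A)

/-- The inclusion of the level complex into the full complex of inhomogeneous cochains. -/
noncomputable def levelι : levelComplex 𝒰 A ⟶ groupCohomology.inhomogeneousCochains A where
  f n := ModuleCat.ofHom (levelCochains 𝒰 A n).subtype
  comm' i j (hij : _ = _) := by
    subst hij
    ext f : 3
    simp [levelComplex, CochainComplex.of.d]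
    rfl

/-- Level cohomology: the cohomology of the level complex. -/
noncomputable def levelCohomology (n : ℕ) : ModuleCat k := (levelComplex 𝒰 A).homology n

/-- The comparison map from level cohomology to abstract group cohomology ("inflation"). -/
noncomputable def levelCohomologyToGroupCohomology (n : ℕ) :
    levelCohomology 𝒰 A n ⟶ groupCohomology A n :=
  HomologicalComplex.homologyMap (levelι 𝒰 A) n

end Complex

end Fermat.Agent.S55.Level
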