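/-
S55 foundation, part 2: functoriality of the level complex (in the coefficients and in the
group), and the long exact cohomology sequence attached to a short exact sequence of discrete
representations.
-/
import Fermat.Agent.S55.LevelComplex

set_option autoImplicit false

open CategoryTheory

namespace Fermat.Agent.S55.Level

universe u

section Precomp

variable {G H : Type u} [Group G] [Group H]

/-- `𝒱` (on `H`) refines the pullback of `𝒰` (on `G`) along `f : H →* G`. -/
def LevelStructure.Refines (𝒱 : LevelStructure H) (𝒰 : LevelStructure G) (f : H →* G) : Prop :=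
  ∀ U ∈ 𝒰.sets, ∃ V ∈ 𝒱.sets, V ≤ U.comap f

lemma LevelStructure.refines_id (𝒰 : LevelStructure G) : 𝒰.Refines 𝒰 (MonoidHom.id G) :=
  fun U hU => ⟨U, hU, le_of_eq (Subgroup.comap_id U).symm⟩

variable {𝒱 : LevelStructure H} {𝒰 : LevelStructure G} {f : H →* G}

lemma IsLevel.precomp (hf : 𝒱.Refines 𝒰 f) {n : ℕ} {X : Type*} {x : (Fin n → G) → X}
    (hx : IsLevel 𝒰 x) : IsLevel 𝒱 (fun h : Fin n → H => x (f ∘ h)) := by
  obtain ⟨U, hU, hinv⟩ := hx
  obtain ⟨V, hV, hVU⟩ := hf U hU
  refine ⟨V, hV, fun h s hs => ?_⟩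
  have : (f ∘ (h * s)) = (f ∘ h) * (f ∘ s) := by
    funext i; simp
  show x (f ∘ (h * s)) = x (f ∘ h)
  rw [this]
  exact hinv _ _ fun i => hVU (hs i)

end Precomp

section Map

variable {k G H : Type u} [CommRing k] [Group G] [Group H]
  {𝒰 : LevelStructure G} {𝒱 : LevelStructure H}
  {A : Rep.{u} k G} {B : Rep.{u} k H} [IsDiscrete 𝒰 A] [IsDiscrete 𝒱 B]

/-- A morphism between the full inhomogeneous cochain complexes that preserves level cochains
restricts to a morphism of level complexes. -/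
noncomputable def levelComplexHomMk
    (Φ : groupCohomology.inhomogeneousCochains A ⟶ groupCohomology.inhomogeneousCochains B)
    (h : ∀ (n : ℕ) (x : (Fin n → G) → A), x ∈ levelCochains 𝒰 A n →
      (Φ.f n).hom x ∈ levelCochains 𝒱 B n) :
    levelComplex 𝒰 A ⟶ levelComplex 𝒱 B where
  f n := ModuleCat.ofHom ((Φ.f n).hom.restrict (h n))
  comm' i j (hij : _ = _) := by
    subst hij
    refine ModuleCat.hom_ext (LinearMap.ext fun (x : levelCochains 𝒰 A i) => Subtype.ext ?_)
    have := congrArg (fun ψ => ModuleCat.Hom.hom ψ (x.1 : (Fin i → G) → A)) (Φ.comm i (i + 1))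
    simp only [ModuleCat.hom_comp, LinearMap.comp_apply] at this
    simp [CochainComplex.of.d] at this
    simp only [levelComplex, CochainComplex.of_d, ModuleCat.hom_comp, ModuleCat.hom_ofHom]
    exact this

@[simp]
lemma levelComplexHomMk_f_apply_coe
    (Φ : groupCohomology.inhomogeneousCochains A ⟶ groupCohomology.inhomogeneousCochains B)
    (h : ∀ (n : ℕ) (x : (Fin n → G) → A), x ∈ levelCochains 𝒰 A n →
      (Φ.f n).hom x ∈ levelCochains 𝒱 B n) (n : ℕ) (x : levelCochains 𝒰 A n) :
    (show levelCochains 𝒱 B n from ((levelComplexHomMk Φ h).f n).hom x).1 =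
      (Φ.f n).hom x.1 := rfl

/-- The map of level complexes induced by a group homomorphism `f : H →* G` compatible with the
level structures and a morphism of representations `φ : res f A ⟶ B`. -/
noncomputable def levelCochainsMap (f : H →* G) (hf : 𝒱.Refines 𝒰 f) (φ : Rep.res f A ⟶ B) :
    levelComplex 𝒰 A ⟶ levelComplex 𝒱 B :=
  levelComplexHomMk (groupCohomology.cochainsMap f φ) fun n x hx => by
    have h1 : IsLevel 𝒱 (fun h : Fin n → H => x (f ∘ h)) := IsLevel.precomp hf hx
    exact h1.comp (fun a => φ.hom a)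

/-- The induced map on level cohomology. -/
noncomputable def levelCohomologyMap (f : H →* G) (hf : 𝒱.Refines 𝒰 f) (φ : Rep.res f A ⟶ B)
    (n : ℕ) : levelCohomology 𝒰 A n ⟶ levelCohomology 𝒱 B n :=
  HomologicalComplex.homologyMap (levelCochainsMap f hf φ) n

end Map

section LES

open ShortComplex

variable {k G : Type u} [CommRing k] [Group G] (𝒰 : LevelStructure G)

/-- The map of level complexes induced by a morphism of discrete representations. -/
noncomputable abbrev levelMap {A B : Rep.{u} k G} [IsDiscrete 𝒰 A] [IsDiscrete 𝒰 B] (φ : A ⟶ B) :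
    levelComplex 𝒰 A ⟶ levelComplex 𝒰 B :=
  levelCochainsMap (MonoidHom.id G) 𝒰.refines_id φ

lemma levelMap_f_apply_coe {A B : Rep.{u} k G} [IsDiscrete 𝒰 A] [IsDiscrete 𝒰 B] (φ : A ⟶ B)
    (n : ℕ) (x : levelCochains 𝒰 A n) (g : Fin n → G) :
    (show levelCochains 𝒰 B n from ((levelMap 𝒰 φ).f n).hom x).1 g = φ.hom (x.1 g) := rfl

variable (X : ShortComplex (Rep.{u} k G)) [IsDiscrete 𝒰 X.X₁] [IsDiscrete 𝒰 X.X₂]
  [IsDiscrete 𝒰 X.X₃]

/-- The short complex of level complexes attached to a short complex of discrete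
representations. -/
noncomputable def levelShortComplex : ShortComplex (CochainComplex (ModuleCat k) ℕ) where
  X₁ := levelComplex 𝒰 X.X₁
  X₂ := levelComplex 𝒰 X.X₂
  X₃ := levelComplex 𝒰 X.X₃
  f := levelMap 𝒰 X.f
  g := levelMap 𝒰 X.g
  zero := by
    ext n : 1
    refine ModuleCat.hom_ext (LinearMap.ext fun (x : levelCochains 𝒰 X.X₁ n) => Subtype.ext ?_)
    funext g
    have h0 : X.g.hom (X.f.hom (x.1 g)) = 0 := by
      have := congrArg (fun ψ : X.X₁ ⟶ X.X₃ => ψ.hom (x.1 g)) X.zero
      exact this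
    exact h0

variable {X}

/-- A short exact sequence of discrete representations gives a short exact sequence of level
complexes. -/
theorem levelShortComplex_shortExact (hX : ShortExact X) :
    ShortExact (levelShortComplex 𝒰 X) := by
  have hf : Function.Injective X.f.hom := (Rep.mono_iff_injective X.f).1 hX.mono_f
  have hg : Function.Surjective X.g.hom := (Rep.epi_iff_surjective X.g).1 hX.epi_g
  have hex : ∀ b : X.X₂, X.g.hom b = 0 → ∃ a : X.X₁, X.f.hom a = b := by
    intro b hb
    have : LinearMap.range X.f.hom.toLinearMap = LinearMap.ker X.g.hom.toLinearMap :=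
      (hX.exact.map (forget₂ (Rep k G) (ModuleCat k))).moduleCat_range_eq_ker
    have hb' : b ∈ LinearMap.ker X.g.hom.toLinearMap := hb
    rw [← this] at hb'
    exact hb'
  refine HomologicalComplex.shortExact_of_degreewise_shortExact _ fun n => ?_
  refine ShortExact.mk' ?_ ?_ ?_
  · -- exactness in the middle
    rw [ShortComplex.moduleCat_exact_iff]
    intro (y : levelCochains 𝒰 X.X₂ n) hy
    classical
    let τ : X.X₂ → X.X₁ := fun b => if h : ∃ a : X.X₁, X.f.hom a = b then h.choose else 0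
    have hτ : ∀ g, X.f.hom (τ (y.1 g)) = y.1 g := by
      intro g
      have h0 : X.g.hom (y.1 g) = 0 := congrFun (congrArg Subtype.val hy) g
      have h := hex _ h0
      simp only [τ, dif_pos h]
      exact h.choose_spec
    refine ⟨(⟨τ ∘ y.1, IsLevel.comp y.2 τ⟩ : levelCochains 𝒰 X.X₁ n), Subtype.ext ?_⟩
    funext g
    exact hτ g
  · -- injectivity
    rw [ModuleCat.mono_iff_injective]
    intro (x : levelCochains 𝒰 X.X₁ n) (x' : levelCochains 𝒰 X.X₁ n) hxx'
    refine Subtype.ext (funext fun g => hf ?_)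
    exact congrFun (congrArg Subtype.val hxx') g
  · -- surjectivity
    rw [ModuleCat.epi_iff_surjective]
    intro (z : levelCochains 𝒰 X.X₃ n)
    refine ⟨(⟨Function.surjInv hg ∘ z.1, IsLevel.comp z.2 _⟩ : levelCochains 𝒰 X.X₂ n),
      Subtype.ext (funext fun g => ?_)⟩
    exact Function.surjInv_eq hg (z.1 g)

/-- The connecting homomorphism of level cohomology. -/
noncomputable def levelδ (hX : ShortExact X) (i j : ℕ) (hij : i + 1 = j) :
    levelCohomology 𝒰 X.X₃ i ⟶ levelCohomology 𝒰 X.X₁ j :=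
  (levelShortComplex_shortExact 𝒰 hX).δ i j hij

/-- Exactness of `Hⁱ(X₃) ⟶ Hʲ(X₁) ⟶ Hʲ(X₂)`. -/
theorem level_exact₁ (hX : ShortExact X) (i j : ℕ) (hij : i + 1 = j) :
    (ShortComplex.mk (levelδ 𝒰 hX i j hij)
      (HomologicalComplex.homologyMap (levelMap 𝒰 X.f) j)
      ((levelShortComplex_shortExact 𝒰 hX).δ_comp i j hij)).Exact :=
  (levelShortComplex_shortExact 𝒰 hX).homology_exact₁ i j hij

/-- Exactness of `Hⁱ(X₁) ⟶ Hⁱ(X₂) ⟶ Hⁱ(X₃)`. -/
theorem level_exact₂ (hX : ShortExact X) (i : ℕ) :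
    (ShortComplex.mk (HomologicalComplex.homologyMap (levelMap 𝒰 X.f) i)
      (HomologicalComplex.homologyMap (levelMap 𝒰 X.g) i)
      (by rw [← HomologicalComplex.homologyMap_comp,
        show levelMap 𝒰 X.f ≫ levelMap 𝒰 X.g = 0 from (levelShortComplex 𝒰 X).zero,
        HomologicalComplex.homologyMap_zero])).Exact :=
  (levelShortComplex_shortExact 𝒰 hX).homology_exact₂ i

/-- Exactness of `Hⁱ(X₂) ⟶ Hⁱ(X₃) ⟶ Hʲ(X₁)`. -/
theorem level_exact₃ (hX : ShortExact X) (i j : ℕ) (hij : i + 1 = j) :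
    (ShortComplex.mk (HomologicalComplex.homologyMap (levelMap 𝒰 X.g) i)
      (levelδ 𝒰 hX i j hij)
      ((levelShortComplex_shortExact 𝒰 hX).comp_δ i j hij)).Exact :=
  (levelShortComplex_shortExact 𝒰 hX).homology_exact₃ i j hij

end LES

end Fermat.Agent.S55.Level
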