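/-
S55 foundation, part 3: elementwise description of level cohomology
(cocycles modulo coboundaries), in all degrees.
-/
import Fermat.Agent.S55.LevelFunct

set_option autoImplicit false

open CategoryTheory

namespace Fermat.Agent.S55.Level

universe u

section General

variable {k : Type u} [CommRing k] (K : CochainComplex (ModuleCat.{u} k) ℕ)

lemma iCycles_injective (n : ℕ) : Function.Injective (K.iCycles n).hom :=
  (ModuleCat.mono_iff_injective _).1 inferInstance

lemma homologyπ_surjective (n : ℕ) : Function.Surjective (K.homologyπ n).hom :=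
  (ModuleCat.epi_iff_surjective _).1 inferInstance

lemma toCycles_iCycles_apply (n : ℕ) (y : K.X n) :
    (K.iCycles (n + 1)).hom ((K.toCycles n (n + 1)).hom y) = (K.d n (n + 1)).hom y :=
  congrArg (fun φ => ModuleCat.Hom.hom φ y) (K.toCycles_i n (n + 1))

/-- A cycle is zero in cohomology iff it is a coboundary. -/
lemma homologyπ_eq_zero_iff (n : ℕ) (z : K.cycles (n + 1)) :
    (K.homologyπ (n + 1)).hom z = 0 ↔
      ∃ y : K.X n, (K.d n (n + 1)).hom y = (K.iCycles (n + 1)).hom z := by
  have hex : (ShortComplex.mk (K.toCycles n (n + 1)) (K.homologyπ (n + 1))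
      (K.toCycles_comp_homologyπ n (n + 1))).Exact :=
    ShortComplex.exact_of_g_is_cokernel _ (K.homologyIsCokernel n (n + 1) (by simp))
  rw [ShortComplex.moduleCat_exact_iff] at hex
  constructor
  · intro h
    obtain ⟨y, hy⟩ := hex z h
    refine ⟨y, ?_⟩
    rw [← toCycles_iCycles_apply]
    exact congrArg (K.iCycles (n + 1)).hom hy
  · rintro ⟨y, hy⟩
    have hz : (K.toCycles n (n + 1)).hom y = z :=
      iCycles_injective K (n + 1) (by rw [toCycles_iCycles_apply, hy])
    rw [← hz]
    exact congrArg (fun φ => ModuleCat.Hom.hom φ y) (K.toCycles_comp_homologyπ n (n + 1))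

/-- In degree zero the projection from cycles to cohomology is injective. -/
lemma homologyπ_zero_injective : Function.Injective (K.homologyπ 0).hom := by
  have : IsIso (K.homologyπ 0) := inferInstance
  exact (ModuleCat.mono_iff_injective _).1 inferInstance

end General

section Level

variable {k G : Type u} [CommRing k] [Group G] (𝒰 : LevelStructure G) (A : Rep.{u} k G)
  [IsDiscrete 𝒰 A]

/-- The level cocycles of degree `n`, as a submodule of all `n`-cochains. -/
def levelCocycles (n : ℕ) : Submodule k ((Fin n → G) → A) :=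
  levelCochains 𝒰 A n ⊓ LinearMap.ker (inhomogeneousCochains.d A n).hom

omit [IsDiscrete 𝒰 A] in
lemma mem_levelCocycles_iff {n : ℕ} (f : (Fin n → G) → A) :
    f ∈ levelCocycles 𝒰 A n ↔ IsLevel 𝒰 f ∧ (inhomogeneousCochains.d A n).hom f = 0 := Iff.rfl

/-- The level coboundaries of degree `n + 1`. -/
def levelCoboundaries (n : ℕ) : Submodule k ((Fin (n + 1) → G) → A) :=
  (levelCochains 𝒰 A n).map (inhomogeneousCochains.d A n).hom

lemma levelCoboundaries_le_levelCocycles (n : ℕ) :
    levelCoboundaries 𝒰 A n ≤ levelCocycles 𝒰 A (n + 1) := by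
  rintro _ ⟨y, hy, rfl⟩
  refine ⟨d_mem_levelCochains hy, ?_⟩
  have := congrArg (fun φ => ModuleCat.Hom.hom φ y)
    (groupCohomology.inhomogeneousCochains.d_comp_d (A := A) (n := n))
  simpa using this

/-- Level cocycles as a subobject of the level cochains. -/
noncomputable def levelCocyclesIncl (n : ℕ) :
    ModuleCat.of k (levelCocycles 𝒰 A n) ⟶ (levelComplex 𝒰 A).X n :=
  ModuleCat.ofHom (Submodule.inclusion (inf_le_left : levelCocycles 𝒰 A n ≤ levelCochains 𝒰 A n))

lemma levelCocyclesIncl_comp_d (n : ℕ) :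
    levelCocyclesIncl 𝒰 A n ≫ (levelComplex 𝒰 A).d n (n + 1) = 0 := by
  refine ModuleCat.hom_ext (LinearMap.ext fun (z : levelCocycles 𝒰 A n) => Subtype.ext ?_)
  simp only [levelComplex, CochainComplex.of_d]
  exact z.2.2

/-- The map from level cocycles to the categorical cycles of the level complex. -/
noncomputable def levelCyclesMk (n : ℕ) :
    ModuleCat.of k (levelCocycles 𝒰 A n) ⟶ (levelComplex 𝒰 A).cycles n :=
  (levelComplex 𝒰 A).liftCycles (levelCocyclesIncl 𝒰 A n) (n + 1) (by simp)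
    (levelCocyclesIncl_comp_d 𝒰 A n)

lemma iCycles_levelCyclesMk (n : ℕ) (z : levelCocycles 𝒰 A n) :
    (show levelCochains 𝒰 A n from
      ((levelComplex 𝒰 A).iCycles n).hom ((levelCyclesMk 𝒰 A n).hom z)).1 = z.1 := by
  have := congrArg (fun φ => ModuleCat.Hom.hom φ z)
    ((levelComplex 𝒰 A).liftCycles_i (levelCocyclesIncl 𝒰 A n) (n + 1) (by simp)
      (levelCocyclesIncl_comp_d 𝒰 A n))
  exact congrArg Subtype.val this

lemma levelCyclesMk_surjective (n : ℕ) : Function.Surjective (levelCyclesMk 𝒰 A n).hom := by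
  intro w
  let x : levelCochains 𝒰 A n := ((levelComplex 𝒰 A).iCycles n).hom w
  have hx : (inhomogeneousCochains.d A n).hom x.1 = 0 := by
    have h1 := congrArg (fun φ => ModuleCat.Hom.hom φ w) ((levelComplex 𝒰 A).iCycles_d n (n + 1))
    simp only [levelComplex, CochainComplex.of_d, ModuleCat.hom_comp] at h1
    exact congrArg Subtype.val h1
  refine ⟨⟨x.1, x.2, hx⟩, iCycles_injective _ n (Subtype.ext ?_)⟩
  exact iCycles_levelCyclesMk 𝒰 A n ⟨x.1, x.2, hx⟩

/-- The projection from level cocycles to level cohomology. -/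
noncomputable def levelπ (n : ℕ) :
    ModuleCat.of k (levelCocycles 𝒰 A n) ⟶ levelCohomology 𝒰 A n :=
  levelCyclesMk 𝒰 A n ≫ (levelComplex 𝒰 A).homologyπ n

lemma levelπ_surjective (n : ℕ) : Function.Surjective (levelπ 𝒰 A n).hom := by
  intro x
  obtain ⟨w, rfl⟩ := homologyπ_surjective (levelComplex 𝒰 A) n x
  obtain ⟨z, rfl⟩ := levelCyclesMk_surjective 𝒰 A n w
  exact ⟨z, rfl⟩

/-- A level cocycle of positive degree is zero in level cohomology iff it is the coboundary
of a LEVEL cochain. -/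
theorem levelπ_eq_zero_iff (n : ℕ) (z : levelCocycles 𝒰 A (n + 1)) :
    (levelπ 𝒰 A (n + 1)).hom z = 0 ↔ z.1 ∈ levelCoboundaries 𝒰 A n := by
  have h := homologyπ_eq_zero_iff (levelComplex 𝒰 A) n ((levelCyclesMk 𝒰 A (n + 1)).hom z)
  refine Iff.trans (show (levelπ 𝒰 A (n + 1)).hom z = 0 ↔ _ from h) ?_
  constructor
  · rintro ⟨y, hy⟩
    let y' : levelCochains 𝒰 A n := y
    refine ⟨y'.1, y'.2, ?_⟩
    have h2 := congrArg Subtype.val hy
    rw [iCycles_levelCyclesMk] at h2
    simp only [levelComplex, CochainComplex.of_d] at h2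
    exact h2
  · rintro ⟨y, hy, hyz⟩
    refine ⟨(⟨y, hy⟩ : levelCochains 𝒰 A n), Subtype.ext ?_⟩
    rw [iCycles_levelCyclesMk]
    simp only [levelComplex, CochainComplex.of_d]
    exact hyz

theorem levelπ_eq_iff (n : ℕ) (z z' : levelCocycles 𝒰 A (n + 1)) :
    (levelπ 𝒰 A (n + 1)).hom z = (levelπ 𝒰 A (n + 1)).hom z' ↔
      z.1 - z'.1 ∈ levelCoboundaries 𝒰 A n := by
  rw [← sub_eq_zero, ← map_sub, levelπ_eq_zero_iff]
  rfl

/-- In degree zero the projection is injective. -/
theorem levelπ_zero_injective : Function.Injective (levelπ 𝒰 A 0).hom := by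
  intro z z' h
  have h1 : (levelCyclesMk 𝒰 A 0).hom z = (levelCyclesMk 𝒰 A 0).hom z' :=
    homologyπ_zero_injective (levelComplex 𝒰 A) h
  have h2 := iCycles_levelCyclesMk 𝒰 A 0 z
  rw [h1, iCycles_levelCyclesMk] at h2
  exact Subtype.ext h2.symm

@[elab_as_elim]
theorem levelCohomology_induction_on {n : ℕ} {C : levelCohomology 𝒰 A n → Prop}
    (x : levelCohomology 𝒰 A n) (h : ∀ z : levelCocycles 𝒰 A n, C ((levelπ 𝒰 A n).hom z)) :
    C x := by
  obtain ⟨z, rfl⟩ := levelπ_surjective 𝒰 A n x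
  exact h z

end Level

section Naturality

variable {k G H : Type u} [CommRing k] [Group G] [Group H]
  {𝒰 : LevelStructure G} {𝒱 : LevelStructure H}
  {A : Rep.{u} k G} {B : Rep.{u} k H} [IsDiscrete 𝒰 A] [IsDiscrete 𝒱 B]

/-- A chain map between level complexes is computed on cohomology classes by applying it to
representing cocycles. -/
theorem homologyMap_levelπ (Φ : levelComplex 𝒰 A ⟶ levelComplex 𝒱 B) (n : ℕ)
    (z : levelCocycles 𝒰 A n) (z' : levelCocycles 𝒱 B n)
    (h : (show levelCochains 𝒱 B n from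
      (Φ.f n).hom (⟨z.1, z.2.1⟩ : levelCochains 𝒰 A n)).1 = z'.1) :
    (HomologicalComplex.homologyMap Φ n).hom ((levelπ 𝒰 A n).hom z) = (levelπ 𝒱 B n).hom z' := by
  have h1 : (HomologicalComplex.cyclesMap Φ n).hom ((levelCyclesMk 𝒰 A n).hom z) =
      (levelCyclesMk 𝒱 B n).hom z' := by
    apply iCycles_injective
    have h2 := congrArg (fun φ => ModuleCat.Hom.hom φ ((levelCyclesMk 𝒰 A n).hom z))
      (HomologicalComplex.cyclesMap_i Φ n)
    simp only [ModuleCat.hom_comp, LinearMap.comp_apply] at h2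
    rw [h2]
    refine Subtype.ext ?_
    rw [iCycles_levelCyclesMk]
    rw [← h]
    congr 2
    exact Subtype.ext (iCycles_levelCyclesMk 𝒰 A n z)
  have h3 := congrArg (fun φ => ModuleCat.Hom.hom φ ((levelCyclesMk 𝒰 A n).hom z))
    (HomologicalComplex.homologyπ_naturality Φ n)
  simp only [ModuleCat.hom_comp, LinearMap.comp_apply] at h3
  show (HomologicalComplex.homologyMap Φ n).hom
    (((levelComplex 𝒰 A).homologyπ n).hom ((levelCyclesMk 𝒰 A n).hom z)) = _
  rw [h3, h1]
  rfl

/-- Restriction/inflation maps on cocycle representatives. -/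
theorem levelCohomologyMap_levelπ (f : H →* G) (hf : 𝒱.Refines 𝒰 f) (φ : Rep.res f A ⟶ B)
    (n : ℕ) (z : levelCocycles 𝒰 A n) (z' : levelCocycles 𝒱 B n)
    (h : ∀ g : Fin n → H, z'.1 g = φ.hom (z.1 (f ∘ g))) :
    (levelCohomologyMap f hf φ n).hom ((levelπ 𝒰 A n).hom z) = (levelπ 𝒱 B n).hom z' :=
  homologyMap_levelπ _ n z z' (funext fun g => (h g).symm)

end Naturality

end Fermat.Agent.S55.Level
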