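/-
S55 / SM1-colim: level cohomology is the colimit of the cohomology of the finite layers, in
elementwise form.  For `U` a member of the level structure, `levelInf 𝒰 A hU n` is the inflation
`Hⁿ(G ⧸ U, A^U) ⟶ levelCohomology 𝒰 A n` (Mathlib's `groupCohomology` of
`A.quotientToInvariants U`).
* `exists_levelInf_eq`: every class comes from every sufficiently small layer;
* `exists_infLayer_eq_zero`: a class of a layer dying in level cohomology dies in every
  sufficiently small layer;
* `infLayer_comp_levelInf`: compatibility with the transition inflations `infLayer`;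
* `layerMap_comp_levelInf`: naturality in the coefficients;
* `levelInf_comp_toGroupCohomology`: composition with the comparison to abstract cohomology of `G`
  is Mathlib's inflation;
* transfer of vanishing / torsion from layers to level cohomology;
* `finiteLevel H`: the level structure `{⊥}` on a finite group, for which level cohomology is
  ordinary group cohomology (`finiteLevelIso`).
-/
import Fermat.Agent.S55.LevelElem
import Fermat.Agent.S55.CochainTools

set_option autoImplicit false

open CategoryTheory

namespace Fermat.Agent.S55.LevelLayer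

open Fermat.Agent.S55.Level Fermat.Agent.S55.CochainTools groupCohomology

universe u

variable {k G : Type u} [CommRing k] [Group G] (𝒰 : LevelStructure G) (A : Rep.{u} k G)
  [IsDiscrete 𝒰 A]

section Lift

variable {𝒰 A}

/-- A chain map into the full complex of inhomogeneous cochains whose values are level cochains
factors through the level complex. -/
noncomputable def levelComplexLift {K : CochainComplex (ModuleCat.{u} k) ℕ}
    (Φ : K ⟶ inhomogeneousCochains A)
    (h : ∀ (n : ℕ) (x : K.X n), (Φ.f n).hom x ∈ levelCochains 𝒰 A n) :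
    K ⟶ levelComplex 𝒰 A where
  f n := ModuleCat.ofHom ((Φ.f n).hom.codRestrict (levelCochains 𝒰 A n) (h n))
  comm' i j (hij : _ = _) := by
    subst hij
    refine ModuleCat.hom_ext (LinearMap.ext fun (x : K.X i) => Subtype.ext ?_)
    have := congrArg (fun ψ => ModuleCat.Hom.hom ψ x) (Φ.comm i (i + 1))
    simp only [ModuleCat.hom_comp, LinearMap.comp_apply] at this
    simp [CochainComplex.of.d] at this
    simp only [levelComplex, CochainComplex.of_d, ModuleCat.hom_comp, ModuleCat.hom_ofHom]
    exact this

lemma levelComplexLift_f_apply_coe {K : CochainComplex (ModuleCat.{u} k) ℕ}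
    (Φ : K ⟶ inhomogeneousCochains A)
    (h : ∀ (n : ℕ) (x : K.X n), (Φ.f n).hom x ∈ levelCochains 𝒰 A n) (n : ℕ) (x : K.X n) :
    (show levelCochains 𝒰 A n from ((levelComplexLift Φ h).f n).hom x).1 = (Φ.f n).hom x := rfl

end Lift

section Layer

variable (U : Subgroup G) [U.Normal]

/-- The morphism `res (G → G ⧸ U) (A^U) ⟶ A`. -/
noncomputable abbrev layerι :
    Rep.res (QuotientGroup.mk' U) (A.quotientToInvariants U) ⟶ A :=
  Rep.ofHom (A.ρ.quotientToInvariants_lift U)

/-- Inflation of cochains from the layer `G ⧸ U` acting on `A^U` to `G` acting on `A`. -/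
noncomputable def infCochains :
    inhomogeneousCochains (A.quotientToInvariants U) ⟶ inhomogeneousCochains A :=
  cochainsMap (QuotientGroup.mk' U) (layerι A U)

lemma infCochains_apply {n : ℕ} (x : (Fin n → G ⧸ U) → A.quotientToInvariants U)
    (g : Fin n → G) :
    ((infCochains A U).f n).hom x g = ((x fun i => (g i : G ⧸ U)) : A) := rfl

lemma infCochains_injective (n : ℕ) : Function.Injective ((infCochains A U).f n).hom := by
  intro x y hxy
  funext q
  obtain ⟨g, rfl⟩ : ∃ g : Fin n → G, (fun i => (g i : G ⧸ U)) = q :=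
    ⟨fun i => (q i).out, funext fun i => QuotientGroup.out_eq' (q i)⟩
  have := congrFun hxy g
  rw [infCochains_apply, infCochains_apply] at this
  exact Subtype.ext this

variable {U}

lemma isRightInv_infCochains {n : ℕ} (x : (Fin n → G ⧸ U) → A.quotientToInvariants U) :
    IsRightInv U (((infCochains A U).f n).hom x) := by
  intro g s hs
  rw [infCochains_apply, infCochains_apply]
  congr 2
  funext i
  simp only [Pi.mul_apply, QuotientGroup.mk_mul]
  rw [(QuotientGroup.eq_one_iff (s i)).2 (hs i), mul_one]

lemma infCochains_fixed {n : ℕ} (x : (Fin n → G ⧸ U) → A.quotientToInvariants U)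
    (g : Fin n → G) (u : G) (hu : u ∈ U) :
    A.ρ u (((infCochains A U).f n).hom x g) = ((infCochains A U).f n).hom x g := by
  rw [infCochains_apply]
  exact (x fun i => (g i : G ⧸ U)).2 ⟨u, hu⟩

/-- Descent: a cochain that is right-`U`-invariant with values fixed by `U` is inflated from the
layer `G ⧸ U`. -/
lemma exists_infCochains_eq {n : ℕ} (f : (Fin n → G) → A) (hinv : IsRightInv U f)
    (hfix : ∀ g, ∀ u ∈ U, A.ρ u (f g) = f g) :
    ∃ x : (Fin n → G ⧸ U) → A.quotientToInvariants U, ((infCochains A U).f n).hom x = f := by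
  refine ⟨fun q => ⟨f fun i => (q i).out, fun u => hfix _ u.1 u.2⟩, ?_⟩
  funext g
  rw [infCochains_apply]
  show f (fun i => ((g i : G ⧸ U)).out) = f g
  choose h hh using fun i => QuotientGroup.mk_out_eq_mul U (g i)
  have : (fun i => ((g i : G ⧸ U)).out) = g * fun i => (h i : G) := by
    funext i; simp only [Pi.mul_apply]; exact hh i
  rw [this]
  exact hinv g _ fun i => (h i).2

end Layer

section LevelInf

variable {U : Subgroup G} [U.Normal] (hU : U ∈ 𝒰.sets)

/-- Inflation from the layer `G ⧸ U` to the level complex, as a chain map. -/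
noncomputable def levelInfComplex :
    inhomogeneousCochains (A.quotientToInvariants U) ⟶ levelComplex 𝒰 A :=
  levelComplexLift (infCochains A U) fun _ x => ⟨U, hU, isRightInv_infCochains A x⟩

lemma levelInfComplex_f_apply_coe {n : ℕ} (x : (Fin n → G ⧸ U) → A.quotientToInvariants U) :
    (show levelCochains 𝒰 A n from ((levelInfComplex 𝒰 A hU).f n).hom x).1 =
      ((infCochains A U).f n).hom x := rfl

lemma levelInfComplex_injective (n : ℕ) :
    Function.Injective ((levelInfComplex 𝒰 A hU).f n).hom := by
  intro x y hxy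
  apply infCochains_injective A U n
  rw [← levelInfComplex_f_apply_coe 𝒰 A hU x, ← levelInfComplex_f_apply_coe 𝒰 A hU y, hxy]

/-- Inflation from the cohomology of the finite layer `G ⧸ U` (acting on `A^U`) to level
cohomology. -/
noncomputable def levelInf (n : ℕ) :
    groupCohomology (A.quotientToInvariants U) n ⟶ levelCohomology 𝒰 A n :=
  HomologicalComplex.homologyMap (levelInfComplex 𝒰 A hU) n

/-- A cochain of the layer whose inflation is a cocycle is a cocycle. -/
lemma mem_Z_of_levelInfComplex_mem_Z {n : ℕ}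
    (x : (inhomogeneousCochains (A.quotientToInvariants U)).X n)
    (hx : ((levelInfComplex 𝒰 A hU).f n).hom x ∈ Z (levelComplex 𝒰 A) n) :
    x ∈ Z (inhomogeneousCochains (A.quotientToInvariants U)) n := by
  rw [mem_Z_iff] at hx ⊢
  apply levelInfComplex_injective 𝒰 A hU (n + 1)
  rw [map_zero]
  have := congrArg (fun ψ => ModuleCat.Hom.hom ψ x) ((levelInfComplex 𝒰 A hU).comm n (n + 1))
  simp only [ModuleCat.hom_comp, LinearMap.comp_apply] at this
  rw [← this, hx]

lemma levelInf_cls {n : ℕ} (z : Z (inhomogeneousCochains (A.quotientToInvariants U)) n) :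
    (levelInf 𝒰 A hU n).hom (cls _ n z) =
      cls (levelComplex 𝒰 A) n (mapZ (levelInfComplex 𝒰 A hU) n z) :=
  homologyMap_cls (levelInfComplex 𝒰 A hU) z

end LevelInf

section Colimit

/-- The underlying function of a cochain of the level complex. -/
def toFun {n : ℕ} (x : (levelComplex 𝒰 A).X n) : (Fin n → G) → A :=
  (show levelCochains 𝒰 A n from x).1

lemma isLevel_toFun {n : ℕ} (x : (levelComplex 𝒰 A).X n) : IsLevel 𝒰 (toFun 𝒰 A x) :=
  (show levelCochains 𝒰 A n from x).2

lemma toFun_injective {n : ℕ} : Function.Injective (toFun 𝒰 A (n := n)) :=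
  fun _ _ h => Subtype.ext h

lemma toFun_levelInfComplex {U : Subgroup G} [U.Normal] (hU : U ∈ 𝒰.sets) {n : ℕ}
    (x : (Fin n → G ⧸ U) → A.quotientToInvariants U) :
    toFun 𝒰 A (((levelInfComplex 𝒰 A hU).f n).hom x) = ((infCochains A U).f n).hom x := rfl

/-- Every cochain of the level complex is inflated from every sufficiently small layer. -/
lemma exists_levelInfComplex_eq {n : ℕ} (x : (levelComplex 𝒰 A).X n) :
    ∃ U₀ ∈ 𝒰.sets, ∀ (U : Subgroup G) [U.Normal] (hU : U ∈ 𝒰.sets), U ≤ U₀ →
      ∃ y : (Fin n → G ⧸ U) → A.quotientToInvariants U,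
        ((levelInfComplex 𝒰 A hU).f n).hom y = x := by
  obtain ⟨W, hW, hinv, hfix⟩ := IsLevel.exists_fix (isLevel_toFun 𝒰 A x)
  refine ⟨W, hW, fun U _ hU hUW => ?_⟩
  obtain ⟨y, hy⟩ := exists_infCochains_eq A (toFun 𝒰 A x) (hinv.mono hUW)
    fun g u hu => hfix g u (hUW hu)
  exact ⟨y, toFun_injective 𝒰 A (by rw [toFun_levelInfComplex, hy])⟩

/-- **Colimit theorem, surjectivity**: every class of level cohomology is inflated from the
cohomology of the finite layer `G ⧸ U` acting on `A^U`, for every sufficiently small member `U` of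
the family. -/
theorem exists_levelInf_eq {n : ℕ} (x : levelCohomology 𝒰 A n) :
    ∃ U₀ ∈ 𝒰.sets, ∀ (U : Subgroup G) [U.Normal] (hU : U ∈ 𝒰.sets), U ≤ U₀ →
      ∃ y : groupCohomology (A.quotientToInvariants U) n, (levelInf 𝒰 A hU n).hom y = x := by
  obtain ⟨z, rfl⟩ := cls_surjective (levelComplex 𝒰 A) n x
  obtain ⟨U₀, hU₀, h⟩ := exists_levelInfComplex_eq 𝒰 A z.1
  refine ⟨U₀, hU₀, fun U _ hU hUU₀ => ?_⟩
  obtain ⟨y, hy⟩ := h U hU hUU₀
  have hyZ : y ∈ Z (inhomogeneousCochains (A.quotientToInvariants U)) n :=
    mem_Z_of_levelInfComplex_mem_Z 𝒰 A hU y (by rw [hy]; exact z.2)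
  refine ⟨cls _ n ⟨y, hyZ⟩, ?_⟩
  rw [levelInf_cls]
  congr 1
  exact Subtype.ext hy

end Colimit

section Transition

variable {U V : Subgroup G} [U.Normal] [V.Normal] (h : V ≤ U)

/-- The projection `G ⧸ V →* G ⧸ U` for `V ≤ U`. -/
def quotMap : G ⧸ V →* G ⧸ U := QuotientGroup.map V U (MonoidHom.id G) fun _ hx => h hx

@[simp] lemma quotMap_mk (g : G) : quotMap h (g : G ⧸ V) = (g : G ⧸ U) := rfl

/-- The inclusion `A^U ⊆ A^V` for `V ≤ U`, as a morphism of representations of `G ⧸ V`. -/
noncomputable def layerIncl :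
    Rep.res (quotMap h) (A.quotientToInvariants U) ⟶ A.quotientToInvariants V :=
  Rep.ofHom ⟨LinearMap.codRestrict _ (Submodule.subtype _) fun x v => x.2 ⟨v.1, h v.2⟩,
    fun q => QuotientGroup.induction_on q fun g => by ext x; rfl⟩

lemma layerIncl_apply_coe (x : A.quotientToInvariants U) :
    (((layerIncl A h).hom x : A.quotientToInvariants V) : A) = (x : A) := rfl

/-- Inflation from the layer `G ⧸ U` to the layer `G ⧸ V`, on cochains. -/
noncomputable def infLayerCochains :
    inhomogeneousCochains (A.quotientToInvariants U) ⟶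
      inhomogeneousCochains (A.quotientToInvariants V) :=
  cochainsMap (quotMap h) (layerIncl A h)

/-- Inflation from the layer `G ⧸ U` to the layer `G ⧸ V`, on cohomology. -/
noncomputable def infLayer (n : ℕ) :
    groupCohomology (A.quotientToInvariants U) n ⟶ groupCohomology (A.quotientToInvariants V) n :=
  groupCohomology.map (quotMap h) (layerIncl A h) n

lemma infLayerCochains_comp_infCochains :
    infLayerCochains A h ≫ infCochains A V = infCochains A U := rfl

variable (hU : U ∈ 𝒰.sets) (hV : V ∈ 𝒰.sets)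

lemma infLayerCochains_comp_levelInfComplex :
    infLayerCochains A h ≫ levelInfComplex 𝒰 A hV = levelInfComplex 𝒰 A hU := rfl

/-- Inflation to level cohomology is compatible with inflation between layers. -/
theorem infLayer_comp_levelInf (n : ℕ) :
    infLayer A h n ≫ levelInf 𝒰 A hV n = levelInf 𝒰 A hU n := by
  have := HomologicalComplex.homologyMap_comp (infLayerCochains A h) (levelInfComplex 𝒰 A hV) n
  rw [infLayerCochains_comp_levelInfComplex 𝒰 A h hU hV] at this
  exact this.symm

lemma infLayer_levelInf_apply (n : ℕ) (y : groupCohomology (A.quotientToInvariants U) n) :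
    (levelInf 𝒰 A hV n).hom ((infLayer A h n).hom y) = (levelInf 𝒰 A hU n).hom y := by
  rw [← infLayer_comp_levelInf 𝒰 A h hU hV n]
  rfl

/-- **Colimit theorem, injectivity**: a class of the layer `G ⧸ U` whose inflation to level
cohomology vanishes already vanishes after inflation to every sufficiently small layer. -/
theorem exists_infLayer_eq_zero {n : ℕ} (y : groupCohomology (A.quotientToInvariants U) n)
    (hy : (levelInf 𝒰 A hU n).hom y = 0) :
    ∃ V₀ ∈ 𝒰.sets, V₀ ≤ U ∧ ∀ (V : Subgroup G) [V.Normal], V ∈ 𝒰.sets → V ≤ V₀ →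
      ∀ h : V ≤ U, (infLayer A h n).hom y = 0 := by
  obtain ⟨z, rfl⟩ := cls_surjective (inhomogeneousCochains (A.quotientToInvariants U)) n y
  replace hy : cls (levelComplex 𝒰 A) n (mapZ (levelInfComplex 𝒰 A hU) n z) = 0 :=
    (levelInf_cls 𝒰 A hU z).symm.trans hy
  rw [cls_eq_zero_iff] at hy
  cases n with
  | zero =>
    rw [mem_B_zero_iff] at hy
    have hz : z = 0 := by
      apply Subtype.ext
      apply levelInfComplex_injective 𝒰 A hU 0
      rw [ZeroMemClass.coe_zero, map_zero]
      exact congrArg Subtype.val hy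
    refine ⟨U, hU, le_rfl, fun V _ _ _ h => ?_⟩
    have h0 : cls (inhomogeneousCochains (A.quotientToInvariants U)) 0 z = 0 := by
      rw [hz, map_zero]
    exact (congrArg (infLayer A h 0).hom h0).trans (map_zero _)
  | succ m =>
    rw [mem_B_succ_iff] at hy
    obtain ⟨w, hw⟩ := hy
    obtain ⟨W, hW, hWw⟩ := exists_levelInfComplex_eq 𝒰 A w
    obtain ⟨V₀, hV₀, hV₀le⟩ := 𝒰.directed W hW U hU
    refine ⟨V₀, hV₀, hV₀le.trans inf_le_right, fun V _ hV hVV₀ h => ?_⟩
    obtain ⟨w', hw'⟩ := hWw V hV (hVV₀.trans (hV₀le.trans inf_le_left))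
    have key : ((inhomogeneousCochains (A.quotientToInvariants V)).d m (m + 1)).hom w' =
        ((infLayerCochains A h).f (m + 1)).hom z.1 := by
      apply levelInfComplex_injective 𝒰 A hV (m + 1)
      have h1 := congrArg (fun ψ => ModuleCat.Hom.hom ψ w') ((levelInfComplex 𝒰 A hV).comm m (m + 1))
      simp only [ModuleCat.hom_comp, LinearMap.comp_apply] at h1
      rw [← h1, hw', hw]
      rfl
    have h2 : (infLayer A h (m + 1)).hom (cls _ (m + 1) z) =
        cls _ (m + 1) (mapZ (infLayerCochains A h) (m + 1) z) :=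
      homologyMap_cls (infLayerCochains A h) z
    refine h2.trans ?_
    exact (cls_eq_zero_iff _ _).2 ((mem_B_succ_iff _ _).2 ⟨w', key⟩)

end Transition

section Corollaries

/-- Transfer of vanishing: if the cohomology of cofinally many finite layers vanishes in degree
`n`, so does level cohomology. -/
theorem subsingleton_levelCohomology_of_layers {n : ℕ}
    (h : ∀ U₀ ∈ 𝒰.sets, ∃ (U : Subgroup G) (_ : U.Normal), U ∈ 𝒰.sets ∧ U ≤ U₀ ∧
      Subsingleton (groupCohomology (A.quotientToInvariants U) n)) :
    Subsingleton (levelCohomology 𝒰 A n) := by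
  refine ⟨fun x x' => ?_⟩
  suffices H : ∀ x : levelCohomology 𝒰 A n, x = 0 by rw [H x, H x']
  intro x
  obtain ⟨U₀, hU₀, hx⟩ := exists_levelInf_eq 𝒰 A x
  obtain ⟨U, _, hU, hUU₀, hsub⟩ := h U₀ hU₀
  obtain ⟨y, rfl⟩ := hx U hU hUU₀
  rw [Subsingleton.elim y 0, map_zero]

theorem isZero_levelCohomology_of_layers {n : ℕ}
    (h : ∀ U₀ ∈ 𝒰.sets, ∃ (U : Subgroup G) (_ : U.Normal), U ∈ 𝒰.sets ∧ U ≤ U₀ ∧
      Limits.IsZero (groupCohomology (A.quotientToInvariants U) n)) :
    Limits.IsZero (levelCohomology 𝒰 A n) := by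
  have := subsingleton_levelCohomology_of_layers 𝒰 A (n := n) fun U₀ hU₀ => by
    obtain ⟨U, hn, hU, hUU₀, hz⟩ := h U₀ hU₀
    exact ⟨U, hn, hU, hUU₀, ModuleCat.subsingleton_of_isZero hz⟩
  exact ModuleCat.isZero_of_subsingleton _

/-- Transfer of torsion: if `m` kills the degree-`n` cohomology of cofinally many finite layers,
it kills level cohomology. -/
theorem smul_levelCohomology_eq_zero_of_layers {n : ℕ} (m : k)
    (h : ∀ U₀ ∈ 𝒰.sets, ∃ (U : Subgroup G) (_ : U.Normal), U ∈ 𝒰.sets ∧ U ≤ U₀ ∧
      ∀ y : groupCohomology (A.quotientToInvariants U) n, m • y = 0)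
    (x : levelCohomology 𝒰 A n) : m • x = 0 := by
  obtain ⟨U₀, hU₀, hx⟩ := exists_levelInf_eq 𝒰 A x
  obtain ⟨U, _, hU, hUU₀, hm⟩ := h U₀ hU₀
  obtain ⟨y, rfl⟩ := hx U hU hUU₀
  rw [← map_smul, hm y, map_zero]

variable {U : Subgroup G} [U.Normal] (hU : U ∈ 𝒰.sets)

lemma levelInfComplex_comp_levelι : levelInfComplex 𝒰 A hU ≫ levelι 𝒰 A = infCochains A U := rfl

/-- Composing with the comparison map to abstract group cohomology of `G` gives Mathlib's
inflation map. -/
theorem levelInf_comp_toGroupCohomology (n : ℕ) :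
    levelInf 𝒰 A hU n ≫ levelCohomologyToGroupCohomology 𝒰 A n =
      groupCohomology.map (QuotientGroup.mk' U) (layerι A U) n := by
  have := HomologicalComplex.homologyMap_comp (levelInfComplex 𝒰 A hU) (levelι 𝒰 A) n
  rw [levelInfComplex_comp_levelι] at this
  exact this.symm

end Corollaries

section Naturality

variable {A} {B : Rep.{u} k G} [IsDiscrete 𝒰 B] (φ : A ⟶ B) {U : Subgroup G} [U.Normal]
  (hU : U ∈ 𝒰.sets)

/-- The map induced on layers by a morphism of representations. -/
noncomputable abbrev layerMap : A.quotientToInvariants U ⟶ B.quotientToInvariants U :=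
  (Rep.quotientToInvariantsFunctor k U).map φ

lemma layerMap_comp_levelInfComplex :
    cochainsMap (A := A.quotientToInvariants U) (B := B.quotientToInvariants U)
      (MonoidHom.id (G ⧸ U)) (layerMap φ (U := U)) ≫ levelInfComplex 𝒰 B hU =
      levelInfComplex 𝒰 A hU ≫ levelMap 𝒰 φ := rfl

/-- Inflation from a layer is natural in the coefficients. -/
theorem layerMap_comp_levelInf (n : ℕ) :
    groupCohomology.map (A := A.quotientToInvariants U) (B := B.quotientToInvariants U)
      (MonoidHom.id (G ⧸ U)) (layerMap φ (U := U)) n ≫ levelInf 𝒰 B hU n =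
      levelInf 𝒰 A hU n ≫ HomologicalComplex.homologyMap (levelMap 𝒰 φ) n := by
  have h1 := HomologicalComplex.homologyMap_comp
    (cochainsMap (A := A.quotientToInvariants U) (B := B.quotientToInvariants U)
      (MonoidHom.id (G ⧸ U)) (layerMap φ (U := U))) (levelInfComplex 𝒰 B hU) n
  have h2 := HomologicalComplex.homologyMap_comp (levelInfComplex 𝒰 A hU) (levelMap 𝒰 φ) n
  rw [layerMap_comp_levelInfComplex] at h1
  exact h1.symm.trans h2

end Naturality

section Finite

variable (k) (H : Type u) [Group H] [Finite H]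

/-- The level structure `{⊥}` on a finite group: every cochain is of finite level, and level
cohomology is ordinary group cohomology. -/
def finiteLevel : LevelStructure H where
  sets := {⊥}
  nonempty := ⟨⊥, rfl⟩
  normal := by rintro _ rfl; infer_instance
  finiteIndex := by rintro _ rfl; infer_instance
  directed := by rintro _ rfl _ rfl; exact ⟨⊥, rfl, bot_le⟩

variable {H}

lemma isLevel_finiteLevel {n : ℕ} {X : Type*} (f : (Fin n → H) → X) :
    IsLevel (finiteLevel H) f := by
  refine ⟨⊥, rfl, fun g s hs => ?_⟩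
  have : s = 1 := funext fun i => (Subgroup.mem_bot.1 (hs i))
  rw [this, mul_one]

instance isDiscrete_finiteLevel (B : Rep.{u} k H) : IsDiscrete (finiteLevel H) B :=
  ⟨fun _ => ⟨⊥, rfl, fun u hu => by rw [Subgroup.mem_bot.1 hu, map_one]; rfl⟩⟩

variable {k}

lemma levelCochains_finiteLevel (B : Rep.{u} k H) (n : ℕ) :
    levelCochains (finiteLevel H) B n = ⊤ :=
  eq_top_iff.2 fun f _ => isLevel_finiteLevel f

/-- For a finite group with the level structure `{⊥}`, the inclusion of the level complex into the
complex of inhomogeneous cochains is an isomorphism. -/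
instance isIso_levelι_finiteLevel (B : Rep.{u} k H) : IsIso (levelι (finiteLevel H) B) := by
  have : ∀ n, IsIso ((levelι (finiteLevel H) B).f n) := by
    intro n
    rw [ConcreteCategory.isIso_iff_bijective]
    refine ⟨fun x y hxy => Subtype.ext hxy, fun f => ⟨⟨f, isLevel_finiteLevel f⟩, rfl⟩⟩
  exact HomologicalComplex.Hom.isIso_of_components _

/-- For a finite group with the level structure `{⊥}`, level cohomology is group cohomology. -/
instance isIso_toGroupCohomology_finiteLevel (B : Rep.{u} k H) (n : ℕ) :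
    IsIso (levelCohomologyToGroupCohomology (finiteLevel H) B n) := by
  unfold levelCohomologyToGroupCohomology
  exact inferInstanceAs (IsIso ((HomologicalComplex.homologyFunctor _ _ n).map
    (levelι (finiteLevel H) B)))

/-- For a finite group with the level structure `{⊥}`, level cohomology is group cohomology. -/
noncomputable def finiteLevelIso (B : Rep.{u} k H) (n : ℕ) :
    levelCohomology (finiteLevel H) B n ≅ groupCohomology B n :=
  asIso (levelCohomologyToGroupCohomology (finiteLevel H) B n)

end Finite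

end Fermat.Agent.S55.LevelLayer
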