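/-
S55 / LOC6 (shared infrastructure): Galois cohomology of a (possibly infinite) Galois extension
`Ω / K` as level cohomology.

* `krullLevel K Ω`: the level structure of all open normal subgroups of `Gal(Ω/K)`;
* for a member `U`: `layerField U = Ω^U` is finite Galois over `K`, `U = Gal(Ω/Ω^U)`,
  `layerGroupEquiv : Gal(Ω/K) ⧸ U ≃* Gal(Ω^U/K)`, `(Ωˣ)^U ≃ (Ω^U)ˣ` equivariantly, hence
  `layerIso : Hⁿ(Gal(Ω/K) ⧸ U, (Ωˣ)^U) ≅ Hⁿ(Gal(Ω^U/K), (Ω^U)ˣ)`;
* level Hilbert 90 and transfer of vanishing from the finite layers.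
-/
import Fermat.Agent.S55.LevelLayer

set_option autoImplicit false

open CategoryTheory IntermediateField

namespace Fermat.Agent.S55.GaloisLevel

open Fermat.Agent.S55.Level Fermat.Agent.S55.LevelLayer groupCohomology

variable (K Ω : Type) [Field K] [Field Ω] [Algebra K Ω] [IsGalois K Ω]

/-- A subgroup of `Gal(Ω/K)` is open iff it contains the fixing subgroup of a finite
subextension. -/
def IsKrullOpen (U : Subgroup Gal(Ω/K)) : Prop :=
  ∃ E : IntermediateField K Ω, FiniteDimensional K E ∧ E.fixingSubgroup ≤ U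

variable {K Ω}

omit [IsGalois K Ω] in
lemma IsKrullOpen.isOpen {U : Subgroup Gal(Ω/K)} (hU : IsKrullOpen K Ω U) :
    IsOpen (U : Set Gal(Ω/K)) := by
  obtain ⟨E, hE, hEU⟩ := hU
  exact Subgroup.isOpen_mono hEU (IntermediateField.fixingSubgroup_isOpen E)

omit [IsGalois K Ω] in
lemma IsKrullOpen.isClosed {U : Subgroup Gal(Ω/K)} (hU : IsKrullOpen K Ω U) :
    IsClosed (U : Set Gal(Ω/K)) :=
  Subgroup.isClosed_of_isOpen U hU.isOpen

lemma IsKrullOpen.finiteIndex {U : Subgroup Gal(Ω/K)} (hU : IsKrullOpen K Ω U) : U.FiniteIndex := by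
  obtain ⟨E, hE, hEU⟩ := hU
  have : E.fixingSubgroup.FiniteIndex := by
    constructor
    rw [← IntermediateField.finrank_eq_fixingSubgroup_index]
    exact Module.finrank_pos.ne'
  exact Subgroup.finiteIndex_of_le hEU

omit [IsGalois K Ω] in
lemma IsKrullOpen.inf {U V : Subgroup Gal(Ω/K)} (hU : IsKrullOpen K Ω U) (hV : IsKrullOpen K Ω V) :
    IsKrullOpen K Ω (U ⊓ V) := by
  obtain ⟨E, hE, hEU⟩ := hU
  obtain ⟨E', hE', hEV⟩ := hV
  refine ⟨E ⊔ E', IntermediateField.finiteDimensional_sup E E', ?_⟩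
  rw [IntermediateField.fixingSubgroup_sup]
  exact inf_le_inf hEU hEV

/-- The closed subgroup attached to an open subgroup. -/
def IsKrullOpen.closedSubgroup {U : Subgroup Gal(Ω/K)} (hU : IsKrullOpen K Ω U) :
    ClosedSubgroup Gal(Ω/K) :=
  ⟨U, hU.isClosed⟩

lemma IsKrullOpen.fixingSubgroup_fixedField {U : Subgroup Gal(Ω/K)} (hU : IsKrullOpen K Ω U) :
    (IntermediateField.fixedField U).fixingSubgroup = U :=
  InfiniteGalois.fixingSubgroup_fixedField hU.closedSubgroup

lemma IsKrullOpen.finiteDimensional {U : Subgroup Gal(Ω/K)} (hU : IsKrullOpen K Ω U) :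
    FiniteDimensional K (IntermediateField.fixedField U) := by
  rw [← InfiniteGalois.isOpen_iff_finite]
  have h := hU.fixingSubgroup_fixedField
  have h2 : ((IntermediateField.fixedField U).fixingSubgroup.carrier) = (U : Set Gal(Ω/K)) := by
    rw [h]; rfl
  rw [h2]
  exact hU.isOpen

lemma IsKrullOpen.isGalois {U : Subgroup Gal(Ω/K)} [hn : U.Normal] (hU : IsKrullOpen K Ω U) :
    IsGalois K (IntermediateField.fixedField U) := by
  rw [← InfiniteGalois.normal_iff_isGalois, hU.fixingSubgroup_fixedField]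
  exact hn

variable (K Ω)

/-- The Krull level structure on `Gal(Ω/K)`: all open normal subgroups. -/
def krullLevel : LevelStructure Gal(Ω/K) where
  sets := {U | U.Normal ∧ IsKrullOpen K Ω U}
  nonempty := ⟨⊤, inferInstance, ⊥, inferInstance, le_top⟩
  normal := fun _ hU => hU.1
  finiteIndex := fun _ hU => hU.2.finiteIndex
  directed := by
    rintro U ⟨hUn, hU⟩ V ⟨hVn, hV⟩
    exact ⟨U ⊓ V, ⟨Subgroup.normal_inf_normal U V, hU.inf hV⟩, le_rfl⟩

variable {K Ω}

lemma mem_krullLevel_iff (U : Subgroup Gal(Ω/K)) :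
    U ∈ (krullLevel K Ω).sets ↔ U.Normal ∧ IsKrullOpen K Ω U := Iff.rfl

/-- The fixing subgroup of a finite Galois subextension is a member of the Krull level
structure. -/
lemma fixingSubgroup_mem_krullLevel (E : IntermediateField K Ω) [FiniteDimensional K E]
    [IsGalois K E] : E.fixingSubgroup ∈ (krullLevel K Ω).sets :=
  ⟨(InfiniteGalois.normal_iff_isGalois E).2 inferInstance, E, inferInstance, le_rfl⟩

/-- Every member of the Krull level structure contains the fixing subgroup of a finite Galois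
subextension. -/
lemma exists_fixingSubgroup_le {U : Subgroup Gal(Ω/K)} (hU : IsKrullOpen K Ω U) :
    ∃ E : IntermediateField K Ω, FiniteDimensional K E ∧ IsGalois K E ∧ E.fixingSubgroup ≤ U := by
  obtain ⟨E, hE, hEU⟩ := hU
  refine ⟨IntermediateField.normalClosure K E Ω, normalClosure.is_finiteDimensional K E Ω,
    IsGalois.normalClosure K E Ω, ?_⟩
  refine le_trans ?_ hEU
  exact IntermediateField.fixingSubgroup_antitone (IntermediateField.le_normalClosure E)

/-! ### The layers -/

section Layer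

variable (K Ω)

/-- The units of `Ω` as a representation of `Gal(Ω/K)`. -/
noncomputable abbrev unitsRep : Rep ℤ Gal(Ω/K) := Rep.ofAlgebraAutOnUnits K Ω

variable {K Ω}

variable {U : Subgroup Gal(Ω/K)} [hn : U.Normal] (hU : IsKrullOpen K Ω U)

include hU in
lemma IsKrullOpen.normal_fixedField : Normal K (IntermediateField.fixedField U) := by
  have : (hU.closedSubgroup : Subgroup Gal(Ω/K)).Normal := hn
  exact inferInstanceAs (Normal K (IntermediateField.fixedField (hU.closedSubgroup).1))

/-- `Gal(Ω/K) ⧸ U ≃* Gal(Ω^U/K)` for an open normal subgroup `U`. -/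
noncomputable def layerGroupEquiv :
    haveI := hU.normal_fixedField
    Gal(Ω/K) ⧸ U ≃* Gal(IntermediateField.fixedField U/K) :=
  haveI : (hU.closedSubgroup : Subgroup Gal(Ω/K)).Normal := hn
  InfiniteGalois.normalAutEquivQuotient hU.closedSubgroup

lemma layerGroupEquiv_mk (g : Gal(Ω/K)) :
    haveI := hU.normal_fixedField
    layerGroupEquiv hU (g : Gal(Ω/K) ⧸ U) =
      AlgEquiv.restrictNormalHom (IntermediateField.fixedField U) g := rfl

/-- The inclusion `(Ω^U)ˣ → Ωˣ`, additively. -/
noncomputable def layerUnitsIncl (U : Subgroup Gal(Ω/K)) :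
    Additive (IntermediateField.fixedField U)ˣ →+ Additive Ωˣ :=
  MonoidHom.toAdditive
    (Units.map ((algebraMap (IntermediateField.fixedField U) Ω : _ →+* Ω) : _ →* Ω))

omit [IsGalois K Ω] in
lemma layerUnitsIncl_apply (U : Subgroup Gal(Ω/K))
    (x : Additive (IntermediateField.fixedField U)ˣ) :
    ((Additive.toMul (layerUnitsIncl U x) : Ωˣ) : Ω) = ((Additive.toMul x : _ˣ) : _) := rfl

omit [IsGalois K Ω] in
lemma unitsRep_ρ_apply (g : Gal(Ω/K)) (a : Additive Ωˣ) :
    ((Additive.toMul ((unitsRep K Ω).ρ g a) : Ωˣ) : Ω) = g ((Additive.toMul a : Ωˣ) : Ω) := rfl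

omit [IsGalois K Ω] in
lemma mem_invariants_unitsRep_iff (U : Subgroup Gal(Ω/K)) (a : (unitsRep K Ω).V) :
    a ∈ Representation.invariants ((unitsRep K Ω).ρ.comp U.subtype) ↔
      ((Additive.toMul (a : Additive Ωˣ) : Ωˣ) : Ω) ∈ IntermediateField.fixedField U := by
  rw [Representation.mem_invariants, IntermediateField.mem_fixedField_iff]
  constructor
  · intro h g hg
    have := h ⟨g, hg⟩
    exact congrArg (fun b : Additive Ωˣ => ((Additive.toMul b : Ωˣ) : Ω)) this
  · intro h g
    apply Additive.toMul.injective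
    apply Units.ext
    exact h g.1 g.2

omit [IsGalois K Ω] in
lemma layerUnitsIncl_mem (U : Subgroup Gal(Ω/K))
    (x : Additive (IntermediateField.fixedField U)ˣ) :
    (layerUnitsIncl U x : (unitsRep K Ω).V) ∈
      Representation.invariants ((unitsRep K Ω).ρ.comp U.subtype) :=
  (mem_invariants_unitsRep_iff U _).2 (Additive.toMul x : _ˣ).1.2

omit [IsGalois K Ω] in
lemma layerUnitsIncl_injective (U : Subgroup Gal(Ω/K)) :
    Function.Injective (layerUnitsIncl (K := K) (Ω := Ω) U) := by
  intro x y hxy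
  apply Additive.toMul.injective
  apply Units.ext
  apply Subtype.ext
  exact congrArg (fun b : Additive Ωˣ => ((Additive.toMul b : Ωˣ) : Ω)) hxy

omit [IsGalois K Ω] in
lemma exists_layerUnitsIncl_eq (U : Subgroup Gal(Ω/K)) (a : (unitsRep K Ω).V)
    (ha : a ∈ Representation.invariants ((unitsRep K Ω).ρ.comp U.subtype)) :
    ∃ x, layerUnitsIncl U x = a := by
  have h1 := (mem_invariants_unitsRep_iff U a).1 ha
  have h2 : (((Additive.toMul (a : Additive Ωˣ) : Ωˣ)⁻¹ : Ωˣ) : Ω) ∈
      IntermediateField.fixedField U := by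
    rw [Units.val_inv_eq_inv_val]
    exact inv_mem h1
  refine ⟨Additive.ofMul ⟨⟨_, h1⟩, ⟨_, h2⟩, ?_, ?_⟩, ?_⟩
  · apply Subtype.ext
    simp
  · apply Subtype.ext
    simp
  · apply Additive.toMul.injective
    apply Units.ext
    rfl

/-- `(Ω^U)ˣ ≃ (Ωˣ)^U`, as a `ℤ`-linear equivalence. -/
noncomputable def layerUnitsLin (U : Subgroup Gal(Ω/K)) :
    (Rep.ofAlgebraAutOnUnits K (IntermediateField.fixedField U)).V →ₗ[ℤ] (unitsRep K Ω).V :=
  (layerUnitsIncl U).toIntLinearMap

/-- `(Ω^U)ˣ ≃ (Ωˣ)^U`, as a `ℤ`-linear equivalence. -/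
noncomputable def layerUnitsEquiv (U : Subgroup Gal(Ω/K)) [U.Normal] :
    (Rep.ofAlgebraAutOnUnits K (IntermediateField.fixedField U)).V ≃ₗ[ℤ]
      ((unitsRep K Ω).quotientToInvariants U).V :=
  LinearEquiv.ofBijective
    ((layerUnitsLin U).codRestrict
      (Representation.invariants ((unitsRep K Ω).ρ.comp U.subtype)) (layerUnitsIncl_mem U))
    ⟨fun x y hxy => layerUnitsIncl_injective U (congrArg Subtype.val hxy),
      fun a => by
        obtain ⟨x, hx⟩ := exists_layerUnitsIncl_eq U a.1 a.2
        exact ⟨x, Subtype.ext hx⟩⟩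

omit [IsGalois K Ω] in
lemma layerUnitsEquiv_apply_coe (U : Subgroup Gal(Ω/K)) [U.Normal]
    (x : (Rep.ofAlgebraAutOnUnits K (IntermediateField.fixedField U)).V) :
    ((layerUnitsEquiv U x : ((unitsRep K Ω).quotientToInvariants U).V) : (unitsRep K Ω).V) =
      layerUnitsIncl U x := rfl

include hU in
/-- Equivariance of `layerUnitsEquiv` along `layerGroupEquiv`. -/
lemma layerUnitsEquiv_equivariant (q : Gal(Ω/K) ⧸ U)
    (x : (Rep.ofAlgebraAutOnUnits K (IntermediateField.fixedField U)).V) :
    layerUnitsEquiv U ((Rep.ofAlgebraAutOnUnits K (IntermediateField.fixedField U)).ρ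
      (layerGroupEquiv hU q) x) =
      ((unitsRep K Ω).quotientToInvariants U).ρ q (layerUnitsEquiv U x) := by
  have := hU.normal_fixedField
  induction q using QuotientGroup.induction_on with | H g =>
  apply Subtype.ext
  apply Additive.toMul.injective
  apply Units.ext
  rw [layerGroupEquiv_mk]
  exact AlgEquiv.restrictNormal_commutes g (IntermediateField.fixedField U)
    ((Additive.toMul (x : Additive (IntermediateField.fixedField U)ˣ) : _ˣ) : _)

/-- **Layer transport**: the cohomology of the layer `Gal(Ω/K) ⧸ U` acting on `(Ωˣ)^U` is the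
Galois cohomology of the finite Galois extension `Ω^U / K`. -/
noncomputable def layerIso (n : ℕ) :
    groupCohomology ((unitsRep K Ω).quotientToInvariants U) n ≅
      groupCohomology (Rep.ofAlgebraAutOnUnits K (IntermediateField.fixedField U)) n :=
  groupCohomology.mapIso (layerGroupEquiv hU) (layerUnitsEquiv U).symm (by
    intro q
    refine LinearMap.ext fun x => ?_
    obtain ⟨y, rfl⟩ := (layerUnitsEquiv U).surjective x
    apply (layerUnitsEquiv U).injective
    have h := layerUnitsEquiv_equivariant hU q y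
    exact ((layerUnitsEquiv U).apply_symm_apply _).trans (h.symm.trans
      (congrArg (fun t => layerUnitsEquiv U
        ((Rep.ofAlgebraAutOnUnits K (IntermediateField.fixedField U)).ρ (layerGroupEquiv hU q) t))
        ((layerUnitsEquiv U).symm_apply_apply y).symm))) n

end Layer

/-! ### Discreteness, transfer of vanishing, Hilbert 90 -/

section Transfer

/-- Every element of `Ω` lies in a finite Galois subextension. -/
lemma exists_finite_galois_mem (x : Ω) :
    ∃ E : IntermediateField K Ω, FiniteDimensional K E ∧ IsGalois K E ∧ x ∈ E := by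
  have hx : IsIntegral K x := Algebra.IsIntegral.isIntegral x
  have : FiniteDimensional K K⟮x⟯ := IntermediateField.adjoin.finiteDimensional hx
  refine ⟨IntermediateField.normalClosure K K⟮x⟯ Ω, normalClosure.is_finiteDimensional K K⟮x⟯ Ω,
    IsGalois.normalClosure K K⟮x⟯ Ω, ?_⟩
  exact IntermediateField.le_normalClosure K⟮x⟯ (IntermediateField.mem_adjoin_simple_self K x)

instance isDiscrete_unitsRep : IsDiscrete (krullLevel K Ω) (unitsRep K Ω) where
  exists_fix a := by
    obtain ⟨E, hE, hEG, hxE⟩ :=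
      exists_finite_galois_mem (K := K) ((Additive.toMul (a : Additive Ωˣ) : Ωˣ) : Ω)
    refine ⟨E.fixingSubgroup, fixingSubgroup_mem_krullLevel E, fun u hu => ?_⟩
    apply Additive.toMul.injective
    apply Units.ext
    exact (IntermediateField.mem_fixingSubgroup_iff E u).1 hu _ hxE

/-- **Transfer of vanishing**: if `Hⁿ(Gal(E/K), Eˣ) = 0` for every finite Galois subextension
`E / K` of `Ω`, then the level cohomology `Hⁿ(Gal(Ω/K), Ωˣ)` vanishes. -/
theorem isZero_levelCohomology_unitsRep_of_layers (n : ℕ)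
    (h : ∀ E : IntermediateField K Ω, FiniteDimensional K E → IsGalois K E →
      Limits.IsZero (groupCohomology (Rep.ofAlgebraAutOnUnits K E) n)) :
    Limits.IsZero (levelCohomology (krullLevel K Ω) (unitsRep K Ω) n) := by
  apply isZero_levelCohomology_of_layers
  intro U₀ hU₀
  have := hU₀.1
  exact ⟨U₀, hU₀.1, hU₀, le_rfl,
    (h _ hU₀.2.finiteDimensional hU₀.2.isGalois).of_iso (layerIso hU₀.2 n)⟩

/-- **Hilbert 90 in level form**: `H¹(Gal(Ω/K), Ωˣ) = 0`. -/
theorem isZero_levelCohomology_unitsRep_one :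
    Limits.IsZero (levelCohomology (krullLevel K Ω) (unitsRep K Ω) 1) := by
  apply isZero_levelCohomology_unitsRep_of_layers
  intro E hE _
  have := groupCohomology.H1ofAutOnUnitsUnique K E
  exact ModuleCat.isZero_of_subsingleton _

end Transfer

end Fermat.Agent.S55.GaloisLevel
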