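/-
S55 foundation, part 4: low-degree dictionary for level cohomology
(`G → A`, `G × G → A` cochains; `H¹`, `H²` as cocycles modulo coboundaries in Mathlib's
low-degree language).
-/
import Fermat.Agent.S55.LevelElem

set_option autoImplicit false

open CategoryTheory groupCohomology

namespace Fermat.Agent.S55.Level

universe u

noncomputable section

section Predicates

variable {G : Type u} [Group G] (𝒰 : LevelStructure G)

/-- One-variable functions of finite level. -/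
def IsLevel₁ {X : Type*} (f : G → X) : Prop :=
  ∃ U ∈ 𝒰.sets, ∀ g, ∀ s ∈ U, f (g * s) = f g

/-- Two-variable functions of finite level. -/
def IsLevel₂ {X : Type*} (f : G × G → X) : Prop :=
  ∃ U ∈ 𝒰.sets, ∀ g g', ∀ s ∈ U, ∀ s' ∈ U, f (g * s, g' * s') = f (g, g')

/-- Three-variable functions of finite level. -/
def IsLevel₃ {X : Type*} (f : G × G × G → X) : Prop :=
  ∃ U ∈ 𝒰.sets, ∀ g g' g'', ∀ s ∈ U, ∀ s' ∈ U, ∀ s'' ∈ U,
    f (g * s, g' * s', g'' * s'') = f (g, g', g'')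

variable {𝒰}

lemma isLevel₁_iff {X : Type*} (f : G → X) :
    IsLevel₁ 𝒰 f ↔ IsLevel 𝒰 (fun y : Fin 1 → G => f (y 0)) := by
  constructor
  · rintro ⟨U, hU, h⟩
    exact ⟨U, hU, fun g s hs => h (g 0) (s 0) (hs 0)⟩
  · rintro ⟨U, hU, h⟩
    refine ⟨U, hU, fun g s hs => ?_⟩
    exact h (fun _ => g) (fun _ => s) (fun _ => hs)

lemma isLevel₂_iff {X : Type*} (f : G × G → X) :
    IsLevel₂ 𝒰 f ↔ IsLevel 𝒰 (fun y : Fin 2 → G => f (y 0, y 1)) := by
  constructor
  · rintro ⟨U, hU, h⟩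
    exact ⟨U, hU, fun g s hs => h (g 0) (g 1) (s 0) (hs 0) (s 1) (hs 1)⟩
  · rintro ⟨U, hU, h⟩
    refine ⟨U, hU, fun g g' s hs s' hs' => ?_⟩
    have := h ![g, g'] ![s, s'] (fun i => by fin_cases i <;> simpa)
    simpa using this

lemma isLevel₃_iff {X : Type*} (f : G × G × G → X) :
    IsLevel₃ 𝒰 f ↔ IsLevel 𝒰 (fun y : Fin 3 → G => f (y 0, y 1, y 2)) := by
  constructor
  · rintro ⟨U, hU, h⟩
    exact ⟨U, hU, fun g s hs => h (g 0) (g 1) (g 2) (s 0) (hs 0) (s 1) (hs 1) (s 2) (hs 2)⟩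
  · rintro ⟨U, hU, h⟩
    refine ⟨U, hU, fun g g' g'' s hs s' hs' s'' hs'' => ?_⟩
    have := h ![g, g', g''] ![s, s', s''] (fun i => by fin_cases i <;> simpa)
    simpa using this

lemma IsLevel₁.comp {X Y : Type*} {f : G → X} (hf : IsLevel₁ 𝒰 f) (φ : X → Y) :
    IsLevel₁ 𝒰 (φ ∘ f) := by
  obtain ⟨U, hU, h⟩ := hf
  exact ⟨U, hU, fun g s hs => by simp only [Function.comp_apply, h g s hs]⟩

lemma IsLevel₂.comp {X Y : Type*} {f : G × G → X} (hf : IsLevel₂ 𝒰 f) (φ : X → Y) :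
    IsLevel₂ 𝒰 (φ ∘ f) := by
  obtain ⟨U, hU, h⟩ := hf
  exact ⟨U, hU, fun g g' s hs s' hs' => by simp only [Function.comp_apply, h g g' s hs s' hs']⟩

end Predicates

section Cochains

variable {k G : Type u} [CommRing k] [Group G] (𝒰 : LevelStructure G) (A : Rep.{u} k G)

/-- Level 1-cochains `G → A`. -/
def levelCochains₁ : Submodule k (G → A) :=
  (levelCochains 𝒰 A 1).comap (cochainsIso₁ A).inv.hom

/-- Level 2-cochains `G × G → A`. -/
def levelCochains₂ : Submodule k (G × G → A) :=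
  (levelCochains 𝒰 A 2).comap (cochainsIso₂ A).inv.hom

lemma mem_levelCochains₁_iff (f : G → A) : f ∈ levelCochains₁ 𝒰 A ↔ IsLevel₁ 𝒰 f := by
  rw [isLevel₁_iff]; rfl

lemma mem_levelCochains₂_iff (f : G × G → A) : f ∈ levelCochains₂ 𝒰 A ↔ IsLevel₂ 𝒰 f := by
  rw [isLevel₂_iff]; rfl

/-- Level 2-cocycles in Mathlib's low-degree form. -/
def levelCocycles₂ : Submodule k (G × G → A) := cocycles₂ A ⊓ levelCochains₂ 𝒰 A

/-- Level 2-coboundaries: coboundaries of LEVEL 1-cochains. -/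
def levelCoboundaries₂ : Submodule k (G × G → A) := (levelCochains₁ 𝒰 A).map (d₁₂ A).hom

/-- Level 1-cocycles in Mathlib's low-degree form. -/
def levelCocycles₁ : Submodule k (G → A) := cocycles₁ A ⊓ levelCochains₁ 𝒰 A

lemma mem_levelCocycles₂_iff (f : G × G → A) :
    f ∈ levelCocycles₂ 𝒰 A ↔ f ∈ cocycles₂ A ∧ IsLevel₂ 𝒰 f := by
  rw [levelCocycles₂, Submodule.mem_inf, mem_levelCochains₂_iff]

lemma mem_levelCocycles₁_iff (f : G → A) :
    f ∈ levelCocycles₁ 𝒰 A ↔ f ∈ cocycles₁ A ∧ IsLevel₁ 𝒰 f := by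
  rw [levelCocycles₁, Submodule.mem_inf, mem_levelCochains₁_iff]

lemma mem_levelCoboundaries₂_iff (f : G × G → A) :
    f ∈ levelCoboundaries₂ 𝒰 A ↔ ∃ x : G → A, IsLevel₁ 𝒰 x ∧ (d₁₂ A).hom x = f := by
  simp only [levelCoboundaries₂, Submodule.mem_map, mem_levelCochains₁_iff]

/-- Compatibility of the differentials (degree 1 → 2), elementwise. -/
lemma d_cochainsIso₁_inv (x : G → A) :
    (inhomogeneousCochains.d A 1).hom ((cochainsIso₁ A).inv.hom x) =
      (cochainsIso₂ A).inv.hom ((d₁₂ A).hom x) := by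
  have := congrArg (fun φ => ModuleCat.Hom.hom φ x) (eq_d₁₂_comp_inv A)
  simpa [CochainComplex.of.d] using this

/-- Compatibility of the differentials (degree 2 → 3), elementwise. -/
lemma d_cochainsIso₂_inv (x : G × G → A) :
    (inhomogeneousCochains.d A 2).hom ((cochainsIso₂ A).inv.hom x) =
      (cochainsIso₃ A).inv.hom ((d₂₃ A).hom x) := by
  have := congrArg (fun φ => ModuleCat.Hom.hom φ x) (eq_d₂₃_comp_inv A)
  simpa [CochainComplex.of.d] using this

/-- Compatibility of the differentials (degree 0 → 1), elementwise. -/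
lemma d_cochainsIso₀_inv (x : A) :
    (inhomogeneousCochains.d A 0).hom ((cochainsIso₀ A).inv.hom x) =
      (cochainsIso₁ A).inv.hom ((d₀₁ A).hom x) := by
  have := congrArg (fun φ => ModuleCat.Hom.hom φ x) (eq_d₀₁_comp_inv A)
  simpa [CochainComplex.of.d] using this

lemma cochainsIso₂_inv_injective : Function.Injective (cochainsIso₂ A).inv.hom :=
  (ModuleCat.mono_iff_injective _).1 inferInstance

lemma cochainsIso₃_inv_injective : Function.Injective (cochainsIso₃ A).inv.hom :=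
  (ModuleCat.mono_iff_injective _).1 inferInstance

lemma cochainsIso₁_inv_injective : Function.Injective (cochainsIso₁ A).inv.hom :=
  (ModuleCat.mono_iff_injective _).1 inferInstance

end Cochains

section H2

variable {k G : Type u} [CommRing k] [Group G] (𝒰 : LevelStructure G) (A : Rep.{u} k G)
  [IsDiscrete 𝒰 A]

/-- A level 2-cocycle in low-degree form gives a level cocycle of degree 2. -/
noncomputable def levelCocycles₂ToLevelCocycles :
    levelCocycles₂ 𝒰 A →ₗ[k] levelCocycles 𝒰 A 2 :=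
  ((cochainsIso₂ A).inv.hom.comp (levelCocycles₂ 𝒰 A).subtype).codRestrict _ (by
    rintro ⟨f, hf1, hf2⟩
    refine ⟨hf2, ?_⟩
    show (inhomogeneousCochains.d A 2).hom ((cochainsIso₂ A).inv.hom f) = 0
    rw [d_cochainsIso₂_inv]
    have : (d₂₃ A).hom f = 0 := hf1
    rw [this, map_zero])

/-- The projection from level 2-cocycles (low-degree form) to `H²` of the level complex. -/
noncomputable def levelH2π : levelCocycles₂ 𝒰 A →ₗ[k] levelCohomology 𝒰 A 2 :=
  (levelπ 𝒰 A 2).hom.comp (levelCocycles₂ToLevelCocycles 𝒰 A)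

lemma levelH2π_surjective : Function.Surjective (levelH2π 𝒰 A) := by
  intro x
  obtain ⟨z, rfl⟩ := levelπ_surjective 𝒰 A 2 x
  refine ⟨⟨(cochainsIso₂ A).hom.hom z.1, ?_, ?_⟩, ?_⟩
  · show (d₂₃ A).hom ((cochainsIso₂ A).hom.hom z.1) = 0
    apply cochainsIso₃_inv_injective
    rw [← d_cochainsIso₂_inv, map_zero]
    have h1 : (cochainsIso₂ A).inv.hom ((cochainsIso₂ A).hom.hom z.1) = z.1 := by
      exact congrArg (fun φ => ModuleCat.Hom.hom φ z.1) (cochainsIso₂ A).hom_inv_id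
    rw [h1]
    exact z.2.2
  · show (cochainsIso₂ A).inv.hom ((cochainsIso₂ A).hom.hom z.1) ∈ levelCochains 𝒰 A 2
    have h1 : (cochainsIso₂ A).inv.hom ((cochainsIso₂ A).hom.hom z.1) = z.1 := by
      exact congrArg (fun φ => ModuleCat.Hom.hom φ z.1) (cochainsIso₂ A).hom_inv_id
    rw [h1]
    exact z.2.1
  · show (levelπ 𝒰 A 2).hom _ = (levelπ 𝒰 A 2).hom z
    congr 1
    apply Subtype.ext
    exact congrArg (fun φ => ModuleCat.Hom.hom φ z.1) (cochainsIso₂ A).hom_inv_id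

/-- A level 2-cocycle dies in level `H²` iff it is the coboundary of a LEVEL 1-cochain. -/
theorem levelH2π_eq_zero_iff (z : levelCocycles₂ 𝒰 A) :
    levelH2π 𝒰 A z = 0 ↔ z.1 ∈ levelCoboundaries₂ 𝒰 A := by
  show (levelπ 𝒰 A 2).hom (levelCocycles₂ToLevelCocycles 𝒰 A z) = 0 ↔ _
  rw [levelπ_eq_zero_iff]
  constructor
  · rintro ⟨y, hy, hyz⟩
    refine ⟨(cochainsIso₁ A).hom.hom y, ?_, ?_⟩
    · show (cochainsIso₁ A).inv.hom ((cochainsIso₁ A).hom.hom y) ∈ levelCochains 𝒰 A 1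
      have h1 : (cochainsIso₁ A).inv.hom ((cochainsIso₁ A).hom.hom y) = y :=
        congrArg (fun φ => ModuleCat.Hom.hom φ y) (cochainsIso₁ A).hom_inv_id
      rw [h1]; exact hy
    · apply cochainsIso₂_inv_injective
      rw [← d_cochainsIso₁_inv]
      have h1 : (cochainsIso₁ A).inv.hom ((cochainsIso₁ A).hom.hom y) = y :=
        congrArg (fun φ => ModuleCat.Hom.hom φ y) (cochainsIso₁ A).hom_inv_id
      rw [h1]
      exact hyz
  · rintro ⟨x, hx, hxz⟩
    refine ⟨(cochainsIso₁ A).inv.hom x, hx, ?_⟩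
    rw [d_cochainsIso₁_inv, hxz]
    rfl

theorem levelH2π_eq_iff (z z' : levelCocycles₂ 𝒰 A) :
    levelH2π 𝒰 A z = levelH2π 𝒰 A z' ↔ z.1 - z'.1 ∈ levelCoboundaries₂ 𝒰 A := by
  rw [← sub_eq_zero, ← map_sub, levelH2π_eq_zero_iff]
  rfl

lemma levelCoboundaries₂_le_levelCocycles₂ : levelCoboundaries₂ 𝒰 A ≤ levelCocycles₂ 𝒰 A := by
  rintro _ ⟨x, hx, rfl⟩
  refine ⟨d₁₂_apply_mem_cocycles₂ x, ?_⟩
  show (cochainsIso₂ A).inv.hom ((d₁₂ A).hom x) ∈ levelCochains 𝒰 A 2
  rw [← d_cochainsIso₁_inv]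
  exact d_mem_levelCochains hx

/-- `H²` of the level complex as level cocycles modulo coboundaries of level cochains. -/
noncomputable def levelH2Equiv :
    (levelCocycles₂ 𝒰 A ⧸ (levelCoboundaries₂ 𝒰 A).comap (levelCocycles₂ 𝒰 A).subtype) ≃ₗ[k]
      levelCohomology 𝒰 A 2 :=
  (Submodule.quotEquivOfEq _ _ (by
    ext z
    rw [LinearMap.mem_ker, levelH2π_eq_zero_iff]
    rfl)).trans
    ((levelH2π 𝒰 A).quotKerEquivOfSurjective (levelH2π_surjective 𝒰 A))

@[simp]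
lemma levelH2Equiv_mk (z : levelCocycles₂ 𝒰 A) :
    levelH2Equiv 𝒰 A (Submodule.Quotient.mk z) = levelH2π 𝒰 A z := rfl

end H2

end

end Fermat.Agent.S55.Level
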