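/-
S55 foundation, part 5: the level structures on `Gal(Q̄/ℚ)` ("G_S") and on a group mapping to
`Gal(Q̄/ℚ)` (local Galois groups), and the comparison with the frozen level-constancy predicates.
-/
import Fermat.Agent.S55.InertiaConj
import Fermat.Agent.S55.LevelLow

set_option autoImplicit false

open CategoryTheory groupCohomology

namespace Fermat.Agent.S55.Level

local notation "Qbar" => AlgebraicClosure ℚ
local notation "Γ" => (AlgebraicClosure ℚ ≃ₐ[ℚ] AlgebraicClosure ℚ)

open Fermat.Agent.S55.InertiaConj

theorem isGalois_Qbar : IsGalois ℚ Qbar :=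
  haveI : IsAlgClosure ℚ Qbar := ⟨inferInstance, AlgebraicClosure.isAlgebraic ℚ⟩
  inferInstance

/-- The fixing subgroup of a finite extension has finite index. -/
theorem finiteIndex_fixingSubgroup (F : IntermediateField ℚ Qbar) (hF : FiniteDimensional ℚ F) :
    F.fixingSubgroup.FiniteIndex := by
  have := isGalois_Qbar
  constructor
  rw [← IntermediateField.finrank_eq_fixingSubgroup_index]
  exact Module.finrank_pos.ne'

/-- The fixing subgroup of the normal closure is contained in the normal core of the fixing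
subgroup. -/
theorem fixingSubgroup_normalClosure_le (F : IntermediateField ℚ Qbar) :
    (IntermediateField.normalClosure ℚ F Qbar).fixingSubgroup ≤ F.fixingSubgroup.normalCore := by
  intro σ hσ τ
  rw [IntermediateField.mem_fixingSubgroup_iff] at hσ ⊢
  intro x hx
  have hdef := IntermediateField.normalClosure_def'' (F := ℚ) (L := Qbar) F
  have hmem : τ⁻¹ x ∈ IntermediateField.normalClosure ℚ F Qbar := by
    refine (le_of_eq hdef.symm) ?_
    refine (le_iSup (fun f : Γ => F.map (f : Qbar →ₐ[ℚ] Qbar)) τ⁻¹) ?_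
    exact ⟨x, hx, rfl⟩
  have h := hσ _ hmem
  show τ (σ (τ⁻¹ x)) = x
  rw [h]
  exact τ.apply_symm_apply x

section Global

variable (S : Finset Nat.Primes)

/-- The level structure of `G_S` on `Gal(Q̄/ℚ)`: the normal subgroups containing `Gal(Q̄/F)` for
some finite `F` unramified outside `S`. -/
noncomputable def globalLevel : LevelStructure Γ where
  sets := {U | U.Normal ∧ ∃ F : IntermediateField ℚ Qbar, F.IsUnramifiedOutside S ∧
    F.fixingSubgroup ≤ U}
  nonempty := ⟨⊤, inferInstance, ⊥, IntermediateField.isUnramifiedOutside_bot S, le_top⟩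
  normal := fun _ hU => hU.1
  finiteIndex := by
    rintro U ⟨_, F, hF, hFU⟩
    have := finiteIndex_fixingSubgroup F hF.1
    exact Subgroup.finiteIndex_of_le hFU
  directed := by
    rintro U ⟨hUn, F, hF, hFU⟩ V ⟨hVn, F', hF', hFV⟩
    refine ⟨U ⊓ V, ⟨Subgroup.normal_inf_normal U V, F ⊔ F', hF.sup hF', ?_⟩, le_rfl⟩
    rw [IntermediateField.fixingSubgroup_sup]
    exact inf_le_inf hFU hFV

lemma mem_globalLevel_iff (U : Subgroup Γ) :
    U ∈ (globalLevel S).sets ↔ U.Normal ∧ ∃ F : IntermediateField ℚ Qbar,
      F.IsUnramifiedOutside S ∧ F.fixingSubgroup ≤ U := Iff.rfl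

/-- For `F` unramified outside `S`, the normal core of `Gal(Q̄/F)` is a member of the global level
structure. -/
lemma normalCore_mem_globalLevel {F : IntermediateField ℚ Qbar} (hF : F.IsUnramifiedOutside S) :
    F.fixingSubgroup.normalCore ∈ (globalLevel S).sets :=
  ⟨inferInstance, _, isUnramifiedOutside_normalClosure hF, fixingSubgroup_normalClosure_le F⟩

/-- The frozen predicate `IsLevelConstantS₁` is `IsLevel₁` for the global level structure. -/
theorem isLevelConstantS₁_iff {X : Type*} (f : Γ → X) :
    IsLevelConstantS₁ S f ↔ IsLevel₁ (globalLevel S) f := by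
  constructor
  · rintro ⟨F, hF, h⟩
    exact ⟨_, normalCore_mem_globalLevel S hF, fun g s hs =>
      h g s (Subgroup.normalCore_le _ hs)⟩
  · rintro ⟨U, ⟨_, F, hF, hFU⟩, h⟩
    exact ⟨F, hF, fun g s hs => h g s (hFU hs)⟩

/-- The frozen predicate `IsLevelConstantS₂` is `IsLevel₂` for the global level structure. -/
theorem isLevelConstantS₂_iff {X : Type*} (f : Γ × Γ → X) :
    IsLevelConstantS₂ S f ↔ IsLevel₂ (globalLevel S) f := by
  constructor
  · rintro ⟨F, hF, h⟩
    exact ⟨_, normalCore_mem_globalLevel S hF, fun g g' s hs s' hs' =>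
      h g g' s s' (Subgroup.normalCore_le _ hs) (Subgroup.normalCore_le _ hs')⟩
  · rintro ⟨U, ⟨_, F, hF, hFU⟩, h⟩
    exact ⟨F, hF, fun g g' s s' hs hs' => h g g' s (hFU hs) s' (hFU hs')⟩

end Global

section Local

universe u

variable {H : Type} [Group H] (r : H →* Γ)

/-- The level structure on a group `H` mapping to `Gal(Q̄/ℚ)`: the normal subgroups containing
the preimage of `Gal(Q̄/F)` for some finite `F`. -/
noncomputable def localLevel : LevelStructure H where
  sets := {V | V.Normal ∧ ∃ F : IntermediateField ℚ Qbar, FiniteDimensional ℚ F ∧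
    F.fixingSubgroup.comap r ≤ V}
  nonempty := ⟨⊤, inferInstance, ⊥, inferInstance, le_top⟩
  normal := fun _ hV => hV.1
  finiteIndex := by
    rintro V ⟨_, F, hF, hFV⟩
    have := finiteIndex_fixingSubgroup F hF
    have h1 : (F.fixingSubgroup.normalCore.comap r).FiniteIndex := by
      constructor
      rw [Subgroup.index_comap]
      exact ne_zero_of_dvd_ne_zero Subgroup.FiniteIndex.index_ne_zero
        (Subgroup.relIndex_dvd_index_of_normal _ _)
    exact Subgroup.finiteIndex_of_le
      ((Subgroup.comap_mono (Subgroup.normalCore_le _)).trans hFV)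
  directed := by
    rintro U ⟨hUn, F, hF, hFU⟩ V ⟨hVn, F', hF', hFV⟩
    have := hF; haveI := hF'
    refine ⟨U ⊓ V, ⟨Subgroup.normal_inf_normal U V, F ⊔ F',
      IntermediateField.finiteDimensional_sup F F', ?_⟩, le_rfl⟩
    rw [IntermediateField.fixingSubgroup_sup, Subgroup.comap_inf]
    exact inf_le_inf hFU hFV

lemma normalCore_comap_mem_localLevel {F : IntermediateField ℚ Qbar}
    (hF : FiniteDimensional ℚ F) :
    F.fixingSubgroup.normalCore.comap r ∈ (localLevel r).sets := by
  have := hF
  refine ⟨inferInstance, IntermediateField.normalClosure ℚ F Qbar, inferInstance, ?_⟩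
  exact Subgroup.comap_mono (fixingSubgroup_normalClosure_le F)

/-- The frozen predicate `IsLevelConstant₁ r` is `IsLevel₁` for the local level structure. -/
theorem isLevelConstant₁_iff {X : Type*} (f : H → X) :
    IsLevelConstant₁ r f ↔ IsLevel₁ (localLevel r) f := by
  constructor
  · rintro ⟨F, hF, h⟩
    exact ⟨_, normalCore_comap_mem_localLevel r hF, fun g s hs =>
      h g s (Subgroup.normalCore_le _ hs)⟩
  · rintro ⟨U, ⟨_, F, hF, hFU⟩, h⟩
    exact ⟨F, hF, fun g s hs => h g s (hFU hs)⟩

/-- The frozen predicate `IsLevelConstant₂ r` is `IsLevel₂` for the local level structure. -/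
theorem isLevelConstant₂_iff {X : Type*} (f : H × H → X) :
    IsLevelConstant₂ r f ↔ IsLevel₂ (localLevel r) f := by
  constructor
  · rintro ⟨F, hF, h⟩
    exact ⟨_, normalCore_comap_mem_localLevel r hF, fun g g' s hs s' hs' =>
      h g g' s s' (Subgroup.normalCore_le _ hs) (Subgroup.normalCore_le _ hs')⟩
  · rintro ⟨U, ⟨_, F, hF, hFU⟩, h⟩
    exact ⟨F, hF, fun g g' s s' hs hs' => h g g' s (hFU hs) s' (hFU hs')⟩

/-- The local level structure refines the pullback of every global one. -/
theorem localLevel_refines (S : Finset Nat.Primes) :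
    (localLevel r).Refines (globalLevel S) r := by
  rintro U ⟨hUn, F, hF, hFU⟩
  have := hUn
  refine ⟨U.comap r, ⟨inferInstance, F, hF.1, Subgroup.comap_mono hFU⟩, le_rfl⟩

end Local

end Fermat.Agent.S55.Level
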