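/-
S55 (T4), block LO4 / L5: the local dictionary.
`ι = padicEmbedding q : ℚ̄ → PadicAlgCl q`, `r = localGaloisToGlobal q : Gal(PadicAlgCl q/ℚ_q) → G_ℚ`.
* (D1) `ι` has dense range;
* (D2) `r` is injective;
* (D3) the range of `r` is the decomposition group of `padicPlace q`;
* (D5)/(D6) Krasner cofinality of the level subgroups `r⁻¹ Gal(ℚ̄/F)` among the open subgroups.
-/
import Mathlib
import Fermat.Prelude.Def_GaloisRep_CompletionBridge

set_option autoImplicit false
set_option linter.style.haveILetI false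

namespace Fermat.Agent.S55.LocalDict

open Polynomial IntermediateField
open scoped Pointwise

variable (q : ℕ) [Fact q.Prime]

local notation "Qbar" => AlgebraicClosure ℚ

/-! ### (D1) density of `ℚ̄` in `PadicAlgCl q` -/

/-- Elements of `PadicAlgCl q` algebraic over `ℚ` lie in the image of `ℚ̄`. -/
theorem mem_range_padicEmbedding_of_isAlgebraic {b : PadicAlgCl q} (hb : IsAlgebraic ℚ b) :
    b ∈ Set.range (padicEmbedding q) := by
  have hs : ((minpoly ℚ b).map (algebraMap ℚ Qbar)).Splits := IsAlgClosed.splits _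
  have h0 : (minpoly ℚ b).map (algebraMap ℚ Qbar) ≠ 0 :=
    (Polynomial.map_ne_zero_iff (algebraMap ℚ Qbar).injective).mpr (minpoly.ne_zero hb.isIntegral)
  have hroot : (((minpoly ℚ b).map (algebraMap ℚ Qbar)).map
      (padicEmbedding q).toRingHom).IsRoot b := by
    rw [Polynomial.map_map, AlgHom.toRingHom_eq_coe, AlgHom.comp_algebraMap, IsRoot.def,
      Polynomial.eval_map_algebraMap, minpoly.aeval]
  obtain ⟨a, ha⟩ := hs.mem_range_of_isRoot h0 hroot
  exact ⟨a, ha⟩

theorem denseRange_padicEmbedding : DenseRange (padicEmbedding q) := by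
  rw [Metric.denseRange_iff]
  intro α ε hε
  set f := minpoly ℚ_[q] α with hf
  have hfm : f.Monic := minpoly.monic (Algebra.IsIntegral.isIntegral α)
  have hfa : f.aeval α = 0 := minpoly.aeval _ _
  have hn0 : f.natDegree ≠ 0 :=
    (minpoly.natDegree_pos (Algebra.IsIntegral.isIntegral α)).ne'
  have hmax : (0 : ℝ) < max ‖α‖ 1 := by positivity
  have hε' : (ε / (max ‖α‖ 1)) ^ f.natDegree / (f.natDegree + 1) > 0 := by positivity
  have hd : DenseRange (algebraMap ℚ ℚ_[q]) := Padic.denseRange_ratCast q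
  obtain ⟨g, gmon, gdeg, gcoeff⟩ :=
    exists_monic_and_natDegree_eq_and_norm_map_algebraMap_coeff_sub_lt hd hfm hε'
  obtain ⟨b, hb, hab⟩ := exists_aroots_norm_sub_lt_of_norm_coeff_sub_lt (L := PadicAlgCl q)
      hε' hfa hfm (gmon.map _) (gdeg ▸ (g.natDegree_map _)) gcoeff (IsAlgClosed.splits _)
  have hab' : ‖α - b‖ < ε := by
    rw [← Real.rpow_natCast, ← mul_comm_div, div_self, one_mul,
        ← Real.rpow_mul (div_pos hε hmax).le, mul_inv_cancel₀] at hab
    · simpa [mul_assoc, div_mul_cancel₀ _ hmax.ne'] using hab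
    · simp [hn0]
    · positivity
  have hbalg : IsAlgebraic ℚ b := by
    rw [Polynomial.mem_aroots] at hb
    refine ⟨g, gmon.ne_zero, ?_⟩
    have h2 := hb.2
    rwa [Polynomial.aeval_map_algebraMap] at h2
  obtain ⟨a, rfl⟩ := mem_range_padicEmbedding_of_isAlgebraic q hbalg
  exact ⟨a, by rwa [dist_eq_norm]⟩

/-! ### (D2) injectivity of `localGaloisToGlobal` -/

theorem isometry_algEquiv (τ : PadicAlgCl q ≃ₐ[ℚ_[q]] PadicAlgCl q) : Isometry τ := by
  refine AddMonoidHomClass.isometry_of_norm τ fun x => ?_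
  have := nnnorm_padicAlgCl_algEquiv q τ x
  exact congrArg NNReal.toReal this

theorem continuous_algEquiv (τ : PadicAlgCl q ≃ₐ[ℚ_[q]] PadicAlgCl q) : Continuous τ :=
  (isometry_algEquiv q τ).continuous

/-- An automorphism of `PadicAlgCl q` over `ℚ_q` is determined by its values on `ℚ̄`. -/
theorem algEquiv_ext_of_padicEmbedding {τ τ' : PadicAlgCl q ≃ₐ[ℚ_[q]] PadicAlgCl q}
    (h : ∀ x : Qbar, τ (padicEmbedding q x) = τ' (padicEmbedding q x)) : τ = τ' := by
  have := (denseRange_padicEmbedding q).equalizer (continuous_algEquiv q τ)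
    (continuous_algEquiv q τ') (funext h)
  exact AlgEquiv.ext fun x => congrFun this x

theorem localGaloisToGlobal_injective : Function.Injective (localGaloisToGlobal q) := by
  intro τ τ' h
  apply algEquiv_ext_of_padicEmbedding
  intro x
  rw [← padicEmbedding_localGaloisToGlobal, ← padicEmbedding_localGaloisToGlobal, h]

/-! ### (D3) the image of `localGaloisToGlobal` is the decomposition group -/

section Decomposition

/-- The absolute value on `ℚ̄` induced by `ι`. -/
noncomputable def absQbar : AbsoluteValue Qbar ℝ :=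
  (NormedField.toAbsoluteValue (PadicAlgCl q)).comp (padicEmbedding q).toRingHom.injective

theorem absQbar_apply (x : Qbar) : absQbar q x = ‖padicEmbedding q x‖ := rfl

theorem mem_padicPlace_iff_absQbar {x : Qbar} : x ∈ padicPlace q ↔ absQbar q x ≤ 1 := by
  rw [mem_padicPlace_iff, absQbar_apply, ← NNReal.coe_le_coe]
  rfl

theorem absQbar_natCast_prime : absQbar q (q : Qbar) = (q : ℝ)⁻¹ := by
  rw [absQbar_apply, map_natCast]
  have h : ((q : ℚ_[q]) : PadicAlgCl q) = (q : PadicAlgCl q) := map_natCast _ _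
  rw [← h, PadicAlgCl.norm_extends, Padic.norm_p]

variable {q}

theorem apply_mem_padicPlace_iff {σ : Qbar ≃ₐ[ℚ] Qbar}
    (hσ : σ ∈ (padicPlace q).decompositionSubgroup ℚ) (x : Qbar) :
    σ x ∈ padicPlace q ↔ x ∈ padicPlace q := by
  rw [ValuationSubring.decompositionSubgroup, MulAction.mem_stabilizer_iff] at hσ
  conv_lhs => rw [← hσ]
  rw [ValuationSubring.mem_pointwise_smul_iff_inv_smul_mem, AlgEquiv.smul_def,
    AlgEquiv.aut_inv, AlgEquiv.symm_apply_apply]

/-- Elements of the decomposition group are isometries for the `q`-adic absolute value. -/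
theorem absQbar_apply_of_mem_decompositionSubgroup {σ : Qbar ≃ₐ[ℚ] Qbar}
    (hσ : σ ∈ (padicPlace q).decompositionSubgroup ℚ) (x : Qbar) :
    absQbar q (σ x) = absQbar q x := by
  set v := absQbar q with hv
  set w : AbsoluteValue Qbar ℝ := v.comp (f := (σ : Qbar →+* Qbar)) σ.injective with hw
  have hw_apply : ∀ y, w y = v (σ y) := fun y => rfl
  have hq1 : (1 : ℝ) < q := by exact_mod_cast (Fact.out : q.Prime).one_lt
  have hq0 : (0 : ℝ) < q := by linarith
  have hvq : v (q : Qbar) = (q : ℝ)⁻¹ := absQbar_natCast_prime q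
  have hnt : v.IsNontrivial := by
    refine ⟨(q : Qbar), ?_, ?_⟩
    · exact_mod_cast (Fact.out : q.Prime).ne_zero
    · rw [hvq]
      intro h
      rw [inv_eq_one] at h
      linarith
  have himp : ∀ y, v y < 1 → w y < 1 := by
    intro y hy
    rcases eq_or_ne y 0 with rfl | hy0
    · rw [map_zero]; exact one_pos
    rw [hw_apply]
    by_contra hcon
    rw [not_lt] at hcon
    have h1 : (σ y)⁻¹ ∈ padicPlace q := by
      rw [mem_padicPlace_iff_absQbar, map_inv₀]
      exact inv_le_one_of_one_le₀ hcon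
    rw [← map_inv₀, apply_mem_padicPlace_iff hσ, mem_padicPlace_iff_absQbar, map_inv₀] at h1
    have h2 : 1 ≤ absQbar q y := by
      have hpos : 0 < absQbar q y := (absQbar q).pos hy0
      have h3 := (one_le_inv₀ (inv_pos.mpr hpos)).mpr h1
      rwa [inv_inv] at h3
    exact absurd hy (not_lt.mpr h2)
  obtain ⟨c, hc, hcw⟩ := AbsoluteValue.isEquiv_iff_exists_rpow_eq.mp
    (AbsoluteValue.isEquiv_of_lt_one_imp hnt himp)
  have hcq : ((q : ℝ)⁻¹) ^ c = (q : ℝ)⁻¹ := by
    have := congrFun hcw (q : Qbar)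
    simp only [hw_apply, map_natCast] at this
    rwa [hvq] at this
  have hc1 : c = 1 := by
    have hlog := congrArg Real.log hcq
    rw [Real.log_rpow (inv_pos.mpr hq0)] at hlog
    have hne : Real.log ((q : ℝ)⁻¹) ≠ 0 := by
      rw [Real.log_inv, neg_ne_zero]
      exact (Real.log_pos hq1).ne'
    exact mul_right_cancel₀ hne (by rw [hlog, one_mul])
  have := congrFun hcw x
  simp only [hc1, Real.rpow_one] at this
  rw [← hw_apply, ← this]

/-- **(D3), existence**: every element of the decomposition group of `padicPlace q` comes from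
an automorphism of `PadicAlgCl q` over `ℚ_q`. -/
theorem exists_localGaloisToGlobal_eq {σ : Qbar ≃ₐ[ℚ] Qbar}
    (hσ : σ ∈ (padicPlace q).decompositionSubgroup ℚ) :
    ∃ τ : PadicAlgCl q ≃ₐ[ℚ_[q]] PadicAlgCl q, localGaloisToGlobal q τ = σ := by
  -- `ℚ̄` as a normed field through `ι`
  letI : NormedField Qbar := NormedField.induced Qbar (PadicAlgCl q) (padicEmbedding q).toRingHom
    (padicEmbedding q).toRingHom.injective
  have hnorm : ∀ x : Qbar, ‖x‖ = absQbar q x := fun x => rfl
  -- the dense embedding `i : ℚ̄ → ℂ_q`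
  let i : Qbar →+* ℂ_[q] := (algebraMap (PadicAlgCl q) ℂ_[q]).comp (padicEmbedding q).toRingHom
  have hi_iso : Isometry i := by
    refine AddMonoidHomClass.isometry_of_norm i fun x => ?_
    show ‖((padicEmbedding q x : PadicAlgCl q) : ℂ_[q])‖ = _
    rw [PadicComplex.norm_extends]
    rfl
  have ue : IsUniformInducing i := hi_iso.isUniformInducing
  have dr : DenseRange i :=
    UniformSpace.Completion.denseRange_coe.comp (denseRange_padicEmbedding q)
      (UniformSpace.Completion.continuous_coe _)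
  -- `σ` is an isometry
  let f : Qbar →+* ℂ_[q] := i.comp (σ : Qbar →+* Qbar)
  have hf_iso : Isometry f := by
    refine AddMonoidHomClass.isometry_of_norm f fun x => ?_
    show ‖i (σ x)‖ = ‖x‖
    rw [(AddMonoidHomClass.isometry_iff_norm i).mp hi_iso, hnorm, hnorm,
      absQbar_apply_of_mem_decompositionSubgroup hσ]
  have hf : UniformContinuous f := hf_iso.uniformContinuous
  -- the extension to `ℂ_q`
  let T : ℂ_[q] →+* ℂ_[q] := IsDenseInducing.extendRingHom ue dr hf
  have hT_cont : Continuous T := (uniformContinuous_uniformly_extend ue dr hf).continuous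
  have hT_i : ∀ x : Qbar, T (i x) = i (σ x) := fun x =>
    IsDenseInducing.extend_eq (ue.isDenseInducing dr) hf.continuous x
  -- `T` fixes `ℚ_q`
  have hT_Qq : ∀ a : ℚ_[q], T (algebraMap ℚ_[q] ℂ_[q] a) = algebraMap ℚ_[q] ℂ_[q] a := by
    have h1 : Continuous (algebraMap ℚ_[q] ℂ_[q]) := continuous_algebraMap _ _
    have h2 := (Padic.denseRange_ratCast q).equalizer (hT_cont.comp h1) h1 (funext fun r => by
      show T (algebraMap ℚ_[q] ℂ_[q] (r : ℚ_[q])) = algebraMap ℚ_[q] ℂ_[q] (r : ℚ_[q])
      rw [map_ratCast, ← map_ratCast i r, hT_i, map_ratCast])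
    exact fun a => congrFun h2 a
  let TA : ℂ_[q] →ₐ[ℚ_[q]] ℂ_[q] := { T with commutes' := hT_Qq }
  let j : PadicAlgCl q →ₐ[ℚ_[q]] ℂ_[q] := IsScalarTower.toAlgHom ℚ_[q] (PadicAlgCl q) ℂ_[q]
  have hj_inj : Function.Injective j := (algebraMap (PadicAlgCl q) ℂ_[q]).injective
  -- `T` preserves the algebraic elements
  have hrange : ∀ α : PadicAlgCl q, TA (j α) ∈ j.range := by
    intro α
    have hs : ((minpoly ℚ_[q] α).map (algebraMap ℚ_[q] (PadicAlgCl q))).Splits :=
      IsAlgClosed.splits _
    have h0 : (minpoly ℚ_[q] α).map (algebraMap ℚ_[q] (PadicAlgCl q)) ≠ 0 :=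
      (Polynomial.map_ne_zero_iff (algebraMap ℚ_[q] (PadicAlgCl q)).injective).mpr
        (minpoly.ne_zero (Algebra.IsIntegral.isIntegral α))
    have hroot : (((minpoly ℚ_[q] α).map (algebraMap ℚ_[q] (PadicAlgCl q))).map
        (algebraMap (PadicAlgCl q) ℂ_[q])).IsRoot (TA (j α)) := by
      rw [Polynomial.map_map, ← IsScalarTower.algebraMap_eq, IsRoot.def,
        Polynomial.eval_map_algebraMap, Polynomial.aeval_algHom_apply,
        Polynomial.aeval_algHom_apply, minpoly.aeval, map_zero, map_zero]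
    obtain ⟨b, hb⟩ := hs.mem_range_of_isRoot h0 hroot
    exact ⟨b, hb⟩
  let τ₀ : PadicAlgCl q →ₐ[ℚ_[q]] PadicAlgCl q :=
    (AlgEquiv.ofInjective j hj_inj).symm.toAlgHom.comp
      ((TA.comp j).codRestrict j.range hrange)
  have hτ₀ : ∀ α, j (τ₀ α) = TA (j α) := by
    intro α
    have := (AlgEquiv.ofInjective j hj_inj).apply_symm_apply
      ((TA.comp j).codRestrict j.range hrange α)
    exact congrArg Subtype.val this
  let τ : PadicAlgCl q ≃ₐ[ℚ_[q]] PadicAlgCl q :=
    AlgEquiv.ofBijective τ₀ (Algebra.IsAlgebraic.algHom_bijective τ₀)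
  refine ⟨τ, AlgEquiv.ext fun x => ?_⟩
  apply (padicEmbedding q).toRingHom.injective
  apply hj_inj
  show j (padicEmbedding q (localGaloisToGlobal q τ x)) = j (padicEmbedding q (σ x))
  rw [padicEmbedding_localGaloisToGlobal]
  exact (hτ₀ _).trans (hT_i x)

variable (q)

/-- **(D3)** The image of `Gal(PadicAlgCl q/ℚ_q)` in `G_ℚ` is the decomposition group of the
`q`-adic place of `ℚ̄`. -/
theorem range_localGaloisToGlobal :
    (localGaloisToGlobal q).range = (padicPlace q).decompositionSubgroup ℚ := by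
  ext σ
  constructor
  · rintro ⟨τ, rfl⟩
    exact localGaloisToGlobal_mem_decompositionSubgroup q τ
  · intro hσ
    exact exists_localGaloisToGlobal_eq hσ

/-- **(D4)** `Gal(PadicAlgCl q/ℚ_q) ≃* D(padicPlace q)`. -/
noncomputable def localGaloisEquivDecomposition :
    (PadicAlgCl q ≃ₐ[ℚ_[q]] PadicAlgCl q) ≃* (padicPlace q).decompositionSubgroup ℚ :=
  ((localGaloisToGlobal q).ofInjective (localGaloisToGlobal_injective q)).trans
    (MulEquiv.subgroupCongr (range_localGaloisToGlobal q))

@[simp]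
theorem coe_localGaloisEquivDecomposition (τ : PadicAlgCl q ≃ₐ[ℚ_[q]] PadicAlgCl q) :
    (localGaloisEquivDecomposition q τ : Qbar ≃ₐ[ℚ] Qbar) = localGaloisToGlobal q τ := rfl

end Decomposition

/-! ### (D5), (D6): level subgroups versus open subgroups -/

section Levels

/-- An automorphism fixes `F(S)` as soon as it fixes `S`. -/
theorem mem_fixingSubgroup_adjoin_iff {F E : Type*} [Field F] [Field E] [Algebra F E] (S : Set E)
    (τ : E ≃ₐ[F] E) :
    τ ∈ (IntermediateField.adjoin F S).fixingSubgroup ↔ ∀ s ∈ S, τ s = s := by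
  rw [IntermediateField.mem_fixingSubgroup_iff]
  constructor
  · intro h s hs
    exact h s (IntermediateField.subset_adjoin F S hs)
  · intro h x hx
    induction hx using IntermediateField.adjoin_induction with
    | mem x hx => exact h x hx
    | algebraMap x => exact τ.commutes x
    | add x y _ _ hx hy => rw [map_add, hx, hy]
    | inv x _ hx => rw [map_inv₀, hx]
    | mul x y _ _ hx hy => rw [map_mul, hx, hy]

/-- The local field `ℚ_q(ι F)` attached to a subfield `F` of `ℚ̄`. -/
noncomputable def localField (F : IntermediateField ℚ Qbar) :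
    IntermediateField ℚ_[q] (PadicAlgCl q) :=
  IntermediateField.adjoin ℚ_[q] (padicEmbedding q '' (F : Set Qbar))

/-- **(D6)** The level subgroup `r⁻¹ Gal(ℚ̄/F)` is the group of automorphisms fixing
`ℚ_q(ι F)`. -/
theorem comap_fixingSubgroup (F : IntermediateField ℚ Qbar) :
    F.fixingSubgroup.comap (localGaloisToGlobal q) = (localField q F).fixingSubgroup := by
  ext τ
  rw [Subgroup.mem_comap, IntermediateField.mem_fixingSubgroup_iff, localField,
    mem_fixingSubgroup_adjoin_iff]
  constructor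
  · rintro h _ ⟨x, hx, rfl⟩
    rw [← padicEmbedding_localGaloisToGlobal, h x hx]
  · intro h x hx
    apply (padicEmbedding q).toRingHom.injective
    show padicEmbedding q (localGaloisToGlobal q τ x) = padicEmbedding q x
    rw [padicEmbedding_localGaloisToGlobal]
    exact h _ ⟨x, hx, rfl⟩

end Levels

end Fermat.Agent.S55.LocalDict
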