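/-
S55 (T4), block LO4 / L5, part 2: Krasner cofinality.
Every finite subextension `K` of `PadicAlgCl q / ℚ_q` is contained in `ℚ_q(ι F)` for a finite
(normal) number field `F ⊆ ℚ̄`; the local fields `ℚ_q(ι F)` are finite (normal) over `ℚ_q`.
-/
import Mathlib
import Fermat.Agent.S55.LocalDict

set_option autoImplicit false
set_option linter.style.haveILetI false

namespace Fermat.Agent.S55.LocalDict

open Polynomial IntermediateField
open scoped Pointwise

variable (q : ℕ) [Fact q.Prime]

local notation "Qbar" => AlgebraicClosure ℚ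

local instance isAlgebraicQbar_LK : Algebra.IsAlgebraic ℚ (AlgebraicClosure ℚ) :=
  AlgebraicClosure.isAlgebraic ℚ
local instance isAlgClosureQbar_LK : IsAlgClosure ℚ (AlgebraicClosure ℚ) :=
  ⟨inferInstance, inferInstance⟩
local instance normalQbar_LK : Normal ℚ (AlgebraicClosure ℚ) :=
  IsAlgClosure.normal ℚ (AlgebraicClosure ℚ)

theorem exists_pos_forall_le {α : Type*} (S : Finset α) (f : α → ℝ) (hf : ∀ x ∈ S, 0 < f x) :
    ∃ δ > 0, ∀ x ∈ S, δ ≤ f x := by
  classical
  induction S using Finset.induction_on with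
  | empty => exact ⟨1, one_pos, by simp⟩
  | insert a s ha ih =>
    obtain ⟨δ, hδ, h⟩ := ih (fun x hx => hf x (Finset.mem_insert_of_mem hx))
    refine ⟨min δ (f a), lt_min hδ (hf a (Finset.mem_insert_self _ _)), ?_⟩
    intro x hx
    rcases Finset.mem_insert.mp hx with rfl | hx
    · exact min_le_right _ _
    · exact (min_le_left _ _).trans (h x hx)

/-- Krasner: every element of `PadicAlgCl q` lies in `ℚ_q(ι β)` for some `β ∈ ℚ̄`. -/
theorem exists_mem_adjoin_padicEmbedding (a : PadicAlgCl q) :
    ∃ β : Qbar, a ∈ ℚ_[q]⟮padicEmbedding q β⟯ := by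
  classical
  have hint : IsIntegral ℚ_[q] a := Algebra.IsIntegral.isIntegral a
  let S : Finset (PadicAlgCl q) :=
    ((minpoly ℚ_[q] a).rootSet (PadicAlgCl q)).toFinset.filter (· ≠ a)
  obtain ⟨δ, hδ, hS⟩ := exists_pos_forall_le S (fun x => ‖a - x‖) (by
    intro x hx
    simp only [Finset.mem_filter, S] at hx
    rw [norm_pos_iff, sub_ne_zero]
    exact hx.2.symm)
  obtain ⟨β, hβ⟩ := (Metric.denseRange_iff.mp (denseRange_padicEmbedding q)) a δ hδ
  refine ⟨β, ?_⟩
  refine IsKrasner.krasner (minpoly.irreducible hint).separable (IsAlgClosed.splits _)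
    (Algebra.IsIntegral.isIntegral _) ?_
  intro a' hconj hne
  rw [dist_eq_norm] at hβ
  refine lt_of_lt_of_le hβ (hS a' ?_)
  simp only [Finset.mem_filter, Set.mem_toFinset, S]
  exact ⟨(isConjRoot_iff_mem_minpoly_rootSet hint).mp hconj, fun h => hne h.symm⟩

/-! ### Basic properties of `localField` -/

theorem padicEmbedding_mem_localField {F : IntermediateField ℚ Qbar} {x : Qbar} (hx : x ∈ F) :
    padicEmbedding q x ∈ localField q F :=
  IntermediateField.subset_adjoin _ _ ⟨x, hx, rfl⟩

theorem localField_mono {F F' : IntermediateField ℚ Qbar} (h : F ≤ F') :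
    localField q F ≤ localField q F' :=
  IntermediateField.adjoin.mono _ _ _ (Set.image_mono h)

theorem localField_le_iff {F : IntermediateField ℚ Qbar}
    {K : IntermediateField ℚ_[q] (PadicAlgCl q)} :
    localField q F ≤ K ↔ ∀ x ∈ F, padicEmbedding q x ∈ K := by
  rw [localField, IntermediateField.adjoin_le_iff]
  constructor
  · intro h x hx
    exact h ⟨x, hx, rfl⟩
  · rintro h _ ⟨x, hx, rfl⟩
    exact h x hx

/-- `ℚ_q(ι ℚ(S)) = ℚ_q(ι S)`. -/
theorem localField_adjoin (S : Set Qbar) :
    localField q (IntermediateField.adjoin ℚ S) =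
      IntermediateField.adjoin ℚ_[q] (padicEmbedding q '' S) := by
  apply le_antisymm
  · rw [localField_le_iff]
    intro x hx
    induction hx using IntermediateField.adjoin_induction with
    | mem x hx => exact IntermediateField.subset_adjoin _ _ ⟨x, hx, rfl⟩
    | algebraMap x =>
      rw [AlgHom.commutes, IsScalarTower.algebraMap_apply ℚ ℚ_[q] (PadicAlgCl q)]
      exact IntermediateField.algebraMap_mem _ _
    | add x y _ _ hx hy => rw [map_add]; exact add_mem hx hy
    | inv x _ hx => rw [map_inv₀]; exact inv_mem hx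
    | mul x y _ _ hx hy => rw [map_mul]; exact mul_mem hx hy
  · exact IntermediateField.adjoin.mono _ _ _
      (Set.image_mono (IntermediateField.subset_adjoin ℚ S))

theorem localField_adjoin_simple (β : Qbar) :
    localField q ℚ⟮β⟯ = ℚ_[q]⟮padicEmbedding q β⟯ := by
  rw [localField_adjoin, Set.image_singleton]

theorem localField_sup (F F' : IntermediateField ℚ Qbar) :
    localField q (F ⊔ F') = localField q F ⊔ localField q F' := by
  apply le_antisymm
  · have h : F ⊔ F' = IntermediateField.adjoin ℚ ((F : Set Qbar) ∪ F') := by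
      rw [IntermediateField.adjoin_union, IntermediateField.adjoin_self,
        IntermediateField.adjoin_self]
    rw [h, localField_adjoin, Set.image_union, IntermediateField.adjoin_union]
    exact le_rfl
  · exact sup_le (localField_mono q le_sup_left) (localField_mono q le_sup_right)

/-- A finite-dimensional separable intermediate field is generated by one element. -/
theorem exists_eq_adjoin_simple_of_finiteDimensional {K E : Type*} [Field K] [Field E]
    [Algebra K E] [Algebra.IsSeparable K E] (F : IntermediateField K E)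
    [FiniteDimensional K F] : ∃ θ : E, F = K⟮θ⟯ := by
  obtain ⟨α, hα⟩ := Field.exists_primitive_element K F
  refine ⟨α, ?_⟩
  rw [← IntermediateField.lift_adjoin_simple, hα, IntermediateField.lift_top]

/-- A finite-dimensional subfield of `ℚ̄` is generated by one element. -/
theorem exists_eq_adjoin_simple (F : IntermediateField ℚ Qbar) [FiniteDimensional ℚ F] :
    ∃ θ : Qbar, F = ℚ⟮θ⟯ :=
  exists_eq_adjoin_simple_of_finiteDimensional F

instance finiteDimensional_localField (F : IntermediateField ℚ Qbar) [FiniteDimensional ℚ F] :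
    FiniteDimensional ℚ_[q] (localField q F) := by
  obtain ⟨θ, rfl⟩ := exists_eq_adjoin_simple F
  rw [localField_adjoin_simple]
  exact IntermediateField.adjoin.finiteDimensional (Algebra.IsIntegral.isIntegral _)

/-- `τ (ℚ_q(ι F)) = ℚ_q(ι (r τ) F)`. -/
theorem map_localField (F : IntermediateField ℚ Qbar)
    (τ : PadicAlgCl q ≃ₐ[ℚ_[q]] PadicAlgCl q) :
    (localField q F).map (τ : PadicAlgCl q →ₐ[ℚ_[q]] PadicAlgCl q) =
      localField q (F.map ((localGaloisToGlobal q τ : Qbar ≃ₐ[ℚ] Qbar) : Qbar →ₐ[ℚ] Qbar)) := by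
  rw [localField, IntermediateField.adjoin_map, localField]
  congr 1
  ext y
  constructor
  · rintro ⟨_, ⟨x, hx, rfl⟩, rfl⟩
    refine ⟨localGaloisToGlobal q τ x, ⟨x, hx, rfl⟩, ?_⟩
    rw [padicEmbedding_localGaloisToGlobal]
    rfl
  · rintro ⟨_, ⟨x, hx, rfl⟩, rfl⟩
    refine ⟨padicEmbedding q x, ⟨x, hx, rfl⟩, ?_⟩
    have := padicEmbedding_localGaloisToGlobal q τ x
    exact this.symm

instance normal_localField (F : IntermediateField ℚ Qbar) [Normal ℚ F] :
    Normal ℚ_[q] (localField q F) := by
  rw [IntermediateField.normal_iff_forall_map_eq']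
  intro τ
  rw [map_localField]
  congr 1
  exact (IntermediateField.normal_iff_forall_map_eq'.mp ‹Normal ℚ F›) _

/-! ### (D5) Krasner cofinality -/

/-- **(D5)** Every finite subextension of `PadicAlgCl q/ℚ_q` is contained in `ℚ_q(ι F)` for a
finite normal number field `F ⊆ ℚ̄`. -/
theorem exists_le_localField (K : IntermediateField ℚ_[q] (PadicAlgCl q))
    [FiniteDimensional ℚ_[q] K] :
    ∃ F : IntermediateField ℚ Qbar, FiniteDimensional ℚ F ∧ Normal ℚ F ∧ K ≤ localField q F := by
  obtain ⟨α, hK⟩ := exists_eq_adjoin_simple_of_finiteDimensional K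
  obtain ⟨β, hβ⟩ := exists_mem_adjoin_padicEmbedding q α
  have hfd : FiniteDimensional ℚ ℚ⟮β⟯ :=
    IntermediateField.adjoin.finiteDimensional (Algebra.IsIntegral.isIntegral β)
  refine ⟨IntermediateField.normalClosure ℚ ℚ⟮β⟯ Qbar,
    normalClosure.is_finiteDimensional ℚ ℚ⟮β⟯ Qbar, normalClosure.normal ℚ ℚ⟮β⟯ Qbar, ?_⟩
  rw [hK, IntermediateField.adjoin_simple_le_iff]
  have h1 : ℚ_[q]⟮padicEmbedding q β⟯ ≤
      localField q (IntermediateField.normalClosure ℚ ℚ⟮β⟯ Qbar) := by
    rw [← localField_adjoin_simple]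
    exact localField_mono q (IntermediateField.le_normalClosure _)
  exact h1 hβ

/-- **(D5)**, subgroup form: the level subgroups `r⁻¹ Gal(ℚ̄/F)` (`F` finite normal over `ℚ`) are
cofinal among the subgroups `Gal(PadicAlgCl q/K)`, `K/ℚ_q` finite. -/
theorem exists_comap_fixingSubgroup_le (K : IntermediateField ℚ_[q] (PadicAlgCl q))
    [FiniteDimensional ℚ_[q] K] :
    ∃ F : IntermediateField ℚ Qbar, FiniteDimensional ℚ F ∧ Normal ℚ F ∧
      F.fixingSubgroup.comap (localGaloisToGlobal q) ≤ K.fixingSubgroup := by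
  obtain ⟨F, h1, h2, h3⟩ := exists_le_localField q K
  refine ⟨F, h1, h2, ?_⟩
  rw [comap_fixingSubgroup]
  exact IntermediateField.fixingSubgroup_antitone h3

/-- The level subgroups are open in the Krull topology. -/
theorem isOpen_comap_fixingSubgroup (F : IntermediateField ℚ Qbar) [FiniteDimensional ℚ F] :
    IsOpen ((F.fixingSubgroup.comap (localGaloisToGlobal q) :
      Subgroup (PadicAlgCl q ≃ₐ[ℚ_[q]] PadicAlgCl q)) :
        Set (PadicAlgCl q ≃ₐ[ℚ_[q]] PadicAlgCl q)) := by
  rw [comap_fixingSubgroup]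
  exact IntermediateField.fixingSubgroup_isOpen _

/-- **(D5)+(D6)** A subgroup of `Gal(PadicAlgCl q/ℚ_q)` is open for the Krull topology iff it
contains a level subgroup `r⁻¹ Gal(ℚ̄/F)` with `F/ℚ` finite normal. -/
theorem isOpen_iff_exists_comap_fixingSubgroup_le
    (U : Subgroup (PadicAlgCl q ≃ₐ[ℚ_[q]] PadicAlgCl q)) :
    IsOpen (U : Set (PadicAlgCl q ≃ₐ[ℚ_[q]] PadicAlgCl q)) ↔
      ∃ F : IntermediateField ℚ Qbar, FiniteDimensional ℚ F ∧ Normal ℚ F ∧
        F.fixingSubgroup.comap (localGaloisToGlobal q) ≤ U := by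
  constructor
  · intro hU
    have h1 : (U : Set (PadicAlgCl q ≃ₐ[ℚ_[q]] PadicAlgCl q)) ∈ nhds 1 :=
      hU.mem_nhds U.one_mem
    obtain ⟨K, hK, hKU⟩ := (krullTopology_mem_nhds_one_iff _ _ _).mp h1
    obtain ⟨F, hF1, hF2, hF3⟩ := exists_comap_fixingSubgroup_le q K
    exact ⟨F, hF1, hF2, hF3.trans hKU⟩
  · rintro ⟨F, hF1, hF2, hF3⟩
    exact Subgroup.isOpen_mono hF3 (isOpen_comap_fixingSubgroup q F)

/-- `localGaloisToGlobal` is continuous for the Krull topologies. -/
theorem continuous_localGaloisToGlobal : Continuous (localGaloisToGlobal q) := by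
  refine continuous_of_continuousAt_one _ ?_
  rw [ContinuousAt, map_one]
  intro s hs
  obtain ⟨F, hF, hFs⟩ := (krullTopology_mem_nhds_one_iff _ _ _).mp hs
  rw [Filter.mem_map]
  refine Filter.mem_of_superset ((isOpen_comap_fixingSubgroup q F).mem_nhds
    (Subgroup.one_mem _)) ?_
  intro τ hτ
  exact hFs hτ

instance isGalois_padicAlgCl : IsGalois ℚ_[q] (PadicAlgCl q) where
  to_normal := IsAlgClosure.normal ℚ_[q] (PadicAlgCl q)

/-- The index of the level subgroup is the local degree `[ℚ_q(ι F) : ℚ_q]`. -/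
theorem index_comap_fixingSubgroup (F : IntermediateField ℚ Qbar) :
    (F.fixingSubgroup.comap (localGaloisToGlobal q)).index =
      Module.finrank ℚ_[q] (localField q F) := by
  rw [comap_fixingSubgroup, IntermediateField.finrank_eq_fixingSubgroup_index]

instance finiteIndex_comap_fixingSubgroup (F : IntermediateField ℚ Qbar)
    [FiniteDimensional ℚ F] :
    (F.fixingSubgroup.comap (localGaloisToGlobal q)).FiniteIndex := by
  rw [Subgroup.finiteIndex_iff, index_comap_fixingSubgroup]
  exact Module.finrank_pos.ne'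

theorem normal_comap_fixingSubgroup (F : IntermediateField ℚ Qbar) [Normal ℚ F] :
    (F.fixingSubgroup.comap (localGaloisToGlobal q)).Normal := by
  have hQ : IsGalois ℚ Qbar := { to_normal := normalQbar_LK }
  have hF : IsGalois ℚ F := { to_normal := ‹Normal ℚ F› }
  have : F.fixingSubgroup.Normal :=
    @IsGalois.fixingSubgroup_normal_of_isGalois ℚ Qbar _ _ _ F hQ hF
  exact Subgroup.Normal.comap this _

end Fermat.Agent.S55.LocalDict
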