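/-
S55 first layer (helper11): Dirichlet's S-unit theorem ("T-units"), rank form and lattice form.
Mathlib only.

`K` a number field, `T : Finset (HeightOneSpectrum (𝓞 K))` a finite set of finite places,
`TUnit K T = (T : Set _).unit K ≤ Kˣ` the group of `T`-units (Mathlib's `Set.unit`).

Main results (namespace `Fermat.Agent.S55.SUnit`):
* `ordAt v : Additive Kˣ →+ ℤ`, `ordT T : Additive (TUnit K T) →ₗ[ℤ] (T → ℤ)`;
  `ker_ordT : ker (ordT T) = range (unitsLin T)` (units of `𝓞 K`), `unitsLin_injective`;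
  `exists_TUnit_ordT_eq_single` (for `v ∈ T` a `T`-unit with divisor `h·v`, `h = classNumber K`);
  `finrank_range_ordT : finrank ℤ (range (ordT T)) = T.card`.
* `instFiniteTUnit : Module.Finite ℤ (Additive (TUnit K T))`,
  `finrank_TUnit : finrank ℤ (Additive (TUnit K T)) = Units.rank K + T.card`.
* `logT T : Additive (TUnit K T) →ₗ[ℤ] (InfinitePlace K ⊕ T → ℝ)`
  (`mult w * log |x|_w` at infinite `w`, `log ‖x‖_v = - ord_v x * log N v` at `v ∈ T`);
  `sum_logT` (product formula: the image lies in `hyperplane K T = {∑ = 0}`),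
  `logT_eq_zero_iff` (kernel = roots of unity), `span_range_logT` (the real span of the image is
  the whole hyperplane), `finrank_range_logT`, `finrank_hyperplane`, `instFiniteRangeLogT`,
  `instFreeRangeLogT`, `exists_basis_range_logT` (a `ℤ`-basis of the image is an `ℝ`-basis of the
  hyperplane, i.e. the image is a full lattice in the hyperplane).
-/
import Mathlib

set_option autoImplicit false

namespace Fermat.Agent.S55.SUnit

open NumberField IsDedekindDomain HeightOneSpectrum Module
open NumberField.InfinitePlace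
open NumberField.Units NumberField.Units.dirichletUnitTheorem

variable {K : Type*} [Field K] [NumberField K]

/-- The (additive) order at `v` of a unit of `K`:  `v.valuation x = exp (-(ordAt v x))`. -/
noncomputable def ordAt (v : HeightOneSpectrum (𝓞 K)) : Additive Kˣ →+ ℤ where
  toFun x := - WithZero.log (v.valuation K ((Additive.toMul x : Kˣ) : K))
  map_zero' := by simp
  map_add' x y := by
    have hx : v.valuation K ((Additive.toMul x : Kˣ) : K) ≠ 0 := by simp
    have hy : v.valuation K ((Additive.toMul y : Kˣ) : K) ≠ 0 := by simp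
    simp only [toMul_add, Units.val_mul, map_mul, WithZero.log_mul hx hy]
    ring

lemma ordAt_apply (v : HeightOneSpectrum (𝓞 K)) (x : Kˣ) :
    ordAt v (Additive.ofMul x) = - WithZero.log (v.valuation K (x : K)) := rfl

lemma valuation_eq_exp_neg_ordAt (v : HeightOneSpectrum (𝓞 K)) (x : Kˣ) :
    v.valuation K (x : K) = WithZero.exp (-(ordAt v (Additive.ofMul x))) := by
  rw [ordAt_apply, neg_neg, WithZero.exp_log]
  simp

lemma ordAt_eq_zero_iff (v : HeightOneSpectrum (𝓞 K)) (x : Kˣ) :
    ordAt v (Additive.ofMul x) = 0 ↔ v.valuation K (x : K) = 1 := by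
  rw [valuation_eq_exp_neg_ordAt]
  constructor
  · intro h; rw [h]; simp
  · intro h
    have : WithZero.exp (-(ordAt v (Additive.ofMul x))) = WithZero.exp (0 : ℤ) := by
      rw [h]; simp
    have := WithZero.exp_injective this
    omega



/-- a unit of `K` all of whose valuations are `1` is a unit of `𝓞 K`. -/
lemma exists_unit_of_forall_valuation_eq_one (x : Kˣ)
    (h : ∀ v : HeightOneSpectrum (𝓞 K), v.valuation K (x : K) = 1) :
    ∃ u : (𝓞 K)ˣ, (algebraMap (𝓞 K) K (u : 𝓞 K)) = (x : K) := by
  have h1 : (x : K) ∈ (algebraMap (𝓞 K) K).range :=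
    mem_integers_of_valuation_le_one K (x : K) (fun v => (h v).le)
  have h2 : ((x⁻¹ : Kˣ) : K) ∈ (algebraMap (𝓞 K) K).range := by
    refine mem_integers_of_valuation_le_one K _ (fun v => ?_)
    rw [Units.val_inv_eq_inv_val, map_inv₀, h v, inv_one]
  obtain ⟨a, ha⟩ := h1
  obtain ⟨b, hb⟩ := h2
  have hab : a * b = 1 := by
    apply FaithfulSMul.algebraMap_injective (𝓞 K) K
    rw [map_mul, ha, hb, map_one]; simp
  exact ⟨⟨a, b, hab, by rw [mul_comm]; exact hab⟩, ha⟩



/-- every power `v^h`, `h` the class number, is principal -/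
lemma exists_span_eq_pow_classNumber (v : HeightOneSpectrum (𝓞 K)) :
    ∃ π : 𝓞 K, π ≠ 0 ∧ Ideal.span {π} = v.asIdeal ^ (classNumber K) := by
  have hv0 : v.asIdeal ∈ nonZeroDivisors (Ideal (𝓞 K)) :=
    mem_nonZeroDivisors_of_ne_zero v.ne_bot
  have h1 : (ClassGroup.mk0 ⟨v.asIdeal, hv0⟩) ^ (classNumber K) = 1 := by
    rw [classNumber]; exact pow_card_eq_one
  rw [← map_pow, ClassGroup.mk0_eq_one_iff] at h1
  obtain ⟨π, hπ⟩ := h1.principal
  refine ⟨π, ?_, ?_⟩
  · rintro rfl
    have : (v.asIdeal ^ classNumber K) = ⊥ := by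
      simpa using hπ
    exact v.ne_bot (pow_eq_zero_iff (classNumber_ne_zero K)|>.mp this)
  · simpa using hπ.symm

lemma intValuation_of_span_eq_pow (v : HeightOneSpectrum (𝓞 K)) {π : 𝓞 K} (hπ : π ≠ 0) {n : ℕ}
    (h : Ideal.span {π} = v.asIdeal ^ n) : v.intValuation π = WithZero.exp (-(n : ℤ)) := by
  rw [v.intValuation_if_neg hπ, h]
  congr 2
  rw [Associates.mk_pow, Associates.count_pow (by simpa using v.ne_bot) v.associates_irreducible,
    Associates.count_self v.associates_irreducible, mul_one]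

lemma intValuation_of_span_eq_pow_of_ne (v w : HeightOneSpectrum (𝓞 K)) (hvw : w ≠ v) {π : 𝓞 K}
    {n : ℕ} (h : Ideal.span {π} = v.asIdeal ^ n) : w.intValuation π = 1 := by
  rw [intValuation_eq_one_iff]
  intro hmem
  have h1 : v.asIdeal ^ n ≤ w.asIdeal := by
    rw [← h, Ideal.span_singleton_le_iff_mem]; exact hmem
  have h2 : v.asIdeal ≤ w.asIdeal := w.isPrime.le_of_pow_le h1
  have h3 : v.asIdeal = w.asIdeal := v.isMaximal.eq_of_le w.isPrime.ne_top h2
  exact hvw (HeightOneSpectrum.ext h3.symm)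



variable (K) in
/-- the group of `T`-units -/
noncomputable abbrev TUnit (T : Finset (HeightOneSpectrum (𝓞 K))) : Subgroup Kˣ :=
  (T : Set (HeightOneSpectrum (𝓞 K))).unit K

lemma mem_TUnit_iff {T : Finset (HeightOneSpectrum (𝓞 K))} {x : Kˣ} :
    x ∈ TUnit K T ↔ ∀ v ∉ T, v.valuation K (x : K) = 1 := Iff.rfl

lemma valuation_unit_eq_one (v : HeightOneSpectrum (𝓞 K)) (u : (𝓞 K)ˣ) :
    v.valuation K (algebraMap (𝓞 K) K (u : 𝓞 K)) = 1 := by
  rw [valuation_of_algebraMap, intValuation_eq_one_iff]
  intro h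
  exact v.isPrime.ne_top (Ideal.eq_top_of_isUnit_mem _ h u.isUnit)

/-- units of `𝓞 K` are `T`-units -/
noncomputable def unitsToTUnit (T : Finset (HeightOneSpectrum (𝓞 K))) : (𝓞 K)ˣ →* TUnit K T where
  toFun u := ⟨Units.map (algebraMap (𝓞 K) K : 𝓞 K →* K) u, by
    rw [mem_TUnit_iff]; intro v _; exact valuation_unit_eq_one v u⟩
  map_one' := by ext; simp
  map_mul' a b := by ext; simp

lemma unitsToTUnit_injective (T : Finset (HeightOneSpectrum (𝓞 K))) :
    Function.Injective (unitsToTUnit (K := K) T) := by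
  intro a b h
  have h' : algebraMap (𝓞 K) K (a : 𝓞 K) = algebraMap (𝓞 K) K (b : 𝓞 K) := by
    have := congrArg (fun x : TUnit K T => ((x : Kˣ) : K)) h
    simpa [unitsToTUnit] using this
  exact Units.ext (FaithfulSMul.algebraMap_injective (𝓞 K) K h')

/-- the vector of orders at the places of `T` -/
noncomputable def ordT (T : Finset (HeightOneSpectrum (𝓞 K))) :
    Additive (TUnit K T) →ₗ[ℤ] (T → ℤ) :=
  AddMonoidHom.toIntLinearMap
    { toFun := fun x v => ordAt v.1 (Additive.ofMul ((Additive.toMul x : TUnit K T) : Kˣ))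
      map_zero' := by funext v; simp
      map_add' := fun x y => by
        funext v
        simp only [toMul_add, Subgroup.coe_mul, ofMul_mul, map_add, Pi.add_apply] }

lemma ordT_apply (T : Finset (HeightOneSpectrum (𝓞 K))) (x : TUnit K T) (v : T) :
    ordT T (Additive.ofMul x) v = ordAt v.1 (Additive.ofMul (x : Kˣ)) := rfl

lemma ordT_eq_zero_iff (T : Finset (HeightOneSpectrum (𝓞 K))) (x : TUnit K T) :
    ordT T (Additive.ofMul x) = 0 ↔ ∃ u : (𝓞 K)ˣ, unitsToTUnit T u = x := by
  constructor
  · intro h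
    have hall : ∀ v : HeightOneSpectrum (𝓞 K), v.valuation K ((x : Kˣ) : K) = 1 := by
      intro v
      by_cases hv : v ∈ T
      · have := congrFun h ⟨v, hv⟩
        rw [ordT_apply] at this
        exact (ordAt_eq_zero_iff v _).mp this
      · exact mem_TUnit_iff.mp x.2 v hv
    obtain ⟨u, hu⟩ := exists_unit_of_forall_valuation_eq_one (x : Kˣ) hall
    refine ⟨u, ?_⟩
    ext
    simpa [unitsToTUnit] using hu
  · rintro ⟨u, rfl⟩
    funext v
    rw [ordT_apply, Pi.zero_apply, ordAt_eq_zero_iff]
    simpa [unitsToTUnit] using valuation_unit_eq_one v.1 u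




/-- For `v ∈ T` a `T`-unit `π_v` with `(π_v) = v^h`. -/
lemma exists_TUnit_ordT_eq_single (T : Finset (HeightOneSpectrum (𝓞 K))) (v : T) :
    ∃ x : TUnit K T, ordT T (Additive.ofMul x) v = (classNumber K : ℤ) ∧
      ∀ w : T, w ≠ v → ordT T (Additive.ofMul x) w = 0 := by
  obtain ⟨π, hπ0, hπ⟩ := exists_span_eq_pow_classNumber (K := K) v.1
  have hπK : algebraMap (𝓞 K) K π ≠ 0 := by
    simpa using hπ0
  have hmem : Units.mk0 _ hπK ∈ TUnit K T := by
    rw [mem_TUnit_iff]
    intro w hw
    rw [Units.val_mk0, valuation_of_algebraMap]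
    exact intValuation_of_span_eq_pow_of_ne v.1 w (fun h => hw (h ▸ v.2)) hπ
  refine ⟨⟨Units.mk0 _ hπK, hmem⟩, ?_, ?_⟩
  · rw [ordT_apply, ordAt_apply, Units.val_mk0, valuation_of_algebraMap,
      intValuation_of_span_eq_pow v.1 hπ0 hπ, WithZero.log_exp, neg_neg]
  · intro w hwv
    rw [ordT_apply, ordAt_eq_zero_iff, Units.val_mk0, valuation_of_algebraMap]
    exact intValuation_of_span_eq_pow_of_ne v.1 w.1 (fun h => hwv (Subtype.ext h)) hπ




/-- the inclusion of the units into the `T`-units, as a `ℤ`-linear map -/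
noncomputable def unitsLin (T : Finset (HeightOneSpectrum (𝓞 K))) :
    Additive (𝓞 K)ˣ →ₗ[ℤ] Additive (TUnit K T) :=
  (MonoidHom.toAdditive (unitsToTUnit T)).toIntLinearMap

lemma unitsLin_apply (T : Finset (HeightOneSpectrum (𝓞 K))) (u : (𝓞 K)ˣ) :
    unitsLin T (Additive.ofMul u) = Additive.ofMul (unitsToTUnit T u) := rfl

lemma unitsLin_injective (T : Finset (HeightOneSpectrum (𝓞 K))) :
    Function.Injective (unitsLin (K := K) T) := by
  intro a b h
  have := unitsToTUnit_injective T (a₁ := Additive.toMul a) (a₂ := Additive.toMul b)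
    (by simpa [unitsLin] using h)
  simpa using this

lemma ker_ordT (T : Finset (HeightOneSpectrum (𝓞 K))) :
    LinearMap.ker (ordT (K := K) T) = LinearMap.range (unitsLin T) := by
  ext x
  rw [LinearMap.mem_ker, LinearMap.mem_range]
  have hx : x = Additive.ofMul (Additive.toMul x) := rfl
  rw [hx, ordT_eq_zero_iff]
  constructor
  · rintro ⟨u, hu⟩
    exact ⟨Additive.ofMul u, by rw [unitsLin_apply, hu]⟩
  · rintro ⟨u, hu⟩
    exact ⟨Additive.toMul u, by
      have : unitsLin T (Additive.ofMul (Additive.toMul u)) = _ := hu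
      rw [unitsLin_apply] at this
      exact Additive.ofMul.injective this⟩

instance instFiniteTUnit (T : Finset (HeightOneSpectrum (𝓞 K))) :
    Module.Finite ℤ (Additive (TUnit K T)) := by
  refine ⟨Submodule.fg_of_fg_map_of_fg_inf_ker (ordT T) ?_ ?_⟩
  · exact IsNoetherian.noetherian _
  · rw [top_inf_eq, ker_ordT, LinearMap.range_eq_map]
    exact Submodule.FG.map _ (Module.Finite.fg_top)

lemma finrank_range_ordT (T : Finset (HeightOneSpectrum (𝓞 K))) :
    finrank ℤ (LinearMap.range (ordT (K := K) T)) = T.card := by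
  classical
  apply le_antisymm
  · have := Submodule.finrank_le (LinearMap.range (ordT (K := K) T))
    simpa using this
  · choose x hx1 hx2 using exists_TUnit_ordT_eq_single (K := K) T
    let y : T → LinearMap.range (ordT (K := K) T) :=
      fun v => ⟨ordT T (Additive.ofMul (x v)), LinearMap.mem_range_self _ _⟩
    have hli : LinearIndependent ℤ y := by
      rw [Fintype.linearIndependent_iff]
      intro g hg w
      have h1 := congrArg (fun z : LinearMap.range (ordT (K := K) T) => (z : T → ℤ) w) hg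
      simp only [Submodule.coe_sum, Submodule.coe_smul, Finset.sum_apply, Pi.smul_apply,
        smul_eq_mul, ZeroMemClass.coe_zero, Pi.zero_apply, y] at h1
      rw [Finset.sum_eq_single w] at h1
      · rw [hx1 w] at h1
        have hh : (classNumber K : ℤ) ≠ 0 := by exact_mod_cast classNumber_ne_zero K
        exact (mul_eq_zero.mp h1).resolve_right hh
      · intro v _ hvw
        rw [hx2 v w (Ne.symm hvw), mul_zero]
      · intro h; exact absurd (Finset.mem_univ w) h
    have := hli.fintype_card_le_finrank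
    simpa using this

/-- **Dirichlet's `S`-unit theorem**, rank form. -/
theorem finrank_TUnit (T : Finset (HeightOneSpectrum (𝓞 K))) :
    finrank ℤ (Additive (TUnit K T)) = Units.rank K + T.card := by
  have h1 := Submodule.finrank_quotient_add_finrank (LinearMap.ker (ordT (K := K) T))
  have h2 : finrank ℤ (Additive (TUnit K T) ⧸ LinearMap.ker (ordT (K := K) T)) = T.card := by
    rw [LinearEquiv.finrank_eq (ordT (K := K) T).quotKerEquivRange, finrank_range_ordT]
  have h3 : finrank ℤ (LinearMap.ker (ordT (K := K) T)) = Units.rank K := by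
    rw [ker_ordT, LinearMap.finrank_range_of_inj (unitsLin_injective T), Units.finrank_eq]
  omega




/-- real absolute value at a finite place in terms of `ordAt` -/
lemma finitePlace_mk_apply_eq (v : HeightOneSpectrum (𝓞 K)) (x : Kˣ) :
    FinitePlace.mk v (x : K) =
      ((Ideal.absNorm v.asIdeal : ℝ)) ^ (-(ordAt v (Additive.ofMul x))) := by
  rw [FinitePlace.mk_apply, FinitePlace.norm_embedding']
  have hx : v.valuation K (x : K) ≠ 0 := by simp
  rw [WithZeroMulInt.toNNReal_neg_apply _ hx]
  have : (WithZero.unzero hx).toAdd = -(ordAt v (Additive.ofMul x)) := by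
    rw [ordAt_apply, neg_neg, WithZero.toAdd_unzero_eq_log]
  rw [this]
  push_cast
  rfl

lemma log_finitePlace_mk (v : HeightOneSpectrum (𝓞 K)) (x : Kˣ) :
    Real.log (FinitePlace.mk v (x : K)) =
      -(ordAt v (Additive.ofMul x) : ℝ) * Real.log (Ideal.absNorm v.asIdeal) := by
  rw [finitePlace_mk_apply_eq, Real.log_zpow]
  push_cast
  ring

lemma one_lt_absNorm' (v : HeightOneSpectrum (𝓞 K)) : (1 : ℝ) < Ideal.absNorm v.asIdeal := by
  exact_mod_cast one_lt_absNorm v

lemma log_absNorm_pos (v : HeightOneSpectrum (𝓞 K)) :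
    0 < Real.log (Ideal.absNorm v.asIdeal : ℝ) := Real.log_pos (one_lt_absNorm' v)




/-- The logarithmic map on `T`-units: `mult w * log |x|_w` at infinite places,
`log ‖x‖_v = - ord_v x * log N v` at the places of `T`. -/
noncomputable def logT (T : Finset (HeightOneSpectrum (𝓞 K))) :
    Additive (TUnit K T) →ₗ[ℤ] (InfinitePlace K ⊕ T → ℝ) :=
  AddMonoidHom.toIntLinearMap
    { toFun := fun x => Sum.elim
        (fun w => (mult w : ℝ) * Real.log (w (((Additive.toMul x : TUnit K T) : Kˣ) : K)))
        (fun v => -(ordT T x v : ℝ) * Real.log (Ideal.absNorm v.1.asIdeal))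
      map_zero' := by
        funext i
        rcases i with w | v
        · simp
        · simp
      map_add' := fun x y => by
        funext i
        rcases i with w | v
        · have hx : w (((Additive.toMul x : TUnit K T) : Kˣ) : K) ≠ 0 := by simp
          have hy : w (((Additive.toMul y : TUnit K T) : Kˣ) : K) ≠ 0 := by simp
          simp only [toMul_add, Subgroup.coe_mul, Units.val_mul, map_mul, Sum.elim_inl,
            Pi.add_apply, Real.log_mul hx hy]
          ring
        · simp only [map_add, Pi.add_apply, Int.cast_add, Sum.elim_inr]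
          ring }

@[simp] lemma logT_inl (T : Finset (HeightOneSpectrum (𝓞 K))) (x : TUnit K T) (w : InfinitePlace K) :
    logT T (Additive.ofMul x) (Sum.inl w) = (mult w : ℝ) * Real.log (w ((x : Kˣ) : K)) := rfl

@[simp] lemma logT_inr (T : Finset (HeightOneSpectrum (𝓞 K))) (x : TUnit K T) (v : T) :
    logT T (Additive.ofMul x) (Sum.inr v) =
      -(ordT T (Additive.ofMul x) v : ℝ) * Real.log (Ideal.absNorm v.1.asIdeal) := rfl

lemma logT_inr_eq_log (T : Finset (HeightOneSpectrum (𝓞 K))) (x : TUnit K T) (v : T) :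
    logT T (Additive.ofMul x) (Sum.inr v) = Real.log (FinitePlace.mk v.1 ((x : Kˣ) : K)) := by
  rw [logT_inr, ordT_apply, log_finitePlace_mk]




lemma finitePlace_apply_eq_one_of_notMem (T : Finset (HeightOneSpectrum (𝓞 K))) (x : TUnit K T)
    (w : FinitePlace K) (hw : w.maximalIdeal ∉ T) : w ((x : Kˣ) : K) = 1 := by
  have h1 : (w.maximalIdeal).valuation K ((x : Kˣ) : K) = 1 := mem_TUnit_iff.mp x.2 _ hw
  have h2 := finitePlace_mk_apply_eq w.maximalIdeal (x : Kˣ)
  rw [(ordAt_eq_zero_iff _ _).mpr h1, neg_zero, zpow_zero, FinitePlace.mk_maximalIdeal] at h2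
  exact h2

/-- product formula for `T`-units: the image of `logT` lies in the hyperplane `∑ = 0`. -/
theorem sum_logT (T : Finset (HeightOneSpectrum (𝓞 K))) (x : Additive (TUnit K T)) :
    ∑ i, logT T x i = 0 := by
  classical
  obtain ⟨x, rfl⟩ : ∃ y : TUnit K T, Additive.ofMul y = x := ⟨Additive.toMul x, rfl⟩
  have hx0 : ((x : Kˣ) : K) ≠ 0 := Units.ne_zero _
  have hprod := prod_abs_eq_one (K := K) hx0
  -- the finite part
  have hfin : ∏ᶠ w : FinitePlace K, w ((x : Kˣ) : K)
      = ∏ v ∈ T.attach, FinitePlace.mk v.1 ((x : Kˣ) : K) := by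
    have hinj : Function.Injective (fun v : T => FinitePlace.mk (K := K) v.1) := by
      intro a b h
      exact Subtype.ext (FinitePlace.mk_eq_iff.mp h)
    rw [finprod_eq_prod_of_mulSupport_subset (s := T.attach.map ⟨_, hinj⟩)]
    · rw [Finset.prod_map]; rfl
    · intro w hw
      rw [Function.mem_mulSupport] at hw
      have hmem : w.maximalIdeal ∈ T := by
        by_contra h
        exact hw (finitePlace_apply_eq_one_of_notMem T x w h)
      simp only [Finset.coe_map, Function.Embedding.coeFn_mk, Set.mem_image, Finset.mem_coe,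
        Finset.mem_attach, true_and]
      exact ⟨⟨w.maximalIdeal, hmem⟩, FinitePlace.mk_maximalIdeal w⟩
  rw [hfin] at hprod
  have hlog := congrArg Real.log hprod
  rw [Real.log_one, Real.log_mul, Real.log_prod, Real.log_prod] at hlog
  · rw [Fintype.sum_sum_type]
    have h1 : ∀ w : InfinitePlace K, logT T (Additive.ofMul x) (Sum.inl w)
        = Real.log (w ((x : Kˣ) : K) ^ w.mult) := by
      intro w; rw [logT_inl, Real.log_pow]
    have h2 : ∀ v : T, logT T (Additive.ofMul x) (Sum.inr v)
        = Real.log (FinitePlace.mk v.1 ((x : Kˣ) : K)) := logT_inr_eq_log T x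
    simp_rw [h1, h2]
    rw [← hlog, Finset.sum_attach T (fun v => Real.log (FinitePlace.mk v ((x : Kˣ) : K)))]
    congr 1
    rw [← Finset.sum_attach T (fun v => Real.log (FinitePlace.mk v ((x : Kˣ) : K)))]
    rfl
  · intro v _
    exact (FinitePlace.pos_iff.mpr hx0).ne'
  · intro w _
    exact pow_ne_zero _ ((InfinitePlace.pos_iff.mpr hx0).ne')
  · exact Finset.prod_ne_zero_iff.mpr fun w _ => pow_ne_zero _ ((InfinitePlace.pos_iff.mpr hx0).ne')
  · exact Finset.prod_ne_zero_iff.mpr fun v _ => (FinitePlace.pos_iff.mpr hx0).ne'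




lemma logT_unitsLin_inr (T : Finset (HeightOneSpectrum (𝓞 K))) (u : Additive (𝓞 K)ˣ) (v : T) :
    logT T (unitsLin T u) (Sum.inr v) = 0 := by
  obtain ⟨u, rfl⟩ : ∃ y : (𝓞 K)ˣ, Additive.ofMul y = u := ⟨Additive.toMul u, rfl⟩
  rw [unitsLin_apply, logT_inr]
  have : ordT T (Additive.ofMul (unitsToTUnit T u)) = 0 := (ordT_eq_zero_iff T _).mpr ⟨u, rfl⟩
  rw [this]; simp

lemma logT_unitsLin_inl (T : Finset (HeightOneSpectrum (𝓞 K))) (u : (𝓞 K)ˣ) (w : InfinitePlace K) :
    logT T (unitsLin T (Additive.ofMul u)) (Sum.inl w) = (mult w : ℝ) * Real.log (w (u : K)) := by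
  rw [unitsLin_apply, logT_inl]
  rfl

/-- the kernel of `logT` consists of the roots of unity -/
theorem logT_eq_zero_iff (T : Finset (HeightOneSpectrum (𝓞 K))) (x : TUnit K T) :
    logT T (Additive.ofMul x) = 0 ↔ ∃ ζ ∈ Units.torsion K, unitsToTUnit T ζ = x := by
  constructor
  · intro h
    have hord : ordT T (Additive.ofMul x) = 0 := by
      funext v
      have := congrFun h (Sum.inr v)
      rw [logT_inr, Pi.zero_apply, mul_eq_zero] at this
      rcases this with h1 | h1
      · simpa using h1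
      · exact absurd h1 (log_absNorm_pos v.1).ne'
    obtain ⟨u, rfl⟩ := (ordT_eq_zero_iff T x).mp hord
    refine ⟨u, ?_, rfl⟩
    rw [Units.mem_torsion]
    intro w
    have := congrFun h (Sum.inl w)
    rw [← unitsLin_apply, logT_unitsLin_inl, Pi.zero_apply] at this
    exact Units.dirichletUnitTheorem.mult_log_place_eq_zero.mp this
  · rintro ⟨ζ, hζ, rfl⟩
    rw [Units.mem_torsion] at hζ
    funext i
    rcases i with w | v
    · rw [← unitsLin_apply, logT_unitsLin_inl, hζ w, Real.log_one, mul_zero, Pi.zero_apply]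
    · rw [← unitsLin_apply, logT_unitsLin_inr, Pi.zero_apply]




variable (K) in
/-- the hyperplane `∑ = 0` in `ℝ^(S_∞ ⊔ T)` -/
noncomputable def hyperplane (T : Finset (HeightOneSpectrum (𝓞 K))) :
    Submodule ℝ (InfinitePlace K ⊕ T → ℝ) :=
  LinearMap.ker (∑ i, LinearMap.proj i : (InfinitePlace K ⊕ T → ℝ) →ₗ[ℝ] ℝ)

lemma mem_hyperplane_iff (T : Finset (HeightOneSpectrum (𝓞 K))) (x : InfinitePlace K ⊕ T → ℝ) :
    x ∈ hyperplane K T ↔ ∑ i, x i = 0 := by
  simp [hyperplane, LinearMap.mem_ker, LinearMap.sum_apply]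

lemma logT_mem_hyperplane (T : Finset (HeightOneSpectrum (𝓞 K))) (x : Additive (TUnit K T)) :
    logT T x ∈ hyperplane K T := (mem_hyperplane_iff T _).mpr (sum_logT T x)

lemma span_range_logT_le (T : Finset (HeightOneSpectrum (𝓞 K))) :
    Submodule.span ℝ (Set.range (logT (K := K) T)) ≤ hyperplane K T := by
  rw [Submodule.span_le]
  rintro _ ⟨x, rfl⟩
  exact logT_mem_hyperplane T x

/-- restriction to the infinite places different from `w₀` -/
noncomputable def resInf (T : Finset (HeightOneSpectrum (𝓞 K))) :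
    (InfinitePlace K ⊕ T → ℝ) →ₗ[ℝ] logSpace K :=
  LinearMap.funLeft ℝ ℝ (fun w : {w : InfinitePlace K // w ≠ w₀} => Sum.inl w.1)

lemma resInf_logT_unitsLin (T : Finset (HeightOneSpectrum (𝓞 K))) (u : (𝓞 K)ˣ) :
    resInf T (logT T (unitsLin T (Additive.ofMul u))) = logEmbedding K (Additive.ofMul u) := by
  funext w
  rw [logEmbedding_component]
  exact logT_unitsLin_inl T u w.1

/-- the span of the logs of the units -/
lemma exists_mem_span_units (T : Finset (HeightOneSpectrum (𝓞 K))) (a : logSpace K) :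
    ∃ s ∈ Submodule.span ℝ (Set.range (logT (K := K) T)),
      resInf T s = a ∧ ∀ v : T, s (Sum.inr v) = 0 := by
  have ha : a ∈ Submodule.span ℝ (unitLattice K : Set (logSpace K)) := by
    rw [unitLattice_span_eq_top]; trivial
  induction ha using Submodule.span_induction with
  | mem a ha =>
    obtain ⟨u, -, rfl⟩ := ha
    obtain ⟨u, rfl⟩ : ∃ y : (𝓞 K)ˣ, Additive.ofMul y = u := ⟨Additive.toMul u, rfl⟩
    refine ⟨logT T (unitsLin T (Additive.ofMul u)), Submodule.subset_span ⟨_, rfl⟩, ?_, ?_⟩
    · rw [resInf_logT_unitsLin]; rfl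
    · intro v; exact logT_unitsLin_inr T _ v
  | zero => exact ⟨0, Submodule.zero_mem _, by simp, by simp⟩
  | add a b _ _ iha ihb =>
    obtain ⟨s, hs, hs1, hs2⟩ := iha
    obtain ⟨t, ht, ht1, ht2⟩ := ihb
    refine ⟨s + t, Submodule.add_mem _ hs ht, by rw [map_add, hs1, ht1], ?_⟩
    intro v; rw [Pi.add_apply, hs2, ht2, add_zero]
  | smul c a _ iha =>
    obtain ⟨s, hs, hs1, hs2⟩ := iha
    refine ⟨c • s, Submodule.smul_mem _ c hs, by rw [map_smul, hs1], ?_⟩
    intro v; rw [Pi.smul_apply, hs2, smul_zero]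




/-- killing the finite coordinates -/
lemma exists_mem_span_fin (T : Finset (HeightOneSpectrum (𝓞 K))) (b : T → ℝ) :
    ∃ s ∈ Submodule.span ℝ (Set.range (logT (K := K) T)), ∀ v : T, s (Sum.inr v) = b v := by
  classical
  choose x hx1 hx2 using exists_TUnit_ordT_eq_single (K := K) T
  have hh : (classNumber K : ℝ) ≠ 0 := by exact_mod_cast classNumber_ne_zero K
  refine ⟨∑ v : T, (b v / (-(classNumber K : ℝ) * Real.log (Ideal.absNorm v.1.asIdeal))) •
      logT T (Additive.ofMul (x v)), ?_, ?_⟩
  · exact Submodule.sum_mem _ fun v _ => Submodule.smul_mem _ _ (Submodule.subset_span ⟨_, rfl⟩)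
  · intro w
    rw [Finset.sum_apply, Finset.sum_eq_single w]
    · rw [Pi.smul_apply, logT_inr, hx1 w, smul_eq_mul]
      have := (log_absNorm_pos w.1).ne'
      push_cast
      field_simp
    · intro v _ hvw
      rw [Pi.smul_apply, logT_inr, hx2 v w (Ne.symm hvw)]
      simp
    · intro h; exact absurd (Finset.mem_univ w) h

/-- **Dirichlet's `S`-unit theorem**, lattice form: the logarithms of the `T`-units span the
hyperplane `∑ = 0` of `ℝ^(S_∞ ⊔ T)`. -/
theorem span_range_logT (T : Finset (HeightOneSpectrum (𝓞 K))) :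
    Submodule.span ℝ (Set.range (logT (K := K) T)) = hyperplane K T := by
  classical
  refine le_antisymm (span_range_logT_le T) ?_
  intro x hx
  obtain ⟨s₂, hs₂, hs₂'⟩ := exists_mem_span_fin T (fun v => x (Sum.inr v))
  obtain ⟨s₁, hs₁, hs₁', hs₁''⟩ := exists_mem_span_units T (resInf T (x - s₂))
  have hz : x - s₂ - s₁ = 0 := by
    have hzH : x - s₂ - s₁ ∈ hyperplane K T :=
      Submodule.sub_mem _ (Submodule.sub_mem _ hx (span_range_logT_le T hs₂))
        (span_range_logT_le T hs₁)
    rw [mem_hyperplane_iff, Fintype.sum_sum_type] at hzH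
    have hinr : ∀ v : T, (x - s₂ - s₁) (Sum.inr v) = 0 := by
      intro v
      simp only [Pi.sub_apply, hs₂' v, hs₁'' v]; ring
    have hinl : ∀ w : InfinitePlace K, w ≠ w₀ → (x - s₂ - s₁) (Sum.inl w) = 0 := by
      intro w hw
      have := congrFun hs₁' ⟨w, hw⟩
      simp only [resInf, LinearMap.funLeft_apply, Pi.sub_apply] at this
      simp only [Pi.sub_apply, this]; ring
    have hw0 : (x - s₂ - s₁) (Sum.inl w₀) = 0 := by
      rw [Finset.sum_eq_zero (fun v _ => hinr v), add_zero,
        Finset.sum_eq_single (w₀ : InfinitePlace K) (fun w _ hw => hinl w hw)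
          (fun h => absurd (Finset.mem_univ _) h)] at hzH
      exact hzH
    funext i
    rcases i with w | v
    · by_cases hw : w = w₀
      · rw [hw]; exact hw0
      · exact hinl w hw
    · exact hinr v
  have : x = s₂ + s₁ := by
    have := sub_eq_zero.mp hz
    rw [← this]; abel
  rw [this]
  exact Submodule.add_mem _ hs₂ hs₁




lemma finrank_ker_logT (T : Finset (HeightOneSpectrum (𝓞 K))) :
    finrank ℤ (LinearMap.ker (logT (K := K) T)) = 0 := by
  rw [Module.finrank_eq_zero_iff]
  rintro ⟨x, hx⟩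
  obtain ⟨x, rfl⟩ : ∃ y : TUnit K T, Additive.ofMul y = x := ⟨Additive.toMul x, rfl⟩
  rw [LinearMap.mem_ker, logT_eq_zero_iff] at hx
  obtain ⟨ζ, hζ, rfl⟩ := hx
  obtain ⟨n, hn, hζn⟩ := isOfFinOrder_iff_pow_eq_one.mp ((CommGroup.mem_torsion (G := (𝓞 K)ˣ) (g := ζ)).mp hζ)
  refine ⟨(n : ℤ), by exact_mod_cast hn.ne', ?_⟩
  apply Subtype.ext
  have : (n : ℤ) • Additive.ofMul ((unitsToTUnit T) ζ) = 0 := by
    rw [natCast_zsmul, ← ofMul_pow, ← map_pow, hζn, map_one]; rfl
  simpa using this

/-- the lattice `logT (T-units)` has `ℤ`-rank `rank K + |T|` -/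
theorem finrank_range_logT (T : Finset (HeightOneSpectrum (𝓞 K))) :
    finrank ℤ (LinearMap.range (logT (K := K) T)) = Units.rank K + T.card := by
  have h1 := Submodule.finrank_quotient_add_finrank (LinearMap.ker (logT (K := K) T))
  rw [finrank_ker_logT, add_zero, finrank_TUnit,
    LinearEquiv.finrank_eq (logT (K := K) T).quotKerEquivRange] at h1
  exact h1

instance instFiniteRangeLogT (T : Finset (HeightOneSpectrum (𝓞 K))) :
    Module.Finite ℤ (LinearMap.range (logT (K := K) T)) := Module.Finite.range _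

/-- the hyperplane has dimension `rank K + |T|` -/
theorem finrank_hyperplane (T : Finset (HeightOneSpectrum (𝓞 K))) :
    finrank ℝ (hyperplane K T) = Units.rank K + T.card := by
  classical
  have h := LinearMap.finrank_range_add_finrank_ker
    (∑ i, LinearMap.proj i : (InfinitePlace K ⊕ T → ℝ) →ₗ[ℝ] ℝ)
  have hr : LinearMap.range (∑ i, LinearMap.proj i : (InfinitePlace K ⊕ T → ℝ) →ₗ[ℝ] ℝ) = ⊤ := by
    rw [LinearMap.range_eq_top]
    intro c
    refine ⟨Pi.single (Sum.inl (w₀ : InfinitePlace K)) c, ?_⟩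
    rw [LinearMap.sum_apply]
    simp only [LinearMap.proj_apply]
    rw [Finset.sum_eq_single (Sum.inl (w₀ : InfinitePlace K))]
    · simp
    · intro i _ hi; simp [hi]
    · intro h; exact absurd (Finset.mem_univ _) h
  rw [hr, finrank_top, Module.finrank_self, Module.finrank_pi, Fintype.card_sum,
    Fintype.card_coe] at h
  have hrk : Units.rank K = Fintype.card (InfinitePlace K) - 1 := rfl
  have hpos : 0 < Fintype.card (InfinitePlace K) := Fintype.card_pos
  have hH : finrank ℝ (hyperplane K T) =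
      finrank ℝ (LinearMap.ker (∑ i, LinearMap.proj i : (InfinitePlace K ⊕ T → ℝ) →ₗ[ℝ] ℝ)) := rfl
  rw [hrk, hH]
  omega




instance instFreeRangeLogT (T : Finset (HeightOneSpectrum (𝓞 K))) :
    Module.Free ℤ (LinearMap.range (logT (K := K) T)) := by
  infer_instance

/-- A `ℤ`-basis of the lattice `logT (T-units)` is an `ℝ`-basis of the hyperplane `∑ = 0`. -/
theorem exists_basis_range_logT (T : Finset (HeightOneSpectrum (𝓞 K))) :
    ∃ b : Basis (Fin (Units.rank K + T.card)) ℤ (LinearMap.range (logT (K := K) T)),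
      LinearIndependent ℝ (fun i => ((b i : LinearMap.range (logT (K := K) T)) :
        InfinitePlace K ⊕ T → ℝ)) ∧
      Submodule.span ℝ (Set.range fun i => ((b i : LinearMap.range (logT (K := K) T)) :
        InfinitePlace K ⊕ T → ℝ)) = hyperplane K T := by
  classical
  let b : Basis (Fin (Units.rank K + T.card)) ℤ (LinearMap.range (logT (K := K) T)) :=
    (Module.finBasis ℤ _).reindex (finCongr (finrank_range_logT T))
  have hspan : Submodule.span ℝ (Set.range fun i => ((b i : LinearMap.range (logT (K := K) T)) :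
        InfinitePlace K ⊕ T → ℝ)) = hyperplane K T := by
    rw [← span_range_logT]
    apply le_antisymm
    · rw [Submodule.span_le]
      rintro _ ⟨i, rfl⟩
      obtain ⟨x, hx⟩ := (b i).2
      exact Submodule.subset_span ⟨x, hx⟩
    · rw [Submodule.span_le]
      rintro _ ⟨x, rfl⟩
      let y : LinearMap.range (logT (K := K) T) := ⟨logT T x, LinearMap.mem_range_self _ _⟩
      have hy : y = ∑ i, b.repr y i • b i := (b.sum_repr y).symm
      have hy' : (logT T x : InfinitePlace K ⊕ T → ℝ) =
          ∑ i, b.repr y i • ((b i : LinearMap.range (logT (K := K) T)) :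
            InfinitePlace K ⊕ T → ℝ) := by
        have h1 : (y : InfinitePlace K ⊕ T → ℝ) = ((∑ i, b.repr y i • b i :
            LinearMap.range (logT (K := K) T)) : InfinitePlace K ⊕ T → ℝ) := by rw [← hy]
        rw [Submodule.coe_sum] at h1
        simpa only [Submodule.coe_smul] using h1
      rw [hy']
      refine Submodule.sum_mem _ fun i _ => ?_
      rw [← Int.cast_smul_eq_zsmul ℝ]
      exact Submodule.smul_mem _ _ (Submodule.subset_span ⟨i, rfl⟩)
  refine ⟨b, ?_, hspan⟩
  -- linear independence over ℝ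
  let c : Fin (Units.rank K + T.card) → hyperplane K T := fun i =>
    ⟨(b i : LinearMap.range (logT (K := K) T)), by
      rw [← hspan]; exact Submodule.subset_span ⟨i, rfl⟩⟩
  have hc : LinearIndependent ℝ c := by
    apply linearIndependent_of_top_le_span_of_card_eq_finrank
    · intro z _
      have hz : (z : InfinitePlace K ⊕ T → ℝ) ∈ Submodule.span ℝ
          (Set.range fun i => ((b i : LinearMap.range (logT (K := K) T)) :
            InfinitePlace K ⊕ T → ℝ)) := by rw [hspan]; exact z.2
      have himg : (Set.range fun i => ((b i : LinearMap.range (logT (K := K) T)) :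
            InfinitePlace K ⊕ T → ℝ)) = (hyperplane K T).subtype '' Set.range c := by
        ext w; constructor
        · rintro ⟨i, rfl⟩; exact ⟨c i, ⟨i, rfl⟩, rfl⟩
        · rintro ⟨_, ⟨i, rfl⟩, rfl⟩; exact ⟨i, rfl⟩
      rw [himg, ← Submodule.map_span] at hz
      obtain ⟨z', hz', hzz⟩ := hz
      have : z' = z := Subtype.ext hzz
      rwa [this] at hz'
    · rw [Fintype.card_fin, finrank_hyperplane]
  exact hc.map' (hyperplane K T).subtype (Submodule.ker_subtype _)


end Fermat.Agent.S55.SUnit
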