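/-
S55 / GL1 part 2a (helper11): Lang's permutation-lattice lemma (ANT IX.4, Thm 1) and the Herbrand
indices of permutation lattices for an ARBITRARY (not necessarily free) action of a finite cyclic
group, in the index calculus of `Fermat.Agent.S14.Herbrand` (`hIdx`, `dlt`, `nrm`).

`G = ⟨σ⟩` finite cyclic of order `n` acting on a finite set `S`.

* `exists_perm_family`: if `B` is an abelian group with `G`-action `ρ` and an equivariant map
  `Φ : B →+ (S → ℝ)` whose image spans `S → ℝ`, there is a family `y : S → B` permuted by `G` like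
  `S` (`ρ g (y w) = y (g • w)`) with `Φ ∘ y` linearly independent (Lang's averaging trick).
* `actZ_hIdx_gen`: `|Ĥ⁰(G, ℤ^S)| = ∏_{orbits} |Stab|` and `|Ĥ⁻¹(G, ℤ^S)| = 1`.
* `herbrand_lattice_gen`: if moreover `Φ` is proper (`{b | ‖Φ b‖ ≤ r}` finite), both Herbrand
  indices of `B` are finite and `|Ĥ⁰(B)| = (∏_{orbits} |Stab|) * |Ĥ⁻¹(B)|`.
-/
import Mathlib
import Fermat.Agent.S14.Herbrand
import Fermat.Agent.S14.HerbrandCyclic
import Fermat.Agent.S14.PermLattice
import Fermat.Agent.S14.HerbrandLattice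

set_option autoImplicit false

namespace Fermat.Agent.S55.PermLatticeGen

open Finset Fermat.Agent.S14.Herbrand Fermat.Agent.S14 Fermat.Agent.S14.HerbrandLattice

section Lang

variable {G S B : Type*} [Group G] [Finite G] [Fintype S] [MulAction G S] [AddCommGroup B]

/-- **Lang's lemma**, general action, lifted to the source of `Φ`. -/
theorem exists_perm_family (ρ : G →* AddMonoid.End B) (Φ : B →+ (S → ℝ))
    (hΦ : ∀ g b, Φ (ρ g b) = PermLattice.act g (Φ b))
    (hspan : Submodule.span ℝ (Set.range Φ) = ⊤) :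
    ∃ y : S → B, (∀ (g : G) w, ρ g (y w) = y (g • w)) ∧
      LinearIndependent ℝ (fun w => Φ (y w)) := by
  classical
  have : Fintype G := Fintype.ofFinite G
  obtain ⟨Bd, hBd, hcov⟩ := PermLattice.exists_bound_forall_exists_mem Φ.range
    (by rw [AddMonoidHom.coe_range]; exact hspan)
  set N : ℝ := (Fintype.card G : ℝ) with hN
  have hNpos : 0 < N := by
    rw [hN]; exact_mod_cast Fintype.card_pos
  set t : ℝ := (Fintype.card S : ℝ) * Bd + 1 with ht
  have hz : ∀ r : S, ∃ z : B, ∀ w, |Φ z w - (if w = r then t else 0)| ≤ Bd := by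
    intro r
    obtain ⟨m, ⟨z, rfl⟩, hm⟩ := hcov (fun w => if w = r then t else 0)
    exact ⟨z, fun w => by rw [abs_sub_comm]; exact hm w⟩
  choose z hz using hz
  refine ⟨fun w => ∑ g : G, ρ g⁻¹ (z (g • w)), fun τ w => ?_, ?_⟩
  · simp only
    rw [map_sum, ← Equiv.sum_comp (Equiv.mulRight τ) (fun g => ρ τ (ρ g⁻¹ (z (g • w))))]
    refine Finset.sum_congr rfl fun g _ => ?_
    simp only [Equiv.coe_mulRight, mul_smul]
    have : ρ τ (ρ (g * τ)⁻¹ (z (g • τ • w))) = (ρ τ * ρ (g * τ)⁻¹) (z (g • τ • w)) := rfl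
    rw [this, ← map_mul, mul_inv_rev, mul_inv_cancel_left]
  · have hcoord : ∀ w w', Φ (∑ g : G, ρ g⁻¹ (z (g • w))) w' = ∑ g : G, Φ (z (g • w)) (g • w') := by
      intro w w'
      rw [map_sum, Finset.sum_apply]
      refine Finset.sum_congr rfl fun g _ => ?_
      rw [hΦ, PermLattice.act_apply, inv_inv]
    refine PermLattice.linearIndependent_of_diag_dominant _ (N * t) (N * Bd) ?_ fun w w' => ?_
    · rw [ht]; nlinarith
    · simp only
      rw [hcoord]
      have h1 : (if w' = w then N * t else 0) = ∑ g : G, (if g • w' = g • w then t else 0) := by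
        simp only [smul_left_cancel_iff]
        rw [Finset.sum_const, Finset.card_univ, nsmul_eq_mul]
        split_ifs <;> simp [hN]
      rw [h1, ← Finset.sum_sub_distrib]
      calc |∑ g : G, (Φ (z (g • w)) (g • w') - (if g • w' = g • w then t else 0))|
          ≤ ∑ g : G, |Φ (z (g • w)) (g • w') - (if g • w' = g • w then t else 0)| :=
            Finset.abs_sum_le_sum_abs _ _
        _ ≤ ∑ _g : G, Bd := Finset.sum_le_sum fun g _ => hz (g • w) (g • w')
        _ = N * Bd := by rw [Finset.sum_const, Finset.card_univ, nsmul_eq_mul]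

end Lang

section General

variable {G M : Type*} [Group G] [AddCommGroup M]

/-- If `G = ⟨σ⟩`, every `g x - x` lies in the image of `σ - 1`. -/
lemma map_sub_mem_range_dlt (ρ : G →* AddMonoid.End M) (σ : G)
    (hσ : ∀ g, g ∈ Subgroup.zpowers σ) (g : G) (x : M) : ρ g x - x ∈ (dlt (ρ σ)).range := by
  let H : Subgroup G :=
    { carrier := {g | ∀ x, ρ g x - x ∈ (dlt (ρ σ)).range}
      one_mem' := fun x => by
        rw [map_one]
        show x - x ∈ _
        rw [sub_self]; exact zero_mem _
      mul_mem' := fun {a b} ha hb x => by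
        have h : ρ (a * b) x - x = (ρ a (ρ b x) - ρ b x) + (ρ b x - x) := by
          rw [map_mul]
          show ρ a (ρ b x) - x = _
          abel
        rw [h]; exact add_mem (ha _) (hb _)
      inv_mem' := fun {a} ha x => by
        have h1 : ρ a (ρ a⁻¹ x) = x := by
          have : ρ a (ρ a⁻¹ x) = (ρ a * ρ a⁻¹) x := rfl
          rw [this, ← map_mul, mul_inv_cancel, map_one]; rfl
        have h : ρ a⁻¹ x - x = -(ρ a (ρ a⁻¹ x) - ρ a⁻¹ x) := by rw [h1]; abel
        rw [h]; exact neg_mem (ha _) }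
  have hσH : σ ∈ H := fun x => ⟨x, rfl⟩
  exact (Subgroup.zpowers_le.mpr hσH) (hσ g) x

/-- If `G = ⟨σ⟩`, an element fixed by `σ` is fixed by `G`. -/
lemma map_eq_of_dlt_eq_zero (ρ : G →* AddMonoid.End M) (σ : G)
    (hσ : ∀ g, g ∈ Subgroup.zpowers σ) {x : M} (hx : dlt (ρ σ) x = 0) (g : G) : ρ g x = x := by
  let H : Subgroup G :=
    { carrier := {g | ρ g x = x}
      one_mem' := by show ρ 1 x = x; rw [map_one]; rfl
      mul_mem' := fun {a b} ha hb => by
        show ρ (a * b) x = x
        rw [map_mul]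
        show ρ a (ρ b x) = x
        rw [show ρ b x = x from hb]; exact ha
      inv_mem' := fun {a} ha => by
        show ρ a⁻¹ x = x
        have h1 : ρ a⁻¹ (ρ a x) = x := by
          have : ρ a⁻¹ (ρ a x) = (ρ a⁻¹ * ρ a) x := rfl
          rw [this, ← map_mul, inv_mul_cancel, map_one]; rfl
        rw [show ρ a x = x from ha] at h1
        exact h1 }
  have hσH : σ ∈ H := by
    show ρ σ x = x
    rw [dlt_apply, sub_eq_zero] at hx
    exact hx
  exact (Subgroup.zpowers_le.mpr hσH) (hσ g)

/-- In a finite cyclic group `⟨σ⟩`, summing over the powers of `σ` is summing over the group. -/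
lemma sum_range_pow_eq_sum [Fintype G] {A : Type*} [AddCommMonoid A] (σ : G)
    (hσ : ∀ g, g ∈ Subgroup.zpowers σ) (f : G → A) :
    ∑ i ∈ range (Nat.card G), f (σ ^ i) = ∑ g : G, f g := by
  classical
  have hord : orderOf σ = Nat.card G := orderOf_eq_card_of_forall_mem_zpowers hσ
  have himg : (Finset.univ : Finset G) = (range (Nat.card G)).image (σ ^ ·) := by
    ext g
    simp only [Finset.mem_univ, true_iff]
    have := hσ g
    rw [mem_zpowers_iff_mem_range_orderOf, hord] at this
    exact this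
  rw [himg, Finset.sum_image]
  intro i hi j hj hij
  have hinj := pow_injOn_Iio_orderOf (x := σ)
  rw [Finset.coe_range] at hi hj
  rw [← hord] at hi hj
  exact hinj hi hj hij

/-- The norm operator of a finite cyclic group is the sum over the group. -/
lemma nrm_eq_sum [Fintype G] (ρ : G →* AddMonoid.End M) (σ : G)
    (hσ : ∀ g, g ∈ Subgroup.zpowers σ) (x : M) :
    nrm (ρ σ) (Nat.card G) x = ∑ g : G, ρ g x := by
  rw [nrm_apply, ← sum_range_pow_eq_sum σ hσ (fun g => ρ g x)]
  refine Finset.sum_congr rfl fun i _ => ?_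
  rw [map_pow]

end General

section Orbits

variable {G S : Type*} [Group G] [MulAction G S]

/-- The chosen representative of the orbit of `w`. -/
noncomputable def rep (G : Type*) {S : Type*} [Group G] [MulAction G S] (w : S) : S :=
  (Quotient.mk'' w : MulAction.orbitRel.Quotient G S).out

lemma exists_smul_rep (w : S) : ∃ g : G, g • rep G w = w := by
  have h : (MulAction.orbitRel G S) (rep G w) w := Quotient.exact (Quotient.out_eq _)
  rw [MulAction.orbitRel_apply] at h
  obtain ⟨g, hg⟩ := h
  exact ⟨g⁻¹, by rw [← hg, inv_smul_smul]⟩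

lemma mk_smul (g : G) (w : S) :
    (Quotient.mk'' (g • w) : MulAction.orbitRel.Quotient G S) = Quotient.mk'' w :=
  Quotient.sound (by
    change (MulAction.orbitRel G S) (g • w) w
    rw [MulAction.orbitRel_apply]; exact ⟨g, rfl⟩)

lemma rep_smul (g : G) (w : S) : rep G (g • w) = rep G w := by
  unfold rep
  rw [mk_smul]

lemma rep_rep (w : S) : rep G (rep G w) = rep G w := by
  obtain ⟨g, hg⟩ := exists_smul_rep (G := G) w
  conv_rhs => rw [← hg, rep_smul]

lemma mk_rep (w : S) :
    (Quotient.mk'' (rep G w) : MulAction.orbitRel.Quotient G S) = Quotient.mk'' w :=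
  Quotient.out_eq _

lemma rep_out (O : MulAction.orbitRel.Quotient G S) : rep G O.out = O.out := by
  unfold rep
  exact congrArg Quotient.out (Quotient.out_eq O)

/-- `#{g | g • r = b} = |Stab r|` if `b` is in the orbit of `r`. -/
lemma card_smul_eq_left (r b : S) (g₀ : G) (hb : g₀ • r = b) :
    Nat.card {g : G // g • r = b} = Nat.card (MulAction.stabilizer G r) := by
  refine Nat.card_congr
    { toFun := fun g => ⟨g₀⁻¹ * g.1, by
        rw [MulAction.mem_stabilizer_iff, mul_smul, g.2, ← hb, inv_smul_smul]⟩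
      invFun := fun h => ⟨g₀ * h.1, by
        rw [mul_smul, MulAction.mem_stabilizer_iff.mp h.2, hb]⟩
      left_inv := fun g => by simp
      right_inv := fun h => by simp }

/-- `#{g | g • w = r} = |Stab r|` if `r` is in the orbit of `w`. -/
lemma card_smul_eq_right (w r : S) (g₀ : G) (hr : g₀ • w = r) :
    Nat.card {g : G // g • w = r} = Nat.card (MulAction.stabilizer G r) := by
  refine Nat.card_congr
    { toFun := fun g => ⟨g.1 * g₀⁻¹, by
        have h1 : g₀⁻¹ • r = w := by rw [← hr, inv_smul_smul]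
        rw [MulAction.mem_stabilizer_iff, mul_smul, h1]
        exact g.2⟩
      invFun := fun h => ⟨h.1 * g₀, by
        rw [mul_smul, hr, MulAction.mem_stabilizer_iff.mp h.2]⟩
      left_inv := fun g => by simp
      right_inv := fun h => by simp }

end Orbits

section PermZ

variable {G S : Type*} [Group G] [Finite G] [Fintype S] [MulAction G S]

omit [Finite G] [Fintype S] in
lemma actZ_single [DecidableEq S] (g : G) (w : S) (a : ℤ) :
    actZ g (Pi.single w a : S → ℤ) = Pi.single (g • w) a := by
  funext u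
  rw [actZ_apply]
  by_cases h : u = g • w
  · subst h; rw [inv_smul_smul, Pi.single_eq_same, Pi.single_eq_same]
  · rw [Pi.single_eq_of_ne h, Pi.single_eq_of_ne]
    intro h'; apply h; rw [← h', smul_inv_smul]

omit [Finite G] [Fintype S] in
lemma actZ_pow_card (σ : G) : (actZ σ : AddMonoid.End (S → ℤ)) ^ Nat.card G = 1 := by
  rw [← map_pow, pow_card_eq_one', map_one]

omit [Finite G] [Fintype S] in
lemma nrm_actZ_apply [Fintype G] (σ : G) (hσ : ∀ g, g ∈ Subgroup.zpowers σ) (x : S → ℤ) (u : S) :
    nrm (actZ σ : AddMonoid.End (S → ℤ)) (Nat.card G) x u = ∑ g : G, x (g • u) := by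
  rw [nrm_eq_sum actZ σ hσ, Finset.sum_apply]
  simp only [actZ_apply]
  exact Equiv.sum_comp (Equiv.inv G) (fun g => x (g • u))

/-- `Ĥ⁻¹(G, ℤ^S) = 0` for every finite `G`-set `S` (`G` finite cyclic). -/
theorem ker_nrm_le_range_dlt (σ : G) (hσ : ∀ g, g ∈ Subgroup.zpowers σ) :
    (nrm (actZ σ : AddMonoid.End (S → ℤ)) (Nat.card G)).ker ≤ (dlt (actZ σ)).range := by
  classical
  have : Fintype G := Fintype.ofFinite G
  intro c hc
  have hc0 : nrm (actZ σ : AddMonoid.End (S → ℤ)) (Nat.card G) c = 0 := hc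
  have hσn := actZ_pow_card (S := S) σ
  set cbar : S → ℤ := ∑ w, Pi.single (rep G w) (c w) with hcbar
  have hdiff : c - cbar ∈ (dlt (actZ σ : AddMonoid.End (S → ℤ))).range := by
    have h1 : c - cbar = ∑ w, (Pi.single w (c w) - Pi.single (rep G w) (c w)) := by
      rw [Finset.sum_sub_distrib, Finset.univ_sum_single]
    rw [h1]
    refine AddSubgroup.sum_mem _ fun w _ => ?_
    obtain ⟨g, hg⟩ := exists_smul_rep (G := G) w
    have h2 := map_sub_mem_range_dlt (actZ : G →* AddMonoid.End (S → ℤ)) σ hσ g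
      (Pi.single (rep G w) (c w))
    rwa [actZ_single, hg] at h2
  have hnbar : nrm (actZ σ : AddMonoid.End (S → ℤ)) (Nat.card G) cbar = 0 := by
    obtain ⟨d, hd⟩ := hdiff
    have h1 : nrm (actZ σ : AddMonoid.End (S → ℤ)) (Nat.card G) (c - cbar) = 0 := by
      rw [← hd]; exact nrm_dlt hσn d
    rw [map_sub, hc0, zero_sub, neg_eq_zero] at h1
    exact h1
  have hsupp : ∀ u, rep G u ≠ u → cbar u = 0 := by
    intro u hu
    rw [hcbar, Finset.sum_apply]
    refine Finset.sum_eq_zero fun w _ => ?_
    rw [Pi.single_eq_of_ne]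
    intro h
    apply hu; rw [h, rep_rep]
  have hzero : cbar = 0 := by
    funext u
    by_cases hu : rep G u = u
    · have h1 := congrFun hnbar u
      rw [nrm_actZ_apply σ hσ] at h1
      have h2 : ∀ g : G, cbar (g • u) = if g • u = u then cbar u else 0 := by
        intro g
        split_ifs with h
        · rw [h]
        · apply hsupp
          rw [rep_smul, hu]; exact fun h' => h h'.symm
      rw [Finset.sum_congr rfl fun g _ => h2 g, Finset.sum_ite, Finset.sum_const_zero, add_zero,
        Finset.sum_const] at h1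
      have h1' : (Finset.univ.filter (fun g : G => g • u = u)).card • cbar u = 0 := h1
      rw [smul_eq_zero] at h1'
      rcases h1' with h1 | h1
      · exfalso
        have h3 : (1 : G) ∈ Finset.univ.filter (fun g : G => g • u = u) := by simp
        rw [Finset.card_eq_zero] at h1
        rw [h1] at h3; exact absurd h3 (Finset.notMem_empty _)
      · exact h1
    · exact hsupp u hu
  obtain ⟨d, hd⟩ := hdiff
  exact ⟨d, by rw [hd, hzero, sub_zero]⟩

/-- Pull-back of functions on the orbit space. -/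
def pullback : (MulAction.orbitRel.Quotient G S → ℤ) →+ (S → ℤ) where
  toFun f w := f (Quotient.mk'' w)
  map_zero' := rfl
  map_add' _ _ := rfl

omit [Finite G] [Fintype S] in
lemma pullback_apply (f : MulAction.orbitRel.Quotient G S → ℤ) (w : S) :
    pullback f w = f (Quotient.mk'' w) := rfl

omit [Finite G] [Fintype S] in
lemma pullback_injective : Function.Injective (pullback (G := G) (S := S)) := by
  intro f f' h
  funext O
  induction O using Quotient.inductionOn' with
  | h w => exact congrFun h w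

omit [Finite G] [Fintype S] in
lemma range_pullback (σ : G) (hσ : ∀ g, g ∈ Subgroup.zpowers σ) :
    (pullback (G := G) (S := S)).range = (dlt (actZ σ : AddMonoid.End (S → ℤ))).ker := by
  ext c
  constructor
  · rintro ⟨f, rfl⟩
    show dlt (actZ σ : AddMonoid.End (S → ℤ)) (pullback f) = 0
    funext w
    rw [dlt_apply]
    show f (Quotient.mk'' (σ⁻¹ • w)) - f (Quotient.mk'' w) = 0
    rw [mk_smul, sub_self]
  · intro hc
    have hinv := map_eq_of_dlt_eq_zero (actZ : G →* AddMonoid.End (S → ℤ)) σ hσ hc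
    refine ⟨fun O => c O.out, ?_⟩
    funext w
    show c (rep G w) = c w
    obtain ⟨g, hg⟩ := exists_smul_rep (G := G) w
    have h1 := congrFun (hinv g⁻¹) (rep G w)
    rw [actZ_apply, inv_inv, hg] at h1
    exact h1.symm

/-- The order of the stabilizer of the chosen point of an orbit. -/
noncomputable def stabCard (O : MulAction.orbitRel.Quotient G S) : ℕ :=
  Nat.card (MulAction.stabilizer G O.out)

/-- Reduction of the `O`-th coordinate modulo `|Stab_O|`. -/
noncomputable def redMod : (MulAction.orbitRel.Quotient G S → ℤ) →+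
    (∀ O : MulAction.orbitRel.Quotient G S, ZMod (stabCard O)) where
  toFun f O := (f O : ZMod (stabCard O))
  map_zero' := by funext O; simp
  map_add' a b := by funext O; simp

omit [Finite G] [Fintype S] in
lemma redMod_surjective : Function.Surjective (redMod (G := G) (S := S)) := fun y =>
  ⟨fun O => (ZMod.intCast_surjective (y O)).choose,
    funext fun O => (ZMod.intCast_surjective (y O)).choose_spec⟩

omit [Finite G] [Fintype S] in
lemma mem_ker_redMod (f : MulAction.orbitRel.Quotient G S → ℤ) :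
    f ∈ (redMod (G := G) (S := S)).ker ↔ ∀ O, (stabCard O : ℤ) ∣ f O := by
  rw [AddMonoidHom.mem_ker]
  constructor
  · intro h O; exact (ZMod.intCast_zmod_eq_zero_iff_dvd _ _).mp (congrFun h O)
  · intro h; funext O; exact (ZMod.intCast_zmod_eq_zero_iff_dvd _ _).mpr (h O)

omit [Finite G] [Fintype S] in
lemma index_ker_redMod [Fintype (MulAction.orbitRel.Quotient G S)] :
    (redMod (G := G) (S := S)).ker.index = ∏ O : MulAction.orbitRel.Quotient G S, stabCard O := by
  rw [AddSubgroup.index_ker, AddMonoidHom.range_eq_top.mpr redMod_surjective, AddSubgroup.card_top,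
    Nat.card_pi]
  exact Finset.prod_congr rfl fun O _ => Nat.card_zmod _

omit [Fintype S] in
lemma range_nrm_actZ (σ : G) (hσ : ∀ g, g ∈ Subgroup.zpowers σ) :
    (nrm (actZ σ : AddMonoid.End (S → ℤ)) (Nat.card G)).range =
      (redMod (G := G) (S := S)).ker.map pullback := by
  classical
  have : Fintype G := Fintype.ofFinite G
  have hσn := actZ_pow_card (S := S) σ
  ext x
  constructor
  · rintro ⟨c, rfl⟩
    have hker : nrm (actZ σ : AddMonoid.End (S → ℤ)) (Nat.card G) c ∈
        (dlt (actZ σ : AddMonoid.End (S → ℤ))).ker := dlt_nrm hσn c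
    rw [← range_pullback σ hσ] at hker
    obtain ⟨f, hf⟩ := hker
    refine ⟨f, ?_, hf⟩
    rw [SetLike.mem_coe, mem_ker_redMod]
    intro O
    have h1 : f O = nrm (actZ σ : AddMonoid.End (S → ℤ)) (Nat.card G) c O.out := by
      rw [← hf, pullback_apply, Quotient.out_eq']
    rw [h1, nrm_actZ_apply σ hσ, Finset.sum_comp c (fun g : G => g • O.out)]
    have h2 : ∀ b ∈ Finset.univ.image (fun g : G => g • O.out),
        (Finset.univ.filter (fun g : G => g • O.out = b)).card = stabCard O := by
      intro b hb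
      obtain ⟨g₀, -, hg₀⟩ := Finset.mem_image.mp hb
      rw [← Fintype.card_subtype, ← Nat.card_eq_fintype_card]
      exact card_smul_eq_left O.out b g₀ hg₀
    rw [Finset.sum_congr rfl (fun b hb => by rw [h2 b hb]), ← Finset.smul_sum, nsmul_eq_mul]
    exact Dvd.intro _ rfl
  · rintro ⟨f, hf, rfl⟩
    rw [SetLike.mem_coe, mem_ker_redMod] at hf
    choose a ha using hf
    refine ⟨fun w => if rep G w = w then a (Quotient.mk'' w) else 0, ?_⟩
    funext w'
    rw [nrm_actZ_apply σ hσ]
    simp only [rep_smul, mk_smul]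
    rw [Finset.sum_ite, Finset.sum_const_zero, add_zero, Finset.sum_const, nsmul_eq_mul,
      pullback_apply, ha]
    congr 1
    obtain ⟨g, hg⟩ := exists_smul_rep (G := G) w'
    have hg' : g⁻¹ • w' = rep G w' := by rw [← hg, inv_smul_smul, rep_smul, rep_rep]
    have h3 := card_smul_eq_right w' (rep G w') g⁻¹ hg'
    rw [Nat.card_eq_fintype_card, Fintype.card_subtype] at h3
    have h4 : (Finset.univ.filter (fun g : G => rep G w' = g • w')) =
        (Finset.univ.filter (fun g : G => g • w' = rep G w')) := by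
      ext g; simp only [Finset.mem_filter, Finset.mem_univ, true_and, eq_comm]
    rw [h4, h3]
    rfl

/-- **Herbrand indices of a permutation lattice**: `|Ĥ⁰(G, ℤ^S)| = ∏_{orbits} |Stab|` and
`|Ĥ⁻¹(G, ℤ^S)| = 1`, for `G = ⟨σ⟩` finite cyclic acting on a finite set `S`. -/
theorem actZ_hIdx_gen [Fintype (MulAction.orbitRel.Quotient G S)] (σ : G)
    (hσ : ∀ g, g ∈ Subgroup.zpowers σ) :
    hIdx (dlt (actZ σ : AddMonoid.End (S → ℤ))) (nrm (actZ σ) (Nat.card G)) =
        ∏ O : MulAction.orbitRel.Quotient G S, stabCard O ∧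
      hIdx (nrm (actZ σ : AddMonoid.End (S → ℤ)) (Nat.card G)) (dlt (actZ σ)) = 1 := by
  constructor
  · rw [hIdx, range_nrm_actZ σ hσ, ← range_pullback σ hσ, AddMonoidHom.range_eq_map,
      AddSubgroup.relIndex_map_map_of_injective _ _ pullback_injective,
      AddSubgroup.relIndex_top_right, index_ker_redMod]
  · rw [hIdx, AddSubgroup.relIndex_eq_one]
    exact ker_nrm_le_range_dlt σ hσ

omit [Finite G] [Fintype S] in
/-- `stabCard` of the orbit of `w` is the order of the stabilizer of `w`. -/
lemma stabCard_mk (w : S) :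
    stabCard (Quotient.mk'' w : MulAction.orbitRel.Quotient G S) =
      Nat.card (MulAction.stabilizer G w) := by
  unfold stabCard
  have h : (MulAction.orbitRel G S) (Quotient.mk'' w : MulAction.orbitRel.Quotient G S).out w :=
    Quotient.exact (Quotient.out_eq _)
  exact Nat.card_congr (MulAction.stabilizerEquivStabilizerOfOrbitRel h).toEquiv

omit [Finite G] [Fintype S] in
/-- The product of the `stabCard`s over the orbits, computed on any system of orbit
representatives. -/
lemma prod_stabCard_eq [Fintype (MulAction.orbitRel.Quotient G S)] {ι : Type*} [Fintype ι]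
    (r : ι → S)
    (hr : Function.Bijective (fun i => (Quotient.mk'' (r i) : MulAction.orbitRel.Quotient G S))) :
    ∏ O : MulAction.orbitRel.Quotient G S, stabCard O =
      ∏ i, Nat.card (MulAction.stabilizer G (r i)) := by
  rw [← Fintype.prod_equiv (Equiv.ofBijective _ hr)
    (fun i => Nat.card (MulAction.stabilizer G (r i))) (fun O => stabCard O)]
  intro i
  rw [Equiv.ofBijective_apply, stabCard_mk]

end PermZ

section Main

variable {G S B : Type*} [Group G] [Finite G] [Fintype S] [MulAction G S] [AddCommGroup B]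

/-- **Herbrand quotient of a lattice with permutation structure** (general action): if
`Φ : B →+ (S → ℝ)` is equivariant, proper and has spanning image, then both Herbrand indices of `B`
are finite and `|Ĥ⁰(B)| = (∏_{orbits} |Stab|) * |Ĥ⁻¹(B)|`. -/
theorem herbrand_lattice_gen [Fintype (MulAction.orbitRel.Quotient G S)]
    (σ : G) (hσ : ∀ g, g ∈ Subgroup.zpowers σ) (ρ : G →* AddMonoid.End B)
    (Φ : B →+ (S → ℝ)) (hΦ : ∀ g b, Φ (ρ g b) = PermLattice.act g (Φ b))
    (hspan : Submodule.span ℝ (Set.range Φ) = ⊤)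
    (hfin : ∀ r : ℝ, {b : B | ∀ w, |Φ b w| ≤ r}.Finite) :
    hIdx (dlt (ρ σ)) (nrm (ρ σ) (Nat.card G)) ≠ 0 ∧
      hIdx (nrm (ρ σ) (Nat.card G)) (dlt (ρ σ)) ≠ 0 ∧
      hIdx (dlt (ρ σ)) (nrm (ρ σ) (Nat.card G)) =
        (∏ O : MulAction.orbitRel.Quotient G S, stabCard O) *
          hIdx (nrm (ρ σ) (Nat.card G)) (dlt (ρ σ)) := by
  classical
  set n := Nat.card G with hn
  -- Step 1-2: a permuted family in `B` with independent image
  obtain ⟨y, hρy, hyli⟩ := exists_perm_family ρ Φ hΦ hspan
  set x : S → (S → ℝ) := fun w => Φ (y w) with hx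
  -- Step 3: `ι`
  have hΦι : ∀ c : S → ℤ, Φ (iota y c) = ∑ w, (c w : ℝ) • x w := by
    intro c
    rw [iota_apply, map_sum]
    refine Finset.sum_congr rfl fun w _ => ?_
    rw [map_zsmul, Int.cast_smul_eq_zsmul]
  have hιinj : Function.Injective (iota y) := by
    rw [injective_iff_map_eq_zero]
    intro c hc
    have h0 : ∑ w, (c w : ℝ) • x w = 0 := by rw [← hΦι, hc, map_zero]
    have := (Fintype.linearIndependent_iff.mp hyli) (fun w => (c w : ℝ)) h0
    funext w
    exact_mod_cast this w
  have hιeq : ∀ (g : G) (c : S → ℤ), ρ g (iota y c) = iota y (actZ g c) := by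
    intro g c
    rw [iota_apply, iota_apply, map_sum]
    rw [← Equiv.sum_comp (MulAction.toPerm g) (fun w => actZ g c w • y w)]
    refine Finset.sum_congr rfl fun w _ => ?_
    rw [map_zsmul, hρy, MulAction.toPerm_apply, actZ_apply, inv_smul_smul]
  -- the operators
  have hσn : (ρ σ) ^ n = 1 := by rw [← map_pow, hn, pow_card_eq_one', map_one]
  have hfg : ∀ b, dlt (ρ σ) (nrm (ρ σ) n b) = 0 := dlt_nrm hσn
  have hgf : ∀ b, nrm (ρ σ) n (dlt (ρ σ) b) = 0 := nrm_dlt hσn
  have hdι : ∀ c, dlt (ρ σ) (iota y c) = iota y (dlt (actZ σ) c) := by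
    intro c
    rw [dlt_apply, dlt_apply, hιeq, map_sub]
  have hpowι : ∀ (k : ℕ) c, ((ρ σ) ^ k) (iota y c) = iota y (((actZ σ) ^ k) c) := by
    intro k c
    rw [← map_pow, ← map_pow, hιeq]
  have hnι : ∀ c, nrm (ρ σ) n (iota y c) = iota y (nrm (actZ σ) n c) := by
    intro c
    rw [nrm_apply, nrm_apply, map_sum]
    exact Finset.sum_congr rfl fun k _ => hpowι k c
  -- Step 4: indices of the sublattice
  obtain ⟨hZ1, hZ2⟩ := actZ_hIdx_gen (S := S) σ hσ
  have hS1 : hSub (dlt (ρ σ)) (nrm (ρ σ) n) (iota y).range =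
      ∏ O : MulAction.orbitRel.Quotient G S, stabCard O := by
    rw [← hIdx_sub (iota y) hιinj hdι hnι]
    exact hZ1
  have hS2 : hSub (nrm (ρ σ) n) (dlt (ρ σ)) (iota y).range = 1 := by
    rw [← hIdx_sub (iota y) hιinj hnι hdι]
    exact hZ2
  have hAf : (iota y).range.map (dlt (ρ σ)) ≤ (iota y).range := by
    rintro _ ⟨_, ⟨c, rfl⟩, rfl⟩
    exact ⟨_, (hdι c).symm⟩
  have hAg : (iota y).range.map (nrm (ρ σ) n) ≤ (iota y).range := by
    rintro _ ⟨_, ⟨c, rfl⟩, rfl⟩
    exact ⟨_, (hnι c).symm⟩
  -- Step 5: finite index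
  have hxspan : Submodule.span ℝ (Set.range x) = ⊤ :=
    hyli.span_eq_top_of_card_eq_finrank' (by simp)
  set R : ℝ := ∑ w, ∑ w', |x w w'| with hR
  have hfinR := hfin R
  have hcover : ∀ b : B, ∃ a ∈ {b : B | ∀ w, |Φ b w| ≤ R}, b - a ∈ (iota y).range := by
    intro b
    have hb : Φ b ∈ Submodule.span ℝ (Set.range x) := by rw [hxspan]; trivial
    obtain ⟨c, hc⟩ := (Submodule.mem_span_range_iff_exists_fun ℝ).mp hb
    refine ⟨b - iota y (fun w => ⌊c w⌋), ?_, ⟨fun w => ⌊c w⌋, by abel⟩⟩
    intro w'
    rw [map_sub, hΦι, ← hc, ← Finset.sum_sub_distrib]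
    have e : ∀ w, c w • x w - ((⌊c w⌋ : ℤ) : ℝ) • x w = Int.fract (c w) • x w := by
      intro w
      rw [← sub_smul, Int.self_sub_floor]
    rw [Finset.sum_congr rfl fun w _ => e w, Finset.sum_apply]
    calc |∑ w, (Int.fract (c w) • x w) w'| ≤ ∑ w, |(Int.fract (c w) • x w) w'| :=
          Finset.abs_sum_le_sum_abs _ _
      _ ≤ ∑ w, ∑ w', |x w w'| := by
          refine Finset.sum_le_sum fun w _ => ?_
          rw [Pi.smul_apply, smul_eq_mul, abs_mul, abs_of_nonneg (Int.fract_nonneg _)]
          calc Int.fract (c w) * |x w w'| ≤ 1 * |x w w'| :=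
                mul_le_mul_of_nonneg_right (Int.fract_lt_one _).le (abs_nonneg _)
            _ = |x w w'| := one_mul _
            _ ≤ ∑ w', |x w w'| :=
                Finset.single_le_sum (f := fun w' => |x w w'|) (fun _ _ => abs_nonneg _)
                  (Finset.mem_univ w')
  have hindex : (iota y).range.index ≠ 0 := by
    have : Finite {b : B | ∀ w, |Φ b w| ≤ R} := hfinR.to_subtype
    have hsurj : Function.Surjective
        (fun a : {b : B | ∀ w, |Φ b w| ≤ R} =>
          (QuotientAddGroup.mk (a : B) : B ⧸ (iota y).range)) := by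
      intro q
      obtain ⟨b, rfl⟩ := QuotientAddGroup.mk_surjective q
      obtain ⟨a, ha, hba⟩ := hcover b
      refine ⟨⟨a, ha⟩, ?_⟩
      rw [QuotientAddGroup.eq]
      have : -a + b = b - a := by abel
      rw [this]
      exact hba
    have : Finite (B ⧸ (iota y).range) := Finite.of_surjective _ hsurj
    exact AddSubgroup.index_ne_zero_of_finite
  -- Step 6: assemble
  have hmul := hIdx_mul_hSub_of_finiteIndex hfg hgf hAf hAg hindex
  rw [hS1, hS2, mul_one] at hmul
  have hP : (∏ O : MulAction.orbitRel.Quotient G S, stabCard O) ≠ 0 := by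
    refine Finset.prod_ne_zero_iff.mpr fun O _ => ?_
    exact Nat.card_pos.ne'
  have hne := (hSub_ne_zero_iff_of_finiteIndex hfg hgf hAf hAg hindex).mp
    ⟨by rw [hS1]; exact hP, by rw [hS2]; exact one_ne_zero⟩
  exact ⟨hne.1, hne.2, by rw [hmul, mul_comm]⟩

end Main

end Fermat.Agent.S55.PermLatticeGen
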