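/-
S55 / GL1 part 2b (helper11): Galois action on `T`-units and their Herbrand quotient.

`L/K` a Galois extension of number fields with group `G`, `T` a finite `G`-stable set of finite
places of `L`.  `G` acts on the `T`-units `E_{L,T} = TUnit L T` and on the set of places
`InfinitePlace L ⊕ T`; the logarithmic map `logT` of `SUnit.lean` is equivariant.  For `G = ⟨σ⟩`
cyclic of order `n` this gives (Lang ANT IX.4, via `PermLatticeGen.herbrand_lattice_gen`) the
Herbrand quotient `q(E_{L,T}) = ∏_v n_v / n` (product over the orbits of `G` on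
`InfinitePlace L ⊕ T`, i.e. over the places of `K` below; `n_v` = order of a decomposition group),
in the index calculus of `Fermat.Agent.S14.Herbrand`.
-/
import Mathlib
import Fermat.Agent.S14.GalDivisors
import Fermat.Agent.S14.UnitsHerbrand
import Fermat.Agent.S55.SUnit
import Fermat.Agent.S55.PermLatticeGen

set_option autoImplicit false

namespace Fermat.Agent.S55.SUnitGalois

open NumberField IsDedekindDomain HeightOneSpectrum NumberField.InfinitePlace
open Fermat.Agent.S14 Fermat.Agent.S14.Herbrand Fermat.Agent.S14.GalDiv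
open Fermat.Agent.S55.SUnit Fermat.Agent.S55.PermLatticeGen

variable (K : Type*) {L : Type*} [Field K] [Field L] [NumberField K] [NumberField L] [Algebra K L]

/-- A finite set of finite places of `L` is stable under `Gal(L/K)`. -/
class IsGalStable (T : Finset (HeightOneSpectrum (𝓞 L))) : Prop where
  stable : ∀ (σ : L ≃ₐ[K] L), ∀ w ∈ T, σ • w ∈ T

variable (T : Finset (HeightOneSpectrum (𝓞 L))) [hT : IsGalStable K T]

/-- The Galois action on a stable set of places. -/
noncomputable instance instMulActionT : MulAction (L ≃ₐ[K] L) T where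
  smul σ w := ⟨σ • w.1, IsGalStable.stable σ w.1 w.2⟩
  one_smul w := Subtype.ext (one_smul _ w.1)
  mul_smul σ τ w := Subtype.ext (mul_smul σ τ w.1)

omit [NumberField K] [NumberField L] in
@[simp] lemma coe_smul_T (σ : L ≃ₐ[K] L) (w : T) : ((σ • w : T) : HeightOneSpectrum (𝓞 L)) = σ • w.1 :=
  rfl

variable [IsGalois K L]

/-- `σ` maps `T`-units to `T`-units. -/
noncomputable def tunitMap (σ : L ≃ₐ[K] L) : TUnit L T →* TUnit L T :=
  ((Units.map ((σ : L →+* L) : L →* L)).comp (TUnit L T).subtype).codRestrict (TUnit L T) (by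
    intro x
    rw [mem_TUnit_iff]
    intro v hv
    have hv' : σ⁻¹ • v ∉ T := fun h => hv (by simpa using IsGalStable.stable σ _ h)
    have h1 := mem_TUnit_iff.mp x.2 _ hv'
    have h2 := valuation_smul σ (σ⁻¹ • v) ((x : Lˣ) : L)
    rw [smul_inv_smul] at h2
    show v.valuation L (σ ((x : Lˣ) : L)) = 1
    rw [h2]; exact h1)

lemma tunitMap_coe (σ : L ≃ₐ[K] L) (x : TUnit L T) :
    (((tunitMap K T σ x : TUnit L T) : Lˣ) : L) = σ ((x : Lˣ) : L) := rfl

/-- The action of `Gal(L/K)` on `Additive (TUnit L T)`. -/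
noncomputable def tunitsEnd : (L ≃ₐ[K] L) →* AddMonoid.End (Additive (TUnit L T)) where
  toFun σ := (tunitMap K T σ).toAdditive
  map_one' := by
    refine AddMonoidHom.ext fun u => ?_
    refine congrArg Additive.ofMul (Subtype.ext (Units.ext ?_))
    show (((tunitMap K T 1 (Additive.toMul u) : TUnit L T) : Lˣ) : L) = _
    rw [tunitMap_coe]
    rfl
  map_mul' σ τ := by
    refine AddMonoidHom.ext fun u => ?_
    refine congrArg Additive.ofMul (Subtype.ext (Units.ext ?_))
    show (((tunitMap K T (σ * τ) (Additive.toMul u) : TUnit L T) : Lˣ) : L) = _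
    rw [tunitMap_coe]
    rfl

lemma tunitsEnd_apply (σ : L ≃ₐ[K] L) (x : TUnit L T) :
    tunitsEnd K T σ (Additive.ofMul x) = Additive.ofMul (tunitMap K T σ x) := rfl

/-! ### Equivariance of the logarithmic map -/

lemma absNorm_smul' (σ : L ≃ₐ[K] L) (w : HeightOneSpectrum (𝓞 L)) :
    Ideal.absNorm (σ • w).asIdeal = Ideal.absNorm w.asIdeal := by
  rw [smul_asIdeal]
  have h := Ideal.relNorm_smul ℤ σ w.asIdeal
  rw [Ideal.relNorm_int, Ideal.relNorm_int, Ideal.span_singleton_eq_span_singleton] at h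
  have := Int.associated_iff_natAbs.mp h
  simpa using this

omit [NumberField K] [NumberField L] [IsGalois K L] in
lemma mult_smul'' (σ : L ≃ₐ[K] L) (w : InfinitePlace L) : mult (σ • w) = mult w := by
  unfold mult
  rw [isReal_smul_iff]

lemma ordT_tunitMap (σ : L ≃ₐ[K] L) (x : TUnit L T) (v : T) :
    ordT T (Additive.ofMul (tunitMap K T σ x)) v = ordT T (Additive.ofMul x) (σ⁻¹ • v) := by
  rw [ordT_apply, ordT_apply, ordAt_apply, ordAt_apply, tunitMap_coe]
  have h2 := valuation_smul σ (σ⁻¹ • v.1) ((x : Lˣ) : L)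
  rw [smul_inv_smul] at h2
  rw [h2]
  rfl

/-- `logT` is equivariant for the permutation action on `InfinitePlace L ⊕ T → ℝ`. -/
theorem logT_tunitsEnd (σ : L ≃ₐ[K] L) (u : Additive (TUnit L T)) :
    logT T (tunitsEnd K T σ u) = PermLattice.act σ (logT T u) := by
  obtain ⟨x, rfl⟩ : ∃ y : TUnit L T, Additive.ofMul y = u := ⟨Additive.toMul u, rfl⟩
  funext i
  rw [PermLattice.act_apply, tunitsEnd_apply]
  rcases i with w | v
  · rw [Sum.smul_inl, logT_inl, logT_inl, tunitMap_coe, mult_smul'', InfinitePlace.smul_apply]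
    rfl
  · rw [Sum.smul_inr, logT_inr, logT_inr, ordT_tunitMap, coe_smul_T, absNorm_smul']

/-! ### Properness of `logT` -/

omit [NumberField K] [Algebra K L] hT [IsGalois K L] in
/-- Only finitely many `T`-units have bounded logarithmic coordinates. -/
theorem finite_logT_le (r : ℝ) : {u : Additive (TUnit L T) | ∀ i, |logT T u i| ≤ r}.Finite := by
  classical
  obtain ⟨b, hli, -⟩ := exists_basis_range_logT (K := L) T
  let bR := Module.Basis.extend hli.linearIndepOn_id
  have hfinidx : Finite ↑(hli.linearIndepOn_id.extend (Set.subset_univ _)) :=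
    Module.Finite.finite_basis bR
  have hbdd : Bornology.IsBounded {x : InfinitePlace L ⊕ T → ℝ | ∀ i, |x i| ≤ r} := by
    refine (Metric.isBounded_closedBall (x := (0 : InfinitePlace L ⊕ T → ℝ)) (r := |r|)).subset ?_
    intro x hx
    rw [mem_closedBall_zero_iff, pi_norm_le_iff_of_nonneg (abs_nonneg r)]
    intro i
    rw [Real.norm_eq_abs]
    exact (hx i).trans (le_abs_self r)
  have hfin := ZSpan.setFinite_inter bR hbdd
  have hsub : (logT T) '' {u : Additive (TUnit L T) | ∀ i, |logT T u i| ≤ r} ⊆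
      {x : InfinitePlace L ⊕ T → ℝ | ∀ i, |x i| ≤ r} ∩ (Submodule.span ℤ (Set.range bR)) := by
    rintro _ ⟨u, hu, rfl⟩
    refine ⟨hu, ?_⟩
    let y : LinearMap.range (logT (K := L) T) := ⟨logT T u, LinearMap.mem_range_self _ _⟩
    have hy : (logT T u : InfinitePlace L ⊕ T → ℝ) =
        ∑ i, b.repr y i • ((b i : LinearMap.range (logT (K := L) T)) :
          InfinitePlace L ⊕ T → ℝ) := by
      have h1 : (y : InfinitePlace L ⊕ T → ℝ) = ((∑ i, b.repr y i • b i :
          LinearMap.range (logT (K := L) T)) : InfinitePlace L ⊕ T → ℝ) := by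
        rw [b.sum_repr y]
      rw [Submodule.coe_sum] at h1
      simpa only [Submodule.coe_smul] using h1
    rw [SetLike.mem_coe, hy]
    refine Submodule.sum_mem _ fun i _ => Submodule.smul_mem _ _ (Submodule.subset_span ?_)
    rw [Module.Basis.range_extend]
    exact Module.Basis.subset_extend hli.linearIndepOn_id ⟨i, rfl⟩
  have himg : ((logT T) '' {u : Additive (TUnit L T) | ∀ i, |logT T u i| ≤ r}).Finite :=
    hfin.subset hsub
  refine (himg.preimage' ?_).subset (Set.subset_preimage_image _ _)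
  rintro _ ⟨u₀, -, rfl⟩
  have hrange : (⇑(logT T) ⁻¹' {logT T u₀}) ⊆ Set.range (fun ζ : Units.torsion L =>
      u₀ + Additive.ofMul (unitsToTUnit T (ζ : (𝓞 L)ˣ))) := by
    intro u hu
    have h0 : logT T (u - u₀) = 0 := by
      rw [map_sub, sub_eq_zero]; exact hu
    obtain ⟨ζ, hζ, hζu⟩ := (logT_eq_zero_iff T (Additive.toMul (u - u₀))).mp h0
    refine ⟨⟨ζ, hζ⟩, ?_⟩
    show u₀ + Additive.ofMul (unitsToTUnit T ζ) = u
    rw [hζu]
    show u₀ + (u - u₀) = u
    abel
  exact (Set.finite_range _).subset hrange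

/-! ### The extended lattice `E_{L,T} × ℤ` -/

omit [NumberField K] [Algebra K L] hT [IsGalois K L] in
/-- The constant functions, as a hom from `ℤ`. -/
noncomputable def constHom : ℤ →+ (InfinitePlace L ⊕ T → ℝ) where
  toFun k _ := (k : ℝ)
  map_zero' := by funext w; simp
  map_add' a b := by funext w; simp

/-- `Φ (u, k) = logT u + k • 𝟙`. -/
noncomputable def Phi : Additive (TUnit L T) × ℤ →+ (InfinitePlace L ⊕ T → ℝ) :=
  ((logT T).toAddMonoidHom).coprod (constHom T)

omit [NumberField K] [Algebra K L] hT [IsGalois K L] in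
lemma Phi_apply (b : Additive (TUnit L T) × ℤ) (i : InfinitePlace L ⊕ T) :
    Phi T b i = logT T b.1 i + (b.2 : ℝ) := rfl

/-- The action on `E_{L,T} × ℤ` (trivial on `ℤ`). -/
noncomputable def rho : (L ≃ₐ[K] L) →* AddMonoid.End (Additive (TUnit L T) × ℤ) where
  toFun σ := UnitsHerbrand.prodEnd (tunitsEnd K T σ) (1 : AddMonoid.End ℤ)
  map_one' := by
    rw [map_one]
    refine AddMonoidHom.ext fun b => ?_
    rfl
  map_mul' σ τ := by
    rw [map_mul]
    refine AddMonoidHom.ext fun b => ?_
    rfl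

lemma rho_apply (σ : L ≃ₐ[K] L) (b : Additive (TUnit L T) × ℤ) :
    rho K T σ b = (tunitsEnd K T σ b.1, b.2) := rfl

lemma Phi_rho (σ : L ≃ₐ[K] L) (b : Additive (TUnit L T) × ℤ) :
    Phi T (rho K T σ b) = PermLattice.act σ (Phi T b) := by
  funext i
  rw [Phi_apply, rho_apply, PermLattice.act_apply, Phi_apply, logT_tunitsEnd]
  rfl

omit [NumberField K] [Algebra K L] hT [IsGalois K L] in
lemma sum_Phi (b : Additive (TUnit L T) × ℤ) :
    ∑ i, Phi T b i = (Fintype.card (InfinitePlace L ⊕ T) : ℝ) * b.2 := by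
  simp only [Phi_apply, Finset.sum_add_distrib, sum_logT, zero_add, Finset.sum_const,
    Finset.card_univ, nsmul_eq_mul]

omit [NumberField K] [Algebra K L] hT [IsGalois K L] in
lemma card_places_pos : (0 : ℝ) < (Fintype.card (InfinitePlace L ⊕ T) : ℝ) := by
  have : Nonempty (InfinitePlace L ⊕ T) := ⟨Sum.inl (Classical.arbitrary _)⟩
  exact_mod_cast Fintype.card_pos

omit [NumberField K] [Algebra K L] hT [IsGalois K L] in
theorem span_range_Phi : Submodule.span ℝ (Set.range (Phi T)) = ⊤ := by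
  rw [eq_top_iff]
  intro x _
  have hle : Submodule.span ℝ (Set.range (logT (K := L) T)) ≤
      Submodule.span ℝ (Set.range (Phi T)) := by
    apply Submodule.span_mono
    rintro _ ⟨u, rfl⟩
    exact ⟨(u, 0), by funext i; rw [Phi_apply]; simp⟩
  have hone : (fun _ => (1 : ℝ) : InfinitePlace L ⊕ T → ℝ) ∈
      Submodule.span ℝ (Set.range (Phi T)) :=
    Submodule.subset_span ⟨(0, 1), by funext i; rw [Phi_apply]; simp⟩
  have hpos := card_places_pos T
  set m : ℝ := (∑ i, x i) / (Fintype.card (InfinitePlace L ⊕ T) : ℝ) with hm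
  have hx : x = (x - m • fun _ => (1 : ℝ)) + m • fun _ => (1 : ℝ) := by abel
  rw [hx]
  refine Submodule.add_mem _ (hle ?_) (Submodule.smul_mem _ _ hone)
  rw [span_range_logT, mem_hyperplane_iff]
  simp only [Pi.sub_apply, Pi.smul_apply, smul_eq_mul, mul_one, Finset.sum_sub_distrib,
    Finset.sum_const, Finset.card_univ, nsmul_eq_mul]
  rw [hm]
  field_simp
  ring

omit [NumberField K] [Algebra K L] hT [IsGalois K L] in
theorem finite_Phi_le (r : ℝ) :
    {b : Additive (TUnit L T) × ℤ | ∀ i, |Phi T b i| ≤ r}.Finite := by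
  have hpos := card_places_pos T
  have hk : ∀ b : Additive (TUnit L T) × ℤ, (∀ i, |Phi T b i| ≤ r) → |(b.2 : ℝ)| ≤ r := by
    intro b hb
    have h1 : |∑ i, Phi T b i| ≤ (Fintype.card (InfinitePlace L ⊕ T) : ℝ) * r := by
      calc |∑ i, Phi T b i| ≤ ∑ i, |Phi T b i| := Finset.abs_sum_le_sum_abs _ _
        _ ≤ ∑ _i : InfinitePlace L ⊕ T, r := Finset.sum_le_sum fun i _ => hb i
        _ = _ := by rw [Finset.sum_const, Finset.card_univ, nsmul_eq_mul]
    rw [sum_Phi, abs_mul, abs_of_pos hpos] at h1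
    exact le_of_mul_le_mul_left h1 hpos
  have hsub : {b : Additive (TUnit L T) × ℤ | ∀ i, |Phi T b i| ≤ r} ⊆
      {u : Additive (TUnit L T) | ∀ i, |logT T u i| ≤ 2 * r} ×ˢ
        {k : ℤ | |(k : ℝ)| ≤ r} := by
    intro b hb
    refine ⟨fun i => ?_, hk b hb⟩
    have h1 := hb i
    have h2 := hk b hb
    rw [Phi_apply] at h1
    have h3 : logT T b.1 i = (logT T b.1 i + (b.2 : ℝ)) - (b.2 : ℝ) := by ring
    rw [h3]
    calc |logT T b.1 i + (b.2 : ℝ) - (b.2 : ℝ)| ≤ |logT T b.1 i + (b.2 : ℝ)| + |(b.2 : ℝ)| :=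
          abs_sub _ _
      _ ≤ r + r := add_le_add h1 h2
      _ = 2 * r := by ring
  have hZ : {k : ℤ | |(k : ℝ)| ≤ r}.Finite := by
    refine (Set.finite_Icc (⌈-r⌉) (⌊r⌋)).subset ?_
    intro k hk
    have hk' : |(k : ℝ)| ≤ r := hk
    rw [abs_le] at hk'
    exact ⟨Int.ceil_le.mpr hk'.1, Int.le_floor.mpr hk'.2⟩
  exact ((finite_logT_le T (2 * r)).prod hZ).subset hsub

/-! ### The Herbrand quotient of the `T`-units -/

/-- **Herbrand quotient of the `T`-units.**  `L/K` cyclic with group `⟨σ⟩` of order `n = [L:K]`,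
`T` a finite Galois-stable set of finite places of `L`.  Then both Herbrand indices of
`E_{L,T}` are finite and
`n * |Ĥ⁰(E_{L,T})| = (∏_{orbits O of G on InfinitePlace L ⊕ T} |Stab_O|) * |H¹(E_{L,T})|`,
i.e. `q(E_{L,T}) = ∏_v n_v / n`. -/
theorem tunits_herbrand
    [Fintype (MulAction.orbitRel.Quotient (L ≃ₐ[K] L) (InfinitePlace L ⊕ T))]
    (σ : L ≃ₐ[K] L) (hσ : ∀ g, g ∈ Subgroup.zpowers σ) :
    hIdx (dlt (tunitsEnd K T σ)) (nrm (tunitsEnd K T σ) (Module.finrank K L)) ≠ 0 ∧
    hIdx (nrm (tunitsEnd K T σ) (Module.finrank K L)) (dlt (tunitsEnd K T σ)) ≠ 0 ∧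
    Module.finrank K L *
        hIdx (dlt (tunitsEnd K T σ)) (nrm (tunitsEnd K T σ) (Module.finrank K L)) =
      (∏ O : MulAction.orbitRel.Quotient (L ≃ₐ[K] L) (InfinitePlace L ⊕ T), stabCard O) *
        hIdx (nrm (tunitsEnd K T σ) (Module.finrank K L)) (dlt (tunitsEnd K T σ)) := by
  have hcard : Nat.card (L ≃ₐ[K] L) = Module.finrank K L := IsGalois.card_aut_eq_finrank K L
  have hn0 : Module.finrank K L ≠ 0 := Module.finrank_pos.ne'
  have key := herbrand_lattice_gen σ hσ (rho K T) (Phi T) (Phi_rho K T) (span_range_Phi T)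
    (finite_Phi_le T)
  rw [hcard] at key
  have hrho : rho K T σ = UnitsHerbrand.prodEnd (tunitsEnd K T σ) (1 : AddMonoid.End ℤ) := rfl
  rw [hrho, UnitsHerbrand.dlt_prodEnd, UnitsHerbrand.nrm_prodEnd, hIdx_prod, hIdx_prod,
    int_trivial_zero, int_trivial_one hn0, mul_one] at key
  obtain ⟨k1, k2, k3⟩ := key
  exact ⟨left_ne_zero_of_mul k1, k2, by rw [mul_comm, k3]⟩

/-! ### The product over the orbits in terms of the places of `K` -/

section Places

omit [NumberField K] [NumberField L] hT [IsGalois K L] in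
lemma stabilizer_inl [MulAction (L ≃ₐ[K] L) T] (w : InfinitePlace L) :
    MulAction.stabilizer (L ≃ₐ[K] L) (Sum.inl w : InfinitePlace L ⊕ T) =
      MulAction.stabilizer (L ≃ₐ[K] L) w := by
  ext g
  simp only [MulAction.mem_stabilizer_iff, Sum.smul_inl, Sum.inl.injEq]

omit [NumberField K] [NumberField L] [IsGalois K L] in
lemma stabilizer_inr (w : T) :
    MulAction.stabilizer (L ≃ₐ[K] L) (Sum.inr w : InfinitePlace L ⊕ T) =
      MulAction.stabilizer (L ≃ₐ[K] L) (w : HeightOneSpectrum (𝓞 L)) := by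
  ext g
  simp only [MulAction.mem_stabilizer_iff, Sum.smul_inr, Sum.inr.injEq]
  exact ⟨fun h => congrArg Subtype.val h, fun h => Subtype.ext h⟩

variable [DecidableEq (HeightOneSpectrum (𝓞 K))]

/-- A prime of `L` above a prime of `T.image (underK K)` lies in `T`. -/
lemma mem_of_underK_mem {w : HeightOneSpectrum (𝓞 L)}
    (hw : underK K w ∈ T.image (underK K)) : w ∈ T := by
  obtain ⟨w', hw', h⟩ := Finset.mem_image.mp hw
  obtain ⟨g, rfl⟩ := exists_smul_eq_of_underK_eq K h
  exact IsGalStable.stable g w' hw'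

/-- The product of the orders of the stabilizers over the orbits of `Gal(L/K)` on
`InfinitePlace L ⊕ T` is the product over the places `v` of `K` below of the orders of the
decomposition groups of arbitrarily chosen places above `v`. -/
theorem prod_stabCard_places
    [Fintype (MulAction.orbitRel.Quotient (L ≃ₐ[K] L) (InfinitePlace L ⊕ T))]
    (wInf : InfinitePlace K → InfinitePlace L)
    (hInf : ∀ v, (wInf v).comap (algebraMap K L) = v)
    (wFin : {v // v ∈ T.image (underK K)} → HeightOneSpectrum (𝓞 L))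
    (hFin : ∀ v, underK K (wFin v) = v.1) :
    ∏ O : MulAction.orbitRel.Quotient (L ≃ₐ[K] L) (InfinitePlace L ⊕ T), stabCard O =
      (∏ v : InfinitePlace K, Nat.card (MulAction.stabilizer (L ≃ₐ[K] L) (wInf v))) *
        ∏ v : {v // v ∈ T.image (underK K)},
          Nat.card (MulAction.stabilizer (L ≃ₐ[K] L) (wFin v)) := by
  have hmem : ∀ v, wFin v ∈ T := fun v => mem_of_underK_mem K T (by rw [hFin]; exact v.2)
  let r : InfinitePlace K ⊕ {v // v ∈ T.image (underK K)} → InfinitePlace L ⊕ T :=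
    Sum.elim (fun v => Sum.inl (wInf v)) (fun v => Sum.inr ⟨wFin v, hmem v⟩)
  have hr : Function.Bijective (fun i =>
      (Quotient.mk'' (r i) : MulAction.orbitRel.Quotient (L ≃ₐ[K] L) (InfinitePlace L ⊕ T))) := by
    constructor
    · intro i j hij
      have h1 : (MulAction.orbitRel (L ≃ₐ[K] L) (InfinitePlace L ⊕ T)) (r i) (r j) :=
        Quotient.exact hij
      rw [MulAction.orbitRel_apply] at h1
      obtain ⟨g, hg⟩ := h1
      rcases i with v | v <;> rcases j with v' | v'
      · simp only [r, Sum.elim_inl, Sum.smul_inl, Sum.inl.injEq] at hg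
        have h2 : (g • wInf v').comap (algebraMap K L) = (wInf v).comap (algebraMap K L) := by
          rw [hg]
        rw [hInf v] at h2
        have h3 : (g • wInf v').comap (algebraMap K L) = (wInf v').comap (algebraMap K L) := by
          rw [InfinitePlace.comap_smul]
          congr 1
          ext x
          simp
        rw [h3, hInf v'] at h2
        rw [h2]
      · simp only [r, Sum.elim_inl, Sum.elim_inr, Sum.smul_inr] at hg
        exact absurd hg (by simp)
      · simp only [r, Sum.elim_inl, Sum.elim_inr, Sum.smul_inl] at hg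
        exact absurd hg (by simp)
      · simp only [r, Sum.elim_inr, Sum.smul_inr, Sum.inr.injEq] at hg
        have h2 : g • wFin v' = wFin v := congrArg Subtype.val hg
        have h3 := congrArg (underK K) h2
        rw [underK_smul, hFin, hFin] at h3
        rw [Subtype.ext h3]
    · intro O
      induction O using Quotient.inductionOn' with
      | h s =>
        rcases s with w | w
        · refine ⟨Sum.inl (w.comap (algebraMap K L)), Quotient.sound ?_⟩
          change (MulAction.orbitRel (L ≃ₐ[K] L) (InfinitePlace L ⊕ T)) _ _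
          rw [MulAction.orbitRel_apply]
          obtain ⟨g, hg⟩ := InfinitePlace.exists_smul_eq_of_comap_eq (k := K)
            (w := w) (w' := wInf (w.comap (algebraMap K L))) (hInf _).symm
          exact ⟨g, by simp only [r, Sum.elim_inl, Sum.smul_inl, hg]⟩
        · have hv : underK K w.1 ∈ T.image (underK K) := Finset.mem_image_of_mem _ w.2
          refine ⟨Sum.inr ⟨underK K w.1, hv⟩, Quotient.sound ?_⟩
          change (MulAction.orbitRel (L ≃ₐ[K] L) (InfinitePlace L ⊕ T)) _ _
          rw [MulAction.orbitRel_apply]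
          obtain ⟨g, hg⟩ := exists_smul_eq_of_underK_eq K
            (w := w.1) (w' := wFin ⟨underK K w.1, hv⟩) (hFin ⟨underK K w.1, hv⟩).symm
          refine ⟨g, ?_⟩
          simp only [r, Sum.elim_inr, Sum.smul_inr, Sum.inr.injEq]
          exact Subtype.ext hg
  rw [prod_stabCard_eq r hr, Fintype.prod_sum_type]
  simp only [r, Sum.elim_inl, Sum.elim_inr, stabilizer_inl, stabilizer_inr]

/-- **Herbrand quotient of the `T`-units**, product over the places of `K`:
`n * |Ĥ⁰(E_{L,T})| = (∏_{v | ∞} |G_{w(v)}|) * (∏_{v ∈ T_K} |G_{w(v)}|) * |H¹(E_{L,T})|` for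
arbitrary choices `w(v) | v`. -/
theorem tunits_herbrand_places (σ : L ≃ₐ[K] L) (hσ : ∀ g, g ∈ Subgroup.zpowers σ)
    (wInf : InfinitePlace K → InfinitePlace L)
    (hInf : ∀ v, (wInf v).comap (algebraMap K L) = v)
    (wFin : {v // v ∈ T.image (underK K)} → HeightOneSpectrum (𝓞 L))
    (hFin : ∀ v, underK K (wFin v) = v.1) :
    hIdx (dlt (tunitsEnd K T σ)) (nrm (tunitsEnd K T σ) (Module.finrank K L)) ≠ 0 ∧
    hIdx (nrm (tunitsEnd K T σ) (Module.finrank K L)) (dlt (tunitsEnd K T σ)) ≠ 0 ∧
    Module.finrank K L *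
        hIdx (dlt (tunitsEnd K T σ)) (nrm (tunitsEnd K T σ) (Module.finrank K L)) =
      ((∏ v : InfinitePlace K, Nat.card (MulAction.stabilizer (L ≃ₐ[K] L) (wInf v))) *
        ∏ v : {v // v ∈ T.image (underK K)},
          Nat.card (MulAction.stabilizer (L ≃ₐ[K] L) (wFin v))) *
        hIdx (nrm (tunitsEnd K T σ) (Module.finrank K L)) (dlt (tunitsEnd K T σ)) := by
  have : Fintype (MulAction.orbitRel.Quotient (L ≃ₐ[K] L) (InfinitePlace L ⊕ T)) :=
    Fintype.ofFinite _
  have key := tunits_herbrand K T σ hσ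
  rw [prod_stabCard_places K T wInf hInf wFin hFin] at key
  exact key

/-- **Herbrand quotient of the `T`-units, odd degree** (the infinite places do not contribute):
`n * |Ĥ⁰(E_{L,T})| = (∏_{v ∈ T_K} |G_{w(v)}|) * |H¹(E_{L,T})|`. -/
theorem tunits_herbrand_odd (hodd : Odd (Module.finrank K L))
    (σ : L ≃ₐ[K] L) (hσ : ∀ g, g ∈ Subgroup.zpowers σ)
    (wFin : {v // v ∈ T.image (underK K)} → HeightOneSpectrum (𝓞 L))
    (hFin : ∀ v, underK K (wFin v) = v.1) :
    hIdx (dlt (tunitsEnd K T σ)) (nrm (tunitsEnd K T σ) (Module.finrank K L)) ≠ 0 ∧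
    hIdx (nrm (tunitsEnd K T σ) (Module.finrank K L)) (dlt (tunitsEnd K T σ)) ≠ 0 ∧
    Module.finrank K L *
        hIdx (dlt (tunitsEnd K T σ)) (nrm (tunitsEnd K T σ) (Module.finrank K L)) =
      (∏ v : {v // v ∈ T.image (underK K)},
          Nat.card (MulAction.stabilizer (L ≃ₐ[K] L) (wFin v))) *
        hIdx (nrm (tunitsEnd K T σ) (Module.finrank K L)) (dlt (tunitsEnd K T σ)) := by
  have hsurj : Function.Surjective
      (fun w : InfinitePlace L => w.comap (algebraMap K L)) := InfinitePlace.comap_surjective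
  choose wInf hInf using hsurj
  have key := tunits_herbrand_places K T σ hσ wInf hInf wFin hFin
  have hone : ∀ v : InfinitePlace K,
      Nat.card (MulAction.stabilizer (L ≃ₐ[K] L) (wInf v)) = 1 := by
    intro v
    have h1 : Nat.card (MulAction.stabilizer (L ≃ₐ[K] L) (wInf v)) ∣ Module.finrank K L := by
      rw [← IsGalois.card_aut_eq_finrank K L]
      exact Subgroup.card_subgroup_dvd_card _
    have h2 := InfinitePlace.card_stabilizer (k := K) (w := wInf v)
    split_ifs at h2 with h
    · exact h2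
    · exfalso
      rw [h2] at h1
      exact (Nat.not_even_iff_odd.mpr hodd) (even_iff_two_dvd.mpr h1)
  rw [Finset.prod_congr rfl (fun v _ => hone v), Finset.prod_const_one, one_mul] at key
  exact key

end Places

end Fermat.Agent.S55.SUnitGalois
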