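/-
S55, route R2 (compact-support route), block ALG3, generic part.

For a morphism `φ : K ⟶ L` of cochain complexes of modules indexed by `ℕ` we build the
"fibre complex" `fiber φ = Cone(φ)[-1]`:

    (fiber φ).X n = K.X n × L.X (n - 1),      d (a, b) = (d a, φ a - d b),

its long exact cohomology sequence (in `LinearMap.ker = LinearMap.range` form), functoriality,
short exact sequences of fibres, pairings of complexes satisfying a Leibniz rule
(`CochainPairing`), the induced pairing of fibres, and the compatibilities of the induced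
cohomology pairings with the boundary map of the fibre sequence, with adjoint morphisms and with
connecting homomorphisms.

Mathlib + `CochainTools` only.
-/
import Fermat.Agent.S55.CochainTools

set_option autoImplicit false

namespace Fermat.Agent.S55.Cone

open CategoryTheory Fermat.Agent.S55.CochainTools

universe v u

variable {k : Type u} [CommRing k]

section Basic

variable (K : CochainComplex (ModuleCat.{v} k) ℕ)

theorem d_d_apply (n : ℕ) (a : K.X n) :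
    (K.d (n + 1) (n + 2)).hom ((K.d n (n + 1)).hom a) = 0 := by
  have := congrArg (fun f => f.hom a) (K.d_comp_d n (n + 1) (n + 2))
  simpa only [ModuleCat.hom_comp, LinearMap.comp_apply, ModuleCat.hom_zero,
    LinearMap.zero_apply] using this

variable {K}

theorem comm_apply {L : CochainComplex (ModuleCat.{v} k) ℕ} (φ : K ⟶ L) (i j : ℕ) (a : K.X i) :
    (L.d i j).hom ((φ.f i).hom a) = (φ.f j).hom ((K.d i j).hom a) := by
  have := congrArg (fun f => f.hom a) (φ.comm i j)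
  simpa only [ModuleCat.hom_comp, LinearMap.comp_apply] using this

end Basic

section Prev

variable (L : CochainComplex (ModuleCat.{v} k) ℕ)

/-- The term of `L` in the previous degree (a zero module in degree `0`). -/
def prevX : ℕ → ModuleCat.{v} k
  | 0 => ModuleCat.of k PUnit.{v + 1}
  | n + 1 => L.X n

/-- The differential from the previous degree. -/
def prevD : (n : ℕ) → (prevX L n →ₗ[k] L.X n)
  | 0 => 0
  | n + 1 => (L.d n (n + 1)).hom

@[simp] theorem prevD_zero (b : prevX L 0) : prevD L 0 b = 0 := rfl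

@[simp] theorem prevD_succ (n : ℕ) (b : L.X n) : prevD L (n + 1) b = (L.d n (n + 1)).hom b := rfl

theorem d_prevD (n : ℕ) (b : prevX L n) : (L.d n (n + 1)).hom (prevD L n b) = 0 := by
  cases n with
  | zero => simp
  | succ n => exact d_d_apply L n b

theorem prevX_zero_eq (b : prevX L 0) : b = 0 := Subsingleton.elim (α := PUnit) _ _

end Prev

section Fiber

variable {K L : CochainComplex (ModuleCat.{v} k) ℕ} (φ : K ⟶ L)

/-- The differential of the fibre complex, `(a, b) ↦ (d a, φ a - d b)`. -/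
def fiberD (n : ℕ) : (K.X n × prevX L n) →ₗ[k] (K.X (n + 1) × prevX L (n + 1)) :=
  LinearMap.prod ((K.d n (n + 1)).hom ∘ₗ LinearMap.fst k _ _)
    ((φ.f n).hom ∘ₗ LinearMap.fst k _ _ - prevD L n ∘ₗ LinearMap.snd k _ _)

theorem fiberD_apply (n : ℕ) (x : K.X n × prevX L n) :
    fiberD φ n x = ((K.d n (n + 1)).hom x.1, ((φ.f n).hom x.1 - prevD L n x.2 : L.X n)) := rfl

theorem fiberD_fiberD (n : ℕ) (x : K.X n × prevX L n) : fiberD φ (n + 1) (fiberD φ n x) = 0 := by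
  rw [fiberD_apply, fiberD_apply]
  refine Prod.ext (d_d_apply K n x.1) ?_
  show (φ.f (n + 1)).hom ((K.d n (n + 1)).hom x.1) -
    (L.d n (n + 1)).hom ((φ.f n).hom x.1 - prevD L n x.2) = 0
  rw [map_sub, d_prevD, sub_zero, comm_apply, sub_self]

/-- The fibre complex `Cone(φ)[-1]` of a morphism of cochain complexes. -/
noncomputable def fiber : CochainComplex (ModuleCat.{v} k) ℕ :=
  CochainComplex.of (fun n => ModuleCat.of k (K.X n × prevX L n))
    (fun n => ModuleCat.ofHom (fiberD φ n))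
    (fun n => ModuleCat.hom_ext (LinearMap.ext fun x => fiberD_fiberD φ n x))

/-- First component of an element of the fibre complex. -/
def fiberFst (n : ℕ) : (fiber φ).X n →ₗ[k] K.X n := LinearMap.fst k (K.X n) (prevX L n)

/-- Second component of an element of the fibre complex. -/
def fiberSnd (n : ℕ) : (fiber φ).X n →ₗ[k] prevX L n := LinearMap.snd k (K.X n) (prevX L n)

/-- Second component of an element of positive degree, as an element of `L.X n`. -/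
def fiberSndS (n : ℕ) : (fiber φ).X (n + 1) →ₗ[k] L.X n := fiberSnd φ (n + 1)

/-- Constructor for elements of the fibre complex. -/
def fiberMk (n : ℕ) (a : K.X n) (b : prevX L n) : (fiber φ).X n := (a, b)

variable {φ}

theorem fiber_ext {n : ℕ} {x y : (fiber φ).X n} (h1 : fiberFst φ n x = fiberFst φ n y)
    (h2 : fiberSnd φ n x = fiberSnd φ n y) : x = y := Prod.ext h1 h2

variable (φ)

@[simp] theorem fiberFst_mk (n : ℕ) (a : K.X n) (b : prevX L n) :
    fiberFst φ n (fiberMk φ n a b) = a := rfl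

@[simp] theorem fiberSnd_mk (n : ℕ) (a : K.X n) (b : prevX L n) :
    fiberSnd φ n (fiberMk φ n a b) = b := rfl

theorem fiberMk_fst_snd {n : ℕ} (x : (fiber φ).X n) :
    fiberMk φ n (fiberFst φ n x) (fiberSnd φ n x) = x := rfl

theorem fiber_d_apply (n : ℕ) (x : (fiber φ).X n) :
    ((fiber φ).d n (n + 1)).hom x = fiberD φ n x := by
  have h : (fiber φ).d n (n + 1) = ModuleCat.ofHom (fiberD φ n) :=
    CochainComplex.of_d (fun n => ModuleCat.of k (K.X n × prevX L n))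
      (fun n => ModuleCat.ofHom (fiberD φ n)) n
  rw [h]
  rfl

theorem fiberFst_d {n : ℕ} (x : (fiber φ).X n) :
    fiberFst φ (n + 1) (((fiber φ).d n (n + 1)).hom x) = (K.d n (n + 1)).hom (fiberFst φ n x) := by
  rw [fiber_d_apply]
  rfl

theorem fiberSndS_d {n : ℕ} (x : (fiber φ).X n) :
    fiberSndS φ n (((fiber φ).d n (n + 1)).hom x) =
      (φ.f n).hom (fiberFst φ n x) - prevD L n (fiberSnd φ n x) := by
  rw [fiber_d_apply]
  rfl

theorem fiberSnd_succ {n : ℕ} (x : (fiber φ).X (n + 1)) :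
    fiberSnd φ (n + 1) x = fiberSndS φ n x := rfl

theorem prevD_fiberSnd_succ {n : ℕ} (x : (fiber φ).X (n + 1)) :
    prevD L (n + 1) (fiberSnd φ (n + 1) x) = (L.d n (n + 1)).hom (fiberSndS φ n x) := rfl

theorem fiberSndS_mk (n : ℕ) (a : K.X (n + 1)) (b : L.X n) :
    fiberSndS φ n (fiberMk φ (n + 1) a b) = b := rfl

theorem fiber_ext_succ {n : ℕ} {x y : (fiber φ).X (n + 1)}
    (h1 : fiberFst φ (n + 1) x = fiberFst φ (n + 1) y)
    (h2 : fiberSndS φ n x = fiberSndS φ n y) : x = y := Prod.ext h1 h2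

end Fiber

section LES

variable {K L : CochainComplex (ModuleCat.{v} k) ℕ} (φ : K ⟶ L)

theorem mem_Z_fiber_iff {n : ℕ} (x : (fiber φ).X n) :
    x ∈ Z (fiber φ) n ↔
      (K.d n (n + 1)).hom (fiberFst φ n x) = 0 ∧
        (φ.f n).hom (fiberFst φ n x) = prevD L n (fiberSnd φ n x) := by
  rw [mem_Z_iff]
  constructor
  · intro h
    have h1 := fiberFst_d φ x
    have h2 := fiberSndS_d φ x
    rw [h, map_zero] at h1 h2
    exact ⟨h1.symm, sub_eq_zero.1 h2.symm⟩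
  · rintro ⟨h1, h2⟩
    apply fiber_ext_succ
    · rw [fiberFst_d, h1, map_zero]
    · rw [fiberSndS_d, map_zero]
      exact sub_eq_zero.2 h2

/-- Coboundaries of `L` in terms of `prevD`. -/
theorem mem_B_iff_prevD {n : ℕ} (z : Z L n) : z ∈ B L n ↔ ∃ b : prevX L n, prevD L n b = z := by
  cases n with
  | zero =>
    rw [mem_B_zero_iff]
    constructor
    · rintro rfl
      exact ⟨0, rfl⟩
    · rintro ⟨b, hb⟩
      apply Subtype.ext
      rw [← hb]
      rfl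
  | succ n => exact mem_B_succ_iff L z

/-- The projection `fiber φ ⟶ K`. -/
noncomputable def fiberπ : fiber φ ⟶ K where
  f n := ModuleCat.ofHom (fiberFst φ n)
  comm' i j hij := by
    have hij' : i + 1 = j := hij
    subst hij'
    refine ModuleCat.hom_ext (LinearMap.ext fun x => ?_)
    exact (fiberFst_d φ x).symm

@[simp] theorem fiberπ_f_apply (n : ℕ) (x : (fiber φ).X n) :
    ((fiberπ φ).f n).hom x = fiberFst φ n x := rfl

/-- The inclusion `b ↦ (0, b)` of `L.X n` into the fibre complex in degree `n + 1`. -/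
noncomputable def fiberι (n : ℕ) : L.X n →ₗ[k] (fiber φ).X (n + 1) :=
  LinearMap.inr k (K.X (n + 1)) (L.X n)

@[simp] theorem fiberFst_ι (n : ℕ) (b : L.X n) : fiberFst φ (n + 1) (fiberι φ n b) = 0 := rfl

@[simp] theorem fiberSndS_ι (n : ℕ) (b : L.X n) : fiberSndS φ n (fiberι φ n b) = b := rfl

theorem fiberι_mem_Z {n : ℕ} {b : L.X n} (hb : b ∈ Z L n) :
    fiberι φ n b ∈ Z (fiber φ) (n + 1) := by
  rw [mem_Z_fiber_iff, fiberFst_ι, prevD_fiberSnd_succ, fiberSndS_ι]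
  refine ⟨map_zero _, ?_⟩
  rw [map_zero, (mem_Z_iff L b).1 hb]

/-- `b ↦ (0, b)` on cocycles. -/
noncomputable def fiberιZ (n : ℕ) : Z L n →ₗ[k] Z (fiber φ) (n + 1) :=
  (fiberι φ n ∘ₗ (Z L n).subtype).codRestrict (Z (fiber φ) (n + 1))
    fun z => fiberι_mem_Z φ z.2

@[simp] theorem coe_fiberιZ (n : ℕ) (z : Z L n) :
    (fiberιZ φ n z : (fiber φ).X (n + 1)) = fiberι φ n z.1 := rfl

/-- The boundary map `Hⁿ(L) ⟶ Hⁿ⁺¹(fiber φ)` of the fibre sequence. -/
noncomputable def fiberBd (n : ℕ) : L.homology n →ₗ[k] (fiber φ).homology (n + 1) :=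
  liftH n (cls (fiber φ) (n + 1) ∘ₗ fiberιZ φ n) (by
    intro z hz
    rw [LinearMap.comp_apply, cls_eq_zero_iff, mem_B_succ_iff]
    obtain ⟨b, hb⟩ := (mem_B_iff_prevD z).1 hz
    refine ⟨fiberMk φ n 0 (-b), ?_⟩
    apply fiber_ext_succ
    · rw [fiberFst_d, fiberFst_mk, map_zero, coe_fiberιZ, fiberFst_ι]
    · rw [fiberSndS_d, fiberFst_mk, fiberSnd_mk, map_zero, map_neg, zero_sub, neg_neg,
        coe_fiberιZ, fiberSndS_ι, hb])

theorem fiberBd_cls (n : ℕ) (z : Z L n) :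
    fiberBd φ n (cls L n z) = cls (fiber φ) (n + 1) (fiberιZ φ n z) := by
  rw [fiberBd, liftH_cls]
  rfl

/-- Exactness of `Hⁿ(L) ⟶ Hⁿ⁺¹(fiber φ) ⟶ Hⁿ⁺¹(K)`. -/
theorem ker_fiberπ_eq_range_fiberBd (n : ℕ) :
    LinearMap.ker (HomologicalComplex.homologyMap (fiberπ φ) (n + 1)).hom =
      LinearMap.range (fiberBd φ n) := by
  apply le_antisymm
  · intro x hx
    obtain ⟨⟨x, hxZ⟩, rfl⟩ := cls_surjective (fiber φ) (n + 1) x
    rw [LinearMap.mem_ker, homologyMap_cls, cls_eq_zero_iff, mem_B_succ_iff] at hx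
    obtain ⟨a', ha'⟩ := hx
    have ha'' : (K.d n (n + 1)).hom a' = fiberFst φ (n + 1) x := ha'
    obtain ⟨h1, h2⟩ := (mem_Z_fiber_iff φ x).1 hxZ
    rw [prevD_fiberSnd_succ] at h2
    have hz : fiberSndS φ n x - (φ.f n).hom a' ∈ Z L n := by
      rw [mem_Z_iff, map_sub, comm_apply, ha'', h2, sub_self]
    refine ⟨cls L n ⟨_, hz⟩, ?_⟩
    rw [fiberBd_cls, cls_eq_cls_iff, mem_B_succ_iff]
    refine ⟨fiberMk φ n (-a') 0, ?_⟩
    apply fiber_ext_succ
    · rw [fiberFst_d, fiberFst_mk, map_neg, ha'']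
      show _ = fiberFst φ (n + 1) (fiberι φ n _) - fiberFst φ (n + 1) x
      rw [fiberFst_ι, zero_sub]
    · rw [fiberSndS_d, fiberFst_mk, fiberSnd_mk, map_neg, map_zero]
      show _ = fiberSndS φ n (fiberι φ n (fiberSndS φ n x - (φ.f n).hom a')) - fiberSndS φ n x
      rw [fiberSndS_ι]
      abel
  · rintro _ ⟨y, rfl⟩
    obtain ⟨z, rfl⟩ := cls_surjective L n y
    rw [LinearMap.mem_ker, fiberBd_cls, homologyMap_cls, cls_eq_zero_iff]
    have : mapZ (fiberπ φ) (n + 1) (fiberιZ φ n z) = 0 := Subtype.ext rfl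
    rw [this]
    exact zero_mem _

/-- Exactness of `Hⁿ(fiber φ) ⟶ Hⁿ(K) ⟶ Hⁿ(L)`. -/
theorem ker_map_eq_range_fiberπ (n : ℕ) :
    LinearMap.ker (HomologicalComplex.homologyMap φ n).hom =
      LinearMap.range (HomologicalComplex.homologyMap (fiberπ φ) n).hom := by
  apply le_antisymm
  · intro x hx
    obtain ⟨⟨a, ha⟩, rfl⟩ := cls_surjective K n x
    rw [LinearMap.mem_ker, homologyMap_cls, cls_eq_zero_iff, mem_B_iff_prevD] at hx
    obtain ⟨b, hb⟩ := hx
    have hb' : prevD L n b = (φ.f n).hom a := hb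
    have hab : fiberMk φ n a b ∈ Z (fiber φ) n :=
      (mem_Z_fiber_iff φ _).2 ⟨(mem_Z_iff K a).1 ha, hb'.symm⟩
    refine ⟨cls (fiber φ) n ⟨_, hab⟩, ?_⟩
    rw [homologyMap_cls]
    congr 1
  · rintro _ ⟨y, rfl⟩
    obtain ⟨⟨x, hxZ⟩, rfl⟩ := cls_surjective (fiber φ) n y
    obtain ⟨h1, h2⟩ := (mem_Z_fiber_iff φ x).1 hxZ
    rw [LinearMap.mem_ker, homologyMap_cls, homologyMap_cls, cls_eq_zero_iff, mem_B_iff_prevD]
    exact ⟨fiberSnd φ n x, h2.symm⟩

/-- Exactness of `Hⁿ(K) ⟶ Hⁿ(L) ⟶ Hⁿ⁺¹(fiber φ)`. -/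
theorem ker_fiberBd_eq_range_map (n : ℕ) :
    LinearMap.ker (fiberBd φ n) = LinearMap.range (HomologicalComplex.homologyMap φ n).hom := by
  apply le_antisymm
  · intro x hx
    obtain ⟨⟨b, hb⟩, rfl⟩ := cls_surjective L n x
    rw [LinearMap.mem_ker, fiberBd_cls, cls_eq_zero_iff, mem_B_succ_iff] at hx
    obtain ⟨y, hy⟩ := hx
    rw [coe_fiberιZ] at hy
    have h1 : (K.d n (n + 1)).hom (fiberFst φ n y) = 0 := by
      rw [← fiberFst_d, hy, fiberFst_ι]
    have h2 : (φ.f n).hom (fiberFst φ n y) - prevD L n (fiberSnd φ n y) = b := by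
      rw [← fiberSndS_d, hy, fiberSndS_ι]
    refine ⟨cls K n ⟨fiberFst φ n y, (mem_Z_iff K _).2 h1⟩, ?_⟩
    rw [homologyMap_cls, cls_eq_cls_iff, mem_B_iff_prevD]
    refine ⟨fiberSnd φ n y, ?_⟩
    show prevD L n (fiberSnd φ n y) = (φ.f n).hom (fiberFst φ n y) - b
    rw [← h2]
    abel
  · rintro _ ⟨y, rfl⟩
    obtain ⟨⟨a, ha⟩, rfl⟩ := cls_surjective K n y
    rw [LinearMap.mem_ker, homologyMap_cls, fiberBd_cls, cls_eq_zero_iff, mem_B_succ_iff]
    refine ⟨fiberMk φ n a 0, ?_⟩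
    apply fiber_ext_succ
    · rw [fiberFst_d, fiberFst_mk, (mem_Z_iff K a).1 ha, coe_fiberιZ, fiberFst_ι]
    · rw [fiberSndS_d, fiberFst_mk, fiberSnd_mk, map_zero, sub_zero, coe_fiberιZ, fiberSndS_ι]
      rfl

/-- `H⁰(fiber φ) ⟶ H⁰(K)` is injective. -/
theorem homologyMap_fiberπ_zero_injective :
    Function.Injective (HomologicalComplex.homologyMap (fiberπ φ) 0).hom := by
  rw [← LinearMap.ker_eq_bot, eq_bot_iff]
  intro x hx
  obtain ⟨⟨x, hxZ⟩, rfl⟩ := cls_surjective (fiber φ) 0 x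
  rw [LinearMap.mem_ker, homologyMap_cls, cls_eq_zero_iff, mem_B_zero_iff] at hx
  have ha : fiberFst φ 0 x = 0 := congrArg Subtype.val hx
  have hx0 : x = 0 := fiber_ext (by rw [ha, map_zero]) (prevX_zero_eq L _)
  subst hx0
  rw [Submodule.mem_bot]
  exact map_zero _

end LES

section Functoriality

variable {K₁ L₁ K₂ L₂ : CochainComplex (ModuleCat.{v} k) ℕ}

/-- The map induced on the previous-degree terms. -/
def prevMap (β : L₁ ⟶ L₂) : (n : ℕ) → (prevX L₁ n →ₗ[k] prevX L₂ n)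
  | 0 => LinearMap.id
  | n + 1 => (β.f n).hom

theorem prevD_prevMap (β : L₁ ⟶ L₂) (n : ℕ) (b : prevX L₁ n) :
    prevD L₂ n (prevMap β n b) = (β.f n).hom (prevD L₁ n b) := by
  cases n with
  | zero => simp
  | succ n => exact comm_apply β n (n + 1) b

variable (φ₁ : K₁ ⟶ L₁) (φ₂ : K₂ ⟶ L₂) (α : K₁ ⟶ K₂) (β : L₁ ⟶ L₂)

/-- The linear map underlying `fiberMap`. -/
def fiberMapLin (n : ℕ) : (fiber φ₁).X n →ₗ[k] (fiber φ₂).X n :=
  LinearMap.prodMap (α.f n).hom (prevMap β n)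

@[simp] theorem fiberFst_mapLin (n : ℕ) (x : (fiber φ₁).X n) :
    fiberFst φ₂ n (fiberMapLin φ₁ φ₂ α β n x) = (α.f n).hom (fiberFst φ₁ n x) := rfl

@[simp] theorem fiberSnd_mapLin (n : ℕ) (x : (fiber φ₁).X n) :
    fiberSnd φ₂ n (fiberMapLin φ₁ φ₂ α β n x) = prevMap β n (fiberSnd φ₁ n x) := rfl

@[simp] theorem fiberSndS_mapLin (n : ℕ) (x : (fiber φ₁).X (n + 1)) :
    fiberSndS φ₂ n (fiberMapLin φ₁ φ₂ α β (n + 1) x) = (β.f n).hom (fiberSndS φ₁ n x) := rfl

/-- The morphism of fibre complexes induced by a commutative square. -/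
noncomputable def fiberMap (comm : φ₁ ≫ β = α ≫ φ₂) : fiber φ₁ ⟶ fiber φ₂ where
  f n := ModuleCat.ofHom (fiberMapLin φ₁ φ₂ α β n)
  comm' i j hij := by
    have hij' : i + 1 = j := hij
    subst hij'
    refine ModuleCat.hom_ext (LinearMap.ext fun x => ?_)
    show ((fiber φ₂).d i (i + 1)).hom (fiberMapLin φ₁ φ₂ α β i x) =
      fiberMapLin φ₁ φ₂ α β (i + 1) (((fiber φ₁).d i (i + 1)).hom x)
    apply fiber_ext_succ
    · rw [fiberFst_d, fiberFst_mapLin, fiberFst_mapLin, fiberFst_d, comm_apply]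
    · rw [fiberSndS_d, fiberSndS_mapLin, fiberSndS_d, fiberFst_mapLin, fiberSnd_mapLin,
        prevD_prevMap, map_sub]
      congr 1
      have := congrArg (fun f => (f.f i).hom (fiberFst φ₁ i x)) comm
      exact this.symm

variable (comm : φ₁ ≫ β = α ≫ φ₂)

@[simp] theorem fiberMap_f_apply (n : ℕ) (x : (fiber φ₁).X n) :
    ((fiberMap φ₁ φ₂ α β comm).f n).hom x = fiberMapLin φ₁ φ₂ α β n x := rfl

theorem fiberMap_comp_fiberπ : fiberMap φ₁ φ₂ α β comm ≫ fiberπ φ₂ = fiberπ φ₁ ≫ α := by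
  ext n : 1
  refine ModuleCat.hom_ext (LinearMap.ext fun x => ?_)
  rfl

/-- Naturality of the boundary map of the fibre sequence. -/
theorem fiberBd_natural (n : ℕ) (y : L₁.homology n) :
    fiberBd φ₂ n ((HomologicalComplex.homologyMap β n).hom y) =
      (HomologicalComplex.homologyMap (fiberMap φ₁ φ₂ α β comm) (n + 1)).hom (fiberBd φ₁ n y) := by
  obtain ⟨z, rfl⟩ := cls_surjective L₁ n y
  rw [homologyMap_cls, fiberBd_cls, fiberBd_cls, homologyMap_cls]
  congr 1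
  apply Subtype.ext
  apply fiber_ext_succ
  · show fiberFst φ₂ (n + 1) (fiberι φ₂ n _) =
      fiberFst φ₂ (n + 1) (fiberMapLin φ₁ φ₂ α β (n + 1) (fiberι φ₁ n z.1))
    rw [fiberFst_ι, fiberFst_mapLin, fiberFst_ι, map_zero]
  · show fiberSndS φ₂ n (fiberι φ₂ n _) =
      fiberSndS φ₂ n (fiberMapLin φ₁ φ₂ α β (n + 1) (fiberι φ₁ n z.1))
    rw [fiberSndS_ι, fiberSndS_mapLin, fiberSndS_ι]
    rfl

theorem fiberMapLin_injective (n : ℕ) (hα : Function.Injective (α.f n).hom)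
    (hβ : ∀ m, Function.Injective (β.f m).hom) :
    Function.Injective (fiberMapLin φ₁ φ₂ α β n) := by
  intro x y hxy
  apply fiber_ext
  · apply hα
    have := congrArg (fiberFst φ₂ n) hxy
    simpa only [fiberFst_mapLin] using this
  · have := congrArg (fiberSnd φ₂ n) hxy
    simp only [fiberSnd_mapLin] at this
    cases n with
    | zero => exact this
    | succ n => exact hβ n this

theorem fiberMapLin_surjective (n : ℕ) (hα : Function.Surjective (α.f n).hom)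
    (hβ : ∀ m, Function.Surjective (β.f m).hom) :
    Function.Surjective (fiberMapLin φ₁ φ₂ α β n) := by
  intro z
  obtain ⟨a, ha⟩ := hα (fiberFst φ₂ n z)
  have hb : ∃ b : prevX L₁ n, prevMap β n b = fiberSnd φ₂ n z := by
    cases n with
    | zero => exact ⟨_, rfl⟩
    | succ n => exact hβ n _
  obtain ⟨b, hb⟩ := hb
  refine ⟨fiberMk φ₁ n a b, ?_⟩
  apply fiber_ext
  · rw [fiberFst_mapLin, fiberFst_mk, ha]
  · rw [fiberSnd_mapLin, fiberSnd_mk, hb]

theorem fiberMapLin_exact {K₃ L₃ : CochainComplex (ModuleCat.{v} k) ℕ} (φ₃ : K₃ ⟶ L₃)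
    (α' : K₂ ⟶ K₃) (β' : L₂ ⟶ L₃) (n : ℕ)
    (hα : ∀ y : K₂.X n, (α'.f n).hom y = 0 → ∃ x : K₁.X n, (α.f n).hom x = y)
    (hβ : ∀ m (y : L₂.X m), (β'.f m).hom y = 0 → ∃ x : L₁.X m, (β.f m).hom x = y)
    (y : (fiber φ₂).X n) (hy : fiberMapLin φ₂ φ₃ α' β' n y = 0) :
    ∃ x : (fiber φ₁).X n, fiberMapLin φ₁ φ₂ α β n x = y := by
  have h1 : (α'.f n).hom (fiberFst φ₂ n y) = 0 := by
    rw [← fiberFst_mapLin φ₂ φ₃ α' β', hy, map_zero]
  have h2 : prevMap β' n (fiberSnd φ₂ n y) = 0 := by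
    rw [← fiberSnd_mapLin φ₂ φ₃ α' β', hy, map_zero]
  obtain ⟨a, ha⟩ := hα _ h1
  have hb : ∃ b : prevX L₁ n, prevMap β n b = fiberSnd φ₂ n y := by
    cases n with
    | zero => exact ⟨_, rfl⟩
    | succ n => exact hβ n _ h2
  obtain ⟨b, hb⟩ := hb
  refine ⟨fiberMk φ₁ n a b, ?_⟩
  apply fiber_ext
  · rw [fiberFst_mapLin, fiberFst_mk, ha]
  · rw [fiberSnd_mapLin, fiberSnd_mk, hb]

end Functoriality

section ShortExact

open ShortComplex

/-- Elementwise description of short exactness of a short complex of cochain complexes of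
modules. -/
theorem shortExact_iff_elementwise (S : ShortComplex (CochainComplex (ModuleCat.{v} k) ℕ)) :
    S.ShortExact ↔ (∀ n, Function.Injective (S.f.f n).hom) ∧
      (∀ n, Function.Surjective (S.g.f n).hom) ∧
      ∀ n (y : S.X₂.X n), (S.g.f n).hom y = 0 → ∃ x : S.X₁.X n, (S.f.f n).hom x = y := by
  rw [HomologicalComplex.shortExact_iff_degreewise_shortExact]
  constructor
  · intro h
    refine ⟨fun n => ?_, fun n => ?_, fun n y hy => ?_⟩
    · have := (h n).mono_f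
      exact (ModuleCat.mono_iff_injective (S.f.f n)).1 this
    · have := (h n).epi_g
      exact (ModuleCat.epi_iff_surjective (S.g.f n)).1 this
    · have := (h n).exact
      rw [ShortComplex.moduleCat_exact_iff] at this
      exact this y hy
  · rintro ⟨h1, h2, h3⟩ n
    refine ShortExact.mk' ?_ ?_ ?_
    · rw [ShortComplex.moduleCat_exact_iff]
      exact h3 n
    · exact (ModuleCat.mono_iff_injective (S.f.f n)).2 (h1 n)
    · exact (ModuleCat.epi_iff_surjective (S.g.f n)).2 (h2 n)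

variable {SK SL : ShortComplex (CochainComplex (ModuleCat.{v} k) ℕ)} (Φ : SK ⟶ SL)

/-- The short complex of fibre complexes attached to a morphism of short complexes of cochain
complexes. -/
noncomputable def fiberShortComplex : ShortComplex (CochainComplex (ModuleCat.{v} k) ℕ) where
  X₁ := fiber Φ.τ₁
  X₂ := fiber Φ.τ₂
  X₃ := fiber Φ.τ₃
  f := fiberMap Φ.τ₁ Φ.τ₂ SK.f SL.f Φ.comm₁₂
  g := fiberMap Φ.τ₂ Φ.τ₃ SK.g SL.g Φ.comm₂₃
  zero := by
    ext n : 1
    refine ModuleCat.hom_ext (LinearMap.ext fun x => ?_)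
    show fiberMapLin Φ.τ₂ Φ.τ₃ SK.g SL.g n (fiberMapLin Φ.τ₁ Φ.τ₂ SK.f SL.f n x) = 0
    apply fiber_ext
    · rw [fiberFst_mapLin, fiberFst_mapLin, map_zero]
      exact congrArg (fun f => (f.f n).hom (fiberFst Φ.τ₁ n x)) SK.zero
    · rw [fiberSnd_mapLin, fiberSnd_mapLin, map_zero]
      cases n with
      | zero => exact prevX_zero_eq _ _
      | succ n => exact congrArg (fun f => (f.f n).hom (fiberSndS Φ.τ₁ n x)) SL.zero

/-- The fibres of a morphism of short exact sequences of complexes form a short exact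
sequence. -/
theorem fiberShortComplex_shortExact (hK : SK.ShortExact) (hL : SL.ShortExact) :
    (fiberShortComplex Φ).ShortExact := by
  obtain ⟨k1, k2, k3⟩ := (shortExact_iff_elementwise SK).1 hK
  obtain ⟨l1, l2, l3⟩ := (shortExact_iff_elementwise SL).1 hL
  rw [shortExact_iff_elementwise]
  exact ⟨fun n => fiberMapLin_injective Φ.τ₁ Φ.τ₂ SK.f SL.f n (k1 n) l1,
    fun n => fiberMapLin_surjective Φ.τ₂ Φ.τ₃ SK.g SL.g n (k2 n) l2,
    fun n => fiberMapLin_exact Φ.τ₁ Φ.τ₂ SK.f SL.f Φ.τ₃ SK.g SL.g n (k3 n) l3⟩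

end ShortExact

section Pairing

/-- A pairing of cochain complexes `K × K' → M` satisfying the Leibniz rule
`d (a ∪ b) = d a ∪ b + (-1)^m a ∪ d b`.  The target degree `p` is a free index together with a
proof of `m + n = p`, so that no casts are needed. -/
structure CochainPairing (K K' M : CochainComplex (ModuleCat.{v} k) ℕ) where
  /-- the bilinear maps -/
  μ : ∀ m n p : ℕ, m + n = p → (K.X m →ₗ[k] K'.X n →ₗ[k] M.X p)
  leibniz : ∀ (m n p : ℕ) (h : m + n = p) (a : K.X m) (b : K'.X n),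
    (M.d p (p + 1)).hom (μ m n p h a b) =
      μ (m + 1) n (p + 1) (by omega) ((K.d m (m + 1)).hom a) b +
        (-1 : k) ^ m • μ m (n + 1) (p + 1) (by omega) a ((K'.d n (n + 1)).hom b)

namespace CochainPairing

variable {K K' M : CochainComplex (ModuleCat.{v} k) ℕ} (P : CochainPairing K K' M)

theorem μ_mem_Z {m n p : ℕ} (h : m + n = p) (a : K.X m) (ha : a ∈ Z K m) (b : K'.X n)
    (hb : b ∈ Z K' n) : P.μ m n p h a b ∈ Z M p := by
  rw [mem_Z_iff] at ha hb ⊢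
  rw [P.leibniz, ha, hb, map_zero, map_zero, LinearMap.zero_apply, smul_zero, add_zero]

theorem μ_mem_B_left {m n p : ℕ} (h : m + n = p) (a : Z K m) (ha : a ∈ B K m) (b : Z K' n) :
    restrictZ (P.μ m n p h) (fun a ha b hb => P.μ_mem_Z h a ha b hb) a b ∈ B M p := by
  cases m with
  | zero =>
    have := eq_zero_of_mem_B_zero _ a ha
    subst this
    simp
  | succ m =>
    obtain ⟨p, rfl⟩ : ∃ p', p = p' + 1 := ⟨m + n, by omega⟩
    obtain ⟨x, hx⟩ := (mem_B_succ_iff K a).1 ha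
    rw [mem_B_succ_iff]
    refine ⟨P.μ m n p (by omega) x b.1, ?_⟩
    rw [P.leibniz, (mem_Z_iff K' b.1).1 b.2, map_zero, smul_zero, add_zero, hx]
    rfl

theorem μ_mem_B_right {m n p : ℕ} (h : m + n = p) (a : Z K m) (b : Z K' n) (hb : b ∈ B K' n) :
    restrictZ (P.μ m n p h) (fun a ha b hb => P.μ_mem_Z h a ha b hb) a b ∈ B M p := by
  cases n with
  | zero =>
    have := eq_zero_of_mem_B_zero _ b hb
    subst this
    simp
  | succ n =>
    obtain ⟨p, rfl⟩ : ∃ p', p = p' + 1 := ⟨m + n, by omega⟩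
    obtain ⟨y, hy⟩ := (mem_B_succ_iff K' b).1 hb
    rw [mem_B_succ_iff]
    refine ⟨(-1 : k) ^ m • P.μ m n p (by omega) a.1 y, ?_⟩
    rw [map_smul, P.leibniz, (mem_Z_iff K a.1).1 a.2, map_zero, LinearMap.zero_apply, zero_add,
      smul_smul, ← mul_pow, hy]
    simp

/-- The pairing induced on cohomology. -/
noncomputable def pairH (m n p : ℕ) (h : m + n = p) :
    K.homology m →ₗ[k] K'.homology n →ₗ[k] M.homology p :=
  CochainTools.pairH (P.μ m n p h) (fun a ha b hb => P.μ_mem_Z h a ha b hb)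
    (fun a ha b => P.μ_mem_B_left h a ha b) (fun a b hb => P.μ_mem_B_right h a b hb)

theorem pairH_cls {m n p : ℕ} (h : m + n = p) (a : Z K m) (b : Z K' n) :
    P.pairH m n p h (cls K m a) (cls K' n b) =
      cls M p ⟨P.μ m n p h a.1 b.1, P.μ_mem_Z h a.1 a.2 b.1 b.2⟩ :=
  CochainTools.pairH_cls _ _ _ _ a b

/-- Naturality of the cohomology pairing: covariant in the first variable and in the target,
contravariant in the second variable. -/
theorem pairH_natural {K₁ K'₁ M₁ K₂ K'₂ M₂ : CochainComplex (ModuleCat.{v} k) ℕ}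
    (P₁ : CochainPairing K₁ K'₁ M₁) (P₂ : CochainPairing K₂ K'₂ M₂)
    (α : K₁ ⟶ K₂) (α' : K'₂ ⟶ K'₁) (γ : M₁ ⟶ M₂)
    (hαγ : ∀ (m n p : ℕ) (h : m + n = p) (a : K₁.X m) (b : K'₂.X n),
      (γ.f p).hom (P₁.μ m n p h a ((α'.f n).hom b)) = P₂.μ m n p h ((α.f m).hom a) b)
    {m n p : ℕ} (h : m + n = p) (x : K₁.homology m) (y : K'₂.homology n) :
    (HomologicalComplex.homologyMap γ p).hom
        (P₁.pairH m n p h x ((HomologicalComplex.homologyMap α' n).hom y)) =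
      P₂.pairH m n p h ((HomologicalComplex.homologyMap α m).hom x) y := by
  obtain ⟨a, rfl⟩ := cls_surjective K₁ m x
  obtain ⟨b, rfl⟩ := cls_surjective K'₂ n y
  rw [homologyMap_cls, homologyMap_cls, pairH_cls, pairH_cls, homologyMap_cls]
  congr 1
  apply Subtype.ext
  exact hαγ m n p h a.1 b.1

/-- Adjoint maps on cochains induce adjoint maps on cohomology. -/
theorem pairH_adjoint {K₁ K'₁ K₂ K'₂ M : CochainComplex (ModuleCat.{v} k) ℕ}
    (P₁ : CochainPairing K₁ K'₁ M) (P₂ : CochainPairing K₂ K'₂ M)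
    (α : K₁ ⟶ K₂) (α' : K'₂ ⟶ K'₁)
    (hα : ∀ (m n p : ℕ) (h : m + n = p) (a : K₁.X m) (b : K'₂.X n),
      P₂.μ m n p h ((α.f m).hom a) b = P₁.μ m n p h a ((α'.f n).hom b))
    {m n p : ℕ} (h : m + n = p) (x : K₁.homology m) (y : K'₂.homology n) :
    P₂.pairH m n p h ((HomologicalComplex.homologyMap α m).hom x) y =
      P₁.pairH m n p h x ((HomologicalComplex.homologyMap α' n).hom y) := by
  obtain ⟨a, rfl⟩ := cls_surjective K₁ m x
  obtain ⟨b, rfl⟩ := cls_surjective K'₂ n y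
  rw [homologyMap_cls, homologyMap_cls, pairH_cls, pairH_cls]
  congr 1
  apply Subtype.ext
  exact hα m n p h a.1 b.1

end CochainPairing

section FiberPairing

variable {K K' M L L' N : CochainComplex (ModuleCat.{v} k) ℕ}
  (P : CochainPairing K K' M) (Q : CochainPairing L L' N)
  (φ : K ⟶ L) (φ' : K' ⟶ L') (ψ : M ⟶ N)

/-- The pairing on the previous-degree terms. -/
def prevPair : ∀ m n p : ℕ, m + n = p → (prevX L m →ₗ[k] L'.X n →ₗ[k] prevX N p)
  | 0, _, _, _ => 0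
  | _ + 1, _, 0, _ => 0
  | m + 1, n, p + 1, h => Q.μ m n p (by omega)

theorem prevPair_succ (m n p : ℕ) (h : m + 1 + n = p + 1) (b : L.X m) (c : L'.X n) :
    prevPair Q (m + 1) n (p + 1) h b c = Q.μ m n p (by omega) b c := rfl

theorem prevD_prevPair (m n p : ℕ) (h : m + n = p) (b : prevX L m) (c : L'.X n) :
    prevD N p (prevPair Q m n p h b c) =
      Q.μ m n p h (prevD L m b) c -
        (-1 : k) ^ m • (show N.X p from
          prevPair Q m (n + 1) (p + 1) (by omega) b ((L'.d n (n + 1)).hom c)) := by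
  cases m with
  | zero =>
    show prevD N p 0 = Q.μ 0 n p h (prevD L 0 b) c - (-1 : k) ^ 0 • (0 : N.X p)
    simp
  | succ m =>
    cases p with
    | zero => omega
    | succ p =>
      have key : ∀ b' : L.X m, (N.d p (p + 1)).hom (Q.μ m n p (by omega) b' c) =
          Q.μ (m + 1) n (p + 1) h ((L.d m (m + 1)).hom b') c -
            (-1 : k) ^ (m + 1) •
              Q.μ m (n + 1) (p + 1) (by omega) b' ((L'.d n (n + 1)).hom c) := by
        intro b'
        rw [Q.leibniz, pow_succ, mul_neg_one, neg_smul, sub_neg_eq_add]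
      exact key b

/-- Injection of the first component into the fibre complex. -/
noncomputable def fiberInl (p : ℕ) : M.X p →ₗ[k] (fiber ψ).X p :=
  LinearMap.inl k (M.X p) (prevX N p)

/-- Injection of the second component into the fibre complex. -/
noncomputable def fiberInr (p : ℕ) : prevX N p →ₗ[k] (fiber ψ).X p :=
  LinearMap.inr k (M.X p) (prevX N p)

@[simp] theorem fiberFst_inl (p : ℕ) (a : M.X p) : fiberFst ψ p (fiberInl ψ p a) = a := rfl
@[simp] theorem fiberFst_inr (p : ℕ) (b : prevX N p) : fiberFst ψ p (fiberInr ψ p b) = 0 := rfl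
@[simp] theorem fiberSnd_inl (p : ℕ) (a : M.X p) : fiberSnd ψ p (fiberInl ψ p a) = 0 := rfl
@[simp] theorem fiberSnd_inr (p : ℕ) (b : prevX N p) : fiberSnd ψ p (fiberInr ψ p b) = b := rfl

/-- The bilinear maps of the fibre pairing `((a, b), a') ↦ (a ∪ a', b ∪ φ' a')`. -/
noncomputable def fiberμ (m n p : ℕ) (h : m + n = p) :
    (fiber φ).X m →ₗ[k] K'.X n →ₗ[k] (fiber ψ).X p :=
  ((P.μ m n p h) ∘ₗ fiberFst φ m).compr₂ (fiberInl ψ p) +
    (((prevPair Q m n p h) ∘ₗ fiberSnd φ m).compl₂ (φ'.f n).hom).compr₂ (fiberInr ψ p)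

@[simp] theorem fiberFst_fiberμ (m n p : ℕ) (h : m + n = p) (x : (fiber φ).X m) (a' : K'.X n) :
    fiberFst ψ p (fiberμ P Q φ φ' ψ m n p h x a') = P.μ m n p h (fiberFst φ m x) a' := by
  simp [fiberμ]

@[simp] theorem fiberSnd_fiberμ (m n p : ℕ) (h : m + n = p) (x : (fiber φ).X m) (a' : K'.X n) :
    fiberSnd ψ p (fiberμ P Q φ φ' ψ m n p h x a') =
      prevPair Q m n p h (fiberSnd φ m x) ((φ'.f n).hom a') := by
  simp [fiberμ]

theorem fiberSndS_fiberμ (m n p : ℕ) (h : m + 1 + n = p + 1) (x : (fiber φ).X (m + 1))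
    (a' : K'.X n) :
    fiberSndS ψ p (fiberμ P Q φ φ' ψ (m + 1) n (p + 1) h x a') =
      Q.μ m n p (by omega) (fiberSndS φ m x) ((φ'.f n).hom a') :=
  fiberSnd_fiberμ P Q φ φ' ψ (m + 1) n (p + 1) h x a'

/-- The pairing of fibre complexes induced by compatible pairings. -/
noncomputable def fiberPairing
    (hcompat : ∀ (m n p : ℕ) (h : m + n = p) (a : K.X m) (a' : K'.X n),
      (ψ.f p).hom (P.μ m n p h a a') = Q.μ m n p h ((φ.f m).hom a) ((φ'.f n).hom a')) :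
    CochainPairing (fiber φ) K' (fiber ψ) where
  μ := fiberμ P Q φ φ' ψ
  leibniz m n p h x a' := by
    apply fiber_ext_succ
    · rw [fiberFst_d, fiberFst_fiberμ, P.leibniz, map_add, map_smul, fiberFst_fiberμ,
        fiberFst_fiberμ, fiberFst_d]
    · rw [fiberSndS_d, fiberFst_fiberμ, fiberSnd_fiberμ, hcompat, prevD_prevPair, map_add,
        map_smul, fiberSndS_fiberμ, fiberSndS_d, map_sub, LinearMap.sub_apply, comm_apply]
      have e : fiberSndS ψ p (fiberμ P Q φ φ' ψ m (n + 1) (p + 1) (by omega) x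
          ((K'.d n (n + 1)).hom a')) =
          (show N.X p from prevPair Q m (n + 1) (p + 1) (by omega) (fiberSnd φ m x)
            ((φ'.f (n + 1)).hom ((K'.d n (n + 1)).hom a'))) :=
        fiberSnd_fiberμ P Q φ φ' ψ m (n + 1) (p + 1) (by omega) x _
      rw [e]
      abel

variable (hcompat : ∀ (m n p : ℕ) (h : m + n = p) (a : K.X m) (a' : K'.X n),
  (ψ.f p).hom (P.μ m n p h a a') = Q.μ m n p h ((φ.f m).hom a) ((φ'.f n).hom a'))

theorem fiberPairing_μ (m n p : ℕ) (h : m + n = p) :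
    (fiberPairing P Q φ φ' ψ hcompat).μ m n p h = fiberμ P Q φ φ' ψ m n p h := rfl

/-- **Boundary compatibility** of the fibre pairing: `∂ w ∪ y = ∂ (w ∪ φ' y)`. -/
theorem fiberPairing_fiberBd {m n p : ℕ} (h : m + n = p) (w : L.homology m)
    (y : K'.homology n) :
    (fiberPairing P Q φ φ' ψ hcompat).pairH (m + 1) n (p + 1) (by omega) (fiberBd φ m w) y =
      fiberBd ψ p (Q.pairH m n p h w ((HomologicalComplex.homologyMap φ' n).hom y)) := by
  obtain ⟨b, rfl⟩ := cls_surjective L m w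
  obtain ⟨a', rfl⟩ := cls_surjective K' n y
  rw [fiberBd_cls, CochainPairing.pairH_cls, homologyMap_cls, CochainPairing.pairH_cls,
    fiberBd_cls]
  congr 1
  apply Subtype.ext
  apply fiber_ext_succ
  · show fiberFst ψ (p + 1) (fiberμ P Q φ φ' ψ (m + 1) n (p + 1) _ (fiberι φ m b.1) a'.1) =
      fiberFst ψ (p + 1) (fiberι ψ p _)
    rw [fiberFst_fiberμ, fiberFst_ι, fiberFst_ι, map_zero, LinearMap.zero_apply]
  · show fiberSndS ψ p (fiberμ P Q φ φ' ψ (m + 1) n (p + 1) _ (fiberι φ m b.1) a'.1) =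
      fiberSndS ψ p (fiberι ψ p _)
    rw [fiberSndS_fiberμ, fiberSndS_ι, fiberSndS_ι]
    rfl

/-- Compatibility of the fibre pairing with the projections to `K` and `M`. -/
theorem fiberπ_fiberPairing {m n p : ℕ} (h : m + n = p) (x : (fiber φ).homology m)
    (y : K'.homology n) :
    (HomologicalComplex.homologyMap (fiberπ ψ) p).hom
        ((fiberPairing P Q φ φ' ψ hcompat).pairH m n p h x y) =
      P.pairH m n p h ((HomologicalComplex.homologyMap (fiberπ φ) m).hom x) y := by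
  obtain ⟨a, rfl⟩ := cls_surjective (fiber φ) m x
  obtain ⟨a', rfl⟩ := cls_surjective K' n y
  rw [CochainPairing.pairH_cls, homologyMap_cls, homologyMap_cls, CochainPairing.pairH_cls]
  congr 1
  apply Subtype.ext
  exact fiberFst_fiberμ P Q φ φ' ψ m n p h a.1 a'.1

end FiberPairing

section FiberPairingNatural

variable {K₁ K'₁ M₁ L₁ L'₁ N₁ K₂ K'₂ M₂ L₂ L'₂ N₂ : CochainComplex (ModuleCat.{v} k) ℕ}
  (P₁ : CochainPairing K₁ K'₁ M₁) (Q₁ : CochainPairing L₁ L'₁ N₁)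
  (φ₁ : K₁ ⟶ L₁) (φ'₁ : K'₁ ⟶ L'₁) (ψ₁ : M₁ ⟶ N₁)
  (P₂ : CochainPairing K₂ K'₂ M₂) (Q₂ : CochainPairing L₂ L'₂ N₂)
  (φ₂ : K₂ ⟶ L₂) (φ'₂ : K'₂ ⟶ L'₂) (ψ₂ : M₂ ⟶ N₂)
  (α : K₁ ⟶ K₂) (β : L₁ ⟶ L₂) (α' : K'₂ ⟶ K'₁) (β' : L'₂ ⟶ L'₁) (γ : M₁ ⟶ M₂) (δ : N₁ ⟶ N₂)

theorem prevPair_natural
    (hQ : ∀ (m n p : ℕ) (h : m + n = p) (b : L₁.X m) (b' : L'₂.X n),
      (δ.f p).hom (Q₁.μ m n p h b ((β'.f n).hom b')) = Q₂.μ m n p h ((β.f m).hom b) b')
    (m n p : ℕ) (h : m + n = p) (b : prevX L₁ m) (b' : L'₂.X n) :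
    prevMap δ p (prevPair Q₁ m n p h b ((β'.f n).hom b')) =
      prevPair Q₂ m n p h (prevMap β m b) b' := by
  cases m with
  | zero => exact map_zero _
  | succ m =>
    cases p with
    | zero => exact map_zero _
    | succ p => exact hQ m n p (by omega) b b'

/-- Cochain-level naturality of the fibre pairing. -/
theorem fiberμ_natural (comm' : φ'₂ ≫ β' = α' ≫ φ'₁)
    (hP : ∀ (m n p : ℕ) (h : m + n = p) (a : K₁.X m) (a' : K'₂.X n),
      (γ.f p).hom (P₁.μ m n p h a ((α'.f n).hom a')) = P₂.μ m n p h ((α.f m).hom a) a')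
    (hQ : ∀ (m n p : ℕ) (h : m + n = p) (b : L₁.X m) (b' : L'₂.X n),
      (δ.f p).hom (Q₁.μ m n p h b ((β'.f n).hom b')) = Q₂.μ m n p h ((β.f m).hom b) b')
    (m n p : ℕ) (h : m + n = p) (x : (fiber φ₁).X m) (a' : K'₂.X n) :
    fiberMapLin ψ₁ ψ₂ γ δ p (fiberμ P₁ Q₁ φ₁ φ'₁ ψ₁ m n p h x ((α'.f n).hom a')) =
      fiberμ P₂ Q₂ φ₂ φ'₂ ψ₂ m n p h (fiberMapLin φ₁ φ₂ α β m x) a' := by
  apply fiber_ext
  · rw [fiberFst_mapLin, fiberFst_fiberμ, fiberFst_fiberμ, fiberFst_mapLin, hP]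
  · rw [fiberSnd_mapLin, fiberSnd_fiberμ, fiberSnd_fiberμ, fiberSnd_mapLin]
    have e : (φ'₁.f n).hom ((α'.f n).hom a') = (β'.f n).hom ((φ'₂.f n).hom a') :=
      (congrArg (fun f => (f.f n).hom a') comm').symm
    rw [e, prevPair_natural Q₁ Q₂ β β' δ hQ]

/-- **Naturality** of the cohomology pairing of fibres. -/
theorem fiberPairing_natural
    (hc₁ : ∀ (m n p : ℕ) (h : m + n = p) (a : K₁.X m) (a' : K'₁.X n),
      (ψ₁.f p).hom (P₁.μ m n p h a a') = Q₁.μ m n p h ((φ₁.f m).hom a) ((φ'₁.f n).hom a'))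
    (hc₂ : ∀ (m n p : ℕ) (h : m + n = p) (a : K₂.X m) (a' : K'₂.X n),
      (ψ₂.f p).hom (P₂.μ m n p h a a') = Q₂.μ m n p h ((φ₂.f m).hom a) ((φ'₂.f n).hom a'))
    (comm : φ₁ ≫ β = α ≫ φ₂) (comm' : φ'₂ ≫ β' = α' ≫ φ'₁) (comm'' : ψ₁ ≫ δ = γ ≫ ψ₂)
    (hP : ∀ (m n p : ℕ) (h : m + n = p) (a : K₁.X m) (a' : K'₂.X n),
      (γ.f p).hom (P₁.μ m n p h a ((α'.f n).hom a')) = P₂.μ m n p h ((α.f m).hom a) a')
    (hQ : ∀ (m n p : ℕ) (h : m + n = p) (b : L₁.X m) (b' : L'₂.X n),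
      (δ.f p).hom (Q₁.μ m n p h b ((β'.f n).hom b')) = Q₂.μ m n p h ((β.f m).hom b) b')
    {m n p : ℕ} (h : m + n = p) (x : (fiber φ₁).homology m) (y : K'₂.homology n) :
    (HomologicalComplex.homologyMap (fiberMap ψ₁ ψ₂ γ δ comm'') p).hom
        ((fiberPairing P₁ Q₁ φ₁ φ'₁ ψ₁ hc₁).pairH m n p h x
          ((HomologicalComplex.homologyMap α' n).hom y)) =
      (fiberPairing P₂ Q₂ φ₂ φ'₂ ψ₂ hc₂).pairH m n p h
        ((HomologicalComplex.homologyMap (fiberMap φ₁ φ₂ α β comm) m).hom x) y :=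
  CochainPairing.pairH_natural _ _ _ _ _
    (fun m n p h a b => fiberμ_natural P₁ Q₁ φ₁ φ'₁ ψ₁ P₂ Q₂ φ₂ φ'₂ ψ₂ α β α' β' γ δ comm' hP hQ
      m n p h a b) h x y

end FiberPairingNatural

section FiberPairingAdjoint

variable {K₁ K'₁ L₁ L'₁ K₂ K'₂ L₂ L'₂ M N : CochainComplex (ModuleCat.{v} k) ℕ}
  (P₁ : CochainPairing K₁ K'₁ M) (Q₁ : CochainPairing L₁ L'₁ N)
  (φ₁ : K₁ ⟶ L₁) (φ'₁ : K'₁ ⟶ L'₁)
  (P₂ : CochainPairing K₂ K'₂ M) (Q₂ : CochainPairing L₂ L'₂ N)
  (φ₂ : K₂ ⟶ L₂) (φ'₂ : K'₂ ⟶ L'₂) (ψ : M ⟶ N)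
  (α : K₁ ⟶ K₂) (β : L₁ ⟶ L₂) (α' : K'₂ ⟶ K'₁) (β' : L'₂ ⟶ L'₁)

theorem prevPair_adjoint
    (hQ : ∀ (m n p : ℕ) (h : m + n = p) (b : L₁.X m) (b' : L'₂.X n),
      Q₂.μ m n p h ((β.f m).hom b) b' = Q₁.μ m n p h b ((β'.f n).hom b'))
    (m n p : ℕ) (h : m + n = p) (b : prevX L₁ m) (b' : L'₂.X n) :
    prevPair Q₂ m n p h (prevMap β m b) b' = prevPair Q₁ m n p h b ((β'.f n).hom b') := by
  cases m with
  | zero => rfl
  | succ m =>
    cases p with
    | zero => rfl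
    | succ p => exact hQ m n p (by omega) b b'

/-- Cochain-level adjointness for fibre pairings with the same target. -/
theorem fiberμ_adjoint (comm' : φ'₂ ≫ β' = α' ≫ φ'₁)
    (hP : ∀ (m n p : ℕ) (h : m + n = p) (a : K₁.X m) (a' : K'₂.X n),
      P₂.μ m n p h ((α.f m).hom a) a' = P₁.μ m n p h a ((α'.f n).hom a'))
    (hQ : ∀ (m n p : ℕ) (h : m + n = p) (b : L₁.X m) (b' : L'₂.X n),
      Q₂.μ m n p h ((β.f m).hom b) b' = Q₁.μ m n p h b ((β'.f n).hom b'))
    (m n p : ℕ) (h : m + n = p) (x : (fiber φ₁).X m) (a' : K'₂.X n) :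
    fiberμ P₂ Q₂ φ₂ φ'₂ ψ m n p h (fiberMapLin φ₁ φ₂ α β m x) a' =
      fiberμ P₁ Q₁ φ₁ φ'₁ ψ m n p h x ((α'.f n).hom a') := by
  apply fiber_ext
  · rw [fiberFst_fiberμ, fiberFst_fiberμ, fiberFst_mapLin, hP]
  · rw [fiberSnd_fiberμ, fiberSnd_fiberμ, fiberSnd_mapLin]
    have e : (φ'₁.f n).hom ((α'.f n).hom a') = (β'.f n).hom ((φ'₂.f n).hom a') :=
      (congrArg (fun f => (f.f n).hom a') comm').symm
    rw [e, prevPair_adjoint Q₁ Q₂ β β' hQ]

/-- **Adjointness** for the cohomology pairings of fibres with the same target. -/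
theorem fiberPairing_adjoint
    (hc₁ : ∀ (m n p : ℕ) (h : m + n = p) (a : K₁.X m) (a' : K'₁.X n),
      (ψ.f p).hom (P₁.μ m n p h a a') = Q₁.μ m n p h ((φ₁.f m).hom a) ((φ'₁.f n).hom a'))
    (hc₂ : ∀ (m n p : ℕ) (h : m + n = p) (a : K₂.X m) (a' : K'₂.X n),
      (ψ.f p).hom (P₂.μ m n p h a a') = Q₂.μ m n p h ((φ₂.f m).hom a) ((φ'₂.f n).hom a'))
    (comm : φ₁ ≫ β = α ≫ φ₂) (comm' : φ'₂ ≫ β' = α' ≫ φ'₁)
    (hP : ∀ (m n p : ℕ) (h : m + n = p) (a : K₁.X m) (a' : K'₂.X n),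
      P₂.μ m n p h ((α.f m).hom a) a' = P₁.μ m n p h a ((α'.f n).hom a'))
    (hQ : ∀ (m n p : ℕ) (h : m + n = p) (b : L₁.X m) (b' : L'₂.X n),
      Q₂.μ m n p h ((β.f m).hom b) b' = Q₁.μ m n p h b ((β'.f n).hom b'))
    {m n p : ℕ} (h : m + n = p) (x : (fiber φ₁).homology m) (y : K'₂.homology n) :
    (fiberPairing P₂ Q₂ φ₂ φ'₂ ψ hc₂).pairH m n p h
        ((HomologicalComplex.homologyMap (fiberMap φ₁ φ₂ α β comm) m).hom x) y =
      (fiberPairing P₁ Q₁ φ₁ φ'₁ ψ hc₁).pairH m n p h x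
        ((HomologicalComplex.homologyMap α' n).hom y) :=
  CochainPairing.pairH_adjoint _ _ _ _
    (fun m n p h a b => fiberμ_adjoint P₁ Q₁ φ₁ φ'₁ P₂ Q₂ φ₂ φ'₂ ψ α β α' β' comm' hP hQ
      m n p h a b) h x y

end FiberPairingAdjoint

section Connecting

open ShortComplex

variable {M : CochainComplex (ModuleCat.{v} k) ℕ}
  {S S' : ShortComplex (CochainComplex (ModuleCat.{v} k) ℕ)}

/-- **Adjointness of connecting homomorphisms** under pairings: for short exact sequences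
`0 → K₁ → K₂ → K₃ → 0` and `0 → K'₃ → K'₂ → K'₁ → 0` and pairings `Kᵢ × K'ᵢ → M` for which the
maps of the two sequences are adjoint, `δ x ∪ y + (-1)^m x ∪ δ y = 0`. -/
theorem pairH_δ (hS : S.ShortExact) (hS' : S'.ShortExact)
    (P₁ : CochainPairing S.X₁ S'.X₃ M) (P₂ : CochainPairing S.X₂ S'.X₂ M)
    (P₃ : CochainPairing S.X₃ S'.X₁ M)
    (h₁₂ : ∀ (m n p : ℕ) (h : m + n = p) (a : S.X₁.X m) (b : S'.X₂.X n),
      P₂.μ m n p h ((S.f.f m).hom a) b = P₁.μ m n p h a ((S'.g.f n).hom b))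
    (h₂₃ : ∀ (m n p : ℕ) (h : m + n = p) (a : S.X₂.X m) (b : S'.X₁.X n),
      P₃.μ m n p h ((S.g.f m).hom a) b = P₂.μ m n p h a ((S'.f.f n).hom b))
    {m n p : ℕ} (h : m + n = p) (x : S.X₃.homology m) (y : S'.X₃.homology n) :
    P₁.pairH (m + 1) n (p + 1) (by omega) ((hS.δ m (m + 1) rfl).hom x) y +
      (-1 : k) ^ m • P₃.pairH m (n + 1) (p + 1) (by omega) x ((hS'.δ n (n + 1) rfl).hom y) = 0 := by
  obtain ⟨_, s2, s3⟩ := (shortExact_iff_elementwise S).1 hS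
  obtain ⟨_, s2', s3'⟩ := (shortExact_iff_elementwise S').1 hS'
  obtain ⟨x₃, rfl⟩ := cls_surjective S.X₃ m x
  obtain ⟨y₃, rfl⟩ := cls_surjective S'.X₃ n y
  obtain ⟨x₂, hx₂⟩ := s2 m x₃.1
  obtain ⟨y₂, hy₂⟩ := s2' n y₃.1
  have hx₂d : (S.g.f (m + 1)).hom ((S.X₂.d m (m + 1)).hom x₂) = 0 := by
    rw [← comm_apply, hx₂]
    exact (mem_Z_iff _ _).1 x₃.2
  have hy₂d : (S'.g.f (n + 1)).hom ((S'.X₂.d n (n + 1)).hom y₂) = 0 := by
    rw [← comm_apply, hy₂]
    exact (mem_Z_iff _ _).1 y₃.2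
  obtain ⟨x₁, hx₁⟩ := s3 (m + 1) _ hx₂d
  obtain ⟨y₁, hy₁⟩ := s3' (n + 1) _ hy₂d
  obtain ⟨hx₁Z, hδx⟩ := δ_cls hS m x₃ x₂ hx₂ x₁ hx₁
  obtain ⟨hy₁Z, hδy⟩ := δ_cls hS' n y₃ y₂ hy₂ y₁ hy₁
  rw [hδx, hδy, CochainPairing.pairH_cls, CochainPairing.pairH_cls, ← map_smul, ← map_add,
    cls_eq_zero_iff, mem_B_succ_iff]
  refine ⟨P₂.μ m n p h x₂ y₂, ?_⟩
  rw [P₂.leibniz, ← hx₁, ← hy₁, h₁₂, ← h₂₃, hx₂, hy₂]
  rfl

end Connecting

end Pairing

end Fermat.Agent.S55.Cone
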