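/-
Cup products on inhomogeneous cochains of group cohomology (all degrees), with the Leibniz rule.
Mathlib only.  Namespace `Fermat.Agent.S55.Cup`.
-/
import Mathlib

set_option autoImplicit false
set_option linter.unusedSectionVars false

namespace Fermat.Agent.S55.Cup

open CategoryTheory groupCohomology

universe u v

section Tprod

variable {G : Type*} [Monoid G]

/-- Ordered product of the entries of a tuple. -/
def tprod : {n : ℕ} → (Fin n → G) → G
  | 0, _ => 1
  | _ + 1, g => g 0 * tprod (fun i => g i.succ)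

@[simp] theorem tprod_zero (g : Fin 0 → G) : tprod g = 1 := rfl

theorem tprod_succ {n : ℕ} (g : Fin (n + 1) → G) :
    tprod g = g 0 * tprod (fun i => g i.succ) := rfl

theorem tprod_congr {n : ℕ} {g h : Fin n → G} (H : ∀ i, g i = h i) : tprod g = tprod h := by
  have : g = h := funext H
  rw [this]

theorem tprod_one (g : Fin 1 → G) : tprod g = g 0 := by
  rw [tprod_succ, tprod_zero, mul_one]

theorem tprod_castSucc {n : ℕ} (g : Fin (n + 1) → G) :
    tprod g = tprod (fun i : Fin n => g i.castSucc) * g (Fin.last n) := by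
  induction n with
  | zero => simp [tprod_succ]
  | succ n ih =>
    rw [tprod_succ, ih (fun i => g i.succ), tprod_succ (fun i : Fin (n + 1) => g i.castSucc),
      mul_assoc]
    rfl

theorem tprod_contractNth {n : ℕ} (g : Fin (n + 1) → G) (j : Fin (n + 1)) (hj : (j : ℕ) < n) :
    tprod (Fin.contractNth j (· * ·) g) = tprod g := by
  induction n with
  | zero => omega
  | succ n ih =>
    rw [tprod_succ, tprod_succ g]
    rcases Fin.eq_zero_or_eq_succ j with rfl | ⟨j', rfl⟩
    · rw [Fin.contractNth_apply_of_eq _ _ _ _ (by simp), tprod_succ (fun i => g i.succ), mul_assoc]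
      have : (fun i : Fin n => Fin.contractNth 0 (fun x1 x2 => x1 * x2) g i.succ) =
          fun i : Fin n => g i.succ.succ := by
        funext i
        exact Fin.contractNth_apply_of_gt _ _ _ _ (by simp)
      rw [this]
      rfl
    · rw [Fin.contractNth_apply_of_lt _ _ _ _ (by simp)]
      have hj' : (j' : ℕ) < n := by simpa using hj
      rw [← ih (fun i => g i.succ) j' hj']
      congr 1
      apply tprod_congr
      intro i
      simp only [Fin.contractNth, Fin.val_succ, add_lt_add_iff_right, add_left_inj]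
      rfl

theorem map_tprod {H : Type*} [Monoid H] (f : G →* H) {n : ℕ} (g : Fin n → G) :
    f (tprod g) = tprod (fun i => f (g i)) := by
  induction n with
  | zero => simp
  | succ n ih => rw [tprod_succ, map_mul, ih, tprod_succ]

end Tprod

section Index

variable {G : Type*} [Monoid G]

theorem idx1 {m n : ℕ} (g : Fin (m + n + 1) → G) (i : Fin m) :
    (fun t : Fin m => Fin.contractNth (Fin.castAdd (n + 1) i : Fin (m + (n + 1))) (· * ·) g
      (Fin.castAdd n t)) =
    Fin.contractNth (Fin.castSucc i) (· * ·) (fun t : Fin (m + 1) => g ⟨t, by omega⟩) := by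
  funext t
  simp only [Fin.contractNth, Fin.val_castAdd, Fin.val_castSucc]
  split_ifs <;> rfl

theorem idx2 {m n : ℕ} (g : Fin (m + n + 1) → G) (i : Fin m) :
    (fun t : Fin n => Fin.contractNth (Fin.castAdd (n + 1) i : Fin (m + (n + 1))) (· * ·) g
      (Fin.natAdd m t)) =
    (fun t : Fin n => g ⟨m + 1 + t, by omega⟩) := by
  funext t
  simp only [Fin.contractNth, Fin.val_castAdd, Fin.val_natAdd]
  have h1 : ¬ (m + (t : ℕ) < i) := by omega
  have h2 : ¬ (m + (t : ℕ) = i) := by omega
  rw [if_neg h1, if_neg h2]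
  congr 1
  ext
  simp
  omega

theorem idx3 {m n : ℕ} (g : Fin (m + n + 1) → G) (i : Fin (n + 1)) :
    (fun t : Fin m => Fin.contractNth (Fin.natAdd m i : Fin (m + (n + 1))) (· * ·) g
      (Fin.castAdd n t)) =
    (fun t : Fin m => g ⟨t, by omega⟩) := by
  funext t
  simp only [Fin.contractNth, Fin.val_castAdd, Fin.val_natAdd]
  have h1 : (t : ℕ) < m + i := by omega
  rw [if_pos h1]
  rfl

theorem idx4 {m n : ℕ} (g : Fin (m + n + 1) → G) (i : Fin (n + 1)) :
    (fun t : Fin n => Fin.contractNth (Fin.natAdd m i : Fin (m + (n + 1))) (· * ·) g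
      (Fin.natAdd m t)) =
    Fin.contractNth i (· * ·) (fun t : Fin (n + 1) => g ⟨m + t, by omega⟩) := by
  funext t
  simp only [Fin.contractNth, Fin.val_natAdd, add_lt_add_iff_left, add_right_inj]
  split_ifs <;> rfl

theorem idx5 {m n : ℕ} (g : Fin (m + n + 1) → G) :
    (fun t : Fin m => g (Fin.castAdd n t).succ) =
    (fun t : Fin m => (fun t' : Fin (m + 1) => g ⟨t', by omega⟩) t.succ) := by
  funext t
  rfl

theorem idx6 {m n : ℕ} (g : Fin (m + n + 1) → G) :
    (fun t : Fin n => g (Fin.natAdd m t).succ) = (fun t : Fin n => g ⟨m + 1 + t, by omega⟩) := by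
  funext t
  congr 1
  ext
  simp
  omega

theorem idx7 {m n : ℕ} (g : Fin (m + n + 1) → G) :
    Fin.contractNth (Fin.last m) (· * ·) (fun t : Fin (m + 1) => g ⟨t, by omega⟩) =
    (fun t : Fin m => g ⟨t, by omega⟩) := by
  funext t
  rw [Fin.contractNth_apply_of_lt _ _ _ _ (by simp)]
  rfl

theorem idx8 {m n : ℕ} (g : Fin (m + n + 1) → G) :
    (fun t : Fin n => (fun t' : Fin (n + 1) => g ⟨m + t', by omega⟩) t.succ) =
    (fun t : Fin n => g ⟨m + 1 + t, by omega⟩) := by
  funext t
  show g _ = g _
  congr 1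
  ext
  simp
  omega

end Index

section Cup

variable {k G : Type u} [CommRing k] [Group G] {A B C : Rep.{v} k G}

/-- The cup product of inhomogeneous cochains along a bilinear pairing `φ`. -/
def cup (φ : A →ₗ[k] B →ₗ[k] C) {m n : ℕ} (a : (Fin m → G) → A) (b : (Fin n → G) → B) :
    (Fin (m + n) → G) → C :=
  fun g => φ (a (fun i => g (Fin.castAdd n i)))
    (B.ρ (tprod fun i : Fin m => g (Fin.castAdd n i)) (b (fun j => g (Fin.natAdd m j))))

theorem cup_apply (φ : A →ₗ[k] B →ₗ[k] C) {m n : ℕ} (a : (Fin m → G) → A) (b : (Fin n → G) → B)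
    (g : Fin (m + n) → G) :
    cup φ a b g = φ (a (fun i => g (Fin.castAdd n i)))
      (B.ρ (tprod fun i : Fin m => g (Fin.castAdd n i)) (b (fun j => g (Fin.natAdd m j)))) := rfl

/-- Leibniz rule for the cup product. -/
theorem d_cup (φ : A →ₗ[k] B →ₗ[k] C)
    (hφ : ∀ (g : G) (a : A) (b : B), φ (A.ρ g a) (B.ρ g b) = C.ρ g (φ a b)) {m n : ℕ}
    (a : (Fin m → G) → A) (b : (Fin n → G) → B) (g : Fin (m + n + 1) → G) :
    (inhomogeneousCochains.d C (m + n)).hom (cup φ a b) g =
      cup φ ((inhomogeneousCochains.d A m).hom a) b (fun i => g (Fin.cast (by omega) i)) +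
      (-1 : k) ^ m • cup φ a ((inhomogeneousCochains.d B n).hom b) g := by
  set x : Fin (m + 1) → G := fun t => g ⟨t, by omega⟩ with hx
  set y : Fin (n + 1) → G := fun t => g ⟨m + t, by omega⟩ with hy
  set x0 : Fin m → G := fun t => g ⟨t, by omega⟩ with hx0
  set y1 : Fin n → G := fun t => g ⟨m + 1 + t, by omega⟩ with hy1
  have F1 : cup φ a b (fun i => g i.succ) =
      φ (a (fun t => x t.succ)) (B.ρ (tprod fun t => x t.succ) (b y1)) := by
    rw [cup_apply, idx5 g, idx6 g]
  have F2 : ∀ i : Fin m, cup φ a b (Fin.contractNth (Fin.castAdd (n + 1) i : Fin (m + (n + 1)))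
      (· * ·) g) = φ (a (Fin.contractNth (Fin.castSucc i) (· * ·) x)) (B.ρ (tprod x) (b y1)) := by
    intro i
    rw [cup_apply, idx1 g i, idx2 g i, tprod_contractNth x _ (by simp)]
  have F3 : ∀ i : Fin (n + 1), cup φ a b (Fin.contractNth (Fin.natAdd m i : Fin (m + (n + 1)))
      (· * ·) g) = φ (a x0) (B.ρ (tprod x0) (b (Fin.contractNth i (· * ·) y))) := by
    intro i
    rw [cup_apply, idx3 g i, idx4 g i]
  have F4 : cup φ ((inhomogeneousCochains.d A m).hom a) b
      (fun i : Fin (m + 1 + n) => g (Fin.cast (by omega) i)) =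
      φ ((inhomogeneousCochains.d A m).hom a x) (B.ρ (tprod x) (b y1)) := by
    rw [cup_apply]
    have e1 : (fun i : Fin (m + 1) => g (Fin.cast (by omega) (Fin.castAdd n i))) = x := by
      funext t; rfl
    have e2 : (fun j : Fin n => g (Fin.cast (by omega) (Fin.natAdd (m + 1) j))) = y1 := by
      funext t; rfl
    rw [e1, e2]
  have F5 : cup φ a ((inhomogeneousCochains.d B n).hom b) g =
      φ (a x0) (B.ρ (tprod x0) ((inhomogeneousCochains.d B n).hom b y)) := by
    rw [cup_apply]
    have e1 : (fun i : Fin m => g (Fin.castAdd (n + 1) i)) = x0 := by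
      funext t; rfl
    have e2 : (fun j : Fin (n + 1) => g (Fin.natAdd m j)) = y := by
      funext t; rfl
    rw [e1, e2]
  have F6 : Fin.contractNth (Fin.last m) (· * ·) x = x0 := idx7 g
  have F7 : (fun t : Fin n => y t.succ) = y1 := idx8 g
  have F8 : tprod x = tprod x0 * y 0 := by
    rw [tprod_castSucc x]
    congr 1
  have F9 : x 0 = g 0 := rfl
  have F10 : tprod x = g 0 * tprod (fun t => x t.succ) := tprod_succ x
  rw [F4, F5, inhomogeneousCochains.d_hom_apply, inhomogeneousCochains.d_hom_apply,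
    inhomogeneousCochains.d_hom_apply, F1]
  have hsum : (∑ j : Fin (m + n + 1), (-1 : k) ^ ((j : ℕ) + 1) •
      cup φ a b (Fin.contractNth j (· * ·) g)) =
      ∑ i : Fin m, (-1 : k) ^ ((i : ℕ) + 1) •
        φ (a (Fin.contractNth (Fin.castSucc i) (· * ·) x)) (B.ρ (tprod x) (b y1)) +
      ∑ i : Fin (n + 1), (-1 : k) ^ (m + (i : ℕ) + 1) •
        φ (a x0) (B.ρ (tprod x0) (b (Fin.contractNth i (· * ·) y))) := by
    have := Fin.sum_univ_add (a := m) (b := n + 1)
      (fun j : Fin (m + (n + 1)) => (-1 : k) ^ ((j : ℕ) + 1) •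
        cup φ a b (Fin.contractNth j (· * ·) g))
    refine this.trans ?_
    congr 1
    · refine Finset.sum_congr rfl fun i _ => ?_
      rw [F2 i]
      rfl
    · refine Finset.sum_congr rfl fun i _ => ?_
      rw [F3 i]
      rfl
  rw [hsum, Fin.sum_univ_castSucc (fun j : Fin (m + 1) => (-1 : k) ^ ((j : ℕ) + 1) •
      a (Fin.contractNth j (· * ·) x)), F6, F7]
  simp only [map_add, map_sum, map_smul, LinearMap.add_apply, LinearMap.sum_apply,
    LinearMap.smul_apply, Fin.val_castSucc, Fin.val_last, smul_add, Finset.smul_sum]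
  have T1 : C.ρ (g 0) (φ (a fun t => x t.succ) (B.ρ (tprod fun t => x t.succ) (b y1))) =
      φ (A.ρ (x 0) (a fun i => x i.succ)) (B.ρ (tprod x) (b y1)) := by
    rw [← hφ, F9, F10, map_mul]
    rfl
  have T3 : φ (a x0) (B.ρ (tprod x) (b y1)) = φ (a x0) (B.ρ (tprod x0) (B.ρ (y 0) (b y1))) := by
    rw [F8, map_mul]
    rfl
  rw [T1, T3]
  have hS : ∀ i : Fin (n + 1), (-1 : k) ^ (m + (i : ℕ) + 1) •
      φ (a x0) (B.ρ (tprod x0) (b (Fin.contractNth i (· * ·) y))) =
      (-1 : k) ^ m • (-1 : k) ^ ((i : ℕ) + 1) •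
        φ (a x0) (B.ρ (tprod x0) (b (Fin.contractNth i (· * ·) y))) := by
    intro i
    rw [smul_smul, ← pow_add, add_assoc]
  simp only [hS]
  have hW : (-1 : k) ^ (m + 1) • φ (a x0) (B.ρ (tprod x0) (B.ρ (y 0) (b y1))) +
      (-1 : k) ^ m • φ (a x0) (B.ρ (tprod x0) (B.ρ (y 0) (b y1))) = 0 := by
    rw [pow_succ, mul_neg_one, neg_smul, neg_add_cancel]
  have key : ∀ (T S2 S4 X Y : C), X + Y = 0 → T + (S2 + S4) = T + (S2 + X) + (Y + S4) := by
    intro T S2 S4 X Y h
    have : T + (S2 + X) + (Y + S4) = T + (S2 + S4) + (X + Y) := by abel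
    rw [this, h, add_zero]
  exact key _ _ _ _ _ hW

/-- Leibniz rule, as an identity of cochains. -/
theorem d_cup' (φ : A →ₗ[k] B →ₗ[k] C)
    (hφ : ∀ (g : G) (a : A) (b : B), φ (A.ρ g a) (B.ρ g b) = C.ρ g (φ a b)) {m n : ℕ}
    (a : (Fin m → G) → A) (b : (Fin n → G) → B) :
    (inhomogeneousCochains.d C (m + n)).hom (cup φ a b) =
      (fun g : Fin (m + n + 1) → G =>
        cup φ ((inhomogeneousCochains.d A m).hom a) b (fun i => g (Fin.cast (by omega) i))) +
      (-1 : k) ^ m • cup φ a ((inhomogeneousCochains.d B n).hom b) := by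
  funext g
  exact d_cup φ hφ a b g

section Bilinear

variable (φ : A →ₗ[k] B →ₗ[k] C) {m n : ℕ}

theorem cup_add_left (a a' : (Fin m → G) → A) (b : (Fin n → G) → B) :
    cup φ (a + a') b = cup φ a b + cup φ a' b := by
  funext g
  simp [cup_apply]

theorem cup_add_right (a : (Fin m → G) → A) (b b' : (Fin n → G) → B) :
    cup φ a (b + b') = cup φ a b + cup φ a b' := by
  funext g
  simp [cup_apply]

theorem cup_smul_left (c : k) (a : (Fin m → G) → A) (b : (Fin n → G) → B) :
    cup φ (c • a) b = c • cup φ a b := by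
  funext g
  simp [cup_apply]

theorem cup_smul_right (c : k) (a : (Fin m → G) → A) (b : (Fin n → G) → B) :
    cup φ a (c • b) = c • cup φ a b := by
  funext g
  simp [cup_apply]

theorem cup_zero_left (b : (Fin n → G) → B) : cup φ (0 : (Fin m → G) → A) b = 0 := by
  funext g
  simp [cup_apply]

theorem cup_zero_right (a : (Fin m → G) → A) : cup φ a (0 : (Fin n → G) → B) = 0 := by
  funext g
  simp [cup_apply]

theorem cup_neg_left (a : (Fin m → G) → A) (b : (Fin n → G) → B) :
    cup φ (-a) b = -cup φ a b := by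
  funext g
  simp [cup_apply]

theorem cup_neg_right (a : (Fin m → G) → A) (b : (Fin n → G) → B) :
    cup φ a (-b) = -cup φ a b := by
  funext g
  simp [cup_apply]

theorem cup_sub_left (a a' : (Fin m → G) → A) (b : (Fin n → G) → B) :
    cup φ (a - a') b = cup φ a b - cup φ a' b := by
  funext g
  simp [cup_apply]

theorem cup_sub_right (a : (Fin m → G) → A) (b b' : (Fin n → G) → B) :
    cup φ a (b - b') = cup φ a b - cup φ a b' := by
  funext g
  simp [cup_apply]

/-- The cup product as a bilinear map on cochains. -/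
def cupLin (m n : ℕ) :
    ((Fin m → G) → A) →ₗ[k] ((Fin n → G) → B) →ₗ[k] ((Fin (m + n) → G) → C) :=
  LinearMap.mk₂ k (cup φ) (cup_add_left φ) (cup_smul_left φ) (cup_add_right φ) (cup_smul_right φ)

@[simp] theorem cupLin_apply (a : (Fin m → G) → A) (b : (Fin n → G) → B) :
    cupLin φ m n a b = cup φ a b := rfl

end Bilinear

section Consequences

variable (φ : A →ₗ[k] B →ₗ[k] C)
  (hφ : ∀ (g : G) (a : A) (b : B), φ (A.ρ g a) (B.ρ g b) = C.ρ g (φ a b)) {m n : ℕ}

include hφ

/-- The cup product of two cocycles is a cocycle. -/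
theorem d_cup_eq_zero (a : (Fin m → G) → A) (b : (Fin n → G) → B)
    (ha : (inhomogeneousCochains.d A m).hom a = 0) (hb : (inhomogeneousCochains.d B n).hom b = 0) :
    (inhomogeneousCochains.d C (m + n)).hom (cup φ a b) = 0 := by
  rw [d_cup' φ hφ, ha, hb, cup_zero_right, smul_zero, add_zero]
  funext g
  rw [cup_zero_left]
  rfl

/-- (coboundary) ∪ (cocycle) is a coboundary. -/
theorem d_cup_of_right_cocycle (a : (Fin m → G) → A) (b : (Fin n → G) → B)
    (hb : (inhomogeneousCochains.d B n).hom b = 0) (g : Fin (m + n + 1) → G) :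
    (inhomogeneousCochains.d C (m + n)).hom (cup φ a b) g =
      cup φ ((inhomogeneousCochains.d A m).hom a) b (fun i => g (Fin.cast (by omega) i)) := by
  rw [d_cup φ hφ, hb, cup_zero_right]
  simp

/-- (cocycle) ∪ (coboundary) is a coboundary (up to sign). -/
theorem d_cup_of_left_cocycle (a : (Fin m → G) → A) (b : (Fin n → G) → B)
    (ha : (inhomogeneousCochains.d A m).hom a = 0) :
    (inhomogeneousCochains.d C (m + n)).hom (cup φ a b) =
      (-1 : k) ^ m • cup φ a ((inhomogeneousCochains.d B n).hom b) := by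
  rw [d_cup' φ hφ, ha]
  have : (fun g : Fin (m + n + 1) → G =>
      cup φ (0 : (Fin (m + 1) → G) → A) b (fun i => g (Fin.cast (by omega) i))) = 0 := by
    funext g
    rw [cup_zero_left]
    rfl
  rw [this, zero_add]

end Consequences

end Cup

section Naturality

variable {k : Type u} [CommRing k] {G G' : Type u} [Group G] [Group G']
  {A B C : Rep.{v} k G} {A' B' C' : Rep.{v} k G'}

/-- Naturality of the cup product in the group and in the coefficient modules. Only the
equivariance of the middle map `β` is needed. -/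
theorem cup_natural (f : G' →* G) (φ : A →ₗ[k] B →ₗ[k] C) (φ' : A' →ₗ[k] B' →ₗ[k] C')
    (α : A →ₗ[k] A') (β : B →ₗ[k] B') (γ : C →ₗ[k] C')
    (hβ : ∀ (g : G') (w : B), β (B.ρ (f g) w) = B'.ρ g (β w))
    (hγ : ∀ (a : A) (b : B), γ (φ a b) = φ' (α a) (β b)) {m n : ℕ}
    (a : (Fin m → G) → A) (b : (Fin n → G) → B) (g : Fin (m + n) → G') :
    γ (cup φ a b (fun i => f (g i))) =
      cup φ' (fun x => α (a (fun i => f (x i)))) (fun y => β (b (fun j => f (y j)))) g := by
  simp only [cup_apply]
  rw [hγ, ← map_tprod f, hβ]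

end Naturality

section Invariance

variable {G : Type*} [Group G]

/-- Multiplying all entries of a tuple on the right by elements of a normal subgroup changes the
ordered product by an element of that subgroup. -/
theorem exists_tprod_mul_eq (U : Subgroup G) [U.Normal] {n : ℕ} (g s : Fin n → G)
    (hs : ∀ i, s i ∈ U) : ∃ u ∈ U, tprod (fun i => g i * s i) = tprod g * u := by
  induction n with
  | zero => exact ⟨1, U.one_mem, by simp⟩
  | succ n ih =>
    obtain ⟨u', hu', h'⟩ := ih (fun i => g i.succ) (fun i => s i.succ) (fun i => hs _)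
    refine ⟨(tprod fun i => g i.succ)⁻¹ * s 0 * (tprod fun i => g i.succ) * u', ?_, ?_⟩
    · refine U.mul_mem ?_ hu'
      have := Subgroup.Normal.conj_mem ‹U.Normal› (s 0) (hs 0) (tprod fun i => g i.succ)⁻¹
      simpa using this
    · rw [tprod_succ, h', tprod_succ g]
      group

end Invariance

section CupInvariance

variable {k G : Type u} [CommRing k] [Group G] {A B C : Rep.{v} k G}

/-- If `a` and `b` are invariant under right translation of their arguments by a normal subgroup
`U` acting trivially on `B`, then so is `a ∪ b`. -/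
theorem cup_invariant (φ : A →ₗ[k] B →ₗ[k] C) (U : Subgroup G) [U.Normal]
    (hB : ∀ u ∈ U, ∀ w : B, B.ρ u w = w) {m n : ℕ}
    (a : (Fin m → G) → A) (b : (Fin n → G) → B)
    (ha : ∀ g s : Fin m → G, (∀ i, s i ∈ U) → a (fun i => g i * s i) = a g)
    (hb : ∀ g s : Fin n → G, (∀ i, s i ∈ U) → b (fun i => g i * s i) = b g)
    (g s : Fin (m + n) → G) (hs : ∀ i, s i ∈ U) :
    cup φ a b (fun i => g i * s i) = cup φ a b g := by
  simp only [cup_apply]
  rw [ha (fun i => g (Fin.castAdd n i)) (fun i => s (Fin.castAdd n i)) (fun i => hs _),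
    hb (fun i => g (Fin.natAdd m i)) (fun i => s (Fin.natAdd m i)) (fun i => hs _)]
  obtain ⟨u, hu, h⟩ := exists_tprod_mul_eq U (fun i => g (Fin.castAdd n i))
    (fun i => s (Fin.castAdd n i)) (fun i => hs _)
  rw [h, map_mul]
  show φ _ (B.ρ _ (B.ρ u _)) = _
  rw [hB u hu]

/-- The differential preserves invariance under right translation by a normal subgroup acting
trivially on the coefficients. -/
theorem d_invariant (U : Subgroup G) [U.Normal]
    (hA : ∀ u ∈ U, ∀ w : A, A.ρ u w = w) {n : ℕ} (a : (Fin n → G) → A)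
    (ha : ∀ g s : Fin n → G, (∀ i, s i ∈ U) → a (fun i => g i * s i) = a g)
    (g s : Fin (n + 1) → G) (hs : ∀ i, s i ∈ U) :
    (inhomogeneousCochains.d A n).hom a (fun i => g i * s i) =
      (inhomogeneousCochains.d A n).hom a g := by
  rw [inhomogeneousCochains.d_hom_apply, inhomogeneousCochains.d_hom_apply]
  congr 1
  · rw [ha (fun i => g i.succ) (fun i => s i.succ) (fun i => hs _), map_mul]
    show A.ρ _ (A.ρ (s 0) _) = _
    rw [hA _ (hs 0)]
  · refine Finset.sum_congr rfl fun j _ => ?_
    congr 1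
    -- the contracted tuple of `g * s` is the contracted tuple of `g` times elements of `U`
    have key : ∃ s' : Fin n → G, (∀ i, s' i ∈ U) ∧
        Fin.contractNth j (· * ·) (fun i => g i * s i) =
          fun i => Fin.contractNth j (· * ·) g i * s' i := by
      refine ⟨fun i => (Fin.contractNth j (· * ·) g i)⁻¹ *
        Fin.contractNth j (· * ·) (fun i => g i * s i) i, fun i => ?_, ?_⟩
      · simp only [Fin.contractNth]
        split_ifs with h1 h2
        · simpa using hs _
        · have h3 : (g i.castSucc * g i.succ)⁻¹ * (g i.castSucc * s i.castSucc * (g i.succ * s i.succ))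
              = ((g i.succ)⁻¹ * s i.castSucc * (g i.succ)⁻¹⁻¹) * s i.succ := by group
          rw [h3]
          exact U.mul_mem (Subgroup.Normal.conj_mem ‹U.Normal› _ (hs _) _) (hs _)
        · simpa using hs _
      · funext i
        simp
    obtain ⟨s', hs', h⟩ := key
    rw [h, ha _ s' hs']

end CupInvariance

end Fermat.Agent.S55.Cup
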