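/-
Cup products on group cohomology and on level cohomology (all degrees), induced by the
cochain-level cup product of `Cup.lean`.
-/
import Fermat.Agent.S55.Cup
import Fermat.Agent.S55.CochainTools
import Fermat.Agent.S55.LevelFunct

set_option autoImplicit false
set_option linter.unusedSectionVars false

namespace Fermat.Agent.S55.Cup

open CategoryTheory groupCohomology Fermat.Agent.S55.Level Fermat.Agent.S55.CochainTools

universe u

variable {k G : Type u} [CommRing k] [Group G] {A B C : Rep.{u} k G}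

section FullComplex

/-- The differential `d i j` of the full complex in terms of the explicit differential. -/
theorem d_full_apply (A : Rep.{u} k G) {i j : ℕ} (h : i + 1 = j) (f : (Fin i → G) → A)
    (g : Fin j → G) :
    ((inhomogeneousCochains A).d i j).hom f g =
      (inhomogeneousCochains.d A i).hom f (fun t => g (Fin.cast h t)) := by
  subst h
  rw [inhomogeneousCochains.d_def]
  rfl

theorem mem_Z_full_iff (A : Rep.{u} k G) {n : ℕ} (f : (Fin n → G) → A) :
    f ∈ Z (inhomogeneousCochains A) n ↔ (inhomogeneousCochains.d A n).hom f = 0 := by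
  rw [mem_Z_iff, inhomogeneousCochains.d_def]

variable (φ : A →ₗ[k] B →ₗ[k] C)
  (hφ : ∀ (g : G) (a : A) (b : B), φ (A.ρ g a) (B.ρ g b) = C.ρ g (φ a b))

/-- The cup product as a bilinear map between terms of the full cochain complexes. -/
def cupX (m n : ℕ) : (inhomogeneousCochains A).X m →ₗ[k] (inhomogeneousCochains B).X n →ₗ[k]
    (inhomogeneousCochains C).X (m + n) :=
  cupLin φ m n

include hφ

theorem cupX_mem_Z {m n : ℕ} (a : (inhomogeneousCochains A).X m)
    (ha : a ∈ Z (inhomogeneousCochains A) m) (b : (inhomogeneousCochains B).X n)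
    (hb : b ∈ Z (inhomogeneousCochains B) n) :
    cupX φ m n a b ∈ Z (inhomogeneousCochains C) (m + n) := by
  rw [mem_Z_full_iff] at ha hb ⊢
  exact d_cup_eq_zero φ hφ a b ha hb

theorem d_full_cup_left {m n : ℕ} (x : (Fin m → G) → A) (b : (Fin n → G) → B)
    (hb : (inhomogeneousCochains.d B n).hom b = 0) :
    ((inhomogeneousCochains C).d (m + n) (m + 1 + n)).hom (cup φ x b) =
      cup φ ((inhomogeneousCochains.d A m).hom x) b := by
  funext g
  rw [d_full_apply C (by omega : m + n + 1 = m + 1 + n), d_cup_of_right_cocycle φ hφ x b hb]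
  rfl

theorem d_full_cup_right {m n : ℕ} (a : (Fin m → G) → A) (y : (Fin n → G) → B)
    (ha : (inhomogeneousCochains.d A m).hom a = 0) :
    ((inhomogeneousCochains C).d (m + n) (m + (n + 1))).hom ((-1 : k) ^ m • cup φ a y) =
      cup φ a ((inhomogeneousCochains.d B n).hom y) := by
  rw [map_smul]
  funext g
  rw [Pi.smul_apply, d_full_apply C (i := m + n) (j := m + (n + 1)) rfl,
    d_cup_of_left_cocycle φ hφ a y ha]
  show (-1 : k) ^ m • ((-1 : k) ^ m • cup φ a ((inhomogeneousCochains.d B n).hom y) g) = _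
  rw [smul_smul, ← mul_pow]
  simp

theorem cupX_mem_B_left {m n : ℕ} (a : Z (inhomogeneousCochains A) m)
    (ha : a ∈ CochainTools.B (inhomogeneousCochains A) m) (b : Z (inhomogeneousCochains B) n) :
    restrictZ (cupX φ m n) (fun a ha b hb => cupX_mem_Z φ hφ a ha b hb) a b ∈
      CochainTools.B (inhomogeneousCochains C) (m + n) := by
  cases m with
  | zero =>
    have := eq_zero_of_mem_B_zero _ a ha
    subst this
    simp
  | succ m =>
    obtain ⟨x, hx⟩ := exists_of_mem_B _ rfl a ha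
    have hb := (mem_Z_full_iff B _).1 b.2
    refine mem_B_of_d_eq _ (by omega : m + n + 1 = m + 1 + n) (cup φ x b.1) _ ?_
    rw [d_full_cup_left φ hφ x b.1 hb, coe_restrictZ, ← hx, inhomogeneousCochains.d_def]
    rfl

theorem cupX_mem_B_right {m n : ℕ} (a : Z (inhomogeneousCochains A) m)
    (b : Z (inhomogeneousCochains B) n) (hb : b ∈ CochainTools.B (inhomogeneousCochains B) n) :
    restrictZ (cupX φ m n) (fun a ha b hb => cupX_mem_Z φ hφ a ha b hb) a b ∈
      CochainTools.B (inhomogeneousCochains C) (m + n) := by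
  cases n with
  | zero =>
    have := eq_zero_of_mem_B_zero _ b hb
    subst this
    simp
  | succ n =>
    obtain ⟨y, hy⟩ := exists_of_mem_B _ rfl b hb
    have ha := (mem_Z_full_iff A _).1 a.2
    refine mem_B_of_d_eq _ (rfl : m + n + 1 = m + (n + 1)) ((-1 : k) ^ m • cup φ a.1 y) _ ?_
    refine (d_full_cup_right φ hφ a.1 y ha).trans ?_
    rw [coe_restrictZ, ← hy, inhomogeneousCochains.d_def]
    rfl

/-- The cup product on group cohomology, in all degrees. -/
noncomputable def cupH (m n : ℕ) :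
    groupCohomology A m →ₗ[k] groupCohomology B n →ₗ[k] groupCohomology C (m + n) :=
  pairH (K := inhomogeneousCochains A) (L := inhomogeneousCochains B)
    (M := inhomogeneousCochains C) (cupX φ m n)
    (fun a ha b hb => cupX_mem_Z φ hφ a ha b hb)
    (fun a ha b => cupX_mem_B_left φ hφ a ha b)
    (fun a b hb => cupX_mem_B_right φ hφ a b hb)

theorem cupH_cls {m n : ℕ} (a : Z (inhomogeneousCochains A) m)
    (b : Z (inhomogeneousCochains B) n) :
    cupH φ hφ m n (cls _ m a) (cls _ n b) =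
      cls (inhomogeneousCochains C) (m + n)
        ⟨cup φ a.1 b.1, cupX_mem_Z φ hφ a.1 a.2 b.1 b.2⟩ :=
  pairH_cls _ _ _ _ a b

end FullComplex

section LevelCochains

variable (φ : A →ₗ[k] B →ₗ[k] C)

/-- Right invariance of a cup product under a normal subgroup fixing the values of the
second factor. -/
theorem cup_isRightInv (U : Subgroup G) [U.Normal] {m n : ℕ}
    (a : (Fin m → G) → A) (b : (Fin n → G) → B) (ha : IsRightInv U a) (hb : IsRightInv U b)
    (hfix : ∀ y, ∀ u ∈ U, B.ρ u (b y) = b y) : IsRightInv U (cup φ a b) := by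
  intro g s hs
  simp only [cup_apply]
  have e1 : (fun i => (g * s) (Fin.castAdd n i)) =
      (fun i => g (Fin.castAdd n i)) * fun i => s (Fin.castAdd n i) := rfl
  have e2 : (fun j => (g * s) (Fin.natAdd m j)) =
      (fun j => g (Fin.natAdd m j)) * fun j => s (Fin.natAdd m j) := rfl
  rw [e1, e2, ha _ _ (fun i => hs _), hb _ _ (fun i => hs _)]
  obtain ⟨u, hu, h⟩ := exists_tprod_mul_eq U (fun i => g (Fin.castAdd n i))
    (fun i => s (Fin.castAdd n i)) (fun i => hs _)
  have e3 : ((fun i => g (Fin.castAdd n i)) * fun i => s (Fin.castAdd n i)) =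
      fun i => g (Fin.castAdd n i) * s (Fin.castAdd n i) := rfl
  rw [e3, h, map_mul]
  show φ _ (B.ρ _ (B.ρ u _)) = _
  rw [hfix _ u hu]

variable {𝒰 : LevelStructure G}

/-- The cup product of level cochains is a level cochain (second factor discrete). -/
theorem cup_mem_levelCochains [IsDiscrete 𝒰 B] {m n : ℕ}
    {a : (Fin m → G) → A} {b : (Fin n → G) → B}
    (ha : a ∈ levelCochains 𝒰 A m) (hb : b ∈ levelCochains 𝒰 B n) :
    cup φ a b ∈ levelCochains 𝒰 C (m + n) := by
  obtain ⟨U, hU, hUa⟩ := ha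
  obtain ⟨W, hW, hWb, hfix⟩ := IsLevel.exists_fix (𝒰 := 𝒰) hb
  obtain ⟨V, hV, hVUW⟩ := 𝒰.directed U hU W hW
  have := 𝒰.normal V hV
  exact ⟨V, hV, cup_isRightInv φ V a b (hUa.mono (hVUW.trans inf_le_left))
    (hWb.mono (hVUW.trans inf_le_right))
    (fun y u hu => hfix y u ((hVUW.trans inf_le_right) hu))⟩

end LevelCochains

section LevelComplex

variable (𝒰 : LevelStructure G) [IsDiscrete 𝒰 A] [IsDiscrete 𝒰 B] [IsDiscrete 𝒰 C]
  (φ : A →ₗ[k] B →ₗ[k] C)
  (hφ : ∀ (g : G) (a : A) (b : B), φ (A.ρ g a) (B.ρ g b) = C.ρ g (φ a b))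

/-- The cup product as a bilinear map between terms of the level complexes. -/
noncomputable def levelCupX (m n : ℕ) : (levelComplex 𝒰 A).X m →ₗ[k] (levelComplex 𝒰 B).X n →ₗ[k]
    (levelComplex 𝒰 C).X (m + n) :=
  LinearMap.mk₂ k
    (fun (a : levelCochains 𝒰 A m) (b : levelCochains 𝒰 B n) =>
      (⟨cup φ a.1 b.1, cup_mem_levelCochains φ a.2 b.2⟩ : levelCochains 𝒰 C (m + n)))
    (fun a a' b => Subtype.ext (cup_add_left φ a.1 a'.1 b.1))
    (fun c a b => Subtype.ext (cup_smul_left φ c a.1 b.1))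
    (fun a b b' => Subtype.ext (cup_add_right φ a.1 b.1 b'.1))
    (fun c a b => Subtype.ext (cup_smul_right φ c a.1 b.1))

theorem coe_levelCupX {m n : ℕ} (a : levelCochains 𝒰 A m) (b : levelCochains 𝒰 B n) :
    ((show levelCochains 𝒰 C (m + n) from levelCupX 𝒰 φ m n a b) : (Fin (m + n) → G) → C) =
      cup φ a.1 b.1 := rfl

/-- The differential of the level complex is the restriction of that of the full complex. -/
theorem coe_level_d (A : Rep.{u} k G) [IsDiscrete 𝒰 A] (i j : ℕ) (f : levelCochains 𝒰 A i) :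
    ((show levelCochains 𝒰 A j from ((levelComplex 𝒰 A).d i j).hom f) : (Fin j → G) → A) =
      ((inhomogeneousCochains A).d i j).hom f.1 := by
  have := congrArg (fun ψ => ψ.hom f) ((levelι 𝒰 A).comm i j)
  exact this.symm

theorem mem_Z_level_iff (A : Rep.{u} k G) [IsDiscrete 𝒰 A] {n : ℕ} (f : levelCochains 𝒰 A n) :
    (show (levelComplex 𝒰 A).X n from f) ∈ Z (levelComplex 𝒰 A) n ↔
      (inhomogeneousCochains.d A n).hom f.1 = 0 := by
  rw [mem_Z_iff]
  constructor
  · intro h
    have := coe_level_d 𝒰 A n (n + 1) f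
    rw [inhomogeneousCochains.d_def] at this
    rw [← this]
    exact congrArg Subtype.val h
  · intro h
    apply Subtype.ext
    have := coe_level_d 𝒰 A n (n + 1) f
    rw [inhomogeneousCochains.d_def] at this
    exact this.trans h

include hφ

theorem levelCupX_mem_Z {m n : ℕ} (a : (levelComplex 𝒰 A).X m)
    (ha : a ∈ Z (levelComplex 𝒰 A) m) (b : (levelComplex 𝒰 B).X n)
    (hb : b ∈ Z (levelComplex 𝒰 B) n) :
    levelCupX 𝒰 φ m n a b ∈ Z (levelComplex 𝒰 C) (m + n) := by
  have ha' := (mem_Z_level_iff 𝒰 A (show levelCochains 𝒰 A m from a)).1 ha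
  have hb' := (mem_Z_level_iff 𝒰 B (show levelCochains 𝒰 B n from b)).1 hb
  exact (mem_Z_level_iff 𝒰 C (show levelCochains 𝒰 C (m + n) from levelCupX 𝒰 φ m n a b)).2
    (d_cup_eq_zero φ hφ _ _ ha' hb')

theorem levelCupX_mem_B_left {m n : ℕ} (a : Z (levelComplex 𝒰 A) m)
    (ha : a ∈ CochainTools.B (levelComplex 𝒰 A) m) (b : Z (levelComplex 𝒰 B) n) :
    restrictZ (levelCupX 𝒰 φ m n) (fun a ha b hb => levelCupX_mem_Z 𝒰 φ hφ a ha b hb) a b ∈
      CochainTools.B (levelComplex 𝒰 C) (m + n) := by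
  cases m with
  | zero =>
    have := eq_zero_of_mem_B_zero _ a ha
    subst this
    simp
  | succ m =>
    obtain ⟨x, hx⟩ := exists_of_mem_B _ rfl a ha
    have hb' := (mem_Z_level_iff 𝒰 B (show levelCochains 𝒰 B n from b.1)).1 b.2
    refine mem_B_of_d_eq _ (by omega : m + n + 1 = m + 1 + n) (levelCupX 𝒰 φ m n x b.1) _ ?_
    apply Subtype.ext
    refine (coe_level_d 𝒰 C _ _ _).trans ?_
    refine (d_full_cup_left φ hφ _ _ hb').trans ?_
    rw [coe_restrictZ, ← hx]
    show _ = cup φ _ _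
    congr 1
    have := coe_level_d 𝒰 A m (m + 1) x
    rw [inhomogeneousCochains.d_def] at this
    exact this.symm

theorem levelCupX_mem_B_right {m n : ℕ} (a : Z (levelComplex 𝒰 A) m)
    (b : Z (levelComplex 𝒰 B) n) (hb : b ∈ CochainTools.B (levelComplex 𝒰 B) n) :
    restrictZ (levelCupX 𝒰 φ m n) (fun a ha b hb => levelCupX_mem_Z 𝒰 φ hφ a ha b hb) a b ∈
      CochainTools.B (levelComplex 𝒰 C) (m + n) := by
  cases n with
  | zero =>
    have := eq_zero_of_mem_B_zero _ b hb
    subst this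
    simp
  | succ n =>
    obtain ⟨y, hy⟩ := exists_of_mem_B _ rfl b hb
    have ha' := (mem_Z_level_iff 𝒰 A (show levelCochains 𝒰 A m from a.1)).1 a.2
    refine mem_B_of_d_eq _ (rfl : m + n + 1 = m + (n + 1))
      ((-1 : k) ^ m • levelCupX 𝒰 φ m n a.1 y) _ ?_
    apply Subtype.ext
    refine (coe_level_d 𝒰 C _ _ _).trans ?_
    refine (d_full_cup_right φ hφ _ _ ha').trans ?_
    rw [coe_restrictZ, ← hy]
    show _ = cup φ _ _
    congr 1
    have := coe_level_d 𝒰 B n (n + 1) y
    rw [inhomogeneousCochains.d_def] at this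
    exact this.symm

/-- The cup product on level cohomology, in all degrees. -/
noncomputable def levelCupH (m n : ℕ) :
    levelCohomology 𝒰 A m →ₗ[k] levelCohomology 𝒰 B n →ₗ[k] levelCohomology 𝒰 C (m + n) :=
  pairH (K := levelComplex 𝒰 A) (L := levelComplex 𝒰 B) (M := levelComplex 𝒰 C)
    (levelCupX 𝒰 φ m n)
    (fun a ha b hb => levelCupX_mem_Z 𝒰 φ hφ a ha b hb)
    (fun a ha b => levelCupX_mem_B_left 𝒰 φ hφ a ha b)
    (fun a b hb => levelCupX_mem_B_right 𝒰 φ hφ a b hb)

theorem levelCupH_cls {m n : ℕ} (a : Z (levelComplex 𝒰 A) m) (b : Z (levelComplex 𝒰 B) n) :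
    levelCupH 𝒰 φ hφ m n (cls _ m a) (cls _ n b) =
      cls (levelComplex 𝒰 C) (m + n)
        ⟨levelCupX 𝒰 φ m n a.1 b.1, levelCupX_mem_Z 𝒰 φ hφ a.1 a.2 b.1 b.2⟩ :=
  pairH_cls _ _ _ _ a b

end LevelComplex

end Fermat.Agent.S55.Cup
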