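/-
Naturality of the cup products of `CupLevel.lean` with respect to change of group and of
coefficients (restriction, inflation, coefficient maps).
-/
import Fermat.Agent.S55.CupLevel

set_option autoImplicit false
set_option linter.unusedSectionVars false

namespace Fermat.Agent.S55.Cup

open CategoryTheory groupCohomology Fermat.Agent.S55.Level Fermat.Agent.S55.CochainTools

universe u

variable {k G H : Type u} [CommRing k] [Group G] [Group H]
  {A B C : Rep.{u} k G} {A' B' C' : Rep.{u} k H}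

section Cochains

variable (f : H →* G) (α : Rep.res f A ⟶ A') (β : Rep.res f B ⟶ B') (γ : Rep.res f C ⟶ C')
  (φ : A →ₗ[k] B →ₗ[k] C) (φ' : A' →ₗ[k] B' →ₗ[k] C')
  (hγ : ∀ (a : A) (b : B), γ.hom (φ a b) = φ' (α.hom a) (β.hom b))

include hγ

/-- Mathlib's `cochainsMap` is multiplicative for the cup product. -/
theorem cochainsMap_cup {m n : ℕ} (a : (Fin m → G) → A) (b : (Fin n → G) → B) :
    ((cochainsMap f γ).f (m + n)).hom (cup φ a b) =
      cup φ' (((cochainsMap f α).f m).hom a) (((cochainsMap f β).f n).hom b) := by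
  funext g
  exact cup_natural f φ φ' α.hom.toLinearMap β.hom.toLinearMap γ.hom.toLinearMap
    (fun g w => Rep.hom_comm_apply β g w) hγ a b g

end Cochains

section Cohomology

variable (f : H →* G) (α : Rep.res f A ⟶ A') (β : Rep.res f B ⟶ B') (γ : Rep.res f C ⟶ C')
  (φ : A →ₗ[k] B →ₗ[k] C) (φ' : A' →ₗ[k] B' →ₗ[k] C')
  (hφ : ∀ (g : G) (a : A) (b : B), φ (A.ρ g a) (B.ρ g b) = C.ρ g (φ a b))
  (hφ' : ∀ (g : H) (a : A') (b : B'), φ' (A'.ρ g a) (B'.ρ g b) = C'.ρ g (φ' a b))
  (hγ : ∀ (a : A) (b : B), γ.hom (φ a b) = φ' (α.hom a) (β.hom b))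

include hγ

/-- Naturality of the cup product on group cohomology. -/
theorem map_cupH {m n : ℕ} (x : groupCohomology A m) (y : groupCohomology B n) :
    (HomologicalComplex.homologyMap (cochainsMap f γ) (m + n)).hom (cupH φ hφ m n x y) =
      cupH φ' hφ' m n ((HomologicalComplex.homologyMap (cochainsMap f α) m).hom x)
        ((HomologicalComplex.homologyMap (cochainsMap f β) n).hom y) := by
  obtain ⟨a, rfl⟩ := cls_surjective (inhomogeneousCochains A) m x
  obtain ⟨b, rfl⟩ := cls_surjective (inhomogeneousCochains B) n y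
  rw [cupH_cls, homologyMap_cls, homologyMap_cls, homologyMap_cls, cupH_cls]
  congr 1
  apply Subtype.ext
  exact cochainsMap_cup f α β γ φ φ' hγ a.1 b.1

variable {𝒰 : LevelStructure G} {𝒱 : LevelStructure H} (hf : 𝒱.Refines 𝒰 f)
  [IsDiscrete 𝒰 A] [IsDiscrete 𝒰 B] [IsDiscrete 𝒰 C]
  [IsDiscrete 𝒱 A'] [IsDiscrete 𝒱 B'] [IsDiscrete 𝒱 C']

/-- `levelCochainsMap` is multiplicative for the cup product of level cochains. -/
theorem levelCochainsMap_levelCupX {m n : ℕ} (a : levelCochains 𝒰 A m)
    (b : levelCochains 𝒰 B n) :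
    ((levelCochainsMap f hf γ).f (m + n)).hom (levelCupX 𝒰 φ m n a b) =
      levelCupX 𝒱 φ' m n (((levelCochainsMap f hf α).f m).hom a)
        (((levelCochainsMap f hf β).f n).hom b) := by
  apply Subtype.ext
  exact cochainsMap_cup f α β γ φ φ' hγ a.1 b.1

omit hγ in
/-- `levelCohomologyMap` on classes. -/
theorem levelCohomologyMap_cls {n : ℕ} (z : Z (levelComplex 𝒰 A) n) :
    (levelCohomologyMap f hf α n).hom (cls (levelComplex 𝒰 A) n z) =
      cls (levelComplex 𝒱 A') n (mapZ (levelCochainsMap f hf α) n z) :=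
  homologyMap_cls (levelCochainsMap f hf α) z

/-- Naturality of the cup product on level cohomology. -/
theorem levelCohomologyMap_levelCupH {m n : ℕ} (x : levelCohomology 𝒰 A m)
    (y : levelCohomology 𝒰 B n) :
    (levelCohomologyMap f hf γ (m + n)).hom (levelCupH 𝒰 φ hφ m n x y) =
      levelCupH 𝒱 φ' hφ' m n ((levelCohomologyMap f hf α m).hom x)
        ((levelCohomologyMap f hf β n).hom y) := by
  obtain ⟨a, rfl⟩ := cls_surjective (levelComplex 𝒰 A) m x
  obtain ⟨b, rfl⟩ := cls_surjective (levelComplex 𝒰 B) n y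
  rw [levelCupH_cls, levelCohomologyMap_cls, levelCohomologyMap_cls, levelCohomologyMap_cls,
    levelCupH_cls]
  congr 1
  apply Subtype.ext
  exact levelCochainsMap_levelCupX f α β γ φ φ' hγ hf a.1 b.1

end Cohomology

section Forget

variable {𝒰 : LevelStructure G} [IsDiscrete 𝒰 A] [IsDiscrete 𝒰 B] [IsDiscrete 𝒰 C]
  (φ : A →ₗ[k] B →ₗ[k] C)
  (hφ : ∀ (g : G) (a : A) (b : B), φ (A.ρ g a) (B.ρ g b) = C.ρ g (φ a b))

/-- The comparison map from level cohomology to abstract group cohomology on classes. -/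
theorem levelCohomologyToGroupCohomology_cls {n : ℕ} (z : Z (levelComplex 𝒰 A) n) :
    (levelCohomologyToGroupCohomology 𝒰 A n).hom (cls (levelComplex 𝒰 A) n z) =
      cls (inhomogeneousCochains A) n (mapZ (levelι 𝒰 A) n z) :=
  homologyMap_cls (levelι 𝒰 A) z

/-- The comparison map from level cohomology to abstract group cohomology is multiplicative. -/
theorem levelCohomologyToGroupCohomology_levelCupH {m n : ℕ} (x : levelCohomology 𝒰 A m)
    (y : levelCohomology 𝒰 B n) :
    (levelCohomologyToGroupCohomology 𝒰 C (m + n)).hom (levelCupH 𝒰 φ hφ m n x y) =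
      cupH φ hφ m n ((levelCohomologyToGroupCohomology 𝒰 A m).hom x)
        ((levelCohomologyToGroupCohomology 𝒰 B n).hom y) := by
  obtain ⟨a, rfl⟩ := cls_surjective (levelComplex 𝒰 A) m x
  obtain ⟨b, rfl⟩ := cls_surjective (levelComplex 𝒰 B) n y
  rw [levelCupH_cls, levelCohomologyToGroupCohomology_cls, levelCohomologyToGroupCohomology_cls,
    levelCohomologyToGroupCohomology_cls, cupH_cls]
  congr 1

end Forget

end Fermat.Agent.S55.Cup
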