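/-
S55 / GC7 + LOC8 (helper22): the cup product of level cochains as a `CochainPairing` in the sense
of helper9's `Cone.lean`, so that the generic results there (`pairH_natural`, `pairH_adjoint`,
`pairH_δ`, fibre pairings) apply to it.
-/
import Mathlib
import Fermat.Agent.S55.CupNat
import Fermat.Agent.S55.Cone

set_option autoImplicit false
set_option linter.unusedSectionVars false

namespace Fermat.Agent.S55.Cup

open CategoryTheory groupCohomology Fermat.Agent.S55.Level Fermat.Agent.S55.CochainTools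
  Fermat.Agent.S55.Cone

universe u

variable {k G : Type u} [CommRing k] [Group G] {A B C : Rep.{u} k G}
  (𝒰 : LevelStructure G) [IsDiscrete 𝒰 A] [IsDiscrete 𝒰 B] [IsDiscrete 𝒰 C]
  (φ : A →ₗ[k] B →ₗ[k] C)
  (hφ : ∀ (g : G) (a : A) (b : B), φ (A.ρ g a) (B.ρ g b) = C.ρ g (φ a b))

/-- The cup product `Cᵐ(A) × Cⁿ(B) → Cᵖ(C)` for `m + n = p`. -/
noncomputable def levelCupμ (m n p : ℕ) (h : m + n = p) :
    (levelComplex 𝒰 A).X m →ₗ[k] (levelComplex 𝒰 B).X n →ₗ[k] (levelComplex 𝒰 C).X p :=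
  h ▸ levelCupX 𝒰 φ m n

theorem levelCupμ_rfl (m n : ℕ) : levelCupμ 𝒰 φ m n (m + n) rfl = levelCupX 𝒰 φ m n := rfl

theorem coe_levelCupμ {m n p : ℕ} (h : m + n = p) (a : levelCochains 𝒰 A m)
    (b : levelCochains 𝒰 B n) :
    ((show levelCochains 𝒰 C p from levelCupμ 𝒰 φ m n p h a b) : (Fin p → G) → C) =
      fun g => cup φ a.1 b.1 (fun i => g (Fin.cast h i)) := by
  subst h
  rfl

include hφ in
theorem levelCupμ_leibniz (m n p : ℕ) (h : m + n = p) (a : (levelComplex 𝒰 A).X m)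
    (b : (levelComplex 𝒰 B).X n) :
    ((levelComplex 𝒰 C).d p (p + 1)).hom (levelCupμ 𝒰 φ m n p h a b) =
      levelCupμ 𝒰 φ (m + 1) n (p + 1) (by omega) (((levelComplex 𝒰 A).d m (m + 1)).hom a) b +
        (-1 : k) ^ m • levelCupμ 𝒰 φ m (n + 1) (p + 1) (by omega) a
          (((levelComplex 𝒰 B).d n (n + 1)).hom b) := by
  subst h
  apply Subtype.ext
  refine (coe_level_d 𝒰 C _ _ _).trans ?_
  rw [inhomogeneousCochains.d_def]
  funext g
  refine (d_cup φ hφ (show levelCochains 𝒰 A m from a).1 (show levelCochains 𝒰 B n from b).1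
    g).trans ?_
  have e1 := congrFun (coe_levelCupμ 𝒰 φ (by omega : m + 1 + n = m + n + 1)
    (show levelCochains 𝒰 A (m + 1) from ((levelComplex 𝒰 A).d m (m + 1)).hom a)
    (show levelCochains 𝒰 B n from b)) g
  have e2 := congrFun (coe_levelCupμ 𝒰 φ (rfl : m + (n + 1) = m + n + 1)
    (show levelCochains 𝒰 A m from a)
    (show levelCochains 𝒰 B (n + 1) from ((levelComplex 𝒰 B).d n (n + 1)).hom b)) g
  have d1 := coe_level_d 𝒰 A m (m + 1) (show levelCochains 𝒰 A m from a)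
  have d2 := coe_level_d 𝒰 B n (n + 1) (show levelCochains 𝒰 B n from b)
  rw [inhomogeneousCochains.d_def] at d1 d2
  rw [d1] at e1
  rw [d2] at e2
  show _ = (_ : (Fin (m + n + 1) → G) → C) g + ((-1 : k) ^ m • (_ : (Fin (m + n + 1) → G) → C)) g
  rw [Pi.smul_apply]
  exact congrArg₂ (· + ·) e1.symm (congrArg ((-1 : k) ^ m • ·) e2.symm)

/-- The cup product of level cochains as a `CochainPairing`. -/
noncomputable def levelCupPairing :
    CochainPairing (levelComplex 𝒰 A) (levelComplex 𝒰 B) (levelComplex 𝒰 C) where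
  μ := levelCupμ 𝒰 φ
  leibniz := levelCupμ_leibniz 𝒰 φ hφ

@[simp] theorem levelCupPairing_μ (m n p : ℕ) (h : m + n = p) :
    (levelCupPairing 𝒰 φ hφ).μ m n p h = levelCupμ 𝒰 φ m n p h := rfl

/-- The pairing on cohomology induced by `levelCupPairing` is `levelCupH`. -/
theorem levelCupPairing_pairH (m n : ℕ) (x : levelCohomology 𝒰 A m) (y : levelCohomology 𝒰 B n) :
    (levelCupPairing 𝒰 φ hφ).pairH m n (m + n) rfl x y = levelCupH 𝒰 φ hφ m n x y := by
  obtain ⟨a, rfl⟩ := cls_surjective (levelComplex 𝒰 A) m x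
  obtain ⟨b, rfl⟩ := cls_surjective (levelComplex 𝒰 B) n y
  rw [CochainPairing.pairH_cls, levelCupH_cls]
  rfl

section Adjoint

variable {A₁ B₁ A₂ B₂ : Rep.{u} k G} [IsDiscrete 𝒰 A₁] [IsDiscrete 𝒰 B₁] [IsDiscrete 𝒰 A₂]
  [IsDiscrete 𝒰 B₂] (φ₁ : A₁ →ₗ[k] B₁ →ₗ[k] C) (φ₂ : A₂ →ₗ[k] B₂ →ₗ[k] C)
  (α : A₁ ⟶ A₂) (β : B₂ ⟶ B₁) (hadj : ∀ (a : A₁) (b : B₂), φ₂ (α.hom a) b = φ₁ a (β.hom b))

include hadj in
/-- Adjoint coefficient maps give adjoint maps of level cochains for the cup products. -/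
theorem levelCupμ_adjoint (m n p : ℕ) (h : m + n = p) (a : (levelComplex 𝒰 A₁).X m)
    (b : (levelComplex 𝒰 B₂).X n) :
    levelCupμ 𝒰 φ₂ m n p h (((levelMap 𝒰 α).f m).hom a) b =
      levelCupμ 𝒰 φ₁ m n p h a (((levelMap 𝒰 β).f n).hom b) := by
  subst h
  apply Subtype.ext
  funext g
  show φ₂ (α.hom _) (B₂.ρ _ _) = φ₁ _ (B₁.ρ _ (β.hom _))
  rw [hadj, Rep.hom_comm_apply]
  rfl

end Adjoint

end Fermat.Agent.S55.Cup
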