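/-
S55 / ALG8: the dévissage ("dimension shifting") engine, abstract form.

Two families of additive functors `T i`, `D i` on a class of objects, a family of additive maps
`Φ i X : T i X → D i X`; every good object `X` sits in a "short exact sequence"
`0 → X → I → Q → 0` with `I` a base object and `Q` good, and the two long exact sequences are
compared by `Φ`.  If `Φ i` is bijective on base objects for `i < N` and injective for `i = N`, then
`Φ i` is injective on all good objects for all `i ≤ N`.

Everything is stated elementwise (no categories): the user supplies the maps of the long exact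
sequences that are actually used.  The middle square is only needed up to sign, in the weak form
`Φ (δ q) = 0 → δ' (Φ q) = 0`.
-/
import Mathlib

set_option autoImplicit false

namespace Fermat.Agent.S55.Devissage

section Four

variable {A B C E A' B' C' E' : Type*} [AddCommGroup A] [AddCommGroup B] [AddCommGroup C]
  [AddCommGroup E] [AddCommGroup A'] [AddCommGroup B'] [AddCommGroup C'] [AddCommGroup E']

/-- The mono four lemma, elementwise.  Rows `A → B → C → E` and `A' → B' → C' → E'`, vertical maps
`α β γ ε`.  If `α` is surjective, `β` and `ε` are injective, the top row is a complex at `B` and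
exact at `C`, the bottom row is exact at `B'`, the outer squares commute and the middle square
commutes in the weak form `γ (g b) = 0 → g' (β b) = 0`, then `γ` is injective. -/
theorem injective_of_four (f : A →+ B) (g : B →+ C) (h : C →+ E) (f' : A' →+ B') (g' : B' →+ C')
    (h' : C' →+ E') (α : A →+ A') (β : B →+ B') (γ : C →+ C') (ε : E →+ E')
    (hα : Function.Surjective α) (hβ : Function.Injective β) (hε : Function.Injective ε)
    (hgf : ∀ a, g (f a) = 0) (hexC : ∀ c, h c = 0 → ∃ b, g b = c)
    (hexB' : ∀ b', g' b' = 0 → ∃ a', f' a' = b')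
    (sq1 : ∀ a, β (f a) = f' (α a)) (sq2 : ∀ b, γ (g b) = 0 → g' (β b) = 0)
    (sq3 : ∀ c, ε (h c) = h' (γ c)) : Function.Injective γ := by
  rw [injective_iff_map_eq_zero]
  intro c hc
  have h1 : h c = 0 := hε (by rw [sq3, hc, map_zero, map_zero])
  obtain ⟨b, rfl⟩ := hexC c h1
  obtain ⟨a', ha'⟩ := hexB' (β b) (sq2 b hc)
  obtain ⟨a, rfl⟩ := hα a'
  have h2 : b = f a := hβ (by rw [sq1, ha'])
  rw [h2, hgf]

/-- The trivial first step: if `a : X → I` is injective, `Φ_I` is injective and the square
commutes, then `Φ_X` is injective. -/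
theorem injective_of_square (a : A →+ B) (a' : A' →+ B') (φX : A →+ A') (φI : B →+ B')
    (ha : Function.Injective a) (hφI : Function.Injective φI)
    (sq : ∀ x, φI (a x) = a' (φX x)) : Function.Injective φX := by
  intro x y hxy
  exact ha (hφI (by rw [sq, sq, hxy]))

/-- Variant of `injective_of_square` where injectivity of `a` comes from an exact sequence
`Z → X → I` with `Z` trivial. -/
theorem injective_of_exact_of_subsingleton {Z : Type*} [AddCommGroup Z] [Subsingleton Z]
    (d : Z →+ A) (a : A →+ B) (hex : ∀ x, a x = 0 → ∃ z, d z = x) : Function.Injective a := by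
  rw [injective_iff_map_eq_zero]
  intro x hx
  obtain ⟨z, rfl⟩ := hex x hx
  rw [Subsingleton.elim z 0, map_zero]

end Four

section Engine

variable {Obj : Type*} {T D : ℕ → Obj → Type*} [∀ i X, AddCommGroup (T i X)]
  [∀ i X, AddCommGroup (D i X)]

/-- One dévissage step for `X` through `I` with cokernel `Q`, up to degree `N`: the parts of the
two long exact sequences of `0 → X → I → Q → 0` that are used, and their compatibility with
`Φ`. -/
structure Step (Φ : ∀ i X, T i X →+ D i X) (N : ℕ) (X I Q : Obj) : Prop where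
  /-- `T⁰ X → T⁰ I` is injective and compatible with `Φ⁰`. -/
  zero : ∃ (a : T 0 X →+ T 0 I) (a' : D 0 X →+ D 0 I), Function.Injective a ∧
    ∀ x, Φ 0 I (a x) = a' (Φ 0 X x)
  /-- The piece `Tⁱ I → Tⁱ Q → Tⁱ⁺¹ X → Tⁱ⁺¹ I` over `Dⁱ I → Dⁱ Q → Dⁱ⁺¹ X → Dⁱ⁺¹ I`. -/
  succ : ∀ i < N, ∃ (p : T i I →+ T i Q) (δ : T i Q →+ T (i + 1) X)
      (a : T (i + 1) X →+ T (i + 1) I) (p' : D i I →+ D i Q) (δ' : D i Q →+ D (i + 1) X)
      (a' : D (i + 1) X →+ D (i + 1) I),
      (∀ t, δ (p t) = 0) ∧ (∀ x, a x = 0 → ∃ q, δ q = x) ∧ (∀ d, δ' d = 0 → ∃ e, p' e = d) ∧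
      (∀ t, Φ i Q (p t) = p' (Φ i I t)) ∧ (∀ q, Φ (i + 1) X (δ q) = 0 → δ' (Φ i Q q) = 0) ∧
      (∀ x, Φ (i + 1) I (a x) = a' (Φ (i + 1) X x))

/-- **The dévissage engine** (mono version).  If `Φ i` is bijective on base objects for `i < N` and
injective on base objects for `i = N`, and every good object has a dévissage step through a base
object with good cokernel, then `Φ i` is injective on every good object, for every `i ≤ N`. -/
theorem injective_of_step (Φ : ∀ i X, T i X →+ D i X) (N : ℕ) (Good Base : Obj → Prop)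
    (hbij : ∀ I, Base I → ∀ i < N, Function.Bijective (Φ i I))
    (hinj : ∀ I, Base I → Function.Injective (Φ N I))
    (hstep : ∀ X, Good X → ∃ I Q, Base I ∧ Good Q ∧ Step Φ N X I Q) :
    ∀ i ≤ N, ∀ X, Good X → Function.Injective (Φ i X) := by
  have hbase : ∀ I, Base I → ∀ i ≤ N, Function.Injective (Φ i I) := by
    intro I hI i hi
    rcases hi.lt_or_eq with h | rfl
    · exact (hbij I hI i h).1
    · exact hinj I hI
  intro i
  induction i with
  | zero =>
    intro _ X hX
    obtain ⟨I, Q, hI, -, hs⟩ := hstep X hX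
    obtain ⟨a, a', ha, sq⟩ := hs.zero
    exact injective_of_square a a' (Φ 0 X) (Φ 0 I) ha (hbase I hI 0 (Nat.zero_le N)) sq
  | succ i ih =>
    intro hi X hX
    obtain ⟨I, Q, hI, hQ, hs⟩ := hstep X hX
    obtain ⟨p, δ, a, p', δ', a', h1, h2, h3, s1, s2, s3⟩ := hs.succ i hi
    exact injective_of_four p δ a p' δ' a' (Φ i I) (Φ i Q) (Φ (i + 1) X) (Φ (i + 1) I)
      (hbij I hI i hi).2 (ih (Nat.le_of_succ_le hi) Q hQ) (hbase I hI (i + 1) hi)
      h1 h2 h3 s1 s2 s3

/-- The two-degree case used globally (`T 0 = H¹_c`, `T 1 = H²_c`): `Φ⁰` bijective and `Φ¹`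
injective on base objects imply `Φ⁰`, `Φ¹` injective on all good objects. -/
theorem injective_of_step_one (Φ : ∀ i X, T i X →+ D i X) (Good Base : Obj → Prop)
    (hbij : ∀ I, Base I → Function.Bijective (Φ 0 I))
    (hinj : ∀ I, Base I → Function.Injective (Φ 1 I))
    (hstep : ∀ X, Good X → ∃ I Q, Base I ∧ Good Q ∧ Step Φ 1 X I Q) :
    ∀ X, Good X → Function.Injective (Φ 0 X) ∧ Function.Injective (Φ 1 X) := by
  have h := injective_of_step Φ 1 Good Base
    (fun I hI i hi => by obtain rfl : i = 0 := by omega
                         exact hbij I hI) hinj hstep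
  exact fun X hX => ⟨h 0 (by omega) X hX, h 1 le_rfl X hX⟩

end Engine

end Fermat.Agent.S55.Devissage
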