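/-
S55 / ALG8, part 2: the dévissage sequence `0 ⟶ A ⟶ coind_U^G res_U A ⟶ Q ⟶ 0` for a finitely
generated discrete representation `A` of a group with a level structure: `U` a member of the family
acting trivially on `A`, all three terms are again finitely generated and discrete, and the middle
term is coinduced (Mathlib's `Rep.coind`) from a trivial representation of `U`.  Also permanence of
discreteness under sub- and quotient representations.
-/
import Fermat.Agent.S55.LevelComplex

set_option autoImplicit false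

open CategoryTheory CategoryTheory.Limits

namespace Fermat.Agent.S55.Devissage

open Fermat.Agent.S55.Level

universe u

variable {k G : Type u} [CommRing k] [Group G] {𝒰 : LevelStructure G}

section Permanence

variable {A B : Rep.{u} k G}

/-- A subrepresentation (more generally: the source of an injective morphism) of a discrete
representation is discrete. -/
theorem isDiscrete_of_injective (f : A ⟶ B) (hf : Function.Injective f.hom) [IsDiscrete 𝒰 B] :
    IsDiscrete 𝒰 A := ⟨fun a => by
  obtain ⟨U, hU, h⟩ := IsDiscrete.exists_fix (𝒰 := 𝒰) (f.hom a)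
  exact ⟨U, hU, fun u hu => hf (by rw [Rep.hom_comm_apply, h u hu])⟩⟩

/-- A quotient (more generally: the target of a surjective morphism) of a discrete representation
is discrete. -/
theorem isDiscrete_of_surjective (f : A ⟶ B) (hf : Function.Surjective f.hom) [IsDiscrete 𝒰 A] :
    IsDiscrete 𝒰 B := ⟨fun b => by
  obtain ⟨a, rfl⟩ := hf b
  obtain ⟨U, hU, h⟩ := IsDiscrete.exists_fix (𝒰 := 𝒰) a
  exact ⟨U, hU, fun u hu => by rw [← Rep.hom_comm_apply, h u hu]⟩⟩

theorem isDiscrete_of_iso (e : A ≅ B) [IsDiscrete 𝒰 A] : IsDiscrete 𝒰 B :=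
  isDiscrete_of_surjective e.hom fun b => ⟨e.inv.hom b, Rep.hom_inv_apply _ _ e b⟩

/-- A finitely generated discrete representation is trivialised by a member of the family, which
can be chosen inside any given member. -/
theorem exists_trivializing_level (A : Rep.{u} k G) [IsDiscrete 𝒰 A] [Module.Finite k A]
    {U₀ : Subgroup G} (hU₀ : U₀ ∈ 𝒰.sets) :
    ∃ U ∈ 𝒰.sets, U ≤ U₀ ∧ ∀ u ∈ U, ∀ a : A, A.ρ u a = a := by
  classical
  obtain ⟨s, hs⟩ := (Module.Finite.fg_top : (⊤ : Submodule k A).FG)
  obtain ⟨V, hV, hfix⟩ := exists_fix_finset (𝒰 := 𝒰) (A := A) s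
  obtain ⟨U, hU, hUV⟩ := 𝒰.directed V hV U₀ hU₀
  refine ⟨U, hU, hUV.trans inf_le_right, fun u hu a => ?_⟩
  have hle : Submodule.span k (s : Set A) ≤ LinearMap.eqLocus (A.ρ u) LinearMap.id := by
    rw [Submodule.span_le]
    intro b hb
    exact hfix b hb u ((hUV.trans inf_le_left) hu)
  have ha : a ∈ Submodule.span k (s : Set A) := by rw [hs]; trivial
  exact hle ha

end Permanence

section Coind

variable (U : Subgroup G) (A : Rep.{u} k G)

/-- `coind_U^G res_U A`, in Mathlib's model: functions `f : G → A` with `f (u * x) = u • f x` for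
`u ∈ U`, and `G` acting by right translation. -/
noncomputable abbrev coindRes : Rep.{u} k G := Rep.coind U.subtype (Rep.res U.subtype A)

/-- The unit `A ⟶ coind_U^G res_U A`, `a ↦ (x ↦ x • a)`. -/
noncomputable def unitCoind : A ⟶ coindRes U A :=
  Rep.resCoindToHom U.subtype A (Rep.res U.subtype A) (𝟙 _)

lemma unitCoind_apply (a : A) (x : G) : ((unitCoind U A).hom a).1 x = A.ρ x a := rfl

lemma unitCoind_injective : Function.Injective (unitCoind U A).hom := by
  intro a b hab
  have := congrFun (congrArg Subtype.val hab) 1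
  rw [unitCoind_apply, unitCoind_apply, map_one] at this
  exact this

instance : Mono (unitCoind U A) := (Rep.mono_iff_injective _).2 (unitCoind_injective U A)

end Coind

section CoindDiscrete

variable {U : Subgroup G} (A : Rep.{u} k G)

lemma coindRes_apply_mul (f : coindRes U A) (w : G) (hw : w ∈ U) (x : G) :
    f.1 (w * x) = A.ρ w (f.1 x) := f.2 ⟨w, hw⟩ x

lemma coindRes_ρ_apply (g : G) (f : coindRes U A) (x : G) :
    ((coindRes U A).ρ g f).1 x = f.1 (x * g) := rfl

/-- `coind_U^G res_U A` is discrete when `A` is and `U` is a member of the family. -/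
theorem isDiscrete_coindRes (hU : U ∈ 𝒰.sets) [IsDiscrete 𝒰 A] :
    IsDiscrete 𝒰 (coindRes U A) := ⟨fun f => by
  classical
  have := 𝒰.normal U hU
  have := 𝒰.finiteIndex U hU
  have : Finite (G ⧸ U) := Subgroup.finite_quotient_of_finiteIndex
  obtain ⟨V₁, hV₁, hfix⟩ := exists_fix_finset (𝒰 := 𝒰) (A := A)
    (Set.finite_range (fun q : G ⧸ U => f.1 q.out)).toFinset
  obtain ⟨V, hV, hVle⟩ := 𝒰.directed V₁ hV₁ U hU
  have hVn := 𝒰.normal V hV
  refine ⟨V, hV, fun g hg => Subtype.ext (funext fun x => ?_)⟩
  rw [coindRes_ρ_apply]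
  obtain ⟨h, hh⟩ := QuotientGroup.mk_out_eq_mul U x
  set xi := (QuotientGroup.mk x : G ⧸ U).out with hxi
  -- `x = w * xi` with `w ∈ U`
  have hw : xi * (h : G)⁻¹ * xi⁻¹ ∈ U :=
    Subgroup.Normal.conj_mem inferInstance _ (U.inv_mem h.2) xi
  have hx : x = (xi * (h : G)⁻¹ * xi⁻¹) * xi := by rw [hh]; group
  have hv : xi * g * xi⁻¹ ∈ V := Subgroup.Normal.conj_mem hVn _ hg xi
  have hfx : A.ρ (xi * g * xi⁻¹) (f.1 xi) = f.1 xi :=
    hfix _ ((Set.Finite.mem_toFinset _).2 ⟨_, rfl⟩) _ ((hVle.trans inf_le_left) hv)
  have h1 : x * g = (xi * (h : G)⁻¹ * xi⁻¹) * ((xi * g * xi⁻¹) * xi) := by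
    conv_lhs => rw [hx]
    group
  rw [h1, coindRes_apply_mul A f _ hw, coindRes_apply_mul A f _ ((hVle.trans inf_le_right) hv),
    hfx, ← coindRes_apply_mul A f _ hw, ← hx]⟩

/-- Evaluation at coset representatives, an injective linear map out of `coind_U^G res_U A`. -/
noncomputable def evalOut (U : Subgroup G) (A : Rep.{u} k G) : coindRes U A →ₗ[k] (G ⧸ U → A) where
  toFun f q := f.1 q.out
  map_add' _ _ := rfl
  map_smul' _ _ := rfl

lemma evalOut_injective [U.Normal] : Function.Injective (evalOut U A) := by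
  intro f f' hff'
  refine Subtype.ext (funext fun x => ?_)
  obtain ⟨h, hh⟩ := QuotientGroup.mk_out_eq_mul U x
  set xi := (QuotientGroup.mk x : G ⧸ U).out with hxi
  have hw : xi * (h : G)⁻¹ * xi⁻¹ ∈ U :=
    Subgroup.Normal.conj_mem inferInstance _ (U.inv_mem h.2) xi
  have hx : x = (xi * (h : G)⁻¹ * xi⁻¹) * xi := by rw [hh]; group
  have h0 : f.1 xi = f'.1 xi := congrFun hff' (QuotientGroup.mk x : G ⧸ U)
  rw [hx, coindRes_apply_mul A f _ hw, coindRes_apply_mul A f' _ hw, h0]

/-- `coind_U^G res_U A` is finitely generated when `A` is and `U` has finite index. -/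
theorem finite_coindRes [IsNoetherianRing k] [U.Normal] [U.FiniteIndex] [Module.Finite k A] :
    Module.Finite k (coindRes U A) := by
  have : Finite (G ⧸ U) := Subgroup.finite_quotient_of_finiteIndex
  exact Module.Finite.of_injective (evalOut U A) (evalOut_injective A)

end CoindDiscrete

section Sequence

variable (U : Subgroup G) (A : Rep.{u} k G)

/-- The cokernel of `A ⟶ coind_U^G res_U A`. -/
noncomputable abbrev coindQuot : Rep.{u} k G := cokernel (unitCoind U A)

/-- The dévissage sequence `0 ⟶ A ⟶ coind_U^G res_U A ⟶ Q ⟶ 0`. -/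
noncomputable def devissageSeq : ShortComplex (Rep.{u} k G) :=
  ShortComplex.mk (unitCoind U A) (cokernel.π (unitCoind U A)) (cokernel.condition _)

@[simp] lemma devissageSeq_X₁ : (devissageSeq U A).X₁ = A := rfl
@[simp] lemma devissageSeq_X₂ : (devissageSeq U A).X₂ = coindRes U A := rfl
@[simp] lemma devissageSeq_X₃ : (devissageSeq U A).X₃ = coindQuot U A := rfl
@[simp] lemma devissageSeq_f : (devissageSeq U A).f = unitCoind U A := rfl
@[simp] lemma devissageSeq_g : (devissageSeq U A).g = cokernel.π (unitCoind U A) := rfl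

theorem devissageSeq_shortExact : (devissageSeq U A).ShortExact where
  exact := ShortComplex.exact_cokernel _
  mono_f := inferInstanceAs (Mono (unitCoind U A))
  epi_g := inferInstanceAs (Epi (cokernel.π (unitCoind U A)))

lemma cokernelπ_surjective : Function.Surjective (cokernel.π (unitCoind U A)).hom :=
  (Rep.epi_iff_surjective _).1 inferInstance

variable {U}

/-- The cokernel is discrete. -/
theorem isDiscrete_coindQuot (hU : U ∈ 𝒰.sets) [IsDiscrete 𝒰 A] :
    IsDiscrete 𝒰 (coindQuot U A) :=
  have := isDiscrete_coindRes (𝒰 := 𝒰) A hU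
  isDiscrete_of_surjective _ (cokernelπ_surjective U A)

/-- The cokernel is finitely generated. -/
theorem finite_coindQuot [IsNoetherianRing k] [U.Normal] [U.FiniteIndex] [Module.Finite k A] :
    Module.Finite k (coindQuot U A) :=
  have := finite_coindRes (U := U) A
  Module.Finite.of_surjective (cokernel.π (unitCoind U A)).hom.toLinearMap
    (cokernelπ_surjective U A)

/-- If `U` acts trivially on `A` then `res_U A` is a trivial representation, so that
`coindRes U A` is coinduced from a trivial representation. -/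
theorem isTrivial_res (h : ∀ u ∈ U, ∀ a : A, A.ρ u a = a) : (Rep.res U.subtype A).IsTrivial where
  out := fun u => LinearMap.ext fun a => h u u.2 a

/-- **Dévissage data for a finitely generated discrete representation**: inside any given member
`U₀` of the family there is a member `U` acting trivially on `A`; then
`0 ⟶ A ⟶ coind_U^G res_U A ⟶ Q ⟶ 0` is a short exact sequence of finitely generated discrete
representations, whose middle term is coinduced from a trivial representation of `U`. -/
theorem exists_devissage [IsNoetherianRing k] (A : Rep.{u} k G) [IsDiscrete 𝒰 A]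
    [Module.Finite k A] {U₀ : Subgroup G} (hU₀ : U₀ ∈ 𝒰.sets) :
    ∃ U ∈ 𝒰.sets, U ≤ U₀ ∧ (∀ u ∈ U, ∀ a : A, A.ρ u a = a) ∧
      (Rep.res U.subtype A).IsTrivial ∧
      IsDiscrete 𝒰 (coindRes U A) ∧ Module.Finite k (coindRes U A) ∧
      IsDiscrete 𝒰 (coindQuot U A) ∧ Module.Finite k (coindQuot U A) ∧
      (devissageSeq U A).ShortExact := by
  obtain ⟨U, hU, hUU₀, htriv⟩ := exists_trivializing_level (𝒰 := 𝒰) A hU₀
  have := 𝒰.normal U hU
  have := 𝒰.finiteIndex U hU
  exact ⟨U, hU, hUU₀, htriv, isTrivial_res A htriv, isDiscrete_coindRes A hU, finite_coindRes A,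
    isDiscrete_coindQuot A hU, finite_coindQuot A, devissageSeq_shortExact U A⟩

end Sequence

end Fermat.Agent.S55.Devissage
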