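/-
S55 / LOC8 (helper22), part 4: the duality maps of level cohomology and the dévissage step.

`G` a group with a level structure `𝒰`, `k` a field, `χ : G →* kˣ` with `k(χ)` discrete,
`t : H²(G, k(χ)) → k` a linear functional.  For a discrete finite dimensional `X` with twisted dual
`X' = X.dualTwist χ` the cup product with the evaluation pairing `X' × X → k(χ)` gives
`Ψ X m n : Hⁿ(X) → Hᵐ(X')^*` for `m + n = 2`.  This file proves the compatibilities of `Ψ` with
coefficient maps and connecting homomorphisms, and the dévissage step: injectivity of `Ψ` for all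
`X` follows from bijectivity/injectivity on the coinduced modules `coind_U^G res_U X`.
-/
import Mathlib
import Fermat.Agent.S55.CupPairing
import Fermat.Agent.S55.DualTwist
import Fermat.Agent.S55.Devissage
import Fermat.Agent.S55.DevissageRep

set_option autoImplicit false
set_option linter.unusedSectionVars false

namespace Fermat.Agent.S55.LevelDuality

open CategoryTheory groupCohomology Fermat.Agent.S55.Level Fermat.Agent.S55.CochainTools
  Fermat.Agent.S55.Cone Fermat.Agent.S55.Cup Fermat.Agent.S55.DualTwist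
  Fermat.Agent.S55.Devissage

universe u

section General

variable {k G : Type u} [Field k] [Group G] (𝒰 : LevelStructure G) (χ : G →* kˣ)

/-- The twisted dual of a finite dimensional discrete representation is discrete, if `k(χ)`
is. -/
theorem isDiscrete_dualTwist [IsDiscrete 𝒰 (ofChar χ)] (X : Rep.{u} k G) [IsDiscrete 𝒰 X]
    [FiniteDimensional k X] : IsDiscrete 𝒰 (X.dualTwist χ) := ⟨fun f => by
  obtain ⟨U₂, hU₂, h₂⟩ := IsDiscrete.exists_fix (𝒰 := 𝒰) (A := ofChar χ) (1 : k)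
  obtain ⟨U, hU, hUU₂, htriv⟩ := exists_trivializing_level (𝒰 := 𝒰) X hU₂
  refine ⟨U, hU, fun u hu => ?_⟩
  have hχ : (χ u : k) = 1 := by
    have := h₂ u (hUU₂ hu)
    rw [ofChar_ρ_apply, mul_one] at this
    exact this
  refine LinearMap.ext (f := ((X.dualTwist χ).ρ u f : Module.Dual k X)) (g := f) fun a => ?_
  rw [dualTwist_ρ_apply_apply, hχ, one_mul, htriv u⁻¹ (U.inv_mem hu)]⟩

/-- A linear functional vanishing on the kernel of `f` factors through `f`. -/
theorem exists_dual_comp_eq {V W : Type*} [AddCommGroup V] [Module k V] [AddCommGroup W]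
    [Module k W] (f : V →ₗ[k] W) (d : Module.Dual k V) (h : LinearMap.ker f ≤ LinearMap.ker d) :
    ∃ e : Module.Dual k W, e ∘ₗ f = d := by
  obtain ⟨θ, hθ⟩ := LinearMap.exists_extend
    (p := LinearMap.range f)
    (f := (LinearMap.ker f).liftQ d h ∘ₗ (f.quotKerEquivRange).symm.toLinearMap)
  refine ⟨θ, LinearMap.ext fun v => ?_⟩
  have h1 := LinearMap.congr_fun hθ ⟨f v, LinearMap.mem_range_self f v⟩
  simp only [LinearMap.coe_comp, Function.comp_apply, Submodule.coe_subtype,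
    LinearEquiv.coe_coe] at h1
  rw [LinearMap.comp_apply, h1]
  have h2 : (f.quotKerEquivRange).symm ⟨f v, LinearMap.mem_range_self f v⟩ =
      Submodule.Quotient.mk v := by
    apply (f.quotKerEquivRange).injective
    rw [LinearEquiv.apply_symm_apply]
    rfl
  rw [h2]
  rfl

end General

section DegreeZero

variable {k G : Type u} [CommRing k] [Group G] (𝒰 : LevelStructure G)

/-- In degree `0` an injective coefficient map induces an injective map on level cohomology. -/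
theorem homologyMap_levelMap_zero_injective {A B : Rep.{u} k G} [IsDiscrete 𝒰 A] [IsDiscrete 𝒰 B]
    (f : A ⟶ B) (hf : Function.Injective f.hom) :
    Function.Injective (HomologicalComplex.homologyMap (levelMap 𝒰 f) 0).hom := by
  rw [injective_iff_map_eq_zero]
  intro x hx
  obtain ⟨z, rfl⟩ := cls_surjective (levelComplex 𝒰 A) 0 x
  rw [homologyMap_cls, cls_eq_zero_iff] at hx
  have h0 := eq_zero_of_mem_B_zero _ _ hx
  have hz : z = 0 := by
    apply Subtype.ext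
    apply Subtype.ext
    funext g
    apply hf
    have := congrArg (fun w : Z (levelComplex 𝒰 B) 0 =>
      (show levelCochains 𝒰 B 0 from w.1).1 g) h0
    exact this.trans (map_zero f.hom).symm
  rw [hz, map_zero]

end DegreeZero

section DualSeq

variable {k G : Type u} [Field k] [Group G] (χ : G →* kˣ)

theorem dualTwistMap_zero {A B : Rep.{u} k G} : dualTwistMap χ (0 : A ⟶ B) = 0 := by
  refine Rep.hom_ext (Representation.IntertwiningMap.ext (LinearMap.ext fun φ => ?_))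
  exact LinearMap.ext (f := ((dualTwistMap χ (0 : A ⟶ B)).hom φ : Module.Dual k A)) fun a =>
    map_zero (φ : Module.Dual k B)

/-- The dual of a short complex of representations. -/
noncomputable abbrev dualSeq (S : ShortComplex (Rep.{u} k G)) : ShortComplex (Rep.{u} k G) :=
  ShortComplex.mk (dualTwistMap χ S.g) (dualTwistMap χ S.f)
    (by rw [← dualTwistMap_comp, S.zero, dualTwistMap_zero])

/-- The dual of a short exact sequence is short exact. -/
theorem dualSeq_shortExact {S : ShortComplex (Rep.{u} k G)} (hS : S.ShortExact) :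
    (dualSeq χ S).ShortExact := by
  have hf : Function.Injective S.f.hom := (Rep.mono_iff_injective S.f).1 hS.mono_f
  have hg : Function.Surjective S.g.hom := (Rep.epi_iff_surjective S.g).1 hS.epi_g
  have hex : ∀ b : S.X₂, S.g.hom b = 0 ↔ ∃ a : S.X₁, S.f.hom a = b := by
    intro b
    constructor
    · intro hb
      have : LinearMap.range S.f.hom.toLinearMap = LinearMap.ker S.g.hom.toLinearMap :=
        (hS.exact.map (forget₂ (Rep k G) (ModuleCat k))).moduleCat_range_eq_ker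
      have hb' : b ∈ LinearMap.ker S.g.hom.toLinearMap := hb
      rw [← this] at hb'
      exact hb'
    · rintro ⟨a, rfl⟩
      have := congrArg (fun ψ : S.X₁ ⟶ S.X₃ => ψ.hom a) S.zero
      exact this
  refine { exact := ?_, mono_f := ?_, epi_g := ?_ }
  · rw [← ShortComplex.exact_map_iff_of_faithful (dualSeq χ S)
      (forget₂ (Rep.{u} k G) (ModuleCat.{u} k)), ShortComplex.moduleCat_exact_iff]
    intro φ hφ
    exact (dualTwistMap_exact χ S.f S.g hex φ).1 hφ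
  · exact (Rep.mono_iff_injective _).2 (dualTwistMap_injective χ S.g hg)
  · exact (Rep.epi_iff_surjective _).2 (dualTwistMap_surjective χ S.f hf)

end DualSeq

section Lmap

variable {k G : Type u} [CommRing k] [Group G] (𝒰 : LevelStructure G)

/-- The linear map induced on level cohomology by a morphism of discrete representations. -/
noncomputable def lmap {X Y : Rep.{u} k G} [IsDiscrete 𝒰 X] [IsDiscrete 𝒰 Y] (f : X ⟶ Y) (n : ℕ) :
    levelCohomology 𝒰 X n →ₗ[k] levelCohomology 𝒰 Y n :=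
  (levelCohomologyMap (MonoidHom.id G) 𝒰.refines_id f n).hom

theorem lmap_eq {X Y : Rep.{u} k G} [IsDiscrete 𝒰 X] [IsDiscrete 𝒰 Y] (f : X ⟶ Y) (n : ℕ)
    (x : levelCohomology 𝒰 X n) :
    lmap 𝒰 f n x = (HomologicalComplex.homologyMap (levelMap 𝒰 f) n).hom x := rfl

end Lmap

section Psi

variable {k G : Type u} [Field k] [Group G] (𝒰 : LevelStructure G) (χ : G →* kˣ)
  [IsDiscrete 𝒰 (ofChar χ)]

/-- The cup product pairing `C(X') × C(X) → C(k(χ))` of level complexes. -/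
noncomputable def evPairing (X : Rep.{u} k G) [IsDiscrete 𝒰 X] [IsDiscrete 𝒰 (X.dualTwist χ)] :
    CochainPairing (levelComplex 𝒰 (X.dualTwist χ)) (levelComplex 𝒰 X)
      (levelComplex 𝒰 (ofChar χ)) :=
  levelCupPairing 𝒰 (evalPairing χ X) (evalPairing_equivariant χ X)

/-- Adjointness of `f` and `dualTwistMap χ f` on cohomology. -/
theorem evPairing_adjoint {X Y : Rep.{u} k G} [IsDiscrete 𝒰 X] [IsDiscrete 𝒰 (X.dualTwist χ)]
    [IsDiscrete 𝒰 Y] [IsDiscrete 𝒰 (Y.dualTwist χ)] (f : X ⟶ Y) {m n p : ℕ} (h : m + n = p)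
    (w : levelCohomology 𝒰 (Y.dualTwist χ) m) (y : levelCohomology 𝒰 X n) :
    (evPairing 𝒰 χ X).pairH m n p h (lmap 𝒰 (dualTwistMap χ f) m w) y =
      (evPairing 𝒰 χ Y).pairH m n p h w (lmap 𝒰 f n y) :=
  CochainPairing.pairH_adjoint (evPairing 𝒰 χ Y) (evPairing 𝒰 χ X)
    (levelMap 𝒰 (dualTwistMap χ f)) (levelMap 𝒰 f)
    (fun m n p h a b => levelCupμ_adjoint 𝒰 (evalPairing χ Y) (evalPairing χ X)
      (dualTwistMap χ f) f (fun _ _ => rfl) m n p h a b) h w y

variable {S : ShortComplex (Rep.{u} k G)} [IsDiscrete 𝒰 S.X₁] [IsDiscrete 𝒰 S.X₂]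
  [IsDiscrete 𝒰 S.X₃] [IsDiscrete 𝒰 (S.X₁.dualTwist χ)] [IsDiscrete 𝒰 (S.X₂.dualTwist χ)]
  [IsDiscrete 𝒰 (S.X₃.dualTwist χ)]

instance : IsDiscrete 𝒰 (dualSeq χ S).X₁ := inferInstanceAs (IsDiscrete 𝒰 (S.X₃.dualTwist χ))
instance : IsDiscrete 𝒰 (dualSeq χ S).X₂ := inferInstanceAs (IsDiscrete 𝒰 (S.X₂.dualTwist χ))
instance : IsDiscrete 𝒰 (dualSeq χ S).X₃ := inferInstanceAs (IsDiscrete 𝒰 (S.X₁.dualTwist χ))

/-- Adjointness (up to sign) of the connecting homomorphisms of a short exact sequence and of its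
dual. -/
theorem evPairing_δ (hS : S.ShortExact) {m n p : ℕ} (h : m + n = p)
    (x : levelCohomology 𝒰 (S.X₁.dualTwist χ) m) (y : levelCohomology 𝒰 S.X₃ n) :
    (evPairing 𝒰 χ S.X₃).pairH (m + 1) n (p + 1) (by omega)
        ((levelδ 𝒰 (dualSeq_shortExact χ hS) m (m + 1) rfl).hom x) y +
      (-1 : k) ^ m • (evPairing 𝒰 χ S.X₁).pairH m (n + 1) (p + 1) (by omega) x
        ((levelδ 𝒰 hS n (n + 1) rfl).hom y) = 0 :=
  pairH_δ (S := levelShortComplex 𝒰 (dualSeq χ S)) (S' := levelShortComplex 𝒰 S)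
    (levelShortComplex_shortExact 𝒰 (dualSeq_shortExact χ hS))
    (levelShortComplex_shortExact 𝒰 hS)
    (evPairing 𝒰 χ S.X₃) (evPairing 𝒰 χ S.X₂) (evPairing 𝒰 χ S.X₁)
    (fun m n p h a b => levelCupμ_adjoint 𝒰 (evalPairing χ S.X₃) (evalPairing χ S.X₂)
      (dualTwistMap χ S.g) S.g (fun _ _ => rfl) m n p h a b)
    (fun m n p h a b => levelCupμ_adjoint 𝒰 (evalPairing χ S.X₂) (evalPairing χ S.X₁)
      (dualTwistMap χ S.f) S.f (fun _ _ => rfl) m n p h a b) h x y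

end Psi

section Step

variable {k G : Type u} [Field k] [Group G] (𝒰 : LevelStructure G) (χ : G →* kˣ)
  [IsDiscrete 𝒰 (ofChar χ)] (t : levelCohomology 𝒰 (ofChar χ) 2 →ₗ[k] k)

/-- The duality map `Hⁿ(X) → Hᵐ(X')^*`, `y ↦ (w ↦ t (w ∪ y))`, for `m + n = 2`. -/
noncomputable def Ψ (X : Rep.{u} k G) [IsDiscrete 𝒰 X] [IsDiscrete 𝒰 (X.dualTwist χ)]
    (m n : ℕ) (h : m + n = 2) :
    levelCohomology 𝒰 X n →ₗ[k] Module.Dual k (levelCohomology 𝒰 (X.dualTwist χ) m) :=
  (((evPairing 𝒰 χ X).pairH m n 2 h).compr₂ t).flip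

theorem Ψ_apply (X : Rep.{u} k G) [IsDiscrete 𝒰 X] [IsDiscrete 𝒰 (X.dualTwist χ)]
    (m n : ℕ) (h : m + n = 2) (y : levelCohomology 𝒰 X n)
    (w : levelCohomology 𝒰 (X.dualTwist χ) m) :
    Ψ 𝒰 χ t X m n h y w = t ((evPairing 𝒰 χ X).pairH m n 2 h w y) := rfl

/-- Naturality of `Ψ`. -/
theorem Ψ_natural {X Y : Rep.{u} k G} [IsDiscrete 𝒰 X] [IsDiscrete 𝒰 (X.dualTwist χ)]
    [IsDiscrete 𝒰 Y] [IsDiscrete 𝒰 (Y.dualTwist χ)] (f : X ⟶ Y) (m n : ℕ) (h : m + n = 2)
    (y : levelCohomology 𝒰 X n) (w : levelCohomology 𝒰 (Y.dualTwist χ) m) :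
    Ψ 𝒰 χ t Y m n h (lmap 𝒰 f n y) w =
      Ψ 𝒰 χ t X m n h y (lmap 𝒰 (dualTwistMap χ f) m w) := by
  rw [Ψ_apply, Ψ_apply, evPairing_adjoint]

variable {S : ShortComplex (Rep.{u} k G)} [IsDiscrete 𝒰 S.X₁] [IsDiscrete 𝒰 S.X₂]
  [IsDiscrete 𝒰 S.X₃] [IsDiscrete 𝒰 (S.X₁.dualTwist χ)] [IsDiscrete 𝒰 (S.X₂.dualTwist χ)]
  [IsDiscrete 𝒰 (S.X₃.dualTwist χ)]

/-- Dévissage, degree `0`: if `Ψ⁰` is injective for the middle term of a short exact sequence,
it is injective for the left term. -/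
theorem Ψ_injective_zero (hS : S.ShortExact)
    (hI : Function.Injective (Ψ 𝒰 χ t S.X₂ 2 0 rfl)) :
    Function.Injective (Ψ 𝒰 χ t S.X₁ 2 0 rfl) := by
  have hf : Function.Injective S.f.hom := (Rep.mono_iff_injective S.f).1 hS.mono_f
  rw [injective_iff_map_eq_zero]
  intro x hx
  have h1 : lmap 𝒰 S.f 0 x = 0 := by
    apply hI
    rw [map_zero]
    ext w
    rw [Ψ_natural, hx]
    rfl
  have h2 := homologyMap_levelMap_zero_injective 𝒰 S.f hf
  exact h2 (h1.trans (map_zero _).symm)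

/-- Dévissage, inductive step (mono four lemma): for a short exact sequence `0 → X → I → Q → 0`,
if `Ψ` in degree `n` is surjective for `I` and injective for `Q`, and `Ψ` in degree `n + 1` is
injective for `I`, then `Ψ` in degree `n + 1` is injective for `X`. -/
theorem Ψ_injective_succ (hS : S.ShortExact) (m n : ℕ) (h : m + n = 1)
    (hα : Function.Surjective (Ψ 𝒰 χ t S.X₂ (m + 1) n (by omega)))
    (hβ : Function.Injective (Ψ 𝒰 χ t S.X₃ (m + 1) n (by omega)))
    (hε : Function.Injective (Ψ 𝒰 χ t S.X₂ m (n + 1) (by omega))) :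
    Function.Injective (Ψ 𝒰 χ t S.X₁ m (n + 1) (by omega)) := by
  rw [injective_iff_map_eq_zero]
  intro c hc
  -- step 1: the image of `c` in `Hⁿ⁺¹(I)` vanishes
  have h1 : lmap 𝒰 S.f (n + 1) c = 0 := by
    apply hε
    rw [map_zero]
    ext w
    rw [Ψ_natural, hc]
    rfl
  -- step 2: `c = δ b`
  have hex1 := (ShortComplex.moduleCat_exact_iff _).1 (level_exact₁ 𝒰 hS n (n + 1) rfl)
  obtain ⟨b, hb⟩ := hex1 c h1
  have hb' : (levelδ 𝒰 hS n (n + 1) rfl).hom b = c := hb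
  -- step 3: `Ψ_Q b` vanishes on the image of `δ'`
  have h3 : ∀ x : levelCohomology 𝒰 (S.X₁.dualTwist χ) m,
      Ψ 𝒰 χ t S.X₃ (m + 1) n (by omega) b
        ((levelδ 𝒰 (dualSeq_shortExact χ hS) m (m + 1) rfl).hom x) = 0 := by
    intro x
    have hδ : (evPairing 𝒰 χ S.X₃).pairH (m + 1) n 2 (by omega)
        ((levelδ 𝒰 (dualSeq_shortExact χ hS) m (m + 1) rfl).hom x) b +
      (-1 : k) ^ m • (evPairing 𝒰 χ S.X₁).pairH m (n + 1) 2 (by omega) x
        ((levelδ 𝒰 hS n (n + 1) rfl).hom b) = 0 := evPairing_δ 𝒰 χ hS h x b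
    have hc' : Ψ 𝒰 χ t S.X₁ m (n + 1) (by omega) c x = 0 := by rw [hc]; rfl
    rw [← hb'] at hc'
    let t' : ((levelComplex 𝒰 (ofChar χ)).homology 2) →ₗ[k] k := t
    have hc'' : t' ((evPairing 𝒰 χ S.X₁).pairH m (n + 1) 2 (by omega) x
        ((levelδ 𝒰 hS n (n + 1) rfl).hom b)) = 0 := hc'
    show t' ((evPairing 𝒰 χ S.X₃).pairH (m + 1) n 2 (by omega)
        ((levelδ 𝒰 (dualSeq_shortExact χ hS) m (m + 1) rfl).hom x) b) = 0
    have := congrArg t' hδ
    rw [map_add, map_smul, hc'', smul_zero, add_zero, map_zero] at this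
    exact this
  -- step 4: `Ψ_Q b` factors through `Hᵐ⁺¹(Q') → Hᵐ⁺¹(I')`
  have hex2 := (ShortComplex.moduleCat_exact_iff _).1
    (level_exact₁ 𝒰 (dualSeq_shortExact χ hS) m (m + 1) rfl)
  obtain ⟨e, he⟩ := exists_dual_comp_eq (lmap 𝒰 (dualTwistMap χ S.g) (m + 1))
    (Ψ 𝒰 χ t S.X₃ (m + 1) n (by omega) b) (by
      intro w hw
      obtain ⟨x, hx⟩ := hex2 w hw
      have hx' : (levelδ 𝒰 (dualSeq_shortExact χ hS) m (m + 1) rfl).hom x = w := hx
      rw [LinearMap.mem_ker, ← hx']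
      exact h3 x)
  -- step 5: `b` comes from `Hⁿ(I)`
  obtain ⟨a, rfl⟩ := hα e
  have h5 : b = lmap 𝒰 S.g n a := by
    apply hβ
    ext w
    rw [Ψ_natural]
    exact (LinearMap.congr_fun he w).symm
  -- step 6
  rw [← hb', h5]
  have := (levelShortComplex_shortExact 𝒰 hS).comp_δ n (n + 1) rfl
  exact ConcreteCategory.congr_hom this a

end Step

section Main

variable {k G : Type u} [Field k] [Group G] (𝒰 : LevelStructure G) (χ : G →* kˣ)
  [IsDiscrete 𝒰 (ofChar χ)] (t : levelCohomology 𝒰 (ofChar χ) 2 →ₗ[k] k)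

/-- The base case of the dévissage: the duality maps of the coinduced module `coind_U^G res_U X`,
`U` acting trivially on `X` and on `k(χ)`. -/
def BaseCase : Prop :=
  ∀ (U : Subgroup G), U ∈ 𝒰.sets → ∀ (X : Rep.{u} k G) [IsDiscrete 𝒰 X] [FiniteDimensional k X]
    [IsDiscrete 𝒰 (coindRes U X)] [IsDiscrete 𝒰 ((coindRes U X).dualTwist χ)],
    (∀ u ∈ U, ∀ a : X, X.ρ u a = a) → (∀ u ∈ U, χ u = 1) →
      Function.Bijective (Ψ 𝒰 χ t (coindRes U X) 2 0 rfl) ∧
      Function.Bijective (Ψ 𝒰 χ t (coindRes U X) 1 1 rfl) ∧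
      Function.Injective (Ψ 𝒰 χ t (coindRes U X) 0 2 rfl)

/-- There is a member of the family on which `χ` is trivial. -/
theorem exists_level_le_ker : ∃ U ∈ 𝒰.sets, ∀ u ∈ U, χ u = 1 := by
  obtain ⟨U, hU, h⟩ := IsDiscrete.exists_fix (𝒰 := 𝒰) (A := ofChar χ) (1 : k)
  refine ⟨U, hU, fun u hu => ?_⟩
  have := h u hu
  rw [ofChar_ρ_apply, mul_one] at this
  exact Units.ext this

/-- Data of one dévissage step for `X`. -/
theorem exists_step (X : Rep.{u} k G) [IsDiscrete 𝒰 X] [FiniteDimensional k X] :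
    ∃ U ∈ 𝒰.sets, (∀ u ∈ U, ∀ a : X, X.ρ u a = a) ∧ (∀ u ∈ U, χ u = 1) ∧
      IsDiscrete 𝒰 (coindRes U X) ∧ FiniteDimensional k (coindRes U X) ∧
      IsDiscrete 𝒰 (coindQuot U X) ∧ FiniteDimensional k (coindQuot U X) ∧
      (devissageSeq U X).ShortExact := by
  obtain ⟨U₀, hU₀, hχ⟩ := exists_level_le_ker 𝒰 χ
  obtain ⟨U, hU, hUU₀, htriv, -, h1, h2, h3, h4, h5⟩ := exists_devissage (𝒰 := 𝒰) X hU₀
  exact ⟨U, hU, htriv, fun u hu => hχ u (hUU₀ hu), h1, h2, h3, h4, h5⟩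

/-- **Dévissage for the duality maps of level cohomology** (mono version): if the base case holds
then `Ψ` is injective in degrees `0, 1, 2` for every finite dimensional discrete `X`. -/
theorem Ψ_injective (hbase : BaseCase 𝒰 χ t) :
    ∀ (X : Rep.{u} k G) [IsDiscrete 𝒰 X] [FiniteDimensional k X] [IsDiscrete 𝒰 (X.dualTwist χ)],
      Function.Injective (Ψ 𝒰 χ t X 2 0 rfl) ∧ Function.Injective (Ψ 𝒰 χ t X 1 1 rfl) ∧
        Function.Injective (Ψ 𝒰 χ t X 0 2 rfl) := by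
  -- degree 0
  have step0 : ∀ (X : Rep.{u} k G) [IsDiscrete 𝒰 X] [FiniteDimensional k X]
      [IsDiscrete 𝒰 (X.dualTwist χ)], Function.Injective (Ψ 𝒰 χ t X 2 0 rfl) := by
    intro X _ _ _
    obtain ⟨U, hU, htriv, hχ, hI, hIf, hQ, hQf, hS⟩ := exists_step 𝒰 χ X
    have := hI; have := hIf; have := hQ; have := hQf
    have hI' : IsDiscrete 𝒰 ((coindRes U X).dualTwist χ) := isDiscrete_dualTwist 𝒰 χ _
    have hQ' : IsDiscrete 𝒰 ((coindQuot U X).dualTwist χ) := isDiscrete_dualTwist 𝒰 χ _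
    have : IsDiscrete 𝒰 (devissageSeq U X).X₁ := ‹IsDiscrete 𝒰 X›
    have : IsDiscrete 𝒰 (devissageSeq U X).X₂ := hI
    have : IsDiscrete 𝒰 (devissageSeq U X).X₃ := hQ
    have : IsDiscrete 𝒰 ((devissageSeq U X).X₁.dualTwist χ) := ‹IsDiscrete 𝒰 (X.dualTwist χ)›
    have : IsDiscrete 𝒰 ((devissageSeq U X).X₂.dualTwist χ) := hI'
    have : IsDiscrete 𝒰 ((devissageSeq U X).X₃.dualTwist χ) := hQ'
    obtain ⟨b0, -, -⟩ := hbase U hU X htriv hχ
    exact Ψ_injective_zero 𝒰 χ t (S := devissageSeq U X) hS b0.1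
  -- degree 1
  have step1 : ∀ (X : Rep.{u} k G) [IsDiscrete 𝒰 X] [FiniteDimensional k X]
      [IsDiscrete 𝒰 (X.dualTwist χ)], Function.Injective (Ψ 𝒰 χ t X 1 1 rfl) := by
    intro X _ _ _
    obtain ⟨U, hU, htriv, hχ, hI, hIf, hQ, hQf, hS⟩ := exists_step 𝒰 χ X
    have := hI; have := hIf; have := hQ; have := hQf
    have hI' : IsDiscrete 𝒰 ((coindRes U X).dualTwist χ) := isDiscrete_dualTwist 𝒰 χ _
    have hQ' : IsDiscrete 𝒰 ((coindQuot U X).dualTwist χ) := isDiscrete_dualTwist 𝒰 χ _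
    have : IsDiscrete 𝒰 (devissageSeq U X).X₁ := ‹IsDiscrete 𝒰 X›
    have : IsDiscrete 𝒰 (devissageSeq U X).X₂ := hI
    have : IsDiscrete 𝒰 (devissageSeq U X).X₃ := hQ
    have : IsDiscrete 𝒰 ((devissageSeq U X).X₁.dualTwist χ) := ‹IsDiscrete 𝒰 (X.dualTwist χ)›
    have : IsDiscrete 𝒰 ((devissageSeq U X).X₂.dualTwist χ) := hI'
    have : IsDiscrete 𝒰 ((devissageSeq U X).X₃.dualTwist χ) := hQ'
    obtain ⟨b0, b1, -⟩ := hbase U hU X htriv hχ
    exact Ψ_injective_succ 𝒰 χ t (S := devissageSeq U X) hS 1 0 rfl b0.2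
      (step0 (coindQuot U X)) b1.1
  -- degree 2
  have step2 : ∀ (X : Rep.{u} k G) [IsDiscrete 𝒰 X] [FiniteDimensional k X]
      [IsDiscrete 𝒰 (X.dualTwist χ)], Function.Injective (Ψ 𝒰 χ t X 0 2 rfl) := by
    intro X _ _ _
    obtain ⟨U, hU, htriv, hχ, hI, hIf, hQ, hQf, hS⟩ := exists_step 𝒰 χ X
    have := hI; have := hIf; have := hQ; have := hQf
    have hI' : IsDiscrete 𝒰 ((coindRes U X).dualTwist χ) := isDiscrete_dualTwist 𝒰 χ _
    have hQ' : IsDiscrete 𝒰 ((coindQuot U X).dualTwist χ) := isDiscrete_dualTwist 𝒰 χ _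
    have : IsDiscrete 𝒰 (devissageSeq U X).X₁ := ‹IsDiscrete 𝒰 X›
    have : IsDiscrete 𝒰 (devissageSeq U X).X₂ := hI
    have : IsDiscrete 𝒰 (devissageSeq U X).X₃ := hQ
    have : IsDiscrete 𝒰 ((devissageSeq U X).X₁.dualTwist χ) := ‹IsDiscrete 𝒰 (X.dualTwist χ)›
    have : IsDiscrete 𝒰 ((devissageSeq U X).X₂.dualTwist χ) := hI'
    have : IsDiscrete 𝒰 ((devissageSeq U X).X₃.dualTwist χ) := hQ'
    obtain ⟨-, b1, b2⟩ := hbase U hU X htriv hχ
    exact Ψ_injective_succ 𝒰 χ t (S := devissageSeq U X) hS 0 1 rfl b1.2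
      (step1 (coindQuot U X)) b2
  intro X _ _ _
  exact ⟨step0 X, step1 X, step2 X⟩

end Main

end Fermat.Agent.S55.LevelDuality
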