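/-
S55, route R2, block ALG3, part 2: products of cochain complexes, and the compactly supported
level cohomology `Hc` attached to a global level structure and a family of local groups
`r v : Gv v →* G` with their own level structures:

    Cc D A = fiber (levelComplex 𝒰 A ⟶ ∏_v levelComplex (𝒱 v) (res (r v) A)).

Long exact sequence `∏_v Hⁿ⁻¹(Gv, A) → Hcⁿ(A) → Hⁿ(G, A) → ∏_v Hⁿ(Gv, A)`, functoriality in `A`
and the long exact sequence attached to a short exact sequence of discrete representations.
-/
import Fermat.Agent.S55.Cone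
import Fermat.Agent.S55.LevelFunct

set_option autoImplicit false

namespace Fermat.Agent.S55.Cone

open CategoryTheory Fermat.Agent.S55.CochainTools Fermat.Agent.S55.Level

universe v u

section Complements

variable {k : Type u} [CommRing k] {K₁ L₁ K₂ L₂ : CochainComplex (ModuleCat.{v} k) ℕ}
  (φ₁ : K₁ ⟶ L₁) (φ₂ : K₂ ⟶ L₂) (α : K₁ ⟶ K₂) (β : L₁ ⟶ L₂) (comm : φ₁ ≫ β = α ≫ φ₂)

/-- Naturality of the projection of the fibre sequence, on cohomology. -/
theorem homologyMap_fiberπ_fiberMap (n : ℕ) (x : (fiber φ₁).homology n) :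
    (HomologicalComplex.homologyMap (fiberπ φ₂) n).hom
        ((HomologicalComplex.homologyMap (fiberMap φ₁ φ₂ α β comm) n).hom x) =
      (HomologicalComplex.homologyMap α n).hom
        ((HomologicalComplex.homologyMap (fiberπ φ₁) n).hom x) := by
  obtain ⟨z, rfl⟩ := cls_surjective (fiber φ₁) n x
  rw [homologyMap_cls, homologyMap_cls, homologyMap_cls, homologyMap_cls]
  congr 1

end Complements

section Prod

variable {k : Type u} [CommRing k] {ι : Type v} (L : ι → CochainComplex (ModuleCat.{v} k) ℕ)

/-- The differential of the product complex. -/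
def prodD (n : ℕ) : (∀ i, (L i).X n) →ₗ[k] (∀ i, (L i).X (n + 1)) :=
  LinearMap.pi fun i => ((L i).d n (n + 1)).hom ∘ₗ LinearMap.proj i

theorem prodD_apply (n : ℕ) (x : ∀ i, (L i).X n) (i : ι) :
    prodD L n x i = ((L i).d n (n + 1)).hom (x i) := rfl

/-- The product of a family of cochain complexes of modules. -/
noncomputable def prodComplex : CochainComplex (ModuleCat.{v} k) ℕ :=
  CochainComplex.of (fun n => ModuleCat.of k (∀ i, (L i).X n))
    (fun n => ModuleCat.ofHom (prodD L n))
    (fun n => ModuleCat.hom_ext (LinearMap.ext fun x => funext fun i => d_d_apply (L i) n (x i)))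

/-- The components of an element of the product complex. -/
def prodπ (n : ℕ) (i : ι) : (prodComplex L).X n →ₗ[k] (L i).X n :=
  LinearMap.proj (φ := fun i => (L i).X n) i

/-- Constructor for elements of the product complex. -/
def prodMk (n : ℕ) (x : ∀ i, (L i).X n) : (prodComplex L).X n := x

variable {L}

theorem prod_ext {n : ℕ} {x y : (prodComplex L).X n} (h : ∀ i, prodπ L n i x = prodπ L n i y) :
    x = y := funext h

variable (L)

@[simp] theorem prodπ_mk (n : ℕ) (x : ∀ i, (L i).X n) (i : ι) :
    prodπ L n i (prodMk L n x) = x i := rfl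

theorem prodπ_d (n : ℕ) (i : ι) (x : (prodComplex L).X n) :
    prodπ L (n + 1) i (((prodComplex L).d n (n + 1)).hom x) =
      ((L i).d n (n + 1)).hom (prodπ L n i x) := by
  have h : (prodComplex L).d n (n + 1) = ModuleCat.ofHom (prodD L n) :=
    CochainComplex.of_d (fun n => ModuleCat.of k (∀ i, (L i).X n))
      (fun n => ModuleCat.ofHom (prodD L n)) n
  rw [h]
  rfl

/-- The projections of the product complex. -/
noncomputable def prodProj (i : ι) : prodComplex L ⟶ L i where
  f n := ModuleCat.ofHom (prodπ L n i)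
  comm' a b hab := by
    have hab' : a + 1 = b := hab
    subst hab'
    refine ModuleCat.hom_ext (LinearMap.ext fun x => ?_)
    exact (prodπ_d L a i x).symm

@[simp] theorem prodProj_f_apply (i : ι) (n : ℕ) (x : (prodComplex L).X n) :
    ((prodProj L i).f n).hom x = prodπ L n i x := rfl

variable {L} in
/-- The linear maps underlying `prodLift`. -/
def prodLiftLin {K : CochainComplex (ModuleCat.{v} k) ℕ} (f : ∀ i, K ⟶ L i) (n : ℕ) :
    K.X n →ₗ[k] (prodComplex L).X n :=
  LinearMap.pi fun i => ((f i).f n).hom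

variable {L} in
@[simp] theorem prodπ_prodLiftLin {K : CochainComplex (ModuleCat.{v} k) ℕ} (f : ∀ i, K ⟶ L i)
    (n : ℕ) (i : ι) (x : K.X n) :
    prodπ L n i (prodLiftLin f n x) = ((f i).f n).hom x := rfl

variable {L} in
/-- The morphism to the product complex induced by a family of morphisms. -/
noncomputable def prodLift {K : CochainComplex (ModuleCat.{v} k) ℕ} (f : ∀ i, K ⟶ L i) :
    K ⟶ prodComplex L where
  f n := ModuleCat.ofHom (prodLiftLin f n)
  comm' a b hab := by
    have hab' : a + 1 = b := hab
    subst hab'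
    refine ModuleCat.hom_ext (LinearMap.ext fun x => ?_)
    apply prod_ext
    intro i
    show prodπ L (a + 1) i (((prodComplex L).d a (a + 1)).hom (prodLiftLin f a x)) =
      prodπ L (a + 1) i (prodLiftLin f (a + 1) ((K.d a (a + 1)).hom x))
    rw [prodπ_d, prodπ_prodLiftLin, prodπ_prodLiftLin]
    exact comm_apply (f i) a (a + 1) x

variable {L} in
@[simp] theorem prodLift_f_apply {K : CochainComplex (ModuleCat.{v} k) ℕ} (f : ∀ i, K ⟶ L i)
    (n : ℕ) (x : K.X n) : ((prodLift f).f n).hom x = prodLiftLin f n x := rfl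

variable {L} in
theorem prodLift_comp_prodProj {K : CochainComplex (ModuleCat.{v} k) ℕ} (f : ∀ i, K ⟶ L i)
    (i : ι) : prodLift f ≫ prodProj L i = f i := by
  ext n : 1
  refine ModuleCat.hom_ext (LinearMap.ext fun x => ?_)
  rfl

theorem mem_Z_prod_iff {n : ℕ} (x : (prodComplex L).X n) :
    x ∈ Z (prodComplex L) n ↔ ∀ i, prodπ L n i x ∈ Z (L i) n := by
  simp only [mem_Z_iff]
  constructor
  · intro h i
    rw [← prodπ_d, h, map_zero]
  · intro h
    apply prod_ext
    intro i
    rw [prodπ_d, h i, map_zero]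

/-- The comparison map from the cohomology of a product to the product of the cohomologies. -/
noncomputable def prodHomologyMap (n : ℕ) :
    (prodComplex L).homology n →ₗ[k] ∀ i, (L i).homology n :=
  LinearMap.pi fun i => (HomologicalComplex.homologyMap (prodProj L i) n).hom

theorem prodHomologyMap_cls (n : ℕ) (z : Z (prodComplex L) n) (i : ι) :
    prodHomologyMap L n (cls _ n z) i = cls (L i) n (mapZ (prodProj L i) n z) :=
  homologyMap_cls (prodProj L i) z

theorem prodHomologyMap_injective (n : ℕ) : Function.Injective (prodHomologyMap L n) := by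
  rw [← LinearMap.ker_eq_bot, eq_bot_iff]
  intro x hx
  obtain ⟨z, rfl⟩ := cls_surjective (prodComplex L) n x
  rw [LinearMap.mem_ker] at hx
  have h : ∀ i, mapZ (prodProj L i) n z ∈ B (L i) n := by
    intro i
    rw [← cls_eq_zero_iff, ← prodHomologyMap_cls, hx]
    rfl
  rw [Submodule.mem_bot, cls_eq_zero_iff]
  cases n with
  | zero =>
    rw [mem_B_zero_iff]
    apply Subtype.ext
    apply prod_ext
    intro i
    have := (mem_B_zero_iff (L i) _).1 (h i)
    have h2 := congrArg Subtype.val this
    show prodπ L 0 i z.1 = prodπ L 0 i 0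
    rw [map_zero]
    exact h2
  | succ n =>
    rw [mem_B_succ_iff]
    have h' : ∀ i, ∃ b : (L i).X n, ((L i).d n (n + 1)).hom b = prodπ L (n + 1) i z.1 :=
      fun i => (mem_B_succ_iff (L i) _).1 (h i)
    choose b hb using h'
    refine ⟨prodMk L n b, ?_⟩
    apply prod_ext
    intro i
    rw [prodπ_d, prodπ_mk, hb]

theorem prodHomologyMap_surjective (n : ℕ) : Function.Surjective (prodHomologyMap L n) := by
  intro y
  have h : ∀ i, ∃ z : Z (L i) n, cls (L i) n z = y i := fun i => cls_surjective (L i) n (y i)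
  choose z hz using h
  have hZ : prodMk L n (fun i => (z i).1) ∈ Z (prodComplex L) n := by
    rw [mem_Z_prod_iff]
    intro i
    rw [prodπ_mk]
    exact (z i).2
  refine ⟨cls _ n ⟨_, hZ⟩, ?_⟩
  funext i
  rw [prodHomologyMap_cls, ← hz i]
  rfl

/-- The cohomology of a product is the product of the cohomologies. -/
noncomputable def prodHomologyEquiv (n : ℕ) :
    (prodComplex L).homology n ≃ₗ[k] ∀ i, (L i).homology n :=
  LinearEquiv.ofBijective (prodHomologyMap L n)
    ⟨prodHomologyMap_injective L n, prodHomologyMap_surjective L n⟩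

@[simp] theorem prodHomologyEquiv_apply (n : ℕ) (x : (prodComplex L).homology n) (i : ι) :
    prodHomologyEquiv L n x i = (HomologicalComplex.homologyMap (prodProj L i) n).hom x := rfl

variable {L} in
theorem prodHomologyEquiv_prodLift {K : CochainComplex (ModuleCat.{v} k) ℕ} (f : ∀ i, K ⟶ L i)
    (n : ℕ) (x : K.homology n) (i : ι) :
    prodHomologyEquiv L n ((HomologicalComplex.homologyMap (prodLift f) n).hom x) i =
      (HomologicalComplex.homologyMap (f i) n).hom x := by
  rw [prodHomologyEquiv_apply]
  have := congrArg (fun g : K ⟶ L i => (HomologicalComplex.homologyMap g n).hom x)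
    (prodLift_comp_prodProj f i)
  simp only [HomologicalComplex.homologyMap_comp, ModuleCat.hom_comp, LinearMap.comp_apply] at this
  exact this

section ProdMap

variable {L' : ι → CochainComplex (ModuleCat.{v} k) ℕ}

variable {L} in
/-- The morphism of product complexes induced by a family of morphisms. -/
noncomputable def prodMap (f : ∀ i, L i ⟶ L' i) : prodComplex L ⟶ prodComplex L' :=
  prodLift fun i => prodProj L i ≫ f i

variable {L} in
@[simp] theorem prodπ_prodMap (f : ∀ i, L i ⟶ L' i) (n : ℕ) (i : ι) (x : (prodComplex L).X n) :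
    prodπ L' n i (((prodMap f).f n).hom x) = ((f i).f n).hom (prodπ L n i x) := rfl

variable {L} in
theorem prodLift_comp_prodMap {K : CochainComplex (ModuleCat.{v} k) ℕ} (g : ∀ i, K ⟶ L i)
    (f : ∀ i, L i ⟶ L' i) : prodLift g ≫ prodMap f = prodLift fun i => g i ≫ f i := by
  ext n : 1
  refine ModuleCat.hom_ext (LinearMap.ext fun x => ?_)
  rfl

end ProdMap

section ProdShortExact

open ShortComplex

variable (S : ι → ShortComplex (CochainComplex (ModuleCat.{v} k) ℕ))

/-- The product of a family of short complexes of cochain complexes. -/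
noncomputable def prodShortComplex : ShortComplex (CochainComplex (ModuleCat.{v} k) ℕ) where
  X₁ := prodComplex fun i => (S i).X₁
  X₂ := prodComplex fun i => (S i).X₂
  X₃ := prodComplex fun i => (S i).X₃
  f := prodMap fun i => (S i).f
  g := prodMap fun i => (S i).g
  zero := by
    ext n : 1
    refine ModuleCat.hom_ext (LinearMap.ext fun x => ?_)
    apply prod_ext
    intro i
    exact congrArg (fun f => (f.f n).hom (prodπ _ n i x)) (S i).zero

theorem prodShortComplex_shortExact (h : ∀ i, (S i).ShortExact) :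
    (prodShortComplex S).ShortExact := by
  have h' := fun i => (shortExact_iff_elementwise (S i)).1 (h i)
  rw [shortExact_iff_elementwise]
  refine ⟨fun n x y hxy => ?_, fun n z => ?_, fun n y hy => ?_⟩
  · apply prod_ext
    intro i
    apply (h' i).1 n
    exact congrArg (prodπ (fun i => (S i).X₂) n i) hxy
  · have hz : ∀ i, ∃ y : (S i).X₂.X n, ((S i).g.f n).hom y = prodπ (fun i => (S i).X₃) n i z :=
      fun i => (h' i).2.1 n _
    choose y hy using hz
    refine ⟨prodMk (fun i => (S i).X₂) n y, ?_⟩
    apply prod_ext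
    intro i
    exact hy i
  · have hx : ∀ i, ∃ x : (S i).X₁.X n, ((S i).f.f n).hom x = prodπ (fun i => (S i).X₂) n i y := by
      intro i
      apply (h' i).2.2 n
      exact congrArg (prodπ (fun i => (S i).X₃) n i) hy
    choose x hx using hx
    refine ⟨prodMk (fun i => (S i).X₁) n x, ?_⟩
    apply prod_ext
    intro i
    exact hx i

end ProdShortExact

end Prod

section Level

variable {k G : Type u} [CommRing k] [Group G]

/-- The restriction of a discrete representation along a homomorphism compatible with the level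
structures is discrete. -/
theorem isDiscrete_res {H : Type u} [Group H] {𝒰 : LevelStructure G} {𝒱 : LevelStructure H}
    (f : H →* G) (hf : 𝒱.Refines 𝒰 f) (A : Rep.{u} k G) [IsDiscrete 𝒰 A] :
    IsDiscrete 𝒱 (Rep.res f A) :=
  ⟨fun a => by
    obtain ⟨U, hU, hfix⟩ := IsDiscrete.exists_fix (𝒰 := 𝒰) (A := A) a
    obtain ⟨V, hV, hVU⟩ := hf U hU
    exact ⟨V, hV, fun u hu => hfix (f u) (hVU hu)⟩⟩

/-- A family of "local" groups mapping to `G`, with level structures refining a given level
structure on `G`. -/
structure LocalData (𝒰 : LevelStructure G) where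
  /-- the index set (the set of places) -/
  ι : Type u
  /-- the local groups -/
  Gv : ι → Type u
  [grp : ∀ v, Group (Gv v)]
  /-- the maps to the global group -/
  r : ∀ v, Gv v →* G
  /-- the local level structures -/
  𝒱 : ∀ v, LevelStructure (Gv v)
  refines : ∀ v, (𝒱 v).Refines 𝒰 (r v)

attribute [instance] LocalData.grp

variable {𝒰 : LevelStructure G} (D : LocalData 𝒰)

instance LocalData.isDiscrete_res (A : Rep.{u} k G) [IsDiscrete 𝒰 A] (v : D.ι) :
    IsDiscrete (D.𝒱 v) (Rep.res (D.r v) A) :=
  Cone.isDiscrete_res (D.r v) (D.refines v) A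

section Defs

variable (A : Rep.{u} k G) [IsDiscrete 𝒰 A]

/-- The product of the local level complexes. -/
noncomputable def locComplex : CochainComplex (ModuleCat.{u} k) ℕ :=
  prodComplex fun v => levelComplex (D.𝒱 v) (Rep.res (D.r v) A)

/-- The restriction map to the local level complex at `v`. -/
noncomputable def resAt (v : D.ι) :
    levelComplex 𝒰 A ⟶ levelComplex (D.𝒱 v) (Rep.res (D.r v) A) :=
  levelCochainsMap (D.r v) (D.refines v) (𝟙 _)

/-- The localisation map of complexes. -/
noncomputable def locMap : levelComplex 𝒰 A ⟶ locComplex D A :=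
  prodLift (resAt D A)

/-- The complex computing compactly supported level cohomology. -/
noncomputable def Cc : CochainComplex (ModuleCat.{u} k) ℕ := fiber (locMap D A)

/-- Compactly supported level cohomology. -/
noncomputable abbrev Hc (n : ℕ) : ModuleCat.{u} k := (Cc D A).homology n

/-- The forgetful map `Hcⁿ(A) → Hⁿ(G, A)`. -/
noncomputable def HcToH (n : ℕ) : Hc D A n →ₗ[k] levelCohomology 𝒰 A n :=
  (HomologicalComplex.homologyMap (fiberπ (locMap D A)) n).hom

/-- The localisation map `Hⁿ(G, A) → ∏_v Hⁿ(G_v, A)`. -/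
noncomputable def locH (n : ℕ) :
    levelCohomology 𝒰 A n →ₗ[k] ∀ v, levelCohomology (D.𝒱 v) (Rep.res (D.r v) A) n :=
  LinearMap.pi fun v => (levelCohomologyMap (D.r v) (D.refines v) (𝟙 _) n).hom

/-- The identification of the cohomology of the product of the local complexes. -/
noncomputable def locEquiv (n : ℕ) :
    (locComplex D A).homology n ≃ₗ[k]
      ∀ v, levelCohomology (D.𝒱 v) (Rep.res (D.r v) A) n :=
  prodHomologyEquiv (fun v => levelComplex (D.𝒱 v) (Rep.res (D.r v) A)) n

/-- The boundary map `∏_v Hⁿ(G_v, A) → Hcⁿ⁺¹(A)`. -/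
noncomputable def HcBd (n : ℕ) :
    (∀ v, levelCohomology (D.𝒱 v) (Rep.res (D.r v) A) n) →ₗ[k] Hc D A (n + 1) :=
  fiberBd (locMap D A) n ∘ₗ (locEquiv D A n).symm.toLinearMap

theorem locH_apply (n : ℕ) (x : levelCohomology 𝒰 A n) :
    locH D A n x = locEquiv D A n ((HomologicalComplex.homologyMap (locMap D A) n).hom x) := by
  funext v
  exact (prodHomologyEquiv_prodLift (resAt D A) n x v).symm

theorem HcBd_apply (n : ℕ) (y : ∀ v, levelCohomology (D.𝒱 v) (Rep.res (D.r v) A) n) :
    HcBd D A n y = fiberBd (locMap D A) n ((locEquiv D A n).symm y) := rfl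

/-- Exactness of `∏_v Hⁿ(G_v, A) → Hcⁿ⁺¹(A) → Hⁿ⁺¹(G, A)`. -/
theorem ker_HcToH_eq_range_HcBd (n : ℕ) :
    LinearMap.ker (HcToH D A (n + 1)) = LinearMap.range (HcBd D A n) := by
  ext x
  constructor
  · intro hx
    have h : x ∈ LinearMap.range (fiberBd (locMap D A) n) := by
      rw [← ker_fiberπ_eq_range_fiberBd]
      exact hx
    obtain ⟨y, rfl⟩ := h
    exact ⟨locEquiv D A n y,
      congrArg (fiberBd (locMap D A) n) ((locEquiv D A n).symm_apply_apply y)⟩
  · rintro ⟨y, rfl⟩
    have h : fiberBd (locMap D A) n ((locEquiv D A n).symm y) ∈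
        LinearMap.range (fiberBd (locMap D A) n) := ⟨_, rfl⟩
    rw [← ker_fiberπ_eq_range_fiberBd] at h
    exact h

/-- Exactness of `Hcⁿ(A) → Hⁿ(G, A) → ∏_v Hⁿ(G_v, A)`. -/
theorem ker_locH_eq_range_HcToH (n : ℕ) :
    LinearMap.ker (locH D A n) = LinearMap.range (HcToH D A n) := by
  ext x
  rw [LinearMap.mem_ker, locH_apply, LinearEquiv.map_eq_zero_iff]
  have h := ker_map_eq_range_fiberπ (locMap D A) n
  constructor
  · intro hx
    have hx' : x ∈ LinearMap.ker (HomologicalComplex.homologyMap (locMap D A) n).hom := hx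
    rw [h] at hx'
    exact hx'
  · intro hx
    have hx' : x ∈ LinearMap.range
        (HomologicalComplex.homologyMap (fiberπ (locMap D A)) n).hom := hx
    rw [← h] at hx'
    exact hx'

/-- Exactness of `Hⁿ(G, A) → ∏_v Hⁿ(G_v, A) → Hcⁿ⁺¹(A)`. -/
theorem ker_HcBd_eq_range_locH (n : ℕ) :
    LinearMap.ker (HcBd D A n) = LinearMap.range (locH D A n) := by
  have h := ker_fiberBd_eq_range_map (locMap D A) n
  ext y
  constructor
  · intro hy
    have hy' : (locEquiv D A n).symm y ∈ LinearMap.ker (fiberBd (locMap D A) n) := hy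
    rw [h] at hy'
    obtain ⟨x, hx⟩ := hy'
    refine ⟨x, ?_⟩
    refine (locH_apply D A n x).trans ?_
    rw [hx]
    exact (locEquiv D A n).apply_symm_apply y
  · rintro ⟨x, rfl⟩
    have hx : (HomologicalComplex.homologyMap (locMap D A) n).hom x ∈
        LinearMap.range (HomologicalComplex.homologyMap (locMap D A) n).hom := ⟨x, rfl⟩
    rw [← h] at hx
    rw [LinearMap.mem_ker, HcBd_apply, locH_apply, LinearEquiv.symm_apply_apply]
    exact hx

/-- `Hc⁰(A) → H⁰(G, A)` is injective. -/
theorem HcToH_zero_injective : Function.Injective (HcToH D A 0) :=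
  homologyMap_fiberπ_zero_injective (locMap D A)

end Defs

section Functoriality

variable {A B : Rep.{u} k G} [IsDiscrete 𝒰 A] [IsDiscrete 𝒰 B] (φ : A ⟶ B)

/-- The map of local complexes induced by a morphism of representations. -/
noncomputable def locComplexMap : locComplex D A ⟶ locComplex D B :=
  prodMap fun v => levelMap (D.𝒱 v) ((Rep.resFunctor (D.r v)).map φ)

theorem locMap_comm : locMap D A ≫ locComplexMap D φ = levelMap 𝒰 φ ≫ locMap D B := by
  ext n : 1
  refine ModuleCat.hom_ext (LinearMap.ext fun x => ?_)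
  apply prod_ext
  intro v
  rfl

/-- The map of compactly supported complexes induced by a morphism of representations. -/
noncomputable def CcMap : Cc D A ⟶ Cc D B :=
  fiberMap (locMap D A) (locMap D B) (levelMap 𝒰 φ) (locComplexMap D φ) (locMap_comm D φ)

/-- The map induced on compactly supported cohomology. -/
noncomputable def HcMap (n : ℕ) : Hc D A n →ₗ[k] Hc D B n :=
  (HomologicalComplex.homologyMap (CcMap D φ) n).hom

theorem HcToH_HcMap (n : ℕ) (x : Hc D A n) :
    HcToH D B n (HcMap D φ n x) =
      (levelCohomologyMap (MonoidHom.id G) 𝒰.refines_id φ n).hom (HcToH D A n x) :=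
  homologyMap_fiberπ_fiberMap (locMap D A) (locMap D B) (levelMap 𝒰 φ) (locComplexMap D φ)
    (locMap_comm D φ) n x

end Functoriality

section SES

open ShortComplex

variable (X : ShortComplex (Rep.{u} k G)) [IsDiscrete 𝒰 X.X₁] [IsDiscrete 𝒰 X.X₂]
  [IsDiscrete 𝒰 X.X₃]

/-- The restriction of a short complex of representations to a local group. -/
noncomputable def resShortComplex (v : D.ι) : ShortComplex (Rep.{u} k (D.Gv v)) :=
  X.map (Rep.resFunctor (D.r v))

instance (v : D.ι) : IsDiscrete (D.𝒱 v) (resShortComplex D X v).X₁ := D.isDiscrete_res X.X₁ v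
instance (v : D.ι) : IsDiscrete (D.𝒱 v) (resShortComplex D X v).X₂ := D.isDiscrete_res X.X₂ v
instance (v : D.ι) : IsDiscrete (D.𝒱 v) (resShortComplex D X v).X₃ := D.isDiscrete_res X.X₃ v

/-- The short complex of products of local level complexes. -/
noncomputable def locShortComplex : ShortComplex (CochainComplex (ModuleCat.{u} k) ℕ) :=
  prodShortComplex fun v => levelShortComplex (D.𝒱 v) (resShortComplex D X v)

/-- The localisation morphism of short complexes. -/
noncomputable def locShortComplexHom : levelShortComplex 𝒰 X ⟶ locShortComplex D X where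
  τ₁ := locMap D X.X₁
  τ₂ := locMap D X.X₂
  τ₃ := locMap D X.X₃
  comm₁₂ := locMap_comm D X.f
  comm₂₃ := locMap_comm D X.g

/-- The short complex of compactly supported complexes. -/
noncomputable def CcShortComplex : ShortComplex (CochainComplex (ModuleCat.{u} k) ℕ) :=
  fiberShortComplex (locShortComplexHom D X)

variable {X}

theorem CcShortComplex_shortExact (hX : X.ShortExact) : (CcShortComplex D X).ShortExact :=
  fiberShortComplex_shortExact _ (levelShortComplex_shortExact 𝒰 hX)
    (prodShortComplex_shortExact _ fun v =>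
      levelShortComplex_shortExact (D.𝒱 v) ((Rep.shortExact_res (D.r v)).2 hX))

/-- The connecting homomorphism of compactly supported cohomology. -/
noncomputable def Hcδ (hX : X.ShortExact) (i j : ℕ) (hij : i + 1 = j) :
    Hc D X.X₃ i →ₗ[k] Hc D X.X₁ j :=
  ((CcShortComplex_shortExact D hX).δ i j hij).hom

/-- Exactness of `Hcⁱ(X₁) → Hcⁱ(X₂) → Hcⁱ(X₃)`. -/
theorem ker_HcMap_g_eq_range_HcMap_f (hX : X.ShortExact) (i : ℕ) :
    LinearMap.ker (HcMap D X.g i) = LinearMap.range (HcMap D X.f i) :=
  ((ShortComplex.moduleCat_exact_iff_range_eq_ker _).1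
    ((CcShortComplex_shortExact D hX).homology_exact₂ i)).symm

/-- Exactness of `Hcⁱ(X₂) → Hcⁱ(X₃) → Hcʲ(X₁)`. -/
theorem ker_Hcδ_eq_range_HcMap_g (hX : X.ShortExact) (i j : ℕ) (hij : i + 1 = j) :
    LinearMap.ker (Hcδ D hX i j hij) = LinearMap.range (HcMap D X.g i) :=
  ((ShortComplex.moduleCat_exact_iff_range_eq_ker _).1
    ((CcShortComplex_shortExact D hX).homology_exact₃ i j hij)).symm

/-- Exactness of `Hcⁱ(X₃) → Hcʲ(X₁) → Hcʲ(X₂)`. -/
theorem ker_HcMap_f_eq_range_Hcδ (hX : X.ShortExact) (i j : ℕ) (hij : i + 1 = j) :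
    LinearMap.ker (HcMap D X.f j) = LinearMap.range (Hcδ D hX i j hij) :=
  ((ShortComplex.moduleCat_exact_iff_range_eq_ker _).1
    ((CcShortComplex_shortExact D hX).homology_exact₁ i j hij)).symm

end SES

end Level

end Fermat.Agent.S55.Cone
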