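/-
S55, route R2, block ALG3, part 3: the cup product pairing
`Hc^m(A) × H^n(G, B) → Hc^p(C)` (`m + n = p`) attached to an equivariant bilinear map
`A × B → C` of discrete representations, with its compatibilities:
boundary maps (C), projections (J), adjoint morphisms (N1), connecting homomorphisms (N2).
-/
import Fermat.Agent.S55.ConeLevel
import Fermat.Agent.S55.CupLevel

set_option autoImplicit false

namespace Fermat.Agent.S55.Cone

open CategoryTheory groupCohomology Fermat.Agent.S55.CochainTools Fermat.Agent.S55.Level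
  Fermat.Agent.S55.Cup

universe u

section LevelPairing

variable {k G : Type u} [CommRing k] [Group G] (𝒰 : LevelStructure G) {A B C : Rep.{u} k G}
  [IsDiscrete 𝒰 A] [IsDiscrete 𝒰 B] [IsDiscrete 𝒰 C]

/-- Reindexing of level cochains along an equality of degrees. -/
def levelCast (C : Rep.{u} k G) [IsDiscrete 𝒰 C] {m p : ℕ} (h : m = p) :
    (levelComplex 𝒰 C).X m →ₗ[k] (levelComplex 𝒰 C).X p where
  toFun f := (⟨fun g => (show levelCochains 𝒰 C m from f).1 (fun i => g (Fin.cast h i)), by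
    subst h
    exact (show levelCochains 𝒰 C m from f).2⟩ : levelCochains 𝒰 C p)
  map_add' _ _ := rfl
  map_smul' _ _ := rfl

theorem coe_levelCast (C : Rep.{u} k G) [IsDiscrete 𝒰 C] {m p : ℕ} (h : m = p)
    (f : levelCochains 𝒰 C m) (g : Fin p → G) :
    (show levelCochains 𝒰 C p from levelCast 𝒰 C h f).1 g = f.1 (fun i => g (Fin.cast h i)) := rfl

variable (φ : A →ₗ[k] B →ₗ[k] C)

/-- The cup product of level cochains with a free target index. -/
noncomputable def levelμ (m n p : ℕ) (h : m + n = p) :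
    (levelComplex 𝒰 A).X m →ₗ[k] (levelComplex 𝒰 B).X n →ₗ[k] (levelComplex 𝒰 C).X p :=
  (levelCupX 𝒰 φ m n).compr₂ (levelCast 𝒰 C h)

theorem coe_levelμ (m n p : ℕ) (h : m + n = p) (a : levelCochains 𝒰 A m)
    (b : levelCochains 𝒰 B n) (g : Fin p → G) :
    (show levelCochains 𝒰 C p from levelμ 𝒰 φ m n p h a b).1 g =
      cup φ a.1 b.1 (fun i => g (Fin.cast h i)) := rfl

/-- The differential of the level complex, evaluated. -/
theorem coe_levelComplex_d (A : Rep.{u} k G) [IsDiscrete 𝒰 A] (n : ℕ) (f : levelCochains 𝒰 A n) :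
    (show levelCochains 𝒰 A (n + 1) from ((levelComplex 𝒰 A).d n (n + 1)).hom f).1 =
      (inhomogeneousCochains.d A n).hom f.1 := by
  have := coe_level_d 𝒰 A n (n + 1) f
  rw [inhomogeneousCochains.d_def] at this
  exact this

variable (hφ : ∀ (g : G) (a : A) (b : B), φ (A.ρ g a) (B.ρ g b) = C.ρ g (φ a b))

include hφ in
theorem levelμ_leibniz (m n p : ℕ) (h : m + n = p) (a : (levelComplex 𝒰 A).X m)
    (b : (levelComplex 𝒰 B).X n) :
    ((levelComplex 𝒰 C).d p (p + 1)).hom (levelμ 𝒰 φ m n p h a b) =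
      levelμ 𝒰 φ (m + 1) n (p + 1) (by omega) (((levelComplex 𝒰 A).d m (m + 1)).hom a) b +
        (-1 : k) ^ m • levelμ 𝒰 φ m (n + 1) (p + 1) (by omega) a
          (((levelComplex 𝒰 B).d n (n + 1)).hom b) := by
  subst h
  apply Subtype.ext
  funext g
  have e1 := congrFun (coe_levelComplex_d 𝒰 C (m + n) (levelμ 𝒰 φ m n (m + n) rfl a b)) g
  refine e1.trans ?_
  have e2 : (show levelCochains 𝒰 C (m + n) from levelμ 𝒰 φ m n (m + n) rfl a b).1 =
      cup φ (show levelCochains 𝒰 A m from a).1 (show levelCochains 𝒰 B n from b).1 := rfl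
  rw [e2, d_cup φ hφ]
  have e3 := coe_levelComplex_d 𝒰 A m a
  have e4 := coe_levelComplex_d 𝒰 B n b
  rw [← e3, ← e4]
  rfl

/-- The cup product as a pairing of level complexes. -/
noncomputable def levelPairing :
    CochainPairing (levelComplex 𝒰 A) (levelComplex 𝒰 B) (levelComplex 𝒰 C) where
  μ := levelμ 𝒰 φ
  leibniz := levelμ_leibniz 𝒰 φ hφ

/-- For `p = m + n` the cohomology pairing is the cup product `levelCupH` of `CupLevel`. -/
theorem levelPairing_pairH_eq_levelCupH (m n : ℕ) (x : levelCohomology 𝒰 A m)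
    (y : levelCohomology 𝒰 B n) :
    (levelPairing 𝒰 φ hφ).pairH m n (m + n) rfl x y = levelCupH 𝒰 φ hφ m n x y := by
  obtain ⟨a, rfl⟩ := cls_surjective (levelComplex 𝒰 A) m x
  obtain ⟨b, rfl⟩ := cls_surjective (levelComplex 𝒰 B) n y
  rw [CochainPairing.pairH_cls]
  exact (levelCupH_cls 𝒰 φ hφ a b).symm

end LevelPairing

section ProdPairing

universe v w

variable {k : Type w} [CommRing k] {ι : Type v} {L L' N : ι → CochainComplex (ModuleCat.{v} k) ℕ}
  (P : ∀ i, CochainPairing (L i) (L' i) (N i))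

/-- The componentwise pairing of product complexes: bilinear maps. -/
noncomputable def prodμ (m n p : ℕ) (h : m + n = p) :
    (prodComplex L).X m →ₗ[k] (prodComplex L').X n →ₗ[k] (prodComplex N).X p :=
  LinearMap.mk₂ k
    (fun x y => prodMk N p fun i => (P i).μ m n p h (prodπ L m i x) (prodπ L' n i y))
    (fun x x' y => prod_ext fun i => by
      simp only [prodπ_mk, map_add, LinearMap.add_apply])
    (fun c x y => prod_ext fun i => by
      simp only [prodπ_mk, map_smul, LinearMap.smul_apply])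
    (fun x y y' => prod_ext fun i => by
      simp only [prodπ_mk, map_add])
    (fun c x y => prod_ext fun i => by
      simp only [prodπ_mk, map_smul])

@[simp] theorem prodπ_prodμ (m n p : ℕ) (h : m + n = p) (x : (prodComplex L).X m)
    (y : (prodComplex L').X n) (i : ι) :
    prodπ N p i (prodμ P m n p h x y) = (P i).μ m n p h (prodπ L m i x) (prodπ L' n i y) := rfl

/-- The componentwise pairing of product complexes. -/
noncomputable def prodPairing :
    CochainPairing (prodComplex L) (prodComplex L') (prodComplex N) where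
  μ := prodμ P
  leibniz m n p h x y := by
    apply prod_ext
    intro i
    rw [prodπ_d, prodπ_prodμ, (P i).leibniz, map_add, map_smul, prodπ_prodμ, prodπ_prodμ,
      prodπ_d, prodπ_d]

/-- The cohomology pairing of a product is computed componentwise. -/
theorem prodPairing_pairH (m n p : ℕ) (h : m + n = p) (x : (prodComplex L).homology m)
    (y : (prodComplex L').homology n) (i : ι) :
    prodHomologyEquiv N p ((prodPairing P).pairH m n p h x y) i =
      (P i).pairH m n p h (prodHomologyEquiv L m x i) (prodHomologyEquiv L' n y i) := by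
  obtain ⟨a, rfl⟩ := cls_surjective (prodComplex L) m x
  obtain ⟨b, rfl⟩ := cls_surjective (prodComplex L') n y
  rw [CochainPairing.pairH_cls, prodHomologyEquiv_apply, prodHomologyEquiv_apply,
    prodHomologyEquiv_apply, homologyMap_cls, homologyMap_cls, homologyMap_cls,
    CochainPairing.pairH_cls]
  rfl

end ProdPairing

section CupHc

variable {k G : Type u} [CommRing k] [Group G] {𝒰 : LevelStructure G} (D : LocalData 𝒰)
  {A B C : Rep.{u} k G} [IsDiscrete 𝒰 A] [IsDiscrete 𝒰 B] [IsDiscrete 𝒰 C]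
  (φ : A →ₗ[k] B →ₗ[k] C)
  (hφ : ∀ (g : G) (a : A) (b : B), φ (A.ρ g a) (B.ρ g b) = C.ρ g (φ a b))

/-- A bilinear map of representations, viewed on the restrictions to a local group. -/
def resBilin (v : D.ι) :
    Rep.res (D.r v) A →ₗ[k] Rep.res (D.r v) B →ₗ[k] Rep.res (D.r v) C := φ

omit [IsDiscrete 𝒰 A] [IsDiscrete 𝒰 B] [IsDiscrete 𝒰 C] in
include hφ in
theorem resBilin_equivariant (v : D.ι) (g : D.Gv v) (a : Rep.res (D.r v) A)
    (b : Rep.res (D.r v) B) :
    resBilin D φ v ((Rep.res (D.r v) A).ρ g a) ((Rep.res (D.r v) B).ρ g b) =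
      (Rep.res (D.r v) C).ρ g (resBilin D φ v a b) :=
  hφ (D.r v g) a b

/-- The cup product pairing at the place `v`. -/
noncomputable def locPairingAt (v : D.ι) :
    CochainPairing (levelComplex (D.𝒱 v) (Rep.res (D.r v) A))
      (levelComplex (D.𝒱 v) (Rep.res (D.r v) B)) (levelComplex (D.𝒱 v) (Rep.res (D.r v) C)) :=
  levelPairing (D.𝒱 v) (resBilin D φ v) (resBilin_equivariant D φ hφ v)

/-- The cup product pairing of the products of the local complexes. -/
noncomputable def locPairing :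
    CochainPairing (locComplex D A) (locComplex D B) (locComplex D C) :=
  prodPairing fun v => locPairingAt D φ hφ v

theorem locMap_compat (m n p : ℕ) (h : m + n = p) (a : (levelComplex 𝒰 A).X m)
    (a' : (levelComplex 𝒰 B).X n) :
    ((locMap D C).f p).hom ((levelPairing 𝒰 φ hφ).μ m n p h a a') =
      (locPairing D φ hφ).μ m n p h (((locMap D A).f m).hom a) (((locMap D B).f n).hom a') := by
  apply prod_ext
  intro v
  apply Subtype.ext
  funext g
  exact cup_natural (D.r v) φ (resBilin D φ v) LinearMap.id LinearMap.id LinearMap.id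
    (fun _ _ => rfl) (fun _ _ => rfl) (show levelCochains 𝒰 A m from a).1
    (show levelCochains 𝒰 B n from a').1 (fun i => g (Fin.cast h i))

/-- The cup product pairing `Cc(A) × C(G, B) → Cc(C)`. -/
noncomputable def HcPairing : CochainPairing (Cc D A) (levelComplex 𝒰 B) (Cc D C) :=
  fiberPairing (levelPairing 𝒰 φ hφ) (locPairing D φ hφ) (locMap D A) (locMap D B) (locMap D C)
    (locMap_compat D φ hφ)

/-- The cup product `Hc^m(A) × H^n(G, B) → Hc^p(C)`, `m + n = p`. -/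
noncomputable def cupHc (m n p : ℕ) (h : m + n = p) :
    Hc D A m →ₗ[k] levelCohomology 𝒰 B n →ₗ[k] Hc D C p :=
  (HcPairing D φ hφ).pairH m n p h

/-- The local cup product `H^m(G_v, A) × H^n(G_v, B) → H^p(G_v, C)`, `m + n = p`. -/
noncomputable def cupLoc (v : D.ι) (m n p : ℕ) (h : m + n = p) :
    levelCohomology (D.𝒱 v) (Rep.res (D.r v) A) m →ₗ[k]
      levelCohomology (D.𝒱 v) (Rep.res (D.r v) B) n →ₗ[k]
        levelCohomology (D.𝒱 v) (Rep.res (D.r v) C) p :=
  (locPairingAt D φ hφ v).pairH m n p h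

/-- **(C) Boundary compatibility**: `∂ w ∪ y = ∂ ((w_v ∪ res_v y)_v)`. -/
theorem cupHc_HcBd {m n p : ℕ} (h : m + n = p)
    (w : ∀ v, levelCohomology (D.𝒱 v) (Rep.res (D.r v) A) m) (y : levelCohomology 𝒰 B n) :
    cupHc D φ hφ (m + 1) n (p + 1) (by omega) (HcBd D A m w) y =
      HcBd D C p (fun v => cupLoc D φ hφ v m n p h (w v) (locH D B n y v)) := by
  refine (fiberPairing_fiberBd (levelPairing 𝒰 φ hφ) (locPairing D φ hφ) (locMap D A)
    (locMap D B) (locMap D C) (locMap_compat D φ hφ) h ((locEquiv D A m).symm w) y).trans ?_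
  rw [HcBd_apply]
  congr 1
  rw [LinearEquiv.eq_symm_apply]
  funext v
  refine (prodPairing_pairH (fun v => locPairingAt D φ hφ v) m n p h _ _ v).trans ?_
  have e1 : prodHomologyEquiv (fun v => levelComplex (D.𝒱 v) (Rep.res (D.r v) A)) m
      ((locEquiv D A m).symm w) = w := (locEquiv D A m).apply_symm_apply w
  have e2 : prodHomologyEquiv (fun v => levelComplex (D.𝒱 v) (Rep.res (D.r v) B)) n
      ((HomologicalComplex.homologyMap (locMap D B) n).hom y) = locH D B n y :=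
    (locH_apply D B n y).symm
  rw [e1, e2]
  rfl

/-- **(J)** Compatibility with the forgetful maps `Hc → H`. -/
theorem HcToH_cupHc {m n p : ℕ} (h : m + n = p) (x : Hc D A m) (y : levelCohomology 𝒰 B n) :
    HcToH D C p (cupHc D φ hφ m n p h x y) =
      (levelPairing 𝒰 φ hφ).pairH m n p h (HcToH D A m x) y :=
  fiberπ_fiberPairing (levelPairing 𝒰 φ hφ) (locPairing D φ hφ) (locMap D A) (locMap D B)
    (locMap D C) (locMap_compat D φ hφ) h x y

/-- The global duality map `Hc^m(A) → (H^n(G, B))^*`, `x ↦ (y ↦ tr (x ∪ y))`, attached to a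
linear form `tr` on `Hc^N(C)`, `m + n = N`. -/
noncomputable def Phi (m n N : ℕ) (h : m + n = N) (tr : Hc D C N →ₗ[k] k) :
    Hc D A m →ₗ[k] Module.Dual k (levelCohomology 𝒰 B n) :=
  (cupHc D φ hφ m n N h).compr₂ tr

@[simp] theorem Phi_apply (m n N : ℕ) (h : m + n = N) (tr : Hc D C N →ₗ[k] k) (x : Hc D A m)
    (y : levelCohomology 𝒰 B n) :
    Phi D φ hφ m n N h tr x y = tr (cupHc D φ hφ m n N h x y) := rfl

/-- The sum of the local duality maps
`∏_v H^m(G_v, A) → (∏_v H^n(G_v, B))^*`, `w ↦ (q ↦ tr (∂ (w_v ∪ q_v)_v))`, attached to a linear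
form `tr` on `Hc^{p+1}(C)`, `m + n = p`. -/
noncomputable def locDual (m n p : ℕ) (h : m + n = p) (tr : Hc D C (p + 1) →ₗ[k] k) :
    (∀ v, levelCohomology (D.𝒱 v) (Rep.res (D.r v) A) m) →ₗ[k]
      Module.Dual k (∀ v, levelCohomology (D.𝒱 v) (Rep.res (D.r v) B) n) :=
  LinearMap.mk₂ k (fun w q => tr (HcBd D C p (fun v => cupLoc D φ hφ v m n p h (w v) (q v))))
    (fun w w' q => by
      rw [← map_add, ← map_add]
      congr 2
      funext v
      simp only [Pi.add_apply, map_add, LinearMap.add_apply])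
    (fun c w q => by
      rw [← map_smul, ← map_smul]
      congr 2
      funext v
      simp only [Pi.smul_apply, map_smul, LinearMap.smul_apply])
    (fun w q q' => by
      rw [← map_add, ← map_add]
      congr 2
      funext v
      simp only [Pi.add_apply, map_add])
    (fun c w q => by
      rw [← map_smul, ← map_smul]
      congr 2
      funext v
      simp only [Pi.smul_apply, map_smul])

@[simp] theorem locDual_apply (m n p : ℕ) (h : m + n = p) (tr : Hc D C (p + 1) →ₗ[k] k)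
    (w : ∀ v, levelCohomology (D.𝒱 v) (Rep.res (D.r v) A) m)
    (q : ∀ v, levelCohomology (D.𝒱 v) (Rep.res (D.r v) B) n) :
    locDual D φ hφ m n p h tr w q =
      tr (HcBd D C p (fun v => cupLoc D φ hφ v m n p h (w v) (q v))) := rfl

/-- Boundary compatibility in the shape of `EndgameR2.sha_pairing` (`hc1`, `hc2`):
`Φ (∂ w) y = ι w (loc y)`. -/
theorem Phi_HcBd (m n p : ℕ) (h : m + n = p) (tr : Hc D C (p + 1) →ₗ[k] k)
    (w : ∀ v, levelCohomology (D.𝒱 v) (Rep.res (D.r v) A) m) (y : levelCohomology 𝒰 B n) :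
    Phi D φ hφ (m + 1) n (p + 1) (by omega) tr (HcBd D A m w) y =
      locDual D φ hφ m n p h tr w (locH D B n y) := by
  rw [Phi_apply, locDual_apply, cupHc_HcBd D φ hφ h]

end CupHc

section Adjoint

variable {k G : Type u} [CommRing k] [Group G] {𝒰 : LevelStructure G} (D : LocalData 𝒰)
  {A₁ A₂ B₁ B₂ C : Rep.{u} k G} [IsDiscrete 𝒰 A₁] [IsDiscrete 𝒰 A₂] [IsDiscrete 𝒰 B₁]
  [IsDiscrete 𝒰 B₂] [IsDiscrete 𝒰 C]
  (φ₁ : A₁ →ₗ[k] B₁ →ₗ[k] C)
  (hφ₁ : ∀ (g : G) (a : A₁) (b : B₁), φ₁ (A₁.ρ g a) (B₁.ρ g b) = C.ρ g (φ₁ a b))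
  (φ₂ : A₂ →ₗ[k] B₂ →ₗ[k] C)
  (hφ₂ : ∀ (g : G) (a : A₂) (b : B₂), φ₂ (A₂.ρ g a) (B₂.ρ g b) = C.ρ g (φ₂ a b))
  (f : A₁ ⟶ A₂) (f' : B₂ ⟶ B₁)
  (hadj : ∀ (a : A₁) (b : B₂), φ₂ (f.hom a) b = φ₁ a (f'.hom b))

include hadj in
/-- Cochain-level adjointness of the level cup products. -/
theorem levelPairing_adjoint (m n p : ℕ) (h : m + n = p) (a : (levelComplex 𝒰 A₁).X m)
    (b : (levelComplex 𝒰 B₂).X n) :
    (levelPairing 𝒰 φ₂ hφ₂).μ m n p h (((levelMap 𝒰 f).f m).hom a) b =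
      (levelPairing 𝒰 φ₁ hφ₁).μ m n p h a (((levelMap 𝒰 f').f n).hom b) := by
  apply Subtype.ext
  funext g
  show cup φ₂ (fun x => f.hom ((show levelCochains 𝒰 A₁ m from a).1 x))
      (show levelCochains 𝒰 B₂ n from b).1 (fun i => g (Fin.cast h i)) =
    cup φ₁ (show levelCochains 𝒰 A₁ m from a).1
      (fun y => f'.hom ((show levelCochains 𝒰 B₂ n from b).1 y)) (fun i => g (Fin.cast h i))
  rw [cup_apply, cup_apply, hadj, Rep.hom_comm_apply]

include hadj in
/-- **(N1) Adjointness** of the cup product `Hc × H → Hc` for adjoint coefficient maps. -/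
theorem cupHc_adjoint {m n p : ℕ} (h : m + n = p) (x : Hc D A₁ m)
    (y : levelCohomology 𝒰 B₂ n) :
    cupHc D φ₂ hφ₂ m n p h (HcMap D f m x) y =
      cupHc D φ₁ hφ₁ m n p h x
        ((levelCohomologyMap (MonoidHom.id G) 𝒰.refines_id f' n).hom y) :=
  fiberPairing_adjoint (levelPairing 𝒰 φ₁ hφ₁) (locPairing D φ₁ hφ₁) (locMap D A₁) (locMap D B₁)
    (levelPairing 𝒰 φ₂ hφ₂) (locPairing D φ₂ hφ₂) (locMap D A₂) (locMap D B₂) (locMap D C)
    (levelMap 𝒰 f) (locComplexMap D f) (levelMap 𝒰 f') (locComplexMap D f')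
    (locMap_compat D φ₁ hφ₁) (locMap_compat D φ₂ hφ₂) (locMap_comm D f) (locMap_comm D f')
    (levelPairing_adjoint φ₁ hφ₁ φ₂ hφ₂ f f' hadj)
    (fun m n p h _ _ => prod_ext fun v =>
      levelPairing_adjoint (𝒰 := D.𝒱 v) (resBilin D φ₁ v) (resBilin_equivariant D φ₁ hφ₁ v)
        (resBilin D φ₂ v) (resBilin_equivariant D φ₂ hφ₂ v)
        ((Rep.resFunctor (D.r v)).map f) ((Rep.resFunctor (D.r v)).map f') hadj m n p h _ _)
    h x y

include hadj in
/-- (N1) in terms of the duality maps `Phi`. -/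
theorem Phi_adjoint (m n N : ℕ) (h : m + n = N) (tr : Hc D C N →ₗ[k] k) (x : Hc D A₁ m)
    (y : levelCohomology 𝒰 B₂ n) :
    Phi D φ₂ hφ₂ m n N h tr (HcMap D f m x) y =
      Phi D φ₁ hφ₁ m n N h tr x
        ((levelCohomologyMap (MonoidHom.id G) 𝒰.refines_id f' n).hom y) := by
  rw [Phi_apply, Phi_apply, cupHc_adjoint D φ₁ hφ₁ φ₂ hφ₂ f f' hadj h]

end Adjoint

section Connecting

open ShortComplex

variable {k G : Type u} [CommRing k] [Group G] {𝒰 : LevelStructure G} (D : LocalData 𝒰)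
  {S S' : ShortComplex (Rep.{u} k G)} {C : Rep.{u} k G}
  [IsDiscrete 𝒰 S.X₁] [IsDiscrete 𝒰 S.X₂] [IsDiscrete 𝒰 S.X₃]
  [IsDiscrete 𝒰 S'.X₁] [IsDiscrete 𝒰 S'.X₂] [IsDiscrete 𝒰 S'.X₃] [IsDiscrete 𝒰 C]
  (hS : S.ShortExact) (hS' : S'.ShortExact)
  (φ₁ : S.X₁ →ₗ[k] S'.X₃ →ₗ[k] C)
  (hφ₁ : ∀ (g : G) (a : S.X₁) (b : S'.X₃), φ₁ (S.X₁.ρ g a) (S'.X₃.ρ g b) = C.ρ g (φ₁ a b))
  (φ₂ : S.X₂ →ₗ[k] S'.X₂ →ₗ[k] C)
  (hφ₂ : ∀ (g : G) (a : S.X₂) (b : S'.X₂), φ₂ (S.X₂.ρ g a) (S'.X₂.ρ g b) = C.ρ g (φ₂ a b))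
  (φ₃ : S.X₃ →ₗ[k] S'.X₁ →ₗ[k] C)
  (hφ₃ : ∀ (g : G) (a : S.X₃) (b : S'.X₁), φ₃ (S.X₃.ρ g a) (S'.X₁.ρ g b) = C.ρ g (φ₃ a b))
  (h₁₂ : ∀ (a : S.X₁) (b : S'.X₂), φ₂ (S.f.hom a) b = φ₁ a (S'.g.hom b))
  (h₂₃ : ∀ (a : S.X₂) (b : S'.X₁), φ₃ (S.g.hom a) b = φ₂ a (S'.f.hom b))

include h₁₂ h₂₃ hφ₂ in
/-- **(N2) Adjointness of the connecting homomorphisms** under the cup product
`Hc × H → Hc`: for short exact sequences `0 → X₁ → X₂ → X₃ → 0` and
`0 → X'₁ → X'₂ → X'₃ → 0` of discrete representations and equivariant pairings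
`X₁ × X'₃ → C`, `X₂ × X'₂ → C`, `X₃ × X'₁ → C` for which the maps of the sequences are adjoint,
`δ x ∪ y + (-1)^m x ∪ δ y = 0` for `x ∈ Hc^m(X₃)`, `y ∈ H^n(G, X'₃)`. -/
theorem cupHc_δ {m n p : ℕ} (h : m + n = p) (x : Hc D S.X₃ m) (y : levelCohomology 𝒰 S'.X₃ n) :
    cupHc D φ₁ hφ₁ (m + 1) n (p + 1) (by omega) (Hcδ D hS m (m + 1) rfl x) y +
      (-1 : k) ^ m • cupHc D φ₃ hφ₃ m (n + 1) (p + 1) (by omega) x
        ((levelδ 𝒰 hS' n (n + 1) rfl).hom y) = 0 :=
  pairH_δ (S := CcShortComplex D S) (S' := levelShortComplex 𝒰 S')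
    (CcShortComplex_shortExact D hS) (levelShortComplex_shortExact 𝒰 hS')
    (HcPairing D φ₁ hφ₁) (HcPairing D φ₂ hφ₂) (HcPairing D φ₃ hφ₃)
    (fun m n p h a b =>
      fiberμ_adjoint (levelPairing 𝒰 φ₁ hφ₁) (locPairing D φ₁ hφ₁) (locMap D S.X₁)
        (locMap D S'.X₃) (levelPairing 𝒰 φ₂ hφ₂) (locPairing D φ₂ hφ₂) (locMap D S.X₂)
        (locMap D S'.X₂) (locMap D C) (levelMap 𝒰 S.f) (locComplexMap D S.f)
        (levelMap 𝒰 S'.g) (locComplexMap D S'.g) (locMap_comm D S'.g)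
        (levelPairing_adjoint φ₁ hφ₁ φ₂ hφ₂ S.f S'.g h₁₂)
        (fun m n p h _ _ => prod_ext fun v =>
          levelPairing_adjoint (𝒰 := D.𝒱 v) (resBilin D φ₁ v)
            (resBilin_equivariant D φ₁ hφ₁ v) (resBilin D φ₂ v)
            (resBilin_equivariant D φ₂ hφ₂ v) ((Rep.resFunctor (D.r v)).map S.f)
            ((Rep.resFunctor (D.r v)).map S'.g) h₁₂ m n p h _ _)
        m n p h a b)
    (fun m n p h a b =>
      fiberμ_adjoint (levelPairing 𝒰 φ₂ hφ₂) (locPairing D φ₂ hφ₂) (locMap D S.X₂)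
        (locMap D S'.X₂) (levelPairing 𝒰 φ₃ hφ₃) (locPairing D φ₃ hφ₃) (locMap D S.X₃)
        (locMap D S'.X₁) (locMap D C) (levelMap 𝒰 S.g) (locComplexMap D S.g)
        (levelMap 𝒰 S'.f) (locComplexMap D S'.f) (locMap_comm D S'.f)
        (levelPairing_adjoint φ₂ hφ₂ φ₃ hφ₃ S.g S'.f h₂₃)
        (fun m n p h _ _ => prod_ext fun v =>
          levelPairing_adjoint (𝒰 := D.𝒱 v) (resBilin D φ₂ v)
            (resBilin_equivariant D φ₂ hφ₂ v) (resBilin D φ₃ v)
            (resBilin_equivariant D φ₃ hφ₃ v) ((Rep.resFunctor (D.r v)).map S.g)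
            ((Rep.resFunctor (D.r v)).map S'.f) h₂₃ m n p h _ _)
        m n p h a b)
    h x y

include h₁₂ h₂₃ hφ₂ in
/-- (N2) in terms of the duality maps `Phi`: `Φ (δ x) y = -(-1)^m Φ x (δ y)`. -/
theorem Phi_δ {m n p : ℕ} (h : m + n = p) (tr : Hc D C (p + 1) →ₗ[k] k) (x : Hc D S.X₃ m)
    (y : levelCohomology 𝒰 S'.X₃ n) :
    Phi D φ₁ hφ₁ (m + 1) n (p + 1) (by omega) tr (Hcδ D hS m (m + 1) rfl x) y =
      -((-1 : k) ^ m * Phi D φ₃ hφ₃ m (n + 1) (p + 1) (by omega) tr x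
        ((levelδ 𝒰 hS' n (n + 1) rfl).hom y)) := by
  have := congrArg tr (cupHc_δ D hS hS' φ₁ hφ₁ φ₂ hφ₂ φ₃ hφ₃ h₁₂ h₂₃ h x y)
  rw [map_add, map_smul, map_zero, smul_eq_mul] at this
  rw [Phi_apply, Phi_apply]
  exact eq_neg_of_add_eq_zero_left this

end Connecting

end Fermat.Agent.S55.Cone
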