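/-
S55 (Poitou–Tate), route R2 (compact-support / cone route): the MONO-ONLY linear-algebra endgame.

Abstract setting (all spaces over a field `k`).  For a module `X` with "dual" `X'` we are given a
piece of the cone long exact sequence

    P --∂--> Hc --j--> H --β--> Q            (exact at `Hc` and at `H`)

(think `P = ⊕_v H^{i-1}(ℚ_v, X)`, `Hc = H^i_c(G_S, X)`, `H = H^i(G_S, X)`, `Q = ⊕_v H^i(ℚ_v, X)`),
the localisation map of the dual side `β' : H' → Q'`
(think `H' = H^{3-i}(G_S, X')`, `Q' = ⊕_v H^{3-i}(ℚ_v, X')`),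
the global duality map `Φ : Hc → (H')^*`, the local duality map `ι : P → (Q')^*`, and

* `Φ` is INJECTIVE                                       (global duality, mono part only),
* `ι` is SURJECTIVE                                      (local duality, one-sided),
* `Φ (bd w) y = ι w (β' y)`                               (boundary compatibility).

Then `ker β` (= Ш^i(X)) embeds into the dual of `ker β'` (= Ш^{3-i}(X')).
Applying this twice (with `i = 1` for `X = M'` and with `i = 2` for `X = M`) gives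
`dim Ш¹(M') ≤ dim Ш²(M) ≤ dim Ш¹(M')`, hence equality: no surjectivity of `Φ` is ever needed.

Mathlib only.
-/
import Mathlib

set_option autoImplicit false

namespace Fermat.Agent.S55.EndgameR2

open Module LinearMap

universe u

variable {k : Type u} [Field k]

section Embedding

variable {P Hc H Q H' Q' : Type*}
  [AddCommGroup P] [Module k P] [AddCommGroup Hc] [Module k Hc] [AddCommGroup H] [Module k H]
  [AddCommGroup Q] [Module k Q] [AddCommGroup H'] [Module k H'] [AddCommGroup Q'] [Module k Q']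

/-- The map `Hc → (ker β')^*`, `x ↦ Φ x` restricted to `ker β'`. -/
def restr (β' : H' →ₗ[k] Q') (Φ : Hc →ₗ[k] Dual k H') : Hc →ₗ[k] Dual k (LinearMap.ker β') :=
  (LinearMap.ker β').subtype.dualMap ∘ₗ Φ

@[simp]
lemma restr_apply (β' : H' →ₗ[k] Q') (Φ : Hc →ₗ[k] Dual k H') (x : Hc) (y : LinearMap.ker β') :
    restr β' Φ x y = Φ x (y : H') := rfl

/-- Key computation: the kernel of `x ↦ Φ x|_{ker β'}` is exactly the image of `∂`. -/
theorem ker_restr_eq_range (bd : P →ₗ[k] Hc) (β' : H' →ₗ[k] Q') (Φ : Hc →ₗ[k] Dual k H')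
    (ι : P →ₗ[k] Dual k Q') (hΦ : Function.Injective Φ) (hι : Function.Surjective ι)
    (hcompat : ∀ w y, Φ (bd w) y = ι w (β' y)) :
    LinearMap.ker (restr β' Φ) = LinearMap.range bd := by
  apply le_antisymm
  · intro x hx
    rw [LinearMap.mem_ker] at hx
    -- `Φ x` vanishes on `ker β'`, hence lies in the range of `β'.dualMap`
    have h1 : Φ x ∈ (LinearMap.ker β').dualAnnihilator := by
      rw [Submodule.mem_dualAnnihilator]
      intro y hy
      have := LinearMap.congr_fun hx ⟨y, hy⟩
      simpa using this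
    rw [← LinearMap.range_dualMap_eq_dualAnnihilator_ker] at h1
    obtain ⟨ψ, hψ⟩ := h1
    obtain ⟨w, rfl⟩ := hι ψ
    refine ⟨w, hΦ ?_⟩
    rw [← hψ]
    ext y
    rw [hcompat]
    rfl
  · rintro _ ⟨w, rfl⟩
    rw [LinearMap.mem_ker]
    ext y
    rw [restr_apply, hcompat]
    have : β' (y : H') = 0 := y.2
    rw [this, map_zero]
    rfl

/-- **Abstract embedding** `ker β ↪ (ker β')^*` (i.e. `Ш^i(X) ↪ Ш^{3-i}(X')^*`). -/
theorem exists_injective_ker_to_dual_ker (bd : P →ₗ[k] Hc) (j : Hc →ₗ[k] H) (β : H →ₗ[k] Q)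
    (hexHc : LinearMap.ker j = LinearMap.range bd) (hexH : LinearMap.ker β = LinearMap.range j)
    (β' : H' →ₗ[k] Q') (Φ : Hc →ₗ[k] Dual k H')
    (ι : P →ₗ[k] Dual k Q') (hΦ : Function.Injective Φ) (hι : Function.Surjective ι)
    (hcompat : ∀ w y, Φ (bd w) y = ι w (β' y)) :
    ∃ f : LinearMap.ker β →ₗ[k] Dual k (LinearMap.ker β'), Function.Injective f ∧
      ∀ (x : Hc) (hx : j x ∈ LinearMap.ker β) (y : LinearMap.ker β'),
        f ⟨j x, hx⟩ y = Φ x (y : H') := by
  have hker : LinearMap.ker (restr β' Φ) = LinearMap.ker j := by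
    rw [ker_restr_eq_range bd β' Φ ι hΦ hι hcompat, hexHc]
  -- the induced injective map on `Hc ⧸ ker j`
  let g : (Hc ⧸ LinearMap.ker j) →ₗ[k] Dual k (LinearMap.ker β') :=
    (LinearMap.ker j).liftQ (restr β' Φ) hker.ge
  have hg : Function.Injective g := by
    rw [← LinearMap.ker_eq_bot]
    exact Submodule.ker_liftQ_eq_bot _ _ _ hker.le
  let e : LinearMap.ker β ≃ₗ[k] (Hc ⧸ LinearMap.ker j) :=
    (LinearEquiv.ofEq _ _ hexH).trans (LinearMap.quotKerEquivRange j).symm
  refine ⟨g ∘ₗ e.toLinearMap, hg.comp e.injective, ?_⟩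
  intro x hx y
  have he : e ⟨j x, hx⟩ = Submodule.Quotient.mk x := by
    apply (LinearMap.quotKerEquivRange j).injective
    simp only [e, LinearEquiv.trans_apply, LinearEquiv.apply_symm_apply]
    ext
    simp
  simp only [LinearMap.coe_comp, LinearEquiv.coe_coe, Function.comp_apply, he]
  rfl

/-- Variant with the one-sided local nondegeneracy stated as a property of the pairing, for
finite-dimensional `Q'`: `ι` is surjective as soon as no nonzero `q' ∈ Q'` is orthogonal to all
of `P`. -/
theorem surjective_of_nondegenerate [FiniteDimensional k Q'] (ι : P →ₗ[k] Dual k Q')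
    (hι : ∀ q : Q', (∀ w, ι w q = 0) → q = 0) : Function.Surjective ι := by
  rw [← LinearMap.range_eq_top]
  have h : (LinearMap.range ι).dualCoannihilator = ⊥ := by
    rw [eq_bot_iff]
    intro q hq
    rw [Submodule.mem_dualCoannihilator] at hq
    exact (Submodule.mem_bot k).mpr (hι q fun w ↦ hq (ι w) (LinearMap.mem_range_self ι w))
  have h2 := Subspace.dualCoannihilator_dualAnnihilator_eq (W := LinearMap.range ι)
  rw [h, Submodule.dualAnnihilator_bot] at h2
  exact h2.symm

end Embedding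

section Dimension

variable {V₁ V₂ : Type*} [AddCommGroup V₁] [Module k V₁] [AddCommGroup V₂] [Module k V₂]

/-- Two spaces each of which embeds into the dual of the other, one of them finite-dimensional:
both are finite-dimensional of the same dimension. -/
theorem finrank_eq_of_injective_dual [FiniteDimensional k V₁]
    (f : V₁ →ₗ[k] Dual k V₂) (hf : Function.Injective f)
    (g : V₂ →ₗ[k] Dual k V₁) (hg : Function.Injective g) :
    FiniteDimensional k V₂ ∧ finrank k V₁ = finrank k V₂ := by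
  have : FiniteDimensional k V₂ := FiniteDimensional.of_injective g hg
  refine ⟨inferInstance, le_antisymm ?_ ?_⟩
  · have := LinearMap.finrank_le_finrank_of_injective hf
    rwa [Subspace.dual_finrank_eq] at this
  · have := LinearMap.finrank_le_finrank_of_injective hg
    rwa [Subspace.dual_finrank_eq] at this

/-- The pairing form of the conclusion, in exactly the shape of the frozen S55 statement. -/
theorem exists_pairing_of_injective_dual [FiniteDimensional k V₁]
    (f : V₁ →ₗ[k] Dual k V₂) (hf : Function.Injective f)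
    (g : V₂ →ₗ[k] Dual k V₁) (hg : Function.Injective g) :
    ∃ B : V₁ →ₗ[k] V₂ →ₗ[k] k,
      (∀ y, (∀ x, B y x = 0) → y = 0) ∧ (∀ x, (∀ y, B y x = 0) → x = 0) := by
  obtain ⟨hfin, hdim⟩ := finrank_eq_of_injective_dual f hf g hg
  have := hfin
  -- `f` is injective between spaces of the same finite dimension, hence bijective
  have hdim' : finrank k V₁ = finrank k (Dual k V₂) := by rw [hdim, Subspace.dual_finrank_eq]
  have hsurj : Function.Surjective f :=
    (LinearMap.injective_iff_surjective_of_finrank_eq_finrank hdim').1 hf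
  refine ⟨f, fun y hy => ?_, fun x hx => ?_⟩
  · exact hf (by rw [map_zero]; exact LinearMap.ext fun x => by simpa using hy x)
  · rw [← Module.forall_dual_apply_eq_zero_iff k x]
    intro φ
    obtain ⟨y, rfl⟩ := hsurj φ
    exact hx y

end Dimension

section PoitouTate

/-!
### The Poitou–Tate endgame in abstract form

`A` plays the role of `M' = M^∨(1)` and `B` the role of `M`.  Index `A`-objects by `A`, `B`-objects
by `B`.
-/

variable {P0A Hc1A H1A P1A : Type*}
  [AddCommGroup P0A] [Module k P0A] [AddCommGroup Hc1A] [Module k Hc1A]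
  [AddCommGroup H1A] [Module k H1A] [AddCommGroup P1A] [Module k P1A]
variable {P1B Hc2B H2B P2B : Type*}
  [AddCommGroup P1B] [Module k P1B] [AddCommGroup Hc2B] [Module k Hc2B]
  [AddCommGroup H2B] [Module k H2B] [AddCommGroup P2B] [Module k P2B]

/-- **Mono-only Poitou–Tate endgame.**
Data: the cone sequence of `A` in degree 1, `P⁰(A) → H¹_c(A) → H¹(A) → P¹(A)`, and of `B` in
degree 2, `P¹(B) → H²_c(B) → H²(B) → P²(B)`; global duality maps `Φ¹ : H¹_c(A) → H²(B)^*`,
`Φ² : H²_c(B) → H¹(A)^*` (both INJECTIVE); local duality maps `ι⁰ : P⁰(A) → P²(B)^*`,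
`ι¹ : P¹(B) → P¹(A)^*` (both SURJECTIVE); boundary compatibilities.
Conclusion: `Ш¹(A) = ker β¹_A` and `Ш²(B) = ker β²_B` are finite-dimensional of the same dimension
as soon as `Ш¹(A)` is finite-dimensional, and they carry a two-sided nondegenerate pairing. -/
theorem sha_pairing
    (d0A : P0A →ₗ[k] Hc1A) (j1A : Hc1A →ₗ[k] H1A) (b1A : H1A →ₗ[k] P1A)
    (hA1 : LinearMap.ker j1A = LinearMap.range d0A) (hA2 : LinearMap.ker b1A = LinearMap.range j1A)
    (d1B : P1B →ₗ[k] Hc2B) (j2B : Hc2B →ₗ[k] H2B) (b2B : H2B →ₗ[k] P2B)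
    (hB1 : LinearMap.ker j2B = LinearMap.range d1B) (hB2 : LinearMap.ker b2B = LinearMap.range j2B)
    (Φ1 : Hc1A →ₗ[k] Dual k H2B) (hΦ1 : Function.Injective Φ1)
    (Φ2 : Hc2B →ₗ[k] Dual k H1A) (hΦ2 : Function.Injective Φ2)
    (ι0 : P0A →ₗ[k] Dual k P2B) (hι0 : Function.Surjective ι0)
    (ι1 : P1B →ₗ[k] Dual k P1A) (hι1 : Function.Surjective ι1)
    (hc1 : ∀ w y, Φ1 (d0A w) y = ι0 w (b2B y))
    (hc2 : ∀ w y, Φ2 (d1B w) y = ι1 w (b1A y))
    [FiniteDimensional k (LinearMap.ker b1A)] :
    FiniteDimensional k (LinearMap.ker b2B) ∧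
      finrank k (LinearMap.ker b1A) = finrank k (LinearMap.ker b2B) ∧
      ∃ B : LinearMap.ker b1A →ₗ[k] LinearMap.ker b2B →ₗ[k] k,
        (∀ y, (∀ x, B y x = 0) → y = 0) ∧ (∀ x, (∀ y, B y x = 0) → x = 0) := by
  obtain ⟨f, hf, -⟩ :=
    exists_injective_ker_to_dual_ker d0A j1A b1A hA1 hA2 b2B Φ1 ι0 hΦ1 hι0 hc1
  obtain ⟨g, hg, -⟩ :=
    exists_injective_ker_to_dual_ker d1B j2B b2B hB1 hB2 b1A Φ2 ι1 hΦ2 hι1 hc2
  obtain ⟨h1, h2⟩ := finrank_eq_of_injective_dual f hf g hg
  exact ⟨h1, h2, exists_pairing_of_injective_dual f hf g hg⟩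

end PoitouTate

end Fermat.Agent.S55.EndgameR2
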