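/-
S55, route R2: the cone data of `ConeLevel` / `ConePairing` plugged into the mono-only endgame
`EndgameR2.sha_pairing`.  For an equivariant pairing `A × B → C` of discrete representations, a
family of local data `D` and a linear form `tr` on `Hc³(C)`:
if the global duality maps `Hc¹(A) → H²(G, B)^*` and `Hc²(B) → H¹(G, A)^*` are injective and the
local duality maps `∏ H⁰(G_v, A) → (∏ H²(G_v, B))^*`, `∏ H¹(G_v, B) → (∏ H¹(G_v, A))^*` are
surjective, then `Ш¹(A) = ker (locH D A 1)` and `Ш²(B) = ker (locH D B 2)` are in perfect duality.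
-/
import Fermat.Agent.S55.ConePairing
import Fermat.Agent.S55.EndgameR2

set_option autoImplicit false

namespace Fermat.Agent.S55.Cone

open CategoryTheory Module Fermat.Agent.S55.Level

universe u

variable {k G : Type u} [Field k] [Group G] {𝒰 : LevelStructure G} (D : LocalData 𝒰)
  {A B C : Rep.{u} k G} [IsDiscrete 𝒰 A] [IsDiscrete 𝒰 B] [IsDiscrete 𝒰 C]
  (φ : A →ₗ[k] B →ₗ[k] C)
  (hφ : ∀ (g : G) (a : A) (b : B), φ (A.ρ g a) (B.ρ g b) = C.ρ g (φ a b))

omit [IsDiscrete 𝒰 A] [IsDiscrete 𝒰 B] [IsDiscrete 𝒰 C] in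
include hφ in
/-- The flipped pairing is equivariant. -/
theorem flip_equivariant (g : G) (b : B) (a : A) :
    φ.flip (B.ρ g b) (A.ρ g a) = C.ρ g (φ.flip b a) := hφ g a b

section LocalInvariants

variable [DecidableEq D.ι]

/-- The local invariant at `v` attached to a linear form on `Hc^{p+1}(C)`: the composite
`H^p(G_v, C) → ∏_v H^p(G_v, C) → Hc^{p+1}(C) → k`. -/
noncomputable def invAt {p : ℕ} (tr : Hc D C (p + 1) →ₗ[k] k) (v : D.ι) :
    levelCohomology (D.𝒱 v) (Rep.res (D.r v) C) p →ₗ[k] k :=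
  tr ∘ₗ HcBd D C p ∘ₗ
    LinearMap.single k (fun v => levelCohomology (D.𝒱 v) (Rep.res (D.r v) C) p) v

theorem invAt_apply {p : ℕ} (tr : Hc D C (p + 1) →ₗ[k] k) (v : D.ι)
    (c : levelCohomology (D.𝒱 v) (Rep.res (D.r v) C) p) :
    invAt D tr v c = tr (HcBd D C p (Pi.single v c)) := rfl

/-- The sum of the local duality maps is the sum of the local pairings composed with the local
invariants. -/
theorem locDual_eq_sum [Fintype D.ι] (m n p : ℕ) (h : m + n = p) (tr : Hc D C (p + 1) →ₗ[k] k)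
    (w : ∀ v, levelCohomology (D.𝒱 v) (Rep.res (D.r v) A) m)
    (q : ∀ v, levelCohomology (D.𝒱 v) (Rep.res (D.r v) B) n) :
    locDual D φ hφ m n p h tr w q =
      ∑ v, invAt D tr v (cupLoc D φ hφ v m n p h (w v) (q v)) := by
  rw [locDual_apply]
  have e : (fun v => cupLoc D φ hφ v m n p h (w v) (q v)) =
      ∑ v, Pi.single v (cupLoc D φ hφ v m n p h (w v) (q v)) :=
    (Finset.univ_sum_single _).symm
  rw [e, map_sum, map_sum]
  rfl

/-- The value of the sum of the local duality maps on a family supported at one place. -/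
theorem locDual_single (m n p : ℕ) (h : m + n = p) (tr : Hc D C (p + 1) →ₗ[k] k) (v : D.ι)
    (a : levelCohomology (D.𝒱 v) (Rep.res (D.r v) A) m)
    (q : ∀ v, levelCohomology (D.𝒱 v) (Rep.res (D.r v) B) n) :
    locDual D φ hφ m n p h tr (Pi.single v a) q =
      invAt D tr v (cupLoc D φ hφ v m n p h a (q v)) := by
  rw [locDual_apply, invAt_apply]
  congr 2
  funext v'
  by_cases hv : v' = v
  · subst hv
    simp
  · rw [Pi.single_eq_of_ne hv, Pi.single_eq_of_ne hv, map_zero, LinearMap.zero_apply]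

/-- One-sided local nondegeneracy at every place implies surjectivity of the sum of the local
duality maps. -/
theorem locDual_surjective [Finite D.ι] (m n p : ℕ) (h : m + n = p)
    (tr : Hc D C (p + 1) →ₗ[k] k)
    (hfd : ∀ v, FiniteDimensional k (levelCohomology (D.𝒱 v) (Rep.res (D.r v) B) n))
    (hnd : ∀ (v : D.ι) (b : levelCohomology (D.𝒱 v) (Rep.res (D.r v) B) n),
      (∀ a : levelCohomology (D.𝒱 v) (Rep.res (D.r v) A) m,
        invAt D tr v (cupLoc D φ hφ v m n p h a b) = 0) → b = 0) :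
    Function.Surjective (locDual D φ hφ m n p h tr) := by
  have : Fintype D.ι := Fintype.ofFinite _
  apply EndgameR2.surjective_of_nondegenerate
  intro q hq
  funext v
  apply hnd v (q v)
  intro a
  rw [← locDual_single D φ hφ m n p h tr v a q]
  exact hq _

end LocalInvariants

/-- **Poitou–Tate endgame for the cone data.** -/
theorem sha_pairing_of_cone (tr : Hc D C 3 →ₗ[k] k)
    (hΦ1 : Function.Injective (Phi D φ hφ 1 2 3 rfl tr))
    (hΦ2 : Function.Injective (Phi D φ.flip (flip_equivariant φ hφ) 2 1 3 rfl tr))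
    (hι0 : Function.Surjective (locDual D φ hφ 0 2 2 rfl tr))
    (hι1 : Function.Surjective (locDual D φ.flip (flip_equivariant φ hφ) 1 1 2 rfl tr))
    [FiniteDimensional k (LinearMap.ker (locH D A 1))] :
    FiniteDimensional k (LinearMap.ker (locH D B 2)) ∧
      finrank k (LinearMap.ker (locH D A 1)) = finrank k (LinearMap.ker (locH D B 2)) ∧
      ∃ P : LinearMap.ker (locH D A 1) →ₗ[k] LinearMap.ker (locH D B 2) →ₗ[k] k,
        (∀ y, (∀ x, P y x = 0) → y = 0) ∧ (∀ x, (∀ y, P y x = 0) → x = 0) :=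
  EndgameR2.sha_pairing (HcBd D A 0) (HcToH D A 1) (locH D A 1)
    (ker_HcToH_eq_range_HcBd D A 0) (ker_locH_eq_range_HcToH D A 1)
    (HcBd D B 1) (HcToH D B 2) (locH D B 2)
    (ker_HcToH_eq_range_HcBd D B 1) (ker_locH_eq_range_HcToH D B 2)
    (Phi D φ hφ 1 2 3 rfl tr) hΦ1 (Phi D φ.flip (flip_equivariant φ hφ) 2 1 3 rfl tr) hΦ2
    (locDual D φ hφ 0 2 2 rfl tr) hι0 (locDual D φ.flip (flip_equivariant φ hφ) 1 1 2 rfl tr) hι1
    (fun w y => Phi_HcBd D φ hφ 0 2 2 rfl tr w y)
    (fun w y => Phi_HcBd D φ.flip (flip_equivariant φ hφ) 1 1 2 rfl tr w y)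

end Fermat.Agent.S55.Cone
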