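/-
S55 / LOC8 (helper22), part 1: pairings of coinduced representations.

For a finite index subgroup `S ≤ G`, representations `B B' : Rep k S`, `C : Rep k G` and an
`S`-equivariant bilinear map `β : B × B' → C` we construct
* `coindMul β : Coind B × Coind B' → Coind (Res C)`, `(f, f') ↦ (g ↦ β (f g) (f' g))`,
* `coindPairing β : Coind B × Coind B' → C`, the composite with helper27's trace
  `Coind (Res C) ⟶ C`, i.e. `(f, f') ↦ ∑_{gS} ρ(g) β (f g⁻¹) (f' g⁻¹)`,
both `G`-equivariant; evaluation at `1` is multiplicative (`coindMul_eval`), nondegeneracy of `β`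
is inherited by `coindPairing β`, and the unit `X → Coind (Res X)` is adjoint to the trace.
-/
import Mathlib
import Fermat.Agent.S55.GC.Cores

set_option autoImplicit false

namespace Fermat.Agent.S55.CoindPairing

open CategoryTheory Rep Fermat.Agent.S55.GC.Shapiro Fermat.Agent.S55.GC.Cores

universe u

variable {k G : Type u} [CommRing k] [Group G] (S : Subgroup G)

section Mul

variable {B B' : Rep.{u} k S} {C : Rep.{u} k G} (β : B.V →ₗ[k] B'.V →ₗ[k] C.V)
  (hβ : ∀ (s : S) (b : B.V) (b' : B'.V), β (B.ρ s b) (B'.ρ s b') = C.ρ (s : G) (β b b'))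

include hβ in
lemma coindMul_mem (f : (coind.{u, u, u, u} S.subtype B).V)
    (f' : (coind.{u, u, u, u} S.subtype B').V) :
    (fun g : G => β (f.1 g) (f'.1 g)) ∈ (res S.subtype C).ρ.coindV S.subtype := by
  intro s g
  show β (f.1 (S.subtype s * g)) (f'.1 (S.subtype s * g)) = C.ρ (s : G) (β (f.1 g) (f'.1 g))
  rw [f.2 s g, f'.2 s g, hβ]

/-- Pointwise product of coinduced functions. -/
noncomputable def coindMul :
    (coind.{u, u, u, u} S.subtype B).V →ₗ[k] (coind.{u, u, u, u} S.subtype B').V →ₗ[k]
      (coind.{u, u, u, u} S.subtype (res S.subtype C)).V :=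
  LinearMap.mk₂ k (fun f f' => ⟨fun g : G => β (f.1 g) (f'.1 g), coindMul_mem S β hβ f f'⟩)
    (fun f₁ f₂ f' => Subtype.ext (funext fun g => by simp))
    (fun c f f' => Subtype.ext (funext fun g => by simp))
    (fun f f₁' f₂' => Subtype.ext (funext fun g => by simp))
    (fun c f f' => Subtype.ext (funext fun g => by simp))

lemma coindMul_apply (f : (coind.{u, u, u, u} S.subtype B).V)
    (f' : (coind.{u, u, u, u} S.subtype B').V) (g : G) :
    (coindMul S β hβ f f').1 g = β (f.1 g) (f'.1 g) := rfl

/-- `coindMul` is `G`-equivariant. -/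
lemma coindMul_equivariant (g : G) (f : (coind.{u, u, u, u} S.subtype B).V)
    (f' : (coind.{u, u, u, u} S.subtype B').V) :
    coindMul S β hβ ((coind.{u, u, u, u} S.subtype B).ρ g f)
      ((coind.{u, u, u, u} S.subtype B').ρ g f') =
      (coind.{u, u, u, u} S.subtype (res S.subtype C)).ρ g (coindMul S β hβ f f') := rfl

/-- Evaluation at `1` is multiplicative. -/
lemma coindMul_eval (f : (coind.{u, u, u, u} S.subtype B).V)
    (f' : (coind.{u, u, u, u} S.subtype B').V) :
    (coindEval S (res S.subtype C)).hom (coindMul S β hβ f f') =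
      β ((coindEval S B).hom f) ((coindEval S B').hom f') := rfl

end Mul

section Pairing

variable [S.FiniteIndex]
variable {B B' : Rep.{u} k S} {C : Rep.{u} k G} (β : B.V →ₗ[k] B'.V →ₗ[k] C.V)
  (hβ : ∀ (s : S) (b : B.V) (b' : B'.V), β (B.ρ s b) (B'.ρ s b') = C.ρ (s : G) (β b b'))

attribute [local instance] Subgroup.fintypeQuotientOfFiniteIndex

/-- The pairing of coinduced representations: `(f, f') ↦ ∑_{gS} ρ(g) β (f g⁻¹) (f' g⁻¹)`. -/
noncomputable def coindPairing :
    (coind.{u, u, u, u} S.subtype B).V →ₗ[k] (coind.{u, u, u, u} S.subtype B').V →ₗ[k] C.V :=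
  (coindMul S β hβ).compr₂ (coindTrace S C).hom.toLinearMap

lemma coindPairing_eq (f : (coind.{u, u, u, u} S.subtype B).V)
    (f' : (coind.{u, u, u, u} S.subtype B').V) :
    coindPairing S β hβ f f' = (coindTrace S C).hom (coindMul S β hβ f f') := rfl

/-- `coindPairing` is `G`-equivariant. -/
lemma coindPairing_equivariant (g : G) (f : (coind.{u, u, u, u} S.subtype B).V)
    (f' : (coind.{u, u, u, u} S.subtype B').V) :
    coindPairing S β hβ ((coind.{u, u, u, u} S.subtype B).ρ g f)
      ((coind.{u, u, u, u} S.subtype B').ρ g f') = C.ρ g (coindPairing S β hβ f f') := by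
  rw [coindPairing_eq, coindPairing_eq, coindMul_equivariant]
  exact Rep.hom_comm_apply (coindTrace S C) g _

lemma coindPairing_apply (f : (coind.{u, u, u, u} S.subtype B).V)
    (f' : (coind.{u, u, u, u} S.subtype B').V) :
    coindPairing S β hβ f f' = ∑ q : G ⧸ S, traceTerm S C q (coindMul S β hβ f f') := by
  rw [coindPairing_eq, coindTrace_apply]

end Pairing

section Delta

variable {S}
variable (B : Rep.{u} k S)

open Classical in
/-- The "delta function" in `Coind_S^G B` supported on the coset `S g₀` with value `b` at `g₀`. -/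
noncomputable def delta (g₀ : G) (b : B.V) : (coind.{u, u, u, u} S.subtype B).V :=
  ⟨indToCoindAux B g₀ b, fun s g => by
    show indToCoindAux B g₀ b (s * g) = B.ρ s (indToCoindAux B g₀ b g)
    exact indToCoindAux_mul_snd g₀ g b s⟩

lemma delta_self (g₀ : G) (b : B.V) : (delta B g₀ b).1 g₀ = b := by
  classical
  exact indToCoindAux_self g₀ b

lemma delta_of_not_mem (g₀ g : G) (b : B.V) (h : g * g₀⁻¹ ∉ S) : (delta B g₀ b).1 g = 0 := by
  classical
  apply indToCoindAux_of_not_rel
  rintro ⟨s, hs⟩
  apply h
  have : g = s * g₀ := hs.symm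
  rw [this, mul_inv_cancel_right]
  exact s.2

end Delta

section Nondegenerate

variable [S.FiniteIndex]
variable {B B' : Rep.{u} k S} {C : Rep.{u} k G} (β : B.V →ₗ[k] B'.V →ₗ[k] C.V)
  (hβ : ∀ (s : S) (b : B.V) (b' : B'.V), β (B.ρ s b) (B'.ρ s b') = C.ρ (s : G) (β b b'))

attribute [local instance] Subgroup.fintypeQuotientOfFiniteIndex

lemma coindPairing_delta_right (f : (coind.{u, u, u, u} S.subtype B).V) (g₀ : G) (b' : B'.V) :
    coindPairing S β hβ f (delta B' g₀ b') = C.ρ g₀⁻¹ (β (f.1 g₀) b') := by
  rw [coindPairing_apply, Finset.sum_eq_single (QuotientGroup.mk g₀⁻¹ : G ⧸ S)]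
  · rw [traceTerm_mk, traceAux_apply, inv_inv, coindMul_apply, delta_self]
  · intro q _ hq
    induction q using QuotientGroup.induction_on with
    | H g =>
      rw [traceTerm_mk, traceAux_apply, coindMul_apply, delta_of_not_mem, map_zero, map_zero]
      intro hmem
      apply hq
      rw [QuotientGroup.eq]
      exact hmem
  · intro h
    exact absurd (Finset.mem_univ _) h

lemma coindPairing_delta_left (g₀ : G) (b : B.V) (f' : (coind.{u, u, u, u} S.subtype B').V) :
    coindPairing S β hβ (delta B g₀ b) f' = C.ρ g₀⁻¹ (β b (f'.1 g₀)) := by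
  rw [coindPairing_apply, Finset.sum_eq_single (QuotientGroup.mk g₀⁻¹ : G ⧸ S)]
  · rw [traceTerm_mk, traceAux_apply, inv_inv, coindMul_apply, delta_self]
  · intro q _ hq
    induction q using QuotientGroup.induction_on with
    | H g =>
      rw [traceTerm_mk, traceAux_apply, coindMul_apply, delta_of_not_mem, map_zero,
        LinearMap.zero_apply, map_zero]
      intro hmem
      apply hq
      rw [QuotientGroup.eq]
      exact hmem
  · intro h
    exact absurd (Finset.mem_univ _) h

lemma rho_eq_zero_iff (g : G) (c : C.V) : C.ρ g c = 0 ↔ c = 0 := by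
  constructor
  · intro h
    have := congrArg (C.ρ g⁻¹) h
    rwa [← Module.End.mul_apply, ← map_mul, inv_mul_cancel, map_one, map_zero] at this
  · rintro rfl
    exact map_zero _

/-- Left nondegeneracy is inherited by the coinduced pairing. -/
theorem coindPairing_left_nondegenerate (h : ∀ b : B.V, (∀ b' : B'.V, β b b' = 0) → b = 0)
    (f : (coind.{u, u, u, u} S.subtype B).V)
    (hf : ∀ f' : (coind.{u, u, u, u} S.subtype B').V, coindPairing S β hβ f f' = 0) : f = 0 := by
  apply Subtype.ext
  funext g₀
  apply h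
  intro b'
  have := hf (delta B' g₀ b')
  rwa [coindPairing_delta_right, rho_eq_zero_iff] at this

/-- Right nondegeneracy is inherited by the coinduced pairing. -/
theorem coindPairing_right_nondegenerate (h : ∀ b' : B'.V, (∀ b : B.V, β b b' = 0) → b' = 0)
    (f' : (coind.{u, u, u, u} S.subtype B').V)
    (hf : ∀ f : (coind.{u, u, u, u} S.subtype B).V, coindPairing S β hβ f f' = 0) : f' = 0 := by
  apply Subtype.ext
  funext g₀
  apply h
  intro b
  have := hf (delta B g₀ b)
  rwa [coindPairing_delta_left, rho_eq_zero_iff] at this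

end Nondegenerate

section Symm

variable [S.FiniteIndex]
variable {B B' : Rep.{u} k S} {C : Rep.{u} k G} (β : B.V →ₗ[k] B'.V →ₗ[k] C.V)
  (hβ : ∀ (s : S) (b : B.V) (b' : B'.V), β (B.ρ s b) (B'.ρ s b') = C.ρ (s : G) (β b b'))

/-- The coinduced pairing of the flipped pairing is the flipped coinduced pairing. -/
lemma coindPairing_flip (f : (coind.{u, u, u, u} S.subtype B).V)
    (f' : (coind.{u, u, u, u} S.subtype B').V) :
    coindPairing S β.flip (fun s b' b => hβ s b b') f' f = coindPairing S β hβ f f' := rfl

end Symm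

section Finite

variable (B : Rep.{u} k S)

/-- Evaluation at representatives of the right cosets `S g`. -/
noncomputable def evalReps :
    (coind.{u, u, u, u} S.subtype B).V →ₗ[k] (Quotient (QuotientGroup.rightRel S) → B.V) where
  toFun f q := f.1 q.out
  map_add' _ _ := rfl
  map_smul' _ _ := rfl

lemma evalReps_injective : Function.Injective (evalReps S B) := by
  intro f f' h
  apply Subtype.ext
  funext g
  have h1 : (QuotientGroup.rightRel S).r (Quotient.mk'' g : Quotient (QuotientGroup.rightRel S)).out
      g := Quotient.exact' (Quotient.out_eq' _)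
  rw [QuotientGroup.rightRel_apply] at h1
  have hg : g = (⟨g * ((Quotient.mk'' g : Quotient (QuotientGroup.rightRel S)).out)⁻¹, h1⟩ : S) *
      (Quotient.mk'' g : Quotient (QuotientGroup.rightRel S)).out := by simp
  have h2 := congrFun h (Quotient.mk'' g)
  have h3 : f.1 (Quotient.mk'' g : Quotient (QuotientGroup.rightRel S)).out =
      f'.1 (Quotient.mk'' g : Quotient (QuotientGroup.rightRel S)).out := h2
  rw [hg]
  have e1 := f.2 ⟨g * ((Quotient.mk'' g : Quotient (QuotientGroup.rightRel S)).out)⁻¹, h1⟩
    (Quotient.mk'' g : Quotient (QuotientGroup.rightRel S)).out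
  have e2 := f'.2 ⟨g * ((Quotient.mk'' g : Quotient (QuotientGroup.rightRel S)).out)⁻¹, h1⟩
    (Quotient.mk'' g : Quotient (QuotientGroup.rightRel S)).out
  simp only [Subgroup.subtype_apply] at e1 e2
  rw [e1, e2, h3]

/-- A representation coinduced from a finitely generated one along a finite index subgroup is
finitely generated (over a Noetherian ring). -/
theorem finite_coind [S.FiniteIndex] [IsNoetherianRing k] [Module.Finite k B.V] :
    Module.Finite k (coind.{u, u, u, u} S.subtype B).V := by
  have : Finite (Quotient (QuotientGroup.rightRel S)) :=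
    Finite.of_equiv _ (QuotientGroup.quotientRightRelEquivQuotientLeftRel S).symm
  exact Module.Finite.of_injective (evalReps S B) (evalReps_injective S B)

end Finite

end Fermat.Agent.S55.CoindPairing
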