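/-
S55 / LOC8 (helper22), part 2: the twisted dual of a coinduced representation.

For a finite index subgroup `S ≤ G`, a character `χ : G →* kˣ` and a finite dimensional
`B : Rep k S`, the coinduced pairing of the evaluation pairing `B' × B → k(χ)` identifies
`Coind_S^G (B.dualTwist χ|_S)` with `(Coind_S^G B).dualTwist χ`.
-/
import Mathlib
import Fermat.Agent.S55.CoindPairing
import Fermat.Agent.S55.DualTwist
import Fermat.Agent.S55.EndgameR2

set_option autoImplicit false

namespace Fermat.Agent.S55.CoindPairing

open CategoryTheory Rep groupCohomology Fermat.Agent.S55.GC.Shapiro Fermat.Agent.S55.GC.Cores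
  Fermat.Agent.S55.DualTwist

universe u

variable {k G : Type u} [Field k] [Group G] (S : Subgroup G) (χ : G →* kˣ)
  (B : Rep.{u} k S)

/-- The evaluation pairing `B' × B → k(χ)` is equivariant for the action of `S` on `k(χ)` through
`G`. -/
lemma evalPairing_res_equivariant (s : S) (b' : (B.dualTwist (χ.comp S.subtype)).V) (b : B.V) :
    evalPairing (χ.comp S.subtype) B ((B.dualTwist (χ.comp S.subtype)).ρ s b') (B.ρ s b) =
      (ofChar χ).ρ (s : G) (evalPairing (χ.comp S.subtype) B b' b) :=
  evalPairing_equivariant (χ.comp S.subtype) B s b' b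

variable [S.FiniteIndex]

/-- The coinduced evaluation pairing `Coind B' × Coind B → k(χ)`. -/
noncomputable def coindEvalPairing :
    (coind.{u, u, u, u} S.subtype (B.dualTwist (χ.comp S.subtype))).V →ₗ[k]
      (coind.{u, u, u, u} S.subtype B).V →ₗ[k] (ofChar χ).V :=
  coindPairing S (C := ofChar χ) (evalPairing (χ.comp S.subtype) B)
    (evalPairing_res_equivariant S χ B)

lemma coindEvalPairing_equivariant (g : G)
    (f' : (coind.{u, u, u, u} S.subtype (B.dualTwist (χ.comp S.subtype))).V)
    (f : (coind.{u, u, u, u} S.subtype B).V) :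
    coindEvalPairing S χ B
      ((coind.{u, u, u, u} S.subtype (B.dualTwist (χ.comp S.subtype))).ρ g f')
      ((coind.{u, u, u, u} S.subtype B).ρ g f) =
      (ofChar χ).ρ g (coindEvalPairing S χ B f' f) :=
  coindPairing_equivariant S _ _ g f' f

/-- The comparison map `Coind (B') ⟶ (Coind B)'`. -/
noncomputable def coindDualTwistHom :
    coind.{u, u, u, u} S.subtype (B.dualTwist (χ.comp S.subtype)) ⟶
      (coind.{u, u, u, u} S.subtype B).dualTwist χ :=
  Rep.ofHom ⟨coindEvalPairing S χ B, fun g => by
    refine LinearMap.ext fun f' => LinearMap.ext fun f => ?_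
    have h := coindEvalPairing_equivariant S χ B g f'
      ((coind.{u, u, u, u} S.subtype B).ρ g⁻¹ f)
    rw [← Module.End.mul_apply, ← map_mul, mul_inv_cancel, map_one, Module.End.one_apply] at h
    exact h⟩

lemma coindDualTwistHom_apply
    (f' : (coind.{u, u, u, u} S.subtype (B.dualTwist (χ.comp S.subtype))).V)
    (f : (coind.{u, u, u, u} S.subtype B).V) :
    evalPairing χ (coind.{u, u, u, u} S.subtype B) ((coindDualTwistHom S χ B).hom f') f =
      coindEvalPairing S χ B f' f := rfl

lemma coindDualTwistHom_injective : Function.Injective (coindDualTwistHom S χ B).hom := by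
  rw [injective_iff_map_eq_zero]
  intro f' hf'
  refine coindPairing_left_nondegenerate S (C := ofChar χ) (evalPairing (χ.comp S.subtype) B)
    (evalPairing_res_equivariant S χ B) (fun b' hb' => ?_) f' (fun f => ?_)
  · exact evalPairing_left_nondegenerate (χ.comp S.subtype) B b' hb'
  · have := coindDualTwistHom_apply S χ B f' f
    rw [hf'] at this
    exact this.symm

lemma coindDualTwistHom_surjective [FiniteDimensional k B.V] :
    Function.Surjective (coindDualTwistHom S χ B).hom := by
  have : FiniteDimensional k (coind.{u, u, u, u} S.subtype B).V := finite_coind S B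
  let ι : (coind.{u, u, u, u} S.subtype (B.dualTwist (χ.comp S.subtype))).V →ₗ[k]
      Module.Dual k (coind.{u, u, u, u} S.subtype B).V := coindEvalPairing S χ B
  refine EndgameR2.surjective_of_nondegenerate (k := k)
    (P := (coind.{u, u, u, u} S.subtype (B.dualTwist (χ.comp S.subtype))).V)
    (Q' := (coind.{u, u, u, u} S.subtype B).V) ι (fun f hf => ?_)
  refine coindPairing_right_nondegenerate S (C := ofChar χ) (evalPairing (χ.comp S.subtype) B)
    (evalPairing_res_equivariant S χ B) (fun b hb => ?_) f hf
  exact evalPairing_right_nondegenerate (χ.comp S.subtype) B b hb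

/-- `Coind_S^G (B') ≅ (Coind_S^G B)'` for finite dimensional `B`. -/
noncomputable def coindDualTwistIso [FiniteDimensional k B.V] :
    coind.{u, u, u, u} S.subtype (B.dualTwist (χ.comp S.subtype)) ≅
      (coind.{u, u, u, u} S.subtype B).dualTwist χ :=
  haveI : IsIso (coindDualTwistHom S χ B) := by
    have h1 : Mono (coindDualTwistHom S χ B) :=
      (Rep.mono_iff_injective _).2 (coindDualTwistHom_injective S χ B)
    have h2 : Epi (coindDualTwistHom S χ B) :=
      (Rep.epi_iff_surjective _).2 (coindDualTwistHom_surjective S χ B)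
    exact isIso_of_mono_of_epi _
  asIso (coindDualTwistHom S χ B)

@[simp] lemma coindDualTwistIso_hom [FiniteDimensional k B.V] :
    (coindDualTwistIso S χ B).hom = coindDualTwistHom S χ B := rfl

end Fermat.Agent.S55.CoindPairing
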