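/-
S55 / LOC8 (helper22), part 3: cup products and the Shapiro map for level cohomology.

For a finite index subgroup `S ≤ G` with level structures `𝒱` on `S` refining `𝒰` on `G`, the
explicit Shapiro map `lsh = (restriction to S) ≫ (evaluation at 1)` is multiplicative for the
pointwise product of coinduced functions, and the cup product for the coinduced pairing is the
trace of the cup product for the pointwise product.  Consequently
`x ∪_{coindPairing β} y = tr (lsh⁻¹ (lsh x ∪_β lsh y))` ("= cor (lsh x ∪ lsh y)").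
-/
import Mathlib
import Fermat.Agent.S55.CoindPairing
import Fermat.Agent.S55.CupNat

set_option autoImplicit false
set_option linter.unusedSectionVars false

namespace Fermat.Agent.S55.ShapiroCup

open CategoryTheory Rep Fermat.Agent.S55.GC.Shapiro Fermat.Agent.S55.GC.Cores
  Fermat.Agent.S55.Level Fermat.Agent.S55.Cup Fermat.Agent.S55.CoindPairing

universe u

variable {k G : Type u} [CommRing k] [Group G] (S : Subgroup G)
  (𝒰 : LevelStructure G) (𝒱 : LevelStructure S) (hf : 𝒱.Refines 𝒰 S.subtype)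

omit S in
/-- `levelCohomologyMap` of the identity is the identity. -/
lemma levelCohomologyMap_id_apply (A : Rep.{u} k G) [IsDiscrete 𝒰 A] (n : ℕ)
    (x : levelCohomology 𝒰 A n) :
    (levelCohomologyMap (MonoidHom.id G) 𝒰.refines_id (𝟙 A) n).hom x = x := by
  obtain ⟨z, rfl⟩ := CochainTools.cls_surjective (levelComplex 𝒰 A) n x
  rw [levelCohomologyMap_cls]
  congr 1

/-- The explicit Shapiro map on level cohomology: restriction to `S` followed by evaluation at
`1`. -/
noncomputable def lsh (B : Rep.{u} k S) [IsDiscrete 𝒱 B]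
    [IsDiscrete 𝒰 (coind.{u, u, u, u} S.subtype B)] (n : ℕ) :
    levelCohomology 𝒰 (coind.{u, u, u, u} S.subtype B) n ⟶ levelCohomology 𝒱 B n :=
  levelCohomologyMap S.subtype hf (coindEval S B) n

section Mul

variable {B B' : Rep.{u} k S} {C : Rep.{u} k G} (β : B.V →ₗ[k] B'.V →ₗ[k] C.V)
  (hβ : ∀ (s : S) (b : B.V) (b' : B'.V), β (B.ρ s b) (B'.ρ s b') = C.ρ (s : G) (β b b'))
  [IsDiscrete 𝒱 B] [IsDiscrete 𝒱 B'] [IsDiscrete 𝒱 (res S.subtype C)] [IsDiscrete 𝒰 C]
  [IsDiscrete 𝒰 (coind.{u, u, u, u} S.subtype B)] [IsDiscrete 𝒰 (coind.{u, u, u, u} S.subtype B')]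
  [IsDiscrete 𝒰 (coind.{u, u, u, u} S.subtype (res S.subtype C))]

/-- The Shapiro map is multiplicative. -/
theorem lsh_levelCupH_coindMul {m n : ℕ}
    (x : levelCohomology 𝒰 (coind.{u, u, u, u} S.subtype B) m)
    (y : levelCohomology 𝒰 (coind.{u, u, u, u} S.subtype B') n) :
    (lsh S 𝒰 𝒱 hf (res S.subtype C) (m + n)).hom
        (levelCupH 𝒰 (coindMul S β hβ) (coindMul_equivariant S β hβ) m n x y) =
      levelCupH 𝒱 (C := res S.subtype C) β hβ m n ((lsh S 𝒰 𝒱 hf B m).hom x)
        ((lsh S 𝒰 𝒱 hf B' n).hom y) :=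
  levelCohomologyMap_levelCupH S.subtype (coindEval S B) (coindEval S B')
    (coindEval S (res S.subtype C)) (coindMul S β hβ) β (coindMul_equivariant S β hβ) hβ
    (fun f f' => coindMul_eval S β hβ f f') hf x y

end Mul

section Trace

variable [S.FiniteIndex]
variable {B B' : Rep.{u} k S} {C : Rep.{u} k G} (β : B.V →ₗ[k] B'.V →ₗ[k] C.V)
  (hβ : ∀ (s : S) (b : B.V) (b' : B'.V), β (B.ρ s b) (B'.ρ s b') = C.ρ (s : G) (β b b'))
  [IsDiscrete 𝒱 B] [IsDiscrete 𝒱 B'] [IsDiscrete 𝒱 (res S.subtype C)] [IsDiscrete 𝒰 C]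
  [IsDiscrete 𝒰 (coind.{u, u, u, u} S.subtype B)] [IsDiscrete 𝒰 (coind.{u, u, u, u} S.subtype B')]
  [IsDiscrete 𝒰 (coind.{u, u, u, u} S.subtype (res S.subtype C))]

/-- The cup product for the coinduced pairing is the trace of the cup product for the pointwise
product. -/
theorem levelCupH_coindPairing {m n : ℕ}
    (x : levelCohomology 𝒰 (coind.{u, u, u, u} S.subtype B) m)
    (y : levelCohomology 𝒰 (coind.{u, u, u, u} S.subtype B') n) :
    levelCupH 𝒰 (coindPairing S β hβ) (coindPairing_equivariant S β hβ) m n x y =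
      (levelCohomologyMap (MonoidHom.id G) 𝒰.refines_id (coindTrace S C) (m + n)).hom
        (levelCupH 𝒰 (coindMul S β hβ) (coindMul_equivariant S β hβ) m n x y) := by
  have h := levelCohomologyMap_levelCupH (MonoidHom.id G)
    (𝟙 (coind.{u, u, u, u} S.subtype B)) (𝟙 (coind.{u, u, u, u} S.subtype B'))
    (coindTrace S C) (coindMul S β hβ) (coindPairing S β hβ) (coindMul_equivariant S β hβ)
    (coindPairing_equivariant S β hβ) (fun f f' => rfl) 𝒰.refines_id x y
  rw [h, levelCohomologyMap_id_apply, levelCohomologyMap_id_apply]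

end Trace

end Fermat.Agent.S55.ShapiroCup
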