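/-
S55 / LOC8 (helper22), part 5: the base case of the local duality dévissage.

Transport of the duality maps `Ψ` through Shapiro's lemma: for a finite index subgroup `U ≤ G` with
a level structure `𝒱` refining `𝒰`, and `B : Rep k U` finite dimensional, the duality maps of
`Coind_U^G B` over `G` correspond to the duality maps of `B` over `U` (with respect to a functional
`τ` on `H²(U, k(χ))` with `τ ∘ sh = t ∘ tr`, i.e. `τ = t ∘ cor`) under the Shapiro maps and the
isomorphism `Coind (B') ≅ (Coind B)'`.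
-/
import Mathlib
import Fermat.Agent.S55.LevelDuality
import Fermat.Agent.S55.ShapiroCup
import Fermat.Agent.S55.CoindDual
import Fermat.Agent.S55.CF.LESElem

set_option autoImplicit false
set_option linter.unusedSectionVars false

namespace Fermat.Agent.S55.LevelDuality

open CategoryTheory groupCohomology Rep Fermat.Agent.S55.Level Fermat.Agent.S55.CochainTools
  Fermat.Agent.S55.Cone Fermat.Agent.S55.Cup Fermat.Agent.S55.DualTwist
  Fermat.Agent.S55.Devissage Fermat.Agent.S55.CoindPairing Fermat.Agent.S55.ShapiroCup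
  Fermat.Agent.S55.GC.Shapiro Fermat.Agent.S55.GC.Cores

universe u

section Natural

variable {k G H : Type u} [CommRing k] [Group G] [Group H]
  {A B C : Rep.{u} k G} {A' B' C' : Rep.{u} k H}
  (f : H →* G) (α : Rep.res f A ⟶ A') (β : Rep.res f B ⟶ B') (γ : Rep.res f C ⟶ C')
  (φ : A →ₗ[k] B →ₗ[k] C) (φ' : A' →ₗ[k] B' →ₗ[k] C')
  (hφ : ∀ (g : G) (a : A) (b : B), φ (A.ρ g a) (B.ρ g b) = C.ρ g (φ a b))
  (hφ' : ∀ (g : H) (a : A') (b : B'), φ' (A'.ρ g a) (B'.ρ g b) = C'.ρ g (φ' a b))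
  (hγ : ∀ (a : A) (b : B), γ.hom (φ a b) = φ' (α.hom a) (β.hom b))
  {𝒰 : LevelStructure G} {𝒱 : LevelStructure H} (hf : 𝒱.Refines 𝒰 f)
  [IsDiscrete 𝒰 A] [IsDiscrete 𝒰 B] [IsDiscrete 𝒰 C]
  [IsDiscrete 𝒱 A'] [IsDiscrete 𝒱 B'] [IsDiscrete 𝒱 C']

include hγ in
/-- Naturality of the cohomology pairing of `levelCupPairing` (free target degree). -/
theorem levelCupPairing_natural {m n p : ℕ} (h : m + n = p) (x : levelCohomology 𝒰 A m)
    (y : levelCohomology 𝒰 B n) :
    (levelCohomologyMap f hf γ p).hom ((levelCupPairing 𝒰 φ hφ).pairH m n p h x y) =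
      (levelCupPairing 𝒱 φ' hφ').pairH m n p h ((levelCohomologyMap f hf α m).hom x)
        ((levelCohomologyMap f hf β n).hom y) := by
  subst h
  rw [levelCupPairing_pairH, levelCupPairing_pairH]
  exact levelCohomologyMap_levelCupH f α β γ φ φ' hφ hφ' hγ hf x y

end Natural

section ResChar

variable {k G : Type u} [Field k] [Group G] (χ : G →* kˣ) (U : Subgroup G)
  (𝒱 : LevelStructure U)

/-- `res (k(χ)) = k(χ|_U)`. -/
instance isDiscrete_res_ofChar [h : IsDiscrete 𝒱 (ofChar (χ.comp U.subtype))] :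
    IsDiscrete 𝒱 (res U.subtype (ofChar χ)) := h

end ResChar

section Transport

variable {k G : Type u} [Field k] [Group G] (𝒰 : LevelStructure G) (χ : G →* kˣ)
  [IsDiscrete 𝒰 (ofChar χ)] (t : levelCohomology 𝒰 (ofChar χ) 2 →ₗ[k] k)
  (U : Subgroup G) [U.FiniteIndex] (𝒱 : LevelStructure U) (hf : 𝒱.Refines 𝒰 U.subtype)
  (B : Rep.{u} k U)
  [IsDiscrete 𝒱 B] [IsDiscrete 𝒱 (B.dualTwist (χ.comp U.subtype))]
  [IsDiscrete 𝒱 (ofChar (χ.comp U.subtype))]
  [IsDiscrete 𝒰 (coind.{u, u, u, u} U.subtype B)]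
  [IsDiscrete 𝒰 (coind.{u, u, u, u} U.subtype (B.dualTwist (χ.comp U.subtype)))]
  [IsDiscrete 𝒰 ((coind.{u, u, u, u} U.subtype B).dualTwist χ)]
  [IsDiscrete 𝒰 (coind.{u, u, u, u} U.subtype (res U.subtype (ofChar χ)))]
  (τ : levelCohomology 𝒱 (ofChar (χ.comp U.subtype)) 2 →ₗ[k] k)

/-- The Shapiro map for the coefficients `k(χ)`, with target written as `k(χ|_U)`. -/
noncomputable def lshChar (p : ℕ) :
    levelCohomology 𝒰 (coind.{u, u, u, u} U.subtype (res U.subtype (ofChar χ))) p →ₗ[k]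
      levelCohomology 𝒱 (ofChar (χ.comp U.subtype)) p :=
  (levelCohomologyMap U.subtype hf (coindEval U (res U.subtype (ofChar χ))) p).hom

/-- **Transport of the duality maps through Shapiro's lemma.** -/
theorem Ψ_coind
    (hτ : ∀ z, τ (lshChar 𝒰 χ U 𝒱 hf 2 z) = t (lmap 𝒰 (coindTrace U (ofChar χ)) 2 z))
    (m n : ℕ) (h : m + n = 2)
    (y : levelCohomology 𝒰 (coind.{u, u, u, u} U.subtype B) n)
    (w : levelCohomology 𝒰 (coind.{u, u, u, u} U.subtype (B.dualTwist (χ.comp U.subtype))) m) :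
    Ψ 𝒰 χ t (coind.{u, u, u, u} U.subtype B) m n h y (lmap 𝒰 (coindDualTwistHom U χ B) m w) =
      Ψ 𝒱 (χ.comp U.subtype) τ B m n h ((lsh U 𝒰 𝒱 hf B n).hom y)
        ((lsh U 𝒰 𝒱 hf (B.dualTwist (χ.comp U.subtype)) m).hom w) := by
  -- the three pairings on `Coind B' × Coind B`
  let β := evalPairing (χ.comp U.subtype) B
  have hβ := evalPairing_res_equivariant U χ B
  -- (1) pairing with values in `(Coind B)'` versus the coinduced evaluation pairing
  have e1 : (levelCupPairing 𝒰 (coindEvalPairing U χ B)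
        (coindEvalPairing_equivariant U χ B)).pairH m n 2 h w y =
      (levelCupPairing 𝒰 (evalPairing χ (coind.{u, u, u, u} U.subtype B))
        (evalPairing_equivariant χ (coind.{u, u, u, u} U.subtype B))).pairH m n 2 h
        ((levelCohomologyMap (MonoidHom.id G) 𝒰.refines_id (coindDualTwistHom U χ B) m).hom w)
        y := by
    have := levelCupPairing_natural (MonoidHom.id G) (coindDualTwistHom U χ B)
      (𝟙 (coind.{u, u, u, u} U.subtype B)) (𝟙 (ofChar χ))
      (coindEvalPairing U χ B) (evalPairing χ (coind.{u, u, u, u} U.subtype B))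
      (coindEvalPairing_equivariant U χ B)
      (evalPairing_equivariant χ (coind.{u, u, u, u} U.subtype B))
      (fun _ _ => rfl) 𝒰.refines_id h w y
    rw [levelCohomologyMap_id_apply 𝒰 (coind.{u, u, u, u} U.subtype B)] at this
    exact (levelCohomologyMap_id_apply 𝒰 (ofChar χ) 2 _).symm.trans this
  -- (2) the coinduced evaluation pairing is the trace of the pointwise product
  have e2 : (levelCohomologyMap (MonoidHom.id G) 𝒰.refines_id (coindTrace U (ofChar χ)) 2).hom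
        ((levelCupPairing 𝒰 (coindMul U (C := ofChar χ) β hβ)
          (coindMul_equivariant U (C := ofChar χ) β hβ)).pairH m n 2 h w y) =
      (levelCupPairing 𝒰 (coindEvalPairing U χ B)
        (coindEvalPairing_equivariant U χ B)).pairH m n 2 h w y := by
    have := levelCupPairing_natural (MonoidHom.id G)
      (𝟙 (coind.{u, u, u, u} U.subtype (B.dualTwist (χ.comp U.subtype))))
      (𝟙 (coind.{u, u, u, u} U.subtype B)) (coindTrace U (ofChar χ))
      (coindMul U (C := ofChar χ) β hβ) (coindEvalPairing U χ B)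
      (coindMul_equivariant U (C := ofChar χ) β hβ) (coindEvalPairing_equivariant U χ B)
      (fun _ _ => rfl) 𝒰.refines_id h w y
    rw [levelCohomologyMap_id_apply 𝒰 (coind.{u, u, u, u} U.subtype B),
      levelCohomologyMap_id_apply 𝒰
        (coind.{u, u, u, u} U.subtype (B.dualTwist (χ.comp U.subtype)))] at this
    exact this
  -- (3) the Shapiro map is multiplicative
  have e3 := levelCupPairing_natural U.subtype
    (coindEval U (B.dualTwist (χ.comp U.subtype))) (coindEval U B)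
    (coindEval U (res U.subtype (ofChar χ)))
    (coindMul U (C := ofChar χ) β hβ) β
    (coindMul_equivariant U (C := ofChar χ) β hβ) hβ
    (fun f' f => coindMul_eval U (C := ofChar χ) β hβ f' f) hf h w y
  rw [Ψ_apply, Ψ_apply]
  refine (congrArg t e1.symm).trans ?_
  refine (congrArg t e2.symm).trans ?_
  refine (hτ _).symm.trans ?_
  exact congrArg τ e3

/-- Injectivity of the duality map transported through Shapiro's lemma. -/
theorem Ψ_coind_injective
    (hτ : ∀ z, τ (lshChar 𝒰 χ U 𝒱 hf 2 z) = t (lmap 𝒰 (coindTrace U (ofChar χ)) 2 z))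
    (m n : ℕ) (h : m + n = 2)
    (hB : Function.Injective (lsh U 𝒰 𝒱 hf B n).hom)
    (hB' : Function.Surjective (lsh U 𝒰 𝒱 hf (B.dualTwist (χ.comp U.subtype)) m).hom)
    (hU : Function.Injective (Ψ 𝒱 (χ.comp U.subtype) τ B m n h)) :
    Function.Injective (Ψ 𝒰 χ t (coind.{u, u, u, u} U.subtype B) m n h) := by
  rw [injective_iff_map_eq_zero]
  intro y hy
  apply hB
  rw [map_zero]
  apply hU
  rw [map_zero]
  ext w'
  obtain ⟨w, rfl⟩ := hB' w'
  rw [← Ψ_coind 𝒰 χ t U 𝒱 hf B τ hτ m n h y w, hy]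
  rfl

/-- Surjectivity of the duality map transported through Shapiro's lemma. -/
theorem Ψ_coind_surjective
    (hτ : ∀ z, τ (lshChar 𝒰 χ U 𝒱 hf 2 z) = t (lmap 𝒰 (coindTrace U (ofChar χ)) 2 z))
    (m n : ℕ) (h : m + n = 2)
    (hB : Function.Surjective (lsh U 𝒰 𝒱 hf B n).hom)
    (hB' : Function.Bijective (lsh U 𝒰 𝒱 hf (B.dualTwist (χ.comp U.subtype)) m).hom)
    (hθ : Function.Surjective (lmap 𝒰 (coindDualTwistHom U χ B) m))
    (hU : Function.Surjective (Ψ 𝒱 (χ.comp U.subtype) τ B m n h)) :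
    Function.Surjective (Ψ 𝒰 χ t (coind.{u, u, u, u} U.subtype B) m n h) := by
  intro l
  let e := LinearEquiv.ofBijective
    (lsh U 𝒰 𝒱 hf (B.dualTwist (χ.comp U.subtype)) m).hom hB'
  let l' : Module.Dual k (levelCohomology 𝒱 (B.dualTwist (χ.comp U.subtype)) m) :=
    l ∘ₗ lmap 𝒰 (coindDualTwistHom U χ B) m ∘ₗ e.symm.toLinearMap
  obtain ⟨y₀, hy₀⟩ := hU l'
  obtain ⟨y, rfl⟩ := hB y₀
  refine ⟨y, ?_⟩
  ext w'
  obtain ⟨w, rfl⟩ := hθ w'
  rw [Ψ_coind 𝒰 χ t U 𝒱 hf B τ hτ m n h y w, hy₀]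
  show l (lmap 𝒰 (coindDualTwistHom U χ B) m (e.symm (e w))) = _
  rw [LinearEquiv.symm_apply_apply]

end Transport

section Iso

variable {k G : Type u} [CommRing k] [Group G] (𝒰 : LevelStructure G)

/-- An isomorphism of discrete representations induces a bijection on level cohomology. -/
theorem lmap_bijective_of_iso {X Y : Rep.{u} k G} [IsDiscrete 𝒰 X] [IsDiscrete 𝒰 Y] (e : X ≅ Y)
    (n : ℕ) : Function.Bijective (lmap 𝒰 e.hom n) := by
  have h1 : ∀ x, lmap 𝒰 e.inv n (lmap 𝒰 e.hom n x) = x := by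
    intro x
    have := CF.Hmap_comp_apply 𝒰 e.hom e.inv n x
    rw [e.hom_inv_id, CF.Hmap_id] at this
    exact this.symm
  have h2 : ∀ y, lmap 𝒰 e.hom n (lmap 𝒰 e.inv n y) = y := by
    intro y
    have := CF.Hmap_comp_apply 𝒰 e.inv e.hom n y
    rw [e.inv_hom_id, CF.Hmap_id] at this
    exact this.symm
  exact ⟨Function.LeftInverse.injective h1, Function.RightInverse.surjective h2⟩

/-- Restriction of a discrete representation along a compatible homomorphism is discrete. -/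
theorem isDiscrete_res_of_refines {H : Type u} [Group H] {𝒱 : LevelStructure H} (f : H →* G)
    (hf : 𝒱.Refines 𝒰 f) (A : Rep.{u} k G) [IsDiscrete 𝒰 A] : IsDiscrete 𝒱 (Rep.res f A) :=
  ⟨fun a => by
    obtain ⟨U, hU, hfix⟩ := IsDiscrete.exists_fix (𝒰 := 𝒰) (A := A) a
    obtain ⟨V, hV, hVU⟩ := hf U hU
    exact ⟨V, hV, fun u hu => hfix (f u) (hVU hu)⟩⟩

end Iso

section Assembly

variable {k G : Type u} [Field k] [Group G] (𝒰 : LevelStructure G) (χ : G →* kˣ)
  [IsDiscrete 𝒰 (ofChar χ)] (t : levelCohomology 𝒰 (ofChar χ) 2 →ₗ[k] k)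
  (𝒱 : ∀ U : Subgroup G, LevelStructure U)
  (hf : ∀ U ∈ 𝒰.sets, (𝒱 U).Refines 𝒰 U.subtype)

/-- Shapiro's lemma for the level structures `𝒱 U` (delivered by ALG4). -/
def ShapiroHyp : Prop :=
  ∀ (U : Subgroup G) (hU : U ∈ 𝒰.sets) (B : Rep.{u} k U) [IsDiscrete (𝒱 U) B]
    [IsDiscrete 𝒰 (coind.{u, u, u, u} U.subtype B)] (n : ℕ),
    Function.Bijective (lsh U 𝒰 (𝒱 U) (hf U hU) B n).hom

/-- Local duality for trivial coefficients over the members `U` of the family on which `χ` is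
trivial (delivered by LOC7 + LOC5): there is a functional `τ` on `H²(U, k(χ))` compatible with `t`
(i.e. `τ = t ∘ cor`) for which the duality maps of every finite dimensional trivial representation
are bijective in degrees `0, 1` and injective in degree `2`. -/
def LocalBaseHyp : Prop :=
  ∀ (U : Subgroup G) (hU : U ∈ 𝒰.sets) [U.FiniteIndex]
    [IsDiscrete (𝒱 U) (ofChar (χ.comp U.subtype))]
    [IsDiscrete 𝒰 (coind.{u, u, u, u} U.subtype (res U.subtype (ofChar χ)))],
    (∀ u ∈ U, χ u = 1) →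
    ∃ τ : levelCohomology (𝒱 U) (ofChar (χ.comp U.subtype)) 2 →ₗ[k] k,
      (∀ z, τ (lshChar 𝒰 χ U (𝒱 U) (hf U hU) 2 z) =
        t (lmap 𝒰 (coindTrace U (ofChar χ)) 2 z)) ∧
      ∀ (B : Rep.{u} k U) [FiniteDimensional k B] [IsDiscrete (𝒱 U) B]
        [IsDiscrete (𝒱 U) (B.dualTwist (χ.comp U.subtype))], B.IsTrivial →
        Function.Bijective (Ψ (𝒱 U) (χ.comp U.subtype) τ B 2 0 rfl) ∧
        Function.Bijective (Ψ (𝒱 U) (χ.comp U.subtype) τ B 1 1 rfl) ∧
        Function.Injective (Ψ (𝒱 U) (χ.comp U.subtype) τ B 0 2 rfl)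

/-- **The base case of the dévissage** from Shapiro's lemma and duality for trivial coefficients
over the open subgroups. -/
theorem baseCase_of_local (hsh : ShapiroHyp (k := k) 𝒰 𝒱 hf) (hloc : LocalBaseHyp 𝒰 χ t 𝒱 hf) :
    BaseCase 𝒰 χ t := by
  intro U hU X _ _ hI hI' htriv hχ
  have := 𝒰.finiteIndex U hU
  have := 𝒰.normal U hU
  have i1 : IsDiscrete (𝒱 U) (ofChar (χ.comp U.subtype)) :=
    isDiscrete_res_of_refines 𝒰 U.subtype (hf U hU) (ofChar χ)
  have i2 : IsDiscrete 𝒰 (coind.{u, u, u, u} U.subtype (res U.subtype (ofChar χ))) :=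
    isDiscrete_coindRes (ofChar χ) hU
  have i3 : IsDiscrete (𝒱 U) (res U.subtype X) :=
    isDiscrete_res_of_refines 𝒰 U.subtype (hf U hU) X
  have i4 : FiniteDimensional k (res U.subtype X) := ‹FiniteDimensional k X›
  have i5 : IsDiscrete (𝒱 U) ((res U.subtype X).dualTwist (χ.comp U.subtype)) :=
    isDiscrete_dualTwist (𝒱 U) (χ.comp U.subtype) _
  have i6 : IsDiscrete 𝒰 (coind.{u, u, u, u} U.subtype (res U.subtype X)) := hI
  have i7 : IsDiscrete 𝒰 ((coind.{u, u, u, u} U.subtype (res U.subtype X)).dualTwist χ) := hI'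
  have i8 : IsDiscrete 𝒰 (coind.{u, u, u, u} U.subtype
      ((res U.subtype X).dualTwist (χ.comp U.subtype))) :=
    isDiscrete_of_iso (coindDualTwistIso U χ (res U.subtype X)).symm
  obtain ⟨τ, hτ, hB⟩ := hloc U hU hχ
  obtain ⟨d0, d1, d2⟩ := hB (res U.subtype X) (isTrivial_res X htriv)
  have hθ : ∀ m, Function.Surjective (lmap 𝒰 (coindDualTwistHom U χ (res U.subtype X)) m) :=
    fun m => (lmap_bijective_of_iso 𝒰 (coindDualTwistIso U χ (res U.subtype X)) m).2
  refine ⟨⟨?_, ?_⟩, ⟨?_, ?_⟩, ?_⟩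
  · exact Ψ_coind_injective 𝒰 χ t U (𝒱 U) (hf U hU) (res U.subtype X) τ hτ 2 0 rfl
      (hsh U hU _ 0).1 (hsh U hU _ 2).2 d0.1
  · exact Ψ_coind_surjective 𝒰 χ t U (𝒱 U) (hf U hU) (res U.subtype X) τ hτ 2 0 rfl
      (hsh U hU _ 0).2 (hsh U hU _ 2) (hθ 2) d0.2
  · exact Ψ_coind_injective 𝒰 χ t U (𝒱 U) (hf U hU) (res U.subtype X) τ hτ 1 1 rfl
      (hsh U hU _ 1).1 (hsh U hU _ 1).2 d1.1
  · exact Ψ_coind_surjective 𝒰 χ t U (𝒱 U) (hf U hU) (res U.subtype X) τ hτ 1 1 rfl
      (hsh U hU _ 1).2 (hsh U hU _ 1) (hθ 1) d1.2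
  · exact Ψ_coind_injective 𝒰 χ t U (𝒱 U) (hf U hU) (res U.subtype X) τ hτ 0 2 rfl
      (hsh U hU _ 2).1 (hsh U hU _ 0).2 d2

/-- **Local duality, mono version, for all finite dimensional discrete coefficients**: from
Shapiro's lemma and duality for trivial coefficients over the open subgroups, the maps
`Hⁿ(G, X) → Hᵐ(G, X')^*`, `y ↦ (w ↦ t (w ∪ y))`, `m + n = 2`, are injective for every finite
dimensional discrete `X`. -/
theorem Ψ_injective_of_local (hsh : ShapiroHyp (k := k) 𝒰 𝒱 hf)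
    (hloc : LocalBaseHyp 𝒰 χ t 𝒱 hf) (X : Rep.{u} k G) [IsDiscrete 𝒰 X] [FiniteDimensional k X]
    [IsDiscrete 𝒰 (X.dualTwist χ)] :
    Function.Injective (Ψ 𝒰 χ t X 2 0 rfl) ∧ Function.Injective (Ψ 𝒰 χ t X 1 1 rfl) ∧
      Function.Injective (Ψ 𝒰 χ t X 0 2 rfl) :=
  Ψ_injective 𝒰 χ t (baseCase_of_local 𝒰 χ t 𝒱 hf hsh hloc) X

end Assembly

end Fermat.Agent.S55.LevelDuality
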