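/-
S55 / LOC8 (helper22), part 6: reduction of the duality maps for trivial coefficients to the
one-dimensional trivial representation.

For a finite dimensional trivial representation `B` of `G` (a direct sum of copies of the trivial
representation `K = k`), injectivity resp. surjectivity of the duality map `Ψ K m n` implies the
same for `Ψ B m n`.
-/
import Mathlib
import Fermat.Agent.S55.LevelDualityBase

set_option autoImplicit false
set_option linter.unusedSectionVars false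

namespace Fermat.Agent.S55.LevelDuality

open CategoryTheory groupCohomology Rep Fermat.Agent.S55.Level Fermat.Agent.S55.CochainTools
  Fermat.Agent.S55.Cone Fermat.Agent.S55.Cup Fermat.Agent.S55.DualTwist
  Fermat.Agent.S55.Devissage Fermat.Agent.S55.CoindPairing Fermat.Agent.S55.ShapiroCup
  Fermat.Agent.S55.GC.Shapiro Fermat.Agent.S55.GC.Cores

universe u

section Additive

variable {k G : Type u} [CommRing k] [Group G] (𝒰 : LevelStructure G)

theorem lmap_id (X : Rep.{u} k G) [IsDiscrete 𝒰 X] (n : ℕ) (x : levelCohomology 𝒰 X n) :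
    lmap 𝒰 (𝟙 X) n x = x := by
  have := congrArg (fun ψ => ψ.hom x) (CF.Hmap_id 𝒰 (A := X) n)
  exact this

theorem lmap_comp {X Y Z : Rep.{u} k G} [IsDiscrete 𝒰 X] [IsDiscrete 𝒰 Y] [IsDiscrete 𝒰 Z]
    (f : X ⟶ Y) (g : Y ⟶ Z) (n : ℕ) (x : levelCohomology 𝒰 X n) :
    lmap 𝒰 (f ≫ g) n x = lmap 𝒰 g n (lmap 𝒰 f n x) :=
  CF.Hmap_comp_apply 𝒰 f g n x

theorem lmap_add {X Y : Rep.{u} k G} [IsDiscrete 𝒰 X] [IsDiscrete 𝒰 Y] (f g : X ⟶ Y) (n : ℕ)
    (x : levelCohomology 𝒰 X n) : lmap 𝒰 (f + g) n x = lmap 𝒰 f n x + lmap 𝒰 g n x := by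
  have := congrArg (fun ψ => ψ.hom x) (CF.Hmap_add 𝒰 f g n)
  exact this

theorem lmap_zero {X Y : Rep.{u} k G} [IsDiscrete 𝒰 X] [IsDiscrete 𝒰 Y] (n : ℕ)
    (x : levelCohomology 𝒰 X n) : lmap 𝒰 (0 : X ⟶ Y) n x = 0 := by
  have := congrArg (fun ψ => ψ.hom x) (CF.Hmap_zero 𝒰 (A := X) (B := Y) n)
  exact this

theorem lmap_sum {X Y : Rep.{u} k G} [IsDiscrete 𝒰 X] [IsDiscrete 𝒰 Y] {ι : Type*}
    (s : Finset ι) (f : ι → (X ⟶ Y)) (n : ℕ) (x : levelCohomology 𝒰 X n) :
    lmap 𝒰 (∑ i ∈ s, f i) n x = ∑ i ∈ s, lmap 𝒰 (f i) n x := by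
  classical
  induction s using Finset.induction_on with
  | empty => simp only [Finset.sum_empty]; exact lmap_zero 𝒰 n x
  | insert a s ha ih => rw [Finset.sum_insert ha, Finset.sum_insert ha, lmap_add, ih]

end Additive

section DualAdditive

variable {k G : Type u} [Field k] [Group G] (χ : G →* kˣ)

theorem dualTwistMap_add {A B : Rep.{u} k G} (f g : A ⟶ B) :
    dualTwistMap χ (f + g) = dualTwistMap χ f + dualTwistMap χ g := by
  refine Rep.hom_ext (Representation.IntertwiningMap.ext (LinearMap.ext fun φ => ?_))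
  exact LinearMap.ext (f := ((dualTwistMap χ (f + g)).hom φ : Module.Dual k A)) fun a =>
    map_add (φ : Module.Dual k B) _ _

theorem dualTwistMap_sum {A B : Rep.{u} k G} {ι : Type*} (s : Finset ι) (f : ι → (A ⟶ B)) :
    dualTwistMap χ (∑ i ∈ s, f i) = ∑ i ∈ s, dualTwistMap χ (f i) := by
  classical
  induction s using Finset.induction_on with
  | empty => simp only [Finset.sum_empty]; exact dualTwistMap_zero χ
  | insert a s ha ih => rw [Finset.sum_insert ha, Finset.sum_insert ha, dualTwistMap_add, ih]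

end DualAdditive

section Triv

variable {k G : Type u} [Field k] [Group G] (𝒰 : LevelStructure G) (χ : G →* kˣ)
  [IsDiscrete 𝒰 (ofChar χ)] (t : levelCohomology 𝒰 (ofChar χ) 2 →ₗ[k] k)
  (B : Rep.{u} k G) [B.IsTrivial]

/-- The inclusion of the `i`-th coordinate line of a trivial representation. -/
noncomputable def trivInc {ι : Type*} (b : Module.Basis ι k B.V) (i : ι) : Rep.trivial k G k ⟶ B :=
  Rep.ofHom ⟨LinearMap.toSpanSingleton k B.V (b i), fun g => by
    ext
    simp⟩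

/-- The `i`-th coordinate of a trivial representation. -/
noncomputable def trivPrj {ι : Type*} (b : Module.Basis ι k B.V) (i : ι) : B ⟶ Rep.trivial k G k :=
  Rep.ofHom ⟨b.coord i, fun g => by
    ext v
    simp⟩

theorem sum_trivPrj_trivInc {ι : Type*} [Fintype ι] (b : Module.Basis ι k B.V) :
    ∑ i, trivPrj B b i ≫ trivInc B b i = 𝟙 B := by
  refine Rep.hom_ext (Representation.IntertwiningMap.ext (LinearMap.ext fun v => ?_))
  rw [Rep.sum_hom]
  simp only [Representation.IntertwiningMap.toLinearMap_sum, LinearMap.sum_apply]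
  have h : ∀ d, (Hom.hom (trivPrj B b d ≫ trivInc B b d)).toLinearMap v = b.repr v d • b d :=
    fun d => rfl
  rw [Finset.sum_congr rfl fun d _ => h d]
  exact b.sum_repr v

variable [FiniteDimensional k B] [IsDiscrete 𝒰 B] [IsDiscrete 𝒰 (B.dualTwist χ)]
  [IsDiscrete 𝒰 (Rep.trivial k G k)] [IsDiscrete 𝒰 ((Rep.trivial k G k).dualTwist χ)]

/-- Injectivity of the duality map for a finite dimensional trivial representation follows from
the one-dimensional case. -/
theorem Ψ_injective_of_trivial (m n : ℕ) (h : m + n = 2)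
    (hK : Function.Injective (Ψ 𝒰 χ t (Rep.trivial k G k) m n h)) :
    Function.Injective (Ψ 𝒰 χ t B m n h) := by
  let b := Module.finBasis k B.V
  rw [injective_iff_map_eq_zero]
  intro y hy
  have hi : ∀ i, lmap 𝒰 (trivPrj B b i) n y = 0 := by
    intro i
    apply hK
    rw [map_zero]
    ext w
    rw [Ψ_natural, hy]
    rfl
  rw [← lmap_id 𝒰 B n y, ← sum_trivPrj_trivInc B b, lmap_sum]
  refine Finset.sum_eq_zero fun i _ => ?_
  rw [lmap_comp, hi i, map_zero]

/-- Surjectivity of the duality map for a finite dimensional trivial representation follows from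
the one-dimensional case. -/
theorem Ψ_surjective_of_trivial (m n : ℕ) (h : m + n = 2)
    (hK : Function.Surjective (Ψ 𝒰 χ t (Rep.trivial k G k) m n h)) :
    Function.Surjective (Ψ 𝒰 χ t B m n h) := by
  let b := Module.finBasis k B.V
  intro l
  choose y hy using fun i => hK (l ∘ₗ lmap 𝒰 (dualTwistMap χ (trivPrj B b i)) m)
  refine ⟨∑ i, lmap 𝒰 (trivInc B b i) n (y i), ?_⟩
  ext w
  rw [map_sum, LinearMap.sum_apply]
  have hterm : ∀ i, Ψ 𝒰 χ t B m n h (lmap 𝒰 (trivInc B b i) n (y i)) w =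
      l (lmap 𝒰 (dualTwistMap χ (trivPrj B b i ≫ trivInc B b i)) m w) := by
    intro i
    rw [Ψ_natural, hy i, dualTwistMap_comp, lmap_comp]
    rfl
  rw [Finset.sum_congr rfl fun i _ => hterm i, ← map_sum, ← lmap_sum, ← dualTwistMap_sum,
    sum_trivPrj_trivInc, dualTwistMap_id, lmap_id]

end Triv

section Reduce

variable {k G : Type u} [Field k] [Group G] (𝒰 : LevelStructure G)

/-- A trivial representation is discrete for every level structure. -/
theorem isDiscrete_of_isTrivial (A : Rep.{u} k G) [A.IsTrivial] : IsDiscrete 𝒰 A :=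
  ⟨fun a => by
    obtain ⟨U, hU⟩ := 𝒰.nonempty
    exact ⟨U, hU, fun u _ => by rw [Representation.isTrivial_def, LinearMap.id_apply]⟩⟩

variable (χ : G →* kˣ)
  [IsDiscrete 𝒰 (ofChar χ)] (t : levelCohomology 𝒰 (ofChar χ) 2 →ₗ[k] k)
  (𝒱 : ∀ U : Subgroup G, LevelStructure U)
  (hf : ∀ U ∈ 𝒰.sets, (𝒱 U).Refines 𝒰 U.subtype)

/-- Local duality for the coefficients `k` (trivial action) over the members `U` of the family on
which `χ` is trivial: the one-dimensional case of `LocalBaseHyp`. -/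
def LocalBaseHyp₁ : Prop :=
  ∀ (U : Subgroup G) (hU : U ∈ 𝒰.sets) [U.FiniteIndex]
    [IsDiscrete (𝒱 U) (ofChar (χ.comp U.subtype))]
    [IsDiscrete 𝒰 (coind.{u, u, u, u} U.subtype (res U.subtype (ofChar χ)))]
    [IsDiscrete (𝒱 U) (Rep.trivial k U k)]
    [IsDiscrete (𝒱 U) ((Rep.trivial k U k).dualTwist (χ.comp U.subtype))],
    (∀ u ∈ U, χ u = 1) →
    ∃ τ : levelCohomology (𝒱 U) (ofChar (χ.comp U.subtype)) 2 →ₗ[k] k,
      (∀ z, τ (lshChar 𝒰 χ U (𝒱 U) (hf U hU) 2 z) =
        t (lmap 𝒰 (coindTrace U (ofChar χ)) 2 z)) ∧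
      Function.Bijective (Ψ (𝒱 U) (χ.comp U.subtype) τ (Rep.trivial k U k) 2 0 rfl) ∧
      Function.Bijective (Ψ (𝒱 U) (χ.comp U.subtype) τ (Rep.trivial k U k) 1 1 rfl) ∧
      Function.Injective (Ψ (𝒱 U) (χ.comp U.subtype) τ (Rep.trivial k U k) 0 2 rfl)

/-- The base hypothesis for all finite dimensional trivial coefficients follows from the
one-dimensional case. -/
theorem localBaseHyp_of_one (h : LocalBaseHyp₁ 𝒰 χ t 𝒱 hf) : LocalBaseHyp 𝒰 χ t 𝒱 hf := by
  intro U hU _ _ _ hχ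
  have i1 : IsDiscrete (𝒱 U) (Rep.trivial k U k) := isDiscrete_of_isTrivial (𝒱 U) _
  have i2 : IsDiscrete (𝒱 U) ((Rep.trivial k U k).dualTwist (χ.comp U.subtype)) :=
    isDiscrete_dualTwist (𝒱 U) (χ.comp U.subtype) _
  obtain ⟨τ, hτ, d0, d1, d2⟩ := h U hU hχ
  refine ⟨τ, hτ, fun B _ _ _ hB => ?_⟩
  have := hB
  exact ⟨⟨Ψ_injective_of_trivial (𝒱 U) _ τ B 2 0 rfl d0.1,
      Ψ_surjective_of_trivial (𝒱 U) _ τ B 2 0 rfl d0.2⟩,
    ⟨Ψ_injective_of_trivial (𝒱 U) _ τ B 1 1 rfl d1.1,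
      Ψ_surjective_of_trivial (𝒱 U) _ τ B 1 1 rfl d1.2⟩,
    Ψ_injective_of_trivial (𝒱 U) _ τ B 0 2 rfl d2⟩

end Reduce

end Fermat.Agent.S55.LevelDuality
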