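/-
S55 / LOC8 (helper22), part 8: local duality (mono version) for an arbitrary perfect equivariant
pairing `A × B → k(χ)`, and finite dimensionality of `H⁰` and `H²`.

The duality maps `Ψ` of `LevelDuality` are formulated for the evaluation pairing `X' × X → k(χ)`.
A perfect equivariant pairing `φ : A × B → k(χ)` of finite dimensional representations identifies
`A` with `B'`, and `a ∪_φ b = θ(a) ∪_ev b`; hence injectivity of `Ψ B m n` gives the right
nondegeneracy `(∀ a ∈ Hᵐ(A), t (a ∪_φ b) = 0) → b = 0` on `Hⁿ(B)`.  Applied to the flipped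
evaluation pairing `X × X' → k(χ)` this is the second one-sided statement consumed by the
Poitou–Tate endgame.
-/
import Mathlib
import Fermat.Agent.S55.LevelDualityTriv
import Fermat.Agent.S55.EndgameR2

set_option autoImplicit false
set_option linter.unusedSectionVars false

namespace Fermat.Agent.S55.LevelDuality

open CategoryTheory groupCohomology Rep Fermat.Agent.S55.Level Fermat.Agent.S55.CochainTools
  Fermat.Agent.S55.Cone Fermat.Agent.S55.Cup Fermat.Agent.S55.DualTwist

universe u

section PairingHom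

variable {k G : Type u} [Field k] [Group G] (χ : G →* kˣ) {A B : Rep.{u} k G}
  (φ : A →ₗ[k] B →ₗ[k] ofChar χ)
  (hφ : ∀ (g : G) (a : A) (b : B), φ (A.ρ g a) (B.ρ g b) = (ofChar χ).ρ g (φ a b))

/-- The morphism `A ⟶ B'`, `a ↦ φ a`, attached to an equivariant pairing `φ : A × B → k(χ)`. -/
noncomputable def pairingHom : A ⟶ B.dualTwist χ :=
  Rep.ofHom ⟨φ, fun g => by
    refine LinearMap.ext fun a => LinearMap.ext fun b => ?_
    have h := hφ g a (B.ρ g⁻¹ b)
    rw [← Module.End.mul_apply, ← map_mul, mul_inv_cancel, map_one, Module.End.one_apply] at h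
    exact h⟩

lemma pairingHom_apply (a : A) (b : B) :
    evalPairing χ B ((pairingHom χ φ hφ).hom a) b = φ a b := rfl

lemma pairingHom_injective (hl : ∀ a, (∀ b, φ a b = 0) → a = 0) :
    Function.Injective (pairingHom χ φ hφ).hom := by
  rw [injective_iff_map_eq_zero]
  intro a ha
  refine hl a fun b => ?_
  have := pairingHom_apply χ φ hφ a b
  rw [ha] at this
  exact this.symm

lemma pairingHom_surjective [FiniteDimensional k B] (hr : ∀ b, (∀ a, φ a b = 0) → b = 0) :
    Function.Surjective (pairingHom χ φ hφ).hom := by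
  let ι : A.V →ₗ[k] Module.Dual k B.V := φ
  exact EndgameR2.surjective_of_nondegenerate (k := k) (P := A.V) (Q' := B.V) ι
    (fun b hb => hr b hb)

/-- A perfect equivariant pairing `A × B → k(χ)` identifies `A` with `B'`. -/
noncomputable def pairingIso [FiniteDimensional k B] (hl : ∀ a, (∀ b, φ a b = 0) → a = 0)
    (hr : ∀ b, (∀ a, φ a b = 0) → b = 0) : A ≅ B.dualTwist χ :=
  haveI : IsIso (pairingHom χ φ hφ) := by
    have h1 : Mono (pairingHom χ φ hφ) :=
      (Rep.mono_iff_injective _).2 (pairingHom_injective χ φ hφ hl)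
    have h2 : Epi (pairingHom χ φ hφ) :=
      (Rep.epi_iff_surjective _).2 (pairingHom_surjective χ φ hφ hr)
    exact isIso_of_mono_of_epi _
  asIso (pairingHom χ φ hφ)

@[simp] lemma pairingIso_hom [FiniteDimensional k B] (hl : ∀ a, (∀ b, φ a b = 0) → a = 0)
    (hr : ∀ b, (∀ a, φ a b = 0) → b = 0) :
    (pairingIso χ φ hφ hl hr).hom = pairingHom χ φ hφ := rfl

end PairingHom

section RightNondegenerate

variable {k G : Type u} [Field k] [Group G] (𝒰 : LevelStructure G) (χ : G →* kˣ)
  [IsDiscrete 𝒰 (ofChar χ)] (t : levelCohomology 𝒰 (ofChar χ) 2 →ₗ[k] k)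
  {A B : Rep.{u} k G} [IsDiscrete 𝒰 A] [IsDiscrete 𝒰 B] [IsDiscrete 𝒰 (B.dualTwist χ)]
  (φ : A →ₗ[k] B →ₗ[k] ofChar χ)
  (hφ : ∀ (g : G) (a : A) (b : B), φ (A.ρ g a) (B.ρ g b) = (ofChar χ).ρ g (φ a b))

/-- The cup product for `φ` is the cup product for the evaluation pairing after `A ⟶ B'`. -/
theorem pairH_pairingHom {m n p : ℕ} (h : m + n = p) (a : levelCohomology 𝒰 A m)
    (b : levelCohomology 𝒰 B n) :
    (evPairing 𝒰 χ B).pairH m n p h (lmap 𝒰 (pairingHom χ φ hφ) m a) b =
      (levelCupPairing 𝒰 φ hφ).pairH m n p h a b := by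
  have key := CochainPairing.pairH_adjoint (levelCupPairing 𝒰 φ hφ) (evPairing 𝒰 χ B)
    (levelMap 𝒰 (pairingHom χ φ hφ)) (levelMap 𝒰 (𝟙 B))
    (fun m n p h a b => levelCupμ_adjoint 𝒰 φ (evalPairing χ B)
      (pairingHom χ φ hφ) (𝟙 B) (fun _ _ => rfl) m n p h a b) h a b
  have hid : (HomologicalComplex.homologyMap (levelMap 𝒰 (𝟙 B)) n).hom b = b := by
    have := lmap_id 𝒰 B n b
    exact this
  rw [hid] at key
  exact key

/-- **Right nondegeneracy for a perfect pairing**: if the duality map `Ψ B m n` is injective, then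
for every perfect equivariant pairing `φ : A × B → k(χ)` a class `b ∈ Hⁿ(B)` with
`t (a ∪_φ b) = 0` for all `a ∈ Hᵐ(A)` vanishes. -/
theorem eq_zero_of_forall_pairH_eq_zero [FiniteDimensional k B]
    (hl : ∀ a, (∀ b, φ a b = 0) → a = 0) (hr : ∀ b, (∀ a, φ a b = 0) → b = 0)
    {m n : ℕ} (h : m + n = 2) (hΨ : Function.Injective (Ψ 𝒰 χ t B m n h))
    (b : levelCohomology 𝒰 B n)
    (hb : ∀ a : levelCohomology 𝒰 A m, t ((levelCupPairing 𝒰 φ hφ).pairH m n 2 h a b) = 0) :
    b = 0 := by
  apply hΨ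
  rw [map_zero]
  ext w
  obtain ⟨a, rfl⟩ := (lmap_bijective_of_iso 𝒰 (pairingIso χ φ hφ hl hr) m).2 w
  rw [Ψ_apply, pairingIso_hom, pairH_pairingHom, hb]
  rfl

end RightNondegenerate

section Finite

variable {k G : Type u} [Field k] [Group G] (𝒰 : LevelStructure G)

/-- `H⁰` of a finite dimensional representation is finite dimensional. -/
theorem finiteDimensional_levelCohomology_zero (X : Rep.{u} k G) [IsDiscrete 𝒰 X]
    [FiniteDimensional k X] : FiniteDimensional k (levelCohomology 𝒰 X 0) := by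
  have h1 : FiniteDimensional k ((Fin 0 → G) → X) := inferInstance
  have h2 : FiniteDimensional k (levelCochains 𝒰 X 0) := inferInstance
  have h3 : FiniteDimensional k (Z (levelComplex 𝒰 X) 0) :=
    inferInstanceAs (FiniteDimensional k
      (LinearMap.ker ((levelComplex 𝒰 X).d 0 1).hom : Submodule k (levelCochains 𝒰 X 0)))
  exact Module.Finite.of_surjective (cls (levelComplex 𝒰 X) 0) (cls_surjective _ 0)

variable (χ : G →* kˣ) [IsDiscrete 𝒰 (ofChar χ)] (t : levelCohomology 𝒰 (ofChar χ) 2 →ₗ[k] k)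

/-- If `Ψ X m n` is injective and `Hᵐ(X')` is finite dimensional then `Hⁿ(X)` is finite
dimensional. -/
theorem finiteDimensional_of_Ψ_injective (X : Rep.{u} k G) [IsDiscrete 𝒰 X]
    [IsDiscrete 𝒰 (X.dualTwist χ)] {m n : ℕ} (h : m + n = 2)
    [FiniteDimensional k (levelCohomology 𝒰 (X.dualTwist χ) m)]
    (hΨ : Function.Injective (Ψ 𝒰 χ t X m n h)) :
    FiniteDimensional k (levelCohomology 𝒰 X n) :=
  FiniteDimensional.of_injective _ hΨ

/-- `H²` of a finite dimensional representation is finite dimensional as soon as `Ψ X 0 2` is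
injective. -/
theorem finiteDimensional_levelCohomology_two (X : Rep.{u} k G) [IsDiscrete 𝒰 X]
    [FiniteDimensional k X] [IsDiscrete 𝒰 (X.dualTwist χ)]
    (hΨ : Function.Injective (Ψ 𝒰 χ t X 0 2 rfl)) :
    FiniteDimensional k (levelCohomology 𝒰 X 2) := by
  have : FiniteDimensional k (X.dualTwist χ) :=
    inferInstanceAs (FiniteDimensional k (Module.Dual k X))
  have := finiteDimensional_levelCohomology_zero 𝒰 (X.dualTwist χ)
  exact finiteDimensional_of_Ψ_injective 𝒰 χ t X rfl hΨ

end Finite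

end Fermat.Agent.S55.LevelDuality
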