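/-
S55 / ALG4 (a): change-of-group maps of level cohomology commute with the connecting homomorphisms
(level analogue of `GC/ResDelta.lean`).
-/
import Fermat.Agent.S55.LevelFunct

set_option autoImplicit false

open CategoryTheory

namespace Fermat.Agent.S55.Level

universe u

variable {k G H : Type u} [CommRing k] [Group G] [Group H]
  {𝒰 : LevelStructure G} {𝒱 : LevelStructure H}

/-- Value of `levelCochainsMap` on a cochain. -/
lemma levelCochainsMap_f_apply_coe {A : Rep.{u} k G} {B : Rep.{u} k H} [IsDiscrete 𝒰 A]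
    [IsDiscrete 𝒱 B] (f : H →* G) (hf : 𝒱.Refines 𝒰 f) (φ : Rep.res f A ⟶ B) (n : ℕ)
    (x : levelCochains 𝒰 A n) (h : Fin n → H) :
    (show levelCochains 𝒱 B n from ((levelCochainsMap f hf φ).f n).hom x).1 h =
      φ.hom (x.1 (f ∘ h)) := rfl

variable (f : H →* G) (hf : 𝒱.Refines 𝒰 f)
  {X : ShortComplex (Rep.{u} k G)} {X' : ShortComplex (Rep.{u} k H)}
  [IsDiscrete 𝒰 X.X₁] [IsDiscrete 𝒰 X.X₂] [IsDiscrete 𝒰 X.X₃]
  [IsDiscrete 𝒱 X'.X₁] [IsDiscrete 𝒱 X'.X₂] [IsDiscrete 𝒱 X'.X₃]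

/-- The morphism of short complexes of level complexes induced by a group homomorphism and a
morphism of short complexes `res f X ⟶ X'`. -/
noncomputable def levelCochainsMapShortComplex
    (φ₁ : Rep.res f X.X₁ ⟶ X'.X₁) (φ₂ : Rep.res f X.X₂ ⟶ X'.X₂) (φ₃ : Rep.res f X.X₃ ⟶ X'.X₃)
    (h₁₂ : ∀ a : X.X₁, φ₂.hom (X.f.hom a) = X'.f.hom (φ₁.hom a))
    (h₂₃ : ∀ a : X.X₂, φ₃.hom (X.g.hom a) = X'.g.hom (φ₂.hom a)) :
    levelShortComplex 𝒰 X ⟶ levelShortComplex 𝒱 X' where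
  τ₁ := levelCochainsMap f hf φ₁
  τ₂ := levelCochainsMap f hf φ₂
  τ₃ := levelCochainsMap f hf φ₃
  comm₁₂ := by
    ext n : 1
    refine ModuleCat.hom_ext (LinearMap.ext fun (x : levelCochains 𝒰 X.X₁ n) => Subtype.ext ?_)
    funext h
    exact (h₁₂ (x.1 (f ∘ h))).symm
  comm₂₃ := by
    ext n : 1
    refine ModuleCat.hom_ext (LinearMap.ext fun (x : levelCochains 𝒰 X.X₂ n) => Subtype.ext ?_)
    funext h
    exact (h₂₃ (x.1 (f ∘ h))).symm

/-- **Change-of-group maps of level cohomology commute with connecting homomorphisms.** -/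
theorem levelδ_naturality (hX : X.ShortExact) (hX' : X'.ShortExact)
    (φ₁ : Rep.res f X.X₁ ⟶ X'.X₁) (φ₂ : Rep.res f X.X₂ ⟶ X'.X₂) (φ₃ : Rep.res f X.X₃ ⟶ X'.X₃)
    (h₁₂ : ∀ a : X.X₁, φ₂.hom (X.f.hom a) = X'.f.hom (φ₁.hom a))
    (h₂₃ : ∀ a : X.X₂, φ₃.hom (X.g.hom a) = X'.g.hom (φ₂.hom a))
    (i j : ℕ) (hij : i + 1 = j) :
    levelδ 𝒰 hX i j hij ≫ levelCohomologyMap f hf φ₁ j =
      levelCohomologyMap f hf φ₃ i ≫ levelδ 𝒱 hX' i j hij :=
  HomologicalComplex.HomologySequence.δ_naturality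
    (levelCochainsMapShortComplex f hf φ₁ φ₂ φ₃ h₁₂ h₂₃)
    (levelShortComplex_shortExact 𝒰 hX) (levelShortComplex_shortExact 𝒱 hX') i j hij

/-- Naturality of `levelCohomologyMap` in the coefficients (commuting square of coefficient
maps). -/
theorem levelCohomologyMap_naturality {A A' : Rep.{u} k G} {B B' : Rep.{u} k H}
    [IsDiscrete 𝒰 A] [IsDiscrete 𝒰 A'] [IsDiscrete 𝒱 B] [IsDiscrete 𝒱 B']
    (α : A ⟶ A') (β : B ⟶ B') (φ : Rep.res f A ⟶ B) (φ' : Rep.res f A' ⟶ B')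
    (h : ∀ a : A, φ'.hom (α.hom a) = β.hom (φ.hom a)) (n : ℕ) :
    HomologicalComplex.homologyMap (levelMap 𝒰 α) n ≫ levelCohomologyMap f hf φ' n =
      levelCohomologyMap f hf φ n ≫ HomologicalComplex.homologyMap (levelMap 𝒱 β) n := by
  show HomologicalComplex.homologyMap (levelMap 𝒰 α) n ≫
      HomologicalComplex.homologyMap (levelCochainsMap f hf φ') n =
    HomologicalComplex.homologyMap (levelCochainsMap f hf φ) n ≫
      HomologicalComplex.homologyMap (levelMap 𝒱 β) n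
  rw [← HomologicalComplex.homologyMap_comp, ← HomologicalComplex.homologyMap_comp]
  congr 1
  ext m : 1
  refine ModuleCat.hom_ext (LinearMap.ext fun (x : levelCochains 𝒰 A m) => Subtype.ext ?_)
  funext g
  exact h (x.1 (f ∘ g))

end Fermat.Agent.S55.Level
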