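/-
S55 / ALG4 (c): the level structure induced on an open subgroup, and discreteness of coinduced
representations.
-/
import Fermat.Agent.S55.LevelFunct

set_option autoImplicit false

open CategoryTheory

namespace Fermat.Agent.S55.Level

universe u

section Restrict

variable {G : Type u} [Group G] (𝒰 : LevelStructure G) (U₀ : Subgroup G)

/-- The level structure induced on a subgroup `U₀`: the subgroups `U ∩ U₀`, `U ∈ 𝒰`. -/
def LevelStructure.restrict : LevelStructure U₀ where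
  sets := {V | ∃ U ∈ 𝒰.sets, V = U.subgroupOf U₀}
  nonempty := by
    obtain ⟨U, hU⟩ := 𝒰.nonempty
    exact ⟨_, U, hU, rfl⟩
  normal := by
    rintro _ ⟨U, hU, rfl⟩
    have := 𝒰.normal U hU
    exact Subgroup.normal_subgroupOf
  finiteIndex := by
    rintro _ ⟨U, hU, rfl⟩
    have := 𝒰.finiteIndex U hU
    exact Subgroup.instFiniteIndex_subgroupOf U U₀
  directed := by
    rintro _ ⟨U, hU, rfl⟩ _ ⟨U', hU', rfl⟩
    obtain ⟨W, hW, hWUU'⟩ := 𝒰.directed U hU U' hU'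
    refine ⟨_, ⟨W, hW, rfl⟩, ?_⟩
    intro x hx
    exact ⟨(hWUU'.trans inf_le_left) hx, (hWUU'.trans inf_le_right) hx⟩

lemma LevelStructure.mem_restrict_sets {U : Subgroup G} (hU : U ∈ 𝒰.sets) :
    U.subgroupOf U₀ ∈ (𝒰.restrict U₀).sets := ⟨U, hU, rfl⟩

lemma LevelStructure.restrict_refines : (𝒰.restrict U₀).Refines 𝒰 U₀.subtype :=
  fun _ hU => ⟨_, 𝒰.mem_restrict_sets U₀ hU, le_rfl⟩

/-- `U₀` is open for the level structure `𝒰`: it contains a member of the family. -/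
class IsOpenSub : Prop where
  exists_le : ∃ U ∈ 𝒰.sets, U ≤ U₀

lemma isOpenSub_of_mem {U : Subgroup G} (hU : U ∈ 𝒰.sets) : IsOpenSub 𝒰 U := ⟨⟨_, hU, le_rfl⟩⟩

variable {𝒰 U₀}

lemma IsOpenSub.finiteIndex [h : IsOpenSub 𝒰 U₀] : U₀.FiniteIndex := by
  obtain ⟨U, hU, hle⟩ := h.exists_le
  have := 𝒰.finiteIndex U hU
  exact Subgroup.finiteIndex_of_le hle

/-- Members of the restricted family contain the restriction of a member which is contained in
`U₀`. -/
lemma IsOpenSub.exists_le_of_mem_restrict [h : IsOpenSub 𝒰 U₀] {V : Subgroup U₀}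
    (hV : V ∈ (𝒰.restrict U₀).sets) : ∃ U ∈ 𝒰.sets, U ≤ U₀ ∧ U.subgroupOf U₀ ≤ V := by
  obtain ⟨U, hU, rfl⟩ := hV
  obtain ⟨U', hU', hle⟩ := h.exists_le
  obtain ⟨W, hW, hWUU'⟩ := 𝒰.directed U hU U' hU'
  exact ⟨W, hW, (hWUU'.trans inf_le_right).trans hle, fun x hx => (hWUU'.trans inf_le_left) hx⟩

/-- A finite set of right coset representatives of a subgroup of finite index. -/
lemma exists_finset_rightReps (U₀ : Subgroup G) [U₀.FiniteIndex] :
    ∃ T : Finset G, ∀ x : G, ∃ u ∈ U₀, ∃ t ∈ T, x = u * t := by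
  classical
  have : Fintype (G ⧸ U₀) := Fintype.ofFinite _
  refine ⟨Finset.univ.image fun q : G ⧸ U₀ => (q.out)⁻¹, fun x => ?_⟩
  obtain ⟨h, hh⟩ := QuotientGroup.mk_out_eq_mul U₀ x⁻¹
  refine ⟨h, h.2, _, Finset.mem_image.2 ⟨(x⁻¹ : G), Finset.mem_univ _, rfl⟩, ?_⟩
  rw [hh]
  group

end Restrict

section Coind

variable {k G : Type u} [CommRing k] [Group G] (𝒰 : LevelStructure G) (U₀ : Subgroup G)

lemma coind_ρ_apply_coe (B : Rep.{u} k U₀) (g : G) (F : (Rep.coind U₀.subtype B).V) (x : G) :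
    ((Rep.coind U₀.subtype B).ρ g F).1 x = F.1 (x * g) := rfl

lemma coind_apply_mul (B : Rep.{u} k U₀) (F : (Rep.coind U₀.subtype B).V) (u : U₀) (x : G) :
    F.1 ((u : G) * x) = B.ρ u (F.1 x) := F.2 u x

/-- **Coinduction from an open subgroup preserves discreteness.** -/
instance isDiscrete_coind [IsOpenSub 𝒰 U₀] (B : Rep.{u} k U₀) [IsDiscrete (𝒰.restrict U₀) B] :
    IsDiscrete 𝒰 (Rep.coind U₀.subtype B) where
  exists_fix := by
    classical
    intro (F : (Rep.coind U₀.subtype B).V)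
    have := IsOpenSub.finiteIndex (𝒰 := 𝒰) (U₀ := U₀)
    obtain ⟨T, hT⟩ := exists_finset_rightReps U₀
    obtain ⟨V', hV', hfix⟩ := exists_fix_finset (𝒰 := 𝒰.restrict U₀) (A := B) (T.image F.1)
    obtain ⟨U, hU, hUU₀, hUV'⟩ := IsOpenSub.exists_le_of_mem_restrict (𝒰 := 𝒰) hV'
    have hn := 𝒰.normal U hU
    refine ⟨U, hU, fun v hv => Subtype.ext (funext fun x => ?_)⟩
    rw [coind_ρ_apply_coe]
    obtain ⟨u, hu, t, ht, rfl⟩ := hT x
    have hw : t * v * t⁻¹ ∈ U := hn.conj_mem v hv t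
    have e : u * t * v = ((⟨u, hu⟩ * ⟨t * v * t⁻¹, hUU₀ hw⟩ : U₀) : G) * t := by
      simp only [Subgroup.coe_mul]
      group
    have e' : u * t = ((⟨u, hu⟩ : U₀) : G) * t := rfl
    rw [e, e', coind_apply_mul, coind_apply_mul, map_mul, Module.End.mul_apply]
    congr 1
    exact hfix _ (Finset.mem_image_of_mem _ ht) _ (hUV' (show _ ∈ U.subgroupOf U₀ from hw))

end Coind

end Fermat.Agent.S55.Level
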