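/-
S55 / ALG4 (d): Shapiro's lemma for level cohomology.  For an open subgroup `U₀` of a group `G`
with level structure `𝒰` and a discrete representation `B` of `U₀` (for the induced level
structure `𝒰.restrict U₀`), the natural map
`levelSh : Hⁿ(G, Coind_{U₀}^G B) ⟶ Hⁿ(U₀, B)` (restriction followed by evaluation at `1`)
is an isomorphism.  δ-functor comparison, following `GC/ShapiroExplicit.lean`, with the acyclic
hull of `LevelHull.lean` as effacement.
-/
import Fermat.Agent.S55.LevelHull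
import Fermat.Agent.S55.LevelDelta
import Fermat.Agent.S55.LevelRestrict
import Fermat.Agent.S55.GC.ShapiroExplicit

set_option autoImplicit false

open CategoryTheory CategoryTheory.Limits

namespace Fermat.Agent.S55.Level

open Fermat.Agent.S55.GC.Shapiro

universe u

variable {k G : Type u} [CommRing k] [Group G] (𝒰 : LevelStructure G) (U₀ : Subgroup G)
  [IsOpenSub 𝒰 U₀]

section Def

/-- **The Shapiro map for level cohomology**: restriction to the open subgroup `U₀` followed by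
evaluation at `1`. -/
noncomputable def levelSh (B : Rep.{u} k U₀) [IsDiscrete (𝒰.restrict U₀) B] (n : ℕ) :
    levelCohomology 𝒰 (Rep.coind U₀.subtype B) n ⟶ levelCohomology (𝒰.restrict U₀) B n :=
  levelCohomologyMap U₀.subtype (𝒰.restrict_refines U₀) (coindEval U₀ B) n

/-- `levelSh` on cocycle representatives. -/
lemma levelSh_levelπ (B : Rep.{u} k U₀) [IsDiscrete (𝒰.restrict U₀) B] (n : ℕ)
    (z : levelCocycles 𝒰 (Rep.coind U₀.subtype B) n) (z' : levelCocycles (𝒰.restrict U₀) B n)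
    (h : ∀ g : Fin n → U₀, z'.1 g = (z.1 (U₀.subtype ∘ g)).1 1) :
    (levelSh 𝒰 U₀ B n).hom ((levelπ 𝒰 _ n).hom z) = (levelπ (𝒰.restrict U₀) B n).hom z' :=
  levelCohomologyMap_levelπ U₀.subtype (𝒰.restrict_refines U₀) (coindEval U₀ B) n z z' h

/-- `levelSh` is natural in the coefficients. -/
lemma levelSh_naturality {B B' : Rep.{u} k U₀} [IsDiscrete (𝒰.restrict U₀) B]
    [IsDiscrete (𝒰.restrict U₀) B'] (φ : B ⟶ B') (n : ℕ) :
    HomologicalComplex.homologyMap (levelMap 𝒰 (Rep.coindMap U₀.subtype φ)) n ≫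
        levelSh 𝒰 U₀ B' n =
      levelSh 𝒰 U₀ B n ≫ HomologicalComplex.homologyMap (levelMap (𝒰.restrict U₀) φ) n :=
  levelCohomologyMap_naturality U₀.subtype (𝒰.restrict_refines U₀) (Rep.coindMap U₀.subtype φ) φ
    (coindEval U₀ B) (coindEval U₀ B') (fun _ => rfl) n

variable (E : ShortComplex (Rep.{u} k U₀))

instance isDiscrete_coind_X₁ [IsDiscrete (𝒰.restrict U₀) E.X₁] :
    IsDiscrete 𝒰 (E.map (Rep.coindFunctor.{u} k U₀.subtype)).X₁ :=
  inferInstanceAs (IsDiscrete 𝒰 (Rep.coind U₀.subtype E.X₁))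

instance isDiscrete_coind_X₂ [IsDiscrete (𝒰.restrict U₀) E.X₂] :
    IsDiscrete 𝒰 (E.map (Rep.coindFunctor.{u} k U₀.subtype)).X₂ :=
  inferInstanceAs (IsDiscrete 𝒰 (Rep.coind U₀.subtype E.X₂))

instance isDiscrete_coind_X₃ [IsDiscrete (𝒰.restrict U₀) E.X₃] :
    IsDiscrete 𝒰 (E.map (Rep.coindFunctor.{u} k U₀.subtype)).X₃ :=
  inferInstanceAs (IsDiscrete 𝒰 (Rep.coind U₀.subtype E.X₃))

variable {E} [IsDiscrete (𝒰.restrict U₀) E.X₁] [IsDiscrete (𝒰.restrict U₀) E.X₂]
  [IsDiscrete (𝒰.restrict U₀) E.X₃]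

/-- `levelSh` commutes with connecting homomorphisms. -/
lemma levelSh_δ (hE : E.ShortExact) (i j : ℕ) (hij : i + 1 = j) :
    levelδ 𝒰 (coind_shortExact U₀ hE) i j hij ≫ levelSh 𝒰 U₀ E.X₁ j =
      levelSh 𝒰 U₀ E.X₃ i ≫ levelδ (𝒰.restrict U₀) hE i j hij :=
  levelδ_naturality U₀.subtype (𝒰.restrict_refines U₀) (coind_shortExact U₀ hE) hE
    (coindEval U₀ E.X₁) (coindEval U₀ E.X₂) (coindEval U₀ E.X₃) (fun _ => rfl) (fun _ => rfl)
    i j hij

end Def

section Zero

variable {𝒰} in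
omit [IsOpenSub 𝒰 U₀] in
lemma isLevel_zero {X : Type*} (f : (Fin 0 → G) → X) : IsLevel 𝒰 f := by
  obtain ⟨U, hU⟩ := 𝒰.nonempty
  exact ⟨U, hU, fun g s _ => congrArg f (Subsingleton.elim _ _)⟩

omit [IsOpenSub 𝒰 U₀] in
lemma d_zero_apply (A : Rep.{u} k G) (f : (Fin 0 → G) → A) (g : Fin 1 → G) :
    (inhomogeneousCochains.d A 0).hom f g = A.ρ (g 0) (f default) - f default := by
  rw [inhomogeneousCochains.d_hom_apply]
  rw [Fin.sum_univ_succ, Fin.sum_univ_zero]
  simp only [Fin.val_zero, zero_add, pow_one, neg_smul, one_smul, add_zero]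
  rw [sub_eq_add_neg]
  congr 2 <;> exact congrArg f (Subsingleton.elim _ _)

omit [IsOpenSub 𝒰 U₀] in
lemma mem_levelCocycles_zero_iff (A : Rep.{u} k G) [IsDiscrete 𝒰 A] (f : (Fin 0 → G) → A) :
    f ∈ levelCocycles 𝒰 A 0 ↔ ∀ g : G, A.ρ g (f default) = f default := by
  rw [mem_levelCocycles_iff]
  constructor
  · rintro ⟨-, h⟩ g
    have := congrFun h (fun _ => g)
    rw [d_zero_apply] at this
    exact sub_eq_zero.1 this
  · intro h
    refine ⟨isLevel_zero f, funext fun g => ?_⟩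
    rw [d_zero_apply, h (g 0), sub_self]
    rfl

/-- The Shapiro map is bijective in degree `0`. -/
theorem levelSh_zero_bijective (B : Rep.{u} k U₀) [IsDiscrete (𝒰.restrict U₀) B] :
    Function.Bijective (levelSh 𝒰 U₀ B 0).hom := by
  constructor
  · rw [injective_iff_map_eq_zero]
    intro x hx
    obtain ⟨z, rfl⟩ := levelπ_surjective 𝒰 (Rep.coind U₀.subtype B) 0 x
    have hz := (mem_levelCocycles_zero_iff 𝒰 (Rep.coind U₀.subtype B) z.1).1 z.2
    have hz' : (fun g : Fin 0 → U₀ => (z.1 (U₀.subtype ∘ g)).1 1) ∈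
        levelCocycles (𝒰.restrict U₀) B 0 := by
      rw [mem_levelCocycles_zero_iff]
      intro u
      have h1 := (z.1 (U₀.subtype ∘ (default : Fin 0 → U₀))).2 u 1
      have h2 := congrArg (fun F : (Rep.coind U₀.subtype B).V => F.1 1) (hz (u : G))
      simp only at h2
      rw [coind_ρ_apply_coe, one_mul] at h2
      rw [mul_one] at h1
      have e : (U₀.subtype ∘ (default : Fin 0 → U₀)) = (default : Fin 0 → G) :=
        Subsingleton.elim _ _
      rw [e] at h1 ⊢
      exact h1.symm.trans h2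
    rw [levelSh_levelπ 𝒰 U₀ B 0 z ⟨_, hz'⟩ (fun _ => rfl)] at hx
    have h0 := levelπ_zero_injective (𝒰.restrict U₀) B (hx.trans (map_zero _).symm)
    have h1 : (z.1 default).1 1 = 0 := by
      have := congrFun (congrArg Subtype.val h0) default
      simp only at this
      have e : (U₀.subtype ∘ (default : Fin 0 → U₀)) = (default : Fin 0 → G) :=
        Subsingleton.elim _ _
      rw [e] at this
      exact this
    have h2 : z.1 default = 0 := by
      refine Subtype.ext (funext fun g => ?_)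
      have h3 := congrArg (fun F : (Rep.coind U₀.subtype B).V => F.1 1) (hz g)
      simp only at h3
      rw [coind_ρ_apply_coe, one_mul] at h3
      rw [h3, h1]
      rfl
    have h3 : z = 0 := by
      refine Subtype.ext (funext fun g => ?_)
      rw [show g = default from Subsingleton.elim _ _, h2]
      rfl
    rw [h3, map_zero]
  · intro y
    obtain ⟨z', rfl⟩ := levelπ_surjective (𝒰.restrict U₀) B 0 y
    have hz' := (mem_levelCocycles_zero_iff (𝒰.restrict U₀) B z'.1).1 z'.2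
    let F : (Rep.coind U₀.subtype B).V := ⟨fun _ => z'.1 default, fun u _ => (hz' u).symm⟩
    have hz : (fun _ : Fin 0 → G => F) ∈ levelCocycles 𝒰 (Rep.coind U₀.subtype B) 0 := by
      rw [mem_levelCocycles_zero_iff]
      intro g
      exact Subtype.ext (funext fun x => rfl)
    refine ⟨(levelπ 𝒰 _ 0).hom ⟨_, hz⟩, ?_⟩
    refine levelSh_levelπ 𝒰 U₀ B 0 ⟨_, hz⟩ z' (fun g => ?_)
    exact congrArg z'.1 (Subsingleton.elim _ _)

end Zero

section Step

variable {E : ShortComplex (Rep.{u} k U₀)} [IsDiscrete (𝒰.restrict U₀) E.X₁]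
  [IsDiscrete (𝒰.restrict U₀) E.X₂] [IsDiscrete (𝒰.restrict U₀) E.X₃]

/-- The inductive step of the δ-functor comparison. -/
lemma levelSh_succ_bijective (hE : E.ShortExact) (n : ℕ)
    (h2 : Function.Bijective (levelSh 𝒰 U₀ E.X₂ n).hom)
    (h3 : Function.Bijective (levelSh 𝒰 U₀ E.X₃ n).hom)
    (hz : IsZero (levelCohomology (𝒰.restrict U₀) E.X₂ (n + 1)))
    (hz' : IsZero (levelCohomology 𝒰 (Rep.coind U₀.subtype E.X₂) (n + 1))) :
    Function.Bijective (levelSh 𝒰 U₀ E.X₁ (n + 1)).hom := by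
  have hCE := coind_shortExact U₀ hE
  have hδ_surj : Function.Surjective (levelδ (𝒰.restrict U₀) hE n (n + 1) rfl).hom :=
    levelδ_surjective_of_isZero hE n (n + 1) rfl hz
  have hδ'_surj : Function.Surjective (levelδ 𝒰 hCE n (n + 1) rfl).hom :=
    levelδ_surjective_of_isZero hCE n (n + 1) rfl hz'
  have hcomm : ∀ x, (levelSh 𝒰 U₀ E.X₁ (n + 1)).hom ((levelδ 𝒰 hCE n (n + 1) rfl).hom x) =
      (levelδ (𝒰.restrict U₀) hE n (n + 1) rfl).hom ((levelSh 𝒰 U₀ E.X₃ n).hom x) := by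
    intro x
    exact congrArg (fun φ => ModuleCat.Hom.hom φ x) (levelSh_δ 𝒰 U₀ hE n (n + 1) rfl)
  have hnat : ∀ x, (levelSh 𝒰 U₀ E.X₃ n).hom
      ((HomologicalComplex.homologyMap (levelMap 𝒰 (Rep.coindMap U₀.subtype E.g)) n).hom x) =
      (HomologicalComplex.homologyMap (levelMap (𝒰.restrict U₀) E.g) n).hom
        ((levelSh 𝒰 U₀ E.X₂ n).hom x) := by
    intro x
    exact congrArg (fun φ => ModuleCat.Hom.hom φ x) (levelSh_naturality 𝒰 U₀ E.g n)
  have hex := (ShortComplex.moduleCat_exact_iff _).1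
    (level_exact₃ (𝒰.restrict U₀) hE n (n + 1) rfl)
  have hzero' : ∀ x, (levelδ 𝒰 hCE n (n + 1) rfl).hom
      ((HomologicalComplex.homologyMap (levelMap 𝒰 (Rep.coindMap U₀.subtype E.g)) n).hom x) =
      0 := by
    intro x
    exact congrArg (fun φ => ModuleCat.Hom.hom φ x)
      ((levelShortComplex_shortExact 𝒰 hCE).comp_δ n (n + 1) rfl)
  constructor
  · rw [injective_iff_map_eq_zero]
    intro x hx
    obtain ⟨z', rfl⟩ := hδ'_surj x
    rw [hcomm] at hx
    obtain ⟨w, hw⟩ := hex _ hx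
    obtain ⟨w', rfl⟩ := h2.2 w
    have hw' : (HomologicalComplex.homologyMap (levelMap (𝒰.restrict U₀) E.g) n).hom
        ((levelSh 𝒰 U₀ E.X₂ n).hom w') = (levelSh 𝒰 U₀ E.X₃ n).hom z' := hw
    have := h3.1 ((hnat w').trans hw')
    rw [← this]
    exact hzero' w'
  · intro y
    obtain ⟨z, rfl⟩ := hδ_surj y
    obtain ⟨z', rfl⟩ := h3.2 z
    exact ⟨(levelδ 𝒰 hCE n (n + 1) rfl).hom z', hcomm z'⟩

end Step

section CoindHull

variable (M : Type u) [AddCommGroup M] [Module k M]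

instance isDiscrete_coind_levelHullM :
    IsDiscrete 𝒰 (Rep.coind U₀.subtype (levelHullM (k := k) (𝒰.restrict U₀) M)) :=
  isDiscrete_coind 𝒰 U₀ _

/-- `Coind_{U₀}^G (Fun(U₀, M)) ⟶ Fun(G, M)`, `F ↦ (g ↦ F(g)(1))`. -/
noncomputable def coindHullTo :
    Rep.coind U₀.subtype (levelHullM (k := k) (𝒰.restrict U₀) M) ⟶ levelHullM (k := k) 𝒰 M :=
  Rep.ofHom (ρ := (Rep.coind U₀.subtype (levelHullM (k := k) (𝒰.restrict U₀) M)).ρ)
    (σ := hullRep (k := k) 𝒰 M)
    ⟨{ toFun := fun F => ⟨fun g => (F.1 g).1 1, by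
          obtain ⟨U, hU, h⟩ := IsDiscrete.exists_fix (𝒰 := 𝒰)
            (A := Rep.coind U₀.subtype (levelHullM (k := k) (𝒰.restrict U₀) M)) F
          refine ⟨U, hU, fun x v hv => ?_⟩
          have := congrArg (fun F' : (Rep.coind U₀.subtype
            (levelHullM (k := k) (𝒰.restrict U₀) M)).V => (F'.1 x).1 1) (h v hv)
          exact this⟩
       map_add' := fun _ _ => rfl
       map_smul' := fun _ _ => rfl },
      fun g => by
        ext F x
        rfl⟩

lemma coindHullTo_apply_coe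
    (F : (Rep.coind U₀.subtype (levelHullM (k := k) (𝒰.restrict U₀) M)).V) (g : G) :
    (show hullSubmodule (k := k) 𝒰 M from (coindHullTo 𝒰 U₀ M).hom F).1 g = (F.1 g).1 1 := rfl

omit [IsOpenSub 𝒰 U₀] in
lemma coindHullFrom_mem (φ : hullSubmodule (k := k) 𝒰 M) (g : G) :
    (fun y : U₀ => φ.1 ((y : G) * g)) ∈ hullSubmodule (k := k) (𝒰.restrict U₀) M := by
  obtain ⟨U, hU, h⟩ := φ.2
  have hn := 𝒰.normal U hU
  refine ⟨_, 𝒰.mem_restrict_sets U₀ hU, fun y v hv => ?_⟩
  show φ.1 (((y * v : U₀) : G) * g) = φ.1 ((y : G) * g)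
  have e : ((y * v : U₀) : G) * g = (y : G) * g * (g⁻¹ * (v : G) * g) := by
    simp only [Subgroup.coe_mul]
    group
  rw [e]
  exact h _ _ (by simpa using hn.conj_mem (v : G) hv g⁻¹)

/-- `Fun(G, M) ⟶ Coind_{U₀}^G (Fun(U₀, M))`, `φ ↦ (g ↦ (y ↦ φ(y g)))`. -/
noncomputable def coindHullFrom :
    levelHullM (k := k) 𝒰 M ⟶ Rep.coind U₀.subtype (levelHullM (k := k) (𝒰.restrict U₀) M) :=
  Rep.ofHom (ρ := hullRep (k := k) 𝒰 M)
    (σ := (Rep.coind U₀.subtype (levelHullM (k := k) (𝒰.restrict U₀) M)).ρ)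
    ⟨{ toFun := fun φ => ⟨fun g => ⟨fun y : U₀ => φ.1 ((y : G) * g), coindHullFrom_mem 𝒰 U₀ M φ g⟩,
          fun u g => Subtype.ext (funext fun y => by
            show φ.1 ((y : G) * ((u : G) * g)) = φ.1 (((y * u : U₀) : G) * g)
            rw [Subgroup.coe_mul, mul_assoc])⟩
       map_add' := fun _ _ => rfl
       map_smul' := fun _ _ => rfl },
      fun g => by
        ext φ x y
        show φ.1 ((y : G) * x * g) = φ.1 ((y : G) * (x * g))
        rw [mul_assoc]⟩

omit [IsOpenSub 𝒰 U₀] in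
lemma coindHullFrom_apply_coe (φ : hullSubmodule (k := k) 𝒰 M) (g : G) (y : U₀) :
    (((coindHullFrom 𝒰 U₀ M).hom φ).1 g).1 y = φ.1 ((y : G) * g) := rfl

/-- `coindHullFrom ∘ coindHullTo = id`. -/
lemma coindHullFrom_coindHullTo
    (F : (Rep.coind U₀.subtype (levelHullM (k := k) (𝒰.restrict U₀) M)).V) :
    (coindHullFrom 𝒰 U₀ M).hom ((coindHullTo 𝒰 U₀ M).hom F) = F := by
  refine Subtype.ext (funext fun g => Subtype.ext (funext fun y => ?_))
  rw [coindHullFrom_apply_coe, coindHullTo_apply_coe, coind_apply_mul]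
  show (F.1 g).1 (1 * y) = (F.1 g).1 y
  rw [one_mul]

/-- The coinduction of the acyclic hull is acyclic. -/
theorem isZero_levelCohomology_coind_levelHullM (n : ℕ) :
    IsZero (levelCohomology 𝒰
      (Rep.coind U₀.subtype (levelHullM (k := k) (𝒰.restrict U₀) M)) (n + 1)) := by
  have hcomp : levelMap 𝒰 (coindHullTo (k := k) 𝒰 U₀ M) ≫ levelMap 𝒰 (coindHullFrom (k := k) 𝒰 U₀ M) = 𝟙 _ := by
    ext m : 1
    refine ModuleCat.hom_ext (LinearMap.ext fun (x : levelCochains 𝒰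
      (Rep.coind U₀.subtype (levelHullM (k := k) (𝒰.restrict U₀) M)) m) =>
      Subtype.ext (funext fun g => ?_))
    exact coindHullFrom_coindHullTo (k := k) 𝒰 U₀ M (x.1 g)
  have hH : HomologicalComplex.homologyMap (levelMap 𝒰 (coindHullTo (k := k) 𝒰 U₀ M)) (n + 1) ≫
      HomologicalComplex.homologyMap (levelMap 𝒰 (coindHullFrom (k := k) 𝒰 U₀ M)) (n + 1) = 𝟙 _ := by
    rw [← HomologicalComplex.homologyMap_comp, hcomp, HomologicalComplex.homologyMap_id]
  have hs : Subsingleton (levelCohomology 𝒰 (levelHullM (k := k) 𝒰 M) (n + 1)) :=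
    ModuleCat.subsingleton_of_isZero (isZero_levelCohomology_levelHullM 𝒰 M n)
  have hsub : ∀ x : levelCohomology 𝒰
      (Rep.coind U₀.subtype (levelHullM (k := k) (𝒰.restrict U₀) M)) (n + 1), x = 0 := by
    intro x
    have h1 : (HomologicalComplex.homologyMap (levelMap 𝒰 (coindHullFrom (k := k) 𝒰 U₀ M))
        (n + 1)).hom ((HomologicalComplex.homologyMap (levelMap 𝒰 (coindHullTo (k := k) 𝒰 U₀ M))
        (n + 1)).hom x) = x := congrArg (fun φ => ModuleCat.Hom.hom φ x) hH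
    have h2 : (HomologicalComplex.homologyMap (levelMap 𝒰 (coindHullTo (k := k) 𝒰 U₀ M)) (n + 1)).hom x =
        0 := Subsingleton.elim (α := levelCohomology 𝒰 (levelHullM (k := k) 𝒰 M) (n + 1)) _ _
    rw [h2, map_zero] at h1
    exact h1.symm
  have : Subsingleton (levelCohomology 𝒰
      (Rep.coind U₀.subtype (levelHullM (k := k) (𝒰.restrict U₀) M)) (n + 1)) :=
    ⟨fun a b => (hsub a).trans (hsub b).symm⟩
  exact ModuleCat.isZero_of_subsingleton _

end CoindHull

section Main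

/-- **Shapiro's lemma for level cohomology**: for an open subgroup `U₀` and a discrete
representation `B` of `U₀`, restriction followed by evaluation at `1` is bijective
`Hⁿ(G, Coind_{U₀}^G B) ⟶ Hⁿ(U₀, B)` in every degree. -/
theorem levelSh_bijective (n : ℕ) : ∀ (B : Rep.{u} k U₀) [IsDiscrete (𝒰.restrict U₀) B],
    Function.Bijective (levelSh 𝒰 U₀ B n).hom := by
  induction n with
  | zero => exact fun B _ => levelSh_zero_bijective 𝒰 U₀ B
  | succ n ih =>
    intro B _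
    exact levelSh_succ_bijective 𝒰 U₀ (levelHullSeq_shortExact (𝒰.restrict U₀) B) n (ih _) (ih _)
      (isZero_levelCohomology_levelHull (𝒰.restrict U₀) B n)
      (isZero_levelCohomology_coind_levelHullM 𝒰 U₀ B.V n)

instance levelSh_isIso (B : Rep.{u} k U₀) [IsDiscrete (𝒰.restrict U₀) B] (n : ℕ) :
    IsIso (levelSh 𝒰 U₀ B n) :=
  (ConcreteCategory.isIso_iff_bijective _).2 (levelSh_bijective 𝒰 U₀ n B)

/-- Shapiro's lemma for level cohomology, as an isomorphism. -/
noncomputable def levelShIso (B : Rep.{u} k U₀) [IsDiscrete (𝒰.restrict U₀) B] (n : ℕ) :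
    levelCohomology 𝒰 (Rep.coind U₀.subtype B) n ≅ levelCohomology (𝒰.restrict U₀) B n :=
  asIso (levelSh 𝒰 U₀ B n)

@[simp] lemma levelShIso_hom (B : Rep.{u} k U₀) [IsDiscrete (𝒰.restrict U₀) B] (n : ℕ) :
    (levelShIso 𝒰 U₀ B n).hom = levelSh 𝒰 U₀ B n := rfl

end Main

end Fermat.Agent.S55.Level
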