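/-
S55 / LOC8 (helper22), part 7: the Shapiro hypothesis of the local duality dévissage holds for the
restricted level structures `𝒰.restrict U` (ALG4, `Level.levelSh_bijective`), hence local duality
(mono version) for all finite dimensional discrete coefficients follows from duality for the
coefficients `k` over the members of the family.
-/
import Mathlib
import Fermat.Agent.S55.LevelDualityTriv
import Fermat.Agent.S55.LevelShapiro

set_option autoImplicit false
set_option linter.unusedSectionVars false

namespace Fermat.Agent.S55.LevelDuality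

open CategoryTheory groupCohomology Rep Fermat.Agent.S55.Level Fermat.Agent.S55.CochainTools
  Fermat.Agent.S55.Cone Fermat.Agent.S55.Cup Fermat.Agent.S55.DualTwist
  Fermat.Agent.S55.Devissage Fermat.Agent.S55.CoindPairing Fermat.Agent.S55.ShapiroCup
  Fermat.Agent.S55.GC.Shapiro Fermat.Agent.S55.GC.Cores

universe u

variable {k G : Type u} [Field k] [Group G] (𝒰 : LevelStructure G)

/-- The restricted level structures on the subgroups of `G`. -/
noncomputable abbrev restrictFamily : ∀ U : Subgroup G, LevelStructure U := fun U => 𝒰.restrict U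

theorem restrictFamily_refines :
    ∀ U ∈ 𝒰.sets, (restrictFamily 𝒰 U).Refines 𝒰 U.subtype := fun U _ => 𝒰.restrict_refines U

/-- **Shapiro's lemma** in the shape consumed by the local duality dévissage. -/
theorem shapiroHyp_restrict :
    ShapiroHyp (k := k) 𝒰 (restrictFamily 𝒰) (restrictFamily_refines 𝒰) := by
  intro U hU B _ _ n
  have : IsOpenSub 𝒰 U := isOpenSub_of_mem 𝒰 hU
  exact levelSh_bijective 𝒰 U n B

variable (χ : G →* kˣ) [IsDiscrete 𝒰 (ofChar χ)] (t : levelCohomology 𝒰 (ofChar χ) 2 →ₗ[k] k)

/-- **Local duality, mono version, for all finite dimensional discrete coefficients**, from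
duality for the coefficients `k` over the members of the family (with their restricted level
structures). -/
theorem Ψ_injective_of_restrict
    (hloc : LocalBaseHyp₁ 𝒰 χ t (restrictFamily 𝒰) (restrictFamily_refines 𝒰))
    (X : Rep.{u} k G) [IsDiscrete 𝒰 X] [FiniteDimensional k X] [IsDiscrete 𝒰 (X.dualTwist χ)] :
    Function.Injective (Ψ 𝒰 χ t X 2 0 rfl) ∧ Function.Injective (Ψ 𝒰 χ t X 1 1 rfl) ∧
      Function.Injective (Ψ 𝒰 χ t X 0 2 rfl) :=
  Ψ_injective_of_local 𝒰 χ t _ _ (shapiroHyp_restrict 𝒰)
    (localBaseHyp_of_one 𝒰 χ t _ _ hloc) X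

end Fermat.Agent.S55.LevelDuality
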