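/-
S55 / LOC8 (helper22), part 9: the local duality maps of the cone (`Cone.locDual`) are surjective.

Adapter from the local duality theorem of `LevelDuality*` (injectivity of the maps `Ψ`) to the two
hypotheses `hι0`, `hι1` of `Cone.sha_pairing_of_cone` / `Assembly.result_of_cone`: for local data
`D` over `(G, 𝒰)`, a character `χ`, a linear form `tr` on `Hc³(k(χ))` with local invariants
`invAt D tr v`, and a finite dimensional discrete `M`,

* `locDual D (evalPairing χ M) 0 2 2 tr : ∏ H⁰(G_v, M') → (∏ H²(G_v, M))^*` and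
* `locDual D (evalPairing' χ M) 1 1 2 tr : ∏ H¹(G_v, M) → (∏ H¹(G_v, M'))^*`

are surjective as soon as local duality holds at every place for the coefficients `k` over the
level subgroups (`LocalBaseHyp₁`) and the groups `H¹(G_v, M')` are finite dimensional.
-/
import Mathlib
import Fermat.Agent.S55.LevelDualityPairing
import Fermat.Agent.S55.LevelDualityShapiro
import Fermat.Agent.S55.ConeEndgame

set_option autoImplicit false
set_option linter.unusedSectionVars false

namespace Fermat.Agent.S55.LevelDuality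

open CategoryTheory groupCohomology Rep Fermat.Agent.S55.Level Fermat.Agent.S55.CochainTools
  Fermat.Agent.S55.Cone Fermat.Agent.S55.Cup Fermat.Agent.S55.DualTwist

universe u

section Bridge

variable {k G : Type u} [CommRing k] [Group G] (𝒰 : LevelStructure G) {A B C : Rep.{u} k G}
  [IsDiscrete 𝒰 A] [IsDiscrete 𝒰 B] [IsDiscrete 𝒰 C] (φ : A →ₗ[k] B →ₗ[k] C)
  (hφ : ∀ (g : G) (a : A) (b : B), φ (A.ρ g a) (B.ρ g b) = C.ρ g (φ a b))

/-- The two packagings of the level cup product as a pairing of complexes (`Cone.levelPairing` of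
`ConePairing` and `Cup.levelCupPairing` of `CupPairing`) induce the same pairing on cohomology. -/
theorem levelPairing_pairH_eq_levelCupPairing {m n p : ℕ} (h : m + n = p)
    (x : levelCohomology 𝒰 A m) (y : levelCohomology 𝒰 B n) :
    (levelPairing 𝒰 φ hφ).pairH m n p h x y = (levelCupPairing 𝒰 φ hφ).pairH m n p h x y := by
  subst h
  rw [levelPairing_pairH_eq_levelCupH, levelCupPairing_pairH]

end Bridge

section Local

variable {k G : Type u} [Field k] [Group G] {𝒰 : LevelStructure G} (D : LocalData 𝒰)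
  [DecidableEq D.ι] (χ : G →* kˣ) [IsDiscrete 𝒰 (ofChar χ)]
  (tr : Hc D (ofChar χ) 3 →ₗ[k] k)

/-- `k(χ)` restricted to the local group at `v` is `k(χ ∘ r_v)`, hence discrete. -/
instance isDiscrete_ofChar_comp (v : D.ι) : IsDiscrete (D.𝒱 v) (ofChar (χ.comp (D.r v))) :=
  D.isDiscrete_res (ofChar χ) v

omit [DecidableEq D.ι] in
/-- The restriction to a local group of a discrete representation given in unbundled form is
discrete (instance in the shape found by instance search for `Rep.res (D.r v) (Rep.of ρ)`). -/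
instance isDiscrete_res_of {V : Type u} [AddCommGroup V] [Module k V] (ρ : Representation k G V)
    [IsDiscrete 𝒰 (Rep.of ρ)] (v : D.ι) : IsDiscrete (D.𝒱 v) (Rep.of (ρ.comp (D.r v))) :=
  D.isDiscrete_res (Rep.of ρ) v

variable {A B : Rep.{u} k G} [IsDiscrete 𝒰 A] [IsDiscrete 𝒰 B]
  (φ : A →ₗ[k] B →ₗ[k] ofChar χ)
  (hφ : ∀ (g : G) (a : A) (b : B), φ (A.ρ g a) (B.ρ g b) = (ofChar χ).ρ g (φ a b))

/-- **Right nondegeneracy of the local cup product pairing at `v`** with respect to the local
invariant `invAt D tr v`, for a perfect pairing `φ : A × B → k(χ)`, from the injectivity of the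
duality map `Ψ` of `Res_v B`. -/
theorem cupLoc_right_nondegenerate [FiniteDimensional k B]
    (hl : ∀ a, (∀ b, φ a b = 0) → a = 0) (hr : ∀ b, (∀ a, φ a b = 0) → b = 0)
    (v : D.ι) {m n : ℕ} (h : m + n = 2)
    [IsDiscrete (D.𝒱 v) ((Rep.res (D.r v) B).dualTwist (χ.comp (D.r v)))]
    (hΨ : Function.Injective
      (Ψ (D.𝒱 v) (χ.comp (D.r v)) (invAt D tr v) (Rep.res (D.r v) B) m n h))
    (b : levelCohomology (D.𝒱 v) (Rep.res (D.r v) B) n)
    (hb : ∀ a : levelCohomology (D.𝒱 v) (Rep.res (D.r v) A) m,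
      invAt D tr v (cupLoc D φ hφ v m n 2 h a b) = 0) : b = 0 := by
  have : FiniteDimensional k (Rep.res (D.r v) B) := ‹FiniteDimensional k B›
  refine eq_zero_of_forall_pairH_eq_zero (D.𝒱 v) (χ.comp (D.r v)) (invAt D tr v)
    (A := Rep.res (D.r v) A) (B := Rep.res (D.r v) B) (resBilin D φ v)
    (resBilin_equivariant D φ hφ v) hl hr h hΨ b (fun a => ?_)
  exact (congrArg (invAt D tr v) (levelPairing_pairH_eq_levelCupPairing (D.𝒱 v)
    (resBilin D φ v) (resBilin_equivariant D φ hφ v) h a b)).symm.trans (hb a)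

end Local

section Surjective

variable {k G : Type u} [Field k] [Group G] {𝒰 : LevelStructure G} (D : LocalData 𝒰)
  [DecidableEq D.ι] [Finite D.ι] (χ : G →* kˣ) [IsDiscrete 𝒰 (ofChar χ)]
  (tr : Hc D (ofChar χ) 3 →ₗ[k] k)
  (M : Rep.{u} k G) [IsDiscrete 𝒰 M] [FiniteDimensional k M] [IsDiscrete 𝒰 (M.dualTwist χ)]

/-- **`hι0`**: the local duality map `∏ H⁰(G_v, M') → (∏ H²(G_v, M))^*` is surjective if the maps
`Ψ (Res_v M) 0 2 : H²(G_v, M) → H⁰(G_v, M')^*` are injective. -/
theorem locDual_surjective_zero_two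
    (hΨ : ∀ v, ∀ [IsDiscrete (D.𝒱 v) ((Rep.res (D.r v) M).dualTwist (χ.comp (D.r v)))],
      Function.Injective
        (Ψ (D.𝒱 v) (χ.comp (D.r v)) (invAt D tr v) (Rep.res (D.r v) M) 0 2 rfl)) :
    Function.Surjective
      (locDual D (evalPairing χ M) (evalPairing_equivariant χ M) 0 2 2 rfl tr) := by
  have hfdM : ∀ v, FiniteDimensional k (Rep.res (D.r v) M) := fun v => ‹FiniteDimensional k M›
  have hdisc : ∀ v, IsDiscrete (D.𝒱 v) ((Rep.res (D.r v) M).dualTwist (χ.comp (D.r v))) :=
    fun v => isDiscrete_dualTwist (D.𝒱 v) (χ.comp (D.r v)) _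
  refine locDual_surjective D (evalPairing χ M) (evalPairing_equivariant χ M) 0 2 2 rfl tr
    (fun v => ?_) (fun v b hb => ?_)
  · have := hdisc v
    exact finiteDimensional_levelCohomology_two (D.𝒱 v) (χ.comp (D.r v)) (invAt D tr v)
      (Rep.res (D.r v) M) (hΨ v)
  · have := hdisc v
    exact cupLoc_right_nondegenerate D χ tr (evalPairing χ M) (evalPairing_equivariant χ M)
      (evalPairing_left_nondegenerate χ M) (evalPairing_right_nondegenerate χ M) v rfl (hΨ v) b hb

/-- **`hι1`**: the local duality map `∏ H¹(G_v, M) → (∏ H¹(G_v, M'))^*` is surjective if the maps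
`Ψ (Res_v M') 1 1 : H¹(G_v, M') → H¹(G_v, M'')^*` are injective and the `H¹(G_v, M')` are finite
dimensional. -/
theorem locDual_surjective_one_one
    (hfd : ∀ v, FiniteDimensional k
      (levelCohomology (D.𝒱 v) (Rep.res (D.r v) (M.dualTwist χ)) 1))
    (hΨ : ∀ v, ∀ [IsDiscrete (D.𝒱 v)
        ((Rep.res (D.r v) (M.dualTwist χ)).dualTwist (χ.comp (D.r v)))],
      Function.Injective
        (Ψ (D.𝒱 v) (χ.comp (D.r v)) (invAt D tr v) (Rep.res (D.r v) (M.dualTwist χ)) 1 1 rfl)) :
    Function.Surjective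
      (locDual D (evalPairing' χ M) (evalPairing'_equivariant χ M) 1 1 2 rfl tr) := by
  have hfdM' : FiniteDimensional k (M.dualTwist χ) :=
    inferInstanceAs (FiniteDimensional k (Module.Dual k M))
  have hfdM : ∀ v, FiniteDimensional k (Rep.res (D.r v) (M.dualTwist χ)) := fun v => hfdM'
  have hdisc : ∀ v, IsDiscrete (D.𝒱 v)
      ((Rep.res (D.r v) (M.dualTwist χ)).dualTwist (χ.comp (D.r v))) :=
    fun v => isDiscrete_dualTwist (D.𝒱 v) (χ.comp (D.r v)) _
  refine locDual_surjective D (evalPairing' χ M) (evalPairing'_equivariant χ M) 1 1 2 rfl tr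
    hfd (fun v b hb => ?_)
  have := hdisc v
  exact cupLoc_right_nondegenerate D χ tr (evalPairing' χ M) (evalPairing'_equivariant χ M)
    (fun a ha => evalPairing_right_nondegenerate χ M a ha)
    (fun f hf => evalPairing_left_nondegenerate χ M f hf) v rfl (hΨ v) b hb

/-- **The two local hypotheses of the Poitou–Tate endgame** from local duality for the
coefficients `k` over the level subgroups of the local groups (`LocalBaseHyp₁` at every place, for
the local invariants `invAt D tr v`), and finite dimensionality of the `H¹(G_v, M')`. -/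
theorem locDual_surjective_of_localBase
    (hloc : ∀ v, LocalBaseHyp₁ (D.𝒱 v) (χ.comp (D.r v)) (invAt D tr v)
      (restrictFamily (D.𝒱 v)) (restrictFamily_refines (D.𝒱 v)))
    (hfd : ∀ v, FiniteDimensional k
      (levelCohomology (D.𝒱 v) (Rep.res (D.r v) (M.dualTwist χ)) 1)) :
    Function.Surjective
        (locDual D (evalPairing χ M) (evalPairing_equivariant χ M) 0 2 2 rfl tr) ∧
      Function.Surjective
        (locDual D (evalPairing' χ M) (evalPairing'_equivariant χ M) 1 1 2 rfl tr) := by
  have hfdM' : FiniteDimensional k (M.dualTwist χ) :=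
    inferInstanceAs (FiniteDimensional k (Module.Dual k M))
  refine ⟨locDual_surjective_zero_two D χ tr M fun v => ?_,
    locDual_surjective_one_one D χ tr M hfd fun v => ?_⟩
  · intro _
    have : FiniteDimensional k (Rep.res (D.r v) M) := ‹FiniteDimensional k M›
    exact (Ψ_injective_of_restrict (D.𝒱 v) (χ.comp (D.r v)) (invAt D tr v) (hloc v)
      (Rep.res (D.r v) M)).2.2
  · intro _
    have : FiniteDimensional k (Rep.res (D.r v) (M.dualTwist χ)) := hfdM'
    exact (Ψ_injective_of_restrict (D.𝒱 v) (χ.comp (D.r v)) (invAt D tr v) (hloc v)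
      (Rep.res (D.r v) (M.dualTwist χ))).2.1

end Surjective

end Fermat.Agent.S55.LevelDuality
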