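/-
S55 / MAIN (helper25), part 1: the interface of the global dévissage.

`G` a group with a level structure `𝒰`, local data `D` (helper9's cone), `k` a field,
`χ : G →* kˣ` with `k(χ)` discrete, `tr : Hc³(k(χ)) → k` any linear functional.  For a discrete
`Y` with twisted dual `Y' = Y.dualTwist χ` the cup product with the evaluation pairing
`Y × Y' → k(χ)` gives the global duality maps `PhiX Y i j : Hcⁱ(Y) → Hʲ(G, Y')^*`, `i + j = 3`.

This file fixes the definitions consumed by the dévissage (`Main.lean`), by the base case over the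
fields `L ∋ ζ_p` (GLO14) and by the final assembly (`Assembly.lean`), constructs `tr` from a sum of
local invariants satisfying the reciprocity law, and derives the two injectivity hypotheses of
`Cone.sha_pairing_of_cone` from the conclusion of the dévissage.
-/
import Mathlib
import Fermat.Agent.S55.ConePairing
import Fermat.Agent.S55.ConeEndgame
import Fermat.Agent.S55.LevelDuality
import Fermat.Agent.S55.LevelDualityBase
import Fermat.Agent.S55.CF.LESElem

set_option autoImplicit false
set_option linter.unusedSectionVars false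

namespace Fermat.Agent.S55.Main

open CategoryTheory groupCohomology Fermat.Agent.S55.Level Fermat.Agent.S55.Cone
  Fermat.Agent.S55.DualTwist
  Fermat.Agent.S55.Devissage Fermat.Agent.S55.LevelDuality

universe u

section Defs

variable {k G : Type u} [Field k] [Group G] {𝒰 : LevelStructure G} (D : LocalData 𝒰)
  (χ : G →* kˣ) [IsDiscrete 𝒰 (ofChar χ)] (tr : Hc D (ofChar χ) 3 →ₗ[k] k)

/-- The global duality map `Hcⁱ(Y) → Hʲ(G, Y')^*`, `x ↦ (y ↦ tr (x ∪ y))`, `i + j = 3`, for the
evaluation pairing `Y × Y' → k(χ)`, `(a, f) ↦ f a`. -/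
noncomputable def PhiX (Y : Rep.{u} k G) [IsDiscrete 𝒰 Y] [IsDiscrete 𝒰 (Y.dualTwist χ)]
    (i j : ℕ) (h : i + j = 3) :
    Hc D Y i →ₗ[k] Module.Dual k (levelCohomology 𝒰 (Y.dualTwist χ) j) :=
  Phi D (evalPairing' χ Y) (evalPairing'_equivariant χ Y) i j 3 h tr

theorem PhiX_apply (Y : Rep.{u} k G) [IsDiscrete 𝒰 Y] [IsDiscrete 𝒰 (Y.dualTwist χ)]
    (i j : ℕ) (h : i + j = 3) (x : Hc D Y i) (y : levelCohomology 𝒰 (Y.dualTwist χ) j) :
    PhiX D χ tr Y i j h x y =
      tr (cupHc D (evalPairing' χ Y) (evalPairing'_equivariant χ Y) i j 3 h x y) := rfl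

/-- The base case of the global dévissage: the duality maps of the coinduced modules
`coind_U^G res_U Y`, for `U` in the family acting trivially on `Y` and on `k(χ)`, are bijective in
degree `1` and injective in degree `2`. -/
def BaseCase : Prop :=
  ∀ (U : Subgroup G), U ∈ 𝒰.sets → ∀ (Y : Rep.{u} k G) [IsDiscrete 𝒰 Y] [FiniteDimensional k Y]
    [IsDiscrete 𝒰 (coindRes U Y)] [IsDiscrete 𝒰 ((coindRes U Y).dualTwist χ)],
    (∀ u ∈ U, ∀ a : Y, Y.ρ u a = a) → (∀ u ∈ U, χ u = 1) →
      Function.Bijective (PhiX D χ tr (coindRes U Y) 1 2 rfl) ∧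
      Function.Injective (PhiX D χ tr (coindRes U Y) 2 1 rfl)

/-- The base case for the trivial representation `k` only (this is what the arithmetic over the
fields `L ∋ ζ_p` delivers). -/
def BaseCaseTriv : Prop :=
  ∀ (U : Subgroup G), U ∈ 𝒰.sets →
    ∀ [IsDiscrete 𝒰 (coindRes U (Rep.trivial k G k))]
      [IsDiscrete 𝒰 ((coindRes U (Rep.trivial k G k)).dualTwist χ)],
    (∀ u ∈ U, χ u = 1) →
      Function.Bijective (PhiX D χ tr (coindRes U (Rep.trivial k G k)) 1 2 rfl) ∧
      Function.Injective (PhiX D χ tr (coindRes U (Rep.trivial k G k)) 2 1 rfl)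

/-- The conclusion of the global dévissage: the duality maps are injective in degrees `1` and `2`
for every finite dimensional discrete `Y`. -/
def MainConclusion : Prop :=
  ∀ (Y : Rep.{u} k G) [IsDiscrete 𝒰 Y] [FiniteDimensional k Y] [IsDiscrete 𝒰 (Y.dualTwist χ)],
    Function.Injective (PhiX D χ tr Y 1 2 rfl) ∧ Function.Injective (PhiX D χ tr Y 2 1 rfl)

end Defs

section Trace

variable {k G : Type u} [Field k] [Group G] {𝒰 : LevelStructure G} (D : LocalData 𝒰)
  (C : Rep.{u} k G) [IsDiscrete 𝒰 C]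

/-- **Existence of the trace.**  A linear functional `s` on `∏_v Hⁿ(G_v, C)` (the sum of the local
invariants) which kills the image of the global classes (the reciprocity law) is of the form
`tr ∘ ∂` for a linear functional `tr` on `Hcⁿ⁺¹(C)`. -/
theorem exists_tr (n : ℕ)
    (s : (∀ v, levelCohomology (D.𝒱 v) (Rep.res (D.r v) C) n) →ₗ[k] k)
    (hs : ∀ y : levelCohomology 𝒰 C n, s (locH D C n y) = 0) :
    ∃ tr : Hc D C (n + 1) →ₗ[k] k, ∀ w, tr (HcBd D C n w) = s w := by
  obtain ⟨e, he⟩ := exists_dual_comp_eq (HcBd D C n) s (by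
    rw [ker_HcBd_eq_range_locH]
    rintro _ ⟨y, rfl⟩
    exact hs y)
  exact ⟨e, fun w => LinearMap.congr_fun he w⟩

end Trace

section Identity

variable {k G : Type u} [CommRing k] [Group G] {𝒰 : LevelStructure G} (D : LocalData 𝒰)
  (A : Rep.{u} k G) [IsDiscrete 𝒰 A]

theorem locComplexMap_id : locComplexMap D (𝟙 A) = 𝟙 (locComplex D A) := by
  ext n : 1
  refine ModuleCat.hom_ext (LinearMap.ext fun x => ?_)
  apply prod_ext
  intro v
  rfl

theorem CcMap_id : CcMap D (𝟙 A) = 𝟙 (Cc D A) := by
  ext n : 1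
  refine ModuleCat.hom_ext (LinearMap.ext fun x => ?_)
  show fiberMapLin (locMap D A) (locMap D A) (levelMap 𝒰 (𝟙 A)) (locComplexMap D (𝟙 A)) n x = x
  rw [CF.levelMap_id, locComplexMap_id]
  apply fiber_ext
  · rfl
  · rw [fiberSnd_mapLin]
    cases n <;> rfl

/-- The identity induces the identity on compactly supported cohomology. -/
theorem HcMap_id_apply (n : ℕ) (x : Hc D A n) : HcMap D (𝟙 A) n x = x := by
  unfold HcMap
  rw [CcMap_id, HomologicalComplex.homologyMap_id]
  rfl

end Identity

section Corollary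

variable {k G : Type u} [Field k] [Group G] {𝒰 : LevelStructure G} (D : LocalData 𝒰)
  (χ : G →* kˣ) [IsDiscrete 𝒰 (ofChar χ)] (tr : Hc D (ofChar χ) 3 →ₗ[k] k)

/-- **The injectivity hypotheses of `Cone.sha_pairing_of_cone`** (for `A = M'`, `B = M` and the
evaluation pairing `M' × M → k(χ)`) from the conclusion of the dévissage. -/
theorem injective_Phi_of_main (hmain : MainConclusion D χ tr) (M : Rep.{u} k G) [IsDiscrete 𝒰 M]
    [FiniteDimensional k M] [IsDiscrete 𝒰 (M.dualTwist χ)] :
    Function.Injective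
        (Phi D (evalPairing χ M) (evalPairing_equivariant χ M) 1 2 3 rfl tr) ∧
      Function.Injective
        (Phi D (evalPairing χ M).flip
          (flip_equivariant (evalPairing χ M) (evalPairing_equivariant χ M)) 2 1 3 rfl tr) := by
  have hfd : FiniteDimensional k (M.dualTwist χ) :=
    inferInstanceAs (FiniteDimensional k (Module.Dual k M))
  have hdd : IsDiscrete 𝒰 ((M.dualTwist χ).dualTwist χ) :=
    isDiscrete_of_iso (doubleDualTwistIso χ M)
  refine ⟨?_, (hmain M).2⟩
  rw [injective_iff_map_eq_zero]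
  intro x hx
  apply (hmain (M.dualTwist χ)).1
  rw [map_zero]
  ext y''
  obtain ⟨y, rfl⟩ := (lmap_bijective_of_iso 𝒰 (doubleDualTwistIso χ M) 2).2 y''
  have h := Phi_adjoint D (evalPairing' χ (M.dualTwist χ))
    (evalPairing'_equivariant χ (M.dualTwist χ)) (evalPairing χ M) (evalPairing_equivariant χ M)
    (𝟙 (M.dualTwist χ)) (doubleDualTwistIso χ M).hom (fun _ _ => rfl) 1 2 3 rfl tr x y
  rw [HcMap_id_apply, hx] at h
  exact h.symm

end Corollary

end Fermat.Agent.S55.Main
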