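/-
S55 foundation, part 6: `H¹` of the level complex in low-degree form, and its comparison with the
abstract `H¹` of Mathlib (injectivity and description of the image).
-/
import Fermat.Agent.S55.LevelLow

set_option autoImplicit false

open CategoryTheory groupCohomology

namespace Fermat.Agent.S55.Level

universe u

noncomputable section

section Naturality

variable {k G H : Type u} [CommRing k] [Group G] [Group H]
  {𝒰 : LevelStructure G} {𝒱 : LevelStructure H}
  {A : Rep.{u} k G} {B : Rep.{u} k H} [IsDiscrete 𝒰 A] [IsDiscrete 𝒱 B]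

/-- The inclusion of level complexes into full cochain complexes is natural. -/
lemma levelCochainsMap_comp_levelι (f : H →* G) (hf : 𝒱.Refines 𝒰 f) (φ : Rep.res f A ⟶ B) :
    levelCochainsMap f hf φ ≫ levelι 𝒱 B = levelι 𝒰 A ≫ groupCohomology.cochainsMap f φ := by
  ext n : 1
  rfl

/-- The comparison maps from level cohomology to abstract group cohomology are natural. -/
lemma levelCohomologyMap_comp_toGroupCohomology (f : H →* G) (hf : 𝒱.Refines 𝒰 f)
    (φ : Rep.res f A ⟶ B) (n : ℕ) :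
    levelCohomologyMap f hf φ n ≫ levelCohomologyToGroupCohomology 𝒱 B n =
      levelCohomologyToGroupCohomology 𝒰 A n ≫ groupCohomology.map f φ n := by
  have h1 := HomologicalComplex.homologyMap_comp (levelCochainsMap f hf φ) (levelι 𝒱 B) n
  have h2 := HomologicalComplex.homologyMap_comp (levelι 𝒰 A)
    (groupCohomology.cochainsMap f φ) n
  rw [levelCochainsMap_comp_levelι] at h1
  exact h1.symm.trans h2

end Naturality

section H1

variable {k G : Type u} [CommRing k] [Group G] (𝒰 : LevelStructure G) (A : Rep.{u} k G)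
  [IsDiscrete 𝒰 A]

omit [IsDiscrete 𝒰 A] in
/-- Every `0`-cochain is of finite level. -/
lemma levelCochains_zero : levelCochains 𝒰 A 0 = ⊤ := by
  rw [eq_top_iff]
  intro f _
  obtain ⟨U, hU⟩ := 𝒰.nonempty
  refine ⟨U, hU, fun g s _ => ?_⟩
  congr 1
  exact Subsingleton.elim _ _

/-- A level 1-cocycle in low-degree form gives a level cocycle of degree 1. -/
def levelCocycles₁ToLevelCocycles : levelCocycles₁ 𝒰 A →ₗ[k] levelCocycles 𝒰 A 1 :=
  ((cochainsIso₁ A).inv.hom.comp (levelCocycles₁ 𝒰 A).subtype).codRestrict _ (by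
    rintro ⟨f, hf1, hf2⟩
    refine ⟨hf2, ?_⟩
    show (inhomogeneousCochains.d A 1).hom ((cochainsIso₁ A).inv.hom f) = 0
    rw [d_cochainsIso₁_inv]
    have : (d₁₂ A).hom f = 0 := hf1
    rw [this, map_zero])

/-- The projection from level 1-cocycles (low-degree form) to `H¹` of the level complex. -/
def levelH1π : levelCocycles₁ 𝒰 A →ₗ[k] levelCohomology 𝒰 A 1 :=
  (levelπ 𝒰 A 1).hom.comp (levelCocycles₁ToLevelCocycles 𝒰 A)

lemma levelH1π_surjective : Function.Surjective (levelH1π 𝒰 A) := by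
  intro x
  obtain ⟨z, rfl⟩ := levelπ_surjective 𝒰 A 1 x
  have h1 : (cochainsIso₁ A).inv.hom ((cochainsIso₁ A).hom.hom z.1) = z.1 :=
    congrArg (fun φ => ModuleCat.Hom.hom φ z.1) (cochainsIso₁ A).hom_inv_id
  refine ⟨⟨(cochainsIso₁ A).hom.hom z.1, ?_, ?_⟩, ?_⟩
  · show (d₁₂ A).hom ((cochainsIso₁ A).hom.hom z.1) = 0
    apply cochainsIso₂_inv_injective
    rw [← d_cochainsIso₁_inv, map_zero, h1]
    exact z.2.2
  · show (cochainsIso₁ A).inv.hom ((cochainsIso₁ A).hom.hom z.1) ∈ levelCochains 𝒰 A 1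
    rw [h1]
    exact z.2.1
  · show (levelπ 𝒰 A 1).hom _ = (levelπ 𝒰 A 1).hom z
    congr 1
    exact Subtype.ext h1

/-- A level 1-cocycle dies in level `H¹` iff it is a coboundary. -/
theorem levelH1π_eq_zero_iff (z : levelCocycles₁ 𝒰 A) :
    levelH1π 𝒰 A z = 0 ↔ z.1 ∈ coboundaries₁ A := by
  show (levelπ 𝒰 A 1).hom (levelCocycles₁ToLevelCocycles 𝒰 A z) = 0 ↔ _
  rw [levelπ_eq_zero_iff]
  constructor
  · rintro ⟨y, -, hyz⟩
    refine ⟨(cochainsIso₀ A).hom.hom y, ?_⟩
    apply cochainsIso₁_inv_injective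
    rw [← d_cochainsIso₀_inv]
    have h1 : (cochainsIso₀ A).inv.hom ((cochainsIso₀ A).hom.hom y) = y :=
      congrArg (fun φ => ModuleCat.Hom.hom φ y) (cochainsIso₀ A).hom_inv_id
    rw [h1]
    exact hyz
  · rintro ⟨a, ha⟩
    refine ⟨(cochainsIso₀ A).inv.hom a, ?_, ?_⟩
    · rw [levelCochains_zero]; trivial
    · rw [d_cochainsIso₀_inv, ha]
      rfl

theorem levelH1π_eq_iff (z z' : levelCocycles₁ 𝒰 A) :
    levelH1π 𝒰 A z = levelH1π 𝒰 A z' ↔ z.1 - z'.1 ∈ coboundaries₁ A := by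
  rw [← sub_eq_zero, ← map_sub, levelH1π_eq_zero_iff]
  rfl

end H1

section Compare

variable {k G : Type u} [CommRing k] [Group G] (𝒰 : LevelStructure G) (A : Rep.{u} k G)
  [IsDiscrete 𝒰 A]

/-- The comparison map on cocycle representatives (all degrees). -/
theorem toGroupCohomology_levelπ (n : ℕ) (z : levelCocycles 𝒰 A n) :
    (levelCohomologyToGroupCohomology 𝒰 A n).hom ((levelπ 𝒰 A n).hom z) =
      (groupCohomology.π A n).hom (cocyclesMk z.1 z.2.2) := by
  have h1 : (HomologicalComplex.cyclesMap (levelι 𝒰 A) n).hom ((levelCyclesMk 𝒰 A n).hom z) =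
      cocyclesMk z.1 z.2.2 := by
    apply iCycles_injective
    have h2 := congrArg (fun φ => ModuleCat.Hom.hom φ ((levelCyclesMk 𝒰 A n).hom z))
      (HomologicalComplex.cyclesMap_i (levelι 𝒰 A) n)
    simp only [ModuleCat.hom_comp, LinearMap.comp_apply] at h2
    rw [h2]
    have h4 : ((inhomogeneousCochains A).iCycles n).hom (cocyclesMk z.1 z.2.2) = z.1 :=
      iCocycles_mk z.1 z.2.2
    rw [h4]
    exact iCycles_levelCyclesMk 𝒰 A n z
  have h3 := congrArg (fun φ => ModuleCat.Hom.hom φ ((levelCyclesMk 𝒰 A n).hom z))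
    (HomologicalComplex.homologyπ_naturality (levelι 𝒰 A) n)
  simp only [ModuleCat.hom_comp, LinearMap.comp_apply] at h3
  show (HomologicalComplex.homologyMap (levelι 𝒰 A) n).hom
    (((levelComplex 𝒰 A).homologyπ n).hom ((levelCyclesMk 𝒰 A n).hom z)) = _
  rw [h3, h1]
  rfl

/-- The comparison map in degree 1 on low-degree cocycle representatives. -/
theorem toGroupCohomology_levelH1π (z : levelCocycles₁ 𝒰 A) :
    (levelCohomologyToGroupCohomology 𝒰 A 1).hom (levelH1π 𝒰 A z) =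
      (H1π A).hom ⟨z.1, z.2.1⟩ := by
  show (levelCohomologyToGroupCohomology 𝒰 A 1).hom
    ((levelπ 𝒰 A 1).hom (levelCocycles₁ToLevelCocycles 𝒰 A z)) = _
  rw [toGroupCohomology_levelπ]
  show _ = (groupCohomology.π A 1).hom ((isoCocycles₁ A).inv.hom ⟨z.1, z.2.1⟩)
  rw [← cocyclesMk₁_eq]
  rfl

/-- The comparison map in degree 2 on low-degree cocycle representatives. -/
theorem toGroupCohomology_levelH2π (z : levelCocycles₂ 𝒰 A) :
    (levelCohomologyToGroupCohomology 𝒰 A 2).hom (levelH2π 𝒰 A z) =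
      (H2π A).hom ⟨z.1, z.2.1⟩ := by
  show (levelCohomologyToGroupCohomology 𝒰 A 2).hom
    ((levelπ 𝒰 A 2).hom (levelCocycles₂ToLevelCocycles 𝒰 A z)) = _
  rw [toGroupCohomology_levelπ]
  show _ = (groupCohomology.π A 2).hom ((isoCocycles₂ A).inv.hom ⟨z.1, z.2.1⟩)
  rw [← cocyclesMk₂_eq]
  rfl

/-- Level `H¹` injects into abstract `H¹` (a coboundary `g ↦ g a - a` is automatically of finite
level on a discrete module, and in any case the level condition on `0`-cochains is void). -/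
theorem toGroupCohomology_one_injective :
    Function.Injective (levelCohomologyToGroupCohomology 𝒰 A 1).hom := by
  rw [← LinearMap.ker_eq_bot, LinearMap.ker_eq_bot']
  intro x hx
  obtain ⟨z, rfl⟩ := levelH1π_surjective 𝒰 A x
  rw [toGroupCohomology_levelH1π, H1π_eq_zero_iff] at hx
  exact (levelH1π_eq_zero_iff 𝒰 A z).2 hx

/-- The image of level `H¹` in abstract `H¹`: classes of level cocycles. -/
theorem mem_range_toGroupCohomology_one_iff (x : groupCohomology A 1) :
    x ∈ LinearMap.range (levelCohomologyToGroupCohomology 𝒰 A 1).hom ↔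
      ∃ c : cocycles₁ A, IsLevel₁ 𝒰 (c : G → A) ∧ (H1π A).hom c = x := by
  constructor
  · rintro ⟨y, rfl⟩
    obtain ⟨z, rfl⟩ := levelH1π_surjective 𝒰 A y
    refine ⟨⟨z.1, z.2.1⟩, (mem_levelCochains₁_iff 𝒰 A z.1).1 z.2.2, ?_⟩
    rw [toGroupCohomology_levelH1π]
  · rintro ⟨c, hc, rfl⟩
    refine ⟨levelH1π 𝒰 A ⟨c.1, c.2, (mem_levelCochains₁_iff 𝒰 A c.1).2 hc⟩, ?_⟩
    rw [toGroupCohomology_levelH1π]

/-- The image of level `H²` in abstract `H²`: classes of level cocycles. -/
theorem mem_range_toGroupCohomology_two_iff (x : groupCohomology A 2) :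
    x ∈ LinearMap.range (levelCohomologyToGroupCohomology 𝒰 A 2).hom ↔
      ∃ c : cocycles₂ A, IsLevel₂ 𝒰 (c : G × G → A) ∧ (H2π A).hom c = x := by
  constructor
  · rintro ⟨y, rfl⟩
    obtain ⟨z, rfl⟩ := levelH2π_surjective 𝒰 A y
    refine ⟨⟨z.1, z.2.1⟩, (mem_levelCochains₂_iff 𝒰 A z.1).1 z.2.2, ?_⟩
    rw [toGroupCohomology_levelH2π]
  · rintro ⟨c, hc, rfl⟩
    refine ⟨levelH2π 𝒰 A ⟨c.1, c.2, (mem_levelCochains₂_iff 𝒰 A c.1).2 hc⟩, ?_⟩
    rw [toGroupCohomology_levelH2π]

end Compare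

end

end Fermat.Agent.S55.Level
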