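/-
S55 / LOC5 (5-A part 2) = CF-ABS: the abstract class-formation theorem in LEVEL form.

`𝒰` a level structure on `G`, `A` a discrete `G`-module.  A `Formation 𝒰 A` consists of
* (H1) Hilbert 90 on every layer: `H¹(U/V, A^V) = 0` for `V ≤ U` in `𝒰`;
* (H2) the order bound `|H²(G/U, A^U)| ∣ [G:U]`;
* (D) distinguished ("unramified") layers `W n` of index `n` with an invariant isomorphism
  `invD n : H²(G/W n, A^{W n}) ≃ (1/n)ℤ/ℤ ⊆ ℝ/ℤ`, compatible with inflation;
* (K) the classes of the distinguished layer of index `n = [G:U]` die on `U`.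
Conclusions: every layer `H²(G/U, A^U)` is cyclic of order `[G:U]`; every class of
`levelCohomology 𝒰 A 2` comes from a distinguished layer; the invariant map
`inv : levelCohomology 𝒰 A 2 →+ ℝ/ℤ` is injective with image the torsion subgroup; base change.
-/
import Fermat.Agent.S55.LevelLayer
import Fermat.Agent.S55.LevelFunct
import Fermat.Agent.S55.Local.ClassFormAbs

set_option autoImplicit false
set_option linter.unusedSectionVars false
set_option linter.style.haveILetI false

universe u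

open CategoryTheory groupCohomology Rep

namespace Fermat.Agent.S55.CFAbs

open Fermat.Agent.S55.Level Fermat.Agent.S55.LevelLayer Fermat.Agent.S55.GC.InfRes2
  Fermat.Agent.S55.Local.ClassFormAbs

/-! ### The circle `ℝ/ℤ` -/

section Circle

/-- `1/n` in `ℝ/ℤ`. -/
noncomputable def oneOver (n : ℕ) : UnitAddCircle := ((n : ℝ)⁻¹ : ℝ)

theorem nsmul_oneOver (m n : ℕ) : m • oneOver n = (((m : ℝ) / n : ℝ) : UnitAddCircle) := by
  unfold oneOver
  rw [← AddCircle.coe_nsmul, nsmul_eq_mul, div_eq_mul_inv]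

theorem nsmul_oneOver_eq_zero_iff {n : ℕ} (hn : n ≠ 0) (m : ℕ) : m • oneOver n = 0 ↔ n ∣ m := by
  have hn' : (n : ℝ) ≠ 0 := Nat.cast_ne_zero.mpr hn
  rw [nsmul_oneOver, AddCircle.coe_eq_zero_iff]
  constructor
  · rintro ⟨z, hz⟩
    rw [zsmul_eq_mul, mul_one, eq_div_iff hn'] at hz
    have h1 : (z * (n : ℤ) : ℤ) = (m : ℤ) := by exact_mod_cast hz
    have h2 : (n : ℤ) ∣ (m : ℤ) := ⟨z, by rw [← h1, mul_comm]⟩
    exact_mod_cast h2
  · rintro ⟨c, rfl⟩
    refine ⟨c, ?_⟩
    rw [zsmul_eq_mul, mul_one]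
    push_cast
    field_simp

theorem exists_eq_nsmul_oneOver {n : ℕ} (hn : n ≠ 0) (t : UnitAddCircle) (ht : n • t = 0) :
    ∃ m : ℕ, m < n ∧ t = m • oneOver n := by
  have hn' : (n : ℝ) ≠ 0 := Nat.cast_ne_zero.mpr hn
  obtain ⟨x, rfl⟩ := QuotientAddGroup.mk_surjective t
  change n • (x : UnitAddCircle) = 0 at ht
  rw [← AddCircle.coe_nsmul, AddCircle.coe_eq_zero_iff] at ht
  obtain ⟨z, hz⟩ := ht
  rw [zsmul_eq_mul, mul_one, nsmul_eq_mul] at hz
  have hx : x = (z : ℝ) / n := by
    rw [eq_div_iff hn', hz, mul_comm]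
  have hnpos : (0 : ℤ) < n := by exact_mod_cast Nat.pos_of_ne_zero hn
  refine ⟨(z % (n : ℤ)).toNat, ?_, ?_⟩
  · have h2 : z % (n : ℤ) < n := Int.emod_lt_of_pos z hnpos
    have h3 : 0 ≤ z % (n : ℤ) := Int.emod_nonneg z hnpos.ne'
    omega
  · have h3 : 0 ≤ z % (n : ℤ) := Int.emod_nonneg z hnpos.ne'
    have h4 : ((z % (n : ℤ)).toNat : ℤ) = z % n := Int.toNat_of_nonneg h3
    rw [nsmul_oneOver]
    change (x : UnitAddCircle) = _
    rw [← sub_eq_zero, ← AddCircle.coe_sub, AddCircle.coe_eq_zero_iff]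
    refine ⟨z / n, ?_⟩
    rw [zsmul_eq_mul, mul_one, hx]
    have h5 : (z : ℝ) = ((z % (n : ℤ) : ℤ) : ℝ) + (n : ℝ) * ((z / (n : ℤ) : ℤ) : ℝ) := by
      have := (Int.emod_add_mul_ediv z n).symm
      exact_mod_cast this
    have h6 : (((z % (n : ℤ)).toNat : ℕ) : ℝ) = ((z % (n : ℤ) : ℤ) : ℝ) := by
      exact_mod_cast h4
    rw [h6]
    field_simp
    linarith

theorem nsmul_oneOver_mul {n d : ℕ} (hd : d ≠ 0) : d • oneOver (n * d) = oneOver n := by
  have hd' : (d : ℝ) ≠ 0 := Nat.cast_ne_zero.mpr hd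
  rw [nsmul_oneOver]
  unfold oneOver
  congr 1
  push_cast
  by_cases hn : (n : ℝ) = 0
  · simp [hn]
  · field_simp

theorem toAddCircle_eq_nsmul_oneOver {n : ℕ} [NeZero n] (j : ZMod n) :
    ZMod.toAddCircle j = j.val • oneOver n := by
  rw [ZMod.toAddCircle_apply, nsmul_oneOver]

/-- The image of `ZMod.toAddCircle` is the `n`-torsion of `ℝ/ℤ`. -/
theorem exists_toAddCircle_eq {n : ℕ} [NeZero n] (t : UnitAddCircle) (ht : n • t = 0) :
    ∃ j : ZMod n, ZMod.toAddCircle j = t := by
  obtain ⟨m, hm, rfl⟩ := exists_eq_nsmul_oneOver (NeZero.ne n) t ht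
  refine ⟨(m : ZMod n), ?_⟩
  rw [toAddCircle_eq_nsmul_oneOver, ZMod.val_natCast, Nat.mod_eq_of_lt hm]

/-- Torsion elements of `ℝ/ℤ` are divisible by any `d ≠ 0` inside the torsion. -/
theorem exists_nsmul_eq_of_torsion {n d : ℕ} (hn : n ≠ 0) (hd : d ≠ 0) (t : UnitAddCircle)
    (ht : n • t = 0) : ∃ t' : UnitAddCircle, (n * d) • t' = 0 ∧ d • t' = t := by
  obtain ⟨m, -, rfl⟩ := exists_eq_nsmul_oneOver hn t ht
  refine ⟨m • oneOver (n * d), ?_, ?_⟩
  · rw [smul_comm, (nsmul_oneOver_eq_zero_iff (Nat.mul_ne_zero hn hd) _).2 dvd_rfl, smul_zero]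
  · rw [smul_comm, nsmul_oneOver_mul hd]

end Circle

/-! ### Third isomorphism theorem for layers -/

section ThirdIso

variable {k G : Type u} [CommRing k] [Group G] (A : Rep.{u} k G)
  {U V : Subgroup G} [U.Normal] [V.Normal] (h : V ≤ U)

/-- The image of `U` in `G ⧸ V`. -/
abbrev imQ (U V : Subgroup G) [V.Normal] : Subgroup (G ⧸ V) := U.map (QuotientGroup.mk' V)

/-- The linear equivalence `A^U ≃ (A^V)^{U/V}`. -/
noncomputable def thirdEquiv :
    (A.quotientToInvariants U).V ≃ₗ[k]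
      ((A.quotientToInvariants V).quotientToInvariants (imQ U V)).V where
  toFun x := ⟨⟨(x : A), fun v => x.2 ⟨v.1, h v.2⟩⟩, by
    rintro ⟨_, ⟨g, hg, rfl⟩⟩
    apply Subtype.ext
    exact x.2 ⟨g, hg⟩⟩
  map_add' x y := rfl
  map_smul' c x := rfl
  invFun y := ⟨((y : A.quotientToInvariants V) : A), fun u => by
    have := y.2 ⟨(u.1 : G ⧸ V), ⟨u.1, u.2, rfl⟩⟩
    exact congrArg Subtype.val this⟩
  left_inv x := rfl
  right_inv y := rfl

/-- Third isomorphism theorem on the cohomology of layers: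
`Hⁿ(G/U, A^U) ≅ Hⁿ((G/V)/(U/V), (A^V)^{U/V})`. -/
noncomputable def thirdIso (n : ℕ) :
    groupCohomology (A.quotientToInvariants U) n ≅
      groupCohomology ((A.quotientToInvariants V).quotientToInvariants (imQ U V)) n :=
  groupCohomology.mapIso (QuotientGroup.quotientQuotientEquivQuotient V U h).symm
    (thirdEquiv A h)
    (by
      intro q
      induction q using QuotientGroup.induction_on with
      | H g =>
        ext x
        rfl) n

/-- The transition inflation `infLayer` between layers is the inflation `inf2` of the layer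
`G ⧸ V`, up to the third isomorphism theorem. -/
theorem thirdIso_hom_comp_inf2 :
    (thirdIso A h 2).hom ≫ inf2 (A.quotientToInvariants V) (imQ U V) = infLayer A h 2 := by
  unfold thirdIso infLayer
  rw [mapIso_hom, ← groupCohomology.map_comp]
  apply groupCohomology.map_congr
  · ext g
    rfl
  · rfl

theorem inf2_thirdIso_apply (y : groupCohomology (A.quotientToInvariants U) 2) :
    (inf2 (A.quotientToInvariants V) (imQ U V)).hom ((thirdIso A h 2).hom.hom y) =
      (infLayer A h 2).hom y := by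
  rw [← thirdIso_hom_comp_inf2 A h]
  rfl

theorem thirdIso_bijective (n : ℕ) : Function.Bijective (thirdIso A h n).hom.hom :=
  (ConcreteCategory.isIso_iff_bijective _).1 inferInstance

/-- Inflation between layers is injective in degree 2 under Hilbert 90 for the layer. -/
theorem infLayer_injective (hH1 : H1ResVanishes (A.quotientToInvariants V) (imQ U V)) :
    Function.Injective (infLayer A h 2).hom := by
  intro y y' hyy'
  rw [← inf2_thirdIso_apply, ← inf2_thirdIso_apply] at hyy'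
  exact (thirdIso_bijective A h 2).1 (inf_injective _ _ hH1 hyy')

/-- Exactness: a class of the layer `G ⧸ V` dying on `U/V` is inflated from the layer `G ⧸ U`. -/
theorem exists_infLayer_eq (hH1 : H1ResVanishes (A.quotientToInvariants V) (imQ U V))
    (x : groupCohomology (A.quotientToInvariants V) 2)
    (hx : (res2 (A.quotientToInvariants V) (imQ U V)).hom x = 0) :
    ∃ y : groupCohomology (A.quotientToInvariants U) 2, (infLayer A h 2).hom y = x := by
  obtain ⟨z, hz⟩ := exists_inf_eq _ _ hH1 x hx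
  obtain ⟨y, rfl⟩ := (thirdIso_bijective A h 2).2 z
  exact ⟨y, (inf2_thirdIso_apply A h y).symm.trans hz⟩

end ThirdIso

/-! ### Formations -/

section Formation

variable {k G : Type u} [CommRing k] [Group G] (𝒰 : LevelStructure G) (A : Rep.{u} k G)
  [IsDiscrete 𝒰 A]

/-- Abstract class formation data in level form. -/
structure Formation where
  /-- (H1) Hilbert 90 on every layer -/
  h1 : ∀ (U V : Subgroup G) [U.Normal] [V.Normal], U ∈ 𝒰.sets → V ∈ 𝒰.sets → V ≤ U →
    H1ResVanishes (A.quotientToInvariants V) (imQ U V)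
  /-- (H2) finiteness on every layer -/
  h2fin : ∀ (U : Subgroup G) [U.Normal], U ∈ 𝒰.sets →
    Finite (groupCohomology (A.quotientToInvariants U) 2)
  /-- (H2) order bound on every layer -/
  h2 : ∀ (U : Subgroup G) [U.Normal], U ∈ 𝒰.sets →
    Nat.card (groupCohomology (A.quotientToInvariants U) 2) ∣ U.index
  /-- (D) the distinguished layers -/
  W : ℕ → Subgroup G
  [W_normal : ∀ n, (W n).Normal]
  W_mem : ∀ n, n ≠ 0 → W n ∈ 𝒰.sets
  W_index : ∀ n, n ≠ 0 → (W n).index = n
  W_le : ∀ n m, n ≠ 0 → m ≠ 0 → n ∣ m → W m ≤ W n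
  /-- the invariant of the distinguished layers -/
  invD : ∀ n, groupCohomology (A.quotientToInvariants (W n)) 2 →+ UnitAddCircle
  invD_injective : ∀ n, n ≠ 0 → Function.Injective (invD n)
  invD_surjective : ∀ n, n ≠ 0 → ∀ t : UnitAddCircle, n • t = 0 → ∃ y, invD n y = t
  invD_inf : ∀ n m (hn : n ≠ 0) (hm : m ≠ 0) (hnm : n ∣ m)
    (y : groupCohomology (A.quotientToInvariants (W n)) 2),
    invD m ((infLayer A (W_le n m hn hm hnm) 2).hom y) = invD n y
  /-- (K) the distinguished classes of index `[G:U]` die on `U` -/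
  kill : ∀ (U : Subgroup G) [U.Normal], U ∈ 𝒰.sets →
    ∃ (V : Subgroup G) (_ : V.Normal) (_ : V ∈ 𝒰.sets) (_ : V ≤ U) (hVW : V ≤ W U.index),
      ∀ y : groupCohomology (A.quotientToInvariants (W U.index)) 2,
        (res2 (A.quotientToInvariants V) (imQ U V)).hom ((infLayer A hVW 2).hom y) = 0

attribute [instance] Formation.W_normal

variable {𝒰 A} (F : Formation 𝒰 A)

namespace Formation

theorem index_ne_zero {U : Subgroup G} (hU : U ∈ 𝒰.sets) : U.index ≠ 0 :=
  (𝒰.finiteIndex U hU).index_ne_zero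

/-- The distinguished layer of index `n` carries a class of invariant `1/n`. -/
theorem exists_invD_eq_oneOver {n : ℕ} (hn : n ≠ 0) :
    ∃ y₀ : groupCohomology (A.quotientToInvariants (F.W n)) 2, F.invD n y₀ = oneOver n :=
  F.invD_surjective n hn _ ((nsmul_oneOver_eq_zero_iff hn n).2 dvd_rfl)

theorem nsmul_eq_zero_iff_of_invD {n : ℕ} (hn : n ≠ 0)
    {y₀ : groupCohomology (A.quotientToInvariants (F.W n)) 2} (hy₀ : F.invD n y₀ = oneOver n)
    (m : ℕ) : m • y₀ = 0 ↔ n ∣ m := by
  rw [← nsmul_oneOver_eq_zero_iff hn, ← hy₀, ← map_nsmul]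
  constructor
  · intro h
    rw [h, map_zero]
  · intro h
    apply F.invD_injective n hn
    rw [h, map_zero]


/-- **(C1)** Every layer `H²(G/U, A^U)` is cyclic of order `[G:U]`, generated by a class `v` whose
inflation to level cohomology is the inflation of the distinguished class of invariant
`1/[G:U]`. -/
theorem exists_fundamental_layer (U : Subgroup G) [U.Normal] (hU : U ∈ 𝒰.sets) :
    ∃ v : groupCohomology (A.quotientToInvariants U) 2,
      Nat.card (groupCohomology (A.quotientToInvariants U) 2) = U.index ∧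
      (∀ m : ℕ, m • v = 0 ↔ U.index ∣ m) ∧
      (∀ x : groupCohomology (A.quotientToInvariants U) 2, ∃ m : ℕ, m < U.index ∧ x = m • v) ∧
      ∃ y₀ : groupCohomology (A.quotientToInvariants (F.W U.index)) 2,
        F.invD U.index y₀ = oneOver U.index ∧
        (levelInf 𝒰 A hU 2).hom v =
          (levelInf 𝒰 A (F.W_mem _ (index_ne_zero hU)) 2).hom y₀ := by
  have hidx : U.index ≠ 0 := index_ne_zero hU
  obtain ⟨V, hVn, hV, hVU, hVW, hkill⟩ := F.kill U hU
  obtain ⟨y₀, hy₀⟩ := F.exists_invD_eq_oneOver hidx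
  have hN := F.h1 U V hU hV hVU
  have hN' := F.h1 (F.W U.index) V (F.W_mem _ hidx) hV hVW
  haveI : Finite (groupCohomology (A.quotientToInvariants U) 2) := F.h2fin U hU
  let eU := (thirdIso A hVU 2).toLinearEquiv
  haveI : Finite (groupCohomology
      ((A.quotientToInvariants V).quotientToInvariants (imQ U V)) 2) :=
    Finite.of_equiv _ eU.toEquiv
  have hcard : Nat.card (groupCohomology
      ((A.quotientToInvariants V).quotientToInvariants (imQ U V)) 2) ∣ U.index := by
    rw [← Nat.card_congr eU.toEquiv]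
    exact F.h2 U hU
  obtain ⟨v, hv, hc, hord, hgen⟩ := exists_fundamental (A.quotientToInvariants V) (imQ U V)
    (imQ (F.W U.index) V) hN hN' hcard ((thirdIso A hVW 2).hom.hom y₀)
    (fun m hm => by
      rw [← F.nsmul_eq_zero_iff_of_invD hidx hy₀]
      apply (thirdIso_bijective A hVW 2).1
      rw [map_nsmul, hm, map_zero])
    (by
      have := inf2_thirdIso_apply A hVW y₀
      exact (congrArg _ this).trans (hkill y₀))
  have hsymm : ∀ z, eU (eU.symm z) = z := eU.apply_symm_apply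
  refine ⟨eU.symm v, ?_, ?_, ?_, y₀, hy₀, ?_⟩
  · rw [Nat.card_congr eU.toEquiv]
    exact hc
  · intro m
    rw [← hord m, ← map_nsmul]
    constructor
    · intro h
      rw [← hsymm (m • v), h, map_zero]
    · intro h
      rw [h, map_zero]
  · intro x
    obtain ⟨m, hm, hx⟩ := hgen (eU x)
    refine ⟨m, hm, ?_⟩
    rw [← map_nsmul, ← hx, eU.symm_apply_apply]
  · have h1 : (infLayer A hVU 2).hom (eU.symm v) = (infLayer A hVW 2).hom y₀ := by
      rw [← inf2_thirdIso_apply A hVU, ← inf2_thirdIso_apply A hVW]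
      have h2 : (thirdIso A hVU 2).hom.hom (eU.symm v) = v := hsymm v
      rw [h2]
      exact hv
    rw [← infLayer_levelInf_apply 𝒰 A hVU hU hV, h1, infLayer_levelInf_apply 𝒰 A hVW _ hV]


include F in
/-- Inflation from a layer to level cohomology is injective in degree 2. -/
theorem levelInf_injective (U : Subgroup G) [U.Normal] (hU : U ∈ 𝒰.sets) :
    Function.Injective (levelInf 𝒰 A hU 2).hom := by
  intro y y' h
  have h0 : (levelInf 𝒰 A hU 2).hom (y - y') = 0 := by rw [map_sub, h, sub_self]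
  obtain ⟨V₀, hV₀, hV₀U, hall⟩ := exists_infLayer_eq_zero 𝒰 A hU (y - y') h0
  haveI := 𝒰.normal V₀ hV₀
  have h1 := hall V₀ hV₀ le_rfl hV₀U
  have h2 := infLayer_injective A hV₀U (F.h1 U V₀ hU hV₀ hV₀U) (h1.trans (map_zero _).symm)
  exact sub_eq_zero.1 h2

/-- **(C2)** Every class of level cohomology in degree 2 comes from a distinguished layer. -/
theorem exists_levelInf_W_eq (x : levelCohomology 𝒰 A 2) :
    ∃ (n : ℕ) (hn : n ≠ 0) (y : groupCohomology (A.quotientToInvariants (F.W n)) 2),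
      (levelInf 𝒰 A (F.W_mem n hn) 2).hom y = x := by
  obtain ⟨U₀, hU₀, hx⟩ := exists_levelInf_eq 𝒰 A x
  haveI := 𝒰.normal U₀ hU₀
  obtain ⟨y, rfl⟩ := hx U₀ hU₀ le_rfl
  obtain ⟨v, -, -, hgen, y₀, -, hv⟩ := F.exists_fundamental_layer U₀ hU₀
  obtain ⟨m, -, rfl⟩ := hgen y
  exact ⟨U₀.index, index_ne_zero hU₀, m • y₀, by rw [map_nsmul, map_nsmul, hv]⟩

/-- The invariant does not depend on the distinguished layer. -/
theorem invD_eq_of_levelInf_eq {n n' : ℕ} (hn : n ≠ 0) (hn' : n' ≠ 0)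
    (y : groupCohomology (A.quotientToInvariants (F.W n)) 2)
    (y' : groupCohomology (A.quotientToInvariants (F.W n')) 2)
    (h : (levelInf 𝒰 A (F.W_mem n hn) 2).hom y = (levelInf 𝒰 A (F.W_mem n' hn') 2).hom y') :
    F.invD n y = F.invD n' y' := by
  have hl : n * n' ≠ 0 := Nat.mul_ne_zero hn hn'
  have hle := F.W_le n (n * n') hn hl (Dvd.intro _ rfl)
  have hle' := F.W_le n' (n * n') hn' hl (Dvd.intro_left _ rfl)
  rw [← F.invD_inf n (n * n') hn hl (Dvd.intro _ rfl) y,
    ← F.invD_inf n' (n * n') hn' hl (Dvd.intro_left _ rfl) y']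
  congr 1
  apply F.levelInf_injective (F.W (n * n')) (F.W_mem _ hl)
  rw [infLayer_levelInf_apply 𝒰 A hle (F.W_mem n hn) (F.W_mem _ hl),
    infLayer_levelInf_apply 𝒰 A hle' (F.W_mem n' hn') (F.W_mem _ hl), h]

theorem exists_inv (x : levelCohomology 𝒰 A 2) :
    ∃ t : UnitAddCircle, ∃ (n : ℕ) (hn : n ≠ 0)
      (y : groupCohomology (A.quotientToInvariants (F.W n)) 2),
      (levelInf 𝒰 A (F.W_mem n hn) 2).hom y = x ∧ F.invD n y = t := by
  obtain ⟨n, hn, y, hy⟩ := F.exists_levelInf_W_eq x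
  exact ⟨_, n, hn, y, hy, rfl⟩

/-- The invariant, as a function. -/
noncomputable def invFun (x : levelCohomology 𝒰 A 2) : UnitAddCircle :=
  Classical.choose (F.exists_inv x)

theorem invFun_eq {n : ℕ} (hn : n ≠ 0)
    (y : groupCohomology (A.quotientToInvariants (F.W n)) 2) (x : levelCohomology 𝒰 A 2)
    (h : (levelInf 𝒰 A (F.W_mem n hn) 2).hom y = x) : F.invFun x = F.invD n y := by
  obtain ⟨n', hn', y', hy', ht⟩ := Classical.choose_spec (F.exists_inv x)
  unfold invFun
  rw [← ht]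
  exact F.invD_eq_of_levelInf_eq hn' hn y' y (hy'.trans h.symm)

/-- **(C3)** The invariant map `H²(G, A) →+ ℝ/ℤ` on level cohomology. -/
noncomputable def inv : levelCohomology 𝒰 A 2 →+ UnitAddCircle where
  toFun := F.invFun
  map_zero' := by
    rw [F.invFun_eq one_ne_zero 0 0 (map_zero _), map_zero]
  map_add' x x' := by
    obtain ⟨n, hn, y, rfl⟩ := F.exists_levelInf_W_eq x
    obtain ⟨n', hn', y', rfl⟩ := F.exists_levelInf_W_eq x'
    have hl : n * n' ≠ 0 := Nat.mul_ne_zero hn hn'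
    have hle := F.W_le n (n * n') hn hl (Dvd.intro _ rfl)
    have hle' := F.W_le n' (n * n') hn' hl (Dvd.intro_left _ rfl)
    rw [F.invFun_eq hn y _ rfl, F.invFun_eq hn' y' _ rfl,
      F.invFun_eq hl ((infLayer A hle 2).hom y + (infLayer A hle' 2).hom y') _
        (by rw [map_add, infLayer_levelInf_apply 𝒰 A hle (F.W_mem n hn) (F.W_mem _ hl),
          infLayer_levelInf_apply 𝒰 A hle' (F.W_mem n' hn') (F.W_mem _ hl)]),
      map_add, F.invD_inf n (n * n') hn hl (Dvd.intro _ rfl) y,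
      F.invD_inf n' (n * n') hn' hl (Dvd.intro_left _ rfl) y']

/-- The invariant of a class inflated from a distinguished layer. -/
theorem inv_levelInf_W {n : ℕ} (hn : n ≠ 0)
    (y : groupCohomology (A.quotientToInvariants (F.W n)) 2) :
    F.inv ((levelInf 𝒰 A (F.W_mem n hn) 2).hom y) = F.invD n y :=
  F.invFun_eq hn y _ rfl

/-- The invariant map is injective. -/
theorem inv_injective : Function.Injective F.inv := by
  rw [injective_iff_map_eq_zero]
  intro x hx
  obtain ⟨n, hn, y, rfl⟩ := F.exists_levelInf_W_eq x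
  rw [F.inv_levelInf_W hn] at hx
  have : y = 0 := F.invD_injective n hn (hx.trans (map_zero _).symm)
  rw [this, map_zero]

/-- Every `n`-torsion element of `ℝ/ℤ` is an invariant, of a class of the distinguished layer of
index `n`. -/
theorem exists_inv_eq {n : ℕ} (hn : n ≠ 0) (t : UnitAddCircle) (ht : n • t = 0) :
    ∃ y : groupCohomology (A.quotientToInvariants (F.W n)) 2,
      F.inv ((levelInf 𝒰 A (F.W_mem n hn) 2).hom y) = t := by
  obtain ⟨y, hy⟩ := F.invD_surjective n hn t ht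
  exact ⟨y, (F.inv_levelInf_W hn y).trans hy⟩

/-- **(C4)** The fundamental class of a layer: a generator `v` of `H²(G/U, A^U)` (cyclic of order
`[G:U]`) with invariant `1/[G:U]`. -/
theorem exists_fundamental_class (U : Subgroup G) [U.Normal] (hU : U ∈ 𝒰.sets) :
    ∃ v : groupCohomology (A.quotientToInvariants U) 2,
      F.inv ((levelInf 𝒰 A hU 2).hom v) = oneOver U.index ∧
      Nat.card (groupCohomology (A.quotientToInvariants U) 2) = U.index ∧
      (∀ m : ℕ, m • v = 0 ↔ U.index ∣ m) ∧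
      (∀ x : groupCohomology (A.quotientToInvariants U) 2, ∃ m : ℕ, m < U.index ∧ x = m • v) := by
  obtain ⟨v, hc, hord, hgen, y₀, hy₀, hv⟩ := F.exists_fundamental_layer U hU
  exact ⟨v, by rw [hv, F.inv_levelInf_W (index_ne_zero hU), hy₀], hc, hord, hgen⟩

/-- The invariants of the classes of the layer `G ⧸ U` are killed by `[G:U]`. -/
theorem index_nsmul_inv_levelInf (U : Subgroup G) [U.Normal] (hU : U ∈ 𝒰.sets)
    (y : groupCohomology (A.quotientToInvariants U) 2) :
    U.index • F.inv ((levelInf 𝒰 A hU 2).hom y) = 0 := by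
  obtain ⟨v, -, -, hord, hgen⟩ := F.exists_fundamental_class U hU
  obtain ⟨m, -, rfl⟩ := hgen y
  rw [← map_nsmul, ← map_nsmul, ← mul_nsmul, mul_comm, mul_nsmul, (hord _).2 dvd_rfl, smul_zero,
    map_zero, map_zero]

/-- **(C4)** A class whose invariant is killed by `[G:U]` comes from the layer `G ⧸ U`
("is split by `U`"). -/
theorem exists_levelInf_eq_of_index_nsmul_inv (U : Subgroup G) [U.Normal] (hU : U ∈ 𝒰.sets)
    (x : levelCohomology 𝒰 A 2) (hx : U.index • F.inv x = 0) :
    ∃ y : groupCohomology (A.quotientToInvariants U) 2, (levelInf 𝒰 A hU 2).hom y = x := by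
  obtain ⟨v, hv, -, -, -⟩ := F.exists_fundamental_class U hU
  obtain ⟨m, -, hm⟩ := exists_eq_nsmul_oneOver (index_ne_zero hU) _ hx
  refine ⟨m • v, F.inv_injective ?_⟩
  rw [map_nsmul, map_nsmul, hv, hm]

/-- The invariant of every class is torsion. -/
theorem exists_nsmul_inv_eq_zero (x : levelCohomology 𝒰 A 2) : ∃ n : ℕ, n ≠ 0 ∧ n • F.inv x = 0 := by
  obtain ⟨n, hn, y, rfl⟩ := F.exists_levelInf_W_eq x
  refine ⟨n, hn, ?_⟩
  have := F.index_nsmul_inv_levelInf (F.W n) (F.W_mem n hn) y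
  rwa [F.W_index n hn] at this

end Formation

end Formation

/-! ### Constructor from `ZMod`-valued invariants -/

section OfZMod

variable {k G : Type u} [CommRing k] [Group G] (𝒰 : LevelStructure G) (A : Rep.{u} k G)
  [IsDiscrete 𝒰 A]

/-- Constructor of a formation from `ZMod n`-valued invariants of the distinguished layers. -/
noncomputable def Formation.ofZMod
    (h1 : ∀ (U V : Subgroup G) [U.Normal] [V.Normal], U ∈ 𝒰.sets → V ∈ 𝒰.sets → V ≤ U →
      H1ResVanishes (A.quotientToInvariants V) (imQ U V))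
    (h2fin : ∀ (U : Subgroup G) [U.Normal], U ∈ 𝒰.sets →
      Finite (groupCohomology (A.quotientToInvariants U) 2))
    (h2 : ∀ (U : Subgroup G) [U.Normal], U ∈ 𝒰.sets →
      Nat.card (groupCohomology (A.quotientToInvariants U) 2) ∣ U.index)
    (W : ℕ → Subgroup G) [W_normal : ∀ n, (W n).Normal]
    (W_mem : ∀ n, n ≠ 0 → W n ∈ 𝒰.sets)
    (W_index : ∀ n, n ≠ 0 → (W n).index = n)
    (W_le : ∀ n m, n ≠ 0 → m ≠ 0 → n ∣ m → W m ≤ W n)
    (invZ : ∀ (n : ℕ) [NeZero n], groupCohomology (A.quotientToInvariants (W n)) 2 →+ ZMod n)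
    (invZ_bijective : ∀ (n : ℕ) [NeZero n], Function.Bijective (invZ n))
    (invZ_inf : ∀ (n m : ℕ) [NeZero n] [NeZero m] (hnm : n ∣ m)
      (y : groupCohomology (A.quotientToInvariants (W n)) 2),
      ZMod.toAddCircle (invZ m ((infLayer A (W_le n m (NeZero.ne n) (NeZero.ne m) hnm) 2).hom y)) =
        ZMod.toAddCircle (invZ n y))
    (kill : ∀ (U : Subgroup G) [U.Normal], U ∈ 𝒰.sets →
      ∃ (V : Subgroup G) (_ : V.Normal) (_ : V ∈ 𝒰.sets) (_ : V ≤ U) (hVW : V ≤ W U.index),
        ∀ y : groupCohomology (A.quotientToInvariants (W U.index)) 2,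
          (res2 (A.quotientToInvariants V) (imQ U V)).hom ((infLayer A hVW 2).hom y) = 0) :
    Formation 𝒰 A where
  h1 := h1
  h2fin := h2fin
  h2 := h2
  W := W
  W_normal := W_normal
  W_mem := W_mem
  W_index := W_index
  W_le := W_le
  invD n := if h : n = 0 then 0 else
    haveI : NeZero n := ⟨h⟩
    (ZMod.toAddCircle (N := n)).comp (invZ n)
  invD_injective n hn := by
    haveI : NeZero n := ⟨hn⟩
    rw [dif_neg hn]
    exact (ZMod.toAddCircle_injective n).comp (invZ_bijective n).1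
  invD_surjective n hn t ht := by
    haveI : NeZero n := ⟨hn⟩
    obtain ⟨j, hj⟩ := exists_toAddCircle_eq t ht
    obtain ⟨y, hy⟩ := (invZ_bijective n).2 j
    refine ⟨y, ?_⟩
    rw [dif_neg hn]
    change ZMod.toAddCircle (invZ n y) = t
    rw [hy, hj]
  invD_inf n m hn hm hnm y := by
    haveI : NeZero n := ⟨hn⟩
    haveI : NeZero m := ⟨hm⟩
    rw [dif_neg hn, dif_neg hm]
    exact invZ_inf n m hnm y
  kill := kill


theorem Formation.ofZMod_invD_apply
    (h1 : ∀ (U V : Subgroup G) [U.Normal] [V.Normal], U ∈ 𝒰.sets → V ∈ 𝒰.sets → V ≤ U →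
      H1ResVanishes (A.quotientToInvariants V) (imQ U V))
    (h2fin : ∀ (U : Subgroup G) [U.Normal], U ∈ 𝒰.sets →
      Finite (groupCohomology (A.quotientToInvariants U) 2))
    (h2 : ∀ (U : Subgroup G) [U.Normal], U ∈ 𝒰.sets →
      Nat.card (groupCohomology (A.quotientToInvariants U) 2) ∣ U.index)
    (W : ℕ → Subgroup G) [W_normal : ∀ n, (W n).Normal]
    (W_mem : ∀ n, n ≠ 0 → W n ∈ 𝒰.sets)
    (W_index : ∀ n, n ≠ 0 → (W n).index = n)
    (W_le : ∀ n m, n ≠ 0 → m ≠ 0 → n ∣ m → W m ≤ W n)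
    (invZ : ∀ (n : ℕ) [NeZero n], groupCohomology (A.quotientToInvariants (W n)) 2 →+ ZMod n)
    (invZ_bijective : ∀ (n : ℕ) [NeZero n], Function.Bijective (invZ n))
    (invZ_inf : ∀ (n m : ℕ) [NeZero n] [NeZero m] (hnm : n ∣ m)
      (y : groupCohomology (A.quotientToInvariants (W n)) 2),
      ZMod.toAddCircle (invZ m ((infLayer A (W_le n m (NeZero.ne n) (NeZero.ne m) hnm) 2).hom y)) =
        ZMod.toAddCircle (invZ n y))
    (kill : ∀ (U : Subgroup G) [U.Normal], U ∈ 𝒰.sets →
      ∃ (V : Subgroup G) (_ : V.Normal) (_ : V ∈ 𝒰.sets) (_ : V ≤ U) (hVW : V ≤ W U.index),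
        ∀ y : groupCohomology (A.quotientToInvariants (W U.index)) 2,
          (res2 (A.quotientToInvariants V) (imQ U V)).hom ((infLayer A hVW 2).hom y) = 0)
    (n : ℕ) [NeZero n] (y : groupCohomology (A.quotientToInvariants (W n)) 2) :
    (Formation.ofZMod 𝒰 A h1 h2fin h2 W W_mem W_index W_le invZ invZ_bijective invZ_inf kill).invD
      n y = ZMod.toAddCircle (invZ n y) := by
  unfold Formation.ofZMod
  simp only [dif_neg (NeZero.ne n)]
  rfl

end OfZMod

/-! ### Base change -/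

section BaseChange

variable {k G H : Type u} [CommRing k] [Group G] [Group H]
  {𝒰 : LevelStructure G} {𝒱 : LevelStructure H}
  {A : Rep.{u} k G} {B : Rep.{u} k H} [IsDiscrete 𝒰 A] [IsDiscrete 𝒱 B]
  (f : H →* G) (φ : Rep.res f A ⟶ B)
  {U : Subgroup G} [U.Normal] {V : Subgroup H} [V.Normal] (hVU : V ≤ U.comap f)

/-- The map of layers `H ⧸ V →* G ⧸ U`. -/
def layerHom : H ⧸ V →* G ⧸ U := QuotientGroup.map V U f hVU

@[simp] lemma layerHom_mk (h : H) : layerHom f hVU (h : H ⧸ V) = (f h : G ⧸ U) := rfl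

/-- The map of layer modules `A^U → B^V`. -/
noncomputable def layerBCHom :
    Rep.res (layerHom f hVU) (A.quotientToInvariants U) ⟶ B.quotientToInvariants V :=
  Rep.ofHom ⟨LinearMap.codRestrict _ (φ.hom.toLinearMap.comp (Submodule.subtype _))
      (fun x v => by
        have h1 := Rep.hom_comm_apply φ (v : H) (x : A)
        have h2 : A.ρ (f (v : H)) (x : A) = x := x.2 ⟨f v, hVU v.2⟩
        change B.ρ (v : H) (φ.hom (x : A)) = φ.hom (x : A)
        rw [← h1]
        exact congrArg _ h2),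
    fun q => QuotientGroup.induction_on q fun h => by
      ext x
      exact Rep.hom_comm_apply φ h (x : A)⟩

lemma layerBCHom_apply_coe (x : A.quotientToInvariants U) :
    (((layerBCHom f φ hVU).hom x : B.quotientToInvariants V) : B) = φ.hom (x : A) := rfl

/-- Base change between layers, on cohomology. -/
noncomputable def layerBC (n : ℕ) :
    groupCohomology (A.quotientToInvariants U) n ⟶ groupCohomology (B.quotientToInvariants V) n :=
  groupCohomology.map (layerHom f hVU) (layerBCHom f φ hVU) n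

variable (hf : 𝒱.Refines 𝒰 f) (hU : U ∈ 𝒰.sets) (hV : V ∈ 𝒱.sets)

lemma levelInfComplex_comp_levelCochainsMap :
    levelInfComplex 𝒰 A hU ≫ levelCochainsMap f hf φ =
      cochainsMap (layerHom f hVU) (layerBCHom f φ hVU) ≫ levelInfComplex 𝒱 B hV := rfl

/-- Inflation from layers is compatible with base change. -/
theorem levelInf_comp_levelCohomologyMap (n : ℕ) :
    levelInf 𝒰 A hU n ≫ levelCohomologyMap f hf φ n =
      layerBC f φ hVU n ≫ levelInf 𝒱 B hV n := by
  have h1 := HomologicalComplex.homologyMap_comp (levelInfComplex 𝒰 A hU)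
    (levelCochainsMap f hf φ) n
  have h2 := HomologicalComplex.homologyMap_comp
    (cochainsMap (layerHom f hVU) (layerBCHom f φ hVU)) (levelInfComplex 𝒱 B hV) n
  rw [levelInfComplex_comp_levelCochainsMap f φ hVU hf hU hV] at h1
  exact h1.symm.trans h2

theorem levelCohomologyMap_levelInf_apply (n : ℕ)
    (y : groupCohomology (A.quotientToInvariants U) n) :
    (levelCohomologyMap f hf φ n).hom ((levelInf 𝒰 A hU n).hom y) =
      (levelInf 𝒱 B hV n).hom ((layerBC f φ hVU n).hom y) := by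
  have := levelInf_comp_levelCohomologyMap f φ hVU hf hU hV n
  exact congrArg (fun ψ => ψ.hom y) this


end BaseChange

section BaseChangeInv

variable {k G H : Type u} [CommRing k] [Group G] [Group H]
  {𝒰 : LevelStructure G} {𝒱 : LevelStructure H}
  {A : Rep.{u} k G} {B : Rep.{u} k H} [IsDiscrete 𝒰 A] [IsDiscrete 𝒱 B]
  (FG : Formation 𝒰 A) (FH : Formation 𝒱 B)
  (f : H →* G) (hf : 𝒱.Refines 𝒰 f) (φ : Rep.res f A ⟶ B) (d : ℕ)

/-- **(C5) Base change** (`inv ∘ res = degree • inv`): if the invariants of the distinguished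
layers are multiplied by `d` under `(f, φ)`, so are the invariants of all classes. -/
theorem inv_levelCohomologyMap
    (hBC : ∀ n : ℕ, n ≠ 0 → ∃ (m : ℕ) (_ : m ≠ 0) (hle : FH.W m ≤ (FG.W n).comap f),
      ∀ y : groupCohomology (A.quotientToInvariants (FG.W n)) 2,
        FH.invD m ((layerBC f φ hle 2).hom y) = d • FG.invD n y)
    (x : levelCohomology 𝒰 A 2) :
    FH.inv ((levelCohomologyMap f hf φ 2).hom x) = d • FG.inv x := by
  obtain ⟨n, hn, y, rfl⟩ := FG.exists_levelInf_W_eq x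
  obtain ⟨m, hm, hle, hy⟩ := hBC n hn
  rw [levelCohomologyMap_levelInf_apply f φ hle hf (FG.W_mem n hn) (FH.W_mem m hm) 2 y,
    FH.inv_levelInf_W hm, FG.inv_levelInf_W hn, hy y]

/-- **(C6)** If `inv ∘ res = d • inv` with `d ≠ 0`, restriction is surjective on `H²`. -/
theorem levelCohomologyMap_surjective (hd : d ≠ 0)
    (hinv : ∀ x : levelCohomology 𝒰 A 2,
      FH.inv ((levelCohomologyMap f hf φ 2).hom x) = d • FG.inv x)
    (z : levelCohomology 𝒱 B 2) :
    ∃ x : levelCohomology 𝒰 A 2, (levelCohomologyMap f hf φ 2).hom x = z := by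
  obtain ⟨n, hn, hz⟩ := FH.exists_nsmul_inv_eq_zero z
  obtain ⟨t', ht', hdt'⟩ := exists_nsmul_eq_of_torsion hn hd _ hz
  obtain ⟨y, hy⟩ := FG.exists_inv_eq (Nat.mul_ne_zero hn hd) t' ht'
  refine ⟨(levelInf 𝒰 A (FG.W_mem _ (Nat.mul_ne_zero hn hd)) 2).hom y, FH.inv_injective ?_⟩
  rw [hinv, hy, hdt']

/-- **(C6)** `inv ∘ cores = inv` for any additive map `c` with `c ∘ res = d •`. -/
theorem inv_cores (hd : d ≠ 0)
    (hinv : ∀ x : levelCohomology 𝒰 A 2,
      FH.inv ((levelCohomologyMap f hf φ 2).hom x) = d • FG.inv x)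
    (c : levelCohomology 𝒱 B 2 →+ levelCohomology 𝒰 A 2)
    (hc : ∀ x : levelCohomology 𝒰 A 2, c ((levelCohomologyMap f hf φ 2).hom x) = d • x)
    (z : levelCohomology 𝒱 B 2) : FG.inv (c z) = FH.inv z := by
  obtain ⟨x, rfl⟩ := levelCohomologyMap_surjective FG FH f hf φ d hd hinv z
  rw [hc, map_nsmul, hinv]

end BaseChangeInv

end Fermat.Agent.S55.CFAbs
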