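/-
S55 / LOC5: base change of the ground field for the Galois cohomology of `Ω/F` in level form.
For `E` an intermediate field of `Ω/F`: the restriction `Gal(Ω/E) → Gal(Ω/F)`, compatibility of the
Krull level structures, and transport of `CFAbs.layerBC` to the finite Galois layers
`Gal(L'/E) → Gal(L/F)` (`L ⊆ L'`).
-/
import Fermat.Agent.S55.CFAbs
import Fermat.Agent.S55.GaloisLevel
import Fermat.Agent.S55.GC.GaloisLayerInf

set_option autoImplicit false
set_option linter.unusedSectionVars false
set_option linter.style.haveILetI false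

open CategoryTheory groupCohomology Rep IntermediateField

namespace Fermat.Agent.S55.GaloisLayerBC

open Fermat.Agent.S55.Level Fermat.Agent.S55.LevelLayer Fermat.Agent.S55.GC.InfRes2
  Fermat.Agent.S55.CFAbs Fermat.Agent.S55.GaloisLevel Fermat.Agent.S55.GC.GaloisLayerInf

variable (F Ω : Type) [Field F] [Field Ω] [Algebra F Ω] [IsGalois F Ω]
  (E : IntermediateField F Ω)

/-- Restriction of scalars `Gal(Ω/E) → Gal(Ω/F)`. -/
def resScal : (Ω ≃ₐ[E] Ω) →* (Ω ≃ₐ[F] Ω) := AlgEquiv.restrictScalarsHom F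

@[simp] lemma resScal_apply (σ : Ω ≃ₐ[E] Ω) (x : Ω) : resScal F Ω E σ x = σ x := rfl

lemma resScal_injective : Function.Injective (resScal F Ω E) :=
  AlgEquiv.restrictScalarsHom_injective F

/-- The identity of `Ωˣ`, as a morphism `res (Ωˣ over F) ⟶ Ωˣ over E`. -/
noncomputable def unitsBC :
    res (resScal F Ω E) (unitsRep F Ω) ⟶ unitsRep E Ω :=
  Rep.ofHom ⟨LinearMap.id, fun _ => rfl⟩

lemma unitsBC_apply (x : (unitsRep F Ω).V) : (unitsBC F Ω E).hom x = x := rfl

/-- The Krull level structure of `Ω/E` refines the pull-back of that of `Ω/F`. -/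
theorem refines_resScal [FiniteDimensional F E] :
    (krullLevel E Ω).Refines (krullLevel F Ω) (resScal F Ω E) := by
  intro U hU
  have hUn := hU.1
  obtain ⟨L, hLf, hLU⟩ := hU.2
  refine ⟨U.comap (resScal F Ω E), ⟨Subgroup.Normal.comap hUn _, ?_⟩, le_rfl⟩
  -- the compositum `E L` as an intermediate field of `Ω/E`
  have hle : E ≤ E ⊔ L := le_sup_left
  refine ⟨extendScalars hle, ?_, ?_⟩
  · haveI : FiniteDimensional F (E ⊔ L : IntermediateField F Ω) :=
      IntermediateField.finiteDimensional_sup E L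
    haveI : Module.Finite F (extendScalars hle) :=
      inferInstanceAs (Module.Finite F (E ⊔ L : IntermediateField F Ω))
    exact Module.Finite.of_restrictScalars_finite F E (extendScalars hle)
  · intro σ hσ
    apply hLU
    rw [IntermediateField.mem_fixingSubgroup_iff] at hσ ⊢
    intro x hx
    exact hσ x ((le_sup_right : L ≤ E ⊔ L) hx)

section Layers

variable {F Ω E}
variable {L : IntermediateField F Ω} [Normal F L] {L' : IntermediateField E Ω} [Normal E L']
  (hLL' : ∀ x : Ω, x ∈ L → x ∈ L')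

include hLL' in
theorem fixingSubgroup_le_comap :
    L'.fixingSubgroup ≤ L.fixingSubgroup.comap (resScal F Ω E) := by
  intro σ hσ
  rw [Subgroup.mem_comap]
  rw [IntermediateField.mem_fixingSubgroup_iff] at hσ ⊢
  intro x hx
  exact hσ x (hLL' x hx)

/-- Restriction `Gal(L'/E) → Gal(L/F)` for `L ⊆ L'`. -/
noncomputable def galBC : (L' ≃ₐ[E] L') →* (L ≃ₐ[F] L) :=
  (galQuotEquiv F Ω L).toMonoidHom.comp
    ((layerHom (resScal F Ω E) (fixingSubgroup_le_comap hLL')).comp
      (galQuotEquiv E Ω L').symm.toMonoidHom)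

theorem galBC_restrictNormalHom (σ : Ω ≃ₐ[E] Ω) :
    galBC hLL' (AlgEquiv.restrictNormalHom L' σ) =
      AlgEquiv.restrictNormalHom L (resScal F Ω E σ) := by
  unfold galBC
  simp only [MonoidHom.comp_apply, MulEquiv.coe_toMonoidHom]
  rw [← galQuotEquiv_mk E Ω L' σ, MulEquiv.symm_apply_apply]
  rfl

theorem coe_galBC (τ : L' ≃ₐ[E] L') (y : L) :
    ((galBC hLL' τ y : L) : Ω) = (τ ⟨(y : Ω), hLL' _ y.2⟩ : Ω) := by
  obtain ⟨σ, rfl⟩ := AlgEquiv.restrictNormalHom_surjective Ω τ
  rw [galBC_restrictNormalHom]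
  have h1 := AlgEquiv.restrictNormal_commutes (resScal F Ω E σ) L y
  have h2 := AlgEquiv.restrictNormal_commutes σ L' ⟨(y : Ω), hLL' _ y.2⟩
  exact h1.trans h2.symm

/-- The inclusion `L → L'` as a ring homomorphism. -/
def inclBC : L →+* L' where
  toFun x := ⟨(x : Ω), hLL' _ x.2⟩
  map_one' := rfl
  map_mul' _ _ := rfl
  map_zero' := rfl
  map_add' _ _ := rfl

@[simp] lemma coe_inclBC (x : L) : ((inclBC hLL' x : L') : Ω) = (x : Ω) := rfl

/-- The inclusion `Lˣ → L'ˣ`, as a morphism of `Gal(L'/E)`-modules. -/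
noncomputable def unitsInclBC :
    res (galBC hLL') (Rep.ofAlgebraAutOnUnits F L) ⟶ Rep.ofAlgebraAutOnUnits E L' :=
  Rep.ofHom ⟨(Units.map (inclBC hLL').toMonoidHom).toAdditive.toIntLinearMap,
    fun τ => by
      refine LinearMap.ext fun x => ?_
      apply congrArg Additive.ofMul
      apply Units.ext
      apply Subtype.ext
      exact coe_galBC hLL' τ _⟩

theorem unitsInclBC_coe (x : (Rep.ofAlgebraAutOnUnits F L).V) :
    (((Additive.toMul ((unitsInclBC hLL').hom x : Additive L'ˣ) : L'ˣ) : L') : Ω) =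
      (((Additive.toMul (x : Additive Lˣ) : Lˣ) : L) : Ω) := rfl

/-- **Base change between layers is base change between the Galois groups of the fields.** -/
theorem layerBC_unitsLayerIsoF (n : ℕ) :
    layerBC (resScal F Ω E) (unitsBC F Ω E) (fixingSubgroup_le_comap hLL') n ≫
        (unitsLayerIsoF E Ω L' n).hom =
      (unitsLayerIsoF F Ω L n).hom ≫
        groupCohomology.map (galBC hLL') (unitsInclBC hLL') n := by
  have hgrp : (layerHom (resScal F Ω E) (fixingSubgroup_le_comap hLL')).comp
      (galQuotEquiv E Ω L').symm.toMonoidHom =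
      (galQuotEquiv F Ω L).symm.toMonoidHom.comp (galBC hLL') := by
    ext τ
    unfold galBC
    simp only [MonoidHom.comp_apply, MulEquiv.coe_toMonoidHom, MulEquiv.symm_apply_apply]
  show groupCohomology.map _ _ n ≫ groupCohomology.map _ _ n =
    groupCohomology.map _ _ n ≫ groupCohomology.map _ _ n
  rw [← groupCohomology.map_comp, ← groupCohomology.map_comp]
  refine groupCohomology.map_congr hgrp ?_ n
  ext x
  rfl

end Layers

end Fermat.Agent.S55.GaloisLayerBC
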