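/-
S55 / local glue (G2): BASE CHANGE for the Krull level structure.

* For a tower `K → E → Ω` (`Ω/K` Galois): `AlgEquiv.restrictScalarsHom K : Gal(Ω/E) →* Gal(Ω/K)`
  is compatible with the Krull level structures (`refines_restrictScalarsHom`), the units of `Ω`
  as a `Gal(Ω/E)`-module are the restriction of the units as a `Gal(Ω/K)`-module
  (`unitsRes`, `unitsResInv`), hence the restriction map `bcMap` on level cohomology.
* For an open subgroup `H = Gal(Ω/E)` (`E/K` finite): `H ≃* Gal(Ω/E)` (`openEquiv`), the level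
  structure induced on the SUBGROUP `H` (`LevelStructure.restrict`) and the Krull level structure
  of `Gal(Ω/E)` refine each other, and level cohomology of the two agree for every coefficient
  module (`restrictIso`).  So statements about "open subgroups of the local Galois group"
  (Shapiro / Mackey side) and about "Galois groups of local fields" (class field theory side) are
  interchangeable.
(helper27)
-/
import Fermat.Agent.S55.GaloisLevel
import Fermat.Agent.S55.LevelRestrict
import Fermat.Agent.S55.LevelTransport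

set_option autoImplicit false
set_option linter.unusedSectionVars false

open CategoryTheory IntermediateField

namespace Fermat.Agent.S55.GaloisLevel

open Fermat.Agent.S55.Level Fermat.Agent.S55.LevelTransport

/-! ### Towers -/

section Tower

variable (K E Ω : Type) [Field K] [Field E] [Field Ω] [Algebra K E] [Algebra E Ω] [Algebra K Ω]
  [IsScalarTower K E Ω]

omit [IsScalarTower K E Ω] in
/-- A `K`-linear automorphism fixing a spanning set of a `K`-subspace fixes the subspace. -/
lemma apply_eq_of_mem_span {τ : Ω ≃ₐ[K] Ω} {s : Set Ω} (hs : ∀ x ∈ s, τ x = x) {y : Ω}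
    (hy : y ∈ Submodule.span K s) : τ y = y := by
  induction hy using Submodule.span_induction with
  | mem x hx => exact hs x hx
  | zero => exact map_zero τ
  | add x y _ _ hx hy => rw [map_add, hx, hy]
  | smul a x _ hx => rw [map_smul, hx]

variable [IsGalois K Ω] [IsGalois E Ω]

variable {K Ω} in
/-- The preimage of an open subgroup of `Gal(Ω/K)` in `Gal(Ω/E)` is open. -/
lemma IsKrullOpen.comap_restrictScalarsHom {U : Subgroup Gal(Ω/K)} (hU : IsKrullOpen K Ω U) :
    IsKrullOpen E Ω (U.comap (AlgEquiv.restrictScalarsHom K : Gal(Ω/E) →* Gal(Ω/K))) := by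
  classical
  obtain ⟨F, hF, hFU⟩ := hU
  have := hF
  obtain ⟨t, ht⟩ := (Module.Finite.fg_top : (⊤ : Submodule K F).FG)
  -- the finite set of generators, inside `Ω`
  let s : Set Ω := (fun x : F => (x : Ω)) '' (t : Set F)
  have hsfin : s.Finite := (Finset.finite_toSet t).image _
  have hspan : ∀ x : F, (x : Ω) ∈ Submodule.span K s := by
    intro x
    have hx : x ∈ Submodule.span K (t : Set F) := by rw [ht]; trivial
    have := Submodule.apply_mem_span_image_of_mem_span (F.val.toLinearMap) hx
    exact this
  have hint : ∀ x ∈ s, IsIntegral E x := fun x _ =>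
    (Algebra.IsAlgebraic.isAlgebraic (R := E) x).isIntegral
  haveI : Finite s := hsfin
  refine ⟨IntermediateField.adjoin E s, IntermediateField.finiteDimensional_adjoin hint, ?_⟩
  intro τ hτ
  rw [Subgroup.mem_comap]
  apply hFU
  rw [IntermediateField.mem_fixingSubgroup_iff]
  intro y hy
  refine apply_eq_of_mem_span K Ω (τ := AlgEquiv.restrictScalarsHom K τ) (s := s) ?_
    (hspan ⟨y, hy⟩)
  intro x hx
  exact (IntermediateField.mem_fixingSubgroup_iff _ _).1 hτ x
    (IntermediateField.subset_adjoin E s hx)

/-- **Base change of levels**: restriction of scalars `Gal(Ω/E) →* Gal(Ω/K)` is compatible with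
the Krull level structures. -/
theorem refines_restrictScalarsHom :
    (krullLevel E Ω).Refines (krullLevel K Ω)
      (AlgEquiv.restrictScalarsHom K : Gal(Ω/E) →* Gal(Ω/K)) := by
  rintro U ⟨hUn, hU⟩
  have := hUn
  exact ⟨_, ⟨inferInstance, hU.comap_restrictScalarsHom E⟩, le_rfl⟩

/-- `Ωˣ` as a `Gal(Ω/E)`-module is the restriction of `Ωˣ` as a `Gal(Ω/K)`-module. -/
noncomputable def unitsRes :
    Rep.res (AlgEquiv.restrictScalarsHom K : Gal(Ω/E) →* Gal(Ω/K)) (unitsRep K Ω) ⟶
      unitsRep E Ω :=
  Rep.ofHom ⟨LinearMap.id, fun _ => rfl⟩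

/-- The inverse of `unitsRes`. -/
noncomputable def unitsResInv :
    unitsRep E Ω ⟶
      Rep.res (AlgEquiv.restrictScalarsHom K : Gal(Ω/E) →* Gal(Ω/K)) (unitsRep K Ω) :=
  Rep.ofHom ⟨LinearMap.id, fun _ => rfl⟩

@[simp] lemma unitsRes_hom_apply (x : Additive Ωˣ) : (unitsRes K E Ω).hom x = x := rfl

@[simp] lemma unitsResInv_hom_apply (x : Additive Ωˣ) : (unitsResInv K E Ω).hom x = x := rfl

/-- **Restriction `Hⁿ(Gal(Ω/K), Ωˣ) ⟶ Hⁿ(Gal(Ω/E), Ωˣ)`** on level cohomology. -/
noncomputable def bcMap (n : ℕ) :
    levelCohomology (krullLevel K Ω) (unitsRep K Ω) n ⟶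
      levelCohomology (krullLevel E Ω) (unitsRep E Ω) n :=
  levelCohomologyMap (AlgEquiv.restrictScalarsHom K) (refines_restrictScalarsHom K E Ω)
    (unitsRes K E Ω) n

end Tower

/-! ### Open subgroups -/

section OpenSubgroup

variable {K Ω : Type} [Field K] [Field Ω] [Algebra K Ω] [IsGalois K Ω]
  {H : Subgroup Gal(Ω/K)} {E : IntermediateField K Ω} (hHE : H = E.fixingSubgroup)

include hHE in
lemma apply_eq_of_mem (h : H) (x : E) : (h : Gal(Ω/K)) (x : Ω) = x :=
  (IntermediateField.mem_fixingSubgroup_iff _ _).1 (hHE.le h.2) x x.2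

/-- An open subgroup `H = Gal(Ω/E)` of `Gal(Ω/K)`, as the Galois group of `Ω/E`. -/
noncomputable def openEquiv : H ≃* Gal(Ω/E) where
  toFun h := { AlgEquiv.toRingEquiv (h : Gal(Ω/K)) with
    commutes' := fun x => apply_eq_of_mem hHE h x }
  invFun τ := ⟨τ.restrictScalars K, by
    rw [hHE, IntermediateField.mem_fixingSubgroup_iff]
    intro x hx
    exact τ.commutes ⟨x, hx⟩⟩
  left_inv _ := by ext; rfl
  right_inv _ := by ext; rfl
  map_mul' _ _ := by ext; rfl

@[simp] lemma openEquiv_apply (h : H) (x : Ω) : openEquiv hHE h x = (h : Gal(Ω/K)) x := rfl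

@[simp] lemma coe_openEquiv_symm (τ : Gal(Ω/E)) :
    (((openEquiv hHE).symm τ : H) : Gal(Ω/K)) = τ.restrictScalars K := rfl

lemma subtype_comp_openEquiv_symm :
    H.subtype.comp (openEquiv hHE).symm.toMonoidHom =
      (AlgEquiv.restrictScalarsHom K : Gal(Ω/E) →* Gal(Ω/K)) := rfl

/-- The Krull level structure of `Gal(Ω/E)` refines the one induced on the subgroup `H`. -/
theorem refines_openEquiv_symm :
    (krullLevel E Ω).Refines ((krullLevel K Ω).restrict H) (openEquiv hHE).symm.toMonoidHom := by
  rintro _ ⟨U, hU, rfl⟩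
  obtain ⟨V, hV, hVU⟩ := refines_restrictScalarsHom K E Ω U hU
  refine ⟨V, hV, fun τ hτ => ?_⟩
  exact hVU hτ

/-- For `E/K` finite, the level structure induced on the subgroup `H = Gal(Ω/E)` refines the
Krull level structure of `Gal(Ω/E)`. -/
theorem refines_openEquiv [FiniteDimensional K E] :
    ((krullLevel K Ω).restrict H).Refines (krullLevel E Ω) (openEquiv hHE).toMonoidHom := by
  rintro U ⟨_, M, hM, hMU⟩
  have := hM
  -- `M/K` is finite; take its normal closure over `K`
  have hMK : FiniteDimensional K (M.restrictScalars K) :=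
    (Module.Finite.trans (R := K) E M : Module.Finite K M)
  let N : IntermediateField K Ω := IntermediateField.normalClosure K (M.restrictScalars K) Ω
  have hN : FiniteDimensional K N := normalClosure.is_finiteDimensional K _ Ω
  have hNg : IsGalois K N := IsGalois.normalClosure K _ Ω
  refine ⟨_, (krullLevel K Ω).mem_restrict_sets H (fixingSubgroup_mem_krullLevel N), ?_⟩
  intro h hh
  rw [Subgroup.mem_comap]
  apply hMU
  rw [IntermediateField.mem_fixingSubgroup_iff]
  intro x hx
  have hxN : x ∈ N :=
    IntermediateField.le_normalClosure (M.restrictScalars K) (show x ∈ M.restrictScalars K from hx)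
  exact (IntermediateField.mem_fixingSubgroup_iff _ _).1 (Subgroup.mem_subgroupOf.1 hh) x hxN

section Iso

universe u

variable {k : Type} [CommRing k] (A : Rep k Gal(Ω/K))

/-- The comparison morphism of coefficient modules (the identity on the underlying module). -/
noncomputable def restrictResHom :
    Rep.res (openEquiv hHE).symm.toMonoidHom (Rep.res H.subtype A) ⟶
      Rep.res (AlgEquiv.restrictScalarsHom K : Gal(Ω/E) →* Gal(Ω/K)) A :=
  Rep.ofHom ⟨LinearMap.id, fun _ => rfl⟩

/-- The inverse comparison morphism. -/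
noncomputable def restrictResHomInv :
    Rep.res (openEquiv hHE).toMonoidHom
        (Rep.res (AlgEquiv.restrictScalarsHom K : Gal(Ω/E) →* Gal(Ω/K)) A) ⟶
      Rep.res H.subtype A :=
  Rep.ofHom ⟨LinearMap.id, fun h => by
    ext a
    show A.ρ ((openEquiv hHE h).restrictScalars K) a = A.ρ (h : Gal(Ω/K)) a
    congr 2⟩

variable [FiniteDimensional K E]
  [IsDiscrete ((krullLevel K Ω).restrict H) (Rep.res H.subtype A)]
  [IsDiscrete (krullLevel E Ω)
    (Rep.res (AlgEquiv.restrictScalarsHom K : Gal(Ω/E) →* Gal(Ω/K)) A)]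

/-- **Level cohomology of the open subgroup `H = Gal(Ω/E)` (induced level structure) is level
cohomology of the Galois group `Gal(Ω/E)` (Krull level structure)**, for every coefficient
module. -/
noncomputable def restrictIso (n : ℕ) :
    levelCohomology ((krullLevel K Ω).restrict H) (Rep.res H.subtype A) n ≅
      levelCohomology (krullLevel E Ω)
        (Rep.res (AlgEquiv.restrictScalarsHom K : Gal(Ω/E) →* Gal(Ω/K)) A) n :=
  levelCohomologyIsoOfEquiv (openEquiv hHE).symm (refines_openEquiv_symm hHE)
    (refines_openEquiv hHE) (restrictResHom hHE A) (restrictResHomInv hHE A)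
    (fun _ => rfl) (fun _ => rfl) n

lemma restrictIso_hom (n : ℕ) :
    (restrictIso hHE A n).hom =
      levelCohomologyMap (openEquiv hHE).symm.toMonoidHom (refines_openEquiv_symm hHE)
        (restrictResHom hHE A) n := rfl

lemma restrictIso_inv (n : ℕ) :
    (restrictIso hHE A n).inv =
      levelCohomologyMap (openEquiv hHE).toMonoidHom (refines_openEquiv hHE)
        (restrictResHomInv hHE A) n := rfl

/-- **Compatibility with restriction**: restricting from `Gal(Ω/K)` to the subgroup `H` and then
passing to `Gal(Ω/E)` is the base-change restriction along `Gal(Ω/E) →* Gal(Ω/K)`. -/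
theorem res_comp_restrictIso_hom [IsDiscrete (krullLevel K Ω) A] (n : ℕ) :
    levelCohomologyMap H.subtype ((krullLevel K Ω).restrict_refines H)
        (𝟙 (Rep.res H.subtype A)) n ≫ (restrictIso hHE A n).hom =
      levelCohomologyMap (AlgEquiv.restrictScalarsHom K : Gal(Ω/E) →* Gal(Ω/K))
        (refines_restrictScalarsHom K E Ω)
        (𝟙 (Rep.res (AlgEquiv.restrictScalarsHom K : Gal(Ω/E) →* Gal(Ω/K)) A)) n := by
  rw [restrictIso_hom, ← levelCohomologyMap_comp]
  exact levelCohomologyMap_congr (subtype_comp_openEquiv_symm hHE) _ _ _ _ (fun _ => rfl) n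

end Iso

section IsoGen

variable {k : Type} [CommRing k] (B : Rep k H)

/-- Transport of a representation of the subgroup `H` to `Gal(Ω/E)`. -/
noncomputable abbrev transportRep : Rep k Gal(Ω/E) :=
  Rep.res (openEquiv hHE).symm.toMonoidHom B

/-- The inverse comparison morphism for `transportRep`. -/
noncomputable def transportRepInv :
    Rep.res (openEquiv hHE).toMonoidHom (transportRep hHE B) ⟶ B :=
  Rep.ofHom ⟨LinearMap.id, fun h => by
    ext a
    show B.ρ ((openEquiv hHE).symm (openEquiv hHE h)) a = B.ρ h a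
    rw [MulEquiv.symm_apply_apply]⟩

/-- Discreteness transports. -/
theorem isDiscrete_transportRep [IsDiscrete ((krullLevel K Ω).restrict H) B] :
    IsDiscrete (krullLevel E Ω) (transportRep hHE B) := ⟨fun a => by
  obtain ⟨U, hU, h⟩ := IsDiscrete.exists_fix (𝒰 := (krullLevel K Ω).restrict H) (A := B) a
  obtain ⟨V, hV, hVU⟩ := refines_openEquiv_symm hHE U hU
  exact ⟨V, hV, fun v hv => h _ (hVU hv)⟩⟩

variable [FiniteDimensional K E] [IsDiscrete ((krullLevel K Ω).restrict H) B]
  [IsDiscrete (krullLevel E Ω) (transportRep hHE B)]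

/-- **General form**: for ANY representation `B` of the open subgroup `H = Gal(Ω/E)` (not
necessarily restricted from `Gal(Ω/K)`), level cohomology for the induced level structure is
level cohomology of `Gal(Ω/E)` with its Krull level structure. -/
noncomputable def restrictIsoGen (n : ℕ) :
    levelCohomology ((krullLevel K Ω).restrict H) B n ≅
      levelCohomology (krullLevel E Ω) (transportRep hHE B) n :=
  levelCohomologyIsoOfEquiv (openEquiv hHE).symm (refines_openEquiv_symm hHE)
    (refines_openEquiv hHE) (𝟙 (transportRep hHE B)) (transportRepInv hHE B)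
    (fun _ => rfl) (fun _ => rfl) n

lemma restrictIsoGen_hom (n : ℕ) :
    (restrictIsoGen hHE B n).hom =
      levelCohomologyMap (openEquiv hHE).symm.toMonoidHom (refines_openEquiv_symm hHE)
        (𝟙 (transportRep hHE B)) n := rfl

end IsoGen

section Discrete

variable {k : Type} [CommRing k] (A : Rep k Gal(Ω/K)) [IsDiscrete (krullLevel K Ω) A]

/-- Discreteness is inherited by the restriction to `Gal(Ω/E)`. -/
theorem isDiscrete_res_restrictScalarsHom (E : Type) [Field E] [Algebra K E] [Algebra E Ω]
    [IsScalarTower K E Ω] [IsGalois E Ω] :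
    IsDiscrete (krullLevel E Ω)
      (Rep.res (AlgEquiv.restrictScalarsHom K : Gal(Ω/E) →* Gal(Ω/K)) A) := ⟨fun a => by
  obtain ⟨U, hU, h⟩ := IsDiscrete.exists_fix (𝒰 := krullLevel K Ω) (A := A) a
  obtain ⟨V, hV, hVU⟩ := refines_restrictScalarsHom K E Ω U hU
  exact ⟨V, hV, fun v hv => h _ (hVU hv)⟩⟩

/-- Discreteness is inherited by the restriction to a subgroup with the induced level
structure. -/
theorem isDiscrete_res_subtype (H : Subgroup Gal(Ω/K)) :
    IsDiscrete ((krullLevel K Ω).restrict H) (Rep.res H.subtype A) := ⟨fun a => by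
  obtain ⟨U, hU, h⟩ := IsDiscrete.exists_fix (𝒰 := krullLevel K Ω) (A := A) a
  exact ⟨_, (krullLevel K Ω).mem_restrict_sets H hU, fun v hv => h _ (Subgroup.mem_subgroupOf.1 hv)⟩⟩

end Discrete

section Units

variable [FiniteDimensional K E]
  [IsDiscrete ((krullLevel K Ω).restrict H) (Rep.res H.subtype (unitsRep K Ω))]

/-- The comparison morphism for the units (identity on `Ωˣ`). -/
noncomputable def restrictUnitsHom :
    Rep.res (openEquiv hHE).symm.toMonoidHom (Rep.res H.subtype (unitsRep K Ω)) ⟶
      unitsRep E Ω :=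
  Rep.ofHom ⟨LinearMap.id, fun _ => rfl⟩

/-- The inverse comparison morphism for the units. -/
noncomputable def restrictUnitsHomInv :
    Rep.res (openEquiv hHE).toMonoidHom (unitsRep E Ω) ⟶ Rep.res H.subtype (unitsRep K Ω) :=
  Rep.ofHom ⟨LinearMap.id, fun _ => rfl⟩

/-- The units of `Ω` over the open subgroup `H = Gal(Ω/E)`: level cohomology of the subgroup is
the Galois cohomology of `Ω/E`. -/
noncomputable def restrictUnitsIso (n : ℕ) :
    levelCohomology ((krullLevel K Ω).restrict H) (Rep.res H.subtype (unitsRep K Ω)) n ≅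
      levelCohomology (krullLevel E Ω) (unitsRep E Ω) n :=
  levelCohomologyIsoOfEquiv (openEquiv hHE).symm (refines_openEquiv_symm hHE)
    (refines_openEquiv hHE) (restrictUnitsHom hHE) (restrictUnitsHomInv hHE)
    (fun _ => rfl) (fun _ => rfl) n

/-- Restriction to the subgroup followed by `restrictUnitsIso` is the base-change map `bcMap`. -/
theorem res_comp_restrictUnitsIso_hom (n : ℕ) :
    levelCohomologyMap H.subtype ((krullLevel K Ω).restrict_refines H)
        (𝟙 (Rep.res H.subtype (unitsRep K Ω))) n ≫ (restrictUnitsIso hHE n).hom =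
      bcMap K E Ω n := by
  rw [restrictUnitsIso, levelCohomologyIsoOfEquiv_hom, ← levelCohomologyMap_comp]
  exact levelCohomologyMap_congr (subtype_comp_openEquiv_symm hHE) _ _ _ _ (fun _ => rfl) n

end Units

end OpenSubgroup

end Fermat.Agent.S55.GaloisLevel
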