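/-
S55 / ALG4: inner automorphisms act trivially on level cohomology.
For `σ : G` the pair (conjugation by `σ` on `G`, `ρ(σ⁻¹)` on the coefficients) induces the identity
on `levelCohomology 𝒰 A n` (dimension shifting with the acyclic hull of `LevelHull.lean`).
-/
import Fermat.Agent.S55.LevelShapiro

set_option autoImplicit false

open CategoryTheory

namespace Fermat.Agent.S55.Level

universe u

variable {k G : Type u} [CommRing k] [Group G] (𝒰 : LevelStructure G)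

/-- Conjugation by `σ` is compatible with any level structure (its members are normal). -/
lemma LevelStructure.refines_conj (σ : G) : 𝒰.Refines 𝒰 (MulAut.conj σ).toMonoidHom := by
  intro U hU
  have hn := 𝒰.normal U hU
  refine ⟨U, hU, fun g hg => ?_⟩
  show (MulAut.conj σ) g ∈ U
  rw [MulAut.conj_apply]
  exact hn.conj_mem g hg σ

/-- The coefficient map `ρ(σ⁻¹) : res (conj σ) A ⟶ A`. -/
noncomputable def conjHom (A : Rep.{u} k G) (σ : G) :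
    Rep.res (MulAut.conj σ).toMonoidHom A ⟶ A :=
  Rep.ofHom (ρ := (Rep.res (MulAut.conj σ).toMonoidHom A).ρ) (σ := A.ρ)
    ⟨A.ρ σ⁻¹, fun g => by
      ext a
      show A.ρ σ⁻¹ (A.ρ ((MulAut.conj σ) g) a) = A.ρ g (A.ρ σ⁻¹ a)
      rw [MulAut.conj_apply, ← Module.End.mul_apply, ← Module.End.mul_apply, ← map_mul, ← map_mul]
      congr 2
      group⟩

lemma conjHom_hom_apply (A : Rep.{u} k G) (σ : G) (a : A) :
    (conjHom A σ).hom a = A.ρ σ⁻¹ a := rfl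

/-- **Inner automorphisms act trivially on level cohomology.** -/
theorem levelCohomologyMap_conj (σ : G) (n : ℕ) : ∀ (A : Rep.{u} k G) [IsDiscrete 𝒰 A],
    levelCohomologyMap (MulAut.conj σ).toMonoidHom (𝒰.refines_conj σ) (conjHom A σ) n = 𝟙 _ := by
  induction n with
  | zero =>
    intro A _
    refine ModuleCat.hom_ext (LinearMap.ext fun x => ?_)
    obtain ⟨z, rfl⟩ := levelπ_surjective 𝒰 A 0 x
    have hz := (mem_levelCocycles_zero_iff 𝒰 A z.1).1 z.2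
    refine levelCohomologyMap_levelπ _ _ _ 0 z z fun g => ?_
    rw [conjHom_hom_apply, show (⇑(MulAut.conj σ).toMonoidHom ∘ g) = default from
      Subsingleton.elim _ _, hz σ⁻¹]
    exact congrArg z.1 (Subsingleton.elim _ _)
  | succ n ih =>
    intro A _
    refine ModuleCat.hom_ext (LinearMap.ext fun x => ?_)
    obtain ⟨y, rfl⟩ := levelδ_levelHullSeq_surjective 𝒰 A n x
    have hnat := levelδ_naturality (MulAut.conj σ).toMonoidHom (𝒰.refines_conj σ)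
      (levelHullSeq_shortExact 𝒰 A) (levelHullSeq_shortExact 𝒰 A)
      (conjHom (levelHullSeq 𝒰 A).X₁ σ) (conjHom (levelHullSeq 𝒰 A).X₂ σ)
      (conjHom (levelHullSeq 𝒰 A).X₃ σ)
      (fun a => (Rep.hom_comm_apply (levelHullSeq 𝒰 A).f σ⁻¹ a).symm)
      (fun a => (Rep.hom_comm_apply (levelHullSeq 𝒰 A).g σ⁻¹ a).symm) n (n + 1) rfl
    have h1 := congrArg (fun φ => ModuleCat.Hom.hom φ y) hnat
    simp only [ModuleCat.hom_comp, LinearMap.comp_apply] at h1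
    have h2 := congrArg (fun φ => ModuleCat.Hom.hom φ y) (ih (levelHullSeq 𝒰 A).X₃)
    simp only [ModuleCat.hom_id, LinearMap.id_apply] at h2
    rw [h2] at h1
    exact h1

/-- Elementwise form. -/
theorem levelCohomologyMap_conj_apply (A : Rep.{u} k G) [IsDiscrete 𝒰 A] (σ : G) (n : ℕ)
    (x : levelCohomology 𝒰 A n) :
    (levelCohomologyMap (MulAut.conj σ).toMonoidHom (𝒰.refines_conj σ) (conjHom A σ) n).hom x =
      x := by
  rw [levelCohomologyMap_conj]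
  rfl

section Comp

variable {H K : Type u} [Group H] [Group K] {𝒰} {𝒱 : LevelStructure H} {𝒲 : LevelStructure K}
  {A : Rep.{u} k G} {B : Rep.{u} k H} {C : Rep.{u} k K}
  [IsDiscrete 𝒰 A] [IsDiscrete 𝒱 B] [IsDiscrete 𝒲 C]

/-- Composition of change-of-group maps on level complexes, in a form that avoids all
rewriting along equalities of homomorphisms: it suffices that the group homomorphisms and the
coefficient maps compose pointwise. -/
theorem levelCochainsMap_comp_eq (f₁ : H →* G) (hf₁ : 𝒱.Refines 𝒰 f₁) (φ₁ : Rep.res f₁ A ⟶ B)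
    (f₂ : K →* H) (hf₂ : 𝒲.Refines 𝒱 f₂) (φ₂ : Rep.res f₂ B ⟶ C)
    (f₃ : K →* G) (hf₃ : 𝒲.Refines 𝒰 f₃) (φ₃ : Rep.res f₃ A ⟶ C)
    (hf : ∀ x, f₁ (f₂ x) = f₃ x) (hφ : ∀ a : A, φ₂.hom (φ₁.hom a) = φ₃.hom a) :
    levelCochainsMap f₁ hf₁ φ₁ ≫ levelCochainsMap f₂ hf₂ φ₂ = levelCochainsMap f₃ hf₃ φ₃ := by
  ext n : 1
  refine ModuleCat.hom_ext (LinearMap.ext fun (x : levelCochains 𝒰 A n) =>
    Subtype.ext (funext fun h => ?_))
  show φ₂.hom (φ₁.hom (x.1 (f₁ ∘ (f₂ ∘ h)))) = φ₃.hom (x.1 (f₃ ∘ h))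
  rw [hφ]
  have e : (f₁ ∘ (f₂ ∘ h)) = f₃ ∘ h := funext fun i => hf (h i)
  rw [e]

theorem levelCohomologyMap_comp_eq (f₁ : H →* G) (hf₁ : 𝒱.Refines 𝒰 f₁) (φ₁ : Rep.res f₁ A ⟶ B)
    (f₂ : K →* H) (hf₂ : 𝒲.Refines 𝒱 f₂) (φ₂ : Rep.res f₂ B ⟶ C)
    (f₃ : K →* G) (hf₃ : 𝒲.Refines 𝒰 f₃) (φ₃ : Rep.res f₃ A ⟶ C)
    (hf : ∀ x, f₁ (f₂ x) = f₃ x) (hφ : ∀ a : A, φ₂.hom (φ₁.hom a) = φ₃.hom a) (n : ℕ) :
    levelCohomologyMap f₁ hf₁ φ₁ n ≫ levelCohomologyMap f₂ hf₂ φ₂ n =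
      levelCohomologyMap f₃ hf₃ φ₃ n := by
  show HomologicalComplex.homologyMap _ n ≫ HomologicalComplex.homologyMap _ n =
    HomologicalComplex.homologyMap _ n
  rw [← HomologicalComplex.homologyMap_comp,
    levelCochainsMap_comp_eq f₁ hf₁ φ₁ f₂ hf₂ φ₂ f₃ hf₃ φ₃ hf hφ]

theorem levelCohomologyMap_comp_eq_apply (f₁ : H →* G) (hf₁ : 𝒱.Refines 𝒰 f₁)
    (φ₁ : Rep.res f₁ A ⟶ B) (f₂ : K →* H) (hf₂ : 𝒲.Refines 𝒱 f₂) (φ₂ : Rep.res f₂ B ⟶ C)
    (f₃ : K →* G) (hf₃ : 𝒲.Refines 𝒰 f₃) (φ₃ : Rep.res f₃ A ⟶ C)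
    (hf : ∀ x, f₁ (f₂ x) = f₃ x) (hφ : ∀ a : A, φ₂.hom (φ₁.hom a) = φ₃.hom a) (n : ℕ)
    (x : levelCohomology 𝒰 A n) :
    (levelCohomologyMap f₂ hf₂ φ₂ n).hom ((levelCohomologyMap f₁ hf₁ φ₁ n).hom x) =
      (levelCohomologyMap f₃ hf₃ φ₃ n).hom x :=
  congrArg (fun φ => ModuleCat.Hom.hom φ x)
    (levelCohomologyMap_comp_eq f₁ hf₁ φ₁ f₂ hf₂ φ₂ f₃ hf₃ φ₃ hf hφ n)

/-- **Conjugate change-of-group data induce the same map on level cohomology.**  If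
`f'' = σ f' σ⁻¹` and `ψ'' = ψ' ∘ ρ(σ⁻¹)` then `(f'', ψ'')` and `(f', ψ')` induce the same map
`Hⁿ(G, A) ⟶ Hⁿ(K, C)`. -/
theorem levelCohomologyMap_eq_of_conj (σ : G) (f' : K →* G) (hf' : 𝒲.Refines 𝒰 f')
    (f'' : K →* G) (hf'' : 𝒲.Refines 𝒰 f'') (hconj : ∀ x, f'' x = σ * f' x * σ⁻¹)
    (ψ' : Rep.res f' A ⟶ C) (ψ'' : Rep.res f'' A ⟶ C)
    (hψ : ∀ a : A, ψ''.hom a = ψ'.hom (A.ρ σ⁻¹ a)) (n : ℕ) :
    levelCohomologyMap f'' hf'' ψ'' n = levelCohomologyMap f' hf' ψ' n := by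
  have h := levelCohomologyMap_comp_eq (MulAut.conj σ).toMonoidHom (𝒰.refines_conj σ)
    (conjHom A σ) f' hf' ψ' f'' hf'' ψ''
    (fun x => by
      show (MulAut.conj σ) (f' x) = f'' x
      rw [MulAut.conj_apply, hconj])
    (fun a => by rw [conjHom_hom_apply, hψ]) n
  rw [← h, levelCohomologyMap_conj, Category.id_comp]

end Comp

end Fermat.Agent.S55.Level
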