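/-
S55 decoding leaves (route independent).

(a) For a finite group `H` whose order is invertible in `k`, `H¹(H, M)` and the frozen
    level-cohomology group `continuousH2 r M` both vanish (averaging argument).
(b) Consequently, for `p` odd, the archimedean factor `⟨complex conjugation⟩` is invisible in
    the frozen `sha₁`, `sha₂`.
-/
import Fermat.Statements.S55

set_option autoImplicit false

open CategoryTheory Module groupCohomology ExtCitation

namespace Fermat.Agent.S55.Decode

universe u

section Averaging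

variable {k G : Type u} [CommRing k] [Group G]

/-- `H¹` of a finite group vanishes when the order of the group is invertible. -/
theorem subsingleton_H1_of_isUnit_card [Finite G] (M : Rep k G)
    (h : IsUnit (Nat.card G : k)) : Subsingleton (H1 M) := by
  classical
  have := Fintype.ofFinite G
  suffices hz : ∀ z : H1 M, z = 0 from ⟨fun x y => by rw [hz x, hz y]⟩
  intro z
  induction z using H1_induction_on with
  | h c =>
    rw [H1π_eq_zero_iff]
    obtain ⟨w, hw⟩ := h
    have hcoc := (mem_cocycles₁_iff (c : G → M)).1 c.2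
    refine ⟨-((↑w⁻¹ : k) • ∑ j, c j), funext fun g => ?_⟩
    have hsum : ∑ j, c (g * j) = ∑ j, c j :=
      Fintype.sum_equiv (Equiv.mulLeft g) _ _ fun _ => rfl
    have hkey : (Nat.card G : k) • c g = ∑ j, c j - M.ρ g (∑ j, c j) := by
      have h1 : ∑ j, c (g * j) = ∑ j, (M.ρ g (c j) + c g) :=
        Finset.sum_congr rfl fun j _ => hcoc g j
      rw [hsum, Finset.sum_add_distrib, (map_sum (M.ρ g) (fun j => c j) Finset.univ).symm,
        Finset.sum_const, Finset.card_univ,
        ← Nat.card_eq_fintype_card, ← Nat.cast_smul_eq_nsmul k] at h1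
      exact eq_sub_of_add_eq' h1.symm
    have hcg : c g = (↑w⁻¹ : k) • ((Nat.card G : k) • c g) := by
      rw [← hw, smul_smul, Units.inv_mul, one_smul]
    rw [d₀₁_hom_apply]
    rw [hcg, hkey, map_neg, map_smul, smul_sub]
    abel

variable (r : G →* (AlgebraicClosure ℚ ≃ₐ[ℚ] AlgebraicClosure ℚ))

/-- The frozen level-`H²` of a finite group vanishes when the order of the group is invertible. -/
theorem subsingleton_continuousH2_of_isUnit_card [Finite G] (M : Rep k G)
    (h : IsUnit (Nat.card G : k)) : Subsingleton (continuousH2 r M) := by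
  classical
  have := Fintype.ofFinite G
  suffices hz : ∀ z : continuousH2 r M, z = 0 from ⟨fun x y => by rw [hz x, hz y]⟩
  intro z
  obtain ⟨f, rfl⟩ := Submodule.Quotient.mk_surjective _ z
  change continuousH2π r M f = 0
  rw [continuousH2π_eq_zero_iff, mem_levelCoboundaries₂_iff]
  obtain ⟨w, hw⟩ := h
  obtain ⟨hfc, F, hF, hlev⟩ := f.2
  have hcoc := (mem_cocycles₂_iff (f : G × G → M)).1 hfc
  set φ : G × G → M := (f : G × G → M) with hφ
  refine ⟨fun g => (↑w⁻¹ : k) • ∑ j, φ (g, j), ⟨F, hF, fun g s hs => ?_⟩, funext fun gh => ?_⟩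
  · simp only
    congr 1
    refine Finset.sum_congr rfl fun j _ => ?_
    have := hlev g j s 1 hs (by rw [map_one]; exact Subgroup.one_mem _)
    rwa [mul_one] at this
  · obtain ⟨g, x⟩ := gh
    have hsum : ∑ j, φ (g, x * j) = ∑ j, φ (g, j) :=
      Fintype.sum_equiv (Equiv.mulLeft x) _ _ fun _ => rfl
    have hkey : (Nat.card G : k) • φ (g, x) =
        M.ρ g (∑ j, φ (x, j)) - ∑ j, φ (g * x, j) + ∑ j, φ (g, j) := by
      have h1 : ∑ j, (φ (g * x, j) + φ (g, x)) = ∑ j, (M.ρ g (φ (x, j)) + φ (g, x * j)) :=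
        Finset.sum_congr rfl fun j _ => hcoc g x j
      rw [Finset.sum_add_distrib, Finset.sum_add_distrib, hsum,
        (map_sum (M.ρ g) (fun j => φ (x, j)) Finset.univ).symm, Finset.sum_const,
        Finset.card_univ, ← Nat.card_eq_fintype_card, ← Nat.cast_smul_eq_nsmul k] at h1
      rw [eq_sub_of_add_eq' h1]; abel
    have hcg : φ (g, x) = (↑w⁻¹ : k) • ((Nat.card G : k) • φ (g, x)) := by
      rw [← hw, smul_smul, Units.inv_mul, one_smul]
    rw [d₁₂_hom_apply]
    simp only
    rw [hcg, hkey, map_smul, smul_add, smul_sub]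

end Averaging

section Archimedean

instance finite_archimedeanDecomposition : Finite ↥archimedeanDecomposition := by
  have h : IsOfFinOrder complexConjugation :=
    isOfFinOrder_iff_pow_eq_one.2 ⟨2, by norm_num, complexConjugation_sq⟩
  exact Finite.of_equiv _ (finEquivZPowers h)

theorem card_archimedeanDecomposition_dvd_two : Nat.card ↥archimedeanDecomposition ∣ 2 := by
  rw [archimedeanDecomposition, Nat.card_zpowers]
  exact orderOf_dvd_of_pow_eq_one complexConjugation_sq

theorem isUnit_card_archimedeanDecomposition {p : ℕ} [Fact p.Prime] (hp2 : p ≠ 2) :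
    IsUnit (Nat.card ↥archimedeanDecomposition : ZMod p) := by
  rw [ZMod.isUnit_iff_coprime]
  have h2 : Nat.Coprime 2 p := by
    rw [Nat.coprime_comm, Nat.Prime.coprime_iff_not_dvd Fact.out]
    intro h
    exact hp2 ((Nat.prime_dvd_prime_iff_eq Fact.out Nat.prime_two).1 h)
  exact Nat.Coprime.coprime_dvd_left card_archimedeanDecomposition_dvd_two h2

variable {p : ℕ} [Fact p.Prime] (S : Finset Nat.Primes)

theorem subsingleton_H1_arch (hp2 : p ≠ 2)
    (A : Rep (ZMod p) (AlgebraicClosure ℚ ≃ₐ[ℚ] AlgebraicClosure ℚ))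
    (w : extArithIndex S) (hw : ∃ v : Unit, w = Sum.inl v) :
    Subsingleton (H1 (Rep.res (extArithLoc S w) A)) := by
  obtain ⟨v, rfl⟩ := hw
  exact subsingleton_H1_of_isUnit_card (G := ↥archimedeanDecomposition)
    (Rep.res archimedeanLoc A) (isUnit_card_archimedeanDecomposition hp2)

theorem subsingleton_continuousH2_arch (hp2 : p ≠ 2)
    (M : Rep (ZMod p) (AlgebraicClosure ℚ ≃ₐ[ℚ] AlgebraicClosure ℚ))
    (w : extArithIndex S) (hw : ∃ v : Unit, w = Sum.inl v) :
    Subsingleton (continuousH2 (extArithLoc S w) (Rep.res (extArithLoc S w) M)) := by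
  obtain ⟨v, rfl⟩ := hw
  exact subsingleton_continuousH2_of_isUnit_card (G := ↥archimedeanDecomposition) archimedeanLoc
    (Rep.res archimedeanLoc M) (isUnit_card_archimedeanDecomposition hp2)

/-- For `p` odd, membership in the frozen `sha₂` only involves the finite places in `S`. -/
theorem mem_sha₂_iff (hp2 : p ≠ 2)
    (M : Rep (ZMod p) (AlgebraicClosure ℚ ≃ₐ[ℚ] AlgebraicClosure ℚ))
    (x : continuousH2S S M) :
    x ∈ sha₂ S M ↔ ∀ q : ↥S, locRes₂S S M (primeLocalToGlobal q.1) x = 0 := by
  rw [sha₂, LinearMap.mem_ker]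
  constructor
  · intro h q
    exact congrFun h (Sum.inr q)
  · intro h
    funext v
    rcases v with v | q
    · have := subsingleton_continuousH2_arch S hp2 M (Sum.inl v) ⟨v, rfl⟩
      exact Subsingleton.elim _ _
    · exact h q

/-- For `p` odd, membership in the frozen `sha₁` only involves the finite places in `S`. -/
theorem mem_sha₁_iff (hp2 : p ≠ 2)
    (A : Rep (ZMod p) (AlgebraicClosure ℚ ≃ₐ[ℚ] AlgebraicClosure ℚ)) (x : H1 A) :
    x ∈ sha₁ S A ↔ x ∈ continuousH1S S A ∧
      ∀ q : ↥S, (locRes (extArithLoc S) A (Sum.inr q)).hom x = 0 := by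
  rw [sha₁, Submodule.mem_inf, LinearMap.mem_ker]
  refine and_congr_right fun _ => ?_
  constructor
  · intro h q
    exact congrFun h (Sum.inr q)
  · intro h
    funext v
    rcases v with v | q
    · have := subsingleton_H1_arch S hp2 A (Sum.inl v) ⟨v, rfl⟩
      exact Subsingleton.elim _ _
    · exact h q

end Archimedean

end Fermat.Agent.S55.Decode
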