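/-
S55, package SM2 (bridge): the frozen groups `continuousH2S`, `continuousH2`, `continuousH1S`,
`sha₁`, `sha₂` in terms of the level cohomology of `Fermat.Agent.S55.Level`.

* `h2SEquiv S M : continuousH2S S M ≃ₗ levelCohomology (globalLevel S) M 2`
* `h2Equiv r B : continuousH2 r B ≃ₗ levelCohomology (localLevel r) B 2`
* `h2Equiv_locRes₂S` : the frozen `locRes₂S` is the level restriction map
* `range_toGroupCohomology_one` : `continuousH1S S A` is the image of level `H¹`
* `bLoc S M n` : the total localisation map of level cohomology at the primes of `S`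
* `e₂ : sha₂ S M ≃ₗ ker (bLoc S M 2)`, `e₁ : sha₁ S A ≃ₗ ker (bLoc S A 1)` (for `p` odd)
-/
import Fermat.Agent.S55.LevelH1
import Fermat.Agent.S55.LevelGalois
import Fermat.Agent.S55.Decode

set_option autoImplicit false

open CategoryTheory groupCohomology ExtCitation

namespace Fermat.Agent.S55.Bridge

open Fermat.Agent.S55.Level

local notation "Qbar" => AlgebraicClosure ℚ
local notation "Γ" => (AlgebraicClosure ℚ ≃ₐ[ℚ] AlgebraicClosure ℚ)

noncomputable section

section Discrete

universe u

/-- Restriction along a refining homomorphism preserves discreteness. -/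
theorem isDiscrete_res {k G H : Type u} [CommRing k] [Group G] [Group H]
    {𝒰 : LevelStructure G} {𝒱 : LevelStructure H} (f : H →* G) (hf : 𝒱.Refines 𝒰 f)
    (A : Rep.{u} k G) [IsDiscrete 𝒰 A] : IsDiscrete 𝒱 (Rep.res f A) := ⟨fun a => by
  obtain ⟨U, hU, h⟩ := IsDiscrete.exists_fix (𝒰 := 𝒰) (A := A) a
  obtain ⟨V, hV, hVU⟩ := hf U hU
  exact ⟨V, hV, fun v hv => h (f v) (hVU hv)⟩⟩

/-- A `G_S`-discrete module is discrete for every local level structure. -/
theorem isDiscrete_localLevel_res (S : Finset Nat.Primes) {k : Type} [CommRing k] (M : Rep k Γ)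
    [IsDiscrete (globalLevel S) M] {H : Type} [Group H] (r : H →* Γ) :
    IsDiscrete (localLevel r) (Rep.res r M) :=
  isDiscrete_res r (localLevel_refines r S) M

/-- Instance form at the primes of `S` (all arguments are determined by the goal: `S` is read off
from the type of `q`).  It is stated for `Rep.of ρ` because `Rep.res r M` unfolds reducibly to
`Rep.of (M.ρ.comp r)`: in this form instance search also succeeds for `M = Rep.of σ`, e.g. for
`M.dualTwist χ`. -/
instance isDiscrete_primeLocal (S : Finset Nat.Primes) {k : Type} [CommRing k] {V : Type}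
    [AddCommGroup V] [Module k V] (ρ : Representation k Γ V)
    [IsDiscrete (globalLevel S) (Rep.of ρ)] (q : ↥S) :
    IsDiscrete (localLevel (primeLocalToGlobal q.1))
      (Rep.of (ρ.comp (primeLocalToGlobal q.1))) :=
  isDiscrete_localLevel_res S (Rep.of ρ) _

end Discrete

section GlobalH2

variable (S : Finset Nat.Primes) {k : Type} [CommRing k] (M : Rep k Γ)

lemma levelCocyclesS₂_eq :
    levelCocyclesS₂ S M = Level.levelCocycles₂ (globalLevel S) M := by
  ext f
  rw [mem_levelCocyclesS₂_iff, Level.mem_levelCocycles₂_iff, isLevelConstantS₂_iff]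

lemma levelCoboundariesS₂_eq :
    levelCoboundariesS₂ S M = Level.levelCoboundaries₂ (globalLevel S) M := by
  ext f
  rw [mem_levelCoboundariesS₂_iff, Level.mem_levelCoboundaries₂_iff]
  simp only [isLevelConstantS₁_iff]

variable [IsDiscrete (globalLevel S) M]

/-- The frozen `H²(G_S, M)` is `H²` of the level complex of the global level structure. -/
def h2SEquiv : continuousH2S S M ≃ₗ[k] levelCohomology (globalLevel S) M 2 :=
  (Submodule.Quotient.equiv _ _ (LinearEquiv.ofEq _ _ (levelCocyclesS₂_eq S M)) (by
    ext z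
    simp only [Submodule.mem_map, Submodule.mem_comap, Submodule.subtype_apply]
    constructor
    · rintro ⟨y, hy, rfl⟩
      rw [← levelCoboundariesS₂_eq]
      exact hy
    · intro hz
      refine ⟨(LinearEquiv.ofEq _ _ (levelCocyclesS₂_eq S M)).symm z, ?_, ?_⟩
      · rw [levelCoboundariesS₂_eq]
        exact hz
      · exact LinearEquiv.apply_symm_apply _ z)).trans (levelH2Equiv (globalLevel S) M)

lemma h2SEquiv_mk (z : levelCocyclesS₂ S M) :
    h2SEquiv S M (Submodule.Quotient.mk z) =
      levelH2π (globalLevel S) M ⟨z.1, (levelCocyclesS₂_eq S M) ▸ z.2⟩ := rfl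

end GlobalH2

section LocalH2

variable {H : Type} [Group H] (r : H →* Γ) {k : Type} [CommRing k] (B : Rep k H)

lemma levelCocycles₂_eq :
    groupCohomology.levelCocycles₂ r B = Level.levelCocycles₂ (localLevel r) B := by
  ext f
  rw [groupCohomology.mem_levelCocycles₂_iff, Level.mem_levelCocycles₂_iff, isLevelConstant₂_iff]

lemma levelCoboundaries₂_eq :
    groupCohomology.levelCoboundaries₂ r B = Level.levelCoboundaries₂ (localLevel r) B := by
  ext f
  rw [groupCohomology.mem_levelCoboundaries₂_iff, Level.mem_levelCoboundaries₂_iff]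
  simp only [isLevelConstant₁_iff]

variable [IsDiscrete (localLevel r) B]

/-- The frozen `continuousH2 r B` is `H²` of the level complex of the local level structure. -/
def h2Equiv : continuousH2 r B ≃ₗ[k] levelCohomology (localLevel r) B 2 :=
  (Submodule.Quotient.equiv _ _ (LinearEquiv.ofEq _ _ (levelCocycles₂_eq r B)) (by
    ext z
    simp only [Submodule.mem_map, Submodule.mem_comap, Submodule.subtype_apply]
    constructor
    · rintro ⟨y, hy, rfl⟩
      rw [← levelCoboundaries₂_eq]
      exact hy
    · intro hz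
      refine ⟨(LinearEquiv.ofEq _ _ (levelCocycles₂_eq r B)).symm z, ?_, ?_⟩
      · rw [levelCoboundaries₂_eq]
        exact hz
      · exact LinearEquiv.apply_symm_apply _ z)).trans (levelH2Equiv (localLevel r) B)

lemma h2Equiv_mk (z : groupCohomology.levelCocycles₂ r B) :
    h2Equiv r B (Submodule.Quotient.mk z) =
      levelH2π (localLevel r) B ⟨z.1, (levelCocycles₂_eq r B) ▸ z.2⟩ := rfl

end LocalH2

section LocRes

variable (S : Finset Nat.Primes) {k : Type} [CommRing k] (M : Rep k Γ)
  {H : Type} [Group H] (r : H →* Γ)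
  [IsDiscrete (globalLevel S) M] [IsDiscrete (localLevel r) (Rep.res r M)]

/-- The level restriction map along `r : H →* Gal(Q̄/ℚ)`. -/
def levelRes (n : ℕ) :
    levelCohomology (globalLevel S) M n →ₗ[k] levelCohomology (localLevel r) (Rep.res r M) n :=
  (levelCohomologyMap r (localLevel_refines r S) (𝟙 (Rep.res r M)) n).hom

/-- The frozen localisation map `locRes₂S` is the level restriction map. -/
theorem h2Equiv_locRes₂S (x : continuousH2S S M) :
    h2Equiv r (Rep.res r M) (locRes₂S S M r x) = levelRes S M r 2 (h2SEquiv S M x) := by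
  obtain ⟨z, rfl⟩ := Submodule.Quotient.mk_surjective _ x
  rw [h2SEquiv_mk]
  show h2Equiv r (Rep.res r M) (Submodule.Quotient.mk _) = _
  rw [h2Equiv_mk]
  symm
  exact levelCohomologyMap_levelπ r (localLevel_refines r S) (𝟙 (Rep.res r M)) 2 _ _
    (fun g => rfl)

end LocRes

section GlobalH1

variable (S : Finset Nat.Primes) {k : Type} [CommRing k] (A : Rep k Γ)
  [IsDiscrete (globalLevel S) A]

/-- The frozen `H¹(G_S, A)` is the image of `H¹` of the level complex. -/
theorem range_toGroupCohomology_one :
    LinearMap.range (levelCohomologyToGroupCohomology (globalLevel S) A 1).hom =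
      continuousH1S S A := by
  ext x
  rw [mem_range_toGroupCohomology_one_iff, mem_continuousH1S_iff]
  simp only [isLevelConstantS₁_iff]

/-- The frozen `H¹(G_S, A)` is `H¹` of the level complex of the global level structure. -/
def h1SEquiv : continuousH1S S A ≃ₗ[k] levelCohomology (globalLevel S) A 1 :=
  ((LinearEquiv.ofInjective _ (toGroupCohomology_one_injective (globalLevel S) A)).trans
    (LinearEquiv.ofEq _ _ (range_toGroupCohomology_one S A))).symm

lemma toGroupCohomology_h1SEquiv (x : continuousH1S S A) :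
    (levelCohomologyToGroupCohomology (globalLevel S) A 1).hom (h1SEquiv S A x) = x.1 := by
  have h := (h1SEquiv S A).symm_apply_apply x
  conv_rhs => rw [← h]
  rfl

lemma h1SEquiv_symm_apply (y : levelCohomology (globalLevel S) A 1) :
    (((h1SEquiv S A).symm y : continuousH1S S A) : H1 A) =
      (levelCohomologyToGroupCohomology (globalLevel S) A 1).hom y := rfl

variable {H : Type} [Group H] (r : H →* Γ) [IsDiscrete (localLevel r) (Rep.res r A)]

/-- Naturality of the comparison with abstract cohomology for the level restriction map. -/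
theorem toGroupCohomology_levelRes (n : ℕ) (y : levelCohomology (globalLevel S) A n) :
    (levelCohomologyToGroupCohomology (localLevel r) (Rep.res r A) n).hom (levelRes S A r n y) =
      (groupCohomology.map r (𝟙 (Rep.res r A)) n).hom
        ((levelCohomologyToGroupCohomology (globalLevel S) A n).hom y) :=
  congrArg (fun φ => ModuleCat.Hom.hom φ y)
    (levelCohomologyMap_comp_toGroupCohomology r (localLevel_refines r S) (𝟙 (Rep.res r A)) n)

/-- In degree one, local triviality can be tested in level cohomology. -/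
theorem levelRes_one_eq_zero_iff (y : levelCohomology (globalLevel S) A 1) :
    levelRes S A r 1 y = 0 ↔
      (groupCohomology.map r (𝟙 (Rep.res r A)) 1).hom
        ((levelCohomologyToGroupCohomology (globalLevel S) A 1).hom y) = 0 := by
  rw [← toGroupCohomology_levelRes]
  constructor
  · intro h
    rw [h, map_zero]
  · intro h
    apply toGroupCohomology_one_injective (localLevel r) (Rep.res r A)
    rw [h, map_zero]

end GlobalH1

section Sha

variable (S : Finset Nat.Primes) {k : Type} [CommRing k] (M : Rep k Γ)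
  [IsDiscrete (globalLevel S) M]
  [∀ q : ↥S, IsDiscrete (localLevel (primeLocalToGlobal q.1)) (Rep.res (primeLocalToGlobal q.1) M)]

/-- The total localisation map of level cohomology at the primes of `S` (real place omitted). -/
def bLoc (n : ℕ) : levelCohomology (globalLevel S) M n →ₗ[k]
    ∀ q : ↥S, levelCohomology (localLevel (primeLocalToGlobal q.1))
      (Rep.res (primeLocalToGlobal q.1) M) n :=
  LinearMap.pi fun q => levelRes S M (primeLocalToGlobal q.1) n

@[simp]
lemma bLoc_apply (n : ℕ) (y : levelCohomology (globalLevel S) M n) (q : ↥S) :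
    bLoc S M n y q = levelRes S M (primeLocalToGlobal q.1) n y := rfl

lemma mem_ker_bLoc_iff (n : ℕ) (y : levelCohomology (globalLevel S) M n) :
    y ∈ LinearMap.ker (bLoc S M n) ↔ ∀ q : ↥S, levelRes S M (primeLocalToGlobal q.1) n y = 0 := by
  rw [LinearMap.mem_ker]
  constructor
  · intro h q
    exact congrFun h q
  · intro h
    funext q
    exact h q

end Sha

section ShaOdd

variable {p : ℕ} [Fact p.Prime] (hp2 : p ≠ 2) (S : Finset Nat.Primes) (M : Rep (ZMod p) Γ)
  [IsDiscrete (globalLevel S) M]
  [∀ q : ↥S, IsDiscrete (localLevel (primeLocalToGlobal q.1)) (Rep.res (primeLocalToGlobal q.1) M)]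

include hp2

theorem map_sha₂_eq :
    (sha₂ S M).map (h2SEquiv S M : continuousH2S S M →ₗ[ZMod p] _) =
      LinearMap.ker (bLoc S M 2) := by
  ext y
  rw [mem_ker_bLoc_iff]
  constructor
  · rintro ⟨x, hx, rfl⟩ q
    have h1 := (Decode.mem_sha₂_iff S hp2 M x).1 hx q
    have h2 := h2Equiv_locRes₂S S M (primeLocalToGlobal q.1) x
    rw [h1, map_zero] at h2
    exact h2.symm
  · intro h
    refine ⟨(h2SEquiv S M).symm y, ?_, (h2SEquiv S M).apply_symm_apply y⟩
    rw [SetLike.mem_coe, Decode.mem_sha₂_iff S hp2]
    intro q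
    apply (h2Equiv (primeLocalToGlobal q.1) (Rep.res (primeLocalToGlobal q.1) M)).injective
    rw [h2Equiv_locRes₂S, (h2SEquiv S M).apply_symm_apply, map_zero]
    exact h q

/-- **SM2, degree 2**: the frozen `Ш²` is the kernel of the level localisation map. -/
def e₂ : sha₂ S M ≃ₗ[ZMod p] LinearMap.ker (bLoc S M 2) :=
  LinearEquiv.ofSubmodules (h2SEquiv S M) _ _ (map_sha₂_eq hp2 S M)

theorem map_ker_bLoc_one_eq :
    (LinearMap.ker (bLoc S M 1)).map (levelCohomologyToGroupCohomology (globalLevel S) M 1).hom =
      sha₁ S M := by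
  ext x
  rw [Decode.mem_sha₁_iff S hp2, ← range_toGroupCohomology_one]
  constructor
  · rintro ⟨y, hy, rfl⟩
    refine ⟨⟨y, rfl⟩, fun q => ?_⟩
    exact (levelRes_one_eq_zero_iff S M (primeLocalToGlobal q.1) y).1
      ((mem_ker_bLoc_iff S M 1 y).1 hy q)
  · rintro ⟨⟨y, rfl⟩, h⟩
    refine ⟨y, ?_, rfl⟩
    rw [SetLike.mem_coe, mem_ker_bLoc_iff]
    intro q
    exact (levelRes_one_eq_zero_iff S M (primeLocalToGlobal q.1) y).2 (h q)

/-- **SM2, degree 1**: the frozen `Ш¹` is the kernel of the level localisation map. -/
def e₁ : sha₁ S M ≃ₗ[ZMod p] LinearMap.ker (bLoc S M 1) :=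
  ((Submodule.equivMapOfInjective _ (toGroupCohomology_one_injective (globalLevel S) M)
    (LinearMap.ker (bLoc S M 1))).trans (LinearEquiv.ofEq _ _ (map_ker_bLoc_one_eq hp2 S M))).symm

lemma e₁_symm_apply (y : LinearMap.ker (bLoc S M 1)) :
    (((e₁ hp2 S M).symm y : sha₁ S M) : H1 M) =
      (levelCohomologyToGroupCohomology (globalLevel S) M 1).hom y.1 := rfl

lemma e₂_apply (x : sha₂ S M) :
    ((e₂ hp2 S M x : LinearMap.ker (bLoc S M 2)) : levelCohomology (globalLevel S) M 2) =
      h2SEquiv S M x.1 := rfl

end ShaOdd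

end

end Fermat.Agent.S55.Bridge
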