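/-
S55: finiteness of level `H¹` by dévissage to characters of a trivialising level subgroup
(the input `hfin` of `Skeleton.result_of_cone_data`).

If `A` is a finite discrete `G`-module on which a member `U` of the level structure acts trivially,
and `U` has only finitely many characters of finite level with values in `A` (e.g. `A` a finite
`𝔽_p`-vector space and finitely many finite-level characters `U → ℤ/p`: Kummer theory / class field
theory), then `levelCohomology 𝒰 A 1` is finite.
-/
import Fermat.Agent.S55.LevelH1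

set_option autoImplicit false

open CategoryTheory groupCohomology

namespace Fermat.Agent.S55.Level

universe u

section Chars

variable {G : Type u} [Group G]

/-- The characters of the subgroup `U` with values in the additive group `X` which are trivial on
`U ∩ V` for some member `V` of the level structure. -/
def levelChars (𝒰 : LevelStructure G) (U : Subgroup G) (X : Type*) [AddGroup X] :
    Set (U →* Multiplicative X) :=
  {χ | ∃ V ∈ 𝒰.sets, ∀ v : U, (v : G) ∈ V → χ v = 1}

/-- Finitely many `ℤ/p`-valued level characters implies finitely many level characters with values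
in any finite `𝔽_p`-vector space. -/
theorem finite_levelChars_of_zmod (𝒰 : LevelStructure G) (U : Subgroup G) {p : ℕ} [Fact p.Prime]
    (X : Type*) [AddCommGroup X] [Module (ZMod p) X] [Finite X]
    (h : (levelChars 𝒰 U (ZMod p)).Finite) : (levelChars 𝒰 U X).Finite := by
  classical
  have : Module.Finite (ZMod p) X := Module.Finite.of_finite
  let b := Module.finBasis (ZMod p) X
  have hfin : Finite (Fin (Module.finrank (ZMod p) X) → ↥(levelChars 𝒰 U (ZMod p))) := by
    have := h.to_subtype
    infer_instance
  let coordHom : Fin (Module.finrank (ZMod p) X) → (Multiplicative X →* Multiplicative (ZMod p)) :=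
    fun i => AddMonoidHom.toMultiplicative (b.coord i).toAddMonoidHom
  let Φ : ↥(levelChars 𝒰 U X) →
      (Fin (Module.finrank (ZMod p) X) → ↥(levelChars 𝒰 U (ZMod p))) :=
    fun χ i => ⟨(coordHom i).comp χ.1, by
      obtain ⟨V, hV, hχ⟩ := χ.2
      refine ⟨V, hV, fun v hv => ?_⟩
      rw [MonoidHom.comp_apply, hχ v hv, map_one]⟩
  have hΦ : Function.Injective Φ := by
    intro χ χ' hχ
    apply Subtype.ext
    apply MonoidHom.ext
    intro u
    apply Multiplicative.toAdd.injective
    apply b.ext_elem
    intro i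
    have h1 := congrArg (fun f => (f i).1 u) hχ
    simp only [Φ, MonoidHom.comp_apply] at h1
    exact congrArg Multiplicative.toAdd h1
  have := hfin
  have h2 : Finite ↥(levelChars 𝒰 U X) := Finite.of_injective Φ hΦ
  exact Set.toFinite _

end Chars

section Cocycles

variable {k G : Type u} [CommRing k] [Group G] (𝒰 : LevelStructure G) (A : Rep.{u} k G)

/-- The restriction to `U` of a level 1-cocycle of `G` with values in a module on which `U` acts
trivially, as a level character of `U`. -/
def cocycleChar (U : Subgroup G) (htriv : ∀ u ∈ U, ∀ a : A, A.ρ u a = a)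
    (z : levelCocycles₁ 𝒰 A) : ↥(levelChars 𝒰 U A) :=
  ⟨{ toFun := fun u => Multiplicative.ofAdd (z.1 (u : G))
     map_one' := by
       have h := (mem_cocycles₁_iff z.1).1 z.2.1 1 1
       rw [mul_one, map_one, Module.End.one_apply] at h
       have h0 : z.1 1 = 0 := by
         have := congrArg (fun x => x - z.1 1) h
         simpa using this.symm
       show Multiplicative.ofAdd (z.1 ((1 : U) : G)) = 1
       rw [Subgroup.coe_one, h0]
       rfl
     map_mul' := fun u v => by
       have h := (mem_cocycles₁_iff z.1).1 z.2.1 u v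
       rw [htriv u u.2] at h
       show Multiplicative.ofAdd (z.1 ((u * v : U) : G)) =
         Multiplicative.ofAdd (z.1 u) * Multiplicative.ofAdd (z.1 v)
       rw [Subgroup.coe_mul, h, add_comm]
       rfl }, by
    obtain ⟨V, hV, hz⟩ := (mem_levelCochains₁_iff 𝒰 A z.1).1 z.2.2
    refine ⟨V, hV, fun v hv => ?_⟩
    have h1 := hz 1 v hv
    rw [one_mul] at h1
    have h := (mem_cocycles₁_iff z.1).1 z.2.1 1 1
    rw [mul_one, map_one, Module.End.one_apply] at h
    have h0 : z.1 1 = 0 := by
      have := congrArg (fun x => x - z.1 1) h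
      simpa using this.symm
    show Multiplicative.ofAdd (z.1 (v : G)) = 1
    rw [h1, h0]
    rfl⟩

lemma cocycleChar_apply (U : Subgroup G) (htriv : ∀ u ∈ U, ∀ a : A, A.ρ u a = a)
    (z : levelCocycles₁ 𝒰 A) (u : U) :
    Multiplicative.toAdd ((cocycleChar 𝒰 A U htriv z).1 u) = z.1 (u : G) := rfl

/-- **Finiteness of level 1-cocycles**: if a member `U` of finite index acts trivially on the
finite module `A` and has finitely many `A`-valued level characters, then there are finitely many
level 1-cocycles of `G` with values in `A`. -/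
theorem finite_levelCocycles₁ [Finite A] (U : Subgroup G) [U.FiniteIndex]
    (htriv : ∀ u ∈ U, ∀ a : A, A.ρ u a = a) (hfin : (levelChars 𝒰 U A).Finite) :
    Finite (levelCocycles₁ 𝒰 A) := by
  have := hfin.to_subtype
  let Φ : levelCocycles₁ 𝒰 A → ↥(levelChars 𝒰 U A) × (G ⧸ U → A) :=
    fun z => (cocycleChar 𝒰 A U htriv z, fun q => z.1 q.out)
  refine Finite.of_injective Φ fun z z' h => ?_
  have h1 : ∀ u : U, z.1 (u : G) = z'.1 (u : G) := fun u => by
    have := congrArg (fun x => Multiplicative.toAdd (x.1.1 u)) h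
    exact this
  have h2 : ∀ q : G ⧸ U, z.1 q.out = z'.1 q.out := fun q => congrFun (congrArg Prod.snd h) q
  apply Subtype.ext
  funext g
  obtain ⟨u, hu⟩ := QuotientGroup.mk_out_eq_mul U g
  have hg : g = (QuotientGroup.mk g : G ⧸ U).out * ((u⁻¹ : U) : G) := by
    rw [hu, Subgroup.coe_inv, mul_inv_cancel_right]
  have hz := (mem_cocycles₁_iff z.1).1 z.2.1 (QuotientGroup.mk g : G ⧸ U).out ((u⁻¹ : U) : G)
  have hz' := (mem_cocycles₁_iff z'.1).1 z'.2.1 (QuotientGroup.mk g : G ⧸ U).out ((u⁻¹ : U) : G)
  rw [← hg] at hz hz'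
  rw [hz, hz', h1, h2]

variable [IsDiscrete 𝒰 A]

/-- **Finiteness of level `H¹`** under the hypotheses of `finite_levelCocycles₁`. -/
theorem finite_levelCohomology_one [Finite A] (U : Subgroup G) [U.FiniteIndex]
    (htriv : ∀ u ∈ U, ∀ a : A, A.ρ u a = a) (hfin : (levelChars 𝒰 U A).Finite) :
    Finite (levelCohomology 𝒰 A 1) := by
  have := finite_levelCocycles₁ 𝒰 A U htriv hfin
  exact Finite.of_surjective _ (levelH1π_surjective 𝒰 A)

end Cocycles

section ZMod

variable {G : Type} [Group G] (𝒰 : LevelStructure G) {p : ℕ} [Fact p.Prime]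
  (A : Rep.{0} (ZMod p) G) [IsDiscrete 𝒰 A]

/-- **Finiteness of level `H¹` for finite `𝔽_p`-modules**: it suffices that arbitrarily small
members of the level structure have finitely many `ℤ/p`-valued level characters. -/
theorem finite_levelCohomology_one_of_zmod [Finite A]
    (h : ∀ U₀ ∈ 𝒰.sets, ∃ U ∈ 𝒰.sets, U ≤ U₀ ∧ (levelChars 𝒰 U (ZMod p)).Finite) :
    Finite (levelCohomology 𝒰 A 1) := by
  classical
  obtain ⟨U₁, hU₁, htriv⟩ : ∃ U ∈ 𝒰.sets, ∀ u ∈ U, ∀ a : A, A.ρ u a = a := by
    have := Fintype.ofFinite A
    obtain ⟨U, hU, hfix⟩ := exists_fix_finset (𝒰 := 𝒰) (A := A) (Finset.univ : Finset A)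
    exact ⟨U, hU, fun u hu a => hfix a (Finset.mem_univ a) u hu⟩
  obtain ⟨U, hU, hle, hfin⟩ := h U₁ hU₁
  have := 𝒰.finiteIndex U hU
  exact finite_levelCohomology_one 𝒰 A U (fun u hu a => htriv u (hle hu) a)
    (finite_levelChars_of_zmod 𝒰 U A hfin)

/-- Finite-dimensionality version. -/
theorem finiteDimensional_levelCohomology_one_of_zmod [Finite A]
    (h : ∀ U₀ ∈ 𝒰.sets, ∃ U ∈ 𝒰.sets, U ≤ U₀ ∧ (levelChars 𝒰 U (ZMod p)).Finite) :
    FiniteDimensional (ZMod p) (levelCohomology 𝒰 A 1) := by
  have := finite_levelCohomology_one_of_zmod 𝒰 A h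
  exact Module.Finite.of_finite

end ZMod

end Fermat.Agent.S55.Level
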