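/-
S55: the input `hfin` of `Skeleton.result_of_cone_data` — finite-dimensionality of
`ker (bLoc S M 1)` (= `Ш¹`) — reduced to: arbitrarily small members `U` of `globalLevel S`
(i.e. `U = Gal(Q̄/F)`, `F` finite Galois unramified outside `S`) have only finitely many
`ℤ/p`-valued characters of finite level (= cyclic extensions of `F` of degree `p` inside `ℚ_S`).
-/
import Fermat.Agent.S55.Bridge
import Fermat.Agent.S55.LevelFinite

set_option autoImplicit false

open CategoryTheory groupCohomology ExtCitation

namespace Fermat.Agent.S55.Bridge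

open Fermat.Agent.S55.Level

local notation "Γ" => (AlgebraicClosure ℚ ≃ₐ[ℚ] AlgebraicClosure ℚ)

variable {p : ℕ} [Fact p.Prime] (S : Finset Nat.Primes) (M : Rep (ZMod p) Γ)
  [IsDiscrete (globalLevel S) M]

/-- `H¹(G_S, M)` is finite-dimensional as soon as arbitrarily small levels of `G_S` have finitely
many `ℤ/p`-valued level characters. -/
theorem finiteDimensional_levelCohomology_one [Finite M]
    (h : ∀ U₀ ∈ (globalLevel S).sets, ∃ U ∈ (globalLevel S).sets, U ≤ U₀ ∧
      (levelChars (globalLevel S) U (ZMod p)).Finite) :
    FiniteDimensional (ZMod p) (levelCohomology (globalLevel S) M 1) :=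
  finiteDimensional_levelCohomology_one_of_zmod (globalLevel S) M h

/-- **`hfin`**: `Ш¹ = ker (bLoc S M 1)` is finite-dimensional under the same hypothesis. -/
theorem finiteDimensional_ker_bLoc_one
    [∀ q : ↥S, IsDiscrete (localLevel (primeLocalToGlobal q.1))
      (Rep.res (primeLocalToGlobal q.1) M)] [Finite M]
    (h : ∀ U₀ ∈ (globalLevel S).sets, ∃ U ∈ (globalLevel S).sets, U ≤ U₀ ∧
      (levelChars (globalLevel S) U (ZMod p)).Finite) :
    FiniteDimensional (ZMod p) (LinearMap.ker (bLoc S M 1)) := by
  have := finiteDimensional_levelCohomology_one S M h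
  infer_instance

end Fermat.Agent.S55.Bridge
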