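import Fermat.Agent.S55.LevelGalois
import Fermat.Agent.S55.GL.KummerUnram

/-!
# S55 / GLO1 part 1: complements on helper10's `globalLevel S` (the level structure of `G_S`)

Namespace `Fermat.Agent.S55.LevelGlobal` (the level structure `Level.globalLevel` itself and the
comparison with the frozen level-constancy predicates are in `LevelGalois.lean`).

* `mem_globalLevel_of_inertia_le`: a normal subgroup containing some `Gal(ℚ̄/F)`, `F/ℚ` finite, and
  all inertia groups at the primes outside `S` is a member of `globalLevel S`.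
* `exists_eq_fixingSubgroup`: every member of `globalLevel S` is `Gal(ℚ̄/F)` for a finite NORMAL
  `F/ℚ` unramified outside `S`.
* `ker_mem_globalLevel`, `isDiscrete_globalLevel`: a representation on a finite module with open
  stabilisers (`hsm`) and unramified outside `S` (`hMur`) — the hypotheses of the frozen S55 —
  is discrete for `globalLevel S`;
* `ker_cycloChar_mem_globalLevel`, `isDiscrete_globalLevel_dualTwist`, `isDiscrete_of_frozen`:
  so is its twisted dual `M.dualTwist (cycloChar p)`, `p ∈ S`.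
-/

set_option autoImplicit false
set_option linter.style.haveILetI false

open CategoryTheory IntermediateField groupCohomology ExtCitation
open Fermat.Agent.S55.Level

namespace Fermat.Agent.S55.LevelGlobal

local notation "Qbar" => AlgebraicClosure ℚ
local notation "Γ" => (AlgebraicClosure ℚ ≃ₐ[ℚ] AlgebraicClosure ℚ)

local instance isAlgebraicQbar_S55LG : Algebra.IsAlgebraic ℚ (AlgebraicClosure ℚ) :=
  AlgebraicClosure.isAlgebraic ℚ
local instance isAlgClosureQbar_S55LG : IsAlgClosure ℚ (AlgebraicClosure ℚ) :=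
  ⟨inferInstance, AlgebraicClosure.isAlgebraic ℚ⟩
local instance normalQbar_S55LG : Normal ℚ (AlgebraicClosure ℚ) :=
  IsAlgClosure.normal ℚ (AlgebraicClosure ℚ)

section Fields

theorem normal_bot_Qbar : Normal ℚ (⊥ : IntermediateField ℚ Qbar) :=
  (inferInstance :
    @Normal ℚ (⊥ : IntermediateField ℚ Qbar) _ _ (⊥ : IntermediateField ℚ Qbar).algebra')

theorem normal_sup_Qbar {F F' : IntermediateField ℚ Qbar} (h : Normal ℚ F) (h' : Normal ℚ F') :
    Normal ℚ (F ⊔ F' : IntermediateField ℚ Qbar) := by
  have h1 : @Normal ℚ F _ _ F.algebra' := h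
  have h2 : @Normal ℚ F' _ _ F'.algebra' := h'
  exact (inferInstance : @Normal ℚ (F ⊔ F' : IntermediateField ℚ Qbar) _ _ (F ⊔ F').algebra')

theorem normal_fixingSubgroup {F : IntermediateField ℚ Qbar} (h : Normal ℚ F) :
    F.fixingSubgroup.Normal := by
  have h1 : @Normal ℚ F _ _ F.algebra' := h
  have : @IsGalois ℚ _ F _ F.algebra' := ⟨⟩
  exact inferInstance

theorem normal_fixedField {N : Subgroup Γ} (hN : N.Normal) :
    Normal ℚ (IntermediateField.fixedField N) := by
  have h : @IsGalois ℚ _ (IntermediateField.fixedField N) _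
      (IntermediateField.fixedField N).algebra' := IsGalois.of_fixedField_normal_subgroup N
  exact h.to_normal

/-- Galois correspondence for subgroups containing an open subgroup. -/
theorem fixingSubgroup_fixedField_of_le {N : Subgroup Γ} {F : IntermediateField ℚ Qbar}
    (hF : FiniteDimensional ℚ F) (hle : F.fixingSubgroup ≤ N) :
    (IntermediateField.fixedField N).fixingSubgroup = N := by
  have hopen : IsOpen (N : Set Γ) := Subgroup.isOpen_mono hle F.fixingSubgroup_isOpen
  have hclosed : IsClosed (N : Set Γ) := Subgroup.isClosed_of_isOpen N hopen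
  exact InfiniteGalois.fixingSubgroup_fixedField (⟨N, hclosed⟩ : ClosedSubgroup Γ)

theorem fixedField_le_of_le {N : Subgroup Γ} {F : IntermediateField ℚ Qbar}
    (hle : F.fixingSubgroup ≤ N) : IntermediateField.fixedField N ≤ F := by
  have h := IntermediateField.fixedField_antitone hle
  rwa [InfiniteGalois.fixedField_fixingSubgroup] at h

end Fields

section GlobalLevel

variable {S : Finset Nat.Primes}

theorem fixingSubgroup_mem_globalLevel {F : IntermediateField ℚ Qbar}
    (hF : F.IsUnramifiedOutside S) (hn : Normal ℚ F) : F.fixingSubgroup ∈ (globalLevel S).sets :=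
  ⟨normal_fixingSubgroup hn, F, hF, le_rfl⟩

/-- the fixed field of a normal subgroup containing `Gal(ℚ̄/F)`, `F` finite, all of whose
inertia groups at the primes outside `S` lie in it, is unramified outside `S`. -/
theorem isUnramifiedOutside_fixedField {N : Subgroup Γ}
    (hopen : ∃ F : IntermediateField ℚ Qbar, FiniteDimensional ℚ F ∧ F.fixingSubgroup ≤ N)
    (hunr : ∀ q : Nat.Primes, q ∉ S → ∀ A : ValuationSubring Qbar, A.LiesOverPrime (q : ℕ) →
      A.inertiaSubgroupIn ℚ ≤ N) : (IntermediateField.fixedField N).IsUnramifiedOutside S := by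
  obtain ⟨F, hF, hle⟩ := hopen
  have hfix := fixingSubgroup_fixedField_of_le hF hle
  refine ⟨?_, ?_⟩
  · have hle' := fixedField_le_of_le hle
    exact FiniteDimensional.of_injective (IntermediateField.inclusion hle').toLinearMap
      (IntermediateField.inclusion_injective hle')
  · intro q hq A hA
    rw [hfix]
    exact hunr q hq A hA

/-- **Membership criterion**: a normal subgroup which contains `Gal(ℚ̄/F)` for some finite `F` and
all inertia groups at primes outside `S` belongs to `globalLevel S`. -/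
theorem mem_globalLevel_of_inertia_le {N : Subgroup Γ} (hN : N.Normal)
    (hopen : ∃ F : IntermediateField ℚ Qbar, FiniteDimensional ℚ F ∧ F.fixingSubgroup ≤ N)
    (hunr : ∀ q : Nat.Primes, q ∉ S → ∀ A : ValuationSubring Qbar, A.LiesOverPrime (q : ℕ) →
      A.inertiaSubgroupIn ℚ ≤ N) : N ∈ (globalLevel S).sets := by
  refine ⟨hN, IntermediateField.fixedField N, isUnramifiedOutside_fixedField hopen hunr, ?_⟩
  obtain ⟨F, hF, hle⟩ := hopen
  exact (fixingSubgroup_fixedField_of_le hF hle).le

/-- **Every member of `globalLevel S` is `Gal(ℚ̄/F)` for a finite normal `F/ℚ` unramified outside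
`S`** (the arithmetic description of the levels of `G_S`). -/
theorem exists_eq_fixingSubgroup {U : Subgroup Γ} (hU : U ∈ (globalLevel S).sets) :
    ∃ F : IntermediateField ℚ Qbar, F.IsUnramifiedOutside S ∧ Normal ℚ F ∧
      F.fixingSubgroup = U := by
  obtain ⟨hUn, F, hF, hle⟩ := hU
  have hfix := fixingSubgroup_fixedField_of_le hF.1 hle
  refine ⟨IntermediateField.fixedField U, ?_, normal_fixedField hUn, hfix⟩
  exact hF.of_le (fixedField_le_of_le hle)

theorem mem_globalLevel_iff_exists_normal {U : Subgroup Γ} :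
    U ∈ (globalLevel S).sets ↔ ∃ F : IntermediateField ℚ Qbar, F.IsUnramifiedOutside S ∧
      Normal ℚ F ∧ F.fixingSubgroup = U :=
  ⟨exists_eq_fixingSubgroup, by
    rintro ⟨F, hF, hn, rfl⟩
    exact fixingSubgroup_mem_globalLevel hF hn⟩

end GlobalLevel

section Discrete

variable {S : Finset Nat.Primes} {k : Type} [CommRing k]

/-- the kernel of a representation with finite underlying type and open stabilisers contains
`Gal(ℚ̄/F)` for a finite `F`. -/
theorem exists_fixingSubgroup_le_ker (M : Rep k Γ) [Finite M]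
    (hsm : ∀ m : M, ∃ F : IntermediateField ℚ Qbar, FiniteDimensional ℚ F ∧
      ∀ s ∈ F.fixingSubgroup, M.ρ s m = m) :
    ∃ F : IntermediateField ℚ Qbar, FiniteDimensional ℚ F ∧ F.fixingSubgroup ≤ M.ρ.ker := by
  classical
  choose F hFfin hF using hsm
  haveI := Fintype.ofFinite M
  haveI : ∀ m, FiniteDimensional ℚ (F m) := hFfin
  refine ⟨⨆ m, F m, IntermediateField.finiteDimensional_iSup_of_finite, fun s hs => ?_⟩
  rw [MonoidHom.mem_ker]
  refine LinearMap.ext fun m => ?_
  exact hF m s (IntermediateField.fixingSubgroup_antitone (le_iSup F m) hs)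

/-- **Discreteness from the frozen hypotheses**: a representation on a finite module with open
stabilisers, unramified outside `S`, is discrete for `globalLevel S`; in fact its kernel is a
member of the family. -/
theorem ker_mem_globalLevel (M : Rep k Γ) [Finite M]
    (hsm : ∀ m : M, ∃ F : IntermediateField ℚ Qbar, FiniteDimensional ℚ F ∧
      ∀ s ∈ F.fixingSubgroup, M.ρ s m = m)
    (hMur : ∀ q : Nat.Primes, q ∉ S → ∀ A : ValuationSubring Qbar,
      A.LiesOverPrime (q : ℕ) → ∀ g ∈ A.inertiaSubgroupIn ℚ, M.ρ g = 1) :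
    M.ρ.ker ∈ (globalLevel S).sets :=
  mem_globalLevel_of_inertia_le (MonoidHom.normal_ker _) (exists_fixingSubgroup_le_ker M hsm)
    fun q hq A hA g hg => MonoidHom.mem_ker.mpr (hMur q hq A hA g hg)

theorem isDiscrete_globalLevel (M : Rep k Γ) [Finite M]
    (hsm : ∀ m : M, ∃ F : IntermediateField ℚ Qbar, FiniteDimensional ℚ F ∧
      ∀ s ∈ F.fixingSubgroup, M.ρ s m = m)
    (hMur : ∀ q : Nat.Primes, q ∉ S → ∀ A : ValuationSubring Qbar,
      A.LiesOverPrime (q : ℕ) → ∀ g ∈ A.inertiaSubgroupIn ℚ, M.ρ g = 1) :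
    IsDiscrete (globalLevel S) M :=
  ⟨fun a => ⟨_, ker_mem_globalLevel M hsm hMur, fun u hu => by
    rw [MonoidHom.mem_ker.mp hu]; rfl⟩⟩

end Discrete

section Cyclo

variable {S : Finset Nat.Primes} (p : ℕ) [hp : Fact p.Prime]

/-- an automorphism fixing all `p`-th roots of unity has trivial mod-`p` cyclotomic character. -/
theorem cycloChar_eq_one_of_fix {σ : Γ} (h : ∀ ζ : Qbar, ζ ^ p = 1 → σ ζ = ζ) :
    cycloChar p σ = 1 := by
  haveI : NeZero p := ⟨hp.out.ne_zero⟩
  haveI : Fact (1 < p) := ⟨hp.out.one_lt⟩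
  have h1 := modularCyclotomicCharacter.unique Qbar (card_rootsOfUnity_eq_self p)
    (σ : Qbar ≃+* Qbar) (c := 1) (by
      intro t ht
      rw [ZMod.val_one, pow_one]
      have ht' : (t : Qbar) ^ p = 1 := by
        have := (mem_rootsOfUnity p t).mp ht
        rw [← Units.val_pow_eq_pow_val, this, Units.val_one]
      exact h t ht')
  apply Units.ext
  exact h1.symm

/-- the field generated by the `p`-th roots of unity. -/
noncomputable def cycloField : IntermediateField ℚ Qbar :=
  IntermediateField.adjoin ℚ {ζ : Qbar | ζ ^ p = 1}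

theorem finiteDimensional_cycloField : FiniteDimensional ℚ (cycloField p) := by
  have hfin : {ζ : Qbar | ζ ^ p = 1}.Finite := by
    have : {ζ : Qbar | ζ ^ p = 1} = ↑(Polynomial.nthRootsFinset p (1 : Qbar)) := by
      ext x
      simp [Polynomial.mem_nthRootsFinset hp.out.pos]
    rw [this]
    exact Finset.finite_toSet _
  haveI : Finite ↑{ζ : Qbar | ζ ^ p = 1} := hfin
  exact IntermediateField.finiteDimensional_adjoin fun x _ => GL.KummerUnram.isIntegral_Qbar x

theorem fixingSubgroup_cycloField_le_ker : (cycloField p).fixingSubgroup ≤ (cycloChar p).ker := by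
  intro σ hσ
  rw [MonoidHom.mem_ker]
  refine cycloChar_eq_one_of_fix p fun ζ hζ => ?_
  exact (IntermediateField.mem_fixingSubgroup_iff _ _).mp hσ ζ
    (IntermediateField.subset_adjoin ℚ _ hζ)

/-- inertia at a place of residue characteristic `≠ p` lies in the kernel of the mod-`p`
cyclotomic character. -/
theorem inertia_le_ker_cycloChar {A : ValuationSubring Qbar} (hpA : (p : Qbar) ∉ A.nonunits) :
    A.inertiaSubgroupIn ℚ ≤ (cycloChar p).ker := by
  intro σ hσ
  rw [MonoidHom.mem_ker]
  refine cycloChar_eq_one_of_fix p fun ζ hζ => ?_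
  have hv : A.valuation ζ = 1 :=
    GL.KummerUnram.valuation_eq_one_of_valuation_pow_eq_one A hp.out.ne_zero (by rw [hζ]; simp)
  refine GL.KummerUnram.apply_eq_of_pow_prime_pow_eq A hpA hσ 1 hv ?_
  rw [pow_one, hζ, map_one]

/-- `ker (cycloChar p) ∈ globalLevel S` when `p ∈ S`. -/
theorem ker_cycloChar_mem_globalLevel (hpS : (⟨p, hp.out⟩ : Nat.Primes) ∈ S) :
    (cycloChar p).ker ∈ (globalLevel S).sets :=
  mem_globalLevel_of_inertia_le (MonoidHom.normal_ker _)
    ⟨cycloField p, finiteDimensional_cycloField p, fixingSubgroup_cycloField_le_ker p⟩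
    fun _ hq _ hA =>
      inertia_le_ker_cycloChar p (GL.KummerUnram.natCast_not_mem_nonunits_of_mem hp.out hpS hq hA)

/-- **The twisted dual `M' = Hom(M, μ_p)` of the frozen S55 is discrete for `globalLevel S`.** -/
theorem isDiscrete_globalLevel_dualTwist (hpS : (⟨p, hp.out⟩ : Nat.Primes) ∈ S)
    (M : Rep (ZMod p) Γ) [Finite M]
    (hsm : ∀ m : M, ∃ F : IntermediateField ℚ Qbar, FiniteDimensional ℚ F ∧
      ∀ s ∈ F.fixingSubgroup, M.ρ s m = m)
    (hMur : ∀ q : Nat.Primes, q ∉ S → ∀ A : ValuationSubring Qbar,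
      A.LiesOverPrime (q : ℕ) → ∀ g ∈ A.inertiaSubgroupIn ℚ, M.ρ g = 1) :
    IsDiscrete (globalLevel S) (M.dualTwist (cycloChar p)) := by
  obtain ⟨W, hW, hle⟩ := (globalLevel S).directed _ (ker_mem_globalLevel M hsm hMur) _
    (ker_cycloChar_mem_globalLevel p hpS)
  refine ⟨fun f => ⟨W, hW, fun u hu => ?_⟩⟩
  have h2 : cycloChar p u = 1 := MonoidHom.mem_ker.mp (hle hu).2
  have h3 : M.ρ u⁻¹ = 1 := MonoidHom.mem_ker.mp ((M.ρ.ker).inv_mem (hle hu).1)
  rw [Rep.dualTwist_ρ_apply, h2, h3]
  simp only [Units.val_one, one_smul]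
  exact LinearMap.ext fun _ => rfl

/-- both discreteness statements in exactly the shape of the hypotheses of the frozen S55. -/
theorem isDiscrete_of_frozen (hpS : pPrime p ∈ S)
    (M : Rep (ZMod p) Γ) [FiniteDimensional (ZMod p) M]
    (hsm : ∀ m : M, ∃ F : IntermediateField ℚ Qbar, FiniteDimensional ℚ F ∧
      ∀ s ∈ F.fixingSubgroup, M.ρ s m = m)
    (hMur : ∀ q : Nat.Primes, q ∉ S → ∀ A : ValuationSubring Qbar,
      A.LiesOverPrime (q : ℕ) → ∀ g ∈ A.inertiaSubgroupIn ℚ, M.ρ g = 1) :
    IsDiscrete (globalLevel S) M ∧ IsDiscrete (globalLevel S) (M.dualTwist (cycloChar p)) := by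
  haveI : Finite M := Module.finite_of_finite (ZMod p)
  exact ⟨isDiscrete_globalLevel M hsm hMur, isDiscrete_globalLevel_dualTwist p hpS M hsm hMur⟩

end Cyclo

end Fermat.Agent.S55.LevelGlobal
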