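/-
S55 (Poitou–Tate), route R2: TOP-LEVEL SKELETON (interface I5).

`result_of_cone_data` derives the frozen conclusion of S55 from the abstract cone data consumed by
`EndgameR2.sha_pairing`, plus two linear equivalences identifying the frozen `sha₁`, `sha₂` with
the kernels of the localisation maps of the cone sequences.  The final file `Fermat/Agent/S55.lean`
is an instantiation of this theorem.  Who delivers what (block names as in the table `s55_tasks`):

* spaces and maps of the two cone sequences, exactness `hA1 hA2 hB1 hB2`, boundary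
  compatibilities `hc1 hc2`                                    : ALG3 (cone + pairing)
  with `A := M.dualTwist (cycloChar p)` (= `M' = Hom(M, μ_p)`, BR5) and `B := M`:
    `P0A = ⊕_{q ∈ S} H⁰(ℚ_q, A)`,  `Hc1A = H¹_c(G_S, A)`, `H1A = H¹(G_S, A)`, `P1A = ⊕_q H¹(ℚ_q, A)`,
    `P1B = ⊕_{q ∈ S} H¹(ℚ_q, M)`,  `Hc2B = H²_c(G_S, M)`, `H2B = H²(G_S, M)`, `P2B = ⊕_q H²(ℚ_q, M)`
  (level cohomology of `Fermat.Agent.S55.Level`, full local groups `Gal(PadicAlgCl q / ℚ_q)`, real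
  place omitted: `Decode.mem_sha₁_iff`, `Decode.mem_sha₂_iff`);
* `e₁ : sha₁ ≃ ker β¹_A`, `e₂ : sha₂ ≃ ker β²_B`                : SM2 / BR1–BR3 (bridge);
* `hΦ1 hΦ2` (global duality maps injective)                     : MAIN (ALG8 + ALG4 + GLO14);
* `hι0 hι1` (local duality maps surjective; by `EndgameR2.surjective_of_nondegenerate` it suffices
  that `H²(ℚ_q, M) → H⁰(ℚ_q, A)^*` and `H¹(ℚ_q, A) → H¹(ℚ_q, M)^*` are injective)  : LOC8;
* `hfin` (finiteness of `Ш¹`, e.g. from finiteness of `H¹(G_S, A)`: Kummer theory, GLO12 (K1)).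
-/
import Fermat.Prelude.Def_GroupCohomology_ContinuousUnramified
import Fermat.Agent.S55.EndgameR2

set_option autoImplicit false

open CategoryTheory Module groupCohomology ExtCitation

namespace Fermat.Agent.S55.Skeleton

/-- Transport of a two-sided nondegenerate pairing along linear equivalences. -/
theorem exists_pairing_of_equiv {k : Type*} [Field k] {V W V' W' : Type*}
    [AddCommGroup V] [Module k V] [AddCommGroup W] [Module k W]
    [AddCommGroup V'] [Module k V'] [AddCommGroup W'] [Module k W']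
    (eV : V ≃ₗ[k] V') (eW : W ≃ₗ[k] W')
    (h : ∃ B : V' →ₗ[k] W' →ₗ[k] k,
      (∀ y, (∀ x, B y x = 0) → y = 0) ∧ (∀ x, (∀ y, B y x = 0) → x = 0)) :
    ∃ B : V →ₗ[k] W →ₗ[k] k,
      (∀ y, (∀ x, B y x = 0) → y = 0) ∧ (∀ x, (∀ y, B y x = 0) → x = 0) := by
  obtain ⟨B, hl, hr⟩ := h
  refine ⟨B.compl₁₂ eV.toLinearMap eW.toLinearMap, fun y hy => ?_, fun x hx => ?_⟩
  · apply eV.injective
    rw [map_zero]
    apply hl
    intro x'
    have := hy (eW.symm x')
    simpa using this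
  · apply eW.injective
    rw [map_zero]
    apply hr
    intro y'
    have := hx (eV.symm y')
    simpa using this

/-- **S55 from the cone data** (route R2).  All spaces live in `Type` (everything in the frozen
statement does). -/
theorem result_of_cone_data
    {p : ℕ} [Fact p.Prime] (S : Finset Nat.Primes)
    (M : Rep (ZMod p) (AlgebraicClosure ℚ ≃ₐ[ℚ] AlgebraicClosure ℚ))
    {P0A Hc1A H1A P1A P1B Hc2B H2B P2B : Type}
    [AddCommGroup P0A] [Module (ZMod p) P0A] [AddCommGroup Hc1A] [Module (ZMod p) Hc1A]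
    [AddCommGroup H1A] [Module (ZMod p) H1A] [AddCommGroup P1A] [Module (ZMod p) P1A]
    [AddCommGroup P1B] [Module (ZMod p) P1B] [AddCommGroup Hc2B] [Module (ZMod p) Hc2B]
    [AddCommGroup H2B] [Module (ZMod p) H2B] [AddCommGroup P2B] [Module (ZMod p) P2B]
    (d0A : P0A →ₗ[ZMod p] Hc1A) (j1A : Hc1A →ₗ[ZMod p] H1A) (b1A : H1A →ₗ[ZMod p] P1A)
    (hA1 : LinearMap.ker j1A = LinearMap.range d0A) (hA2 : LinearMap.ker b1A = LinearMap.range j1A)
    (d1B : P1B →ₗ[ZMod p] Hc2B) (j2B : Hc2B →ₗ[ZMod p] H2B) (b2B : H2B →ₗ[ZMod p] P2B)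
    (hB1 : LinearMap.ker j2B = LinearMap.range d1B) (hB2 : LinearMap.ker b2B = LinearMap.range j2B)
    (Φ1 : Hc1A →ₗ[ZMod p] Dual (ZMod p) H2B) (hΦ1 : Function.Injective Φ1)
    (Φ2 : Hc2B →ₗ[ZMod p] Dual (ZMod p) H1A) (hΦ2 : Function.Injective Φ2)
    (ι0 : P0A →ₗ[ZMod p] Dual (ZMod p) P2B) (hι0 : Function.Surjective ι0)
    (ι1 : P1B →ₗ[ZMod p] Dual (ZMod p) P1A) (hι1 : Function.Surjective ι1)
    (hc1 : ∀ w y, Φ1 (d0A w) y = ι0 w (b2B y))
    (hc2 : ∀ w y, Φ2 (d1B w) y = ι1 w (b1A y))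
    (hfin : FiniteDimensional (ZMod p) (LinearMap.ker b1A))
    (e₁ : sha₁ S (M.dualTwist (cycloChar p)) ≃ₗ[ZMod p] LinearMap.ker b1A)
    (e₂ : sha₂ S M ≃ₗ[ZMod p] LinearMap.ker b2B) :
    ∃ B : sha₁ S (M.dualTwist (cycloChar p)) →ₗ[ZMod p] sha₂ S M →ₗ[ZMod p] ZMod p,
      (∀ y, (∀ x, B y x = 0) → y = 0) ∧ (∀ x, (∀ y, B y x = 0) → x = 0) := by
  obtain ⟨-, -, hB⟩ := EndgameR2.sha_pairing d0A j1A b1A hA1 hA2 d1B j2B b2B hB1 hB2
    Φ1 hΦ1 Φ2 hΦ2 ι0 hι0 ι1 hι1 hc1 hc2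
  exact exists_pairing_of_equiv e₁ e₂ hB

end Fermat.Agent.S55.Skeleton
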