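/-
S55, BR6 pre-assembly.  `Skeleton.result_of_cone_data` instantiated with everything that is on
main: the cone sequences of `ConeLevel` for the local data `(G_q → G_ℚ)_{q ∈ S}`, the bridge
equivalences `Bridge.e₁`, `Bridge.e₂`, the finiteness reduction `Bridge.finiteDimensional_ker_bLoc_one`
and the discreteness lemmas of `LevelGlobal`.  What remains as hypotheses is exactly:

* the global duality maps `Φ1 : H¹_c(M') → H²(G_S, M)^*`, `Φ2 : H²_c(M) → H¹(G_S, M')^*`, INJECTIVE
  (MAIN);
* the local duality maps `ι0 : ∏ H⁰(ℚ_q, M') → (∏ H²(ℚ_q, M))^*`, `ι1 : ∏ H¹(ℚ_q, M) → (∏ H¹(ℚ_q, M'))^*`,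
  SURJECTIVE (LOC8);
* the boundary compatibilities `hc1`, `hc2` (ALG3 (C));
* finitely many `ℤ/p`-characters of finite level on arbitrarily small levels of `G_S` (K1).
-/
import Fermat.Agent.S55.Skeleton
import Fermat.Agent.S55.BridgeFinite
import Fermat.Agent.S55.ConeLevel
import Fermat.Agent.S55.LevelGlobal

set_option autoImplicit false

open CategoryTheory Module groupCohomology ExtCitation

namespace Fermat.Agent.S55.Assembly

open Fermat.Agent.S55.Level Fermat.Agent.S55.Cone

local notation "Qbar" => AlgebraicClosure ℚ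
local notation "Γ" => (AlgebraicClosure ℚ ≃ₐ[ℚ] AlgebraicClosure ℚ)

/-- The local data of S55: the full local Galois groups `Gal(ℚ̄_q/ℚ_q)`, `q ∈ S` (the real place is
invisible for `p` odd, `Decode`). -/
noncomputable def localData (S : Finset Nat.Primes) : LocalData (globalLevel S) where
  ι := ↥S
  Gv q := primeLocalGaloisGroup q.1
  r q := primeLocalToGlobal q.1
  𝒱 q := localLevel (primeLocalToGlobal q.1)
  refines q := localLevel_refines (primeLocalToGlobal q.1) S

section

variable (S : Finset Nat.Primes) {k : Type} [CommRing k] (M : Rep k Γ)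
  [IsDiscrete (globalLevel S) M]

/-- The localisation map of `ConeLevel` for `localData S` is `Bridge.bLoc`. -/
theorem locH_eq_bLoc (n : ℕ) : locH (localData S) M n = Bridge.bLoc S M n := rfl

end

/-- **S55 from the duality data**, in the final types. -/
theorem result_of_duality {p : ℕ} [Fact p.Prime] (hp2 : p ≠ 2) (S : Finset Nat.Primes)
    (M : Rep (ZMod p) Γ) [Finite M]
    [IsDiscrete (globalLevel S) M] [IsDiscrete (globalLevel S) (M.dualTwist (cycloChar p))]
    (Φ1 : Hc (localData S) (M.dualTwist (cycloChar p)) 1 →ₗ[ZMod p]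
      Dual (ZMod p) (levelCohomology (globalLevel S) M 2))
    (hΦ1 : Function.Injective Φ1)
    (Φ2 : Hc (localData S) M 2 →ₗ[ZMod p]
      Dual (ZMod p) (levelCohomology (globalLevel S) (M.dualTwist (cycloChar p)) 1))
    (hΦ2 : Function.Injective Φ2)
    (ι0 : (∀ q : ↥S, levelCohomology (localLevel (primeLocalToGlobal q.1))
        (Rep.res (primeLocalToGlobal q.1) (M.dualTwist (cycloChar p))) 0) →ₗ[ZMod p]
      Dual (ZMod p) (∀ q : ↥S, levelCohomology (localLevel (primeLocalToGlobal q.1))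
        (Rep.res (primeLocalToGlobal q.1) M) 2))
    (hι0 : Function.Surjective ι0)
    (ι1 : (∀ q : ↥S, levelCohomology (localLevel (primeLocalToGlobal q.1))
        (Rep.res (primeLocalToGlobal q.1) M) 1) →ₗ[ZMod p]
      Dual (ZMod p) (∀ q : ↥S, levelCohomology (localLevel (primeLocalToGlobal q.1))
        (Rep.res (primeLocalToGlobal q.1) (M.dualTwist (cycloChar p))) 1))
    (hι1 : Function.Surjective ι1)
    (hc1 : ∀ w y, Φ1 (HcBd (localData S) (M.dualTwist (cycloChar p)) 0 w) y =
      ι0 w (locH (localData S) M 2 y))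
    (hc2 : ∀ w y, Φ2 (HcBd (localData S) M 1 w) y =
      ι1 w (locH (localData S) (M.dualTwist (cycloChar p)) 1 y))
    (hchars : ∀ U₀ ∈ (globalLevel S).sets, ∃ U ∈ (globalLevel S).sets, U ≤ U₀ ∧
      (levelChars (globalLevel S) U (ZMod p)).Finite) :
    ∃ B : sha₁ S (M.dualTwist (cycloChar p)) →ₗ[ZMod p] sha₂ S M →ₗ[ZMod p] ZMod p,
      (∀ y, (∀ x, B y x = 0) → y = 0) ∧ (∀ x, (∀ y, B y x = 0) → x = 0) := by
  have hfinM' : Finite (M.dualTwist (cycloChar p)) := by
    have : Module.Finite (ZMod p) M := Module.Finite.of_finite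
    have : Module.Finite (ZMod p) (M.dualTwist (cycloChar p)) :=
      inferInstanceAs (Module.Finite (ZMod p) (Module.Dual (ZMod p) M))
    exact Module.finite_of_finite (ZMod p)
  exact Skeleton.result_of_cone_data S M
    (HcBd (localData S) (M.dualTwist (cycloChar p)) 0)
    (HcToH (localData S) (M.dualTwist (cycloChar p)) 1)
    (locH (localData S) (M.dualTwist (cycloChar p)) 1)
    (ker_HcToH_eq_range_HcBd (localData S) (M.dualTwist (cycloChar p)) 0)
    (ker_locH_eq_range_HcToH (localData S) (M.dualTwist (cycloChar p)) 1)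
    (HcBd (localData S) M 1) (HcToH (localData S) M 2) (locH (localData S) M 2)
    (ker_HcToH_eq_range_HcBd (localData S) M 1)
    (ker_locH_eq_range_HcToH (localData S) M 2)
    Φ1 hΦ1 Φ2 hΦ2 ι0 hι0 ι1 hι1 hc1 hc2
    (Bridge.finiteDimensional_ker_bLoc_one S (M.dualTwist (cycloChar p)) hchars)
    (Bridge.e₁ hp2 S (M.dualTwist (cycloChar p)))
    (Bridge.e₂ hp2 S M)

/-- The duality data still to be delivered (MAIN, LOC8, ALG3 (C), K1), bundled. -/
structure DualityData {p : ℕ} [Fact p.Prime] (S : Finset Nat.Primes) (M : Rep (ZMod p) Γ)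
    [IsDiscrete (globalLevel S) M] [IsDiscrete (globalLevel S) (M.dualTwist (cycloChar p))] where
  /-- global duality map in degree 1 -/
  Φ1 : Hc (localData S) (M.dualTwist (cycloChar p)) 1 →ₗ[ZMod p]
      Dual (ZMod p) (levelCohomology (globalLevel S) M 2)
  hΦ1 : Function.Injective Φ1
  /-- global duality map in degree 2 -/
  Φ2 : Hc (localData S) M 2 →ₗ[ZMod p]
      Dual (ZMod p) (levelCohomology (globalLevel S) (M.dualTwist (cycloChar p)) 1)
  hΦ2 : Function.Injective Φ2
  /-- local duality map in degrees (0, 2) -/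
  ι0 : (∀ q : ↥S, levelCohomology (localLevel (primeLocalToGlobal q.1))
        (Rep.res (primeLocalToGlobal q.1) (M.dualTwist (cycloChar p))) 0) →ₗ[ZMod p]
      Dual (ZMod p) (∀ q : ↥S, levelCohomology (localLevel (primeLocalToGlobal q.1))
        (Rep.res (primeLocalToGlobal q.1) M) 2)
  hι0 : Function.Surjective ι0
  /-- local duality map in degrees (1, 1) -/
  ι1 : (∀ q : ↥S, levelCohomology (localLevel (primeLocalToGlobal q.1))
        (Rep.res (primeLocalToGlobal q.1) M) 1) →ₗ[ZMod p]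
      Dual (ZMod p) (∀ q : ↥S, levelCohomology (localLevel (primeLocalToGlobal q.1))
        (Rep.res (primeLocalToGlobal q.1) (M.dualTwist (cycloChar p))) 1)
  hι1 : Function.Surjective ι1
  hc1 : ∀ w y, Φ1 (HcBd (localData S) (M.dualTwist (cycloChar p)) 0 w) y =
      ι0 w (locH (localData S) M 2 y)
  hc2 : ∀ w y, Φ2 (HcBd (localData S) M 1 w) y =
      ι1 w (locH (localData S) (M.dualTwist (cycloChar p)) 1 y)
  hchars : ∀ U₀ ∈ (globalLevel S).sets, ∃ U ∈ (globalLevel S).sets, U ≤ U₀ ∧
      (levelChars (globalLevel S) U (ZMod p)).Finite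

/-- **The frozen S55 from the duality data**: the final file `Fermat/Agent/S55.lean` is this
theorem applied to the duality data. -/
theorem result_frozen {p : ℕ} [Fact p.Prime] (hp2 : p ≠ 2) (S : Finset Nat.Primes)
    (hpS : pPrime p ∈ S) (M : Rep (ZMod p) Γ) [FiniteDimensional (ZMod p) M]
    (hsm : ∀ m : M, ∃ F : IntermediateField ℚ Qbar, FiniteDimensional ℚ F ∧
      ∀ s ∈ F.fixingSubgroup, M.ρ s m = m)
    (hMur : ∀ q : Nat.Primes, q ∉ S → ∀ A : ValuationSubring Qbar,
      A.LiesOverPrime (q : ℕ) → ∀ g ∈ A.inertiaSubgroupIn ℚ, M.ρ g = 1)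
    (data : ∀ [IsDiscrete (globalLevel S) M]
      [IsDiscrete (globalLevel S) (M.dualTwist (cycloChar p))], DualityData S M) :
    ∃ B : sha₁ S (M.dualTwist (cycloChar p)) →ₗ[ZMod p] sha₂ S M →ₗ[ZMod p] ZMod p,
      (∀ y, (∀ x, B y x = 0) → y = 0) ∧ (∀ x, (∀ y, B y x = 0) → x = 0) := by
  obtain ⟨hM, hM'⟩ := LevelGlobal.isDiscrete_of_frozen p hpS M hsm hMur
  have : Finite M := Module.finite_of_finite (ZMod p)
  have d := @data hM hM'
  exact result_of_duality hp2 S M d.Φ1 d.hΦ1 d.Φ2 d.hΦ2 d.ι0 d.hι0 d.ι1 d.hι1 d.hc1 d.hc2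
    d.hchars

end Fermat.Agent.S55.Assembly
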