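/-
S55, BR6 pre-assembly, part 2: the duality data of `Assembly.DualityData` from the cup product
duality maps of `ConePairing` for the evaluation pairing `M' × M → μ_p`.  With this file the frozen
S55 is reduced to ONE hypothesis: a linear form `tr` on `Hc³(μ_p)` such that the two global
duality maps are injective and the two local duality maps are surjective, plus the finiteness of
level characters (`Hchars`).
-/
import Fermat.Agent.S55.Assembly
import Fermat.Agent.S55.ConeEndgame
import Fermat.Agent.S55.DualTwist
import Fermat.Agent.S55.Hchars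

set_option autoImplicit false

open CategoryTheory Module groupCohomology ExtCitation

namespace Fermat.Agent.S55.Assembly

open Fermat.Agent.S55.Level Fermat.Agent.S55.Cone Fermat.Agent.S55.DualTwist

local notation "Qbar" => AlgebraicClosure ℚ
local notation "Γ" => (AlgebraicClosure ℚ ≃ₐ[ℚ] AlgebraicClosure ℚ)

variable {p : ℕ} [hp : Fact p.Prime] (S : Finset Nat.Primes)

/-- `μ_p = 𝔽_p(χ_cyc)` is discrete for `globalLevel S` when `p ∈ S`. -/
theorem isDiscrete_ofChar_cycloChar (hpS : pPrime p ∈ S) :
    IsDiscrete (globalLevel S) (ofChar (cycloChar p)) :=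
  ⟨fun a => ⟨_, LevelGlobal.ker_cycloChar_mem_globalLevel p hpS, fun u hu => by
    have h : cycloChar p u = 1 := MonoidHom.mem_ker.mp hu
    rw [ofChar_ρ_apply, h, Units.val_one, one_mul]⟩⟩

/-- The duality data from the cone pairings attached to the evaluation pairing. -/
noncomputable def dualityDataOfCone (M : Rep (ZMod p) Γ)
    [IsDiscrete (globalLevel S) M] [IsDiscrete (globalLevel S) (M.dualTwist (cycloChar p))]
    [IsDiscrete (globalLevel S) (ofChar (cycloChar p))]
    (tr : Hc (localData S) (ofChar (cycloChar p)) 3 →ₗ[ZMod p] ZMod p)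
    (hΦ1 : Function.Injective (Phi (localData S) (evalPairing (cycloChar p) M)
      (evalPairing_equivariant (cycloChar p) M) 1 2 3 rfl tr))
    (hΦ2 : Function.Injective (Phi (localData S) (evalPairing' (cycloChar p) M)
      (evalPairing'_equivariant (cycloChar p) M) 2 1 3 rfl tr))
    (hι0 : Function.Surjective (locDual (localData S) (evalPairing (cycloChar p) M)
      (evalPairing_equivariant (cycloChar p) M) 0 2 2 rfl tr))
    (hι1 : Function.Surjective (locDual (localData S) (evalPairing' (cycloChar p) M)
      (evalPairing'_equivariant (cycloChar p) M) 1 1 2 rfl tr))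
    (hchars : ∀ U₀ ∈ (globalLevel S).sets, ∃ U ∈ (globalLevel S).sets, U ≤ U₀ ∧
      (levelChars (globalLevel S) U (ZMod p)).Finite) : DualityData S M where
  Φ1 := Phi (localData S) (evalPairing (cycloChar p) M)
      (evalPairing_equivariant (cycloChar p) M) 1 2 3 rfl tr
  hΦ1 := hΦ1
  Φ2 := Phi (localData S) (evalPairing' (cycloChar p) M)
      (evalPairing'_equivariant (cycloChar p) M) 2 1 3 rfl tr
  hΦ2 := hΦ2
  ι0 := locDual (localData S) (evalPairing (cycloChar p) M)
      (evalPairing_equivariant (cycloChar p) M) 0 2 2 rfl tr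
  hι0 := hι0
  ι1 := locDual (localData S) (evalPairing' (cycloChar p) M)
      (evalPairing'_equivariant (cycloChar p) M) 1 1 2 rfl tr
  hι1 := hι1
  hc1 := fun w y => Phi_HcBd (localData S) (evalPairing (cycloChar p) M)
      (evalPairing_equivariant (cycloChar p) M) 0 2 2 rfl tr w y
  hc2 := fun w y => Phi_HcBd (localData S) (evalPairing' (cycloChar p) M)
      (evalPairing'_equivariant (cycloChar p) M) 1 1 2 rfl tr w y
  hchars := hchars

/-- **The frozen S55 from the cone duality maps**: it suffices to produce ONE linear form `tr` on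
`Hc³(ℚ, S; μ_p)` for which the two global duality maps (evaluation pairing) are injective and the
two local ones are surjective, and to know that the Kummer groups `X_S(L)` of good fields are
finite. -/
theorem result_of_cone (hp2 : p ≠ 2) (hpS : pPrime p ∈ S) (M : Rep (ZMod p) Γ)
    [FiniteDimensional (ZMod p) M]
    (hsm : ∀ m : M, ∃ F : IntermediateField ℚ Qbar, FiniteDimensional ℚ F ∧
      ∀ s ∈ F.fixingSubgroup, M.ρ s m = m)
    (hMur : ∀ q : Nat.Primes, q ∉ S → ∀ A : ValuationSubring Qbar,
      A.LiesOverPrime (q : ℕ) → ∀ g ∈ A.inertiaSubgroupIn ℚ, M.ρ g = 1)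
    (hcone : ∀ [IsDiscrete (globalLevel S) M]
      [IsDiscrete (globalLevel S) (M.dualTwist (cycloChar p))]
      [IsDiscrete (globalLevel S) (ofChar (cycloChar p))],
      ∃ tr : Hc (localData S) (ofChar (cycloChar p)) 3 →ₗ[ZMod p] ZMod p,
        Function.Injective (Phi (localData S) (evalPairing (cycloChar p) M)
          (evalPairing_equivariant (cycloChar p) M) 1 2 3 rfl tr) ∧
        Function.Injective (Phi (localData S) (evalPairing' (cycloChar p) M)
          (evalPairing'_equivariant (cycloChar p) M) 2 1 3 rfl tr) ∧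
        Function.Surjective (locDual (localData S) (evalPairing (cycloChar p) M)
          (evalPairing_equivariant (cycloChar p) M) 0 2 2 rfl tr) ∧
        Function.Surjective (locDual (localData S) (evalPairing' (cycloChar p) M)
          (evalPairing'_equivariant (cycloChar p) M) 1 1 2 rfl tr))
    (hkummer : ∀ L : IntermediateField ℚ Qbar, L.IsUnramifiedOutside S → Normal ℚ L →
      (∀ ω : Qbar, ω ^ p = 1 → ω ∈ L) →
      Finite ↥(GL.Kummer.levelChars L S (rootsOfUnity p Qbar))) :
    ∃ B : sha₁ S (M.dualTwist (cycloChar p)) →ₗ[ZMod p] sha₂ S M →ₗ[ZMod p] ZMod p,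
      (∀ y, (∀ x, B y x = 0) → y = 0) ∧ (∀ x, (∀ y, B y x = 0) → x = 0) := by
  refine result_frozen hp2 S hpS M hsm hMur ?_
  intro hM hM'
  have hμ := isDiscrete_ofChar_cycloChar S hpS
  obtain ⟨h1, h2, h3, h4⟩ := (@hcone hM hM' hμ).choose_spec
  exact dualityDataOfCone S M (@hcone hM hM' hμ).choose h1 h2 h3 h4
    (Hchars.hchars_of_kummer S hpS hkummer)

end Fermat.Agent.S55.Assembly
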