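/-
S55, BR6 pre-assembly, part 3: from the local duality maps `Ψ` of `LevelDuality` (LOC8) to the
surjectivity of the sums of local duality maps `locDual` of the cone (`ConePairing`), i.e. the
hypotheses `hι0`, `hι1` of `Cone.sha_pairing_of_cone` / `Assembly.result_of_cone`.

For local data `D`, a character `χ` of the global group, a finite dimensional discrete `M` and a
linear form `tr` on `Hc³(k(χ))`, the local invariant at `v` is `invAt D tr v`.  If for every place
`v` the local duality maps `Ψ (D.𝒱 v) (χ ∘ r_v) (invAt D tr v) X 1 1` and `… X 0 2` are injective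
for all finite dimensional discrete `X` (one-sided local duality), and `H¹(G_v, M')` is finite
dimensional, then both `locDual`s are surjective.
-/
import Fermat.Agent.S55.ConeEndgame
import Fermat.Agent.S55.LevelDuality
import Fermat.Agent.S55.LevelDualityBase
import Fermat.Agent.S55.CF.LESElem

set_option autoImplicit false

namespace Fermat.Agent.S55.Adapter

open CategoryTheory Module groupCohomology Fermat.Agent.S55.Level Fermat.Agent.S55.Cone
  Fermat.Agent.S55.Cup Fermat.Agent.S55.DualTwist Fermat.Agent.S55.LevelDuality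
  Fermat.Agent.S55.CochainTools Fermat.Agent.S55.Devissage

universe u

section Pairings

/-- Two cochain pairings with the same bilinear maps are equal. -/
theorem cochainPairing_ext {k : Type u} [CommRing k]
    {K K' N : CochainComplex (ModuleCat.{u} k) ℕ} (P Q : CochainPairing K K' N)
    (h : P.μ = Q.μ) : P = Q := by
  cases P
  cases Q
  cases h
  rfl

variable {k G : Type u} [CommRing k] [Group G] (𝒰 : LevelStructure G) {A B C : Rep.{u} k G}
  [IsDiscrete 𝒰 A] [IsDiscrete 𝒰 B] [IsDiscrete 𝒰 C] (φ : A →ₗ[k] B →ₗ[k] C)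
  (hφ : ∀ (g : G) (a : A) (b : B), φ (A.ρ g a) (B.ρ g b) = C.ρ g (φ a b))

/-- The two packagings of the cup product of level cochains (`ConePairing.levelPairing` and
`CupPairing.levelCupPairing`) coincide. -/
theorem levelPairing_eq_levelCupPairing : levelPairing 𝒰 φ hφ = levelCupPairing 𝒰 φ hφ := by
  apply cochainPairing_ext
  funext m n p h
  refine LinearMap.ext fun a => LinearMap.ext fun b => Subtype.ext ?_
  funext g
  exact (coe_levelμ 𝒰 φ m n p h a b g).trans
    (congrFun (coe_levelCupμ 𝒰 φ h (show levelCochains 𝒰 A m from a)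
      (show levelCochains 𝒰 B n from b)) g).symm

end Pairings

section ZeroFinite

variable {k G : Type u} [Field k] [Group G] (𝒰 : LevelStructure G) (Y : Rep.{u} k G)
  [IsDiscrete 𝒰 Y]

/-- `H⁰` of a finite dimensional representation is finite dimensional. -/
theorem finiteDimensional_levelCohomology_zero [FiniteDimensional k Y] :
    FiniteDimensional k (levelCohomology 𝒰 Y 0) := by
  have h1 : FiniteDimensional k ((Fin 0 → G) → Y) := Module.Finite.pi
  have h2 : FiniteDimensional k (levelCochains 𝒰 Y 0) :=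
    FiniteDimensional.finiteDimensional_submodule _
  have h2' : FiniteDimensional k ((levelComplex 𝒰 Y).X 0) := h2
  have h3 : FiniteDimensional k (Z (levelComplex 𝒰 Y) 0) :=
    FiniteDimensional.finiteDimensional_submodule _
  exact Module.Finite.of_surjective (cls (levelComplex 𝒰 Y) 0) (cls_surjective _ 0)

end ZeroFinite

section Local

variable {k G : Type u} [Field k] [Group G] {𝒰 : LevelStructure G} (D : LocalData 𝒰)
  (χ : G →* kˣ) [IsDiscrete 𝒰 (ofChar χ)] (M : Rep.{u} k G) [IsDiscrete 𝒰 M]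
  [IsDiscrete 𝒰 (M.dualTwist χ)]

omit [IsDiscrete 𝒰 (ofChar χ)] [IsDiscrete 𝒰 M] [IsDiscrete 𝒰 (M.dualTwist χ)] in
/-- Robust form of `LocalData.isDiscrete_res`: stated for `Rep.of ρ`, so that instance search also
succeeds for representations which are syntactically of the form `Rep.of σ`, e.g. `M.dualTwist χ`
or `ofChar χ` (`Rep.res r A` unfolds reducibly to `Rep.of (A.ρ.comp r)`). -/
instance isDiscrete_res_of {V : Type u} [AddCommGroup V] [Module k V]
    (ρ : Representation k G V) [IsDiscrete 𝒰 (Rep.of ρ)] (v : D.ι) :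
    IsDiscrete (D.𝒱 v) (Rep.of (ρ.comp (D.r v))) :=
  D.isDiscrete_res (Rep.of ρ) v

/-- `k(χ ∘ r_v)` is discrete for the local level structure. -/
instance isDiscrete_ofChar_comp (v : D.ι) : IsDiscrete (D.𝒱 v) (ofChar (χ.comp (D.r v))) :=
  D.isDiscrete_res (ofChar χ) v

/-- The twisted dual of the restriction of `M` to the local group is discrete. -/
instance isDiscrete_res_dualTwist (v : D.ι) :
    IsDiscrete (D.𝒱 v) ((Rep.res (D.r v) M).dualTwist (χ.comp (D.r v))) :=
  isDiscrete_of_iso (resDualTwistIso χ M (D.r v))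

/-- The local cup product for the evaluation pairing `M' × M → k(χ)` is the cup product of
`LevelDuality.evPairing` for the restriction of `M`. -/
theorem cupLoc_evalPairing (v : D.ι) (m n p : ℕ) (h : m + n = p)
    (a : levelCohomology (D.𝒱 v) (Rep.res (D.r v) (M.dualTwist χ)) m)
    (b : levelCohomology (D.𝒱 v) (Rep.res (D.r v) M) n) :
    cupLoc D (evalPairing χ M) (evalPairing_equivariant χ M) v m n p h a b =
      (evPairing (D.𝒱 v) (χ.comp (D.r v)) (Rep.res (D.r v) M)).pairH m n p h
        (lmap (D.𝒱 v) (resDualTwistIso χ M (D.r v)).hom m a) b := by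
  have h1 := CochainPairing.pairH_adjoint
    (levelCupPairing (D.𝒱 v) (resBilin D (evalPairing χ M) v)
      (resBilin_equivariant D (evalPairing χ M) (evalPairing_equivariant χ M) v))
    (evPairing (D.𝒱 v) (χ.comp (D.r v)) (Rep.res (D.r v) M))
    (levelMap (D.𝒱 v) (resDualTwistIso χ M (D.r v)).hom)
    (levelMap (D.𝒱 v) (𝟙 (Rep.res (D.r v) M)))
    (fun m n p h a b => levelCupμ_adjoint (D.𝒱 v) (resBilin D (evalPairing χ M) v)
      (evalPairing (χ.comp (D.r v)) (Rep.res (D.r v) M))
      (resDualTwistIso χ M (D.r v)).hom (𝟙 (Rep.res (D.r v) M)) (fun _ _ => rfl) m n p h a b)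
    h a b
  have h2 : (HomologicalComplex.homologyMap (levelMap (D.𝒱 v) (𝟙 (Rep.res (D.r v) M))) n).hom b
      = b := by
    have := CF.Hmap_id (D.𝒱 v) (A := Rep.res (D.r v) M) n
    exact (ConcreteCategory.congr_hom this b)
  rw [h2] at h1
  rw [lmap_eq]
  refine Eq.trans ?_ h1.symm
  unfold cupLoc locPairingAt
  rw [levelPairing_eq_levelCupPairing]
  rfl

variable [FiniteDimensional k M]

/-- The double twisted dual of the restriction of `M` to the local group is discrete. -/
instance isDiscrete_res_dualTwist_dualTwist (v : D.ι) :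
    IsDiscrete (D.𝒱 v)
      (((Rep.res (D.r v) M).dualTwist (χ.comp (D.r v))).dualTwist (χ.comp (D.r v))) :=
  isDiscrete_of_iso (doubleDualTwistIso (χ.comp (D.r v)) (Rep.res (D.r v) M))

/-- The local cup product for the evaluation pairing `M × M' → k(χ)` is the cup product of
`LevelDuality.evPairing` for the twisted dual of the restriction of `M` (through biduality). -/
theorem cupLoc_evalPairing' (v : D.ι) (m n p : ℕ) (h : m + n = p)
    (a : levelCohomology (D.𝒱 v) (Rep.res (D.r v) M) m)
    (b : levelCohomology (D.𝒱 v) (Rep.res (D.r v) (M.dualTwist χ)) n) :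
    cupLoc D (evalPairing' χ M) (evalPairing'_equivariant χ M) v m n p h a b =
      (evPairing (D.𝒱 v) (χ.comp (D.r v))
          ((Rep.res (D.r v) M).dualTwist (χ.comp (D.r v)))).pairH m n p h
        (lmap (D.𝒱 v) (doubleDualTwistIso (χ.comp (D.r v)) (Rep.res (D.r v) M)).hom m a)
        (lmap (D.𝒱 v) (resDualTwistIso χ M (D.r v)).hom n b) := by
  have h1 := CochainPairing.pairH_adjoint
    (levelCupPairing (D.𝒱 v) (resBilin D (evalPairing' χ M) v)
      (resBilin_equivariant D (evalPairing' χ M) (evalPairing'_equivariant χ M) v))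
    (evPairing (D.𝒱 v) (χ.comp (D.r v)) ((Rep.res (D.r v) M).dualTwist (χ.comp (D.r v))))
    (levelMap (D.𝒱 v) (doubleDualTwistIso (χ.comp (D.r v)) (Rep.res (D.r v) M)).hom)
    (levelMap (D.𝒱 v) (resDualTwistIso χ M (D.r v)).inv)
    (fun m n p h a b => levelCupμ_adjoint (D.𝒱 v) (resBilin D (evalPairing' χ M) v)
      (evalPairing (χ.comp (D.r v)) ((Rep.res (D.r v) M).dualTwist (χ.comp (D.r v))))
      (doubleDualTwistIso (χ.comp (D.r v)) (Rep.res (D.r v) M)).hom
      (resDualTwistIso χ M (D.r v)).inv (fun _ _ => rfl) m n p h a b)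
    h a (lmap (D.𝒱 v) (resDualTwistIso χ M (D.r v)).hom n b)
  have h2 : (HomologicalComplex.homologyMap
      (levelMap (D.𝒱 v) (resDualTwistIso χ M (D.r v)).inv) n).hom
        (lmap (D.𝒱 v) (resDualTwistIso χ M (D.r v)).hom n b) = b := by
    have := CF.Hmap_comp_apply (D.𝒱 v) (resDualTwistIso χ M (D.r v)).hom
      (resDualTwistIso χ M (D.r v)).inv n b
    rw [(resDualTwistIso χ M (D.r v)).hom_inv_id, CF.Hmap_id] at this
    exact this.symm
  rw [h2] at h1
  refine Eq.trans ?_ h1.symm
  unfold cupLoc locPairingAt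
  rw [levelPairing_eq_levelCupPairing]
  rfl

variable [DecidableEq D.ι] (tr : Hc D (ofChar χ) 3 →ₗ[k] k)

omit [IsDiscrete 𝒰 M] [IsDiscrete 𝒰 (M.dualTwist χ)] [FiniteDimensional k M] in
/-- The local invariant `invAt D tr v`, as a linear form on `H²(G_v, k(χ ∘ r_v))`
(`Rep.res (D.r v) (ofChar χ)` and `ofChar (χ.comp (D.r v))` are definitionally equal, but not
reducibly so; this definition fixes the second form, which is the one `LevelDuality.Ψ` needs). -/
noncomputable def invLoc (v : D.ι) :
    levelCohomology (D.𝒱 v) (ofChar (χ.comp (D.r v))) 2 →ₗ[k] k :=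
  invAt D tr v

omit [FiniteDimensional k M] in
/-- One-sided local nondegeneracy in degrees `(0, 2)` for the cone pairing, from the injectivity of
`Ψ⁽⁰'²⁾` for the restriction of `M` to the local group. -/
theorem eq_zero_of_cupLoc_zero_two (v : D.ι)
    (hΨ : Function.Injective (Ψ (D.𝒱 v) (χ.comp (D.r v)) (invLoc D χ tr v) (Rep.res (D.r v) M)
      0 2 rfl))
    (b : levelCohomology (D.𝒱 v) (Rep.res (D.r v) M) 2)
    (hb : ∀ a : levelCohomology (D.𝒱 v) (Rep.res (D.r v) (M.dualTwist χ)) 0,
      invAt D tr v (cupLoc D (evalPairing χ M) (evalPairing_equivariant χ M) v 0 2 2 rfl a b) =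
        0) : b = 0 := by
  apply hΨ
  rw [map_zero]
  ext w
  obtain ⟨a, rfl⟩ := (lmap_bijective_of_iso (D.𝒱 v) (resDualTwistIso χ M (D.r v)) 0).2 w
  rw [Ψ_apply]
  have := hb a
  rw [cupLoc_evalPairing D χ M v 0 2 2 rfl a b] at this
  exact this

/-- One-sided local nondegeneracy in degrees `(1, 1)` for the cone pairing (flipped evaluation
pairing), from the injectivity of `Ψ⁽¹'¹⁾` for the twisted dual of the restriction of `M`. -/
theorem eq_zero_of_cupLoc_one_one (v : D.ι)
    (hΨ : Function.Injective (Ψ (D.𝒱 v) (χ.comp (D.r v)) (invLoc D χ tr v)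
      ((Rep.res (D.r v) M).dualTwist (χ.comp (D.r v))) 1 1 rfl))
    (b : levelCohomology (D.𝒱 v) (Rep.res (D.r v) (M.dualTwist χ)) 1)
    (hb : ∀ a : levelCohomology (D.𝒱 v) (Rep.res (D.r v) M) 1,
      invAt D tr v (cupLoc D (evalPairing' χ M) (evalPairing'_equivariant χ M) v 1 1 2 rfl a b) =
        0) : b = 0 := by
  apply (lmap_bijective_of_iso (D.𝒱 v) (resDualTwistIso χ M (D.r v)) 1).1
  rw [map_zero]
  apply hΨ
  rw [map_zero]
  ext w
  obtain ⟨a, rfl⟩ := (lmap_bijective_of_iso (D.𝒱 v)
    (doubleDualTwistIso (χ.comp (D.r v)) (Rep.res (D.r v) M)) 1).2 w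
  rw [Ψ_apply]
  have := hb a
  rw [cupLoc_evalPairing' D χ M v 1 1 2 rfl a b] at this
  exact this

omit [IsDiscrete 𝒰 M] [IsDiscrete 𝒰 (M.dualTwist χ)] [FiniteDimensional k M] in
/-- The sum of the local invariants determines `invAt`: if `tr ∘ ∂ = ∑_v t_v` then the local
invariant at `v` attached to `tr` is `t_v`. -/
theorem invAt_eq_of_sum [Fintype D.ι]
    (t : ∀ v, levelCohomology (D.𝒱 v) (Rep.res (D.r v) (ofChar χ)) 2 →ₗ[k] k)
    (htr : ∀ w : ∀ v, levelCohomology (D.𝒱 v) (Rep.res (D.r v) (ofChar χ)) 2,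
      tr (HcBd D (ofChar χ) 2 w) = ∑ v, t v (w v)) (v : D.ι) :
    invAt D tr v = t v := by
  refine LinearMap.ext fun c => ?_
  rw [invAt_apply, htr, Finset.sum_eq_single v]
  · rw [Pi.single_eq_same]
  · intro v' _ hv'
    rw [Pi.single_eq_of_ne hv', map_zero]
  · intro hv
    exact absurd (Finset.mem_univ v) hv

omit [IsDiscrete 𝒰 M] [IsDiscrete 𝒰 (M.dualTwist χ)] [FiniteDimensional k M] in
/-- The same for `invLoc`, with the local linear forms given on `H²(G_v, k(χ ∘ r_v))`. -/
theorem invLoc_eq_of_sum [Fintype D.ι]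
    (t : ∀ v, levelCohomology (D.𝒱 v) (ofChar (χ.comp (D.r v))) 2 →ₗ[k] k)
    (htr : ∀ w : ∀ v, levelCohomology (D.𝒱 v) (Rep.res (D.r v) (ofChar χ)) 2,
      tr (HcBd D (ofChar χ) 2 w) = ∑ v, t v (w v)) (v : D.ι) :
    invLoc D χ tr v = t v :=
  invAt_eq_of_sum D χ tr t htr v

/-- **From one-sided local duality to the surjectivity of the sums of the local duality maps of the
cone** (the hypotheses `hι0`, `hι1` of `Cone.sha_pairing_of_cone`). -/
theorem locDual_surjective_of_local [Finite D.ι]
    (hloc : ∀ (v : D.ι) (X : Rep.{u} k (D.Gv v)) [IsDiscrete (D.𝒱 v) X] [FiniteDimensional k X]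
      [IsDiscrete (D.𝒱 v) (X.dualTwist (χ.comp (D.r v)))],
      Function.Injective (Ψ (D.𝒱 v) (χ.comp (D.r v)) (invLoc D χ tr v) X 1 1 rfl) ∧
      Function.Injective (Ψ (D.𝒱 v) (χ.comp (D.r v)) (invLoc D χ tr v) X 0 2 rfl))
    (hfd : ∀ v, FiniteDimensional k
      (levelCohomology (D.𝒱 v) (Rep.res (D.r v) (M.dualTwist χ)) 1)) :
    Function.Surjective (locDual D (evalPairing χ M) (evalPairing_equivariant χ M) 0 2 2 rfl tr) ∧
    Function.Surjective
      (locDual D (evalPairing' χ M) (evalPairing'_equivariant χ M) 1 1 2 rfl tr) := by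
  have hX : ∀ v, FiniteDimensional k ((Rep.res (D.r v) M).dualTwist (χ.comp (D.r v))) := fun v =>
    inferInstanceAs (FiniteDimensional k (Module.Dual k M))
  have hXM : ∀ v, FiniteDimensional k (Rep.res (D.r v) M) := fun v =>
    inferInstanceAs (FiniteDimensional k M)
  refine ⟨locDual_surjective D (evalPairing χ M) (evalPairing_equivariant χ M) 0 2 2 rfl tr
    (fun v => ?_) (fun v b hb => ?_),
    locDual_surjective D (evalPairing' χ M) (evalPairing'_equivariant χ M) 1 1 2 rfl tr hfd
    (fun v b hb => ?_)⟩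
  · have h0 := finiteDimensional_levelCohomology_zero (D.𝒱 v)
      ((Rep.res (D.r v) M).dualTwist (χ.comp (D.r v)))
    exact Module.Finite.of_injective _ (hloc v (Rep.res (D.r v) M)).2
  · exact eq_zero_of_cupLoc_zero_two D χ M tr v (hloc v (Rep.res (D.r v) M)).2 b hb
  · exact eq_zero_of_cupLoc_one_one D χ M tr v
      (hloc v ((Rep.res (D.r v) M).dualTwist (χ.comp (D.r v)))).1 b hb

end Local

end Fermat.Agent.S55.Adapter
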