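/-
S55, BR6 pre-assembly, part 4: the frozen S55 from
* the conclusion of the global dévissage (`Main.MainConclusion`, MAIN + GLO14) for ONE linear form
  `tr` on `Hc³(ℚ, S; μ_p)`;
* one-sided local duality at the primes of `S` for the local invariants `invLoc … tr q` attached to
  `tr` (`LevelDuality.Ψ` injective in degrees `(1,1)` and `(0,2)`, LOC8);
* finiteness of the level characters `→ ℤ/p` of arbitrarily small open subgroups of the local
  Galois groups (local Kummer theory) and of the Kummer groups `X_S(L)` of good fields (K1).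
-/
import Fermat.Agent.S55.AssemblyCone
import Fermat.Agent.S55.MainDefs
import Fermat.Agent.S55.LocalAdapter

set_option autoImplicit false

open CategoryTheory Module groupCohomology ExtCitation

namespace Fermat.Agent.S55.Assembly

open Fermat.Agent.S55.Level Fermat.Agent.S55.Cone Fermat.Agent.S55.DualTwist
  Fermat.Agent.S55.LevelDuality

local notation "Qbar" => AlgebraicClosure ℚ
local notation "Γ" => (AlgebraicClosure ℚ ≃ₐ[ℚ] AlgebraicClosure ℚ)

variable {p : ℕ} [hp : Fact p.Prime] (S : Finset Nat.Primes)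

instance decidableEq_localData_ι : DecidableEq (localData S).ι :=
  inferInstanceAs (DecidableEq ↥S)

instance fintype_localData_ι : Fintype (localData S).ι :=
  inferInstanceAs (Fintype ↥S)

/-- The hypotheses on one linear form `tr` on `Hc³(ℚ, S; μ_p)`: the conclusion of the global
dévissage and one-sided local duality at every prime of `S` for the local invariants attached to
`tr`. -/
def TraceHyp [IsDiscrete (globalLevel S) (ofChar (cycloChar p))]
    (tr : Hc (localData S) (ofChar (cycloChar p)) 3 →ₗ[ZMod p] ZMod p) : Prop :=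
  Main.MainConclusion (localData S) (cycloChar p) tr ∧
  ∀ (v : (localData S).ι) (X : Rep.{0} (ZMod p) ((localData S).Gv v))
    [IsDiscrete ((localData S).𝒱 v) X] [FiniteDimensional (ZMod p) X]
    [IsDiscrete ((localData S).𝒱 v) (X.dualTwist ((cycloChar p).comp ((localData S).r v)))],
    Function.Injective (Ψ ((localData S).𝒱 v) ((cycloChar p).comp ((localData S).r v))
      (Adapter.invLoc (localData S) (cycloChar p) tr v) X 1 1 rfl) ∧
    Function.Injective (Ψ ((localData S).𝒱 v) ((cycloChar p).comp ((localData S).r v))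
      (Adapter.invLoc (localData S) (cycloChar p) tr v) X 0 2 rfl)

/-- **The frozen S55 from MAIN + LOC8 + Kummer finiteness.** -/
theorem result_of_main (hp2 : p ≠ 2) (hpS : pPrime p ∈ S) (M : Rep (ZMod p) Γ)
    [FiniteDimensional (ZMod p) M]
    (hsm : ∀ m : M, ∃ F : IntermediateField ℚ Qbar, FiniteDimensional ℚ F ∧
      ∀ s ∈ F.fixingSubgroup, M.ρ s m = m)
    (hMur : ∀ q : Nat.Primes, q ∉ S → ∀ A : ValuationSubring Qbar,
      A.LiesOverPrime (q : ℕ) → ∀ g ∈ A.inertiaSubgroupIn ℚ, M.ρ g = 1)
    (htr : ∀ [IsDiscrete (globalLevel S) (ofChar (cycloChar p))],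
      ∃ tr : Hc (localData S) (ofChar (cycloChar p)) 3 →ₗ[ZMod p] ZMod p, TraceHyp S tr)
    (hlocal : ∀ q : ↥S, ∀ U₀ ∈ (localLevel (primeLocalToGlobal q.1)).sets,
      ∃ U ∈ (localLevel (primeLocalToGlobal q.1)).sets, U ≤ U₀ ∧
        (levelChars (localLevel (primeLocalToGlobal q.1)) U (ZMod p)).Finite)
    (hkummer : ∀ L : IntermediateField ℚ Qbar, L.IsUnramifiedOutside S → Normal ℚ L →
      (∀ ω : Qbar, ω ^ p = 1 → ω ∈ L) →
      Finite ↥(GL.Kummer.levelChars L S (rootsOfUnity p Qbar))) :
    ∃ B : sha₁ S (M.dualTwist (cycloChar p)) →ₗ[ZMod p] sha₂ S M →ₗ[ZMod p] ZMod p,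
      (∀ y, (∀ x, B y x = 0) → y = 0) ∧ (∀ x, (∀ y, B y x = 0) → x = 0) := by
  refine result_of_cone S hp2 hpS M hsm hMur ?_ hkummer
  intro hM hM' hμ
  obtain ⟨tr, hmain, hloc⟩ := @htr hμ
  have hfinM' : Finite (M.dualTwist (cycloChar p)) := by
    have : Finite M := Module.finite_of_finite (ZMod p)
    have : Module.Finite (ZMod p) M := Module.Finite.of_finite
    have : Module.Finite (ZMod p) (M.dualTwist (cycloChar p)) :=
      inferInstanceAs (Module.Finite (ZMod p) (Module.Dual (ZMod p) M))
    exact Module.finite_of_finite (ZMod p)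
  have hfd : ∀ v : (localData S).ι, FiniteDimensional (ZMod p)
      (levelCohomology ((localData S).𝒱 v)
        (Rep.res ((localData S).r v) (M.dualTwist (cycloChar p))) 1) := fun v =>
    finiteDimensional_levelCohomology_one_of_zmod _ _ (hlocal v)
  obtain ⟨h0, h1⟩ := Adapter.locDual_surjective_of_local (localData S) (cycloChar p) M tr hloc hfd
  obtain ⟨h2, h3⟩ := Main.injective_Phi_of_main (localData S) (cycloChar p) tr hmain M
  exact ⟨tr, h2, h3, h0, h1⟩

end Fermat.Agent.S55.Assembly
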