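/-
S55 / LOC6 (infrastructure): functoriality of level cohomology under composition of change-of-group
maps, and transport along group isomorphisms with equivalent level structures.

* `refines_comp`, `levelCochainsMap_comp`, `levelCohomologyMap_comp`, `levelCohomologyMap_id`;
* `levelCohomologyMap_congr`;
* `levelCohomologyIsoOfEquiv e hf hf' ε εinv …`: for a group isomorphism `e : H ≃* G` such that the
  level structures refine each other along `e` and `e.symm`, and mutually inverse morphisms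
  `res e A ⟶ B`, `res e.symm B ⟶ A`: `levelCohomology 𝒰 A n ≅ levelCohomology 𝒱 B n`.
-/
import Fermat.Agent.S55.LevelFunct
import Fermat.Agent.S55.LevelElem

set_option autoImplicit false

open CategoryTheory

namespace Fermat.Agent.S55.LevelTransport

open Fermat.Agent.S55.Level groupCohomology

universe u

section Comp

variable {k G H K : Type u} [CommRing k] [Group G] [Group H] [Group K]
  {𝒰 : LevelStructure G} {𝒱 : LevelStructure H} {𝒲 : LevelStructure K}

/-- Refinement is transitive. -/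
lemma refines_comp {f : H →* G} {g : K →* H} (hf : 𝒱.Refines 𝒰 f) (hg : 𝒲.Refines 𝒱 g) :
    𝒲.Refines 𝒰 (f.comp g) := by
  intro U hU
  obtain ⟨V, hV, hVU⟩ := hf U hU
  obtain ⟨W, hW, hWV⟩ := hg V hV
  refine ⟨W, hW, hWV.trans ?_⟩
  intro x hx
  exact hVU hx

variable {A : Rep.{u} k G} {B : Rep.{u} k H} {C : Rep.{u} k K}
  [IsDiscrete 𝒰 A] [IsDiscrete 𝒱 B] [IsDiscrete 𝒲 C]

/-- Composition of change-of-group maps of level complexes. -/
lemma levelCochainsMap_comp (f : H →* G) (g : K →* H) (hf : 𝒱.Refines 𝒰 f)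
    (hg : 𝒲.Refines 𝒱 g) (φ : Rep.res f A ⟶ B) (ψ : Rep.res g B ⟶ C) :
    levelCochainsMap (f.comp g) (refines_comp hf hg) ((Rep.resFunctor g).map φ ≫ ψ) =
      levelCochainsMap f hf φ ≫ levelCochainsMap g hg ψ := by
  ext n : 1
  refine ModuleCat.hom_ext (LinearMap.ext fun (x : levelCochains 𝒰 A n) => Subtype.ext ?_)
  rfl

/-- Composition of change-of-group maps of level cohomology. -/
lemma levelCohomologyMap_comp (f : H →* G) (g : K →* H) (hf : 𝒱.Refines 𝒰 f)
    (hg : 𝒲.Refines 𝒱 g) (φ : Rep.res f A ⟶ B) (ψ : Rep.res g B ⟶ C) (n : ℕ) :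
    levelCohomologyMap (f.comp g) (refines_comp hf hg) ((Rep.resFunctor g).map φ ≫ ψ) n =
      levelCohomologyMap f hf φ n ≫ levelCohomologyMap g hg ψ n := by
  rw [levelCohomologyMap, levelCochainsMap_comp f g hf hg φ ψ,
    HomologicalComplex.homologyMap_comp]
  rfl

variable (𝒰 A) in
/-- The identity induces the identity. -/
lemma levelCohomologyMap_id (n : ℕ) :
    levelCohomologyMap (MonoidHom.id G) 𝒰.refines_id (𝟙 A) n = 𝟙 (levelCohomology 𝒰 A n) := by
  have h : levelCochainsMap (MonoidHom.id G) 𝒰.refines_id (𝟙 A) = 𝟙 (levelComplex 𝒰 A) := by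
    ext m : 1
    refine ModuleCat.hom_ext (LinearMap.ext fun (x : levelCochains 𝒰 A m) => Subtype.ext ?_)
    rfl
  rw [levelCohomologyMap, h, HomologicalComplex.homologyMap_id]
  rfl

/-- `levelCohomologyMap` only depends on the underlying maps. -/
lemma levelCohomologyMap_congr {f f' : H →* G} (hff' : f = f') (hf : 𝒱.Refines 𝒰 f)
    (hf' : 𝒱.Refines 𝒰 f') (φ : Rep.res f A ⟶ B) (φ' : Rep.res f' A ⟶ B)
    (hφ : ∀ a : A.V, φ.hom a = φ'.hom a) (n : ℕ) :
    levelCohomologyMap f hf φ n = levelCohomologyMap f' hf' φ' n := by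
  subst hff'
  have : φ = φ' := Rep.hom_ext (by ext a; exact hφ a)
  subst this
  rfl

end Comp

section Equiv

variable {k G H : Type u} [CommRing k] [Group G] [Group H]
  {𝒰 : LevelStructure G} {𝒱 : LevelStructure H}
  {A : Rep.{u} k G} {B : Rep.{u} k H} [IsDiscrete 𝒰 A] [IsDiscrete 𝒱 B]

/-- **Transport of level cohomology along a group isomorphism** with equivalent level structures
and an isomorphism of the coefficient modules (given by two mutually inverse equivariant maps). -/
noncomputable def levelCohomologyIsoOfEquiv (e : H ≃* G)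
    (hf : 𝒱.Refines 𝒰 e.toMonoidHom) (hf' : 𝒰.Refines 𝒱 e.symm.toMonoidHom)
    (ε : Rep.res e.toMonoidHom A ⟶ B) (ε' : Rep.res e.symm.toMonoidHom B ⟶ A)
    (h1 : ∀ a : A.V, ε'.hom (ε.hom a) = a) (h2 : ∀ b : B.V, ε.hom (ε'.hom b) = b) (n : ℕ) :
    levelCohomology 𝒰 A n ≅ levelCohomology 𝒱 B n where
  hom := levelCohomologyMap e.toMonoidHom hf ε n
  inv := levelCohomologyMap e.symm.toMonoidHom hf' ε' n
  hom_inv_id := by
    rw [← levelCohomologyMap_comp, ← levelCohomologyMap_id 𝒰 A n]
    exact levelCohomologyMap_congr (MonoidHom.ext fun x => by simp) _ _ _ _ (fun a => h1 a) n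
  inv_hom_id := by
    rw [← levelCohomologyMap_comp, ← levelCohomologyMap_id 𝒱 B n]
    exact levelCohomologyMap_congr (MonoidHom.ext fun x => by simp) _ _ _ _ (fun b => h2 b) n

@[simp]
lemma levelCohomologyIsoOfEquiv_hom (e : H ≃* G)
    (hf : 𝒱.Refines 𝒰 e.toMonoidHom) (hf' : 𝒰.Refines 𝒱 e.symm.toMonoidHom)
    (ε : Rep.res e.toMonoidHom A ⟶ B) (ε' : Rep.res e.symm.toMonoidHom B ⟶ A)
    (h1 : ∀ a : A.V, ε'.hom (ε.hom a) = a) (h2 : ∀ b : B.V, ε.hom (ε'.hom b) = b) (n : ℕ) :
    (levelCohomologyIsoOfEquiv e hf hf' ε ε' h1 h2 n).hom =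
      levelCohomologyMap e.toMonoidHom hf ε n := rfl

end Equiv

section SetsEq

variable {k G : Type u} [CommRing k] [Group G] {𝒰 𝒱 : LevelStructure G}

/-- Level structures with the same members refine each other along the identity. -/
lemma refines_id_of_sets_eq (h : 𝒰.sets = 𝒱.sets) : 𝒱.Refines 𝒰 (MonoidHom.id G) :=
  fun U hU => ⟨U, h ▸ hU, le_of_eq (Subgroup.comap_id U).symm⟩

variable (A : Rep.{u} k G) [IsDiscrete 𝒰 A] [IsDiscrete 𝒱 A]

/-- Level cohomology only depends on the members of the level structure. -/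
noncomputable def levelCohomologyIsoOfSetsEq (h : 𝒰.sets = 𝒱.sets) (n : ℕ) :
    levelCohomology 𝒰 A n ≅ levelCohomology 𝒱 A n where
  hom := levelCohomologyMap (MonoidHom.id G) (refines_id_of_sets_eq h) (𝟙 A) n
  inv := levelCohomologyMap (MonoidHom.id G) (refines_id_of_sets_eq h.symm) (𝟙 A) n
  hom_inv_id := by
    rw [← levelCohomologyMap_comp, ← levelCohomologyMap_id 𝒰 A n]
    exact levelCohomologyMap_congr rfl _ _ _ _ (fun _ => rfl) n
  inv_hom_id := by
    rw [← levelCohomologyMap_comp, ← levelCohomologyMap_id 𝒱 A n]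
    exact levelCohomologyMap_congr rfl _ _ _ _ (fun _ => rfl) n

lemma levelCohomologyIsoOfSetsEq_hom (h : 𝒰.sets = 𝒱.sets) (n : ℕ) :
    (levelCohomologyIsoOfSetsEq A h n).hom =
      levelCohomologyMap (MonoidHom.id G) (refines_id_of_sets_eq h) (𝟙 A) n := rfl

end SetsEq

end Fermat.Agent.S55.LevelTransport
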