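/-
S55 (helper5, for GLO11/GLO12): the smooth (= discrete) part of a representation relative to a
level structure.

For `𝒰 : LevelStructure G` and ANY `A : Rep k G`, `smoothPart 𝒰 A` is the sub-representation of
the vectors fixed by some member of `𝒰`.  It is discrete, it is the largest discrete
sub-representation (`smoothPartLift`), and for `U ∈ 𝒰.sets` its `U`-invariants are those of `A`
(`layerSmoothIso : Hⁿ(G ⧸ U, (smoothPart 𝒰 A)^U) ≅ Hⁿ(G ⧸ U, A^U)`, compatible with the transition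
inflations `infLayer`).

Example: `G = Gal(ℚ̄/ℚ)`, `𝒰 = globalLevel S`, `A = ℚ̄ˣ`: `smoothPart 𝒰 A = Q_Sˣ`.
-/
import Fermat.Agent.S55.LevelLayer
import Fermat.Agent.S55.LevelRestrict

set_option autoImplicit false

open CategoryTheory

namespace Fermat.Agent.S55.SmoothPart

open Fermat.Agent.S55.Level Fermat.Agent.S55.LevelLayer groupCohomology

universe u

variable {k G : Type u} [CommRing k] [Group G] (𝒰 : LevelStructure G) (A : Rep.{u} k G)

/-- The submodule of vectors fixed by some member of the family. -/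
def smoothSubmodule : Submodule k A where
  carrier := {a | ∃ U ∈ 𝒰.sets, ∀ u ∈ U, A.ρ u a = a}
  add_mem' := by
    rintro a b ⟨U, hU, ha⟩ ⟨V, hV, hb⟩
    obtain ⟨W, hW, hWUV⟩ := 𝒰.directed U hU V hV
    exact ⟨W, hW, fun u hu => by
      rw [map_add, ha u ((hWUV.trans inf_le_left) hu), hb u ((hWUV.trans inf_le_right) hu)]⟩
  zero_mem' := by
    obtain ⟨U, hU⟩ := 𝒰.nonempty
    exact ⟨U, hU, fun u _ => map_zero _⟩
  smul_mem' := by
    rintro c a ⟨U, hU, ha⟩
    exact ⟨U, hU, fun u hu => by rw [map_smul, ha u hu]⟩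

variable {𝒰 A} in
lemma mem_smoothSubmodule_iff {a : A} :
    a ∈ smoothSubmodule 𝒰 A ↔ ∃ U ∈ 𝒰.sets, ∀ u ∈ U, A.ρ u a = a := Iff.rfl

lemma smoothSubmodule_le_comap (g : G) :
    smoothSubmodule 𝒰 A ≤ (smoothSubmodule 𝒰 A).comap (A.ρ g) := by
  rintro a ⟨U, hU, ha⟩
  have hn := 𝒰.normal U hU
  refine ⟨U, hU, fun u hu => ?_⟩
  have h1 : g⁻¹ * u * g ∈ U := hn.conj_mem' u hu g
  have h2 : u * g = g * (g⁻¹ * u * g) := by group
  calc A.ρ u (A.ρ g a) = A.ρ (u * g) a := by rw [map_mul, Module.End.mul_apply]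
    _ = A.ρ g (A.ρ (g⁻¹ * u * g) a) := by rw [h2, map_mul, Module.End.mul_apply]
    _ = A.ρ g a := by rw [ha _ h1]

/-- The smooth part of `A`: the sub-representation of vectors fixed by a member of `𝒰`. -/
noncomputable def smoothPart : Rep.{u} k G :=
  Rep.of (A.ρ.subrepresentation (smoothSubmodule 𝒰 A) (smoothSubmodule_le_comap 𝒰 A))

lemma smoothPart_ρ_apply_coe (g : G) (a : smoothSubmodule 𝒰 A) :
    (show smoothSubmodule 𝒰 A from (smoothPart 𝒰 A).ρ g a).1 = A.ρ g a.1 := rfl

instance isDiscrete_smoothPart : IsDiscrete 𝒰 (smoothPart 𝒰 A) where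
  exists_fix := by
    rintro ⟨a, U, hU, ha⟩
    exact ⟨U, hU, fun u hu => Subtype.ext (ha u hu)⟩

/-- The inclusion of the smooth part. -/
noncomputable def smoothPartι : smoothPart 𝒰 A ⟶ A :=
  Rep.ofHom ⟨(smoothSubmodule 𝒰 A).subtype, fun _ => rfl⟩

lemma smoothPartι_apply (a : smoothSubmodule 𝒰 A) :
    (smoothPartι 𝒰 A).hom (show (smoothPart 𝒰 A).V from a) = (a : A) := rfl

lemma smoothPartι_injective : Function.Injective (smoothPartι 𝒰 A).hom :=
  fun _ _ h => Subtype.ext h

lemma exists_smoothPartι_eq_iff (a : A) :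
    (∃ b : smoothPart 𝒰 A, (smoothPartι 𝒰 A).hom b = a) ↔
      ∃ U ∈ 𝒰.sets, ∀ u ∈ U, A.ρ u a = a :=
  ⟨by rintro ⟨b, rfl⟩; exact (show smoothSubmodule 𝒰 A from b).2,
    fun h => ⟨(⟨a, h⟩ : smoothSubmodule 𝒰 A), rfl⟩⟩

variable {𝒰 A} in
/-- A morphism from a discrete representation factors through the smooth part. -/
noncomputable def smoothPartLift {B : Rep.{u} k G} [IsDiscrete 𝒰 B] (f : B ⟶ A) :
    B ⟶ smoothPart 𝒰 A :=
  Rep.ofHom ⟨f.hom.toLinearMap.codRestrict (smoothSubmodule 𝒰 A) fun b => by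
      obtain ⟨U, hU, hb⟩ := IsDiscrete.exists_fix (𝒰 := 𝒰) b
      exact ⟨U, hU, fun u hu => by
        have := Rep.hom_comm_apply f u b
        rw [hb u hu] at this
        exact this.symm⟩,
    fun g => LinearMap.ext fun b => Subtype.ext (Rep.hom_comm_apply f g b)⟩

variable {𝒰 A} in
lemma smoothPartLift_comp_ι {B : Rep.{u} k G} [IsDiscrete 𝒰 B] (f : B ⟶ A) :
    smoothPartLift f ≫ smoothPartι 𝒰 A = f :=
  Rep.hom_ext (Representation.IntertwiningMap.ext (LinearMap.ext fun _ => rfl))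

/-! ### Layers -/

section Layer

variable {𝒰} {U : Subgroup G} [U.Normal] (hU : U ∈ 𝒰.sets)

/-- The comparison of the `U`-invariants of the smooth part with those of `A`. -/
noncomputable abbrev layerSmoothMap :
    (smoothPart 𝒰 A).quotientToInvariants U ⟶ A.quotientToInvariants U :=
  (Rep.quotientToInvariantsFunctor k U).map (smoothPartι 𝒰 A)

lemma layerSmoothMap_apply_coe (x : (smoothPart 𝒰 A).quotientToInvariants U) :
    (((layerSmoothMap A (𝒰 := 𝒰) (U := U)).hom x : A.quotientToInvariants U) : A) =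
      (smoothPartι 𝒰 A).hom (x : smoothPart 𝒰 A) := rfl

include hU in
lemma layerSmoothMap_bijective :
    Function.Bijective (layerSmoothMap A (𝒰 := 𝒰) (U := U)).hom := by
  constructor
  · intro x y hxy
    apply Subtype.ext
    apply smoothPartι_injective 𝒰 A
    have := congrArg (fun z : A.quotientToInvariants U => (z : A)) hxy
    exact this
  · rintro ⟨a, ha⟩
    have hsm : a ∈ smoothSubmodule 𝒰 A := ⟨U, hU, fun u hu => ha ⟨u, hu⟩⟩
    refine ⟨⟨(⟨a, hsm⟩ : smoothSubmodule 𝒰 A), fun u => Subtype.ext (ha u)⟩, ?_⟩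
    exact Subtype.ext rfl

include hU in
lemma isIso_layerSmoothMap : IsIso (layerSmoothMap A (𝒰 := 𝒰) (U := U)) :=
  (ConcreteCategory.isIso_iff_bijective _).2 (layerSmoothMap_bijective A hU)

/-- `Hⁿ(G ⧸ U, (smoothPart 𝒰 A)^U) ≅ Hⁿ(G ⧸ U, A^U)` for `U ∈ 𝒰`. -/
noncomputable def layerSmoothIso (n : ℕ) :
    groupCohomology ((smoothPart 𝒰 A).quotientToInvariants U) n ≅
      groupCohomology (A.quotientToInvariants U) n :=
  haveI := isIso_layerSmoothMap A hU
  (groupCohomology.functor k (G ⧸ U) n).mapIso (asIso (layerSmoothMap A (𝒰 := 𝒰) (U := U)))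

lemma layerSmoothIso_hom (n : ℕ) :
    (layerSmoothIso A hU n).hom =
      groupCohomology.map (MonoidHom.id (G ⧸ U)) (layerSmoothMap A (𝒰 := 𝒰) (U := U)) n := rfl

end Layer

section Transition

variable {𝒰} {U V : Subgroup G} [U.Normal] [V.Normal] (h : V ≤ U) (hU : U ∈ 𝒰.sets)
  (hV : V ∈ 𝒰.sets)

/-- The layer comparison is compatible with the transition inflations. -/
theorem infLayer_comp_layerSmoothIso (n : ℕ) :
    infLayer (smoothPart 𝒰 A) h n ≫ (layerSmoothIso A hV n).hom =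
      (layerSmoothIso A hU n).hom ≫ infLayer A h n := by
  rw [layerSmoothIso_hom, layerSmoothIso_hom]
  unfold infLayer
  rw [← map_comp, ← map_comp]
  exact map_congr rfl (LinearMap.ext fun x => rfl) n

end Transition

/-! ### Level cohomology of the smooth part is computed on the layers of `A` -/

section LevelInf

variable {𝒰} {U : Subgroup G} [U.Normal] (hU : U ∈ 𝒰.sets)

/-- Inflation from the layer `Hⁿ(G ⧸ U, A^U)` of an arbitrary representation `A` to the level
cohomology of its smooth part. -/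
noncomputable def smoothInf (n : ℕ) :
    groupCohomology (A.quotientToInvariants U) n ⟶ levelCohomology 𝒰 (smoothPart 𝒰 A) n :=
  (layerSmoothIso A hU n).inv ≫ levelInf 𝒰 (smoothPart 𝒰 A) hU n

lemma layerSmoothIso_hom_comp_smoothInf (n : ℕ) :
    (layerSmoothIso A hU n).hom ≫ smoothInf A hU n = levelInf 𝒰 (smoothPart 𝒰 A) hU n := by
  unfold smoothInf
  rw [Iso.hom_inv_id_assoc]

variable {V : Subgroup G} [V.Normal] (h : V ≤ U) (hV : V ∈ 𝒰.sets)

theorem infLayer_comp_smoothInf (n : ℕ) :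
    infLayer A h n ≫ smoothInf A hV n = smoothInf A hU n := by
  have hT := infLayer_comp_layerSmoothIso A h hU hV n
  have h1 : infLayer A h n ≫ (layerSmoothIso A hV n).inv =
      (layerSmoothIso A hU n).inv ≫ infLayer (smoothPart 𝒰 A) h n := by
    rw [Iso.comp_inv_eq, Category.assoc, hT, Iso.inv_hom_id_assoc]
  unfold smoothInf
  rw [← Category.assoc, h1, Category.assoc, infLayer_comp_levelInf]

/-- Every class of the level cohomology of the smooth part comes from every sufficiently small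
layer of `A`. -/
theorem exists_smoothInf_eq {n : ℕ} (x : levelCohomology 𝒰 (smoothPart 𝒰 A) n) :
    ∃ U₀ ∈ 𝒰.sets, ∀ (U : Subgroup G) [U.Normal] (hU : U ∈ 𝒰.sets), U ≤ U₀ →
      ∃ y : groupCohomology (A.quotientToInvariants U) n, (smoothInf A hU n).hom y = x := by
  obtain ⟨U₀, hU₀, H⟩ := exists_levelInf_eq 𝒰 (smoothPart 𝒰 A) x
  refine ⟨U₀, hU₀, fun U _ hU hle => ?_⟩
  obtain ⟨y, hy⟩ := H U hU hle
  refine ⟨(layerSmoothIso A hU n).hom.hom y, ?_⟩
  have := congrArg (fun φ => ModuleCat.Hom.hom φ y) (layerSmoothIso_hom_comp_smoothInf A hU n)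
  simp only [ModuleCat.hom_comp, LinearMap.comp_apply] at this
  rw [← hy]
  exact this

/-- A class of a layer of `A` dying in the level cohomology of the smooth part dies in every
sufficiently small layer of `A`. -/
theorem exists_infLayer_eq_zero_of_smoothInf {n : ℕ}
    (y : groupCohomology (A.quotientToInvariants U) n) (hy : (smoothInf A hU n).hom y = 0) :
    ∃ V₀ ∈ 𝒰.sets, V₀ ≤ U ∧ ∀ (V : Subgroup G) [V.Normal], V ∈ 𝒰.sets → V ≤ V₀ →
      ∀ h : V ≤ U, (infLayer A h n).hom y = 0 := by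
  obtain ⟨V₀, hV₀, hle, H⟩ := exists_infLayer_eq_zero 𝒰 (smoothPart 𝒰 A) hU
    ((layerSmoothIso A hU n).inv.hom y) hy
  refine ⟨V₀, hV₀, hle, fun V _ hV hVV₀ h => ?_⟩
  have h0 := H V hV hVV₀ h
  have hT := congrArg (fun φ => ModuleCat.Hom.hom φ ((layerSmoothIso A hU n).inv.hom y))
    (infLayer_comp_layerSmoothIso A h hU hV n)
  simp only [ModuleCat.hom_comp, LinearMap.comp_apply] at hT
  rw [h0, map_zero] at hT
  have h2 : (layerSmoothIso A hU n).hom.hom ((layerSmoothIso A hU n).inv.hom y) = y := by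
    have := congrArg (fun φ => ModuleCat.Hom.hom φ y) (layerSmoothIso A hU n).inv_hom_id
    simp only [ModuleCat.hom_comp, LinearMap.comp_apply] at this
    exact this
  rw [h2] at hT
  exact hT.symm

end LevelInf

/-! ### Restriction to a subgroup -/

section Restrict

/-- The restriction of a discrete representation to a subgroup is discrete for the restricted
level structure. -/
theorem isDiscrete_res_restrict (B : Rep.{u} k G) [IsDiscrete 𝒰 B] (K : Subgroup G) :
    IsDiscrete (𝒰.restrict K) (Rep.res K.subtype B) where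
  exists_fix := by
    intro (b : B)
    obtain ⟨U, hU, hb⟩ := IsDiscrete.exists_fix (𝒰 := 𝒰) b
    exact ⟨U.subgroupOf K, 𝒰.mem_restrict_sets K hU, fun u hu => hb (u : G) hu⟩

end Restrict

end Fermat.Agent.S55.SmoothPart
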