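/-
S55: change of scalars `ℤ ↔ k` for group cohomology and level cohomology.

The frozen S55 statement and the duality machine live over `k = ZMod p`, while Kummer sequences,
idele class modules, Hilbert 90 etc. live in `Rep ℤ G`.  This file identifies the cohomology of a
`k`-linear representation `A` with the cohomology of its underlying `ℤ`-linear representation
`toIntRep A`, as additive groups, compatibly with representatives, with the maps induced by group
homomorphisms / coefficient morphisms, with the comparison level → abstract cohomology, and with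
connecting homomorphisms.

Generic engine: `AddComparison` / `AddIsoComparison` between cochain complexes of modules over two
different rings (`mapH`, `homologyAddEquiv`, `mapH_natural`, `mapH_δ`), on `CochainTools`.
-/
import Fermat.Agent.S55.LevelElem
import Fermat.Agent.S55.CochainTools

set_option autoImplicit false

open CategoryTheory

namespace Fermat.Agent.S55.LevelScalars

open Fermat.Agent.S55.CochainTools Fermat.Agent.S55.Level groupCohomology

section Generic

universe v v' u u'

variable {R : Type u} {k : Type u'} [CommRing R] [CommRing k]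

section Lift

variable (K : CochainComplex (ModuleCat.{v} R) ℕ)

/-- Additive maps out of the homology of a complex of modules: an additive map on cocycles killing
coboundaries descends. -/
noncomputable def liftAdd {P : Type*} [AddCommGroup P] (n : ℕ) (f : Z K n →+ P)
    (hf : ∀ z ∈ B K n, f z = 0) : K.homology n →+ P :=
  (QuotientAddGroup.lift (B K n).toAddSubgroup f fun z hz => hf z hz).comp
    (homologyEquiv K n).toLinearMap.toAddMonoidHom

@[simp]
lemma liftAdd_cls {P : Type*} [AddCommGroup P] (n : ℕ) (f : Z K n →+ P)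
    (hf : ∀ z ∈ B K n, f z = 0) (z : Z K n) : liftAdd K n f hf (cls K n z) = f z := by
  show QuotientAddGroup.lift (B K n).toAddSubgroup f (fun z hz => hf z hz)
    (homologyEquiv K n (cls K n z)) = f z
  rw [homologyEquiv_cls]
  rfl

lemma addHom_ext {P : Type*} [AddCommGroup P] {n : ℕ} {f g : K.homology n →+ P}
    (h : ∀ z : Z K n, f (cls K n z) = g (cls K n z)) : f = g := by
  ext x
  obtain ⟨z, rfl⟩ := cls_surjective K n x
  exact h z

end Lift

variable (K : CochainComplex (ModuleCat.{v} R) ℕ) (L : CochainComplex (ModuleCat.{v'} k) ℕ)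

/-- An additive comparison between two cochain complexes over possibly different rings: additive
maps between the terms commuting with the differentials. -/
structure AddComparison where
  /-- the additive maps in each degree -/
  toFun : ∀ n, K.X n →+ L.X n
  comm : ∀ n (x : K.X n), toFun (n + 1) ((K.d n (n + 1)).hom x) = (L.d n (n + 1)).hom (toFun n x)

variable {K L}

namespace AddComparison

variable (c : AddComparison K L)

/-- The induced map on cocycles. -/
def mapZ (n : ℕ) : Z K n →+ Z L n where
  toFun z := ⟨c.toFun n z.1, by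
    rw [mem_Z_iff, ← c.comm, (mem_Z_iff K z.1).1 z.2, map_zero]⟩
  map_zero' := Subtype.ext (map_zero _)
  map_add' x y := Subtype.ext (map_add _ _ _)

@[simp] lemma coe_mapZ (n : ℕ) (z : Z K n) : (c.mapZ n z : L.X n) = c.toFun n z.1 := rfl

lemma mapZ_mem_B (n : ℕ) (z : Z K n) (hz : z ∈ B K n) : c.mapZ n z ∈ B L n := by
  cases n with
  | zero =>
    rw [mem_B_zero_iff] at hz ⊢
    rw [hz, map_zero]
  | succ m =>
    rw [mem_B_succ_iff] at hz ⊢
    obtain ⟨x, hx⟩ := hz
    exact ⟨c.toFun m x, by rw [← c.comm, hx]; rfl⟩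

/-- The induced additive map on homology. -/
noncomputable def mapH (n : ℕ) : K.homology n →+ L.homology n :=
  liftAdd K n ((cls L n).toAddMonoidHom.comp (c.mapZ n)) fun z hz => by
    simp only [AddMonoidHom.coe_comp, Function.comp_apply, LinearMap.toAddMonoidHom_coe]
    exact (cls_eq_zero_iff L _).2 (c.mapZ_mem_B n z hz)

@[simp]
lemma mapH_cls (n : ℕ) (z : Z K n) : c.mapH n (cls K n z) = cls L n (c.mapZ n z) := by
  simp [mapH]

/-- Naturality of the induced map on homology with respect to chain maps on both sides. -/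
lemma mapH_natural {K' : CochainComplex (ModuleCat.{v} R) ℕ}
    {L' : CochainComplex (ModuleCat.{v'} k) ℕ} (c' : AddComparison K' L') (Φ : K ⟶ K')
    (Ψ : L ⟶ L') (h : ∀ n (x : K.X n), c'.toFun n ((Φ.f n).hom x) = (Ψ.f n).hom (c.toFun n x))
    (n : ℕ) (x : K.homology n) :
    c'.mapH n ((HomologicalComplex.homologyMap Φ n).hom x) =
      (HomologicalComplex.homologyMap Ψ n).hom (c.mapH n x) := by
  obtain ⟨z, rfl⟩ := cls_surjective K n x
  rw [homologyMap_cls, mapH_cls, mapH_cls, homologyMap_cls]
  congr 1
  exact Subtype.ext (h n z.1)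

end AddComparison

/-- An additive isomorphism of cochain complexes over possibly different rings. -/
structure AddIsoComparison (K : CochainComplex (ModuleCat.{v} R) ℕ)
    (L : CochainComplex (ModuleCat.{v'} k) ℕ) where
  /-- the additive equivalences in each degree -/
  toEquiv : ∀ n, K.X n ≃+ L.X n
  comm : ∀ n (x : K.X n),
    toEquiv (n + 1) ((K.d n (n + 1)).hom x) = (L.d n (n + 1)).hom (toEquiv n x)

namespace AddIsoComparison

variable (e : AddIsoComparison K L)

/-- The forward comparison. -/
def fwd : AddComparison K L := ⟨fun n => (e.toEquiv n).toAddMonoidHom, e.comm⟩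

/-- The backward comparison. -/
def bwd : AddComparison L K :=
  ⟨fun n => (e.toEquiv n).symm.toAddMonoidHom, fun n x => by
    apply (e.toEquiv (n + 1)).injective
    simp only [AddEquiv.coe_toAddMonoidHom, AddEquiv.apply_symm_apply, e.comm]⟩

/-- **Homology does not see the ring of scalars**: an additive isomorphism of complexes induces an
additive isomorphism on homology. -/
noncomputable def homologyAddEquiv (n : ℕ) : K.homology n ≃+ L.homology n where
  toFun := e.fwd.mapH n
  invFun := e.bwd.mapH n
  left_inv x := by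
    obtain ⟨z, rfl⟩ := cls_surjective K n x
    rw [AddComparison.mapH_cls, AddComparison.mapH_cls]
    congr 1
    exact Subtype.ext ((e.toEquiv n).symm_apply_apply z.1)
  right_inv x := by
    obtain ⟨z, rfl⟩ := cls_surjective L n x
    rw [AddComparison.mapH_cls, AddComparison.mapH_cls]
    congr 1
    exact Subtype.ext ((e.toEquiv n).apply_symm_apply z.1)
  map_add' := map_add _

lemma homologyAddEquiv_cls (n : ℕ) (z : Z K n) :
    e.homologyAddEquiv n (cls K n z) = cls L n (e.fwd.mapZ n z) :=
  e.fwd.mapH_cls n z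

lemma homologyAddEquiv_symm_cls (n : ℕ) (z : Z L n) :
    (e.homologyAddEquiv n).symm (cls L n z) = cls K n (e.bwd.mapZ n z) :=
  e.bwd.mapH_cls n z

end AddIsoComparison

section Delta

open ShortComplex

variable {R : Type u} {k : Type u'} [CommRing R] [CommRing k]

/-- In a short exact sequence of cochain complexes of modules, `g` is degreewise surjective. -/
lemma surjective_g_of_shortExact {S : ShortComplex (CochainComplex (ModuleCat.{v} R) ℕ)}
    (hS : S.ShortExact) (i : ℕ) : Function.Surjective (S.g.f i).hom := by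
  have h := hS.map_of_exact (HomologicalComplex.eval (ModuleCat.{v} R) (ComplexShape.up ℕ) i)
  have := h.epi_g
  exact (ModuleCat.epi_iff_surjective _).1 this

/-- In a short exact sequence of cochain complexes of modules, `ker g ⊆ im f` degreewise. -/
lemma exists_f_eq_of_shortExact {S : ShortComplex (CochainComplex (ModuleCat.{v} R) ℕ)}
    (hS : S.ShortExact) (i : ℕ) (x₂ : S.X₂.X i) (hx₂ : (S.g.f i).hom x₂ = 0) :
    ∃ x₁ : S.X₁.X i, (S.f.f i).hom x₁ = x₂ := by
  have h := hS.map_of_exact (HomologicalComplex.eval (ModuleCat.{v} R) (ComplexShape.up ℕ) i)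
  have hex := h.exact
  rw [ShortComplex.moduleCat_exact_iff] at hex
  exact hex x₂ hx₂

/-- Additive comparisons of short exact sequences of complexes commute with the connecting
homomorphisms. -/
theorem AddComparison.mapH_δ {S : ShortComplex (CochainComplex (ModuleCat.{v} R) ℕ)}
    {T : ShortComplex (CochainComplex (ModuleCat.{v'} k) ℕ)} (hS : S.ShortExact)
    (hT : T.ShortExact) (c₁ : AddComparison S.X₁ T.X₁) (c₂ : AddComparison S.X₂ T.X₂)
    (c₃ : AddComparison S.X₃ T.X₃)
    (hf : ∀ n (x : S.X₁.X n), c₂.toFun n ((S.f.f n).hom x) = (T.f.f n).hom (c₁.toFun n x))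
    (hg : ∀ n (x : S.X₂.X n), c₃.toFun n ((S.g.f n).hom x) = (T.g.f n).hom (c₂.toFun n x))
    (i : ℕ) (x : S.X₃.homology i) :
    c₁.mapH (i + 1) ((hS.δ i (i + 1) rfl).hom x) = (hT.δ i (i + 1) rfl).hom (c₃.mapH i x) := by
  obtain ⟨x₃, rfl⟩ := cls_surjective S.X₃ i x
  obtain ⟨x₂, hx₂⟩ := surjective_g_of_shortExact hS i x₃.1
  have hd : (S.g.f (i + 1)).hom ((S.X₂.d i (i + 1)).hom x₂) = 0 := by
    have h1 := congrArg (fun ψ => ModuleCat.Hom.hom ψ x₂) (S.g.comm i (i + 1))
    simp only [ModuleCat.hom_comp, LinearMap.comp_apply] at h1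
    rw [← h1, hx₂]
    exact x₃.2
  obtain ⟨x₁, hx₁⟩ := exists_f_eq_of_shortExact hS (i + 1) _ hd
  obtain ⟨h1, e1⟩ := δ_cls hS i x₃ x₂ hx₂ x₁ hx₁
  obtain ⟨h2, e2⟩ := δ_cls hT i (c₃.mapZ i x₃) (c₂.toFun i x₂)
    (by rw [← hg, hx₂]; rfl) (c₁.toFun (i + 1) x₁) (by rw [← hf, hx₁, c₂.comm])
  rw [e1, mapH_cls, mapH_cls, e2]
  rfl

end Delta

end Generic

section Rep

variable {k G : Type} [CommRing k] [Group G]

/-- The underlying `ℤ`-linear representation of a `k`-linear representation (same carrier, with
its canonical `ℤ`-module structure). -/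
noncomputable def toIntRep (A : Rep.{0} k G) : Rep.{0} ℤ G :=
  Rep.of (X := A.V) (k := ℤ)
    { toFun := fun g => (A.ρ g).toAddMonoidHom.toIntLinearMap
      map_one' := by ext x; simp
      map_mul' := fun g h => by ext x; simp }

lemma toIntRep_ρ_apply (A : Rep.{0} k G) (g : G) (a : A) : (toIntRep A).ρ g a = A.ρ g a := rfl

/-- The underlying morphism of `ℤ`-linear representations. -/
noncomputable def toIntRepMap {A B : Rep.{0} k G} (φ : A ⟶ B) : toIntRep A ⟶ toIntRep B :=
  Rep.ofHom ⟨φ.hom.toLinearMap.toAddMonoidHom.toIntLinearMap, fun g => by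
    ext x
    exact Rep.hom_comm_apply φ g x⟩

lemma toIntRepMap_apply {A B : Rep.{0} k G} (φ : A ⟶ B) (a : A) :
    (toIntRepMap φ).hom a = φ.hom a := rfl

lemma d_toIntRep (A : Rep.{0} k G) (n : ℕ) (f : (Fin n → G) → toIntRep A) :
    (inhomogeneousCochains.d (toIntRep A) n).hom f =
      (inhomogeneousCochains.d A n).hom (show (Fin n → G) → A from f) := by
  funext g
  have h1 := inhomogeneousCochains.d_hom_apply (toIntRep A) n f g
  have h2 := inhomogeneousCochains.d_hom_apply A n (show (Fin n → G) → A from f) g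
  refine h1.trans (Eq.trans ?_ h2.symm)
  congr 1
  refine Finset.sum_congr rfl fun j _ => ?_
  show ((-1 : ℤ) ^ ((j : ℕ) + 1)) • (show A from f _) = ((-1 : k) ^ ((j : ℕ) + 1)) • (show A from f _)
  rw [← Int.cast_smul_eq_zsmul k]
  push_cast
  rfl

instance isDiscrete_toIntRep (𝒰 : LevelStructure G) (A : Rep.{0} k G) [IsDiscrete 𝒰 A] :
    IsDiscrete 𝒰 (toIntRep A) :=
  ⟨fun a => IsDiscrete.exists_fix (𝒰 := 𝒰) (A := A) a⟩

end Rep

section Compare

variable {k G : Type} [CommRing k] [Group G] (A : Rep.{0} k G)

/-- The complexes of inhomogeneous cochains of `A` and of its underlying `ℤ`-representation have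
the same underlying additive groups and differentials. -/
noncomputable def cochainsIntComparison :
    AddIsoComparison (inhomogeneousCochains (toIntRep A)) (inhomogeneousCochains A) where
  toEquiv n := AddEquiv.refl ((Fin n → G) → A.V)
  comm n x := by
    simp only [CochainComplex.of_d]
    exact d_toIntRep A n x

/-- **Group cohomology does not depend on the ring of scalars**, as an additive group. -/
noncomputable def groupCohomologyIntEquiv (n : ℕ) :
    groupCohomology (toIntRep A) n ≃+ groupCohomology A n :=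
  (cochainsIntComparison A).homologyAddEquiv n

variable (𝒰 : LevelStructure G) [IsDiscrete 𝒰 A]

/-- The level complexes of `A` and of its underlying `ℤ`-representation have the same underlying
additive groups and differentials. -/
noncomputable def levelIntComparison :
    AddIsoComparison (levelComplex 𝒰 (toIntRep A)) (levelComplex 𝒰 A) where
  toEquiv n :=
    { toFun := fun x => (⟨(show levelCochains 𝒰 (toIntRep A) n from x).1,
        (show levelCochains 𝒰 (toIntRep A) n from x).2⟩ : levelCochains 𝒰 A n)
      invFun := fun x => (⟨(show levelCochains 𝒰 A n from x).1,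
        (show levelCochains 𝒰 A n from x).2⟩ : levelCochains 𝒰 (toIntRep A) n)
      left_inv := fun _ => rfl
      right_inv := fun _ => rfl
      map_add' := fun _ _ => rfl }
  comm n x := by
    simp only [levelComplex, CochainComplex.of_d]
    exact Subtype.ext (d_toIntRep A n (show levelCochains 𝒰 (toIntRep A) n from x).1)

/-- **Level cohomology does not depend on the ring of scalars**, as an additive group. -/
noncomputable def levelCohomologyIntEquiv (n : ℕ) :
    levelCohomology 𝒰 (toIntRep A) n ≃+ levelCohomology 𝒰 A n :=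
  (levelIntComparison A 𝒰).homologyAddEquiv n

/-- `levelπ` (classes of level cocycles, `LevelElem`) in terms of `CochainTools.cls`. -/
lemma levelπ_eq_cls {k G : Type} [CommRing k] [Group G] (B : Rep.{0} k G) (𝒰 : LevelStructure G)
    [IsDiscrete 𝒰 B] (n : ℕ) (z : levelCocycles 𝒰 B n) (hz : (show (levelComplex 𝒰 B).X n from
      (⟨z.1, z.2.1⟩ : levelCochains 𝒰 B n)) ∈ Z (levelComplex 𝒰 B) n) :
    (levelπ 𝒰 B n).hom z = cls (levelComplex 𝒰 B) n ⟨_, hz⟩ := by
  show ((levelComplex 𝒰 B).homologyπ n).hom ((levelCyclesMk 𝒰 B n).hom z) = _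
  rw [← cls_cyclesEquiv]
  congr 1
  apply Subtype.ext
  rw [coe_cyclesEquiv]
  exact Subtype.ext (iCycles_levelCyclesMk 𝒰 B n z)

lemma mem_Z_levelComplex {k G : Type} [CommRing k] [Group G] (B : Rep.{0} k G)
    (𝒰 : LevelStructure G) [IsDiscrete 𝒰 B] (n : ℕ) (z : levelCocycles 𝒰 B n) :
    (show (levelComplex 𝒰 B).X n from (⟨z.1, z.2.1⟩ : levelCochains 𝒰 B n)) ∈
      Z (levelComplex 𝒰 B) n := by
  rw [mem_Z_iff]
  simp only [levelComplex, CochainComplex.of_d]
  exact Subtype.ext z.2.2

/-- On representatives: the class of a level cocycle of the underlying `ℤ`-representation is sent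
to the class of the same cocycle. -/
theorem levelCohomologyIntEquiv_levelπ (n : ℕ) (z : levelCocycles 𝒰 (toIntRep A) n)
    (z' : levelCocycles 𝒰 A n) (h : z.1 = z'.1) :
    levelCohomologyIntEquiv A 𝒰 n ((levelπ 𝒰 (toIntRep A) n).hom z) = (levelπ 𝒰 A n).hom z' := by
  rw [levelπ_eq_cls (toIntRep A) 𝒰 n z (mem_Z_levelComplex (toIntRep A) 𝒰 n z),
    levelπ_eq_cls A 𝒰 n z' (mem_Z_levelComplex A 𝒰 n z')]
  refine ((levelIntComparison A 𝒰).homologyAddEquiv_cls n _).trans ?_
  congr 1
  exact Subtype.ext (Subtype.ext h)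

end Compare

section Naturality

variable {k G H : Type} [CommRing k] [Group G] [Group H] {𝒰 : LevelStructure G}
  {𝒱 : LevelStructure H} {A : Rep.{0} k G} {B : Rep.{0} k H} [IsDiscrete 𝒰 A] [IsDiscrete 𝒱 B]

/-- The underlying morphism of `ℤ`-representations of a morphism `res f A ⟶ B`. -/
noncomputable def toIntRepResMap (f : H →* G) (φ : Rep.res f A ⟶ B) :
    Rep.res f (toIntRep A) ⟶ toIntRep B :=
  toIntRepMap φ

lemma toIntRepResMap_apply (f : H →* G) (φ : Rep.res f A ⟶ B) (a : A) :
    (toIntRepResMap f φ).hom a = φ.hom a := rfl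

/-- The comparison of scalars commutes with the maps induced by group homomorphisms and
morphisms of coefficients (restriction, inflation, ...). -/
theorem levelCohomologyIntEquiv_map (f : H →* G) (hf : 𝒱.Refines 𝒰 f) (φ : Rep.res f A ⟶ B)
    (n : ℕ) (x : levelCohomology 𝒰 (toIntRep A) n) :
    levelCohomologyIntEquiv B 𝒱 n
        ((levelCohomologyMap f hf (toIntRepResMap f φ) n).hom x) =
      (levelCohomologyMap f hf φ n).hom (levelCohomologyIntEquiv A 𝒰 n x) :=
  (levelIntComparison A 𝒰).fwd.mapH_natural (levelIntComparison B 𝒱).fwd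
    (levelCochainsMap f hf (toIntRepResMap f φ)) (levelCochainsMap f hf φ)
    (fun _ _ => rfl) n x

/-- The same for Mathlib's group cohomology. -/
theorem groupCohomologyIntEquiv_map (f : H →* G) (φ : Rep.res f A ⟶ B)
    (n : ℕ) (x : groupCohomology (toIntRep A) n) :
    groupCohomologyIntEquiv B n ((groupCohomology.map f (toIntRepResMap f φ) n).hom x) =
      (groupCohomology.map f φ n).hom (groupCohomologyIntEquiv A n x) :=
  (cochainsIntComparison A).fwd.mapH_natural (cochainsIntComparison B).fwd
    (cochainsMap f (toIntRepResMap f φ)) (cochainsMap f φ) (fun _ _ => rfl) n x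

/-- The comparison of scalars commutes with the comparison map from level cohomology to group
cohomology. -/
theorem groupCohomologyIntEquiv_toGroupCohomology (n : ℕ)
    (x : levelCohomology 𝒰 (toIntRep A) n) :
    groupCohomologyIntEquiv A n ((levelCohomologyToGroupCohomology 𝒰 (toIntRep A) n).hom x) =
      (levelCohomologyToGroupCohomology 𝒰 A n).hom (levelCohomologyIntEquiv A 𝒰 n x) :=
  (levelIntComparison A 𝒰).fwd.mapH_natural (cochainsIntComparison A).fwd
    (levelι 𝒰 (toIntRep A)) (levelι 𝒰 A) (fun _ _ => rfl) n x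

end Naturality

section ShortExact

open ShortComplex

/-- Elementwise criterion for short exactness in `Rep`. -/
lemma rep_shortExact_of_elementwise {R G : Type} [CommRing R] [Group G]
    (Y : ShortComplex (Rep.{0} R G)) (hf : Function.Injective Y.f.hom)
    (hg : Function.Surjective Y.g.hom) (hex : ∀ b : Y.X₂, Y.g.hom b = 0 → ∃ a : Y.X₁, Y.f.hom a = b) :
    Y.ShortExact := by
  refine ShortExact.mk' ?_ ((Rep.mono_iff_injective _).2 hf) ((Rep.epi_iff_surjective _).2 hg)
  rw [← ShortComplex.exact_map_iff_of_faithful _ (forget₂ (Rep.{0} R G) (ModuleCat.{0} R)),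
    ShortComplex.moduleCat_exact_iff]
  intro b hb
  exact hex b hb

/-- Elementwise consequences of short exactness in `Rep`. -/
lemma rep_elementwise_of_shortExact {R G : Type} [CommRing R] [Group G]
    {Y : ShortComplex (Rep.{0} R G)} (hY : Y.ShortExact) :
    Function.Injective Y.f.hom ∧ Function.Surjective Y.g.hom ∧
      ∀ b : Y.X₂, Y.g.hom b = 0 → ∃ a : Y.X₁, Y.f.hom a = b := by
  refine ⟨(Rep.mono_iff_injective Y.f).1 hY.mono_f, (Rep.epi_iff_surjective Y.g).1 hY.epi_g, ?_⟩
  intro b hb
  have : LinearMap.range Y.f.hom.toLinearMap = LinearMap.ker Y.g.hom.toLinearMap :=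
    (hY.exact.map (forget₂ (Rep.{0} R G) (ModuleCat.{0} R))).moduleCat_range_eq_ker
  have hb' : b ∈ LinearMap.ker Y.g.hom.toLinearMap := hb
  rw [← this] at hb'
  exact hb'

variable {k G : Type} [CommRing k] [Group G] (X : ShortComplex (Rep.{0} k G))

/-- The underlying short complex of `ℤ`-representations. -/
noncomputable abbrev toIntShortComplex : ShortComplex (Rep.{0} ℤ G) :=
  ShortComplex.mk (toIntRepMap X.f) (toIntRepMap X.g) (by
    ext a
    exact congrArg (fun ψ : X.X₁ ⟶ X.X₃ => ψ.hom a) X.zero)

variable {X}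

theorem toIntShortComplex_shortExact (hX : X.ShortExact) : (toIntShortComplex X).ShortExact := by
  obtain ⟨hf, hg, hex⟩ := rep_elementwise_of_shortExact hX
  exact rep_shortExact_of_elementwise (toIntShortComplex X) hf hg hex

variable (𝒰 : LevelStructure G) [IsDiscrete 𝒰 X.X₁] [IsDiscrete 𝒰 X.X₂] [IsDiscrete 𝒰 X.X₃]

/-- The comparison of scalars commutes with the connecting homomorphisms of level cohomology. -/
theorem levelCohomologyIntEquiv_δ (hX : X.ShortExact) (i : ℕ)
    (x : levelCohomology 𝒰 (toIntRep X.X₃) i) :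
    levelCohomologyIntEquiv X.X₁ 𝒰 (i + 1)
        ((levelδ 𝒰 (toIntShortComplex_shortExact hX) i (i + 1) rfl).hom x) =
      (levelδ 𝒰 hX i (i + 1) rfl).hom (levelCohomologyIntEquiv X.X₃ 𝒰 i x) :=
  AddComparison.mapH_δ (levelShortComplex_shortExact 𝒰 (toIntShortComplex_shortExact hX))
    (levelShortComplex_shortExact 𝒰 hX) (levelIntComparison X.X₁ 𝒰).fwd
    (levelIntComparison X.X₂ 𝒰).fwd (levelIntComparison X.X₃ 𝒰).fwd
    (fun _ _ => rfl) (fun _ _ => rfl) i x

end ShortExact

end Fermat.Agent.S55.LevelScalars
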