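/-
S55 / GL1 part 3 (helper11): the index of the `p`-th powers in the group of `T`-units.

`K` a number field containing a primitive `p`-th root of unity (`p` any natural number `≠ 0` for the
general formula, prime for the headline), `T` a finite set of finite places.  Then
`[E_{K,T} : E_{K,T}^p] = p ^ (#(infinite places) + #T)`
(Dirichlet: `E_{K,T} ≅ μ(K) × ℤ^(r + #T)`, `r + 1 = #(infinite places)`, `μ(K)` cyclic of order
divisible by `p`).  This is the count used in Chevalley's proof of the second inequality (GLO7).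
-/
import Mathlib
import Fermat.Agent.S55.SUnit

set_option autoImplicit false

namespace Fermat.Agent.S55.SUnitPow

open NumberField IsDedekindDomain HeightOneSpectrum Module NumberField.InfinitePlace
open NumberField.Units Fermat.Agent.S55.SUnit

section Abstract

variable {M N : Type*} [AddCommGroup M] [AddCommGroup N]

/-- `[M : pM] = [N : pN] * [τ : pτ]` for a surjection `f : M → N` with kernel `τ` onto a group
without `p`-torsion. -/
theorem index_range_nsmul_eq_mul (p : ℕ) (f : M →+ N) (hf : Function.Surjective f)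
    (hN : ∀ y : N, p • y = 0 → y = 0) :
    (nsmulAddMonoidHom p : M →+ M).range.index =
      (nsmulAddMonoidHom p : N →+ N).range.index *
        (nsmulAddMonoidHom p : f.ker →+ f.ker).range.index := by
  set A := (nsmulAddMonoidHom p : M →+ M).range with hA
  set B := (nsmulAddMonoidHom p : N →+ N).range with hB
  set R := (nsmulAddMonoidHom p : f.ker →+ f.ker).range with hR
  have hAC : A ≤ B.comap f := by
    rintro _ ⟨x, rfl⟩
    exact ⟨f x, by simp [map_nsmul]⟩
  have hC : B.comap f = f.ker ⊔ A := by
    apply le_antisymm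
    · intro x hx
      obtain ⟨y, hy⟩ := hx
      obtain ⟨z, rfl⟩ := hf y
      have hy' : p • f z = f x := hy
      have h1 : x - p • z ∈ f.ker := by
        rw [AddMonoidHom.mem_ker, map_sub, map_nsmul, hy', sub_self]
      have hx' : x = (x - p • z) + p • z := by abel
      rw [hx']
      exact add_mem (AddSubgroup.mem_sup_left h1) (AddSubgroup.mem_sup_right ⟨z, rfl⟩)
    · refine sup_le (fun x hx => ?_) hAC
      rw [AddSubgroup.mem_comap, AddMonoidHom.mem_ker.mp hx]
      exact zero_mem _
  have h1 : A.index = A.relIndex (B.comap f) * (B.comap f).index :=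
    (AddSubgroup.relIndex_mul_index hAC).symm
  have h2 : (B.comap f).index = B.index := AddSubgroup.index_comap_of_surjective B hf
  have hinf : A ⊓ f.ker = R.map f.ker.subtype := by
    ext x
    constructor
    · rintro ⟨⟨y, rfl⟩, hx⟩
      have hy : p • f y = 0 := by
        have := AddMonoidHom.mem_ker.mp hx
        simpa [map_nsmul] using this
      have hyk : y ∈ f.ker := hN _ hy
      exact ⟨p • ⟨y, hyk⟩, ⟨⟨y, hyk⟩, rfl⟩, rfl⟩
    · rintro ⟨_, ⟨y, rfl⟩, rfl⟩
      exact ⟨⟨(y : M), by simp⟩, (p • y).2⟩
  have h3 : A.relIndex (B.comap f) = R.index := by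
    rw [hC, AddSubgroup.relIndex_sup_right, ← AddSubgroup.inf_relIndex_right, hinf,
      AddSubgroup.relIndex, AddSubgroup.addSubgroupOf,
      AddSubgroup.comap_map_eq_self_of_injective f.ker.subtype_injective]
  rw [h1, h2, h3, mul_comm]

end Abstract

variable {K : Type*} [Field K] [NumberField K] (T : Finset (HeightOneSpectrum (𝓞 K)))

/-- `logT` as a surjection onto its range. -/
noncomputable def logTR : Additive (TUnit K T) →+ LinearMap.range (logT (K := K) T) :=
  (logT T).rangeRestrict.toAddMonoidHom

lemma logTR_surjective : Function.Surjective (logTR T) := by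
  rintro ⟨_, ⟨x, rfl⟩⟩
  exact ⟨x, rfl⟩

lemma mem_ker_logTR (x : Additive (TUnit K T)) : x ∈ (logTR T).ker ↔ logT T x = 0 := by
  rw [AddMonoidHom.mem_ker]
  constructor
  · intro h; exact congrArg Subtype.val h
  · intro h; exact Subtype.ext h

/-- The roots of unity, mapped onto the kernel of `logT`. -/
noncomputable def torsionToKer : Additive (torsion K) →+ (logTR T).ker where
  toFun ζ := ⟨Additive.ofMul (unitsToTUnit T ((Additive.toMul ζ : torsion K) : (𝓞 K)ˣ)), by
    rw [mem_ker_logTR, logT_eq_zero_iff]
    exact ⟨_, (Additive.toMul ζ : torsion K).2, rfl⟩⟩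
  map_zero' := by
    apply Subtype.ext
    simp
  map_add' a b := by
    apply Subtype.ext
    simp

lemma torsionToKer_bijective : Function.Bijective (torsionToKer (K := K) T) := by
  constructor
  · intro a b hab
    have h1 : unitsToTUnit T ((Additive.toMul a : torsion K) : (𝓞 K)ˣ) =
        unitsToTUnit T ((Additive.toMul b : torsion K) : (𝓞 K)ˣ) :=
      congrArg (fun x : (logTR T).ker => Additive.toMul (x : Additive (TUnit K T))) hab
    have h2 := unitsToTUnit_injective T h1
    exact congrArg Additive.ofMul (Subtype.ext h2)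
  · rintro ⟨x, hx⟩
    rw [mem_ker_logTR] at hx
    obtain ⟨ζ, hζ, hζx⟩ := (logT_eq_zero_iff T (Additive.toMul x)).mp hx
    exact ⟨Additive.ofMul ⟨ζ, hζ⟩, Subtype.ext (congrArg Additive.ofMul hζx)⟩

/-- The kernel of `logT` is cyclic of order `torsionOrder K`. -/
lemma card_ker_logTR : Nat.card (logTR (K := K) T).ker = torsionOrder K := by
  rw [torsionOrder, ← Nat.card_congr (Equiv.ofBijective _ (torsionToKer_bijective T))]
  rfl

instance : IsAddCyclic (logTR (K := K) T).ker :=
  isAddCyclic_of_surjective (torsionToKer T) (torsionToKer_bijective T).2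

instance : Finite (logTR (K := K) T).ker :=
  Finite.of_surjective (torsionToKer T) (torsionToKer_bijective T).2

/-- **General index formula**: `[E_T : n E_T] = n ^ (r + #T) * gcd (w, n)` (additive notation). -/
theorem index_range_nsmul_TUnit (n : ℕ) (hn : n ≠ 0) :
    (nsmulAddMonoidHom n : Additive (TUnit K T) →+ Additive (TUnit K T)).range.index =
      n ^ (Units.rank K + T.card) * (torsionOrder K).gcd n := by
  have hN : ∀ y : LinearMap.range (logT (K := K) T), n • y = 0 → y = 0 := by
    intro y hy
    apply Subtype.ext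
    have h1 : n • (y : InfinitePlace K ⊕ T → ℝ) = 0 := congrArg Subtype.val hy
    funext i
    have h2 := congrFun h1 i
    simp only [Pi.smul_apply, nsmul_eq_mul, Pi.zero_apply, mul_eq_zero, Nat.cast_eq_zero] at h2
    rcases h2 with h2 | h2
    · exact absurd h2 hn
    · exact h2
  rw [index_range_nsmul_eq_mul n (logTR T) (logTR_surjective T) hN,
    AddSubgroup.index_range_nsmul, finrank_range_logT,
    IsAddCyclic.index_nsmulAddMonoidHom_range, card_ker_logTR]

/-- **Index of the `p`-th powers in the `T`-units** when `ζ_p ∈ K`: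
`[E_T : E_T^p] = p ^ (#(infinite places) + #T)`. -/
theorem index_range_pow_TUnit (p : ℕ) (hp : p ≠ 0) (hζ : ∃ ζ : K, IsPrimitiveRoot ζ p) :
    (powMonoidHom p : TUnit K T →* TUnit K T).range.index =
      p ^ (Fintype.card (InfinitePlace K) + T.card) := by
  have : NeZero p := ⟨hp⟩
  obtain ⟨ζ, hζ⟩ := hζ
  have hdvd : p ∣ torsionOrder K := dvd_torsionOrder_of_isPrimitiveRoot hζ
  have h1 := index_range_nsmul_TUnit T p hp
  rw [Nat.gcd_eq_right hdvd, ← pow_succ] at h1
  have hrk : Units.rank K + T.card + 1 = Fintype.card (InfinitePlace K) + T.card := by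
    have hr : Units.rank K = Fintype.card (InfinitePlace K) - 1 := rfl
    have hpos : 0 < Fintype.card (InfinitePlace K) := Fintype.card_pos
    omega
  rw [hrk] at h1
  rw [← h1, ← Subgroup.index_toAddSubgroup]
  congr 1

/-- Cardinality form. -/
theorem card_TUnit_quot_pow (p : ℕ) (hp : p ≠ 0) (hζ : ∃ ζ : K, IsPrimitiveRoot ζ p) :
    Nat.card (TUnit K T ⧸ (powMonoidHom p : TUnit K T →* TUnit K T).range) =
      p ^ (Fintype.card (InfinitePlace K) + T.card) := by
  rw [← Subgroup.index_eq_card, index_range_pow_TUnit T p hp hζ]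

omit [NumberField K] in
/-- A field containing a primitive `p`-th root of unity with `2 < p` is totally complex. -/
theorem isTotallyComplex_of_isPrimitiveRoot {p : ℕ} (hp : 2 < p) {ζ : K}
    (hζ : IsPrimitiveRoot ζ p) : IsTotallyComplex K := by
  refine ⟨fun w => ?_⟩
  rw [← not_isReal_iff_isComplex]
  intro hw
  have hφ : ComplexEmbedding.IsReal w.embedding := isReal_iff.mp hw
  have hζ' : IsPrimitiveRoot (w.embedding ζ) p := hζ.map_of_injective w.embedding.injective
  -- the image is a real root of unity
  have hreal : (w.embedding ζ) = ((w.embedding ζ).re : ℂ) := by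
    have h1 : (starRingEnd ℂ) (w.embedding ζ) = w.embedding ζ :=
      RingHom.congr_fun (ComplexEmbedding.isReal_iff.mp hφ) ζ
    exact (Complex.conj_eq_iff_re.mp h1).symm
  have hpow : ((w.embedding ζ).re : ℂ) ^ p = 1 := by rw [← hreal]; exact hζ'.pow_eq_one
  have hpow' : (w.embedding ζ).re ^ p = 1 := by exact_mod_cast hpow
  have habs : |(w.embedding ζ).re| = 1 := by
    have h1 : |(w.embedding ζ).re| ^ p = 1 := by rw [← abs_pow, hpow', abs_one]
    exact (pow_eq_one_iff_of_nonneg (abs_nonneg _) (by omega)).mp h1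
  have hsq : (w.embedding ζ) ^ 2 = 1 := by
    rw [hreal]
    have : (w.embedding ζ).re ^ 2 = 1 := by
      rw [← sq_abs, habs, one_pow]
    exact_mod_cast this
  have := hζ'.dvd_of_pow_eq_one 2 hsq
  have := Nat.le_of_dvd (by norm_num) this
  omega

/-- **Index of the `p`-th powers in the `T`-units**, totally complex form:
`[E_T : E_T^p] = p ^ (r₂ + #T)`, `2 r₂ = [K:ℚ]`. -/
theorem index_range_pow_TUnit_of_isTotallyComplex [IsTotallyComplex K] (p : ℕ) (hp : p ≠ 0)
    (hζ : ∃ ζ : K, IsPrimitiveRoot ζ p) :
    (powMonoidHom p : TUnit K T →* TUnit K T).range.index =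
      p ^ (nrComplexPlaces K + T.card) := by
  rw [index_range_pow_TUnit T p hp hζ, card_eq_nrRealPlaces_add_nrComplexPlaces,
    IsTotallyComplex.nrRealPlaces_eq_zero, zero_add]

/-- (R1, shape requested by GLO7) `[E_T : E_T^p] = p ^ (rank K + #T + 1)` when `ζ_p ∈ K`. -/
theorem index_pow_TUnit {p : ℕ} (hp : p.Prime) {ζ : K} (hζ : IsPrimitiveRoot ζ p) :
    (powMonoidHom p : TUnit K T →* TUnit K T).range.index =
      p ^ (Units.rank K + T.card + 1) := by
  rw [index_range_pow_TUnit T p hp.ne_zero ⟨ζ, hζ⟩]
  congr 1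
  have hr : Units.rank K = Fintype.card (InfinitePlace K) - 1 := rfl
  have hpos : 0 < Fintype.card (InfinitePlace K) := Fintype.card_pos
  omega

/-- (R2) If `ζ_p ∈ K` with `p > 2` then `[K:ℚ] = 2 (rank K + 1)`. -/
theorem finrank_eq_two_mul_rank_add_one {p : ℕ} (hp : 2 < p) {ζ : K} (hζ : IsPrimitiveRoot ζ p) :
    Module.finrank ℚ K = 2 * (Units.rank K + 1) := by
  have : IsTotallyComplex K := isTotallyComplex_of_isPrimitiveRoot hp hζ
  have hr : Units.rank K = Fintype.card (InfinitePlace K) - 1 := rfl
  have hpos : 0 < Fintype.card (InfinitePlace K) := Fintype.card_pos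
  have h1 := card_eq_nrRealPlaces_add_nrComplexPlaces (K := K)
  rw [IsTotallyComplex.nrRealPlaces_eq_zero, zero_add] at h1
  rw [IsTotallyComplex.finrank, hr, h1]
  have : 0 < nrComplexPlaces K := by rw [← h1]; exact hpos
  omega

end Fermat.Agent.S55.SUnitPow
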