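/-
S55 / LOC8 (helper22): restriction and corestriction for level cohomology.

For an open subgroup `U` of `(G, 𝒰)` and a discrete `A : Rep k G`:
* `lres 𝒰 U A n : Hⁿ(𝒰, A) ⟶ Hⁿ(𝒰.restrict U, Res A)` (restriction);
* `lcor 𝒰 U A n : Hⁿ(𝒰.restrict U, Res A) ⟶ Hⁿ(𝒰, A)` := (level Shapiro)⁻¹ followed by the trace
  `Coind_U^G Res A ⟶ A` (corestriction);
* `lres_comp_lcor : lres ≫ lcor = [G:U] • 𝟙`, `lcor_levelSh_apply : lcor (sh z) = H(tr) z`;
* naturality of both in the coefficients.

This is the level form of `GC/Cores.lean` (helper27); it provides the map `c` with `c ∘ res = d •`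
consumed by `CFAbs.inv_cores` (`inv ∘ cor = inv`).
-/
import Mathlib
import Fermat.Agent.S55.LevelShapiro
import Fermat.Agent.S55.LevelTransport
import Fermat.Agent.S55.GC.Cores
import Fermat.Agent.S55.CF.LESElem

set_option autoImplicit false
set_option linter.unusedSectionVars false

namespace Fermat.Agent.S55.LevelCores

open CategoryTheory groupCohomology Rep Fermat.Agent.S55.Level Fermat.Agent.S55.LevelTransport
  Fermat.Agent.S55.GC.Shapiro Fermat.Agent.S55.GC.Cores Fermat.Agent.S55.CF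

universe u

variable {k G : Type u} [CommRing k] [Group G] (𝒰 : LevelStructure G) (U : Subgroup G)

/-- The restriction of a discrete representation to a subgroup is discrete for the restricted
level structure. -/
instance isDiscrete_res_restrict (A : Rep.{u} k G) [IsDiscrete 𝒰 A] :
    IsDiscrete (𝒰.restrict U) (res U.subtype A) :=
  ⟨fun a => by
    obtain ⟨V, hV, hfix⟩ := IsDiscrete.exists_fix (𝒰 := 𝒰) (A := A) a
    obtain ⟨W, hW, hWV⟩ := 𝒰.restrict_refines U V hV
    exact ⟨W, hW, fun u hu => hfix (U.subtype u) (hWV hu)⟩⟩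

variable (A : Rep.{u} k G) [IsDiscrete 𝒰 A]

/-- Restriction `Hⁿ(𝒰, A) ⟶ Hⁿ(𝒰.restrict U, Res A)`. -/
noncomputable def lres (n : ℕ) :
    levelCohomology 𝒰 A n ⟶ levelCohomology (𝒰.restrict U) (res U.subtype A) n :=
  levelCohomologyMap U.subtype (𝒰.restrict_refines U) (𝟙 (res U.subtype A)) n

variable [IsOpenSub 𝒰 U]

/-- `Coind_U^G Res A` is discrete. -/
instance isDiscrete_coind_res_restrict :
    IsDiscrete 𝒰 (coind.{u, u, u, u} U.subtype (res U.subtype A)) :=
  isDiscrete_coind 𝒰 U (res U.subtype A)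

/-- Restriction is the unit `A ⟶ Coind Res A` followed by the Shapiro map. -/
theorem Hmap_coindUnit_comp_levelSh (n : ℕ) :
    Hmap 𝒰 (coindUnit U A) n ≫ levelSh 𝒰 U (res U.subtype A) n = lres 𝒰 U A n := by
  have e1 : Hmap 𝒰 (coindUnit U A) n =
      levelCohomologyMap (MonoidHom.id G) 𝒰.refines_id (coindUnit U A) n := rfl
  have e2 : levelSh 𝒰 U (res U.subtype A) n =
      levelCohomologyMap U.subtype (𝒰.restrict_refines U) (coindEval U (res U.subtype A)) n := rfl
  rw [e1, e2, ← levelCohomologyMap_comp]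
  exact levelCohomologyMap_congr (MonoidHom.id_comp U.subtype) _ _ _ _
    (fun a => congrArg (fun φ : res U.subtype A ⟶ res U.subtype A => φ.hom a)
      (res_coindUnit_comp_coindEval U A)) n

/-- **Corestriction** `Hⁿ(𝒰.restrict U, Res A) ⟶ Hⁿ(𝒰, A)` for an open subgroup. -/
noncomputable def lcor (n : ℕ) :
    levelCohomology (𝒰.restrict U) (res U.subtype A) n ⟶ levelCohomology 𝒰 A n :=
  haveI : U.FiniteIndex := IsOpenSub.finiteIndex (𝒰 := 𝒰)
  (levelShIso 𝒰 U (res U.subtype A) n).inv ≫ Hmap 𝒰 (coindTrace U A) n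

/-- Corestriction after the Shapiro map is the map induced by the trace. -/
theorem levelSh_comp_lcor (n : ℕ) :
    haveI : U.FiniteIndex := IsOpenSub.finiteIndex (𝒰 := 𝒰)
    levelSh 𝒰 U (res U.subtype A) n ≫ lcor 𝒰 U A n = Hmap 𝒰 (coindTrace U A) n := by
  unfold lcor
  rw [← levelShIso_hom, Iso.hom_inv_id_assoc]

theorem lcor_levelSh_apply (n : ℕ)
    (z : levelCohomology 𝒰 (coind.{u, u, u, u} U.subtype (res U.subtype A)) n) :
    haveI : U.FiniteIndex := IsOpenSub.finiteIndex (𝒰 := 𝒰)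
    (lcor 𝒰 U A n).hom ((levelSh 𝒰 U (res U.subtype A) n).hom z) =
      (Hmap 𝒰 (coindTrace U A) n).hom z := by
  have := levelSh_comp_lcor 𝒰 U A n
  exact congrArg (fun φ => φ.hom z) this

/-- **`cor ∘ res = index`** for level cohomology. -/
theorem lres_comp_lcor (n : ℕ) :
    lres 𝒰 U A n ≫ lcor 𝒰 U A n = U.index • 𝟙 (levelCohomology 𝒰 A n) := by
  have : U.FiniteIndex := IsOpenSub.finiteIndex (𝒰 := 𝒰)
  rw [← Hmap_coindUnit_comp_levelSh, Category.assoc, levelSh_comp_lcor, ← Hmap_comp,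
    coindUnit_comp_coindTrace, Hmap_nsmul, Hmap_id]

theorem lcor_lres_apply (n : ℕ) (x : levelCohomology 𝒰 A n) :
    (lcor 𝒰 U A n).hom ((lres 𝒰 U A n).hom x) = U.index • x := by
  have := lres_comp_lcor 𝒰 U A n
  exact congrArg (fun φ => φ.hom x) this

section Naturality

variable {A} {B : Rep.{u} k G} [IsDiscrete 𝒰 B] (f : A ⟶ B)

omit [IsOpenSub 𝒰 U] in
/-- Restriction is natural in the coefficients. -/
theorem lres_naturality (n : ℕ) :
    Hmap 𝒰 f n ≫ lres 𝒰 U B n =
      lres 𝒰 U A n ≫ Hmap (𝒰.restrict U) ((resFunctor U.subtype).map f) n :=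
  levelCohomologyMap_naturality U.subtype (𝒰.restrict_refines U) f
    ((resFunctor U.subtype).map f) (𝟙 _) (𝟙 _) (fun _ => rfl) n

/-- The trace is natural in the coefficients. -/
theorem coindTrace_naturality [U.FiniteIndex] :
    coindMap U.subtype ((resFunctor U.subtype).map f) ≫ coindTrace U B =
      coindTrace U A ≫ f := by
  refine Rep.hom_ext (Representation.IntertwiningMap.ext (LinearMap.ext fun x => ?_))
  change (coindTrace U B).hom ((coindMap U.subtype ((resFunctor U.subtype).map f)).hom x) =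
    f.hom ((coindTrace U A).hom x)
  rw [coindTrace_apply, coindTrace_apply, map_sum]
  refine Finset.sum_congr rfl fun q _ => ?_
  induction q using QuotientGroup.induction_on with
  | H g =>
    rw [traceTerm_mk, traceTerm_mk, traceAux_apply, traceAux_apply]
    exact (Rep.hom_comm_apply f g _).symm

/-- Corestriction is natural in the coefficients. -/
theorem lcor_naturality (n : ℕ) :
    lcor 𝒰 U A n ≫ Hmap 𝒰 f n =
      Hmap (𝒰.restrict U) ((resFunctor U.subtype).map f) n ≫ lcor 𝒰 U B n := by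
  have : U.FiniteIndex := IsOpenSub.finiteIndex (𝒰 := 𝒰)
  have h1 := levelSh_naturality 𝒰 U ((resFunctor U.subtype).map f) n
  have h2 : (levelShIso 𝒰 U (res U.subtype A) n).inv ≫
      Hmap 𝒰 (coindMap U.subtype ((resFunctor U.subtype).map f)) n =
      Hmap (𝒰.restrict U) ((resFunctor U.subtype).map f) n ≫
        (levelShIso 𝒰 U (res U.subtype B) n).inv := by
    rw [Iso.inv_comp_eq, ← Category.assoc, Iso.eq_comp_inv]
    exact h1
  have h3 : Hmap 𝒰 (coindMap U.subtype ((resFunctor U.subtype).map f)) n ≫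
      Hmap 𝒰 (coindTrace U B) n = Hmap 𝒰 (coindTrace U A) n ≫ Hmap 𝒰 f n := by
    rw [← Hmap_comp, ← Hmap_comp, coindTrace_naturality]
  unfold lcor
  rw [Category.assoc, ← h3, ← Category.assoc, h2, Category.assoc]

end Naturality

end Fermat.Agent.S55.LevelCores
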