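/-
S55, GLO14 (base case), abstract core of PART E of the blueprint `basecase_v3`: a five lemma in which
the bottom row is the DUAL of an exact sequence, stated for linear maps with exactness in the form
`ker = range` (the shape of `EndgameR2` / `Cone`).  Mathlib only.

Top row      `H0 --loc0--> P0 --∂0--> Hc1 --j1--> H1 --loc1--> P1`          (cone sequence of `μ_p`)
Dual of      `P1' --∂1'--> Hc2' --j2'--> H2' --loc2'--> P2'`                (cone sequence of `ℤ/p`)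
Verticals    `λ0 : P0 → P2'^*`, `Φ1 : Hc1 → H2'^*`, `Ψ1 : H1 → Hc2'^*`, `λ1 : P1 → P1'^*`.

`bijective_of_dual_five`: if the squares commute up to nonzero scalars, `λ0` and `Ψ1` are
bijective, `λ1` is injective, and every functional on `P2'` killing the image of `loc2'` comes from
`H0` (this replaces the fifth vertical map; in the application it is (K2): the image of
`H²(G,ℤ/p)` in `⊕ H²(G_w,ℤ/p)` is the kernel of the sum of the invariants), then `Φ1` is bijective.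
-/
import Mathlib

set_option autoImplicit false

open Module

namespace Fermat.Agent.S55.FiveDual

variable {k : Type*} [Field k]

section DualExact

variable {U V W : Type*} [AddCommGroup U] [Module k U] [AddCommGroup V] [Module k V]
  [AddCommGroup W] [Module k W]

/-- A functional vanishing on the kernel of `f` factors through `f`. -/
theorem exists_comp_eq_of_ker_le (f : V →ₗ[k] W) (ζ : Dual k V)
    (h : ∀ v, f v = 0 → ζ v = 0) : ∃ ξ : Dual k W, ξ ∘ₗ f = ζ := by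
  have hmem : ζ ∈ LinearMap.range f.dualMap := by
    rw [LinearMap.range_dualMap_eq_dualAnnihilator_ker, Submodule.mem_dualAnnihilator]
    intro v hv
    exact h v (LinearMap.mem_ker.1 hv)
  obtain ⟨ξ, hξ⟩ := hmem
  exact ⟨ξ, hξ⟩

/-- The dual of an exact sequence of vector spaces is exact (`ker = range` form). -/
theorem dualMap_exact (f : U →ₗ[k] V) (g : V →ₗ[k] W)
    (h : LinearMap.ker g = LinearMap.range f) :
    LinearMap.ker f.dualMap = LinearMap.range g.dualMap := by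
  ext ζ
  rw [LinearMap.mem_ker, LinearMap.mem_range]
  constructor
  · intro hζ
    obtain ⟨ξ, hξ⟩ := exists_comp_eq_of_ker_le g ζ (fun v hv => by
      have hv' : v ∈ LinearMap.range f := h ▸ (LinearMap.mem_ker.2 hv)
      obtain ⟨u, rfl⟩ := hv'
      exact LinearMap.congr_fun hζ u)
    exact ⟨ξ, hξ⟩
  · rintro ⟨ξ, rfl⟩
    ext u
    have : g (f u) = 0 := LinearMap.mem_ker.1 (h ▸ LinearMap.mem_range_self f u)
    simp [LinearMap.dualMap_apply, this]

end DualExact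

section Five

variable {H0 P0 Hc1 H1 P1 P1' Hc2' H2' P2' : Type*}
  [AddCommGroup H0] [Module k H0] [AddCommGroup P0] [Module k P0]
  [AddCommGroup Hc1] [Module k Hc1] [AddCommGroup H1] [Module k H1]
  [AddCommGroup P1] [Module k P1] [AddCommGroup P1'] [Module k P1']
  [AddCommGroup Hc2'] [Module k Hc2'] [AddCommGroup H2'] [Module k H2']
  [AddCommGroup P2'] [Module k P2']
  (loc0 : H0 →ₗ[k] P0) (d0 : P0 →ₗ[k] Hc1) (j1 : Hc1 →ₗ[k] H1) (loc1 : H1 →ₗ[k] P1)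
  (d1' : P1' →ₗ[k] Hc2') (j2' : Hc2' →ₗ[k] H2') (loc2' : H2' →ₗ[k] P2')
  (lam0 : P0 →ₗ[k] Dual k P2') (Φ1 : Hc1 →ₗ[k] Dual k H2') (Ψ1 : H1 →ₗ[k] Dual k Hc2')
  (lam1 : P1 →ₗ[k] Dual k P1')

/-- Injectivity half of the dual five lemma. -/
theorem injective_of_dual_five
    (hd0 : ∀ c, d0 (loc0 c) = 0)
    (hj1 : LinearMap.ker j1 = LinearMap.range d0)
    {ε₁ ε₂ : k} (hε₁ : ε₁ ≠ 0)
    (hsq1 : ∀ b y, Φ1 (d0 b) y = ε₁ * lam0 b (loc2' y))
    (hsq2 : ∀ a z, Ψ1 (j1 a) z = ε₂ * Φ1 a (j2' z))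
    (hlam0 : Function.Injective lam0) (hΨ1 : Function.Injective Ψ1)
    (hK2 : ∀ ξ : Dual k P2', (∀ y, ξ (loc2' y) = 0) → ∃ c : H0, lam0 (loc0 c) = ξ) :
    Function.Injective Φ1 := by
  rw [← LinearMap.ker_eq_bot, LinearMap.ker_eq_bot']
  intro a ha
  -- `j1 a = 0`
  have h1 : j1 a = 0 := by
    apply hΨ1
    rw [map_zero]
    ext z
    rw [hsq2, ha]
    simp
  -- `a = d0 b`
  obtain ⟨b, rfl⟩ : a ∈ LinearMap.range d0 := hj1 ▸ LinearMap.mem_ker.2 h1
  -- `lam0 b` kills the image of `loc2'`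
  have h2 : ∀ y, lam0 b (loc2' y) = 0 := fun y => by
    have := hsq1 b y
    rw [ha] at this
    have h3 : ε₁ * lam0 b (loc2' y) = 0 := by simpa using this.symm
    exact (mul_eq_zero.1 h3).resolve_left hε₁
  obtain ⟨c, hc⟩ := hK2 (lam0 b) h2
  have : loc0 c = b := hlam0 hc
  rw [← this, hd0]

/-- Surjectivity half of the dual five lemma. -/
theorem surjective_of_dual_five
    (hloc1 : LinearMap.ker loc1 = LinearMap.range j1)
    (hj2' : LinearMap.ker j2' = LinearMap.range d1')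
    (hloc2' : LinearMap.ker loc2' = LinearMap.range j2')
    {ε₁ ε₂ ε₃ : k} (hε₁ : ε₁ ≠ 0) (hε₂ : ε₂ ≠ 0)
    (hsq1 : ∀ b y, Φ1 (d0 b) y = ε₁ * lam0 b (loc2' y))
    (hsq2 : ∀ a z, Ψ1 (j1 a) z = ε₂ * Φ1 a (j2' z))
    (hsq3 : ∀ x w, lam1 (loc1 x) w = ε₃ * Ψ1 x (d1' w))
    (hlam0 : Function.Surjective lam0) (hΨ1 : Function.Surjective Ψ1)
    (hlam1 : Function.Injective lam1) :
    Function.Surjective Φ1 := by
  intro η
  -- lift `η ∘ j2'` through `Ψ1`
  obtain ⟨x, hx⟩ := hΨ1 (ε₂ • (η ∘ₗ j2'))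
  -- `loc1 x = 0`
  have h1 : loc1 x = 0 := by
    apply hlam1
    rw [map_zero]
    ext w
    rw [hsq3, hx]
    have : j2' (d1' w) = 0 := LinearMap.mem_ker.1 (hj2' ▸ LinearMap.mem_range_self d1' w)
    simp [this]
  obtain ⟨a, rfl⟩ : x ∈ LinearMap.range j1 := hloc1 ▸ LinearMap.mem_ker.2 h1
  -- `Φ1 a - η` kills the image of `j2'`, hence factors through `loc2'`
  have h2 : ∀ y, loc2' y = 0 → (Φ1 a - η) y = 0 := by
    intro y hy
    obtain ⟨z, rfl⟩ : y ∈ LinearMap.range j2' := hloc2' ▸ LinearMap.mem_ker.2 hy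
    have h3 := hsq2 a z
    rw [hx] at h3
    have h4 : ε₂ * η (j2' z) = ε₂ * Φ1 a (j2' z) := by simpa using h3
    have h5 := mul_left_cancel₀ hε₂ h4
    rw [LinearMap.sub_apply, ← h5, sub_self]
  obtain ⟨ξ, hξ⟩ := exists_comp_eq_of_ker_le loc2' (Φ1 a - η) h2
  obtain ⟨b, hb⟩ := hlam0 (ε₁⁻¹ • ξ)
  refine ⟨a - d0 b, ?_⟩
  ext y
  rw [map_sub, LinearMap.sub_apply, hsq1, hb]
  have h6 : ξ (loc2' y) = (Φ1 a - η) y := by rw [← hξ]; rfl
  rw [LinearMap.smul_apply, smul_eq_mul, ← mul_assoc, mul_inv_cancel₀ hε₁, one_mul, h6,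
    LinearMap.sub_apply]
  ring

/-- **Dual five lemma** (PART E of the base case). -/
theorem bijective_of_dual_five
    (hd0 : ∀ c, d0 (loc0 c) = 0)
    (hj1 : LinearMap.ker j1 = LinearMap.range d0)
    (hloc1 : LinearMap.ker loc1 = LinearMap.range j1)
    (hj2' : LinearMap.ker j2' = LinearMap.range d1')
    (hloc2' : LinearMap.ker loc2' = LinearMap.range j2')
    {ε₁ ε₂ ε₃ : k} (hε₁ : ε₁ ≠ 0) (hε₂ : ε₂ ≠ 0)
    (hsq1 : ∀ b y, Φ1 (d0 b) y = ε₁ * lam0 b (loc2' y))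
    (hsq2 : ∀ a z, Ψ1 (j1 a) z = ε₂ * Φ1 a (j2' z))
    (hsq3 : ∀ x w, lam1 (loc1 x) w = ε₃ * Ψ1 x (d1' w))
    (hlam0 : Function.Bijective lam0) (hΨ1 : Function.Bijective Ψ1)
    (hlam1 : Function.Injective lam1)
    (hK2 : ∀ ξ : Dual k P2', (∀ y, ξ (loc2' y) = 0) → ∃ c : H0, lam0 (loc0 c) = ξ) :
    Function.Bijective Φ1 :=
  ⟨injective_of_dual_five loc0 d0 j1 j2' loc2' lam0 Φ1 Ψ1 hd0 hj1 hε₁ hsq1 hsq2
      hlam0.1 hΨ1.1 hK2,
    surjective_of_dual_five d0 j1 loc1 d1' j2' loc2' lam0 Φ1 Ψ1 lam1 hloc1 hj2' hloc2' hε₁ hε₂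
      hsq1 hsq2 hsq3 hlam0.2 hΨ1.2 hlam1⟩

end Five

end Fermat.Agent.S55.FiveDual
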