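/-
S55, route R2: the ALG3-side glue for MAIN (dévissage of the global duality maps).

* `Hc⁰` vanishes as soon as there is at least one place; hence `Hc¹(X₁) → Hc¹(X₂)` is injective
  for a short exact sequence `0 → X₁ → X₂ → X₃ → 0`.
* One dévissage step for the duality maps `Phi`: for short exact sequences
  `0 → X₁ → X₂ → X₃ → 0` and `0 → X'₁ → X'₂ → X'₃ → 0` of discrete representations with
  equivariant pairings `X₁ × X'₃ → C`, `X₂ × X'₂ → C`, `X₃ × X'₁ → C` for which the maps of the two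
  sequences are adjoint,
    - `Φ¹_{X₂}` injective  ⇒  `Φ¹_{X₁}` injective;
    - `Φ¹_{X₂}` surjective, `Φ¹_{X₃}` injective, `Φ²_{X₂}` injective  ⇒  `Φ²_{X₁}` injective.
-/
import Fermat.Agent.S55.ConePairing
import Fermat.Agent.S55.FiveDual
import Fermat.Agent.S55.Devissage

set_option autoImplicit false

namespace Fermat.Agent.S55.Cone

open CategoryTheory Module Fermat.Agent.S55.CochainTools Fermat.Agent.S55.Level

universe u

section Zero

variable {k G : Type u} [CommRing k] [Group G]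

/-- In degree `0` the restriction map on level cohomology is injective. -/
theorem levelCohomologyMap_zero_injective {H : Type u} [Group H] {𝒰 : LevelStructure G}
    {𝒱 : LevelStructure H} (f : H →* G) (hf : 𝒱.Refines 𝒰 f) (A : Rep.{u} k G) [IsDiscrete 𝒰 A]
    [IsDiscrete 𝒱 (Rep.res f A)] :
    Function.Injective (levelCohomologyMap f hf (𝟙 (Rep.res f A)) 0).hom := by
  rw [injective_iff_map_eq_zero]
  intro x hx
  obtain ⟨z, rfl⟩ := cls_surjective (levelComplex 𝒰 A) 0 x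
  have hx' : cls (levelComplex 𝒱 (Rep.res f A)) 0
      (mapZ (levelCochainsMap f hf (𝟙 (Rep.res f A))) 0 z) = 0 :=
    (homologyMap_cls (levelCochainsMap f hf (𝟙 (Rep.res f A))) z).symm.trans hx
  rw [cls_eq_zero_iff, mem_B_zero_iff] at hx'
  have hz : z = 0 := by
    apply Subtype.ext
    apply Subtype.ext
    funext g
    have h1 := congrFun (congrArg Subtype.val (congrArg Subtype.val hx')) (fun i => i.elim0)
    have h2 : (fun i => f ((fun i : Fin 0 => i.elim0) i)) = g := funext fun i => i.elim0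
    have h3 : (show levelCochains 𝒰 A 0 from z.1).1 (fun i => f ((fun i : Fin 0 => i.elim0) i)) =
        0 := h1
    rw [h2] at h3
    exact h3
  rw [hz]
  exact map_zero _

variable {𝒰 : LevelStructure G} (D : LocalData 𝒰)

/-- `Hc⁰` vanishes as soon as there is at least one place. -/
theorem Hc_zero_eq_zero [Nonempty D.ι] (A : Rep.{u} k G) [IsDiscrete 𝒰 A] (x : Hc D A 0) :
    x = 0 := by
  apply HcToH_zero_injective D A
  rw [map_zero]
  obtain ⟨v⟩ := ‹Nonempty D.ι›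
  apply levelCohomologyMap_zero_injective (D.r v) (D.refines v) A
  rw [map_zero]
  have h : HcToH D A 0 x ∈ LinearMap.ker (locH D A 0) := by
    rw [ker_locH_eq_range_HcToH]
    exact ⟨x, rfl⟩
  exact congrFun (LinearMap.mem_ker.1 h) v

open ShortComplex in
/-- `Hc¹(X₁) → Hc¹(X₂)` is injective for a short exact sequence. -/
theorem HcMap_f_one_injective [Nonempty D.ι] {X : ShortComplex (Rep.{u} k G)}
    [IsDiscrete 𝒰 X.X₁] [IsDiscrete 𝒰 X.X₂] [IsDiscrete 𝒰 X.X₃] (hX : X.ShortExact) :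
    Function.Injective (HcMap D X.f 1) := by
  rw [← LinearMap.ker_eq_bot, eq_bot_iff, ker_HcMap_f_eq_range_Hcδ D hX 0 1 rfl]
  rintro _ ⟨q, rfl⟩
  rw [Hc_zero_eq_zero D X.X₃ q, map_zero]
  exact zero_mem _

end Zero

section Step

open ShortComplex

variable {k G : Type u} [Field k] [Group G] {𝒰 : LevelStructure G} (D : LocalData 𝒰)
  {S S' : ShortComplex (Rep.{u} k G)} {C : Rep.{u} k G}
  [IsDiscrete 𝒰 S.X₁] [IsDiscrete 𝒰 S.X₂] [IsDiscrete 𝒰 S.X₃]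
  [IsDiscrete 𝒰 S'.X₁] [IsDiscrete 𝒰 S'.X₂] [IsDiscrete 𝒰 S'.X₃] [IsDiscrete 𝒰 C]
  (hS : S.ShortExact) (hS' : S'.ShortExact)
  (φ₁ : S.X₁ →ₗ[k] S'.X₃ →ₗ[k] C)
  (hφ₁ : ∀ (g : G) (a : S.X₁) (b : S'.X₃), φ₁ (S.X₁.ρ g a) (S'.X₃.ρ g b) = C.ρ g (φ₁ a b))
  (φ₂ : S.X₂ →ₗ[k] S'.X₂ →ₗ[k] C)
  (hφ₂ : ∀ (g : G) (a : S.X₂) (b : S'.X₂), φ₂ (S.X₂.ρ g a) (S'.X₂.ρ g b) = C.ρ g (φ₂ a b))
  (φ₃ : S.X₃ →ₗ[k] S'.X₁ →ₗ[k] C)
  (hφ₃ : ∀ (g : G) (a : S.X₃) (b : S'.X₁), φ₃ (S.X₃.ρ g a) (S'.X₁.ρ g b) = C.ρ g (φ₃ a b))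
  (h₁₂ : ∀ (a : S.X₁) (b : S'.X₂), φ₂ (S.f.hom a) b = φ₁ a (S'.g.hom b))
  (h₂₃ : ∀ (a : S.X₂) (b : S'.X₁), φ₃ (S.g.hom a) b = φ₂ a (S'.f.hom b))
  (tr : Hc D C 3 →ₗ[k] k)

omit [IsDiscrete 𝒰 S'.X₁] in
include h₁₂ hS in
/-- First dévissage step: if `Φ¹` is injective for the middle term, it is injective for the
sub-object. -/
theorem Phi_one_injective_of_step [Nonempty D.ι]
    (hI : Function.Injective (Phi D φ₂ hφ₂ 1 2 3 rfl tr)) :
    Function.Injective (Phi D φ₁ hφ₁ 1 2 3 rfl tr) := by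
  intro x y hxy
  apply HcMap_f_one_injective D hS
  apply hI
  ext z
  rw [Phi_adjoint D φ₁ hφ₁ φ₂ hφ₂ S.f S'.g h₁₂, Phi_adjoint D φ₁ hφ₁ φ₂ hφ₂ S.f S'.g h₁₂, hxy]

include h₁₂ h₂₃ hS hS' in
/-- Second dévissage step (mono four lemma): if `Φ¹` is surjective for the middle term and
injective for the quotient, and `Φ²` is injective for the middle term, then `Φ²` is injective for
the sub-object. -/
theorem Phi_two_injective_of_step
    (hI1 : Function.Surjective (Phi D φ₂ hφ₂ 1 2 3 rfl tr))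
    (hQ1 : Function.Injective (Phi D φ₃ hφ₃ 1 2 3 rfl tr))
    (hI2 : Function.Injective (Phi D φ₂ hφ₂ 2 1 3 rfl tr)) :
    Function.Injective (Phi D φ₁ hφ₁ 2 1 3 rfl tr) := by
  -- the dual row
  let f2 : levelCohomology 𝒰 S'.X₁ 2 →ₗ[k] levelCohomology 𝒰 S'.X₂ 2 :=
    (levelCohomologyMap (MonoidHom.id G) 𝒰.refines_id S'.f 2).hom
  let dl : levelCohomology 𝒰 S'.X₃ 1 →ₗ[k] levelCohomology 𝒰 S'.X₁ 2 :=
    (levelδ 𝒰 hS' 1 2 rfl).hom
  let g1 : levelCohomology 𝒰 S'.X₂ 1 →ₗ[k] levelCohomology 𝒰 S'.X₃ 1 :=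
    (levelCohomologyMap (MonoidHom.id G) 𝒰.refines_id S'.g 1).hom
  have hex : LinearMap.ker f2 = LinearMap.range dl :=
    ((ShortComplex.moduleCat_exact_iff_range_eq_ker _).1 (level_exact₁ 𝒰 hS' 1 2 rfl)).symm
  have hdual : LinearMap.ker dl.dualMap = LinearMap.range f2.dualMap :=
    FiveDual.dualMap_exact dl f2 hex
  refine Devissage.injective_of_four
    (HcMap D S.g 1).toAddMonoidHom (Hcδ D hS 1 2 rfl).toAddMonoidHom
    (HcMap D S.f 2).toAddMonoidHom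
    f2.dualMap.toAddMonoidHom dl.dualMap.toAddMonoidHom g1.dualMap.toAddMonoidHom
    (Phi D φ₂ hφ₂ 1 2 3 rfl tr).toAddMonoidHom (Phi D φ₃ hφ₃ 1 2 3 rfl tr).toAddMonoidHom
    (Phi D φ₁ hφ₁ 2 1 3 rfl tr).toAddMonoidHom (Phi D φ₂ hφ₂ 2 1 3 rfl tr).toAddMonoidHom
    hI1 hQ1 hI2 ?_ ?_ ?_ ?_ ?_ ?_
  · -- complex at `Hc¹(X₃)`
    intro t
    have h : HcMap D S.g 1 t ∈ LinearMap.ker (Hcδ D hS 1 2 rfl) := by
      rw [ker_Hcδ_eq_range_HcMap_g]
      exact ⟨t, rfl⟩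
    exact h
  · -- exact at `Hc²(X₁)`
    intro x hx
    have h : x ∈ LinearMap.ker (HcMap D S.f 2) := hx
    rw [ker_HcMap_f_eq_range_Hcδ D hS 1 2 rfl] at h
    exact h
  · -- the dual row is exact
    intro d hd
    have h : d ∈ LinearMap.ker dl.dualMap := hd
    rw [hdual] at h
    exact h
  · -- first square
    intro t
    ext z
    exact Phi_adjoint D φ₂ hφ₂ φ₃ hφ₃ S.g S'.f h₂₃ 1 2 3 rfl tr t z
  · -- middle square, up to sign
    intro q hq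
    ext y
    have h := Phi_δ D hS hS' φ₁ hφ₁ φ₂ hφ₂ φ₃ hφ₃ h₁₂ h₂₃ (m := 1) (n := 1) (p := 2) rfl tr q y
    have hq' : Phi D φ₁ hφ₁ 2 1 3 rfl tr (Hcδ D hS 1 2 rfl q) y = 0 := by
      have := LinearMap.congr_fun hq y
      exact this
    rw [hq'] at h
    have h' : Phi D φ₃ hφ₃ 1 2 3 rfl tr q ((levelδ 𝒰 hS' 1 2 rfl).hom y) = 0 := by
      have h2 : ((-1 : k) ^ 1 * Phi D φ₃ hφ₃ 1 2 3 rfl tr q ((levelδ 𝒰 hS' 1 2 rfl).hom y)) = 0 :=
        neg_eq_zero.1 h.symm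
      simpa using h2
    exact h'
  · -- last square
    intro x
    ext z
    exact Phi_adjoint D φ₁ hφ₁ φ₂ hφ₂ S.f S'.g h₁₂ 2 1 3 rfl tr x z

end Step

end Fermat.Agent.S55.Cone
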