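/-
S55 / MAIN (helper25), part 2: the global dévissage.

If the global duality maps `PhiX (coind_U^G res_U Y)` are bijective in degree `1` and injective in
degree `2` for the coinduced modules (the base case, delivered by the arithmetic over the fields
`L ∋ ζ_p`), then `PhiX Y` is injective in degrees `1` and `2` for every finite dimensional discrete
`Y`.  The two dévissage implications are helper9's `Cone.Phi_one_injective_of_step` and
`Cone.Phi_two_injective_of_step`, applied to helper15's dévissage sequence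
`0 → Y → coind_U^G res_U Y → Q → 0` and its twisted dual.
-/
import Mathlib
import Fermat.Agent.S55.MainDefs
import Fermat.Agent.S55.ConeStep

set_option autoImplicit false
set_option linter.unusedSectionVars false

namespace Fermat.Agent.S55.Main

open CategoryTheory groupCohomology Fermat.Agent.S55.Level Fermat.Agent.S55.Cone
  Fermat.Agent.S55.DualTwist
  Fermat.Agent.S55.Devissage Fermat.Agent.S55.LevelDuality

universe u

variable {k G : Type u} [Field k] [Group G] {𝒰 : LevelStructure G} (D : LocalData 𝒰)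
  (χ : G →* kˣ) [IsDiscrete 𝒰 (ofChar χ)] (tr : Hc D (ofChar χ) 3 →ₗ[k] k)

section Step

variable {S : ShortComplex (Rep.{u} k G)} [IsDiscrete 𝒰 S.X₁] [IsDiscrete 𝒰 S.X₂]
  [IsDiscrete 𝒰 S.X₃] [IsDiscrete 𝒰 (S.X₁.dualTwist χ)] [IsDiscrete 𝒰 (S.X₂.dualTwist χ)]
  [IsDiscrete 𝒰 (S.X₃.dualTwist χ)]

/-- Dévissage, degree `1`: if `PhiX¹` is injective for the middle term of a short exact sequence,
it is injective for the left term. -/
theorem PhiX_one_injective_of_shortExact [Nonempty D.ι] (hS : S.ShortExact)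
    (hI : Function.Injective (PhiX D χ tr S.X₂ 1 2 rfl)) :
    Function.Injective (PhiX D χ tr S.X₁ 1 2 rfl) :=
  Phi_one_injective_of_step D (S := S) (S' := dualSeq χ S) hS
    (evalPairing' χ S.X₁) (evalPairing'_equivariant χ S.X₁)
    (evalPairing' χ S.X₂) (evalPairing'_equivariant χ S.X₂)
    (fun _ _ => rfl) tr hI

/-- Dévissage, degree `2` (mono four lemma): if `PhiX¹` is surjective for the middle term and
injective for the right term, and `PhiX²` is injective for the middle term, then `PhiX²` is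
injective for the left term. -/
theorem PhiX_two_injective_of_shortExact (hS : S.ShortExact)
    (hI1 : Function.Surjective (PhiX D χ tr S.X₂ 1 2 rfl))
    (hQ1 : Function.Injective (PhiX D χ tr S.X₃ 1 2 rfl))
    (hI2 : Function.Injective (PhiX D χ tr S.X₂ 2 1 rfl)) :
    Function.Injective (PhiX D χ tr S.X₁ 2 1 rfl) :=
  Phi_two_injective_of_step D (S := S) (S' := dualSeq χ S) hS (dualSeq_shortExact χ hS)
    (evalPairing' χ S.X₁) (evalPairing'_equivariant χ S.X₁)
    (evalPairing' χ S.X₂) (evalPairing'_equivariant χ S.X₂)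
    (evalPairing' χ S.X₃) (evalPairing'_equivariant χ S.X₃)
    (fun _ _ => rfl) (fun _ _ => rfl) tr hI1 hQ1 hI2

end Step

/-- The degree `1` base case (Stage A of the counting route): `PhiX¹` is injective on the coinduced
modules `coind_U^G res_U Y`. -/
def BaseCaseOne : Prop :=
  ∀ (U : Subgroup G), U ∈ 𝒰.sets → ∀ (Y : Rep.{u} k G) [IsDiscrete 𝒰 Y] [FiniteDimensional k Y]
    [IsDiscrete 𝒰 (coindRes U Y)] [IsDiscrete 𝒰 ((coindRes U Y).dualTwist χ)],
    (∀ u ∈ U, ∀ a : Y, Y.ρ u a = a) → (∀ u ∈ U, χ u = 1) →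
      Function.Injective (PhiX D χ tr (coindRes U Y) 1 2 rfl)

/-- The degree `1` base case for the trivial representation `k` only. -/
def BaseCaseOneTriv : Prop :=
  ∀ (U : Subgroup G), U ∈ 𝒰.sets →
    ∀ [IsDiscrete 𝒰 (coindRes U (Rep.trivial k G k))]
      [IsDiscrete 𝒰 ((coindRes U (Rep.trivial k G k)).dualTwist χ)],
    (∀ u ∈ U, χ u = 1) →
      Function.Injective (PhiX D χ tr (coindRes U (Rep.trivial k G k)) 1 2 rfl)

theorem BaseCase.one (h : BaseCase D χ tr) : BaseCaseOne D χ tr :=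
  fun U hU Y _ _ _ _ htriv hχ => (h U hU Y htriv hχ).1.1

theorem BaseCaseTriv.one (h : BaseCaseTriv D χ tr) : BaseCaseOneTriv D χ tr :=
  fun U hU _ _ hχ => (h U hU hχ).1.1

/-- **The global dévissage in degree `1`** (MAIN₀): if `PhiX¹` is injective on the coinduced
modules, it is injective for every finite dimensional discrete `Y`. -/
theorem main_one [Nonempty D.ι] (hbase : BaseCaseOne D χ tr) (Y : Rep.{u} k G) [IsDiscrete 𝒰 Y]
    [FiniteDimensional k Y] [IsDiscrete 𝒰 (Y.dualTwist χ)] :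
    Function.Injective (PhiX D χ tr Y 1 2 rfl) := by
  obtain ⟨U, hU, htriv, hχ, hI, hIf, hQ, hQf, hS⟩ := exists_step 𝒰 χ Y
  have := hI; have := hIf; have := hQ; have := hQf
  have hI' : IsDiscrete 𝒰 ((coindRes U Y).dualTwist χ) := isDiscrete_dualTwist 𝒰 χ _
  have hQ' : IsDiscrete 𝒰 ((coindQuot U Y).dualTwist χ) := isDiscrete_dualTwist 𝒰 χ _
  have : IsDiscrete 𝒰 (devissageSeq U Y).X₁ := ‹IsDiscrete 𝒰 Y›
  have : IsDiscrete 𝒰 (devissageSeq U Y).X₂ := hI
  have : IsDiscrete 𝒰 (devissageSeq U Y).X₃ := hQ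
  have : IsDiscrete 𝒰 ((devissageSeq U Y).X₁.dualTwist χ) := ‹IsDiscrete 𝒰 (Y.dualTwist χ)›
  have : IsDiscrete 𝒰 ((devissageSeq U Y).X₂.dualTwist χ) := hI'
  have : IsDiscrete 𝒰 ((devissageSeq U Y).X₃.dualTwist χ) := hQ'
  exact PhiX_one_injective_of_shortExact D χ tr (S := devissageSeq U Y) hS
    (hbase U hU Y htriv hχ)

/-- **The global dévissage** (mono version): if the base case holds then the global duality maps
`Hcⁱ(Y) → H³⁻ⁱ(G, Y')^*` are injective for `i = 1, 2` and every finite dimensional discrete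
`Y`. -/
theorem main [Nonempty D.ι] (hbase : BaseCase D χ tr) : MainConclusion D χ tr := by
  -- degree 1
  have step1 : ∀ (Y : Rep.{u} k G) [IsDiscrete 𝒰 Y] [FiniteDimensional k Y]
      [IsDiscrete 𝒰 (Y.dualTwist χ)], Function.Injective (PhiX D χ tr Y 1 2 rfl) := by
    intro Y _ _ _
    obtain ⟨U, hU, htriv, hχ, hI, hIf, hQ, hQf, hS⟩ := exists_step 𝒰 χ Y
    have := hI; have := hIf; have := hQ; have := hQf
    have hI' : IsDiscrete 𝒰 ((coindRes U Y).dualTwist χ) := isDiscrete_dualTwist 𝒰 χ _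
    have hQ' : IsDiscrete 𝒰 ((coindQuot U Y).dualTwist χ) := isDiscrete_dualTwist 𝒰 χ _
    have : IsDiscrete 𝒰 (devissageSeq U Y).X₁ := ‹IsDiscrete 𝒰 Y›
    have : IsDiscrete 𝒰 (devissageSeq U Y).X₂ := hI
    have : IsDiscrete 𝒰 (devissageSeq U Y).X₃ := hQ
    have : IsDiscrete 𝒰 ((devissageSeq U Y).X₁.dualTwist χ) := ‹IsDiscrete 𝒰 (Y.dualTwist χ)›
    have : IsDiscrete 𝒰 ((devissageSeq U Y).X₂.dualTwist χ) := hI'
    have : IsDiscrete 𝒰 ((devissageSeq U Y).X₃.dualTwist χ) := hQ'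
    obtain ⟨b1, -⟩ := hbase U hU Y htriv hχ
    exact PhiX_one_injective_of_shortExact D χ tr (S := devissageSeq U Y) hS b1.1
  -- degree 2
  have step2 : ∀ (Y : Rep.{u} k G) [IsDiscrete 𝒰 Y] [FiniteDimensional k Y]
      [IsDiscrete 𝒰 (Y.dualTwist χ)], Function.Injective (PhiX D χ tr Y 2 1 rfl) := by
    intro Y _ _ _
    obtain ⟨U, hU, htriv, hχ, hI, hIf, hQ, hQf, hS⟩ := exists_step 𝒰 χ Y
    have := hI; have := hIf; have := hQ; have := hQf
    have hI' : IsDiscrete 𝒰 ((coindRes U Y).dualTwist χ) := isDiscrete_dualTwist 𝒰 χ _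
    have hQ' : IsDiscrete 𝒰 ((coindQuot U Y).dualTwist χ) := isDiscrete_dualTwist 𝒰 χ _
    have : IsDiscrete 𝒰 (devissageSeq U Y).X₁ := ‹IsDiscrete 𝒰 Y›
    have : IsDiscrete 𝒰 (devissageSeq U Y).X₂ := hI
    have : IsDiscrete 𝒰 (devissageSeq U Y).X₃ := hQ
    have : IsDiscrete 𝒰 ((devissageSeq U Y).X₁.dualTwist χ) := ‹IsDiscrete 𝒰 (Y.dualTwist χ)›
    have : IsDiscrete 𝒰 ((devissageSeq U Y).X₂.dualTwist χ) := hI'
    have : IsDiscrete 𝒰 ((devissageSeq U Y).X₃.dualTwist χ) := hQ'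
    obtain ⟨b1, b2⟩ := hbase U hU Y htriv hχ
    exact PhiX_two_injective_of_shortExact D χ tr (S := devissageSeq U Y) hS b1.2
      (step1 (coindQuot U Y)) b2
  intro Y _ _ _
  exact ⟨step1 Y, step2 Y⟩

end Fermat.Agent.S55.Main
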