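/-
S55 (helper25): the chain of reductions, in the final types.

The frozen S55 statement from the outputs of the four remaining blocks, for ONE linear form `tr` on
`Hc³(ℚ, S; μ_p)`:

* `BaseCase` (global base case over the good fields; GLO14 + additivity),
* surjectivity of the two local duality maps `locDual` (LOC8),
* finiteness of the Kummer groups `X_S(L)` (K1).

Everything else (the cone long exact sequences, the dévissage, the double dual, the bridge to the
prelude objects and the linear algebra endgame) is already proved.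
-/
import Mathlib
import Fermat.Agent.S55.AssemblyCone
import Fermat.Agent.S55.Main

set_option autoImplicit false

open CategoryTheory Module groupCohomology ExtCitation

namespace Fermat.Agent.S55.Chain

open Fermat.Agent.S55.Level Fermat.Agent.S55.Cone Fermat.Agent.S55.DualTwist
  Fermat.Agent.S55.Assembly Fermat.Agent.S55.Main

local notation "Qbar" => AlgebraicClosure ℚ
local notation "Γ" => (AlgebraicClosure ℚ ≃ₐ[ℚ] AlgebraicClosure ℚ)

variable {p : ℕ} [hp : Fact p.Prime] (S : Finset Nat.Primes)

/-- There is at least one place in `S` when `p ∈ S`. -/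
theorem nonempty_localData_ι (hpS : pPrime p ∈ S) : Nonempty (localData S).ι :=
  ⟨⟨pPrime p, hpS⟩⟩

/-- **The frozen S55 from the remaining blocks.** -/
theorem result_of_blocks (hp2 : p ≠ 2) (hpS : pPrime p ∈ S) (M : Rep (ZMod p) Γ)
    [FiniteDimensional (ZMod p) M]
    (hsm : ∀ m : M, ∃ F : IntermediateField ℚ Qbar, FiniteDimensional ℚ F ∧
      ∀ s ∈ F.fixingSubgroup, M.ρ s m = m)
    (hMur : ∀ q : Nat.Primes, q ∉ S → ∀ A : ValuationSubring Qbar,
      A.LiesOverPrime (q : ℕ) → ∀ g ∈ A.inertiaSubgroupIn ℚ, M.ρ g = 1)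
    (hblocks : ∀ [IsDiscrete (globalLevel S) M]
      [IsDiscrete (globalLevel S) (M.dualTwist (cycloChar p))]
      [IsDiscrete (globalLevel S) (ofChar (cycloChar p))],
      ∃ tr : Hc (localData S) (ofChar (cycloChar p)) 3 →ₗ[ZMod p] ZMod p,
        BaseCase (localData S) (cycloChar p) tr ∧
        Function.Surjective (locDual (localData S) (evalPairing (cycloChar p) M)
          (evalPairing_equivariant (cycloChar p) M) 0 2 2 rfl tr) ∧
        Function.Surjective (locDual (localData S) (evalPairing' (cycloChar p) M)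
          (evalPairing'_equivariant (cycloChar p) M) 1 1 2 rfl tr))
    (hkummer : ∀ L : IntermediateField ℚ Qbar, L.IsUnramifiedOutside S → Normal ℚ L →
      (∀ ω : Qbar, ω ^ p = 1 → ω ∈ L) →
      Finite ↥(GL.Kummer.levelChars L S (rootsOfUnity p Qbar))) :
    ∃ B : sha₁ S (M.dualTwist (cycloChar p)) →ₗ[ZMod p] sha₂ S M →ₗ[ZMod p] ZMod p,
      (∀ y, (∀ x, B y x = 0) → y = 0) ∧ (∀ x, (∀ y, B y x = 0) → x = 0) := by
  refine result_of_cone S hp2 hpS M hsm hMur ?_ hkummer
  intro hM hM' hμ
  obtain ⟨tr, hbase, h0, h1⟩ := @hblocks hM hM' hμ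
  have hne : Nonempty (localData S).ι := nonempty_localData_ι S hpS
  have hmain : MainConclusion (localData S) (cycloChar p) tr :=
    main (localData S) (cycloChar p) tr hbase
  obtain ⟨i1, i2⟩ := injective_Phi_of_main (localData S) (cycloChar p) tr hmain M
  exact ⟨tr, i1, i2, h0, h1⟩

end Fermat.Agent.S55.Chain
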