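/-
S55 / GL1 part 4 (helper11): the `S`-class group is trivial for `S` large.

`K` a number field.  There is a finite set `S₀` of primes such that for every finite `S ⊇ S₀` the
`S`-class group vanishes, in the elementary form: every prime `v ∉ S` has a "generator modulo `S`",
an element `π ∈ Kˣ` with `v(π) = 1` and `v'(π) = 0` for all other `v' ∉ S`.  Consequently every
divisor supported outside `S` is the divisor (outside `S`) of an element of `Kˣ`
(`Kˣ → ⊕_{v ∉ S} ℤ` is onto, i.e. `J_K = Kˣ · J_{K,S}`).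
-/
import Mathlib
import Fermat.Agent.S55.SUnit

set_option autoImplicit false

namespace Fermat.Agent.S55.SUnitClass

open NumberField IsDedekindDomain HeightOneSpectrum Fermat.Agent.S55.SUnit
open scoped nonZeroDivisors

variable {K : Type*} [Field K] [NumberField K]

/-! ### valuations of a generator of `v * J` -/

lemma intValuation_of_span_eq_mul (v : HeightOneSpectrum (𝓞 K)) {a : 𝓞 K} (ha : a ≠ 0)
    {J : Ideal (𝓞 K)} (hJ : ¬ J ≤ v.asIdeal) (h : Ideal.span {a} = v.asIdeal * J) :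
    v.intValuation a = WithZero.exp (-1 : ℤ) := by
  have hle1 : Ideal.span {a} ≤ v.asIdeal := by
    rw [h]; exact Ideal.mul_le_left (I := v.asIdeal) (J := J)
  have h1 : v.intValuation a ≤ WithZero.exp (-((1 : ℕ) : ℤ)) := by
    rw [v.intValuation_le_pow_iff_mem a 1, pow_one]
    exact (Ideal.span_singleton_le_iff_mem _).mp hle1
  have h2 : ¬ v.intValuation a ≤ WithZero.exp (-((2 : ℕ) : ℤ)) := by
    rw [v.intValuation_le_pow_iff_mem a 2]
    intro hmem
    have hle : v.asIdeal * J ≤ v.asIdeal * v.asIdeal := by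
      rw [← h, ← sq]; exact (Ideal.span_singleton_le_iff_mem _).mpr hmem
    have hdvd : v.asIdeal * v.asIdeal ∣ v.asIdeal * J := Ideal.dvd_iff_le.mpr hle
    have hv0 : v.asIdeal ≠ 0 := v.ne_bot
    exact hJ (Ideal.dvd_iff_le.mp ((mul_dvd_mul_iff_left hv0).mp hdvd))
  rw [v.intValuation_if_neg ha] at h1 h2 ⊢
  rw [WithZero.exp_le_exp] at h1 h2
  congr 1
  push_cast at h1 h2
  omega

lemma intValuation_eq_one_of_span_eq_mul (v w : HeightOneSpectrum (𝓞 K)) (hwv : w ≠ v) {a : 𝓞 K}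
    {J : Ideal (𝓞 K)} (hJ : ¬ J ≤ w.asIdeal) (h : Ideal.span {a} = v.asIdeal * J) :
    w.intValuation a = 1 := by
  rw [intValuation_eq_one_iff]
  intro hmem
  have h1 : v.asIdeal * J ≤ w.asIdeal := by
    rw [← h, Ideal.span_singleton_le_iff_mem]; exact hmem
  rcases w.isPrime.mul_le.mp h1 with h2 | h2
  · have h3 : v.asIdeal = w.asIdeal := v.isMaximal.eq_of_le w.isPrime.ne_top h2
    exact hwv (HeightOneSpectrum.ext h3.symm)
  · exact hJ h2

/-! ### triviality of the `S`-class group -/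

/-- `Cl_S(K) = 0` in elementary form: every prime outside `S` has a generator modulo `S`. -/
def IsClTrivial (S : Finset (HeightOneSpectrum (𝓞 K))) : Prop :=
  ∀ v ∉ S, ∃ π : Kˣ, v.valuation K (π : K) = WithZero.exp (-1 : ℤ) ∧
    ∀ v' ∉ S, v' ≠ v → v'.valuation K (π : K) = 1

lemma IsClTrivial.mono {S S' : Finset (HeightOneSpectrum (𝓞 K))} (h : IsClTrivial S)
    (hSS' : S ⊆ S') : IsClTrivial S' := by
  intro v hv
  obtain ⟨π, h1, h2⟩ := h v (fun hvS => hv (hSS' hvS))
  exact ⟨π, h1, fun v' hv' hne => h2 v' (fun hvS => hv' (hSS' hvS)) hne⟩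

/-- **The `S`-class group is trivial for `S` large.** -/
theorem exists_finset_isClTrivial (K : Type*) [Field K] [NumberField K] :
    ∃ S₀ : Finset (HeightOneSpectrum (𝓞 K)), ∀ S, S₀ ⊆ S → IsClTrivial S := by
  classical
  -- integral representatives of all ideal classes
  choose J hJ using fun c : ClassGroup (𝓞 K) => ClassGroup.mk0_surjective c
  have hfin : ∀ c : ClassGroup (𝓞 K),
      {v : HeightOneSpectrum (𝓞 K) | v.asIdeal ∣ ((J c : (Ideal (𝓞 K))⁰) : Ideal (𝓞 K))}.Finite :=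
    fun c => Ideal.finite_factors (nonZeroDivisors.coe_ne_zero (J c))
  refine ⟨Finset.univ.biUnion fun c => (hfin c).toFinset, fun S hS => ?_⟩
  intro v hv
  have hv0 : v.asIdeal ∈ nonZeroDivisors (Ideal (𝓞 K)) :=
    mem_nonZeroDivisors_of_ne_zero v.ne_bot
  set c : ClassGroup (𝓞 K) := (ClassGroup.mk0 ⟨v.asIdeal, hv0⟩)⁻¹ with hc
  have hprod : ClassGroup.mk0 (⟨v.asIdeal, hv0⟩ * J c) = 1 := by
    rw [map_mul, hJ c, hc, mul_inv_cancel]
  rw [ClassGroup.mk0_eq_one_iff] at hprod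
  obtain ⟨a, ha⟩ := hprod.principal
  have ha' : Ideal.span {a} = v.asIdeal * ((J c : (Ideal (𝓞 K))⁰) : Ideal (𝓞 K)) := by
    simpa using ha.symm
  have ha0 : a ≠ 0 := by
    rintro rfl
    have h0 : v.asIdeal * ((J c : (Ideal (𝓞 K))⁰) : Ideal (𝓞 K)) = ⊥ := by
      rw [← ha']; simp
    rcases mul_eq_zero.mp h0 with h1 | h1
    · exact v.ne_bot h1
    · exact nonZeroDivisors.coe_ne_zero (J c) h1
  have hnot : ∀ w : HeightOneSpectrum (𝓞 K), w ∉ S →
      ¬ ((J c : (Ideal (𝓞 K))⁰) : Ideal (𝓞 K)) ≤ w.asIdeal := by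
    intro w hw hle
    apply hw
    apply hS
    rw [Finset.mem_biUnion]
    exact ⟨c, Finset.mem_univ _, (hfin c).mem_toFinset.mpr (Ideal.dvd_iff_le.mpr hle)⟩
  have haK : algebraMap (𝓞 K) K a ≠ 0 := by simpa using ha0
  refine ⟨Units.mk0 _ haK, ?_, fun v' hv' hne => ?_⟩
  · rw [Units.val_mk0, valuation_of_algebraMap]
    exact intValuation_of_span_eq_mul v ha0 (hnot v hv) ha'
  · rw [Units.val_mk0, valuation_of_algebraMap]
    exact intValuation_eq_one_of_span_eq_mul v v' hne (hnot v' hv') ha'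

/-- The same with a prescribed finite set contained in `S₀`. -/
theorem exists_finset_isClTrivial_of_subset (S₁ : Finset (HeightOneSpectrum (𝓞 K))) :
    ∃ S₀ : Finset (HeightOneSpectrum (𝓞 K)), S₁ ⊆ S₀ ∧ ∀ S, S₀ ⊆ S → IsClTrivial S := by
  classical
  obtain ⟨S₀, hS₀⟩ := exists_finset_isClTrivial K
  exact ⟨S₁ ∪ S₀, Finset.subset_union_left,
    fun S hS => hS₀ S (Finset.union_subset_iff.mp hS).2⟩

/-! ### surjectivity of the divisor map outside `S` -/

lemma IsClTrivial.ordAt_eq {S : Finset (HeightOneSpectrum (𝓞 K))} (hS : IsClTrivial S)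
    {v : HeightOneSpectrum (𝓞 K)} (hv : v ∉ S) :
    ∃ π : Kˣ, ordAt v (Additive.ofMul π) = 1 ∧
      ∀ v' ∉ S, v' ≠ v → ordAt v' (Additive.ofMul π) = 0 := by
  obtain ⟨π, h1, h2⟩ := hS v hv
  refine ⟨π, ?_, fun v' hv' hne => (ordAt_eq_zero_iff v' π).mpr (h2 v' hv' hne)⟩
  rw [ordAt_apply, h1, WithZero.log_exp, neg_neg]

/-- If `Cl_S(K) = 0`, every divisor is, outside `S`, the divisor of an element of `Kˣ`. -/
theorem IsClTrivial.exists_ordAt_eq {S : Finset (HeightOneSpectrum (𝓞 K))} (hS : IsClTrivial S)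
    (d : HeightOneSpectrum (𝓞 K) →₀ ℤ) :
    ∃ x : Kˣ, ∀ v ∉ S, ordAt v (Additive.ofMul x) = d v := by
  classical
  induction d using Finsupp.induction with
  | zero => exact ⟨1, fun v _ => by simp⟩
  | single_add w n d hw _ ih =>
    obtain ⟨x, hx⟩ := ih
    by_cases hwS : w ∈ S
    · refine ⟨x, fun v hv => ?_⟩
      have hvw : v ≠ w := fun h => hv (h ▸ hwS)
      rw [hx v hv, Finsupp.add_apply, Finsupp.single_apply, if_neg (Ne.symm hvw), zero_add]
    · obtain ⟨π, h1, h2⟩ := hS.ordAt_eq hwS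
      refine ⟨π ^ n * x, fun v hv => ?_⟩
      rw [ofMul_mul, map_add, ofMul_zpow, map_zsmul, hx v hv, Finsupp.add_apply,
        Finsupp.single_apply]
      by_cases hvw : v = w
      · subst hvw
        rw [h1, if_pos rfl, smul_eq_mul, mul_one]
      · rw [h2 v hv hvw, if_neg (Ne.symm hvw), smul_zero]

end Fermat.Agent.S55.SUnitClass
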