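/-
S55: the hypothesis `hchars` of `Assembly.DualityData` (finitely many `ℤ/p`-characters of finite
level on arbitrarily small levels of `G_S`) from the finiteness of the Kummer groups
`X_S(L) = Kummer.levelChars L S μ_p` for the "good" fields `L` (finite normal over `ℚ`, unramified
outside `S`, containing `μ_p`).
-/
import Fermat.Agent.S55.LevelFinite
import Fermat.Agent.S55.LevelGlobal
import Fermat.Agent.S55.DualTwist
import Fermat.Agent.S55.GL.KummerS

set_option autoImplicit false

open CategoryTheory groupCohomology ExtCitation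

namespace Fermat.Agent.S55.Hchars

open Fermat.Agent.S55.Level Fermat.Agent.S55.LevelGlobal Fermat.Agent.S55.DualTwist

local notation "Qbar" => AlgebraicClosure ℚ
local notation "Γ" => (AlgebraicClosure ℚ ≃ₐ[ℚ] AlgebraicClosure ℚ)

variable {p : ℕ} [hp : Fact p.Prime] (S : Finset Nat.Primes)

/-- Good fields are cofinal: every member of `globalLevel S` contains `Gal(ℚ̄/L)` for a finite
normal `L`, unramified outside `S`, containing the `p`-th roots of unity (`p ∈ S`). -/
theorem exists_good_field (hpS : pPrime p ∈ S) {U₀ : Subgroup Γ}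
    (hU₀ : U₀ ∈ (globalLevel S).sets) :
    ∃ L : IntermediateField ℚ Qbar, L.IsUnramifiedOutside S ∧ Normal ℚ L ∧
      (∀ ω : Qbar, ω ^ p = 1 → ω ∈ L) ∧ L.fixingSubgroup ∈ (globalLevel S).sets ∧
      L.fixingSubgroup ≤ U₀ := by
  obtain ⟨W, hW, hWle⟩ := (globalLevel S).directed U₀ hU₀ _ (ker_cycloChar_mem_globalLevel p hpS)
  obtain ⟨L, hL, hLn, hLW⟩ := exists_eq_fixingSubgroup hW
  refine ⟨L, hL, hLn, fun ω hω => ?_, hLW ▸ hW, hLW ▸ (hWle.trans inf_le_left)⟩
  have := isGalois_Qbar
  rw [← InfiniteGalois.fixedField_fixingSubgroup L, IntermediateField.mem_fixedField_iff]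
  intro σ hσ
  have hσW : σ ∈ W := hLW ▸ hσ
  have h1 : cycloChar p σ = 1 := MonoidHom.mem_ker.1 (hWle hσW).2
  have h2 := cycloChar_spec p σ hω
  have : Fact (1 < p) := ⟨hp.out.one_lt⟩
  rw [h1, Units.val_one, ZMod.val_one, pow_one] at h2
  exact h2

/-- An injective homomorphism `ℤ/p → μ_p(ℚ̄)`. -/
theorem exists_injective_hom :
    ∃ e : Multiplicative (ZMod p) →* rootsOfUnity p Qbar, Function.Injective e := by
  have : NeZero p := ⟨hp.out.ne_zero⟩
  obtain ⟨ζ, hζ⟩ := exists_primitiveRoot p
  refine ⟨{ toFun := fun a => rootsOfUnity.mkOfPowEq (zetaPow p ζ (Multiplicative.toAdd a))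
              (zetaPow_pow_eq_one hζ.pow_eq_one _)
            map_one' := ?_
            map_mul' := ?_ }, ?_⟩
  · apply Subtype.ext
    apply Units.ext
    show zetaPow p ζ 0 = 1
    exact zetaPow_zero ζ
  · intro a b
    apply Subtype.ext
    apply Units.ext
    show zetaPow p ζ (Multiplicative.toAdd a + Multiplicative.toAdd b) = _
    rw [zetaPow_add hζ.pow_eq_one]
    rfl
  · intro a b hab
    have h1 : zetaPow p ζ (Multiplicative.toAdd a) = zetaPow p ζ (Multiplicative.toAdd b) :=
      congrArg (fun x : rootsOfUnity p Qbar => ((x : Qbarˣ) : Qbar)) hab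
    exact Multiplicative.toAdd.injective (zetaPow_injective hζ h1)

/-- **`hchars` from Kummer theory**: if for every good field `L` the group `X_S(L)` of `S`-level
characters `Gal(ℚ̄/L) → μ_p` is finite, then arbitrarily small levels of `G_S` have finitely many
`ℤ/p`-valued level characters. -/
theorem hchars_of_kummer (hpS : pPrime p ∈ S)
    (h : ∀ L : IntermediateField ℚ Qbar, L.IsUnramifiedOutside S → Normal ℚ L →
      (∀ ω : Qbar, ω ^ p = 1 → ω ∈ L) →
      Finite ↥(GL.Kummer.levelChars L S (rootsOfUnity p Qbar))) :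
    ∀ U₀ ∈ (globalLevel S).sets, ∃ U ∈ (globalLevel S).sets, U ≤ U₀ ∧
      (levelChars (globalLevel S) U (ZMod p)).Finite := by
  intro U₀ hU₀
  obtain ⟨L, hL, hLn, hμ, hLmem, hLle⟩ := exists_good_field S hpS hU₀
  refine ⟨L.fixingSubgroup, hLmem, hLle, ?_⟩
  have hfin := h L hL hLn hμ
  obtain ⟨e, he⟩ := exists_injective_hom (p := p)
  let Φ : ↥(levelChars (globalLevel S) L.fixingSubgroup (ZMod p)) →
      ↥(GL.Kummer.levelChars L S (rootsOfUnity p Qbar)) :=
    fun χ => ⟨e.comp χ.1, by
      obtain ⟨V, hV, hχ⟩ := χ.2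
      exact ⟨V, hV, fun σ hσ => by rw [MonoidHom.comp_apply, hχ σ hσ, map_one]⟩⟩
  have hΦ : Function.Injective Φ := by
    intro χ χ' hχ
    apply Subtype.ext
    apply MonoidHom.ext
    intro σ
    have h1 := congrArg (fun f => f.1 σ) hχ
    exact he h1
  have : Finite ↥(levelChars (globalLevel S) L.fixingSubgroup (ZMod p)) :=
    Finite.of_injective Φ hΦ
  exact Set.toFinite _

end Fermat.Agent.S55.Hchars
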