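/-
S55 / TR-INV glue (helper10), part 1: the global trace `tr` on `Hc³(C)` from local linear forms
`t_v` on `H²(G_v, C)` satisfying the reciprocity law `∑_v t_v (loc_v y) = 0`, with the local
invariants `invAt D tr v` of `ConeEndgame` EQUAL to the given `t_v`.  Specialisation to the local
data of S55, and the frozen S55 from one family of local invariants satisfying reciprocity.
-/
import Fermat.Agent.S55.MainDefs
import Fermat.Agent.S55.ConeEndgame
import Fermat.Agent.S55.Chain
import Fermat.Agent.S55.AssemblyMain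
import Fermat.Agent.S55.Local.Duality
import Fermat.Agent.S55.GL.KummerHyp

set_option autoImplicit false

open CategoryTheory Module groupCohomology ExtCitation

namespace Fermat.Agent.S55.TraceGlue

open Fermat.Agent.S55.Level Fermat.Agent.S55.Cone Fermat.Agent.S55.DualTwist

universe u

section Abstract

variable {k G : Type u} [Field k] [Group G] {𝒰 : LevelStructure G} (D : LocalData 𝒰)
  (C : Rep.{u} k G) [IsDiscrete 𝒰 C] [DecidableEq D.ι]

/-- If `tr ∘ ∂ = ∑_v t_v` then the local invariant at `v` attached to `tr` is `t_v`. -/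
theorem invAt_eq_of_bd [Fintype D.ι] {n : ℕ} (tr : Hc D C (n + 1) →ₗ[k] k)
    (t : ∀ v, levelCohomology (D.𝒱 v) (Rep.res (D.r v) C) n →ₗ[k] k)
    (htr : ∀ w : ∀ v, levelCohomology (D.𝒱 v) (Rep.res (D.r v) C) n,
      tr (HcBd D C n w) = ∑ v, t v (w v)) (v : D.ι) :
    invAt D tr v = t v := by
  refine LinearMap.ext fun c => ?_
  rw [invAt_apply, htr, Finset.sum_eq_single v]
  · rw [Pi.single_eq_same]
  · intro v' _ hv'
    rw [Pi.single_eq_of_ne hv', map_zero]
  · intro hv
    exact absurd (Finset.mem_univ v) hv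

/-- **The trace from local linear forms satisfying reciprocity.**  Given linear forms `t_v` on
`Hⁿ(G_v, C)` whose sum kills the localisations of the global classes, there is a linear form `tr`
on `Hcⁿ⁺¹(C)` with `tr ∘ ∂ = ∑_v t_v`; its local invariants are the `t_v`. -/
theorem exists_tr_of_reciprocity [Fintype D.ι] (n : ℕ)
    (t : ∀ v, levelCohomology (D.𝒱 v) (Rep.res (D.r v) C) n →ₗ[k] k)
    (hrec : ∀ y : levelCohomology 𝒰 C n, ∑ v, t v (locH D C n y v) = 0) :
    ∃ tr : Hc D C (n + 1) →ₗ[k] k,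
      (∀ w : ∀ v, levelCohomology (D.𝒱 v) (Rep.res (D.r v) C) n,
        tr (HcBd D C n w) = ∑ v, t v (w v)) ∧ ∀ v, invAt D tr v = t v := by
  obtain ⟨tr, htr⟩ := Main.exists_tr D C n
    (∑ v, (t v) ∘ₗ (LinearMap.proj v : (∀ v, levelCohomology (D.𝒱 v) (Rep.res (D.r v) C) n) →ₗ[k]
      levelCohomology (D.𝒱 v) (Rep.res (D.r v) C) n))
    (fun y => by
      rw [LinearMap.sum_apply]
      exact hrec y)
  have htr' : ∀ w : ∀ v, levelCohomology (D.𝒱 v) (Rep.res (D.r v) C) n,
      tr (HcBd D C n w) = ∑ v, t v (w v) := by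
    intro w
    rw [htr w, LinearMap.sum_apply]
    rfl
  exact ⟨tr, htr', fun v => invAt_eq_of_bd D C tr t htr' v⟩

end Abstract

section Frozen

open Fermat.Agent.S55.Assembly Fermat.Agent.S55.LevelDuality

local notation "Qbar" => AlgebraicClosure ℚ
local notation "Γ" => (AlgebraicClosure ℚ ≃ₐ[ℚ] AlgebraicClosure ℚ)

variable {p : ℕ} [hp : Fact p.Prime] (S : Finset Nat.Primes)

/-- **The frozen S55 from a family of local invariants.**  What remains to be supplied is a family
of linear forms `inv_q` on `H²(ℚ_q, μ_p)`, `q ∈ S`, such that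
* (reciprocity) `∑_q inv_q (loc_q y) = 0` for all `y ∈ H²(G_S, μ_p)`;
* (GLO14 + additivity) every linear form `tr` on `Hc³(μ_p)` with `tr ∘ ∂ = ∑_q inv_q` satisfies
  the global base case `Main.BaseCase`;
* (LOC5 + LOC7) local duality for the coefficients `𝔽_p` over the small open subgroups of
  `Gal(ℚ̄_q/ℚ_q)` with respect to `inv_q` (`LocalBaseHyp₁`);
and the finiteness of the `ℤ/p`-valued level characters of small open subgroups of the local Galois
groups.  The Kummer finiteness over the good global fields is `GL.Kummer.hkummer`. -/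
theorem result_of_inv (hp2 : p ≠ 2) (hpS : pPrime p ∈ S) (M : Rep (ZMod p) Γ)
    [FiniteDimensional (ZMod p) M]
    (hsm : ∀ m : M, ∃ F : IntermediateField ℚ Qbar, FiniteDimensional ℚ F ∧
      ∀ s ∈ F.fixingSubgroup, M.ρ s m = m)
    (hMur : ∀ q : Nat.Primes, q ∉ S → ∀ A : ValuationSubring Qbar,
      A.LiesOverPrime (q : ℕ) → ∀ g ∈ A.inertiaSubgroupIn ℚ, M.ρ g = 1)
    (hinv : ∀ [IsDiscrete (globalLevel S) (ofChar (cycloChar p))],
      ∃ inv : ∀ q : (localData S).ι, levelCohomology ((localData S).𝒱 q)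
          (Rep.res ((localData S).r q) (ofChar (cycloChar p))) 2 →ₗ[ZMod p] ZMod p,
        (∀ y : levelCohomology (globalLevel S) (ofChar (cycloChar p)) 2,
          ∑ q, inv q (locH (localData S) (ofChar (cycloChar p)) 2 y q) = 0) ∧
        (∀ tr : Hc (localData S) (ofChar (cycloChar p)) 3 →ₗ[ZMod p] ZMod p,
          (∀ w, tr (HcBd (localData S) (ofChar (cycloChar p)) 2 w) = ∑ q, inv q (w q)) →
            Main.BaseCase (localData S) (cycloChar p) tr) ∧
        (∀ q, LocalBaseHyp₁ ((localData S).𝒱 q) ((cycloChar p).comp ((localData S).r q))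
          (inv q) (restrictFamily ((localData S).𝒱 q))
          (restrictFamily_refines ((localData S).𝒱 q))))
    (hlocal : ∀ q : (localData S).ι, ∀ U₀ ∈ ((localData S).𝒱 q).sets,
      ∃ U ∈ ((localData S).𝒱 q).sets, U ≤ U₀ ∧
        (levelChars ((localData S).𝒱 q) U (ZMod p)).Finite) :
    ∃ B : sha₁ S (M.dualTwist (cycloChar p)) →ₗ[ZMod p] sha₂ S M →ₗ[ZMod p] ZMod p,
      (∀ y, (∀ x, B y x = 0) → y = 0) ∧ (∀ x, (∀ y, B y x = 0) → x = 0) := by
  refine Chain.result_of_blocks S hp2 hpS M hsm hMur ?_ (GL.Kummer.hkummer S hpS)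
  intro hM hM' hμ
  obtain ⟨inv, hrec, hbase, hloc⟩ := @hinv hμ
  obtain ⟨tr, htr, hinvAt⟩ := exists_tr_of_reciprocity (localData S) (ofChar (cycloChar p)) 2
    inv hrec
  have hloc' : ∀ q, LocalBaseHyp₁ ((localData S).𝒱 q) ((cycloChar p).comp ((localData S).r q))
      (invAt (localData S) tr q) (restrictFamily ((localData S).𝒱 q))
      (restrictFamily_refines ((localData S).𝒱 q)) := fun q => by
    have h := hloc q
    rw [← hinvAt q] at h
    exact h
  obtain ⟨h0, h1⟩ := Local.Duality.locDual_surjective S M tr hloc' hlocal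
  exact ⟨tr, hbase tr htr, h0, h1⟩

end Frozen

end Fermat.Agent.S55.TraceGlue
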