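/-
S55 / LOC8 + TR-INV glue (helper22): the frozen S55 from LOCAL CLASS FORMATIONS.

`TraceGlue.result_of_inv` with
* the local duality hypotheses `LocalBaseHyp₁` discharged by `Local.BasePackage` (Hilbert symbol
  computation, helper6 / helper24) and `Local.LocalInvCores` (`inv ∘ cor = inv`, helper27 /
  helper26), and
* the local Kummer finiteness `hlocal` discharged by `Local.KummerFinite.hlocal` (helper24).

What remains: class formations over the finite Galois extensions of `ℚ_q` (`q ∈ S`) with the base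
change formula `inv_E ∘ res = [E:ℚ_q] • inv_{ℚ_q}` (LOC5), the reciprocity law for the local
invariants `LocalInv.invPrime` (R), and the global base case `Main.BaseCase` (GLO14/15).
-/
import Fermat.Agent.S55.TraceGlue
import Fermat.Agent.S55.Local.LocalBasePackage
import Fermat.Agent.S55.Local.LocalInvCores
import Fermat.Agent.S55.Local.KummerFinite

set_option autoImplicit false

open CategoryTheory Module groupCohomology ExtCitation

namespace Fermat.Agent.S55.TraceGlueLocal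

open Fermat.Agent.S55.Level Fermat.Agent.S55.Cone Fermat.Agent.S55.DualTwist
  Fermat.Agent.S55.Assembly Fermat.Agent.S55.LevelDuality Fermat.Agent.S55.GaloisLevel
  Fermat.Agent.S55.CFAbs Fermat.Agent.S55.Local.LocalInv Fermat.Agent.S55.Local.BasePackage
  Fermat.Agent.S55.Local.LocalInvCores

local notation "Qbar" => AlgebraicClosure ℚ
local notation "Γ" => (AlgebraicClosure ℚ ≃ₐ[ℚ] AlgebraicClosure ℚ)

variable {p : ℕ} [hp : Fact p.Prime]

section PerPlace

variable (q : Nat.Primes)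

local instance factPrime_TGL : Fact (q : ℕ).Prime := ⟨q.2⟩

/-- **The per-place package for the local invariant `invPrime`** from class formations over the
finite Galois extensions of `ℚ_q` with the base change formula. -/
theorem localBaseHyp₁_invPrime {ζ : Qbar} (hζ : IsPrimitiveRoot ζ p)
    [hd : Level.IsDiscrete (localLevel (primeLocalToGlobal q))
      (ofChar (k := ZMod p) ((cycloChar p).comp (primeLocalToGlobal q)))]
    (FG : Formation (krullLevel ℚ_[(q : ℕ)] (PadicAlgCl (q : ℕ)))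
      (unitsRep ℚ_[(q : ℕ)] (PadicAlgCl (q : ℕ))))
    (FE : ∀ E : IntermediateField ℚ_[(q : ℕ)] (PadicAlgCl (q : ℕ)),
      FiniteDimensional ℚ_[(q : ℕ)] E → IsGalois ℚ_[(q : ℕ)] E →
      Formation (krullLevel E (PadicAlgCl (q : ℕ))) (unitsRep E (PadicAlgCl (q : ℕ))))
    (hBC : ∀ (E : IntermediateField ℚ_[(q : ℕ)] (PadicAlgCl (q : ℕ)))
      (hfd : FiniteDimensional ℚ_[(q : ℕ)] E) (hgal : IsGalois ℚ_[(q : ℕ)] E)
      (x : levelCohomology (krullLevel ℚ_[(q : ℕ)] (PadicAlgCl (q : ℕ)))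
        (unitsRep ℚ_[(q : ℕ)] (PadicAlgCl (q : ℕ))) 2),
      (FE E hfd hgal).inv ((bcMap ℚ_[(q : ℕ)] E (PadicAlgCl (q : ℕ)) 2).hom x) =
        Module.finrank ℚ_[(q : ℕ)] E • FG.inv x) :
    LocalBaseHyp₁ (localLevel (primeLocalToGlobal q))
      ((cycloChar p).comp (primeLocalToGlobal q)) (invPrime (hd := hd) q hζ FG)
      (restrictFamily (localLevel (primeLocalToGlobal q)))
      (restrictFamily_refines (localLevel (primeLocalToGlobal q))) :=
  localBaseHyp₁_prime q (invPrime (hd := hd) q hζ FG)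
    (fun U hU _ _ _ _ => exists_tau_invPrime q hζ FG FE hBC U hU)

end PerPlace

section Frozen

variable (S : Finset Nat.Primes)

local instance factPrime_TGL' (q : Nat.Primes) : Fact (q : ℕ).Prime := ⟨q.2⟩

/-- `μ_p` is discrete over `Gal(ℚ̄_q/ℚ_q)` (unconditionally; helper27). -/
local instance isDiscrete_TGL (q : Nat.Primes) :
    Level.IsDiscrete (localLevel (primeLocalToGlobal q))
      (Rep.res (primeLocalToGlobal q) (ofChar (k := ZMod p) (cycloChar p))) :=
  isDiscrete_localLevel_primeLocalToGlobal q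

/-- The local invariant at `q` attached to a local class formation over `ℚ_q`, with the
(unconditional) discreteness of `μ_p` over `Gal(ℚ̄_q/ℚ_q)` plugged in. -/
noncomputable def invLoc (q : Nat.Primes) {ζ : Qbar} (hζ : IsPrimitiveRoot ζ p)
    (FG : Formation (krullLevel ℚ_[(q : ℕ)] (PadicAlgCl (q : ℕ)))
      (unitsRep ℚ_[(q : ℕ)] (PadicAlgCl (q : ℕ)))) :
    levelCohomology (localLevel (primeLocalToGlobal q))
      (Rep.res (primeLocalToGlobal q) (ofChar (k := ZMod p) (cycloChar p))) 2 →ₗ[ZMod p] ZMod p :=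
  invPrime q hζ FG

/-- **The frozen S55 from local class formations.**  Inputs:
* `FG q`, `FE q E`, `hBC`: class formations for `(Gal(ℚ̄_q/E), Ωˣ)` over `E = ℚ_q` and over all
  finite Galois `E/ℚ_q`, `q ∈ S`, with `inv_E ∘ res = [E:ℚ_q] • inv_{ℚ_q}` (LOC5);
* `hrec`: the reciprocity law `∑_q inv_q (loc_q y) = 0` on `H²(G_S, μ_p)` for the local invariants
  `inv_q = invLoc q hζ (FG q)` (R);
* `hbase`: the global base case for every `tr` on `Hc³(μ_p)` with `tr ∘ ∂ = ∑_q inv_q` (GLO14/15).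
Local duality (`LocalBaseHyp₁`) and the local and global Kummer finiteness are proved. -/
theorem result_of_formations (hp2 : p ≠ 2) (hpS : pPrime p ∈ S) (M : Rep (ZMod p) Γ)
    [FiniteDimensional (ZMod p) M]
    (hsm : ∀ m : M, ∃ F : IntermediateField ℚ Qbar, FiniteDimensional ℚ F ∧
      ∀ s ∈ F.fixingSubgroup, M.ρ s m = m)
    (hMur : ∀ q : Nat.Primes, q ∉ S → ∀ A : ValuationSubring Qbar,
      A.LiesOverPrime (q : ℕ) → ∀ g ∈ A.inertiaSubgroupIn ℚ, M.ρ g = 1)
    {ζ : Qbar} (hζ : IsPrimitiveRoot ζ p)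
    (FG : ∀ q : ↥S, Formation (krullLevel ℚ_[(q.1 : ℕ)] (PadicAlgCl (q.1 : ℕ)))
      (unitsRep ℚ_[(q.1 : ℕ)] (PadicAlgCl (q.1 : ℕ))))
    (FE : ∀ (q : ↥S) (E : IntermediateField ℚ_[(q.1 : ℕ)] (PadicAlgCl (q.1 : ℕ))),
      FiniteDimensional ℚ_[(q.1 : ℕ)] E → IsGalois ℚ_[(q.1 : ℕ)] E →
      Formation (krullLevel E (PadicAlgCl (q.1 : ℕ))) (unitsRep E (PadicAlgCl (q.1 : ℕ))))
    (hBC : ∀ (q : ↥S) (E : IntermediateField ℚ_[(q.1 : ℕ)] (PadicAlgCl (q.1 : ℕ)))
      (hfd : FiniteDimensional ℚ_[(q.1 : ℕ)] E) (hgal : IsGalois ℚ_[(q.1 : ℕ)] E)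
      (x : levelCohomology (krullLevel ℚ_[(q.1 : ℕ)] (PadicAlgCl (q.1 : ℕ)))
        (unitsRep ℚ_[(q.1 : ℕ)] (PadicAlgCl (q.1 : ℕ))) 2),
      (FE q E hfd hgal).inv ((bcMap ℚ_[(q.1 : ℕ)] E (PadicAlgCl (q.1 : ℕ)) 2).hom x) =
        Module.finrank ℚ_[(q.1 : ℕ)] E • (FG q).inv x)
    (hrec : ∀ [Level.IsDiscrete (globalLevel S) (ofChar (cycloChar p))]
      (y : levelCohomology (globalLevel S) (ofChar (cycloChar p)) 2),
      ∑ q : (localData S).ι,
        invLoc q.1 hζ (FG q) (locH (localData S) (ofChar (cycloChar p)) 2 y q) = 0)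
    (hbase : ∀ [Level.IsDiscrete (globalLevel S) (ofChar (cycloChar p))]
      (tr : Hc (localData S) (ofChar (cycloChar p)) 3 →ₗ[ZMod p] ZMod p),
      (∀ w, tr (HcBd (localData S) (ofChar (cycloChar p)) 2 w) =
        ∑ q : (localData S).ι, invLoc q.1 hζ (FG q) (w q)) →
      Main.BaseCase (localData S) (cycloChar p) tr) :
    ∃ B : sha₁ S (M.dualTwist (cycloChar p)) →ₗ[ZMod p] sha₂ S M →ₗ[ZMod p] ZMod p,
      (∀ y, (∀ x, B y x = 0) → y = 0) ∧ (∀ x, (∀ y, B y x = 0) → x = 0) := by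
  refine TraceGlue.result_of_inv S hp2 hpS M hsm hMur ?_
    (fun q => Local.KummerFinite.hlocal q.1)
  intro hμ
  refine ⟨fun q => invLoc q.1 hζ (FG q), fun y => hrec y, fun tr htr => hbase tr htr,
    fun q => ?_⟩
  exact localBaseHyp₁_invPrime (hd := isDiscrete_TGL q.1) q.1 hζ (FG q) (FE q) (hBC q)

end Frozen

end Fermat.Agent.S55.TraceGlueLocal
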