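/-
S55 / GLO15 (helper25): the condition (K2) of the base case from the description of the image of
the localisation map in degree `2`.

Setting: helper9's cone for local data `D`, an equivariant pairing `φ : X × Y → C`, a linear form
`tr` on `Hc³(C)`.  (K2) says: a family `w ∈ ∏_v H⁰(G_v, X)` whose image under the local duality map
`ι⁰ = locDual 0 2` is orthogonal to the global classes `loc² H²(G, Y)` has trivial boundary in
`Hc¹(X)` (i.e. comes from a global invariant).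

It follows formally from
* injectivity of `ι⁰` (local duality),
* the existence of one global invariant `e ∈ H⁰(G, X)` with non-zero localisation, and
* the fact that the annihilator of `loc² H²(G, Y)` in the dual of `∏_v H²(G_v, Y)` is at most
  one-dimensional — which holds as soon as `loc² H²(G, Y)` contains the kernel of one additive map
  to a group whose `p`-torsion is cyclic of prime order (the sum of the local invariants).
Reciprocity itself is formal: `ι⁰ (loc⁰ e)` kills `loc² H²(G, Y)` by the cone.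
-/
import Mathlib
import Fermat.Agent.S55.ConePairing

set_option autoImplicit false
set_option linter.unusedSectionVars false

namespace Fermat.Agent.S55.BaseK2

open CategoryTheory Module Fermat.Agent.S55.Level Fermat.Agent.S55.Cone

universe u

section Abstract

variable {k : Type*} [Field k] {H0 P0 Hc1 H2 P2 : Type*}
  [AddCommGroup H0] [Module k H0] [AddCommGroup P0] [Module k P0]
  [AddCommGroup Hc1] [Module k Hc1] [AddCommGroup H2] [Module k H2]
  [AddCommGroup P2] [Module k P2]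

/-- (K2), abstract form. -/
theorem k2_of_annihilator (b0 : H0 →ₗ[k] P0) (bd0 : P0 →ₗ[k] Hc1)
    (hcomp : ∀ e, bd0 (b0 e) = 0) (b2 : H2 →ₗ[k] P2) (ι0 : P0 →ₗ[k] Dual k P2)
    (hι0 : Function.Injective ι0) (Φ1 : Hc1 →ₗ[k] Dual k H2)
    (hc0 : ∀ w y, Φ1 (bd0 w) y = ι0 w (b2 y))
    (hann : ∀ ξ₁ ξ₂ : Dual k P2, (∀ y, ξ₁ (b2 y) = 0) → (∀ y, ξ₂ (b2 y) = 0) → ξ₁ ≠ 0 →
      ∃ c : k, ξ₂ = c • ξ₁)
    (e : H0) (he : b0 e ≠ 0) (w : P0) (hw : ∀ y, ι0 w (b2 y) = 0) : bd0 w = 0 := by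
  have h1 : ∀ y, ι0 (b0 e) (b2 y) = 0 := by
    intro y
    rw [← hc0, hcomp, map_zero]
    rfl
  have h2 : ι0 (b0 e) ≠ 0 := fun h => he (hι0 (h.trans (map_zero ι0).symm))
  obtain ⟨c, hc⟩ := hann _ _ h1 hw h2
  have h3 : w = b0 (c • e) := hι0 (by rw [hc, map_smul, map_smul])
  rw [h3, hcomp]

/-- The annihilator of a subspace containing the kernel of an additive map to a group whose
`p`-torsion is cyclic of prime order is at most one-dimensional. -/
theorem annihilator_of_additive {Q : Type*} [AddCommGroup Q] (p : ℕ) (b2 : H2 →ₗ[k] P2)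
    (hP2 : ∀ x : P2, p • x = 0)
    (hQ : ∀ a b : Q, p • a = 0 → p • b = 0 → a ≠ 0 → ∃ m : ℕ, b = m • a)
    (s : P2 →+ Q) (hs : ∀ x, s x = 0 → ∃ y, b2 y = x)
    (ξ₁ ξ₂ : Dual k P2) (h₁ : ∀ y, ξ₁ (b2 y) = 0) (h₂ : ∀ y, ξ₂ (b2 y) = 0) (hξ₁ : ξ₁ ≠ 0) :
    ∃ c : k, ξ₂ = c • ξ₁ := by
  obtain ⟨x₀, hx₀⟩ : ∃ x₀, ξ₁ x₀ ≠ 0 := by
    by_contra h
    push_neg at h
    exact hξ₁ (LinearMap.ext h)
  have hs₀ : s x₀ ≠ 0 := by
    intro h
    obtain ⟨y, rfl⟩ := hs x₀ h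
    exact hx₀ (h₁ y)
  have hps : ∀ x, p • s x = 0 := fun x => by rw [← map_nsmul, hP2, map_zero]
  refine ⟨ξ₂ x₀ / ξ₁ x₀, LinearMap.ext fun x => ?_⟩
  obtain ⟨m, hm⟩ := hQ (s x₀) (s x) (hps x₀) (hps x) hs₀
  have hx : s (x - m • x₀) = 0 := by rw [map_sub, map_nsmul, hm, sub_self]
  obtain ⟨y, hy⟩ := hs _ hx
  have e1 : ξ₁ x = m • ξ₁ x₀ := by
    have := h₁ y
    rw [hy, map_sub, map_nsmul, sub_eq_zero] at this
    exact this
  have e2 : ξ₂ x = m • ξ₂ x₀ := by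
    have := h₂ y
    rw [hy, map_sub, map_nsmul, sub_eq_zero] at this
    exact this
  rw [LinearMap.smul_apply, e1, e2, smul_eq_mul, nsmul_eq_mul, nsmul_eq_mul]
  field_simp

end Abstract

section Cone

variable {k G : Type u} [Field k] [Group G] {𝒰 : LevelStructure G} (D : LocalData 𝒰)
  {X Y C : Rep.{u} k G} [IsDiscrete 𝒰 X] [IsDiscrete 𝒰 Y] [IsDiscrete 𝒰 C]
  (φ : X →ₗ[k] Y →ₗ[k] C)
  (hφ : ∀ (g : G) (a : X) (b : Y), φ (X.ρ g a) (Y.ρ g b) = C.ρ g (φ a b))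
  (tr : Hc D C 3 →ₗ[k] k)

/-- `∂ ∘ loc = 0`. -/
theorem HcBd_locH_eq_zero (n : ℕ) (e : levelCohomology 𝒰 X n) :
    HcBd D X n (locH D X n e) = 0 := by
  have h : locH D X n e ∈ LinearMap.ker (HcBd D X n) := by
    rw [ker_HcBd_eq_range_locH]
    exact ⟨e, rfl⟩
  exact h

/-- **(K2) for the cone**, from the one-dimensionality of the annihilator of the global classes. -/
theorem K2_of_annihilator
    (hι0 : Function.Injective (locDual D φ hφ 0 2 2 rfl tr))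
    (hann : ∀ ξ₁ ξ₂ : Dual k (∀ v, levelCohomology (D.𝒱 v) (Rep.res (D.r v) Y) 2),
      (∀ y, ξ₁ (locH D Y 2 y) = 0) → (∀ y, ξ₂ (locH D Y 2 y) = 0) → ξ₁ ≠ 0 →
      ∃ c : k, ξ₂ = c • ξ₁)
    (e : levelCohomology 𝒰 X 0) (he : locH D X 0 e ≠ 0)
    (w : ∀ v, levelCohomology (D.𝒱 v) (Rep.res (D.r v) X) 0)
    (hw : ∀ y : levelCohomology 𝒰 Y 2, locDual D φ hφ 0 2 2 rfl tr w (locH D Y 2 y) = 0) :
    HcBd D X 0 w = 0 :=
  k2_of_annihilator (locH D X 0) (HcBd D X 0) (HcBd_locH_eq_zero D 0) (locH D Y 2)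
    (locDual D φ hφ 0 2 2 rfl tr) hι0 (Phi D φ hφ 1 2 3 rfl tr)
    (fun w y => Phi_HcBd D φ hφ 0 2 2 rfl tr w y) hann e he w hw

/-- **(K2) for the cone**, from an additive "sum of invariants" whose kernel consists of
localisations of global classes. -/
theorem K2_of_additive {Q : Type*} [AddCommGroup Q] (p : ℕ)
    (hp : ∀ x : (∀ v, levelCohomology (D.𝒱 v) (Rep.res (D.r v) Y) 2), p • x = 0)
    (hQ : ∀ a b : Q, p • a = 0 → p • b = 0 → a ≠ 0 → ∃ m : ℕ, b = m • a)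
    (s : (∀ v, levelCohomology (D.𝒱 v) (Rep.res (D.r v) Y) 2) →+ Q)
    (hs : ∀ x, s x = 0 → ∃ y, locH D Y 2 y = x)
    (hι0 : Function.Injective (locDual D φ hφ 0 2 2 rfl tr))
    (e : levelCohomology 𝒰 X 0) (he : locH D X 0 e ≠ 0)
    (w : ∀ v, levelCohomology (D.𝒱 v) (Rep.res (D.r v) X) 0)
    (hw : ∀ y : levelCohomology 𝒰 Y 2, locDual D φ hφ 0 2 2 rfl tr w (locH D Y 2 y) = 0) :
    HcBd D X 0 w = 0 :=
  K2_of_annihilator D φ hφ tr hι0
    (fun ξ₁ ξ₂ h₁ h₂ hξ₁ => annihilator_of_additive p (locH D Y 2) hp hQ s hs ξ₁ ξ₂ h₁ h₂ hξ₁)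
    e he w hw

end Cone

end Fermat.Agent.S55.BaseK2
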