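/-
S55, route R2, block ALG3: the functoriality pack for the compactly supported level cohomology.

`fiberMap`, `prodMap`, `locComplexMap`, `CcMap` and `HcMap` are compatible with identities,
composition, sums and zero; hence `A ↦ Hc D A n` is an additive functor.
-/
import Fermat.Agent.S55.ConeLevel
import Fermat.Agent.S55.CF.LESElem

set_option autoImplicit false

namespace Fermat.Agent.S55.Cone

open CategoryTheory Fermat.Agent.S55.CochainTools Fermat.Agent.S55.Level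

universe v u

section Fiber

variable {k : Type u} [CommRing k] {K₁ L₁ K₂ L₂ K₃ L₃ : CochainComplex (ModuleCat.{v} k) ℕ}

theorem prevMap_id (n : ℕ) (b : prevX L₁ n) : prevMap (𝟙 L₁) n b = b := by
  cases n with
  | zero => rfl
  | succ n => rfl

theorem prevMap_comp (β : L₁ ⟶ L₂) (β' : L₂ ⟶ L₃) (n : ℕ) (b : prevX L₁ n) :
    prevMap (β ≫ β') n b = prevMap β' n (prevMap β n b) := by
  cases n with
  | zero => rfl
  | succ n => rfl

theorem prevMap_add (β β' : L₁ ⟶ L₂) (n : ℕ) (b : prevX L₁ n) :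
    prevMap (β + β') n b = prevMap β n b + prevMap β' n b := by
  cases n with
  | zero => exact (prevX_zero_eq L₂ _).trans (prevX_zero_eq L₂ _).symm
  | succ n => rfl

theorem prevMap_zero (n : ℕ) (b : prevX L₁ n) : prevMap (0 : L₁ ⟶ L₂) n b = 0 := by
  cases n with
  | zero => exact prevX_zero_eq L₂ _
  | succ n => rfl

variable (φ₁ : K₁ ⟶ L₁) (φ₂ : K₂ ⟶ L₂) (φ₃ : K₃ ⟶ L₃)

theorem fiberMap_id (comm : φ₁ ≫ 𝟙 L₁ = 𝟙 K₁ ≫ φ₁) :
    fiberMap φ₁ φ₁ (𝟙 K₁) (𝟙 L₁) comm = 𝟙 (fiber φ₁) := by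
  ext n : 1
  refine ModuleCat.hom_ext (LinearMap.ext fun x => ?_)
  show fiberMapLin φ₁ φ₁ (𝟙 K₁) (𝟙 L₁) n x = x
  apply fiber_ext
  · rw [fiberFst_mapLin]; rfl
  · rw [fiberSnd_mapLin, prevMap_id]

theorem fiberMap_comp (α : K₁ ⟶ K₂) (β : L₁ ⟶ L₂) (α' : K₂ ⟶ K₃) (β' : L₂ ⟶ L₃)
    (comm : φ₁ ≫ β = α ≫ φ₂) (comm' : φ₂ ≫ β' = α' ≫ φ₃)
    (comm'' : φ₁ ≫ (β ≫ β') = (α ≫ α') ≫ φ₃) :
    fiberMap φ₁ φ₃ (α ≫ α') (β ≫ β') comm'' =
      fiberMap φ₁ φ₂ α β comm ≫ fiberMap φ₂ φ₃ α' β' comm' := by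
  ext n : 1
  refine ModuleCat.hom_ext (LinearMap.ext fun x => ?_)
  show fiberMapLin φ₁ φ₃ (α ≫ α') (β ≫ β') n x =
    fiberMapLin φ₂ φ₃ α' β' n (fiberMapLin φ₁ φ₂ α β n x)
  apply fiber_ext
  · rw [fiberFst_mapLin, fiberFst_mapLin, fiberFst_mapLin]; rfl
  · rw [fiberSnd_mapLin, fiberSnd_mapLin, fiberSnd_mapLin, prevMap_comp]

theorem fiberMap_add (α α' : K₁ ⟶ K₂) (β β' : L₁ ⟶ L₂)
    (comm : φ₁ ≫ β = α ≫ φ₂) (comm' : φ₁ ≫ β' = α' ≫ φ₂)
    (comm'' : φ₁ ≫ (β + β') = (α + α') ≫ φ₂) :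
    fiberMap φ₁ φ₂ (α + α') (β + β') comm'' =
      fiberMap φ₁ φ₂ α β comm + fiberMap φ₁ φ₂ α' β' comm' := by
  ext n : 1
  refine ModuleCat.hom_ext (LinearMap.ext fun x => ?_)
  show fiberMapLin φ₁ φ₂ (α + α') (β + β') n x =
    fiberMapLin φ₁ φ₂ α β n x + fiberMapLin φ₁ φ₂ α' β' n x
  apply fiber_ext
  · rw [map_add, fiberFst_mapLin, fiberFst_mapLin, fiberFst_mapLin]; rfl
  · rw [map_add, fiberSnd_mapLin, fiberSnd_mapLin, fiberSnd_mapLin, prevMap_add]

theorem fiberMap_zero (comm : φ₁ ≫ (0 : L₁ ⟶ L₂) = (0 : K₁ ⟶ K₂) ≫ φ₂) :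
    fiberMap φ₁ φ₂ 0 0 comm = 0 := by
  ext n : 1
  refine ModuleCat.hom_ext (LinearMap.ext fun x => ?_)
  show fiberMapLin φ₁ φ₂ 0 0 n x = 0
  apply fiber_ext
  · rw [map_zero, fiberFst_mapLin]; rfl
  · rw [map_zero, fiberSnd_mapLin, prevMap_zero]

end Fiber

section Prod

variable {k : Type u} [CommRing k] {ι : Type v} {L L' L'' : ι → CochainComplex (ModuleCat.{v} k) ℕ}

theorem prodMap_id : prodMap (fun i => 𝟙 (L i)) = 𝟙 (prodComplex L) := by
  ext n : 1
  refine ModuleCat.hom_ext (LinearMap.ext fun x => ?_)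
  apply prod_ext
  intro i
  rw [prodπ_prodMap]
  rfl

theorem prodMap_comp (f : ∀ i, L i ⟶ L' i) (g : ∀ i, L' i ⟶ L'' i) :
    prodMap (fun i => f i ≫ g i) = prodMap f ≫ prodMap g := by
  ext n : 1
  refine ModuleCat.hom_ext (LinearMap.ext fun x => ?_)
  apply prod_ext
  intro i
  rw [prodπ_prodMap]
  show _ = prodπ L'' n i (((prodMap g).f n).hom (((prodMap f).f n).hom x))
  rw [prodπ_prodMap, prodπ_prodMap]
  rfl

theorem prodMap_add (f g : ∀ i, L i ⟶ L' i) :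
    prodMap (fun i => f i + g i) = prodMap f + prodMap g := by
  ext n : 1
  refine ModuleCat.hom_ext (LinearMap.ext fun x => ?_)
  apply prod_ext
  intro i
  rw [prodπ_prodMap]
  show _ = prodπ L' n i (((prodMap f).f n).hom x + ((prodMap g).f n).hom x)
  rw [map_add, prodπ_prodMap, prodπ_prodMap]
  rfl

theorem prodMap_zero : prodMap (fun i => (0 : L i ⟶ L' i)) = 0 := by
  ext n : 1
  refine ModuleCat.hom_ext (LinearMap.ext fun x => ?_)
  apply prod_ext
  intro i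
  rw [prodπ_prodMap]
  show _ = prodπ L' n i 0
  rw [map_zero]
  rfl

/-- `prodMap` on cohomology, componentwise. -/
theorem prodHomologyEquiv_prodMap (f : ∀ i, L i ⟶ L' i) (n : ℕ) (x : (prodComplex L).homology n)
    (i : ι) :
    prodHomologyEquiv L' n ((HomologicalComplex.homologyMap (prodMap f) n).hom x) i =
      (HomologicalComplex.homologyMap (f i) n).hom (prodHomologyEquiv L n x i) := by
  have h := prodHomologyEquiv_prodLift (L := L') (fun i => prodProj L i ≫ f i) n x i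
  refine h.trans ?_
  rw [HomologicalComplex.homologyMap_comp]
  rfl

end Prod

section Level

variable {k G : Type u} [CommRing k] [Group G] {𝒰 : LevelStructure G} (D : LocalData.{u} 𝒰)
  {A B C : Rep.{u} k G} [IsDiscrete 𝒰 A] [IsDiscrete 𝒰 B] [IsDiscrete 𝒰 C]

theorem locComplexMap_id : locComplexMap D (𝟙 A) = 𝟙 (locComplex D A) := by
  have h : (fun v => levelMap (D.𝒱 v) ((Rep.resFunctor (D.r v)).map (𝟙 A))) =
      fun v => 𝟙 (levelComplex (D.𝒱 v) (Rep.res (D.r v) A)) := by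
    funext v
    rw [CategoryTheory.Functor.map_id]
    exact CF.levelMap_id (D.𝒱 v)
  exact (congrArg prodMap h).trans prodMap_id

theorem locComplexMap_comp (φ : A ⟶ B) (ψ : B ⟶ C) :
    locComplexMap D (φ ≫ ψ) = locComplexMap D φ ≫ locComplexMap D ψ := by
  have h : (fun v => levelMap (D.𝒱 v) ((Rep.resFunctor (D.r v)).map (φ ≫ ψ))) =
      fun v => levelMap (D.𝒱 v) ((Rep.resFunctor (D.r v)).map φ) ≫
        levelMap (D.𝒱 v) ((Rep.resFunctor (D.r v)).map ψ) := by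
    funext v
    rw [CategoryTheory.Functor.map_comp]
    exact CF.levelMap_comp (D.𝒱 v) _ _
  exact (congrArg prodMap h).trans (prodMap_comp _ _)

theorem locComplexMap_add (φ ψ : A ⟶ B) :
    locComplexMap D (φ + ψ) = locComplexMap D φ + locComplexMap D ψ := by
  have h : (fun v => levelMap (D.𝒱 v) ((Rep.resFunctor (D.r v)).map (φ + ψ))) =
      fun v => levelMap (D.𝒱 v) ((Rep.resFunctor (D.r v)).map φ) +
        levelMap (D.𝒱 v) ((Rep.resFunctor (D.r v)).map ψ) := by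
    funext v
    have h' : (Rep.resFunctor (D.r v)).map (φ + ψ) =
        (Rep.resFunctor (D.r v)).map φ + (Rep.resFunctor (D.r v)).map ψ := rfl
    rw [h']
    exact CF.levelMap_add (D.𝒱 v) ((Rep.resFunctor (D.r v)).map φ)
      ((Rep.resFunctor (D.r v)).map ψ)
  exact (congrArg prodMap h).trans (prodMap_add _ _)

theorem locComplexMap_zero : locComplexMap D (0 : A ⟶ B) = 0 := by
  have h : (fun v => levelMap (D.𝒱 v) ((Rep.resFunctor (D.r v)).map (0 : A ⟶ B))) =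
      fun v => (0 : levelComplex (D.𝒱 v) (Rep.res (D.r v) A) ⟶
        levelComplex (D.𝒱 v) (Rep.res (D.r v) B)) := by
    funext v
    have h' : (Rep.resFunctor (D.r v)).map (0 : A ⟶ B) = 0 := rfl
    rw [h']
    exact CF.levelMap_zero (D.𝒱 v)
  exact (congrArg prodMap h).trans prodMap_zero

theorem CcMap_id : CcMap D (𝟙 A) = 𝟙 (Cc D A) := by
  unfold CcMap
  have h1 : levelMap 𝒰 (𝟙 A) = 𝟙 (levelComplex 𝒰 A) := CF.levelMap_id 𝒰
  have h2 := locComplexMap_id D (A := A)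
  have key : ∀ (α : levelComplex 𝒰 A ⟶ levelComplex 𝒰 A)
      (β : locComplex D A ⟶ locComplex D A) (hα : α = 𝟙 _) (hβ : β = 𝟙 _)
      (comm : locMap D A ≫ β = α ≫ locMap D A),
      fiberMap (locMap D A) (locMap D A) α β comm = 𝟙 (fiber (locMap D A)) := by
    intro α β hα hβ comm
    subst hα hβ
    exact fiberMap_id _ comm
  exact key _ _ h1 h2 _

theorem CcMap_comp (φ : A ⟶ B) (ψ : B ⟶ C) : CcMap D (φ ≫ ψ) = CcMap D φ ≫ CcMap D ψ := by
  unfold CcMap
  have h1 : levelMap 𝒰 (φ ≫ ψ) = levelMap 𝒰 φ ≫ levelMap 𝒰 ψ := CF.levelMap_comp 𝒰 φ ψ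
  have h2 := locComplexMap_comp D φ ψ
  have key : ∀ (α : levelComplex 𝒰 A ⟶ levelComplex 𝒰 C)
      (β : locComplex D A ⟶ locComplex D C) (hα : α = levelMap 𝒰 φ ≫ levelMap 𝒰 ψ)
      (hβ : β = locComplexMap D φ ≫ locComplexMap D ψ)
      (comm : locMap D A ≫ β = α ≫ locMap D C),
      fiberMap (locMap D A) (locMap D C) α β comm =
        fiberMap (locMap D A) (locMap D B) (levelMap 𝒰 φ) (locComplexMap D φ) (locMap_comm D φ) ≫
          fiberMap (locMap D B) (locMap D C) (levelMap 𝒰 ψ) (locComplexMap D ψ)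
            (locMap_comm D ψ) := by
    intro α β hα hβ comm
    subst hα hβ
    exact fiberMap_comp _ _ _ _ _ _ _ _ _ comm
  exact key _ _ h1 h2 _

theorem CcMap_add (φ ψ : A ⟶ B) : CcMap D (φ + ψ) = CcMap D φ + CcMap D ψ := by
  unfold CcMap
  have h1 : levelMap 𝒰 (φ + ψ) = levelMap 𝒰 φ + levelMap 𝒰 ψ := CF.levelMap_add 𝒰 φ ψ
  have h2 := locComplexMap_add D φ ψ
  have key : ∀ (α : levelComplex 𝒰 A ⟶ levelComplex 𝒰 B)
      (β : locComplex D A ⟶ locComplex D B) (hα : α = levelMap 𝒰 φ + levelMap 𝒰 ψ)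
      (hβ : β = locComplexMap D φ + locComplexMap D ψ)
      (comm : locMap D A ≫ β = α ≫ locMap D B),
      fiberMap (locMap D A) (locMap D B) α β comm =
        fiberMap (locMap D A) (locMap D B) (levelMap 𝒰 φ) (locComplexMap D φ) (locMap_comm D φ) +
          fiberMap (locMap D A) (locMap D B) (levelMap 𝒰 ψ) (locComplexMap D ψ)
            (locMap_comm D ψ) := by
    intro α β hα hβ comm
    subst hα hβ
    exact fiberMap_add _ _ _ _ _ _ _ _ comm
  exact key _ _ h1 h2 _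

theorem CcMap_zero : CcMap D (0 : A ⟶ B) = 0 := by
  unfold CcMap
  have h1 : levelMap 𝒰 (0 : A ⟶ B) = 0 := CF.levelMap_zero 𝒰
  have h2 := locComplexMap_zero D (A := A) (B := B)
  have key : ∀ (α : levelComplex 𝒰 A ⟶ levelComplex 𝒰 B)
      (β : locComplex D A ⟶ locComplex D B) (hα : α = 0) (hβ : β = 0)
      (comm : locMap D A ≫ β = α ≫ locMap D B),
      fiberMap (locMap D A) (locMap D B) α β comm = 0 := by
    intro α β hα hβ comm
    subst hα hβ
    exact fiberMap_zero _ _ comm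
  exact key _ _ h1 h2 _

/-- The map induced by `φ` on the product of the local cohomology groups. -/
noncomputable def locHMap (φ : A ⟶ B) (n : ℕ) :
    (∀ v, levelCohomology (D.𝒱 v) (Rep.res (D.r v) A) n) →ₗ[k]
      ∀ v, levelCohomology (D.𝒱 v) (Rep.res (D.r v) B) n :=
  LinearMap.pi fun v =>
    (CF.Hmap (D.𝒱 v) ((Rep.resFunctor (D.r v)).map φ) n).hom ∘ₗ LinearMap.proj v

@[simp] theorem locHMap_apply (φ : A ⟶ B) (n : ℕ)
    (y : ∀ v, levelCohomology (D.𝒱 v) (Rep.res (D.r v) A) n) (v : D.ι) :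
    locHMap D φ n y v = (CF.Hmap (D.𝒱 v) ((Rep.resFunctor (D.r v)).map φ) n).hom (y v) := rfl

theorem locEquiv_locComplexMap (φ : A ⟶ B) (n : ℕ) (x : (locComplex D A).homology n) :
    locEquiv D B n ((HomologicalComplex.homologyMap (locComplexMap D φ) n).hom x) =
      locHMap D φ n (locEquiv D A n x) := by
  funext v
  exact prodHomologyEquiv_prodMap
    (fun v => levelMap (D.𝒱 v) ((Rep.resFunctor (D.r v)).map φ)) n x v

/-- Naturality of the boundary map `∏_v Hⁿ(G_v, -) → Hcⁿ⁺¹(-)`. -/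
theorem HcMap_HcBd (φ : A ⟶ B) (n : ℕ)
    (y : ∀ v, levelCohomology (D.𝒱 v) (Rep.res (D.r v) A) n) :
    HcMap D φ (n + 1) (HcBd D A n y) = HcBd D B n (locHMap D φ n y) := by
  rw [HcBd_apply, HcBd_apply]
  have h := fiberBd_natural (locMap D A) (locMap D B) (levelMap 𝒰 φ) (locComplexMap D φ)
    (locMap_comm D φ) n ((locEquiv D A n).symm y)
  refine h.symm.trans ?_
  congr 1
  apply (locEquiv D B n).injective
  rw [locEquiv_locComplexMap, LinearEquiv.apply_symm_apply, LinearEquiv.apply_symm_apply]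

/-- Naturality of the localisation map `Hⁿ(G, -) → ∏_v Hⁿ(G_v, -)`. -/
theorem locH_Hmap (φ : A ⟶ B) (n : ℕ) (x : levelCohomology 𝒰 A n) :
    locH D B n ((CF.Hmap 𝒰 φ n).hom x) = locHMap D φ n (locH D A n x) := by
  rw [locH_apply, locH_apply, ← locEquiv_locComplexMap]
  congr 1
  have h := congrArg (fun g : levelComplex 𝒰 A ⟶ locComplex D B =>
    (HomologicalComplex.homologyMap g n).hom x) (locMap_comm D φ)
  simp only [HomologicalComplex.homologyMap_comp, ModuleCat.hom_comp] at h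
  exact h.symm

/-- `HcToH` is natural (in terms of `CF.Hmap`). -/
theorem HcToH_HcMap' (φ : A ⟶ B) (n : ℕ) (x : Hc D A n) :
    HcToH D B n (HcMap D φ n x) = (CF.Hmap 𝒰 φ n).hom (HcToH D A n x) :=
  homologyMap_fiberπ_fiberMap (locMap D A) (locMap D B) (levelMap 𝒰 φ) (locComplexMap D φ)
    (locMap_comm D φ) n x

/-- `Hc` of the identity is the identity. -/
theorem HcMap_id (n : ℕ) : HcMap D (𝟙 A) n = LinearMap.id := by
  unfold HcMap
  rw [CcMap_id, HomologicalComplex.homologyMap_id]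
  rfl

theorem HcMap_id_apply (n : ℕ) (x : Hc D A n) : HcMap D (𝟙 A) n x = x := by
  rw [HcMap_id]; rfl

/-- `Hc` is compatible with composition. -/
theorem HcMap_comp (φ : A ⟶ B) (ψ : B ⟶ C) (n : ℕ) :
    HcMap D (φ ≫ ψ) n = HcMap D ψ n ∘ₗ HcMap D φ n := by
  unfold HcMap
  rw [CcMap_comp, HomologicalComplex.homologyMap_comp]
  rfl

theorem HcMap_comp_apply (φ : A ⟶ B) (ψ : B ⟶ C) (n : ℕ) (x : Hc D A n) :
    HcMap D (φ ≫ ψ) n x = HcMap D ψ n (HcMap D φ n x) := by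
  rw [HcMap_comp]; rfl

/-- `Hc` is additive. -/
theorem HcMap_add (φ ψ : A ⟶ B) (n : ℕ) : HcMap D (φ + ψ) n = HcMap D φ n + HcMap D ψ n := by
  unfold HcMap
  rw [CcMap_add, HomologicalComplex.homologyMap_add]
  rfl

theorem HcMap_add_apply (φ ψ : A ⟶ B) (n : ℕ) (x : Hc D A n) :
    HcMap D (φ + ψ) n x = HcMap D φ n x + HcMap D ψ n x := by
  rw [HcMap_add]; rfl

theorem HcMap_zero (n : ℕ) : HcMap D (0 : A ⟶ B) n = 0 := by
  unfold HcMap
  rw [CcMap_zero, HomologicalComplex.homologyMap_zero]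
  rfl

theorem HcMap_zero_apply (n : ℕ) (x : Hc D A n) : HcMap D (0 : A ⟶ B) n x = 0 := by
  rw [HcMap_zero]; rfl

/-- `Hc` is compatible with finite sums of morphisms. -/
theorem HcMap_sum {J : Type*} (s : Finset J) (φ : J → (A ⟶ B)) (n : ℕ) :
    HcMap D (∑ j ∈ s, φ j) n = ∑ j ∈ s, HcMap D (φ j) n := by
  classical
  induction s using Finset.induction_on with
  | empty => rw [Finset.sum_empty, Finset.sum_empty]; exact HcMap_zero D n
  | insert a s ha ih => rw [Finset.sum_insert ha, Finset.sum_insert ha, HcMap_add, ih]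

theorem HcMap_sum_apply {J : Type*} (s : Finset J) (φ : J → (A ⟶ B)) (n : ℕ) (x : Hc D A n) :
    HcMap D (∑ j ∈ s, φ j) n x = ∑ j ∈ s, HcMap D (φ j) n x := by
  rw [HcMap_sum, LinearMap.sum_apply]

/-- A retract on coefficients gives a retract on `Hc`: if `i ≫ p = 𝟙`, then
`HcMap p ∘ HcMap i = id`. -/
theorem HcMap_retract (i : A ⟶ B) (p : B ⟶ A) (h : i ≫ p = 𝟙 A) (n : ℕ) (x : Hc D A n) :
    HcMap D p n (HcMap D i n x) = x := by
  rw [← HcMap_comp_apply, h, HcMap_id_apply]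

/-- An isomorphism of coefficients induces a linear equivalence on `Hc`. -/
noncomputable def HcIso (e : A ≅ B) (n : ℕ) : Hc D A n ≃ₗ[k] Hc D B n where
  toLinearMap := HcMap D e.hom n
  invFun := HcMap D e.inv n
  left_inv x := HcMap_retract D e.hom e.inv e.hom_inv_id n x
  right_inv x := HcMap_retract D e.inv e.hom e.inv_hom_id n x

@[simp] theorem HcIso_apply (e : A ≅ B) (n : ℕ) (x : Hc D A n) :
    HcIso D e n x = HcMap D e.hom n x := rfl

@[simp] theorem HcIso_symm_apply (e : A ≅ B) (n : ℕ) (x : Hc D B n) :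
    (HcIso D e n).symm x = HcMap D e.inv n x := rfl

end Level

end Fermat.Agent.S55.Cone
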