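/-
S55 / ALG4 (Sh2): Shapiro's isomorphism for level cohomology is compatible with shrinking the
subgroup.  For `U₁ ≤ U₀` open subgroups of `G` and a discrete representation `B` of `U₀`, the
inclusion `coindIncl : coind_{U₀}^G B ↪ coind_{U₁}^G (res B)` corresponds under `levelSh` to the
restriction map `Hⁿ(U₀, B) → Hⁿ(U₁, B)` (`levelSh_coindIncl`).
-/
import Fermat.Agent.S55.LevelShapiro

set_option autoImplicit false

open CategoryTheory

namespace Fermat.Agent.S55.Level

open Fermat.Agent.S55.GC.Shapiro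

universe u

section ShapiroIncl

variable {k G : Type u} [CommRing k] [Group G] (𝒰 : LevelStructure G) {U₀ U₁ : Subgroup G}
  (h : U₁ ≤ U₀)

/-- The level structure induced on `U₁` refines the one induced on `U₀ ≥ U₁`. -/
lemma LevelStructure.restrict_refines_inclusion :
    (𝒰.restrict U₁).Refines (𝒰.restrict U₀) (Subgroup.inclusion h) := by
  rintro _ ⟨U, hU, rfl⟩
  exact ⟨_, 𝒰.mem_restrict_sets U₁ hU, fun x hx => hx⟩

include h in
lemma IsOpenSub.of_le [h₁ : IsOpenSub 𝒰 U₁] : IsOpenSub 𝒰 U₀ := by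
  obtain ⟨U, hU, hle⟩ := h₁.exists_le
  exact ⟨⟨U, hU, hle.trans h⟩⟩

variable (B : Rep.{u} k U₀)

/-- The inclusion `coind_{U₀}^G B ↪ coind_{U₁}^G (res B)` for `U₁ ≤ U₀`: a function which is
left-`U₀`-equivariant is left-`U₁`-equivariant. -/
noncomputable def coindIncl :
    Rep.coind U₀.subtype B ⟶ Rep.coind U₁.subtype (Rep.res (Subgroup.inclusion h) B) :=
  Rep.ofHom ⟨LinearMap.codRestrict _ ((B.ρ.coindV U₀.subtype).subtype) fun F u g =>
      F.2 (Subgroup.inclusion h u) g,
    fun g => by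
      ext F
      rfl⟩

lemma coindIncl_apply_coe (F : (Rep.coind U₀.subtype B).V) (g : G) :
    ((coindIncl h B).hom F).1 g = F.1 g := rfl

lemma coindIncl_injective : Function.Injective (coindIncl h B).hom := by
  intro F F' hFF'
  apply Subtype.ext
  funext g
  exact congrArg (fun E : (Rep.coind U₁.subtype (Rep.res (Subgroup.inclusion h) B)).V => E.1 g) hFF'

/-- Discreteness passes to the restriction to a smaller subgroup. -/
lemma isDiscrete_res_inclusion [IsDiscrete (𝒰.restrict U₀) B] :
    IsDiscrete (𝒰.restrict U₁) (Rep.res (Subgroup.inclusion h) B) := ⟨fun b => by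
  obtain ⟨_, ⟨U, hU, rfl⟩, hfix⟩ := IsDiscrete.exists_fix (𝒰 := 𝒰.restrict U₀) (A := B) b
  exact ⟨_, 𝒰.mem_restrict_sets U₁ hU, fun x hx => hfix (Subgroup.inclusion h x) hx⟩⟩

/-- Unbundled form of `isDiscrete_coind` (found by instance search also when the coefficient
module is of the form `Rep.of ρ`, e.g. a restriction `Rep.res f B`). -/
instance isDiscrete_coind_of (U : Subgroup G) [IsOpenSub 𝒰 U] {V : Type u} [AddCommGroup V]
    [Module k V] (ρ : Representation k U V) [IsDiscrete (𝒰.restrict U) (Rep.of ρ)] :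
    IsDiscrete 𝒰 (Rep.coind U.subtype (Rep.of ρ)) :=
  isDiscrete_coind 𝒰 U (Rep.of ρ)

variable [IsOpenSub 𝒰 U₀] [IsOpenSub 𝒰 U₁] [IsDiscrete (𝒰.restrict U₀) B]
  [IsDiscrete (𝒰.restrict U₁) (Rep.res (Subgroup.inclusion h) B)]

/-- **Shapiro's isomorphism is compatible with shrinking the subgroup**: under `levelSh`, the
inclusion `coind_{U₀} B ↪ coind_{U₁} (res B)` corresponds to the restriction
`Hⁿ(U₀, B) → Hⁿ(U₁, B)`. -/
theorem levelSh_coindIncl (n : ℕ) :
    HomologicalComplex.homologyMap (levelMap 𝒰 (coindIncl h B)) n ≫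
        levelSh 𝒰 U₁ (Rep.res (Subgroup.inclusion h) B) n =
      levelSh 𝒰 U₀ B n ≫
        levelCohomologyMap (Subgroup.inclusion h) (𝒰.restrict_refines_inclusion h)
          (𝟙 (Rep.res (Subgroup.inclusion h) B)) n := by
  show HomologicalComplex.homologyMap (levelMap 𝒰 (coindIncl h B)) n ≫
      HomologicalComplex.homologyMap (levelCochainsMap U₁.subtype (𝒰.restrict_refines U₁)
        (coindEval U₁ (Rep.res (Subgroup.inclusion h) B))) n =
    HomologicalComplex.homologyMap (levelCochainsMap U₀.subtype (𝒰.restrict_refines U₀)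
        (coindEval U₀ B)) n ≫
      HomologicalComplex.homologyMap (levelCochainsMap (Subgroup.inclusion h)
        (𝒰.restrict_refines_inclusion h) (𝟙 (Rep.res (Subgroup.inclusion h) B))) n
  rw [← HomologicalComplex.homologyMap_comp, ← HomologicalComplex.homologyMap_comp]
  rfl

/-- Elementwise form of `levelSh_coindIncl`. -/
theorem levelSh_coindIncl_apply (n : ℕ) (x : levelCohomology 𝒰 (Rep.coind U₀.subtype B) n) :
    (levelSh 𝒰 U₁ (Rep.res (Subgroup.inclusion h) B) n).hom
        ((HomologicalComplex.homologyMap (levelMap 𝒰 (coindIncl h B)) n).hom x) =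
      (levelCohomologyMap (Subgroup.inclusion h) (𝒰.restrict_refines_inclusion h)
          (𝟙 (Rep.res (Subgroup.inclusion h) B)) n).hom ((levelSh 𝒰 U₀ B n).hom x) := by
  have := congrArg (fun ψ => ModuleCat.Hom.hom ψ x) (levelSh_coindIncl 𝒰 h B n)
  exact this

end ShapiroIncl

end Fermat.Agent.S55.Level
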