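/-
S55 / LEVEL-COLIM part (c): further compatibilities of the inflation maps
`levelInf 𝒰 A hU n : Hⁿ(G ⧸ U, A^U) ⟶ levelCohomology 𝒰 A n` of `LevelLayer.lean`:

* `levelInf_comp_levelCohomologyMap`: compatibility with change of group and coefficients
  (`layerChange`), with the special case `levelInf_comp_res` of restriction to a subgroup;
* `levelInf_cupH`: compatibility with cup products (`layerPairing` on invariants);
* `levelInf_comp_levelδ`: compatibility with connecting homomorphisms when the sequence of
  invariants is short exact (`layerShortComplex_shortExact` gives a criterion).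
-/
import Fermat.Agent.S55.LevelLayer
import Fermat.Agent.S55.LevelRestrict
import Fermat.Agent.S55.CupNat

set_option autoImplicit false

open CategoryTheory

namespace Fermat.Agent.S55.LevelLayer

open Fermat.Agent.S55.Level Fermat.Agent.S55.CochainTools groupCohomology

universe u

section ChangeOfGroup

variable {k G H : Type u} [CommRing k] [Group G] [Group H] {𝒰 : LevelStructure G}
  {𝒱 : LevelStructure H} {A : Rep.{u} k G} {B : Rep.{u} k H} [IsDiscrete 𝒰 A] [IsDiscrete 𝒱 B]
  (f : H →* G) (hf : 𝒱.Refines 𝒰 f) (φ : Rep.res f A ⟶ B)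
  {U : Subgroup G} [U.Normal] {V : Subgroup H} [V.Normal] (hVU : V ≤ U.comap f)

/-- The map `H ⧸ V →* G ⧸ U` induced by `f : H →* G` when `f V ⊆ U`. -/
def layerChangeHom : H ⧸ V →* G ⧸ U := QuotientGroup.map V U f hVU

@[simp] lemma layerChangeHom_mk (h : H) : layerChangeHom f hVU (h : H ⧸ V) = (f h : G ⧸ U) := rfl

/-- The map `A^U → B^V` induced by `φ : res f A ⟶ B` when `f V ⊆ U`, as a morphism of
representations of `H ⧸ V`. -/
noncomputable def layerChangeMap :
    Rep.res (layerChangeHom f hVU) (A.quotientToInvariants U) ⟶ B.quotientToInvariants V :=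
  Rep.ofHom ⟨LinearMap.codRestrict _ (φ.hom.toLinearMap ∘ₗ Submodule.subtype _) fun x v => by
      have h1 := Rep.hom_comm_apply φ v.1 (x : A)
      have h2 : A.ρ (f v.1) (x : A) = x := x.2 ⟨f v.1, hVU v.2⟩
      exact h1.symm.trans (congrArg φ.hom h2),
    fun q => QuotientGroup.induction_on q fun h => by
      ext x
      exact Rep.hom_comm_apply φ h (x : A)⟩

lemma layerChangeMap_apply_coe (x : A.quotientToInvariants U) :
    (((layerChangeMap f φ hVU).hom x : B.quotientToInvariants V) : B) = φ.hom (x : A) := rfl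

/-- The change-of-group map between finite layers. -/
noncomputable def layerChange (n : ℕ) :
    groupCohomology (A.quotientToInvariants U) n ⟶ groupCohomology (B.quotientToInvariants V) n :=
  groupCohomology.map (layerChangeHom f hVU) (layerChangeMap f φ hVU) n

variable (hU : U ∈ 𝒰.sets) (hV : V ∈ 𝒱.sets)

lemma levelInfComplex_comp_levelCochainsMap :
    levelInfComplex 𝒰 A hU ≫ levelCochainsMap f hf φ =
      cochainsMap (layerChangeHom f hVU) (layerChangeMap f φ hVU) ≫ levelInfComplex 𝒱 B hV := rfl

/-- **Inflation from finite layers commutes with change of group and coefficients**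
(restriction to open subgroups, localisation, inflation, coefficient morphisms). -/
theorem levelInf_comp_levelCohomologyMap (n : ℕ) :
    levelInf 𝒰 A hU n ≫ levelCohomologyMap f hf φ n =
      layerChange f φ hVU n ≫ levelInf 𝒱 B hV n := by
  have h1 := HomologicalComplex.homologyMap_comp (levelInfComplex 𝒰 A hU)
    (levelCochainsMap f hf φ) n
  have h2 := HomologicalComplex.homologyMap_comp
    (cochainsMap (layerChangeHom f hVU) (layerChangeMap f φ hVU)) (levelInfComplex 𝒱 B hV) n
  rw [levelInfComplex_comp_levelCochainsMap f hf φ hVU hU hV] at h1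
  exact h1.symm.trans h2

lemma levelInf_levelCohomologyMap_apply (n : ℕ) (y : groupCohomology (A.quotientToInvariants U) n) :
    (levelCohomologyMap f hf φ n).hom ((levelInf 𝒰 A hU n).hom y) =
      (levelInf 𝒱 B hV n).hom ((layerChange f φ hVU n).hom y) := by
  have := congrArg (fun ψ => ModuleCat.Hom.hom ψ y)
    (levelInf_comp_levelCohomologyMap f hf φ hVU hU hV n)
  exact this

end ChangeOfGroup

section Restrict

variable {k G : Type u} [CommRing k] [Group G] (𝒰 : LevelStructure G) (A : Rep.{u} k G)
  [IsDiscrete 𝒰 A] (K : Subgroup G) [IsDiscrete (𝒰.restrict K) (Rep.res K.subtype A)]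
  {U : Subgroup G} [U.Normal] (hU : U ∈ 𝒰.sets)

/-- Restriction to a subgroup `K` on finite layers: `H^n(G/U, A^U) → H^n(K/(K ∩ U), A^{K ∩ U})`. -/
noncomputable def layerRes (n : ℕ) :
    groupCohomology (A.quotientToInvariants U) n ⟶
      groupCohomology ((Rep.res K.subtype A).quotientToInvariants (U.subgroupOf K)) n :=
  layerChange K.subtype (𝟙 (Rep.res K.subtype A)) (le_refl (U.subgroupOf K)) n

/-- **Inflation from finite layers commutes with restriction to a subgroup.** -/
theorem levelInf_comp_res (n : ℕ) :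
    levelInf 𝒰 A hU n ≫
        levelCohomologyMap K.subtype (𝒰.restrict_refines K) (𝟙 (Rep.res K.subtype A)) n =
      layerRes A K n ≫
        levelInf (𝒰.restrict K) (Rep.res K.subtype A) (𝒰.mem_restrict_sets K hU) n :=
  levelInf_comp_levelCohomologyMap K.subtype (𝒰.restrict_refines K) (𝟙 (Rep.res K.subtype A))
    (le_refl (U.subgroupOf K)) hU (𝒰.mem_restrict_sets K hU) n

end Restrict

section Cup

variable {k G : Type u} [CommRing k] [Group G] (𝒰 : LevelStructure G) {A B C : Rep.{u} k G}
  (φ : A →ₗ[k] B →ₗ[k] C)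
  (hφ : ∀ (g : G) (a : A) (b : B), φ (A.ρ g a) (B.ρ g b) = C.ρ g (φ a b))
  (U : Subgroup G) [U.Normal]

/-- The pairing induced on `U`-invariants by an equivariant pairing `A × B → C`. -/
noncomputable def layerPairing :
    A.quotientToInvariants U →ₗ[k] B.quotientToInvariants U →ₗ[k] C.quotientToInvariants U :=
  LinearMap.mk₂ k
    (fun a b => ⟨φ a.1 b.1, fun u => by
      have h := hφ u.1 a.1 b.1
      have ha : A.ρ u.1 a.1 = a.1 := a.2 u
      have hb : B.ρ u.1 b.1 = b.1 := b.2 u
      rw [ha, hb] at h
      exact h.symm⟩)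
    (fun a a' b => Subtype.ext (by simp))
    (fun c a b => Subtype.ext (by simp))
    (fun a b b' => Subtype.ext (by simp))
    (fun c a b => Subtype.ext (by simp))

lemma layerPairing_apply_coe (a : A.quotientToInvariants U) (b : B.quotientToInvariants U) :
    ((layerPairing φ hφ U a b : C.quotientToInvariants U) : C) = φ (a : A) (b : B) := rfl

lemma layerPairing_equivariant (q : G ⧸ U) (a : A.quotientToInvariants U)
    (b : B.quotientToInvariants U) :
    layerPairing φ hφ U ((A.quotientToInvariants U).ρ q a) ((B.quotientToInvariants U).ρ q b) =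
      (C.quotientToInvariants U).ρ q (layerPairing φ hφ U a b) := by
  induction q using QuotientGroup.induction_on with
  | H g => exact Subtype.ext (hφ g a.1 b.1)

variable [IsDiscrete 𝒰 A] [IsDiscrete 𝒰 B] [IsDiscrete 𝒰 C] {U} (hU : U ∈ 𝒰.sets)

/-- **Inflation from a finite layer is multiplicative**: the cup product of the finite group
`G ⧸ U` with respect to the pairing `A^U × B^U → C^U` inflates to the cup product of level
cohomology. -/
theorem levelInf_cupH (m n : ℕ) (x : groupCohomology (A.quotientToInvariants U) m)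
    (y : groupCohomology (B.quotientToInvariants U) n) :
    (levelInf 𝒰 C hU (m + n)).hom
        (Cup.cupH (layerPairing φ hφ U) (layerPairing_equivariant φ hφ U) m n x y) =
      Cup.levelCupH 𝒰 φ hφ m n ((levelInf 𝒰 A hU m).hom x) ((levelInf 𝒰 B hU n).hom y) := by
  obtain ⟨a, rfl⟩ := cls_surjective (inhomogeneousCochains (A.quotientToInvariants U)) m x
  obtain ⟨b, rfl⟩ := cls_surjective (inhomogeneousCochains (B.quotientToInvariants U)) n y
  rw [Cup.cupH_cls, levelInf_cls, levelInf_cls, levelInf_cls, Cup.levelCupH_cls]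
  congr 1
  apply Subtype.ext
  apply Subtype.ext
  exact Cup.cochainsMap_cup (QuotientGroup.mk' U) (layerι A U) (layerι B U) (layerι C U)
    (layerPairing φ hφ U) φ (fun _ _ => rfl) a.1 b.1

end Cup

section Delta

variable {k G : Type u} [CommRing k] [Group G] (𝒰 : LevelStructure G)
  {X : ShortComplex (Rep.{u} k G)} [IsDiscrete 𝒰 X.X₁] [IsDiscrete 𝒰 X.X₂] [IsDiscrete 𝒰 X.X₃]
  {U : Subgroup G} [U.Normal] (hU : U ∈ 𝒰.sets)

instance quotientToInvariantsFunctor_preservesZeroMorphisms (U : Subgroup G) [U.Normal] :
    (Rep.quotientToInvariantsFunctor k U).PreservesZeroMorphisms where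
  map_zero A B := by
    ext x
    rfl

variable (X U) in
/-- The short complex of `U`-invariants, as representations of the layer `G ⧸ U`. -/
noncomputable abbrev layerShortComplex : ShortComplex (Rep.{u} k (G ⧸ U)) :=
  X.map (Rep.quotientToInvariantsFunctor k U)

omit [IsDiscrete 𝒰 X.X₁] [IsDiscrete 𝒰 X.X₂] [IsDiscrete 𝒰 X.X₃] in
/-- The sequence of `U`-invariants of a short exact sequence is short exact as soon as
`X₂^U → X₃^U` is surjective (left exactness is automatic). -/
theorem layerShortComplex_shortExact (hX : X.ShortExact)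
    (hsurj : ∀ c : X.X₃.quotientToInvariants U,
      ∃ b : X.X₂.quotientToInvariants U, X.g.hom (b : X.X₂) = (c : X.X₃)) :
    (layerShortComplex X U).ShortExact := by
  have hf : Function.Injective X.f.hom := (Rep.mono_iff_injective X.f).1 hX.mono_f
  have hex : ∀ b : X.X₂, X.g.hom b = 0 → ∃ a : X.X₁, X.f.hom a = b := by
    intro b hb
    have : LinearMap.range X.f.hom.toLinearMap = LinearMap.ker X.g.hom.toLinearMap :=
      (hX.exact.map (forget₂ (Rep.{u} k G) (ModuleCat.{u} k))).moduleCat_range_eq_ker
    have hb' : b ∈ LinearMap.ker X.g.hom.toLinearMap := hb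
    rw [← this] at hb'
    exact hb'
  refine ShortComplex.ShortExact.mk' ?_ ((Rep.mono_iff_injective _).2 ?_)
    ((Rep.epi_iff_surjective _).2 ?_)
  · rw [← ShortComplex.exact_map_iff_of_faithful _
      (forget₂ (Rep.{u} k (G ⧸ U)) (ModuleCat.{u} k)), ShortComplex.moduleCat_exact_iff]
    intro (b : X.X₂.quotientToInvariants U) hb
    have hb0 : X.g.hom (b : X.X₂) = 0 := congrArg Subtype.val hb
    obtain ⟨a, ha⟩ := hex b.1 hb0
    refine ⟨(⟨a, fun u => hf ?_⟩ : X.X₁.quotientToInvariants U), Subtype.ext ha⟩
    have h1 := Rep.hom_comm_apply X.f u.1 a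
    have h2 : X.X₂.ρ u.1 (b : X.X₂) = b := b.2 u
    exact h1.trans (by rw [ha]; exact h2)
  · intro a a' h
    exact Subtype.ext (hf (congrArg Subtype.val h))
  · intro c
    obtain ⟨b, hb⟩ := hsurj c
    exact ⟨b, Subtype.ext hb⟩

/-- Inflation from a layer, as a morphism of short complexes of cochain complexes. -/
noncomputable def levelInfShortComplex :
    (layerShortComplex X U).map (cochainsFunctor k (G ⧸ U)) ⟶ levelShortComplex 𝒰 X where
  τ₁ := levelInfComplex 𝒰 X.X₁ hU
  τ₂ := levelInfComplex 𝒰 X.X₂ hU
  τ₃ := levelInfComplex 𝒰 X.X₃ hU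
  comm₁₂ := rfl
  comm₂₃ := rfl

/-- **Inflation from a finite layer commutes with connecting homomorphisms** (when the sequence
of `U`-invariants is still short exact). -/
theorem levelInf_comp_levelδ (hX : X.ShortExact) (hXU : (layerShortComplex X U).ShortExact)
    (i j : ℕ) (hij : i + 1 = j) :
    groupCohomology.δ hXU i j hij ≫ levelInf 𝒰 X.X₁ hU j =
      levelInf 𝒰 X.X₃ hU i ≫ levelδ 𝒰 hX i j hij :=
  HomologicalComplex.HomologySequence.δ_naturality (levelInfShortComplex 𝒰 hU)
    (map_cochainsFunctor_shortExact hXU) (levelShortComplex_shortExact 𝒰 hX) i j hij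

end Delta

end Fermat.Agent.S55.LevelLayer
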