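/-
S55 / ALG4 (Mk1, Mk2): the Mackey decomposition for level cohomology.

`G` with level structure `𝒰`, `U₀ ≤ G` open, `B` a discrete representation of `U₀`;
`r : Gv →* G` a homomorphism refining the level structures (`Gv` = a decomposition group).
For `σ : G`:  `mackeySub r U₀ σ = {h | σ r(h) σ⁻¹ ∈ U₀} ≤ Gv`,
`mackeyHom r U₀ σ : Gv_σ →* U₀`, `h ↦ σ r(h) σ⁻¹`, `B_σ = Rep.res (mackeyHom r U₀ σ) B`,
`mackeyπ r U₀ B σ : res (coind_{U₀}^G B) ⟶ B_σ`, `F ↦ F σ`.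

* `mackey_module_bijective` : for representatives `σ i` of `U₀ \ G / r(Gv)`,
  `res_r (coind_{U₀}^G B) ≅ ∏ i, coind_{Gv_{σ i}}^{Gv} B_{σ i}`;
* `mackey_bijective`, `mackeyEquiv` : `Hⁿ(Gv, res_r coind B) ≅ ∏ i, Hⁿ(Gv_{σ i}, B_{σ i})`;
* `mackey_loc` : compatibility with localisation:
  `(σ-component) ∘ res_r = (restriction along mackeyHom σ) ∘ levelSh` on cohomology;
* `exists_doubleCoset_reps` : existence of a finite system of representatives.
-/
import Fermat.Agent.S55.LevelSemiLocal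
import Fermat.Agent.S55.LevelConj

set_option autoImplicit false

open CategoryTheory

namespace Fermat.Agent.S55.Level

open Fermat.Agent.S55.CF Fermat.Agent.S55.GC.SemiLocal Fermat.Agent.S55.GC.Shapiro

universe u

variable {k G Gv : Type u} [CommRing k] [Group G] [Group Gv] {𝒰 : LevelStructure G}
  {𝒱 : LevelStructure Gv} (r : Gv →* G) (hr : 𝒱.Refines 𝒰 r) (U₀ : Subgroup G)

section Defs

/-- The homomorphism `h ↦ σ r(h) σ⁻¹`. -/
def mackeyConj (σ : G) : Gv →* G := (MulAut.conj σ).toMonoidHom.comp r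

@[simp] lemma mackeyConj_apply (σ : G) (h : Gv) : mackeyConj r σ h = σ * r h * σ⁻¹ := by
  show (MulAut.conj σ) (r h) = _
  rw [MulAut.conj_apply]

/-- The subgroup `Gv_σ = {h | σ r(h) σ⁻¹ ∈ U₀}` of `Gv` (the "decomposition group of the place
`σ`" inside `U₀`). -/
def mackeySub (σ : G) : Subgroup Gv := U₀.comap (mackeyConj r σ)

lemma mem_mackeySub_iff (σ : G) (h : Gv) : h ∈ mackeySub r U₀ σ ↔ σ * r h * σ⁻¹ ∈ U₀ := by
  show mackeyConj r σ h ∈ U₀ ↔ _
  rw [mackeyConj_apply]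

/-- The homomorphism `Gv_σ →* U₀`, `h ↦ σ r(h) σ⁻¹`. -/
def mackeyHom (σ : G) : mackeySub r U₀ σ →* U₀ := (mackeyConj r σ).subgroupComap U₀

@[simp] lemma coe_mackeyHom (σ : G) (h : mackeySub r U₀ σ) :
    ((mackeyHom r U₀ σ h : U₀) : G) = σ * r h * σ⁻¹ := by
  show mackeyConj r σ h = _
  rw [mackeyConj_apply]

include hr in
/-- `Gv_σ` is open. -/
lemma isOpenSub_mackeySub [h₀ : IsOpenSub 𝒰 U₀] (σ : G) : IsOpenSub 𝒱 (mackeySub r U₀ σ) := by
  obtain ⟨U, hU, hle⟩ := h₀.exists_le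
  obtain ⟨V, hV, hVU⟩ := hr U hU
  have hn := 𝒰.normal U hU
  refine ⟨⟨V, hV, fun h hh => ?_⟩⟩
  rw [mem_mackeySub_iff]
  exact hle (hn.conj_mem _ (hVU hh) σ)

include hr in
/-- The level structure of `Gv_σ` refines that of `U₀` along `h ↦ σ r(h) σ⁻¹`. -/
lemma mackeyHom_refines (σ : G) :
    (𝒱.restrict (mackeySub r U₀ σ)).Refines (𝒰.restrict U₀) (mackeyHom r U₀ σ) := by
  rintro _ ⟨U, hU, rfl⟩
  obtain ⟨V, hV, hVU⟩ := hr U hU
  have hn := 𝒰.normal U hU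
  refine ⟨_, 𝒱.mem_restrict_sets _ hV, fun h hh => ?_⟩
  show ((mackeyHom r U₀ σ h : U₀) : G) ∈ U
  rw [coe_mackeyHom]
  exact hn.conj_mem _ (hVU hh) σ

end Defs

section Module

variable (B : Rep.{u} k U₀)

/-- Discreteness passes to restrictions along refining homomorphisms. -/
lemma isDiscrete_res_level {H : Type u} [Group H] {𝒲 : LevelStructure H} (f : H →* G)
    (hf : 𝒲.Refines 𝒰 f) (A : Rep.{u} k G) [IsDiscrete 𝒰 A] : IsDiscrete 𝒲 (Rep.res f A) :=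
  ⟨fun a => by
    obtain ⟨U, hU, hfix⟩ := IsDiscrete.exists_fix (𝒰 := 𝒰) (A := A) a
    obtain ⟨V, hV, hVU⟩ := hf U hU
    exact ⟨V, hV, fun v hv => hfix (f v) (hVU hv)⟩⟩

/-- Evaluation at `σ`: the projection `res (coind_{U₀}^G B) → B_σ` of the Mackey decomposition,
a morphism of representations of `Gv_σ`. -/
noncomputable def mackeyπ (σ : G) :
    Rep.res (mackeySub r U₀ σ).subtype (Rep.res r (Rep.coind U₀.subtype B)) ⟶
      Rep.res (mackeyHom r U₀ σ) B :=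
  Rep.ofHom ⟨LinearMap.proj σ ∘ₗ (B.ρ.coindV U₀.subtype).subtype, fun h => by
    ext F
    show F.1 (σ * r h) = B.ρ (mackeyHom r U₀ σ h) (F.1 σ)
    rw [← coind_apply_mul, coe_mackeyHom]
    group⟩

include hr in
/-- `B_σ` is discrete for the level structure induced on `Gv_σ`. -/
lemma isDiscrete_mackeyRep [IsDiscrete (𝒰.restrict U₀) B] (σ : G) :
    IsDiscrete (𝒱.restrict (mackeySub r U₀ σ)) (Rep.res (mackeyHom r U₀ σ) B) :=
  isDiscrete_res_level (mackeyHom r U₀ σ) (mackeyHom_refines r hr U₀ σ) B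

lemma mackeyπ_apply (σ : G) (F : (Rep.coind U₀.subtype B).V) :
    (mackeyπ r U₀ B σ).hom F = F.1 σ := rfl

lemma mackeyπ_ρ_apply (σ : G) (g : Gv) (F : (Rep.coind U₀.subtype B).V) :
    (mackeyπ r U₀ B σ).hom ((Rep.res r (Rep.coind U₀.subtype B)).ρ g F) = F.1 (σ * r g) := rfl

open scoped Classical in
/-- Extension by zero from the coset `U₀ σ`: the element of `coind_{U₀}^G B` supported on `U₀ σ`
with value `b` at `σ`. -/
noncomputable def mackeyExt (σ : G) (b : B) : (Rep.coind U₀.subtype B).V :=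
  ⟨fun x => if hx : x * σ⁻¹ ∈ U₀ then B.ρ ⟨x * σ⁻¹, hx⟩ b else 0, fun u x => by
    show (if hx : (u : G) * x * σ⁻¹ ∈ U₀ then B.ρ ⟨(u : G) * x * σ⁻¹, hx⟩ b else 0) =
      B.ρ u (if hx : x * σ⁻¹ ∈ U₀ then B.ρ ⟨x * σ⁻¹, hx⟩ b else 0)
    by_cases hx : x * σ⁻¹ ∈ U₀
    · have hux : (u : G) * x * σ⁻¹ ∈ U₀ := by
        rw [mul_assoc]; exact U₀.mul_mem u.2 hx
      rw [dif_pos hx, dif_pos hux, ← Module.End.mul_apply, ← map_mul]
      congr 2
      exact Subtype.ext (mul_assoc _ _ _)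
    · have hux : ¬ (u : G) * x * σ⁻¹ ∈ U₀ := by
        intro h
        apply hx
        have := U₀.mul_mem (U₀.inv_mem u.2) h
        rwa [mul_assoc, inv_mul_cancel_left] at this
      rw [dif_neg hx, dif_neg hux, map_zero]⟩

lemma mackeyExt_apply_of_mem (σ : G) (b : B) {x : G} (hx : x * σ⁻¹ ∈ U₀) :
    (mackeyExt U₀ B σ b).1 x = B.ρ ⟨x * σ⁻¹, hx⟩ b := dif_pos hx

lemma mackeyExt_apply_of_not_mem (σ : G) (b : B) {x : G} (hx : ¬ x * σ⁻¹ ∈ U₀) :
    (mackeyExt U₀ B σ b).1 x = 0 := dif_neg hx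

lemma mackeyExt_apply_self (σ : G) (b : B) : (mackeyExt U₀ B σ b).1 σ = b := by
  have h1 : σ * σ⁻¹ ∈ U₀ := by rw [mul_inv_cancel]; exact U₀.one_mem
  rw [mackeyExt_apply_of_mem U₀ B σ b h1]
  have : (⟨σ * σ⁻¹, h1⟩ : U₀) = 1 := Subtype.ext (mul_inv_cancel σ)
  rw [this, map_one]
  rfl

end Module

section Main

variable {ι : Type*} (σ : ι → G)
  (hcov : ∀ x : G, ∃ i, ∃ u ∈ U₀, ∃ h : Gv, x = u * σ i * r h)
  (hdisj : ∀ i j, ∀ u ∈ U₀, ∀ h : Gv, σ j = u * σ i * r h → i = j)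
  (B : Rep.{u} k U₀)

include hcov in
/-- (inj) of the recognition criterion for the Mackey decomposition. -/
lemma mackey_hinj (F : (Rep.res r (Rep.coind U₀.subtype B)).V)
    (hF : ∀ i (g : Gv), (mackeyπ r U₀ B (σ i)).hom
      ((Rep.res r (Rep.coind U₀.subtype B)).ρ g F) = 0) : F = 0 := by
  apply Subtype.ext
  funext x
  obtain ⟨i, u, hu, h, rfl⟩ := hcov x
  have h1 : F.1 (σ i * r h) = 0 := hF i h
  have h2 := coind_apply_mul U₀ B F ⟨u, hu⟩ (σ i * r h)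
  rw [mul_assoc]
  exact h2.trans (by rw [h1, map_zero]; rfl)

include hdisj in
/-- (surj) of the recognition criterion for the Mackey decomposition. -/
lemma mackey_hsurj (i : ι) (b : B) :
    ∃ F : (Rep.res r (Rep.coind U₀.subtype B)).V, (mackeyπ r U₀ B (σ i)).hom F = b ∧
      (∀ g : Gv, g ∉ mackeySub r U₀ (σ i) → (mackeyπ r U₀ B (σ i)).hom
        ((Rep.res r (Rep.coind U₀.subtype B)).ρ g F) = 0) ∧
      ∀ j, j ≠ i → ∀ g : Gv, (mackeyπ r U₀ B (σ j)).hom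
        ((Rep.res r (Rep.coind U₀.subtype B)).ρ g F) = 0 := by
  refine ⟨mackeyExt U₀ B (σ i) b, mackeyExt_apply_self U₀ B (σ i) b, fun g hg => ?_,
    fun j hj g => ?_⟩
  · rw [mackeyπ_ρ_apply]
    exact mackeyExt_apply_of_not_mem U₀ B (σ i) b (fun h => hg ((mem_mackeySub_iff r U₀ _ _).2 h))
  · rw [mackeyπ_ρ_apply]
    refine mackeyExt_apply_of_not_mem U₀ B (σ i) b (fun h => hj ?_)
    refine (hdisj i j _ h g⁻¹ ?_).symm
    rw [map_inv]
    group

include hcov hdisj in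
/-- **Mackey decomposition, module level**: for a finite set `σ i` of representatives of the
double cosets `U₀ \\ G / r(Gv)`, the `Gv`-representation `res_r (coind_{U₀}^G B)` is the product
of the coinduced representations `coind_{Gv_σ}^{Gv} B_σ`. -/
theorem mackey_module_bijective [Finite ι] [∀ i, (mackeySub r U₀ (σ i)).FiniteIndex] :
    Function.Bijective (fun (F : (Rep.res r (Rep.coind U₀.subtype B)).V) (i : ι) =>
      (toCoind (mackeyπ r U₀ B (σ i))).hom F) :=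
  toCoind_family_bijective (fun i => mackeyπ r U₀ B (σ i))
    (mackey_hinj r U₀ σ hcov B) (mackey_hsurj r U₀ σ hdisj B)

variable [Finite ι] [IsOpenSub 𝒰 U₀] [IsDiscrete (𝒰.restrict U₀) B]
  [IsDiscrete 𝒱 (Rep.res r (Rep.coind U₀.subtype B))]
  [∀ i, IsOpenSub 𝒱 (mackeySub r U₀ (σ i))]
  [∀ i, IsDiscrete (𝒱.restrict (mackeySub r U₀ (σ i))) (Rep.res (mackeyHom r U₀ (σ i)) B)]

include hcov hdisj in
/-- **Mackey decomposition on level cohomology**: `Hⁿ(Gv, res_r coind_{U₀}^G B) ≅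
∏_σ Hⁿ(Gv_σ, B_σ)`, the `σ`-component being "restrict to `Gv_σ`, then evaluate at `σ`". -/
theorem mackey_bijective (n : ℕ) :
    Function.Bijective
      (fun (x : levelCohomology 𝒱 (Rep.res r (Rep.coind U₀.subtype B)) n) (i : ι) =>
        (levelLoc 𝒱 (mackeyπ r U₀ B (σ i)) n).hom x) :=
  levelSemiLocal_bijective 𝒱 (fun i => mackeyπ r U₀ B (σ i))
    (mackey_hinj r U₀ σ hcov B) (mackey_hsurj r U₀ σ hdisj B) n

/-- The Mackey decomposition of level cohomology as a linear equivalence. -/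
noncomputable def mackeyEquiv (n : ℕ) :
    levelCohomology 𝒱 (Rep.res r (Rep.coind U₀.subtype B)) n ≃ₗ[k]
      (∀ i, levelCohomology (𝒱.restrict (mackeySub r U₀ (σ i)))
        (Rep.res (mackeyHom r U₀ (σ i)) B) n) :=
  LinearEquiv.ofBijective
    (LinearMap.pi fun i => (levelLoc 𝒱 (mackeyπ r U₀ B (σ i)) n).hom)
    (mackey_bijective r U₀ σ hcov hdisj B n)

lemma mackeyEquiv_apply (n : ℕ)
    (x : levelCohomology 𝒱 (Rep.res r (Rep.coind U₀.subtype B)) n) (i : ι) :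
    mackeyEquiv r U₀ σ hcov hdisj B n x i = (levelLoc 𝒱 (mackeyπ r U₀ B (σ i)) n).hom x := rfl

end Main

section Loc

variable [IsOpenSub 𝒰 U₀] (B : Rep.{u} k U₀) [IsDiscrete (𝒰.restrict U₀) B]
  [IsDiscrete 𝒱 (Rep.res r (Rep.coind U₀.subtype B))] (σ : G)
  [IsDiscrete (𝒱.restrict (mackeySub r U₀ σ)) (Rep.res (mackeyHom r U₀ σ) B)]

include hr in
lemma refines_comp_subtype (S : Subgroup Gv) : (𝒱.restrict S).Refines 𝒰 (r.comp S.subtype) := by
  intro U hU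
  obtain ⟨V, hV, hVU⟩ := hr U hU
  exact ⟨_, 𝒱.mem_restrict_sets S hV, fun x hx => hVU hx⟩

/-- **The Mackey decomposition is compatible with localisation** (on cohomology): for
`x ∈ Hⁿ(G, coind_{U₀}^G B)`, the `σ`-component of the Mackey decomposition of the localisation
`res_r x ∈ Hⁿ(Gv, res_r coind B)` is the restriction along `Gv_σ → U₀`, `h ↦ σ r(h) σ⁻¹`, of the
Shapiro image `levelSh x ∈ Hⁿ(U₀, B)`. -/
theorem mackey_loc (n : ℕ) :
    levelCohomologyMap r hr (𝟙 (Rep.res r (Rep.coind U₀.subtype B))) n ≫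
        levelLoc 𝒱 (mackeyπ r U₀ B σ) n =
      levelSh 𝒰 U₀ B n ≫
        levelCohomologyMap (mackeyHom r U₀ σ) (mackeyHom_refines r hr U₀ σ)
          (𝟙 (Rep.res (mackeyHom r U₀ σ) B)) n := by
  -- the two composite change-of-group data
  let f' : mackeySub r U₀ σ →* G := r.comp (mackeySub r U₀ σ).subtype
  let f'' : mackeySub r U₀ σ →* G := U₀.subtype.comp (mackeyHom r U₀ σ)
  have hf' : (𝒱.restrict (mackeySub r U₀ σ)).Refines 𝒰 f' := refines_comp_subtype r hr _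
  have hf'' : (𝒱.restrict (mackeySub r U₀ σ)).Refines 𝒰 f'' := by
    intro U hU
    obtain ⟨W, hW, hWU⟩ := mackeyHom_refines r hr U₀ σ _ (𝒰.mem_restrict_sets U₀ hU)
    exact ⟨W, hW, fun x hx => hWU hx⟩
  let ψ' : Rep.res f' (Rep.coind U₀.subtype B) ⟶ Rep.res (mackeyHom r U₀ σ) B :=
    Rep.ofHom ⟨LinearMap.proj σ ∘ₗ (B.ρ.coindV U₀.subtype).subtype, fun h => by
      ext F
      exact Rep.hom_comm_apply (mackeyπ r U₀ B σ) h F⟩
  let ψ'' : Rep.res f'' (Rep.coind U₀.subtype B) ⟶ Rep.res (mackeyHom r U₀ σ) B :=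
    Rep.ofHom ⟨LinearMap.proj 1 ∘ₗ (B.ρ.coindV U₀.subtype).subtype, fun h => by
      ext F
      exact Rep.hom_comm_apply (coindEval U₀ B) (mackeyHom r U₀ σ h) F⟩
  have h1 : levelCohomologyMap r hr (𝟙 (Rep.res r (Rep.coind U₀.subtype B))) n ≫
      levelLoc 𝒱 (mackeyπ r U₀ B σ) n = levelCohomologyMap f' hf' ψ' n :=
    levelCohomologyMap_comp_eq r hr _ (mackeySub r U₀ σ).subtype _ (mackeyπ r U₀ B σ) f' hf' ψ'
      (fun _ => rfl) (fun _ => rfl) n
  have h2 : levelSh 𝒰 U₀ B n ≫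
      levelCohomologyMap (mackeyHom r U₀ σ) (mackeyHom_refines r hr U₀ σ)
        (𝟙 (Rep.res (mackeyHom r U₀ σ) B)) n = levelCohomologyMap f'' hf'' ψ'' n :=
    levelCohomologyMap_comp_eq U₀.subtype (𝒰.restrict_refines U₀) (coindEval U₀ B)
      (mackeyHom r U₀ σ) _ (𝟙 _) f'' hf'' ψ'' (fun _ => rfl) (fun _ => rfl) n
  rw [h1, h2]
  refine (levelCohomologyMap_eq_of_conj σ f' hf' f'' hf'' (fun x => ?_) ψ' ψ'' (fun F => ?_) n).symm
  · exact coe_mackeyHom r U₀ σ x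
  · show F.1 1 = F.1 (σ * σ⁻¹)
    rw [mul_inv_cancel]

/-- Elementwise form of `mackey_loc`. -/
theorem mackey_loc_apply (n : ℕ) (x : levelCohomology 𝒰 (Rep.coind U₀.subtype B) n) :
    (levelLoc 𝒱 (mackeyπ r U₀ B σ) n).hom
        ((levelCohomologyMap r hr (𝟙 (Rep.res r (Rep.coind U₀.subtype B))) n).hom x) =
      (levelCohomologyMap (mackeyHom r U₀ σ) (mackeyHom_refines r hr U₀ σ)
          (𝟙 (Rep.res (mackeyHom r U₀ σ) B)) n).hom ((levelSh 𝒰 U₀ B n).hom x) :=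
  congrArg (fun φ => ModuleCat.Hom.hom φ x) (mackey_loc r hr U₀ B σ n)

end Loc

section Reps

/-- The double coset space `U₀ \ G / K` is finite when `U₀` has finite index. -/
lemma finite_doubleCoset_quotient (U₀ K : Subgroup G) [U₀.FiniteIndex] :
    Finite (DoubleCoset.Quotient (U₀ : Set G) (K : Set G)) := by
  have : Finite (G ⧸ U₀) := Subgroup.finite_quotient_of_finiteIndex
  let f : G ⧸ U₀ → DoubleCoset.Quotient (U₀ : Set G) (K : Set G) :=
    Quotient.lift (fun g : G => DoubleCoset.mk U₀ K g⁻¹) (by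
      intro a b hab
      have hab' : a⁻¹ * b ∈ U₀ := QuotientGroup.leftRel_apply.1 hab
      show DoubleCoset.mk U₀ K a⁻¹ = DoubleCoset.mk U₀ K b⁻¹
      rw [DoubleCoset.eq]
      refine ⟨(a⁻¹ * b)⁻¹, U₀.inv_mem hab', 1, K.one_mem, ?_⟩
      group)
  refine Finite.of_surjective f fun q => ⟨((q.out⁻¹ : G) : G ⧸ U₀), ?_⟩
  show DoubleCoset.mk U₀ K (q.out⁻¹)⁻¹ = q
  rw [inv_inv]
  exact DoubleCoset.out_eq' U₀ K q

/-- Existence of a finite system of representatives of the double cosets `U₀ \ G / r(Gv)`, in the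
form consumed by `mackey_bijective`. -/
theorem exists_doubleCoset_reps [U₀.FiniteIndex] :
    ∃ (ι : Type u) (_ : Finite ι) (σ : ι → G),
      (∀ x : G, ∃ i, ∃ u ∈ U₀, ∃ h : Gv, x = u * σ i * r h) ∧
      (∀ i j, ∀ u ∈ U₀, ∀ h : Gv, σ j = u * σ i * r h → i = j) := by
  refine ⟨DoubleCoset.Quotient (U₀ : Set G) (r.range : Set G),
    finite_doubleCoset_quotient U₀ r.range, fun q => Quotient.out q, fun x => ?_,
    fun i j u hu h hij => ?_⟩
  · obtain ⟨a, b, ha, ⟨h, rfl⟩, hab⟩ := DoubleCoset.mk_out_eq_mul U₀ r.range x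
    refine ⟨DoubleCoset.mk U₀ r.range x, a⁻¹, U₀.inv_mem ha, h⁻¹, ?_⟩
    show x = a⁻¹ * Quotient.out (DoubleCoset.mk U₀ r.range x) * r h⁻¹
    rw [hab, map_inv]
    group
  · have h1 : DoubleCoset.mk U₀ r.range i.out = DoubleCoset.mk U₀ r.range j.out :=
      (DoubleCoset.eq U₀ r.range _ _).2 ⟨u, hu, r h, ⟨h, rfl⟩, hij⟩
    rwa [DoubleCoset.out_eq', DoubleCoset.out_eq'] at h1

end Reps

end Fermat.Agent.S55.Level
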