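/-
S55 / GLO15 (helper25): transport of the localisation sequence of a coinduced module through
Shapiro's lemma and the Mackey decomposition.

`G` with level structure `𝒰`, local data `D` (places `v`, maps `r v : G_v →* G`), `U₀ ≤ G` open,
`B` a discrete representation of `U₀`, `I = coind_{U₀}^G B`.  For each place `v` let `σ v i`
(`i : J v`, finite) be representatives of `U₀ \ G / r_v(G_v)`.  Then

* `levelSh : Hⁿ(G, I) ≃ Hⁿ(U₀, B)`               (helper12),
* `mackeyEquiv : Hⁿ(G_v, res I) ≃ ∏ i, Hⁿ(G_{v,σ i}, B_{σ i})`   (helper15),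

and under these identifications the localisation map `locH D I n` of the cone becomes the
localisation map `locL` of `U₀` at the "places above `v`" (`mackey_loc`).  Consequences: kernels
and ranges of `locH D I n` are those of `locL` (this is how the arithmetic over the field `L`
with `U₀ = G_L` enters the base case over `ℚ`).
-/
import Mathlib
import Fermat.Agent.S55.ConeLevel
import Fermat.Agent.S55.LevelMackey

set_option autoImplicit false
set_option linter.unusedSectionVars false

namespace Fermat.Agent.S55.ShapiroTransport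

open CategoryTheory Fermat.Agent.S55.Level Fermat.Agent.S55.Cone

universe u

variable {k G : Type u} [CommRing k] [Group G] {𝒰 : LevelStructure G} (D : LocalData 𝒰)
  (U₀ : Subgroup G) [IsOpenSub 𝒰 U₀] (B : Rep.{u} k U₀) [IsDiscrete (𝒰.restrict U₀) B]
  {J : D.ι → Type} (σ : ∀ v, J v → G)

/-- The restriction of the coinduced module to a local group is discrete (instance in the explicit
form, so that it is found for `Rep.coind`). -/
instance isDiscrete_res_coind (v : D.ι) :
    IsDiscrete (D.𝒱 v) (Rep.res (D.r v) (Rep.coind U₀.subtype B)) :=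
  D.isDiscrete_res (Rep.coind U₀.subtype B) v

/-- The local cohomology group of `U₀` at the place `(v, i)` above `v`. -/
noncomputable abbrev HL (n : ℕ) (v : D.ι) (i : J v) : ModuleCat.{u} k :=
  haveI := isDiscrete_mackeyRep (D.r v) (D.refines v) U₀ B (σ v i)
  levelCohomology ((D.𝒱 v).restrict (mackeySub (D.r v) U₀ (σ v i)))
    (Rep.res (mackeyHom (D.r v) U₀ (σ v i)) B) n

/-- The localisation map of `U₀` at the place `(v, i)`: restriction along
`G_{v,σ} → U₀`, `h ↦ σ r(h) σ⁻¹`. -/
noncomputable def locLAt (n : ℕ) (v : D.ι) (i : J v) :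
    levelCohomology (𝒰.restrict U₀) B n →ₗ[k] HL D U₀ B σ n v i :=
  haveI := isDiscrete_mackeyRep (D.r v) (D.refines v) U₀ B (σ v i)
  (levelCohomologyMap (mackeyHom (D.r v) U₀ (σ v i))
    (mackeyHom_refines (D.r v) (D.refines v) U₀ (σ v i))
    (𝟙 (Rep.res (mackeyHom (D.r v) U₀ (σ v i)) B)) n).hom

/-- The localisation map of `U₀` at all the places above the places of `D`. -/
noncomputable def locL (n : ℕ) :
    levelCohomology (𝒰.restrict U₀) B n →ₗ[k] (∀ v, ∀ i : J v, HL D U₀ B σ n v i) :=
  LinearMap.pi fun v => LinearMap.pi fun i => locLAt D U₀ B σ n v i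

theorem locL_apply (n : ℕ) (y : levelCohomology (𝒰.restrict U₀) B n) (v : D.ι) (i : J v) :
    locL D U₀ B σ n y v i = locLAt D U₀ B σ n v i y := rfl

/-- The `(v, i)`-component of the Mackey decomposition. -/
noncomputable def mkAt (n : ℕ) (v : D.ι) (i : J v) :
    levelCohomology (D.𝒱 v) (Rep.res (D.r v) (Rep.coind U₀.subtype B)) n →ₗ[k]
      HL D U₀ B σ n v i :=
  haveI := isDiscrete_mackeyRep (D.r v) (D.refines v) U₀ B (σ v i)
  (levelLoc (D.𝒱 v) (mackeyπ (D.r v) U₀ B (σ v i)) n).hom

/-- The Mackey map on the product of the local cohomology groups. -/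
noncomputable def mk (n : ℕ) :
    (∀ v, levelCohomology (D.𝒱 v) (Rep.res (D.r v) (Rep.coind U₀.subtype B)) n) →ₗ[k]
      (∀ v, ∀ i : J v, HL D U₀ B σ n v i) :=
  LinearMap.pi fun v => (LinearMap.pi fun i => mkAt D U₀ B σ n v i) ∘ₗ LinearMap.proj v

theorem mk_apply (n : ℕ)
    (w : ∀ v, levelCohomology (D.𝒱 v) (Rep.res (D.r v) (Rep.coind U₀.subtype B)) n)
    (v : D.ι) (i : J v) : mk D U₀ B σ n w v i = mkAt D U₀ B σ n v i (w v) := rfl

/-- **Localisation commutes with Shapiro and Mackey**: `mk ∘ locH = locL ∘ levelSh`. -/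
theorem mk_locH (n : ℕ) (x : levelCohomology 𝒰 (Rep.coind U₀.subtype B) n) :
    mk D U₀ B σ n (locH D (Rep.coind U₀.subtype B) n x) =
      locL D U₀ B σ n ((levelSh 𝒰 U₀ B n).hom x) := by
  funext v i
  haveI := isDiscrete_mackeyRep (D.r v) (D.refines v) U₀ B (σ v i)
  exact mackey_loc_apply (D.r v) (D.refines v) U₀ B (σ v i) n x

section Bijective

variable [∀ v, Finite (J v)]
  (hcov : ∀ v, ∀ x : G, ∃ i, ∃ u ∈ U₀, ∃ h : D.Gv v, x = u * σ v i * D.r v h)
  (hdisj : ∀ v, ∀ i j, ∀ u ∈ U₀, ∀ h : D.Gv v, σ v j = u * σ v i * D.r v h → i = j)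

include hcov hdisj in
/-- The Mackey map is bijective for systems of representatives of the double cosets. -/
theorem mk_bijective (n : ℕ) : Function.Bijective (mk D U₀ B σ n) := by
  have hv : ∀ v, Function.Bijective (fun (x : levelCohomology (D.𝒱 v)
      (Rep.res (D.r v) (Rep.coind U₀.subtype B)) n) (i : J v) => mkAt D U₀ B σ n v i x) := by
    intro v
    haveI : ∀ i, IsOpenSub (D.𝒱 v) (mackeySub (D.r v) U₀ (σ v i)) :=
      fun i => isOpenSub_mackeySub (D.r v) (D.refines v) U₀ (σ v i)
    haveI : ∀ i, IsDiscrete ((D.𝒱 v).restrict (mackeySub (D.r v) U₀ (σ v i)))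
        (Rep.res (mackeyHom (D.r v) U₀ (σ v i)) B) :=
      fun i => isDiscrete_mackeyRep (D.r v) (D.refines v) U₀ B (σ v i)
    exact mackey_bijective (D.r v) U₀ (σ v) (hcov v) (hdisj v) B n
  constructor
  · intro w w' h
    funext v
    apply (hv v).1
    funext i
    exact congrFun (congrFun h v) i
  · intro y
    choose w hw using fun v => (hv v).2 (y v)
    refine ⟨w, ?_⟩
    funext v i
    exact congrFun (hw v) i

/-- The Mackey map as a linear equivalence. -/
noncomputable def mkEquiv (n : ℕ) :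
    (∀ v, levelCohomology (D.𝒱 v) (Rep.res (D.r v) (Rep.coind U₀.subtype B)) n) ≃ₗ[k]
      (∀ v, ∀ i : J v, HL D U₀ B σ n v i) :=
  LinearEquiv.ofBijective (mk D U₀ B σ n) (mk_bijective D U₀ B σ hcov hdisj n)

/-- The level Shapiro map as a linear equivalence. -/
noncomputable def shEquiv (n : ℕ) :
    levelCohomology 𝒰 (Rep.coind U₀.subtype B) n ≃ₗ[k] levelCohomology (𝒰.restrict U₀) B n :=
  LinearEquiv.ofBijective (levelSh 𝒰 U₀ B n).hom (levelSh_bijective 𝒰 U₀ n B)

theorem shEquiv_apply (n : ℕ) (x : levelCohomology 𝒰 (Rep.coind U₀.subtype B) n) :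
    shEquiv U₀ B n x = (levelSh 𝒰 U₀ B n).hom x := rfl

include hcov hdisj in
/-- **Kernels**: a class of `Hⁿ(G, coind B)` is locally trivial at the places of `D` iff its
Shapiro image is locally trivial at all the places above them. -/
theorem mem_ker_locH_iff (n : ℕ) (x : levelCohomology 𝒰 (Rep.coind U₀.subtype B) n) :
    x ∈ LinearMap.ker (locH D (Rep.coind U₀.subtype B) n) ↔
      (levelSh 𝒰 U₀ B n).hom x ∈ LinearMap.ker (locL D U₀ B σ n) := by
  rw [LinearMap.mem_ker, LinearMap.mem_ker, ← mk_locH]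
  constructor
  · intro h
    rw [h, map_zero]
  · intro h
    exact (mk_bijective D U₀ B σ hcov hdisj n).1 (h.trans (map_zero _).symm)

include hcov hdisj in
/-- The kernels of the two localisation maps are isomorphic. -/
noncomputable def kerEquiv (n : ℕ) :
    LinearMap.ker (locH D (Rep.coind U₀.subtype B) n) ≃ₗ[k] LinearMap.ker (locL D U₀ B σ n) :=
  (shEquiv U₀ B n).ofSubmodules _ _ (by
    ext y
    constructor
    · rintro ⟨x, hx, rfl⟩
      exact (mem_ker_locH_iff D U₀ B σ hcov hdisj n x).1 hx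
    · intro hy
      obtain ⟨x, rfl⟩ := (shEquiv U₀ B n).surjective y
      exact ⟨x, (mem_ker_locH_iff D U₀ B σ hcov hdisj n x).2 hy, rfl⟩)

theorem kerEquiv_apply_coe (n : ℕ) (x : LinearMap.ker (locH D (Rep.coind U₀.subtype B) n)) :
    (kerEquiv D U₀ B σ hcov hdisj n x : levelCohomology (𝒰.restrict U₀) B n) =
      (levelSh 𝒰 U₀ B n).hom x.1 := rfl

include hcov hdisj in
/-- **Ranges**: a family of local classes is the localisation of a global class of `coind B` iff
its Mackey image is the localisation of a class of `Hⁿ(U₀, B)`. -/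
theorem mem_range_locH_iff (n : ℕ)
    (w : ∀ v, levelCohomology (D.𝒱 v) (Rep.res (D.r v) (Rep.coind U₀.subtype B)) n) :
    w ∈ LinearMap.range (locH D (Rep.coind U₀.subtype B) n) ↔
      mk D U₀ B σ n w ∈ LinearMap.range (locL D U₀ B σ n) := by
  constructor
  · rintro ⟨x, rfl⟩
    exact ⟨_, (mk_locH D U₀ B σ n x).symm⟩
  · rintro ⟨y, hy⟩
    obtain ⟨x, rfl⟩ := (levelSh_bijective 𝒰 U₀ n B).2 y
    refine ⟨x, (mk_bijective D U₀ B σ hcov hdisj n).1 ?_⟩
    rw [mk_locH]
    exact hy

end Bijective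

end Fermat.Agent.S55.ShapiroTransport
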