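/-
S55 / MAIN (M2): additivity.  The base case of the global dévissage for all finite dimensional `Y`
on which `U` acts trivially follows from the base case for the trivial representation `k`:
`coind_U^G res_U Y` is a finite direct sum of copies of `coind_U^G k`, and the duality maps
`PhiX` are natural in the coefficients.

* `lmap_id/_comp/_add/_zero/_sum`: functoriality and additivity of `LevelDuality.lmap`;
* `dualTwistMap_add/_sum`: additivity of the twisted dual;
* `injective_of_retract`, `surjective_of_retract`: the abstract (purely linear algebraic) retract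
  argument for a natural family of duality maps;
* `PhiX_natural`, `PhiX_injective_of_retract`, `PhiX_surjective_of_retract`;
* `coindResMap`: the morphism `coind_U^G res_U A ⟶ coind_U^G res_U B` induced by a `U`-equivariant
  linear map `A → B`;
* `baseCase_of_triv : BaseCaseTriv D χ tr → BaseCase D χ tr`.
-/
import Mathlib
import Fermat.Agent.S55.MainDefs
import Fermat.Agent.S55.ConeFunct

set_option autoImplicit false
set_option linter.unusedSectionVars false

namespace Fermat.Agent.S55.Main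

open CategoryTheory groupCohomology Fermat.Agent.S55.Level Fermat.Agent.S55.Cone
  Fermat.Agent.S55.DualTwist
  Fermat.Agent.S55.Devissage Fermat.Agent.S55.LevelDuality

universe u

/-! ### Functoriality of `lmap` -/

section Lmap

variable {k G : Type u} [CommRing k] [Group G] (𝒰 : LevelStructure G)
  {A B C : Rep.{u} k G} [IsDiscrete 𝒰 A] [IsDiscrete 𝒰 B] [IsDiscrete 𝒰 C]

theorem lmap_eq_Hmap (f : A ⟶ B) (n : ℕ) : lmap 𝒰 f n = (CF.Hmap 𝒰 f n).hom := rfl

theorem lmap_id (n : ℕ) : lmap 𝒰 (𝟙 A) n = LinearMap.id := by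
  rw [lmap_eq_Hmap, CF.Hmap_id]
  rfl

theorem lmap_id_apply (n : ℕ) (x : levelCohomology 𝒰 A n) : lmap 𝒰 (𝟙 A) n x = x := by
  rw [lmap_id]; rfl

theorem lmap_comp (f : A ⟶ B) (g : B ⟶ C) (n : ℕ) :
    lmap 𝒰 (f ≫ g) n = lmap 𝒰 g n ∘ₗ lmap 𝒰 f n := by
  rw [lmap_eq_Hmap, CF.Hmap_comp]
  rfl

theorem lmap_comp_apply (f : A ⟶ B) (g : B ⟶ C) (n : ℕ) (x : levelCohomology 𝒰 A n) :
    lmap 𝒰 (f ≫ g) n x = lmap 𝒰 g n (lmap 𝒰 f n x) := by
  rw [lmap_comp]; rfl

theorem lmap_add (f g : A ⟶ B) (n : ℕ) : lmap 𝒰 (f + g) n = lmap 𝒰 f n + lmap 𝒰 g n := by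
  rw [lmap_eq_Hmap, CF.Hmap_add]
  rfl

theorem lmap_zero (n : ℕ) : lmap 𝒰 (0 : A ⟶ B) n = 0 := by
  rw [lmap_eq_Hmap, CF.Hmap_zero]
  rfl

theorem lmap_sum {J : Type*} (s : Finset J) (f : J → (A ⟶ B)) (n : ℕ) :
    lmap 𝒰 (∑ j ∈ s, f j) n = ∑ j ∈ s, lmap 𝒰 (f j) n := by
  classical
  induction s using Finset.induction_on with
  | empty => rw [Finset.sum_empty, Finset.sum_empty]; exact lmap_zero 𝒰 n
  | insert a s ha ih => rw [Finset.sum_insert ha, Finset.sum_insert ha, lmap_add, ih]

theorem lmap_sum_apply {J : Type*} (s : Finset J) (f : J → (A ⟶ B)) (n : ℕ)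
    (x : levelCohomology 𝒰 A n) :
    lmap 𝒰 (∑ j ∈ s, f j) n x = ∑ j ∈ s, lmap 𝒰 (f j) n x := by
  rw [lmap_sum, LinearMap.sum_apply]

end Lmap

/-! ### Additivity of the twisted dual -/

section DualTwistAdd

variable {k G : Type u} [Field k] [Group G] (χ : G →* kˣ) {A B : Rep.{u} k G}

theorem dualTwistMap_add (f g : A ⟶ B) :
    dualTwistMap χ (f + g) = dualTwistMap χ f + dualTwistMap χ g := by
  refine Rep.hom_ext (Representation.IntertwiningMap.ext (LinearMap.ext fun φ => ?_))
  exact LinearMap.ext (f := ((dualTwistMap χ (f + g)).hom φ : Module.Dual k A)) fun a =>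
    map_add (φ : Module.Dual k B) (f.hom a) (g.hom a)

theorem dualTwistMap_sum {J : Type*} (s : Finset J) (f : J → (A ⟶ B)) :
    dualTwistMap χ (∑ j ∈ s, f j) = ∑ j ∈ s, dualTwistMap χ (f j) := by
  classical
  induction s using Finset.induction_on with
  | empty => rw [Finset.sum_empty, Finset.sum_empty]; exact dualTwistMap_zero χ
  | insert a s ha ih => rw [Finset.sum_insert ha, Finset.sum_insert ha, dualTwistMap_add, ih]

end DualTwistAdd

/-! ### The abstract retract argument -/

section Retract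

variable {k : Type*} [Field k] {J : Type*} [Fintype J]
  {HA HB DA DB : Type*} [AddCommGroup HA] [Module k HA] [AddCommGroup HB] [Module k HB]
  [AddCommGroup DA] [Module k DA] [AddCommGroup DB] [Module k DB]
  (ΦA : HA →ₗ[k] Module.Dual k DA) (ΦB : HB →ₗ[k] Module.Dual k DB)

/-- If `HB` is a retract-sum of copies of `HA` (`∑ j, hι j ∘ hπ j = id`) and the duality maps are
natural for the projections `hπ j`, then injectivity passes from `ΦA` to `ΦB`. -/
theorem injective_of_retract (hι : J → HA →ₗ[k] HB) (hπ : J → HB →ₗ[k] HA)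
    (dπ : J → DA →ₗ[k] DB)
    (natπ : ∀ j x y, ΦA (hπ j x) y = ΦB x (dπ j y))
    (hsum : ∀ x, ∑ j, hι j (hπ j x) = x)
    (hA : Function.Injective ΦA) : Function.Injective ΦB := by
  rw [injective_iff_map_eq_zero]
  intro x hx
  have h0 : ∀ j, hπ j x = 0 := by
    intro j
    apply hA
    rw [map_zero]
    ext y
    rw [natπ, hx]
    rfl
  rw [← hsum x]
  refine Finset.sum_eq_zero fun j _ => ?_
  rw [h0 j, map_zero]

/-- If `DB` is a retract-sum of copies of `DA` (`∑ j, dπ j ∘ dι j = id`) and the duality maps are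
natural for the inclusions `hι j`, then surjectivity passes from `ΦA` to `ΦB`. -/
theorem surjective_of_retract (hι : J → HA →ₗ[k] HB)
    (dι : J → DB →ₗ[k] DA) (dπ : J → DA →ₗ[k] DB)
    (natι : ∀ j x y, ΦB (hι j x) y = ΦA x (dι j y))
    (hsum : ∀ y, ∑ j, dπ j (dι j y) = y)
    (hA : Function.Surjective ΦA) : Function.Surjective ΦB := by
  intro d
  choose t ht using fun j => hA (d ∘ₗ dπ j)
  refine ⟨∑ j, hι j (t j), ?_⟩
  ext y
  rw [map_sum, LinearMap.sum_apply]
  conv_rhs => rw [← hsum y, map_sum]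
  refine Finset.sum_congr rfl fun j _ => ?_
  rw [natι, ht j]
  rfl

end Retract

/-! ### Naturality of `PhiX` and the retract argument for it -/

section PhiXNat

variable {k G : Type u} [Field k] [Group G] {𝒰 : LevelStructure G} (D : LocalData 𝒰)
  (χ : G →* kˣ) [IsDiscrete 𝒰 (ofChar χ)] (tr : Hc D (ofChar χ) 3 →ₗ[k] k)
  {A B : Rep.{u} k G} [IsDiscrete 𝒰 A] [IsDiscrete 𝒰 (A.dualTwist χ)] [IsDiscrete 𝒰 B]
  [IsDiscrete 𝒰 (B.dualTwist χ)]

/-- Naturality of the global duality maps in the coefficients. -/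
theorem PhiX_natural (f : A ⟶ B) (i j : ℕ) (h : i + j = 3) (x : Hc D A i)
    (y : levelCohomology 𝒰 (B.dualTwist χ) j) :
    PhiX D χ tr B i j h (HcMap D f i x) y =
      PhiX D χ tr A i j h x (lmap 𝒰 (dualTwistMap χ f) j y) :=
  Phi_adjoint D (evalPairing' χ A) (evalPairing'_equivariant χ A) (evalPairing' χ B)
    (evalPairing'_equivariant χ B) f (dualTwistMap χ f) (fun _ _ => rfl) i j 3 h tr x y

variable {J : Type*} [Fintype J] (ι : J → (A ⟶ B)) (π : J → (B ⟶ A))
  (hsum : ∑ j, π j ≫ ι j = 𝟙 B)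

include hsum in
theorem PhiX_injective_of_retract (i j : ℕ) (h : i + j = 3)
    (hA : Function.Injective (PhiX D χ tr A i j h)) :
    Function.Injective (PhiX D χ tr B i j h) := by
  refine injective_of_retract (PhiX D χ tr A i j h) (PhiX D χ tr B i j h)
    (fun l => HcMap D (ι l) i) (fun l => HcMap D (π l) i)
    (fun l => lmap 𝒰 (dualTwistMap χ (π l)) j)
    (fun l x y => PhiX_natural D χ tr (π l) i j h x y) (fun x => ?_) hA
  simp only [← HcMap_comp_apply]
  rw [← HcMap_sum_apply, hsum, Cone.HcMap_id_apply]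

include hsum in
theorem PhiX_surjective_of_retract (i j : ℕ) (h : i + j = 3)
    (hA : Function.Surjective (PhiX D χ tr A i j h)) :
    Function.Surjective (PhiX D χ tr B i j h) := by
  refine surjective_of_retract (PhiX D χ tr A i j h) (PhiX D χ tr B i j h)
    (fun l => HcMap D (ι l) i)
    (fun l => lmap 𝒰 (dualTwistMap χ (ι l)) j) (fun l => lmap 𝒰 (dualTwistMap χ (π l)) j)
    (fun l x y => PhiX_natural D χ tr (ι l) i j h x y) (fun y => ?_) hA
  simp only [← lmap_comp_apply, ← dualTwistMap_comp]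
  rw [← lmap_sum_apply, ← dualTwistMap_sum, hsum, dualTwistMap_id, lmap_id_apply]

end PhiXNat

/-! ### Morphisms of coinduced modules from `U`-equivariant linear maps -/

section CoindResMap

variable {k G : Type u} [CommRing k] [Group G] (U : Subgroup G) {A B C : Rep.{u} k G}

/-- The morphism `coind_U^G res_U A ⟶ coind_U^G res_U B`, `f ↦ ℓ ∘ f`, induced by a linear map
`ℓ : A → B` which is equivariant for `U` only. -/
noncomputable def coindResMap (ℓ : A →ₗ[k] B)
    (hℓ : ∀ u ∈ U, ∀ a : A, ℓ (A.ρ u a) = B.ρ u (ℓ a)) : coindRes U A ⟶ coindRes U B :=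
  Rep.coindMap U.subtype (A := Rep.res U.subtype A) (B := Rep.res U.subtype B)
    (Rep.ofHom ⟨ℓ, fun u => LinearMap.ext fun a => hℓ u.1 u.2 a⟩)

theorem coindResMap_apply (ℓ : A →ₗ[k] B)
    (hℓ : ∀ u ∈ U, ∀ a : A, ℓ (A.ρ u a) = B.ρ u (ℓ a)) (f : coindRes U A) (x : G) :
    ((coindResMap U ℓ hℓ).hom f).1 x = ℓ (f.1 x) := rfl

end CoindResMap

/-! ### The base case from the base case for trivial coefficients -/

section BaseCase

variable {k G : Type u} [Field k] [Group G] {𝒰 : LevelStructure G} (D : LocalData 𝒰)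
  (χ : G →* kˣ) [IsDiscrete 𝒰 (ofChar χ)] (tr : Hc D (ofChar χ) 3 →ₗ[k] k)

/-- `coind_U^G res_U Y`, for a finite dimensional `Y` on which `U` acts trivially, is a retract-sum
of copies of `coind_U^G k`. -/
theorem exists_retract_coindRes (U : Subgroup G) (Y : Rep.{u} k G) [FiniteDimensional k Y]
    (htriv : ∀ u ∈ U, ∀ a : Y, Y.ρ u a = a) :
    ∃ (r : ℕ) (ι : Fin r → (coindRes U (Rep.trivial k G k) ⟶ coindRes U Y))
      (π : Fin r → (coindRes U Y ⟶ coindRes U (Rep.trivial k G k))),
      ∑ j, π j ≫ ι j = 𝟙 (coindRes U Y) := by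
  classical
  let b := Module.finBasis k Y
  refine ⟨Module.finrank k Y,
    fun j => coindResMap U (A := Rep.trivial k G k) (B := Y)
      (LinearMap.toSpanSingleton k Y (b j))
      (fun u hu a => (htriv u hu (LinearMap.toSpanSingleton k Y (b j) a)).symm),
    fun j => coindResMap U (A := Y) (B := Rep.trivial k G k) (b.coord j)
      (fun u hu a => congrArg (b.coord j) (htriv u hu a)), ?_⟩
  refine Rep.hom_ext (Representation.IntertwiningMap.ext (LinearMap.ext fun f =>
    Subtype.ext (funext fun x => ?_)))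
  rw [Rep.sum_hom, Representation.IntertwiningMap.toLinearMap_sum, LinearMap.sum_apply,
    Submodule.coe_sum, Finset.sum_apply]
  show ∑ j, (b.coord j (f.1 x)) • b j = f.1 x
  exact b.sum_repr (f.1 x)

variable {D χ tr} in
/-- The instances needed to speak of `PhiX` for `coind_U^G k`. -/
theorem isDiscrete_coindRes_trivial {U : Subgroup G} (hU : U ∈ 𝒰.sets) :
    IsDiscrete 𝒰 (coindRes U (Rep.trivial k G k)) ∧
      IsDiscrete 𝒰 ((coindRes U (Rep.trivial k G k)).dualTwist χ) := by
  have := 𝒰.finiteIndex U hU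
  have := 𝒰.normal U hU
  have iT : IsDiscrete 𝒰 (Rep.trivial k G k) := ⟨fun a => ⟨U, hU, fun u _ => rfl⟩⟩
  have iIT : IsDiscrete 𝒰 (coindRes U (Rep.trivial k G k)) := isDiscrete_coindRes _ hU
  have fIT : FiniteDimensional k (coindRes U (Rep.trivial k G k)) := finite_coindRes _
  exact ⟨iIT, isDiscrete_dualTwist 𝒰 χ _⟩

/-- Injectivity of `PhiX` (any degrees) for `coind_U^G res_U Y` from `coind_U^G k`, for `Y` finite
dimensional with trivial action of `U`. -/
theorem PhiX_coindRes_injective_of_triv (U : Subgroup G) (Y : Rep.{u} k G)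
    [FiniteDimensional k Y] [IsDiscrete 𝒰 (coindRes U Y)]
    [IsDiscrete 𝒰 ((coindRes U Y).dualTwist χ)]
    [IsDiscrete 𝒰 (coindRes U (Rep.trivial k G k))]
    [IsDiscrete 𝒰 ((coindRes U (Rep.trivial k G k)).dualTwist χ)]
    (htriv : ∀ u ∈ U, ∀ a : Y, Y.ρ u a = a) (i j : ℕ) (h : i + j = 3)
    (hT : Function.Injective (PhiX D χ tr (coindRes U (Rep.trivial k G k)) i j h)) :
    Function.Injective (PhiX D χ tr (coindRes U Y) i j h) := by
  obtain ⟨r, ι, π, hsum⟩ := exists_retract_coindRes U Y htriv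
  exact PhiX_injective_of_retract D χ tr ι π hsum i j h hT

/-- Surjectivity of `PhiX` (any degrees) for `coind_U^G res_U Y` from `coind_U^G k`, for `Y` finite
dimensional with trivial action of `U`. -/
theorem PhiX_coindRes_surjective_of_triv (U : Subgroup G) (Y : Rep.{u} k G)
    [FiniteDimensional k Y] [IsDiscrete 𝒰 (coindRes U Y)]
    [IsDiscrete 𝒰 ((coindRes U Y).dualTwist χ)]
    [IsDiscrete 𝒰 (coindRes U (Rep.trivial k G k))]
    [IsDiscrete 𝒰 ((coindRes U (Rep.trivial k G k)).dualTwist χ)]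
    (htriv : ∀ u ∈ U, ∀ a : Y, Y.ρ u a = a) (i j : ℕ) (h : i + j = 3)
    (hT : Function.Surjective (PhiX D χ tr (coindRes U (Rep.trivial k G k)) i j h)) :
    Function.Surjective (PhiX D χ tr (coindRes U Y) i j h) := by
  obtain ⟨r, ι, π, hsum⟩ := exists_retract_coindRes U Y htriv
  exact PhiX_surjective_of_retract D χ tr ι π hsum i j h hT

/-- **(M2)** The base case of the global dévissage follows from the base case for the trivial
representation `k`. -/
theorem baseCase_of_triv (h : BaseCaseTriv D χ tr) : BaseCase D χ tr := by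
  intro U hU Y _ _ hI hI' htriv hχ
  obtain ⟨iIT, iIT'⟩ := isDiscrete_coindRes_trivial (χ := χ) hU
  obtain ⟨hb, hi⟩ := h U hU hχ
  exact ⟨⟨PhiX_coindRes_injective_of_triv D χ tr U Y htriv 1 2 rfl hb.1,
    PhiX_coindRes_surjective_of_triv D χ tr U Y htriv 1 2 rfl hb.2⟩,
    PhiX_coindRes_injective_of_triv D χ tr U Y htriv 2 1 rfl hi⟩

end BaseCase

end Fermat.Agent.S55.Main
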