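/-
S55 / MAIN (M2), part 2: the global dévissage from the base case for the trivial representation
`k` only (`Main.main` + `MainAdd.baseCase_of_triv`).
-/
import Mathlib
import Fermat.Agent.S55.Main
import Fermat.Agent.S55.MainAdd

set_option autoImplicit false
set_option linter.unusedSectionVars false

namespace Fermat.Agent.S55.Main

open CategoryTheory groupCohomology Fermat.Agent.S55.Level Fermat.Agent.S55.Cone
  Fermat.Agent.S55.DualTwist
  Fermat.Agent.S55.Devissage Fermat.Agent.S55.LevelDuality

universe u

variable {k G : Type u} [Field k] [Group G] {𝒰 : LevelStructure G} (D : LocalData 𝒰)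
  (χ : G →* kˣ) [IsDiscrete 𝒰 (ofChar χ)] (tr : Hc D (ofChar χ) 3 →ₗ[k] k)

/-- The degree `1` base case follows from the degree `1` base case for `k`. -/
theorem baseCaseOne_of_triv (h : BaseCaseOneTriv D χ tr) : BaseCaseOne D χ tr := by
  intro U hU Y _ _ hI hI' htriv hχ
  obtain ⟨iIT, iIT'⟩ := isDiscrete_coindRes_trivial (χ := χ) hU
  exact PhiX_coindRes_injective_of_triv D χ tr U Y htriv 1 2 rfl (h U hU hχ)

/-- **The global dévissage in degree `1`** from the base case for `k`. -/
theorem main_one_of_triv [Nonempty D.ι] (h : BaseCaseOneTriv D χ tr) (Y : Rep.{u} k G)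
    [IsDiscrete 𝒰 Y] [FiniteDimensional k Y] [IsDiscrete 𝒰 (Y.dualTwist χ)] :
    Function.Injective (PhiX D χ tr Y 1 2 rfl) :=
  main_one D χ tr (baseCaseOne_of_triv D χ tr h) Y

/-- **The global dévissage** from the base case for `k`. -/
theorem main_of_triv [Nonempty D.ι] (h : BaseCaseTriv D χ tr) : MainConclusion D χ tr :=
  main D χ tr (baseCase_of_triv D χ tr h)

end Fermat.Agent.S55.Main
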