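/-
S55 top glue (helper28): the frozen S55 from
* local class formations with base change at the primes of `S` (LOC5),
* the reciprocity law over `ℚ` for the local invariants `TraceGlueLocal.invLoc` (R),
* the arithmetic blocks `GL.ArithUInst.BrauerBlock S p L` over the good fields `L`
  (ARITH-L (b′), (c′): GLO12/GLO15 T3).

This is `TraceGlueLocal.result_of_formations` (helper22) with the global base case `hbase`
discharged by `GL.ArithUInst.baseCase_of_blocks`: local duality for the base objects comes from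
the SAME per-place package `LocalBaseHyp₁` (for `invAt D tr q = inv_q`), the counts
(a), (d) and the class killing are on main.
-/
import Fermat.Agent.S55.TraceGlueLocal
import Fermat.Agent.S55.GL.ArithUInst

set_option autoImplicit false

open CategoryTheory Module groupCohomology ExtCitation

namespace Fermat.Agent.S55.TopBlocks

open Fermat.Agent.S55.Level Fermat.Agent.S55.Cone Fermat.Agent.S55.DualTwist
  Fermat.Agent.S55.Assembly Fermat.Agent.S55.LevelDuality Fermat.Agent.S55.GaloisLevel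
  Fermat.Agent.S55.CFAbs Fermat.Agent.S55.TraceGlueLocal Fermat.Agent.S55.GL.ArithUInst

local notation "Qbar" => AlgebraicClosure ℚ
local notation "Γ" => (AlgebraicClosure ℚ ≃ₐ[ℚ] AlgebraicClosure ℚ)

variable {p : ℕ} [hp : Fact p.Prime] (S : Finset Nat.Primes)

local instance factPrime_TB (q : Nat.Primes) : Fact (q : ℕ).Prime := ⟨q.2⟩

/-- **The frozen S55 from local class formations, reciprocity and the arithmetic blocks.** -/
theorem result_of_formations_blocks (hp2 : p ≠ 2) (hpS : pPrime p ∈ S) (M : Rep (ZMod p) Γ)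
    [FiniteDimensional (ZMod p) M]
    (hsm : ∀ m : M, ∃ F : IntermediateField ℚ Qbar, FiniteDimensional ℚ F ∧
      ∀ s ∈ F.fixingSubgroup, M.ρ s m = m)
    (hMur : ∀ q : Nat.Primes, q ∉ S → ∀ A : ValuationSubring Qbar,
      A.LiesOverPrime (q : ℕ) → ∀ g ∈ A.inertiaSubgroupIn ℚ, M.ρ g = 1)
    {ζ : Qbar} (hζ : IsPrimitiveRoot ζ p)
    (FG : ∀ q : ↥S, Formation (krullLevel ℚ_[(q.1 : ℕ)] (PadicAlgCl (q.1 : ℕ)))
      (unitsRep ℚ_[(q.1 : ℕ)] (PadicAlgCl (q.1 : ℕ))))
    (FE : ∀ (q : ↥S) (E : IntermediateField ℚ_[(q.1 : ℕ)] (PadicAlgCl (q.1 : ℕ))),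
      FiniteDimensional ℚ_[(q.1 : ℕ)] E → IsGalois ℚ_[(q.1 : ℕ)] E →
      Formation (krullLevel E (PadicAlgCl (q.1 : ℕ))) (unitsRep E (PadicAlgCl (q.1 : ℕ))))
    (hBC : ∀ (q : ↥S) (E : IntermediateField ℚ_[(q.1 : ℕ)] (PadicAlgCl (q.1 : ℕ)))
      (hfd : FiniteDimensional ℚ_[(q.1 : ℕ)] E) (hgal : IsGalois ℚ_[(q.1 : ℕ)] E)
      (x : levelCohomology (krullLevel ℚ_[(q.1 : ℕ)] (PadicAlgCl (q.1 : ℕ)))
        (unitsRep ℚ_[(q.1 : ℕ)] (PadicAlgCl (q.1 : ℕ))) 2),
      (FE q E hfd hgal).inv ((bcMap ℚ_[(q.1 : ℕ)] E (PadicAlgCl (q.1 : ℕ)) 2).hom x) =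
        Module.finrank ℚ_[(q.1 : ℕ)] E • (FG q).inv x)
    (hrec : ∀ [Level.IsDiscrete (globalLevel S) (ofChar (cycloChar p))]
      (y : levelCohomology (globalLevel S) (ofChar (cycloChar p)) 2),
      ∑ q : (localData S).ι,
        invLoc q.1 hζ (FG q) (locH (localData S) (ofChar (cycloChar p)) 2 y q) = 0)
    (hB : AllBrauerBlocks S p) :
    ∃ B : sha₁ S (M.dualTwist (cycloChar p)) →ₗ[ZMod p] sha₂ S M →ₗ[ZMod p] ZMod p,
      (∀ y, (∀ x, B y x = 0) → y = 0) ∧ (∀ x, (∀ y, B y x = 0) → x = 0) := by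
  refine result_of_formations S hp2 hpS M hsm hMur hζ FG FE hBC hrec ?_
  intro hμ tr htr
  have hp2' : 2 < p := lt_of_le_of_ne hp.out.two_le (Ne.symm hp2)
  refine baseCase_of_blocks S tr hp2' hpS ?_ hB
  intro v
  have h := TraceGlue.invAt_eq_of_bd (localData S) (ofChar (cycloChar p)) tr
    (fun q => invLoc q.1 hζ (FG q)) htr v
  rw [h]
  exact localBaseHyp₁_invPrime (hd := isDiscrete_TGL v.1) v.1 hζ (FG v) (FE v) (hBC v)

end Fermat.Agent.S55.TopBlocks
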