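/-
S55 top glue (helper23): `TopBlocks.result_of_formations_blocks` (helper28) with the reciprocity
law over `ℚ` discharged by `GL.RecipQS.hrec_invLoc`.

The frozen S55 conclusion from
* (LOC5) `FG q`, `FE q E`, `hBC`: local class formations over `ℚ_q` and its finite Galois
  extensions, `q ∈ S`, with `inv_E ∘ res = [E:ℚ_q] • inv_{ℚ_q}`;
* (R + U1 at `ℚ`) `Fb`, `H : BrauerInput p S ⊥ Fb`, `hF`: the Brauer inputs for the field `⊥ = ℚ`
  (only `recip` and `unit_res` are used) for local class formations `Fb v` at the places of `ℚ`,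
  compatible with the `FG q` (degree one base change);
* (T3) `hB : AllBrauerBlocks S p`: the arithmetic blocks over the good fields.
-/
import Fermat.Agent.S55.TopBlocks
import Fermat.Agent.S55.GL.RecipQS

set_option autoImplicit false

open CategoryTheory Module groupCohomology ExtCitation IntermediateField

namespace Fermat.Agent.S55.TopFinal

open Fermat.Agent.S55.Level Fermat.Agent.S55.Cone Fermat.Agent.S55.DualTwist
  Fermat.Agent.S55.Assembly Fermat.Agent.S55.GaloisLevel Fermat.Agent.S55.CFAbs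
  Fermat.Agent.S55.TraceGlueLocal Fermat.Agent.S55.GL.ArithUInst
  Fermat.Agent.S55.GL.BrauerLocal Fermat.Agent.S55.GL.BrauerInst

local notation "Qbar" => AlgebraicClosure ℚ
local notation "Γ" => (AlgebraicClosure ℚ ≃ₐ[ℚ] AlgebraicClosure ℚ)

variable {p : ℕ} [hp : Fact p.Prime] (S : Finset Nat.Primes)

local instance isGaloisQbar_TF : IsGalois ℚ Qbar := Fermat.Agent.S55.Level.isGalois_Qbar
local instance factPrime_TF (q : Nat.Primes) : Fact (q : ℕ).Prime := ⟨q.2⟩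

/-- **The frozen S55 from local class formations, the Brauer inputs at `ℚ` and the arithmetic
blocks over the good fields.** -/
theorem result_of_formations_brauer_blocks (hp2 : p ≠ 2) (hpS : pPrime p ∈ S)
    (M : Rep (ZMod p) Γ) [FiniteDimensional (ZMod p) M]
    (hsm : ∀ m : M, ∃ F : IntermediateField ℚ Qbar, FiniteDimensional ℚ F ∧
      ∀ s ∈ F.fixingSubgroup, M.ρ s m = m)
    (hMur : ∀ q : Nat.Primes, q ∉ S → ∀ A : ValuationSubring Qbar,
      A.LiesOverPrime (q : ℕ) → ∀ g ∈ A.inertiaSubgroupIn ℚ, M.ρ g = 1)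
    {ζ : Qbar} (hζ : IsPrimitiveRoot ζ p)
    (FG : ∀ q : ↥S, Formation (krullLevel ℚ_[(q.1 : ℕ)] (PadicAlgCl (q.1 : ℕ)))
      (unitsRep ℚ_[(q.1 : ℕ)] (PadicAlgCl (q.1 : ℕ))))
    (FE : ∀ (q : ↥S) (E : IntermediateField ℚ_[(q.1 : ℕ)] (PadicAlgCl (q.1 : ℕ))),
      FiniteDimensional ℚ_[(q.1 : ℕ)] E → IsGalois ℚ_[(q.1 : ℕ)] E →
      Formation (krullLevel E (PadicAlgCl (q.1 : ℕ))) (unitsRep E (PadicAlgCl (q.1 : ℕ))))
    (hBC : ∀ (q : ↥S) (E : IntermediateField ℚ_[(q.1 : ℕ)] (PadicAlgCl (q.1 : ℕ)))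
      (hfd : FiniteDimensional ℚ_[(q.1 : ℕ)] E) (hgal : IsGalois ℚ_[(q.1 : ℕ)] E)
      (x : levelCohomology (krullLevel ℚ_[(q.1 : ℕ)] (PadicAlgCl (q.1 : ℕ)))
        (unitsRep ℚ_[(q.1 : ℕ)] (PadicAlgCl (q.1 : ℕ))) 2),
      (FE q E hfd hgal).inv ((bcMap ℚ_[(q.1 : ℕ)] E (PadicAlgCl (q.1 : ℕ)) 2).hom x) =
        Module.finrank ℚ_[(q.1 : ℕ)] E • (FG q).inv x)
    (Fb : ∀ v : FinPlace (⊥ : IntermediateField ℚ Qbar),
      Formation (levelv ⊥ v) (unitsRep (Kv ⊥ v) (PadicAlgCl (v.prime : ℕ))))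
    (H : BrauerInput p S (⊥ : IntermediateField ℚ Qbar) Fb)
    (hF : ∀ (v : FinPlace (⊥ : IntermediateField ℚ Qbar)) (hv : v.prime ∈ S)
      (x : levelCohomology (krullLevel ℚ_[(v.prime : ℕ)] (PadicAlgCl (v.prime : ℕ)))
        (unitsRep ℚ_[(v.prime : ℕ)] (PadicAlgCl (v.prime : ℕ))) 2),
      (Fb v).inv ((bcMap ℚ_[(v.prime : ℕ)] (Kv ⊥ v) (PadicAlgCl (v.prime : ℕ)) 2).hom x) =
        (FG ⟨v.prime, hv⟩).inv x)
    (hB : AllBrauerBlocks S p) :
    ∃ B : sha₁ S (M.dualTwist (cycloChar p)) →ₗ[ZMod p] sha₂ S M →ₗ[ZMod p] ZMod p,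
      (∀ y, (∀ x, B y x = 0) → y = 0) ∧ (∀ x, (∀ y, B y x = 0) → x = 0) :=
  TopBlocks.result_of_formations_blocks S hp2 hpS M hsm hMur hζ FG FE hBC
    (fun {_} y => GL.RecipQS.hrec_invLoc S hpS hζ Fb FG H hF y) hB

end Fermat.Agent.S55.TopFinal
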