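/-
S55 / final assembly (helper22): the last adapter under `Fermat/Agent/S55.lean`.

The frozen S55 conclusion from
* (LOC5) `HP : ∀ q : Nat.Primes, PadicInput q` (helper26's `Local/PadicFormation`: the local class
  formations `formationQ`, `formationAt` over `ℚ_q` and its finite extensions);
* (R + U1 at `ℚ`) ONLY the two fields `recip` and `unit_res` of `BrauerInst.BrauerInput` for the
  field `⊥ = ℚ` and the local formations `formationAt (HP q) (Kv ⊥ v)`;
* (T3) `AllBrauerBlocks S p`.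

Contents: `localFieldAt_bot` (`ℚ_q(ι σ ℚ) = ℚ_q`), the degree one base change compatibility `hF`
of `GL.RecipQS.hrec_invLoc`, the sum formula over the places above `S` from `recip` and
`unit_res` alone, and `result_of_padic`.
-/
import Fermat.Agent.S55.TopFinal
import Fermat.Agent.S55.Local.PadicFormation

set_option autoImplicit false
set_option linter.unusedSectionVars false

open CategoryTheory IntermediateField

namespace Fermat.Agent.S55.FinalAssembly

open Fermat.Agent.S55.Level Fermat.Agent.S55.GaloisLevel Fermat.Agent.S55.GL.Places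
  Fermat.Agent.S55.LevelTransport Fermat.Agent.S55.GL.BrauerLocal Fermat.Agent.S55.GL.QSMod
  Fermat.Agent.S55.GL.BrauerInst Fermat.Agent.S55.CF Fermat.Agent.S55.CFAbs
  Fermat.Agent.S55.DualTwist Fermat.Agent.S55.Local.LocalInv
  ExtCitation groupCohomology Fermat.Agent.S55.Assembly Fermat.Agent.S55.Cone
  Fermat.Agent.S55.GL.RecipQ Fermat.Agent.S55.TraceGlueLocal
  Fermat.Agent.S55.Local.PadicFormation Fermat.Agent.S55.GL.ArithUInst

local notation "Qbar" => AlgebraicClosure ℚ
local notation "Γ" => (AlgebraicClosure ℚ ≃ₐ[ℚ] AlgebraicClosure ℚ)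

local instance isGaloisQbar_FA : IsGalois ℚ Qbar := Fermat.Agent.S55.Level.isGalois_Qbar
local instance factPrime_FA (q : Nat.Primes) : Fact (q : ℕ).Prime := ⟨q.2⟩

/-! ### The local field of `ℚ` at a place is `ℚ_q` -/

section Bot

variable (q : ℕ) [Fact q.Prime]

/-- `ℚ_q(ι σ ℚ) = ℚ_q`. -/
theorem localFieldAt_bot (σ : Γ) :
    localFieldAt q (⊥ : IntermediateField ℚ Qbar) σ = ⊥ := by
  refine le_antisymm ((localFieldAt_le_iff q σ).2 fun x hx => ?_) bot_le
  obtain ⟨r, rfl⟩ := IntermediateField.mem_bot.1 hx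
  rw [AlgEquiv.commutes, AlgHom.commutes]
  exact IntermediateField.algebraMap_mem _ _

theorem finrank_localFieldAt_bot (σ : Γ) :
    Module.finrank ℚ_[q] (localFieldAt q (⊥ : IntermediateField ℚ Qbar) σ) = 1 := by
  rw [localFieldAt_bot]
  exact IntermediateField.finrank_bot

end Bot

/-! ### The sum formula from `recip` and `unit_res` alone -/

section Sum

variable {p : ℕ} (S : Finset Nat.Primes) (L : IntermediateField ℚ Qbar) [FiniteDimensional ℚ L]
  (F : ∀ v : FinPlace L, Formation (levelv L v) (unitsRep (Kv L v) (PadicAlgCl (v.prime : ℕ))))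

/-- **Reciprocity for classes of `H²(G_{L,S}, μ_p)`**: the sum over the places above `S` of the
invariants of the local components vanishes.  Only the fields `recip` (R) and `unit_res` (U1) of
`BrauerInst.BrauerInput` are used. -/
theorem sum_inv_kappa_locμ (hp : p.Prime) (hpS : (⟨p, hp⟩ : Nat.Primes) ∈ S)
    (hrecip : ∀ y : levelCohomology (levelLS S L) (resL L (QSUnits S)) 2, IsPPrim p y →
      ∃ T : Finset (FinPlace L), (∀ v, v ∉ T → resQ S L v y = 0) ∧
        ∑ v ∈ T, (F v).inv (resQ S L v y) = 0)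
    (hunit : ∀ v : FinPlace L, v.prime ∉ S →
      ∀ e : levelCohomology (levelLS S L) (resL L (ESUnits S)) 2, IsPPrim p e →
        resQ S L v ((Hmap (levelLS S L) (fL S L) 2).hom e) = 0)
    (c : levelCohomology (levelLS S L) (resL L (muP S p)) 2) :
    ∑ v ∈ placesAbove L S, (F v).inv (kappa p S L v (locμ p S L v c)) = 0 := by
  classical
  set e := (Hmap (levelLS S L) (ιL p S L) 2).hom c with he
  have hpe : p • e = 0 := by
    rw [he, ← map_nsmul,
      nsmul_levelCohomology_eq_zero (levelLS S L) (kummerL_shortExact p S L hp hpS) 2 c, map_zero]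
  have hePP : IsPPrim p e := IsPPrim.of_nsmul_eq_zero hpe
  set y := (Hmap (levelLS S L) (fL S L) 2).hom e with hy
  have hyPP : IsPPrim p y := hePP.map (Hmap (levelLS S L) (fL S L) 2).hom.toAddMonoidHom
  obtain ⟨T, hT, hsum⟩ := hrecip y hyPP
  have hout : ∀ v, v ∉ placesAbove L S → resQ S L v y = 0 := fun v hv =>
    hunit v (fun h => hv ((mem_placesAbove L S v).2 h)) e hePP
  have h0 : ∀ v, (F v).inv (kappa p S L v (locμ p S L v c)) = (F v).inv (resQ S L v y) :=
    fun v => by rw [kappa_locμ]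
  rw [Finset.sum_congr rfl fun v _ => h0 v]
  have h1 : ∑ v ∈ placesAbove L S, (F v).inv (resQ S L v y) =
      ∑ v ∈ T ∪ placesAbove L S, (F v).inv (resQ S L v y) :=
    Finset.sum_subset Finset.subset_union_right fun v _ hv => by rw [hout v hv, map_zero]
  have h2 : ∑ v ∈ T, (F v).inv (resQ S L v y) =
      ∑ v ∈ T ∪ placesAbove L S, (F v).inv (resQ S L v y) :=
    Finset.sum_subset Finset.subset_union_left fun v _ hv => by rw [hT v hv, map_zero]
  rw [h1, ← h2, hsum]

end Sum

/-! ### The final assembly -/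

section Final

variable {p : ℕ} [hpF : Fact p.Prime] (S : Finset Nat.Primes)
  (HP : ∀ q : Nat.Primes, PadicInput (q : ℕ))

/-- The local class formations at the places of `ℚ = ⊥` (helper26's `formationAt`). -/
noncomputable def Fbot (v : FinPlace (⊥ : IntermediateField ℚ Qbar)) :
    Formation (levelv ⊥ v) (unitsRep (Kv ⊥ v) (PadicAlgCl (v.prime : ℕ))) :=
  formationAt (HP v.prime) (Kv ⊥ v)

/-- The local class formations over `ℚ_q` (helper26's `formationQ`). -/
noncomputable def Fq (q : Nat.Primes) :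
    Formation (krullLevel ℚ_[(q : ℕ)] (PadicAlgCl (q : ℕ)))
      (unitsRep ℚ_[(q : ℕ)] (PadicAlgCl (q : ℕ))) :=
  formationQ (HP q)

/-- **Degree one base change**: the invariants at the place of `⊥` over `q` and over `ℚ_q`
agree (`hF` of `GL.RecipQ.hrec_of_sum`). -/
theorem inv_Fbot_bcMap (v : FinPlace (⊥ : IntermediateField ℚ Qbar))
    (x : levelCohomology (krullLevel ℚ_[(v.prime : ℕ)] (PadicAlgCl (v.prime : ℕ)))
      (unitsRep ℚ_[(v.prime : ℕ)] (PadicAlgCl (v.prime : ℕ))) 2) :
    (Fbot HP v).inv ((bcMap ℚ_[(v.prime : ℕ)] (Kv ⊥ v) (PadicAlgCl (v.prime : ℕ)) 2).hom x) =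
      (Fq HP v.prime).inv x := by
  have h := inv_bcMap_formationAt (HP v.prime) (Kv ⊥ v) x
  rw [finrank_localFieldAt_bot, one_smul] at h
  exact h

variable (hpS : (⟨p, hpF.out⟩ : Nat.Primes) ∈ S) {ζ : Qbar} (hζ : IsPrimitiveRoot ζ p)

include hpS in
/-- **Reciprocity over `ℚ`** (`hrec` of `TraceGlueLocal.result_of_formations` /
`TopBlocks.result_of_formations_blocks`) for the formations `formationQ (HP q)`, from the two
fields `recip` and `unit_res` of `BrauerInput` at `L = ⊥` only. -/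
theorem hrec_of_recip_unit
    (hrecip : ∀ y : levelCohomology (levelLS S ⊥) (resL ⊥ (QSUnits S)) 2, IsPPrim p y →
      ∃ T : Finset (FinPlace (⊥ : IntermediateField ℚ Qbar)),
        (∀ v, v ∉ T → resQ S ⊥ v y = 0) ∧ ∑ v ∈ T, (Fbot HP v).inv (resQ S ⊥ v y) = 0)
    (hunit : ∀ v : FinPlace (⊥ : IntermediateField ℚ Qbar), v.prime ∉ S →
      ∀ e : levelCohomology (levelLS S ⊥) (resL ⊥ (ESUnits S)) 2, IsPPrim p e →
        resQ S ⊥ v ((Hmap (levelLS S ⊥) (fL S ⊥) 2).hom e) = 0)
    [IsDiscrete (globalLevel S) (ofChar (k := ZMod p) (cycloChar p))]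
    (y : levelCohomology (globalLevel S) (ofChar (k := ZMod p) (cycloChar p)) 2) :
    ∑ q : (localData S).ι, invLoc q.1 hζ (Fq HP q.1)
      (locH (localData S) (ofChar (k := ZMod p) (cycloChar p)) 2 y q) = 0 :=
  hrec_of_sum S hpS hζ (Fbot HP) (Fq HP) (inv_Fbot_bcMap HP)
    (sum_inv_kappa_locμ S ⊥ (Fbot HP) hpF.out hpS hrecip hunit) y

/-- **The frozen S55** from the field-level inputs of local class field theory over the `ℚ_q`
(`PadicInput`), reciprocity (R) and (U1) over `ℚ`, and the arithmetic blocks (T3) over the good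
fields. -/
theorem result_of_padic (hp2 : p ≠ 2) (hpS' : pPrime p ∈ S)
    (M : Rep (ZMod p) Γ) [FiniteDimensional (ZMod p) M]
    (hsm : ∀ m : M, ∃ F : IntermediateField ℚ Qbar, FiniteDimensional ℚ F ∧
      ∀ s ∈ F.fixingSubgroup, M.ρ s m = m)
    (hMur : ∀ q : Nat.Primes, q ∉ S → ∀ A : ValuationSubring Qbar,
      A.LiesOverPrime (q : ℕ) → ∀ g ∈ A.inertiaSubgroupIn ℚ, M.ρ g = 1)
    (hrecip : ∀ y : levelCohomology (levelLS S ⊥) (resL ⊥ (QSUnits S)) 2, IsPPrim p y →
      ∃ T : Finset (FinPlace (⊥ : IntermediateField ℚ Qbar)),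
        (∀ v, v ∉ T → resQ S ⊥ v y = 0) ∧ ∑ v ∈ T, (Fbot HP v).inv (resQ S ⊥ v y) = 0)
    (hunit : ∀ v : FinPlace (⊥ : IntermediateField ℚ Qbar), v.prime ∉ S →
      ∀ e : levelCohomology (levelLS S ⊥) (resL ⊥ (ESUnits S)) 2, IsPPrim p e →
        resQ S ⊥ v ((Hmap (levelLS S ⊥) (fL S ⊥) 2).hom e) = 0)
    (hB : AllBrauerBlocks S p) :
    ∃ B : sha₁ S (M.dualTwist (cycloChar p)) →ₗ[ZMod p] sha₂ S M →ₗ[ZMod p] ZMod p,
      (∀ y, (∀ x, B y x = 0) → y = 0) ∧ (∀ x, (∀ y, B y x = 0) → x = 0) := by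
  obtain ⟨ζ, hζ⟩ := Fermat.Agent.S55.DualTwist.exists_primitiveRoot p
  exact TopBlocks.result_of_formations_blocks S hp2 hpS' M hsm hMur hζ
    (fun q => formationQ (HP q.1)) (fun q => formationFamily (HP q.1))
    (fun q => formationFamily_bc (HP q.1))
    (fun {_} y => hrec_of_recip_unit S HP hpS' hζ hrecip hunit y) hB

end Final

end Fermat.Agent.S55.FinalAssembly
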