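/-
S55 / GLO15, part 3 (generic): comparison of two families of local data over the same `(G, 𝒰)`.

* `Match D D'`: a bijection of the index sets, isomorphisms of the local groups compatible with the
  maps to `G`, and mutually refining level structures.  Then, for every discrete `A`,
  `matchEquiv M A n v : Hⁿ(D'_{e v}, A) ≃ₗ Hⁿ(D_v, A)` with
  `matchEquiv (locH D' A n x (e v)) = locH D A n x v` — so kernels and ranges of the two localisation
  maps correspond (`mem_ker_locH_iff`, `mem_range_locH_iff`, `prodEquiv`).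
* `mackeyData D U σ : LocalData (𝒰.restrict U)`: the family of the groups `G_{v,σ_i}` of the Mackey
  decomposition, as local data for the open subgroup `U`; the map `ShapiroTransport.locL` is its
  localisation map (`locL_eq_locH`).
-/
import Fermat.Agent.S55.ShapiroTransport
import Fermat.Agent.S55.LevelTransport
import Fermat.Agent.S55.LevelScalars
import Fermat.Agent.S55.ConeFunct

set_option autoImplicit false

namespace Fermat.Agent.S55.LocalDataMatch

open CategoryTheory Fermat.Agent.S55.Level Fermat.Agent.S55.Cone Fermat.Agent.S55.CF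
  Fermat.Agent.S55.LevelTransport Fermat.Agent.S55.ShapiroTransport
  Fermat.Agent.S55.LevelScalars

universe u

variable {k G : Type u} [CommRing k] [Group G] {𝒰 : LevelStructure G}

/-- A matching of two families of local data over the same `(G, 𝒰)`. -/
structure Match (D D' : LocalData 𝒰) where
  /-- the bijection of the index sets -/
  e : D.ι ≃ D'.ι
  /-- the isomorphisms of the local groups -/
  g : ∀ v, D.Gv v ≃* D'.Gv (e v)
  hr : ∀ v (h : D.Gv v), D'.r (e v) (g v h) = D.r v h
  href : ∀ v, (D.𝒱 v).Refines (D'.𝒱 (e v)) (g v).toMonoidHom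
  href' : ∀ v, (D'.𝒱 (e v)).Refines (D.𝒱 v) (g v).symm.toMonoidHom

namespace Match

variable {D D' : LocalData 𝒰} (M : Match D D') (A : Rep.{u} k G) [IsDiscrete 𝒰 A]

lemma hr_symm (v : D.ι) (h : D'.Gv (M.e v)) : D.r v ((M.g v).symm h) = D'.r (M.e v) h := by
  rw [← M.hr v, MulEquiv.apply_symm_apply]

/-- The identity of `A`, as a morphism `res_g res_{r'} A ⟶ res_r A`. -/
noncomputable def coeff (v : D.ι) :
    Rep.res (M.g v).toMonoidHom (Rep.res (D'.r (M.e v)) A) ⟶ Rep.res (D.r v) A :=
  Rep.ofHom ⟨LinearMap.id, fun h => by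
    ext a
    show A.ρ (D'.r (M.e v) (M.g v h)) a = A.ρ (D.r v h) a
    rw [M.hr]⟩

/-- The identity of `A`, as a morphism `res_{g⁻¹} res_r A ⟶ res_{r'} A`. -/
noncomputable def coeff' (v : D.ι) :
    Rep.res (M.g v).symm.toMonoidHom (Rep.res (D.r v) A) ⟶ Rep.res (D'.r (M.e v)) A :=
  Rep.ofHom ⟨LinearMap.id, fun h => by
    ext a
    show A.ρ (D.r v ((M.g v).symm h)) a = A.ρ (D'.r (M.e v) h) a
    rw [M.hr_symm]⟩

omit [IsDiscrete 𝒰 A] in
lemma coeff_hom_apply (v : D.ι) (a : A.V) : (M.coeff A v).hom a = a := rfl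

omit [IsDiscrete 𝒰 A] in
lemma coeff'_hom_apply (v : D.ι) (a : A.V) : (M.coeff' A v).hom a = a := rfl

/-- The comparison isomorphism of the local cohomology groups. -/
noncomputable def matchIso (n : ℕ) (v : D.ι) :
    levelCohomology (D'.𝒱 (M.e v)) (Rep.res (D'.r (M.e v)) A) n ≅
      levelCohomology (D.𝒱 v) (Rep.res (D.r v) A) n :=
  levelCohomologyIsoOfEquiv (M.g v) (M.href v) (M.href' v) (M.coeff A v) (M.coeff' A v)
    (fun _ => rfl) (fun _ => rfl) n

/-- The comparison of the local cohomology groups, as a linear equivalence. -/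
noncomputable def matchEquiv (n : ℕ) (v : D.ι) :
    levelCohomology (D'.𝒱 (M.e v)) (Rep.res (D'.r (M.e v)) A) n ≃ₗ[k]
      levelCohomology (D.𝒱 v) (Rep.res (D.r v) A) n :=
  (M.matchIso A n v).toLinearEquiv

/-- **The comparison commutes with the localisation maps.** -/
theorem matchEquiv_locH (n : ℕ) (x : levelCohomology 𝒰 A n) (v : D.ι) :
    M.matchEquiv A n v (locH D' A n x (M.e v)) = locH D A n x v := by
  have h := levelCohomologyMap_comp (D'.r (M.e v)) (M.g v).toMonoidHom (D'.refines (M.e v))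
    (M.href v) (𝟙 (Rep.res (D'.r (M.e v)) A)) (M.coeff A v) n
  have h2 : levelCohomologyMap ((D'.r (M.e v)).comp (M.g v).toMonoidHom)
      (refines_comp (D'.refines (M.e v)) (M.href v))
      ((Rep.resFunctor (M.g v).toMonoidHom).map (𝟙 (Rep.res (D'.r (M.e v)) A)) ≫ M.coeff A v) n =
      levelCohomologyMap (D.r v) (D.refines v) (𝟙 (Rep.res (D.r v) A)) n :=
    levelCohomologyMap_congr (MonoidHom.ext fun h => M.hr v h) _ _ _ _ (fun a => by
      rw [CategoryTheory.Functor.map_id]
      exact M.coeff_hom_apply A v a) n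
  rw [h2] at h
  exact (congrArg (fun f => f.hom x) h).symm

/-- The product of the comparison isomorphisms, as a linear map. -/
noncomputable def prodMap (n : ℕ) :
    (∀ w, levelCohomology (D'.𝒱 w) (Rep.res (D'.r w) A) n) →ₗ[k]
      (∀ v, levelCohomology (D.𝒱 v) (Rep.res (D.r v) A) n) :=
  LinearMap.pi fun v => (M.matchEquiv A n v).toLinearMap ∘ₗ LinearMap.proj (M.e v)

theorem prodMap_apply (n : ℕ) (y : ∀ w, levelCohomology (D'.𝒱 w) (Rep.res (D'.r w) A) n)
    (v : D.ι) : M.prodMap A n y v = M.matchEquiv A n v (y (M.e v)) := rfl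

theorem prodMap_bijective (n : ℕ) : Function.Bijective (M.prodMap A n) := by
  constructor
  · intro y y' h
    funext w
    obtain ⟨v, rfl⟩ := M.e.surjective w
    exact (M.matchEquiv A n v).injective (congrFun h v)
  · intro z
    have key : ∀ w : D'.ι, ∃ t : levelCohomology (D'.𝒱 w) (Rep.res (D'.r w) A) n,
        ∀ v (hv : M.e v = w), M.matchEquiv A n v (hv ▸ t) = z v := by
      intro w
      obtain ⟨v, rfl⟩ := M.e.surjective w
      refine ⟨(M.matchEquiv A n v).symm (z v), fun v' hv' => ?_⟩
      obtain rfl := M.e.injective hv'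
      exact (M.matchEquiv A n v').apply_symm_apply (z v')
    choose t ht using key
    exact ⟨t, funext fun v => ht (M.e v) v rfl⟩

/-- The product of the comparison isomorphisms. -/
noncomputable def prodEquiv (n : ℕ) :
    (∀ w, levelCohomology (D'.𝒱 w) (Rep.res (D'.r w) A) n) ≃ₗ[k]
      (∀ v, levelCohomology (D.𝒱 v) (Rep.res (D.r v) A) n) :=
  LinearEquiv.ofBijective (M.prodMap A n) (M.prodMap_bijective A n)

theorem prodEquiv_apply (n : ℕ) (y : ∀ w, levelCohomology (D'.𝒱 w) (Rep.res (D'.r w) A) n)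
    (v : D.ι) : M.prodEquiv A n y v = M.matchEquiv A n v (y (M.e v)) := rfl

/-- **The two localisation maps correspond.** -/
theorem prodEquiv_locH (n : ℕ) (x : levelCohomology 𝒰 A n) :
    M.prodEquiv A n (locH D' A n x) = locH D A n x :=
  funext fun v => M.matchEquiv_locH A n x v

include M in
theorem mem_ker_locH_iff (n : ℕ) (x : levelCohomology 𝒰 A n) :
    x ∈ LinearMap.ker (locH D' A n) ↔ x ∈ LinearMap.ker (locH D A n) := by
  rw [LinearMap.mem_ker, LinearMap.mem_ker, ← M.prodEquiv_locH A n x,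
    LinearEquiv.map_eq_zero_iff]

include M in
theorem ker_locH_eq (n : ℕ) : LinearMap.ker (locH D' A n) = LinearMap.ker (locH D A n) :=
  Submodule.ext fun x => M.mem_ker_locH_iff A n x

theorem mem_range_locH_iff (n : ℕ)
    (y : ∀ w, levelCohomology (D'.𝒱 w) (Rep.res (D'.r w) A) n) :
    y ∈ LinearMap.range (locH D' A n) ↔ M.prodEquiv A n y ∈ LinearMap.range (locH D A n) := by
  constructor
  · rintro ⟨x, rfl⟩
    exact ⟨x, (M.prodEquiv_locH A n x).symm⟩
  · rintro ⟨x, hx⟩
    refine ⟨x, (M.prodEquiv A n).injective ?_⟩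
    rw [M.prodEquiv_locH, hx]

end Match

section Mackey

variable (D : LocalData 𝒰) (U : Subgroup G) {J : D.ι → Type} (σ : ∀ v, J v → G)

/-- The family of the groups `G_{v,σ_i} = {h ∈ G_v | σ_i r_v(h) σ_i⁻¹ ∈ U}` of the Mackey
decomposition, as local data for the subgroup `U` (with the induced level structure). -/
noncomputable def mackeyData : LocalData (𝒰.restrict U) where
  ι := Σ v, J v
  Gv w := ↥(mackeySub (D.r w.1) U (σ w.1 w.2))
  r w := mackeyHom (D.r w.1) U (σ w.1 w.2)
  𝒱 w := (D.𝒱 w.1).restrict (mackeySub (D.r w.1) U (σ w.1 w.2))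
  refines w := mackeyHom_refines (D.r w.1) (D.refines w.1) U (σ w.1 w.2)

variable (B : Rep.{u} k U) [IsDiscrete (𝒰.restrict U) B]

/-- `ShapiroTransport.locL` is the localisation map of `mackeyData`. -/
theorem locL_eq_locH (n : ℕ) (y : levelCohomology (𝒰.restrict U) B n) (v : D.ι) (i : J v) :
    locL D U B σ n y v i = locH (mackeyData D U σ) B n y ⟨v, i⟩ := rfl

/-- Currying of families indexed by the places `(v, i)`. -/
noncomputable def curryEquiv (n : ℕ) :
    (∀ w : (mackeyData D U σ).ι, levelCohomology ((mackeyData D U σ).𝒱 w)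
      (Rep.res ((mackeyData D U σ).r w) B) n) ≃ₗ[k] (∀ v, ∀ i : J v, HL D U B σ n v i) where
  toFun y := fun v i => y ⟨v, i⟩
  invFun z := fun w => z w.1 w.2
  map_add' _ _ := rfl
  map_smul' _ _ := rfl
  left_inv _ := rfl
  right_inv _ := rfl

theorem curryEquiv_locH (n : ℕ) (y : levelCohomology (𝒰.restrict U) B n) :
    curryEquiv D U σ B n (locH (mackeyData D U σ) B n y) = locL D U B σ n y := rfl

end Mackey

section Iso

variable (D : LocalData 𝒰) {A B C : Rep.{u} k G} [IsDiscrete 𝒰 A] [IsDiscrete 𝒰 B]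
  [IsDiscrete 𝒰 C]

theorem locHMap_comp_apply (φ : A ⟶ B) (ψ : B ⟶ C) (n : ℕ)
    (w : ∀ v, levelCohomology (D.𝒱 v) (Rep.res (D.r v) A) n) :
    locHMap D (φ ≫ ψ) n w = locHMap D ψ n (locHMap D φ n w) := by
  funext v
  rw [locHMap_apply, locHMap_apply, locHMap_apply, CategoryTheory.Functor.map_comp,
    Hmap_comp_apply]

theorem locHMap_id_apply (n : ℕ) (w : ∀ v, levelCohomology (D.𝒱 v) (Rep.res (D.r v) A) n) :
    locHMap D (𝟙 A) n w = w := by
  funext v
  rw [locHMap_apply, CategoryTheory.Functor.map_id, Hmap_id]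
  rfl

/-- The linear equivalence on level cohomology induced by an isomorphism of coefficients. -/
noncomputable def HmapIsoEquiv (e : A ≅ B) (n : ℕ) :
    levelCohomology 𝒰 A n ≃ₗ[k] levelCohomology 𝒰 B n :=
  LinearEquiv.ofLinearMap (Hmap 𝒰 e.hom n).hom (Hmap 𝒰 e.inv n).hom
    (LinearMap.ext fun x => by
      rw [LinearMap.comp_apply, ← Hmap_comp_apply, e.inv_hom_id, Hmap_id]
      rfl)
    (LinearMap.ext fun x => by
      rw [LinearMap.comp_apply, ← Hmap_comp_apply, e.hom_inv_id, Hmap_id]
      rfl)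

theorem HmapIsoEquiv_apply (e : A ≅ B) (n : ℕ) (x : levelCohomology 𝒰 A n) :
    HmapIsoEquiv e n x = (Hmap 𝒰 e.hom n).hom x := rfl

/-- The linear equivalence on the products of the local cohomology groups induced by an
isomorphism of coefficients. -/
noncomputable def locHMapEquiv (e : A ≅ B) (n : ℕ) :
    (∀ v, levelCohomology (D.𝒱 v) (Rep.res (D.r v) A) n) ≃ₗ[k]
      (∀ v, levelCohomology (D.𝒱 v) (Rep.res (D.r v) B) n) :=
  LinearEquiv.ofLinearMap (locHMap D e.hom n) (locHMap D e.inv n)
    (LinearMap.ext fun w => by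
      rw [LinearMap.comp_apply, ← locHMap_comp_apply, e.inv_hom_id, locHMap_id_apply]
      rfl)
    (LinearMap.ext fun w => by
      rw [LinearMap.comp_apply, ← locHMap_comp_apply, e.hom_inv_id, locHMap_id_apply]
      rfl)

theorem locHMapEquiv_apply (e : A ≅ B) (n : ℕ)
    (w : ∀ v, levelCohomology (D.𝒱 v) (Rep.res (D.r v) A) n) :
    locHMapEquiv D e n w = locHMap D e.hom n w := rfl

/-- Localisation commutes with an isomorphism of coefficients. -/
theorem locHMapEquiv_locH (e : A ≅ B) (n : ℕ) (x : levelCohomology 𝒰 A n) :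
    locHMapEquiv D e n (locH D A n x) = locH D B n (HmapIsoEquiv e n x) :=
  (locH_Hmap D e.hom n x).symm

end Iso

section Scalars

variable {k G : Type} [CommRing k] [Group G] {𝒰 : LevelStructure G} (D : LocalData 𝒰)
  (A : Rep.{0} k G) [IsDiscrete 𝒰 A]

/-- The comparison of scalars on the product of the local cohomology groups. -/
noncomputable def prodIntEquiv (n : ℕ) :
    (∀ v, levelCohomology (D.𝒱 v) (Rep.res (D.r v) (toIntRep A)) n) ≃+
      (∀ v, levelCohomology (D.𝒱 v) (Rep.res (D.r v) A) n) :=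
  AddEquiv.piCongrRight fun v => levelCohomologyIntEquiv (Rep.res (D.r v) A) (D.𝒱 v) n

/-- **Localisation commutes with the comparison of scalars.** -/
theorem prodIntEquiv_locH (n : ℕ) (x : levelCohomology 𝒰 (toIntRep A) n) :
    prodIntEquiv D A n (locH D (toIntRep A) n x) =
      locH D A n (levelCohomologyIntEquiv A 𝒰 n x) :=
  funext fun v =>
    levelCohomologyIntEquiv_map (D.r v) (D.refines v) (𝟙 (Rep.res (D.r v) A)) n x

end Scalars

section Transport

variable {k G : Type} [CommRing k] [Group G] {𝒰 : LevelStructure G} {D D' : LocalData 𝒰}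
  (M : Match D D') (A : Rep.{0} k G) [IsDiscrete 𝒰 A] (μ : Rep.{0} ℤ G) [IsDiscrete 𝒰 μ]
  (j : toIntRep A ≅ μ)

/-- The comparison of the global cohomology groups: coefficients `μ ≅ A` over `ℤ`, then scalars. -/
noncomputable def globEquiv (n : ℕ) : levelCohomology 𝒰 μ n ≃+ levelCohomology 𝒰 A n where
  toFun y := levelCohomologyIntEquiv A 𝒰 n ((Hmap 𝒰 j.inv n).hom y)
  invFun x := (Hmap 𝒰 j.hom n).hom ((levelCohomologyIntEquiv A 𝒰 n).symm x)
  left_inv y := by
    beta_reduce
    rw [AddEquiv.symm_apply_apply, ← Hmap_comp_apply, j.inv_hom_id, Hmap_id]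
    rfl
  right_inv x := by
    beta_reduce
    rw [← Hmap_comp_apply, j.hom_inv_id, Hmap_id]
    exact (levelCohomologyIntEquiv A 𝒰 n).apply_symm_apply x
  map_add' y y' := by rw [map_add, map_add]

theorem globEquiv_apply (n : ℕ) (y : levelCohomology 𝒰 μ n) :
    globEquiv A μ j n y = levelCohomologyIntEquiv A 𝒰 n ((Hmap 𝒰 j.inv n).hom y) := rfl

/-- The comparison of the products of the local cohomology groups: coefficients, scalars, and the
matching of the local data. -/
noncomputable def locEquivT (n : ℕ) :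
    (∀ w, levelCohomology (D'.𝒱 w) (Rep.res (D'.r w) μ) n) ≃+
      (∀ v, levelCohomology (D.𝒱 v) (Rep.res (D.r v) A) n) where
  toFun y := M.prodEquiv A n (prodIntEquiv D' A n (locHMap D' j.inv n y))
  invFun x := locHMap D' j.hom n ((prodIntEquiv D' A n).symm ((M.prodEquiv A n).symm x))
  left_inv y := by
    beta_reduce
    rw [LinearEquiv.symm_apply_apply, AddEquiv.symm_apply_apply, ← locHMap_comp_apply,
      j.inv_hom_id, locHMap_id_apply]
  right_inv x := by
    beta_reduce
    rw [← locHMap_comp_apply, j.hom_inv_id, locHMap_id_apply, AddEquiv.apply_symm_apply,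
      LinearEquiv.apply_symm_apply]
  map_add' y y' := by rw [map_add, map_add, map_add]

theorem locEquivT_apply (n : ℕ) (y : ∀ w, levelCohomology (D'.𝒱 w) (Rep.res (D'.r w) μ) n) :
    locEquivT M A μ j n y = M.prodEquiv A n (prodIntEquiv D' A n (locHMap D' j.inv n y)) := rfl

/-- **The two localisation maps correspond.** -/
theorem locEquivT_locH (n : ℕ) (y : levelCohomology 𝒰 μ n) :
    locEquivT M A μ j n (locH D' μ n y) = locH D A n (globEquiv A μ j n y) := by
  rw [locEquivT_apply, ← locH_Hmap, prodIntEquiv_locH, M.prodEquiv_locH, globEquiv_apply]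

include M in
/-- Kernels of the two localisation maps correspond. -/
theorem locH_globEquiv_eq_zero_iff (n : ℕ) (y : levelCohomology 𝒰 μ n) :
    locH D A n (globEquiv A μ j n y) = 0 ↔ locH D' μ n y = 0 := by
  rw [← locEquivT_locH M A μ j n y, AddEquiv.map_eq_zero_iff]

/-- The kernels of the two localisation maps are in bijection. -/
noncomputable def kerEquivT (n : ℕ) :
    {y : levelCohomology 𝒰 μ n // locH D' μ n y = 0} ≃
      {x : levelCohomology 𝒰 A n // locH D A n x = 0} where
  toFun y := ⟨globEquiv A μ j n y.1, (locH_globEquiv_eq_zero_iff M A μ j n y.1).2 y.2⟩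
  invFun x := ⟨(globEquiv A μ j n).symm x.1, by
    rw [← locH_globEquiv_eq_zero_iff M A μ j n, AddEquiv.apply_symm_apply]
    exact x.2⟩
  left_inv y := Subtype.ext ((globEquiv A μ j n).symm_apply_apply y.1)
  right_inv x := Subtype.ext ((globEquiv A μ j n).apply_symm_apply x.1)

include M j in
theorem card_ker_locH_eq (n : ℕ) :
    Nat.card {x : levelCohomology 𝒰 A n // locH D A n x = 0} =
      Nat.card {y : levelCohomology 𝒰 μ n // locH D' μ n y = 0} :=
  (Nat.card_congr (kerEquivT M A μ j n)).symm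

/-- **Transport of ARITH-L (c)**: an additive map on the local classes of `μ` whose kernel consists
of global classes induces one on the local classes of `A`. -/
theorem exists_additive_of_int {Q : Type*} [AddCommGroup Q] (n : ℕ)
    (s : (∀ w, levelCohomology (D'.𝒱 w) (Rep.res (D'.r w) μ) n) →+ Q)
    (hs : ∀ y, s y = 0 → ∃ c, locH D' μ n c = y) :
    ∃ s' : (∀ v, levelCohomology (D.𝒱 v) (Rep.res (D.r v) A) n) →+ Q,
      (∀ x, s' x = 0 → ∃ c, locH D A n c = x) ∧
      ∀ y, s' (locEquivT M A μ j n y) = s y := by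
  refine ⟨s.comp (locEquivT M A μ j n).symm.toAddMonoidHom, fun x hx => ?_, fun y => ?_⟩
  · obtain ⟨c, hc⟩ := hs _ hx
    refine ⟨globEquiv A μ j n c, ?_⟩
    rw [← locEquivT_locH M A μ j n c, hc]
    exact (locEquivT M A μ j n).apply_symm_apply x
  · show s ((locEquivT M A μ j n).symm (locEquivT M A μ j n y)) = s y
    rw [AddEquiv.symm_apply_apply]

end Transport

end Fermat.Agent.S55.LocalDataMatch
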