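/-
S55 (ALG15): the calculus of "torsion prime to `p`" abelian groups (a Serre class), used to handle
the places where the class-field-theoretic sequences are exact only on `p`-primary parts
(capitulation of ideal classes in `ℚ_S`, `Br(L_{S,w}/L_w) ⊆ Br(L_w)`).

* `PTriv p X`        : every element of `X` is killed by an integer prime to `p`.
* permanence         : subgroups, quotients, extensions (three-term exactness), products over
                       finite index sets, images.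
* `PTriv p X`        ⇒ `p • x = 0 → x = 0` and every element is divisible by `p` (and by `p ^ k`).
* `IsPIso p f`       : kernel and cokernel of `f` are `PTriv`; then `f` induces bijections on
                       `p`-torsion and modulo `p` (elementwise statements `IsPIso.tors_*`, `modp_*`).
* a torsion group without `p`-torsion is `PTriv`.

Mathlib only.
-/
import Mathlib

set_option autoImplicit false

namespace Fermat.Agent.S55.PPart

variable (p : ℕ)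

/-- `X` is torsion prime to `p`: every element is killed by a natural number prime to `p`. -/
def PTriv (X : Type*) [AddCommGroup X] : Prop :=
  ∀ x : X, ∃ m : ℕ, m.Coprime p ∧ m • x = 0

section Basic

variable {p} {X Y Z : Type*} [AddCommGroup X] [AddCommGroup Y] [AddCommGroup Z]

lemma PTriv.of_injective (f : X →+ Y) (hf : Function.Injective f) (hY : PTriv p Y) : PTriv p X := by
  intro x
  obtain ⟨m, hm, h⟩ := hY (f x)
  exact ⟨m, hm, hf (by rw [map_nsmul, h, map_zero])⟩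

lemma PTriv.of_surjective (f : X →+ Y) (hf : Function.Surjective f) (hX : PTriv p X) :
    PTriv p Y := by
  intro y
  obtain ⟨x, rfl⟩ := hf y
  obtain ⟨m, hm, h⟩ := hX x
  exact ⟨m, hm, by rw [← map_nsmul, h, map_zero]⟩

lemma PTriv.addSubgroup (hX : PTriv p X) (H : AddSubgroup X) : PTriv p H :=
  PTriv.of_injective H.subtype H.subtype_injective hX

lemma PTriv.quotient (hX : PTriv p X) (H : AddSubgroup X) : PTriv p (X ⧸ H) :=
  PTriv.of_surjective (QuotientAddGroup.mk' H) (QuotientAddGroup.mk'_surjective H) hX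

lemma PTriv.range (f : X →+ Y) (hX : PTriv p X) : PTriv p f.range :=
  PTriv.of_surjective f.rangeRestrict f.rangeRestrict_surjective hX

/-- Extensions: if `X → Y → Z` is exact at `Y` and `X`, `Z` are `PTriv`, so is `Y`. -/
lemma PTriv.of_exact (f : X →+ Y) (g : Y →+ Z) (hfg : ∀ y, g y = 0 → ∃ x, f x = y)
    (hX : PTriv p X) (hZ : PTriv p Z) : PTriv p Y := by
  intro y
  obtain ⟨m, hm, h⟩ := hZ (g y)
  obtain ⟨x, hx⟩ := hfg (m • y) (by rw [map_nsmul, h])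
  obtain ⟨m', hm', h'⟩ := hX x
  refine ⟨m' * m, Nat.Coprime.mul_left hm' hm, ?_⟩
  rw [mul_smul, ← hx, ← map_nsmul, h', map_zero]

/-- A subsingleton is `PTriv`. -/
lemma PTriv.of_subsingleton [Subsingleton X] : PTriv p X :=
  fun x => ⟨1, Nat.coprime_one_left p, by rw [one_smul]; exact Subsingleton.elim _ _⟩

/-- A group killed by an integer prime to `p` is `PTriv`. -/
lemma PTriv.of_nsmul_eq_zero {m : ℕ} (hm : m.Coprime p) (h : ∀ x : X, m • x = 0) : PTriv p X :=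
  fun x => ⟨m, hm, h x⟩

/-- A finite group of order prime to `p` is `PTriv`. -/
lemma PTriv.of_card_coprime [Finite X] (h : (Nat.card X).Coprime p) : PTriv p X :=
  PTriv.of_nsmul_eq_zero h fun x => by
    exact card_nsmul_eq_zero' (G := X) (x := x)

/-- Products over a finite index set. -/
lemma PTriv.pi {ι : Type*} [Finite ι] {A : ι → Type*} [∀ i, AddCommGroup (A i)]
    (h : ∀ i, PTriv p (A i)) : PTriv p (∀ i, A i) := by
  classical
  cases nonempty_fintype ι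
  intro x
  choose m hm hx using fun i => h i (x i)
  refine ⟨∏ i, m i, Nat.Coprime.prod_left fun i _ => hm i, ?_⟩
  funext i
  have hdvd : m i ∣ ∏ j, m j := Finset.dvd_prod_of_mem m (Finset.mem_univ i)
  obtain ⟨c, hc⟩ := hdvd
  rw [Pi.smul_apply, hc, mul_comm, mul_smul, hx i, smul_zero, Pi.zero_apply]

/-- Finite common multiplier: finitely many elements of a `PTriv` group are killed by one integer
prime to `p`. -/
lemma PTriv.exists_common (hX : PTriv p X) (s : Set X) (hs : s.Finite) :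
    ∃ m : ℕ, m.Coprime p ∧ ∀ x ∈ s, m • x = 0 := by
  classical
  choose m hm hx using hX
  refine ⟨∏ x ∈ hs.toFinset, m x, Nat.Coprime.prod_left fun x _ => hm x, fun x hxs => ?_⟩
  have hdvd : m x ∣ ∏ y ∈ hs.toFinset, m y :=
    Finset.dvd_prod_of_mem m ((Set.Finite.mem_toFinset hs).2 hxs)
  obtain ⟨c, hc⟩ := hdvd
  rw [hc, mul_comm, mul_smul, hx x, smul_zero]

end Basic

section Prime

variable {p} {X Y : Type*} [AddCommGroup X] [AddCommGroup Y]

/-- Bezout in the form used below: if `m` is prime to `p^k` (`p ^ k > 1`) there are `u t` with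
`u * m = 1 + t * p ^ k`. -/
lemma exists_mul_eq_one_add {m q : ℕ} (hq : 1 < q) (hm : m.Coprime q) :
    ∃ u t : ℕ, u * m = 1 + t * q := by
  obtain ⟨u, -, hu⟩ := Nat.exists_mul_mod_eq_one_of_coprime hm hq
  refine ⟨u, m * u / q, ?_⟩
  have := Nat.div_add_mod (m * u) q
  rw [hu] at this
  rw [mul_comm u m, mul_comm (m * u / q) q]
  omega

lemma PTriv.eq_zero_of_pow_nsmul_eq_zero (hp : p.Prime) (hX : PTriv p X) {k : ℕ} {x : X}
    (h : p ^ k • x = 0) : x = 0 := by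
  rcases Nat.eq_zero_or_pos k with rfl | hk
  · simpa using h
  obtain ⟨m, hm, hmx⟩ := hX x
  have hq : 1 < p ^ k := Nat.one_lt_pow hk.ne' hp.one_lt
  obtain ⟨u, t, hut⟩ := exists_mul_eq_one_add hq (Nat.Coprime.pow_right k hm)
  have h1 : (u * m) • x = 0 := by rw [mul_smul, hmx, smul_zero]
  rw [hut, add_smul, one_smul, mul_smul, h, smul_zero, add_zero] at h1
  exact h1

lemma PTriv.eq_zero_of_nsmul_eq_zero (hp : p.Prime) (hX : PTriv p X) {x : X}
    (h : p • x = 0) : x = 0 :=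
  hX.eq_zero_of_pow_nsmul_eq_zero hp (k := 1) (by simpa using h)

lemma PTriv.exists_pow_nsmul_eq (hp : p.Prime) (hX : PTriv p X) (k : ℕ) (x : X) :
    ∃ y : X, p ^ k • y = x := by
  rcases Nat.eq_zero_or_pos k with rfl | hk
  · exact ⟨x, by simp⟩
  obtain ⟨m, hm, hmx⟩ := hX x
  have hq : 1 < p ^ k := Nat.one_lt_pow hk.ne' hp.one_lt
  obtain ⟨u, t, hut⟩ := exists_mul_eq_one_add hq (Nat.Coprime.pow_right k hm)
  have h1 : (u * m) • x = 0 := by rw [mul_smul, hmx, smul_zero]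
  rw [hut, add_smul, one_smul] at h1
  refine ⟨-(t • x), ?_⟩
  rw [smul_neg, ← mul_smul, mul_comm]
  exact (eq_neg_of_add_eq_zero_left h1).symm

lemma PTriv.exists_nsmul_eq (hp : p.Prime) (hX : PTriv p X) (x : X) : ∃ y : X, p • y = x := by
  simpa using hX.exists_pow_nsmul_eq hp 1 x

/-- A torsion group without `p`-torsion is `PTriv`. -/
lemma PTriv.of_torsion (hp : p.Prime) (htors : ∀ x : X, ∃ n : ℕ, 0 < n ∧ n • x = 0)
    (hp0 : ∀ x : X, p • x = 0 → x = 0) : PTriv p X := by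
  intro x
  obtain ⟨n, hn, hnx⟩ := htors x
  -- write `n = p ^ k * m` with `m` prime to `p`
  obtain ⟨k, m, hm, rfl⟩ := Nat.exists_eq_pow_mul_and_not_dvd hn.ne' p hp.ne_one
  refine ⟨m, (Nat.Coprime.symm ((Nat.Prime.coprime_iff_not_dvd hp).2 hm)), ?_⟩
  -- kill the powers of `p` one at a time
  clear hn
  induction k with
  | zero => simpa using hnx
  | succ k ih =>
    apply ih
    apply hp0
    rw [← mul_smul, ← mul_assoc, ← pow_succ']
    exact hnx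

end Prime

section PIso

variable {p} {X Y Z : Type*} [AddCommGroup X] [AddCommGroup Y] [AddCommGroup Z]

/-- `f` is an isomorphism modulo the Serre class of `PTriv` groups: its kernel is `PTriv` and every
element of the target has a multiple prime to `p` in the image. -/
structure IsPIso (p : ℕ) (f : X →+ Y) : Prop where
  ker : ∀ x, f x = 0 → ∃ m : ℕ, m.Coprime p ∧ m • x = 0
  coker : ∀ y, ∃ m : ℕ, m.Coprime p ∧ ∃ x, f x = m • y

lemma IsPIso.of_bijective (f : X →+ Y) (hf : Function.Bijective f) : IsPIso p f where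
  ker x hx := ⟨1, Nat.coprime_one_left p, by
    rw [one_smul]; exact hf.1 (by rw [hx, map_zero])⟩
  coker y := ⟨1, Nat.coprime_one_left p, by
    obtain ⟨x, hx⟩ := hf.2 y
    exact ⟨x, by rw [hx, one_smul]⟩⟩

lemma isPIso_iff (f : X →+ Y) :
    IsPIso p f ↔ PTriv p f.ker ∧ PTriv p (Y ⧸ f.range) := by
  constructor
  · intro h
    refine ⟨fun x => ?_, fun y => ?_⟩
    · obtain ⟨m, hm, hx⟩ := h.ker x.1 x.2
      exact ⟨m, hm, Subtype.ext (by simpa using hx)⟩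
    · obtain ⟨y, rfl⟩ := QuotientAddGroup.mk_surjective y
      obtain ⟨m, hm, x, hx⟩ := h.coker y
      refine ⟨m, hm, ?_⟩
      rw [← QuotientAddGroup.mk_nsmul, QuotientAddGroup.eq_zero_iff]
      exact ⟨x, hx⟩
  · rintro ⟨hk, hc⟩
    refine ⟨fun x hx => ?_, fun y => ?_⟩
    · obtain ⟨m, hm, h⟩ := hk ⟨x, hx⟩
      exact ⟨m, hm, by simpa using congrArg Subtype.val h⟩
    · obtain ⟨m, hm, h⟩ := hc (QuotientAddGroup.mk y)
      rw [← QuotientAddGroup.mk_nsmul, QuotientAddGroup.eq_zero_iff] at h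
      obtain ⟨x, hx⟩ := h
      exact ⟨m, hm, x, hx⟩

lemma IsPIso.comp {f : X →+ Y} {g : Y →+ Z} (hf : IsPIso p f) (hg : IsPIso p g) :
    IsPIso p (g.comp f) where
  ker x hx := by
    obtain ⟨m, hm, h⟩ := hg.ker (f x) hx
    obtain ⟨m', hm', h'⟩ := hf.ker (m • x) (by rw [map_nsmul, h])
    exact ⟨m' * m, Nat.Coprime.mul_left hm' hm, by rw [mul_smul, h']⟩
  coker z := by
    obtain ⟨m, hm, y, hy⟩ := hg.coker z
    obtain ⟨m', hm', x, hx⟩ := hf.coker y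
    refine ⟨m' * m, Nat.Coprime.mul_left hm' hm, x, ?_⟩
    rw [AddMonoidHom.comp_apply, hx, map_nsmul, hy, mul_smul]

/-- Injective map with `PTriv` cokernel. -/
lemma IsPIso.of_injective_of_pTriv (f : X →+ Y) (hf : Function.Injective f)
    (hc : ∀ y, ∃ m : ℕ, m.Coprime p ∧ ∃ x, f x = m • y) : IsPIso p f where
  ker x hx := ⟨1, Nat.coprime_one_left p, by
    rw [one_smul]; exact hf (by rw [hx, map_zero])⟩
  coker := hc

/-- Surjective map with `PTriv` kernel. -/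
lemma IsPIso.of_surjective_of_pTriv (f : X →+ Y) (hf : Function.Surjective f)
    (hk : ∀ x, f x = 0 → ∃ m : ℕ, m.Coprime p ∧ m • x = 0) : IsPIso p f where
  ker := hk
  coker y := ⟨1, Nat.coprime_one_left p, by
    obtain ⟨x, hx⟩ := hf y
    exact ⟨x, by rw [hx, one_smul]⟩⟩

variable {f : X →+ Y}

/-- A `p`-isomorphism is injective on `p^k`-torsion. -/
lemma IsPIso.tors_injective (hp : p.Prime) (hf : IsPIso p f) {k : ℕ} {x : X}
    (hx : p ^ k • x = 0) (hfx : f x = 0) : x = 0 := by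
  have hK : PTriv p f.ker := ((isPIso_iff f).1 hf).1
  have : (⟨x, hfx⟩ : f.ker) = 0 :=
    hK.eq_zero_of_pow_nsmul_eq_zero hp (k := k) (Subtype.ext (by simpa using hx))
  simpa using congrArg Subtype.val this

/-- A `p`-isomorphism is surjective on `p^k`-torsion. -/
lemma IsPIso.tors_surjective (hp : p.Prime) (hf : IsPIso p f) {k : ℕ} {y : Y}
    (hy : p ^ k • y = 0) : ∃ x : X, p ^ k • x = 0 ∧ f x = y := by
  rcases Nat.eq_zero_or_pos k with rfl | hk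
  · simp only [pow_zero, one_smul] at hy
    exact ⟨0, by simp, by rw [map_zero, hy]⟩
  have hq : 1 < p ^ k := Nat.one_lt_pow hk.ne' hp.one_lt
  obtain ⟨m, hm, x₀, hx₀⟩ := hf.coker y
  have h1 : f (p ^ k • x₀) = 0 := by
    rw [map_nsmul, hx₀, smul_comm, hy, smul_zero]
  obtain ⟨m', hm', h2⟩ := hf.ker _ h1
  -- `x₁ := m' • x₀` is `p^k`-torsion and maps to `(m' * m) • y`
  have hcop : (m' * m).Coprime (p ^ k) :=
    Nat.Coprime.pow_right k (Nat.Coprime.mul_left hm' hm)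
  obtain ⟨u, t, hut⟩ := exists_mul_eq_one_add hq hcop
  refine ⟨u • m' • x₀, ?_, ?_⟩
  · rw [smul_comm, smul_comm (p ^ k) m' x₀, h2, smul_zero]
  · rw [map_nsmul, map_nsmul, hx₀, ← mul_smul, ← mul_smul, mul_assoc, hut, add_smul, one_smul,
      mul_smul, hy, smul_zero, add_zero]

/-- A `p`-isomorphism is injective modulo `p^k`. -/
lemma IsPIso.modp_injective (hp : p.Prime) (hf : IsPIso p f) {k : ℕ} {x : X} {y : Y}
    (h : f x = p ^ k • y) : ∃ x' : X, x = p ^ k • x' := by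
  rcases Nat.eq_zero_or_pos k with rfl | hk
  · exact ⟨x, by simp⟩
  have hq : 1 < p ^ k := Nat.one_lt_pow hk.ne' hp.one_lt
  obtain ⟨m, hm, x₀, hx₀⟩ := hf.coker y
  have h1 : f (m • x - p ^ k • x₀) = 0 := by
    rw [map_sub, map_nsmul, map_nsmul, h, hx₀, smul_comm, sub_self]
  obtain ⟨m', hm', h2⟩ := hf.ker _ h1
  rw [smul_sub, sub_eq_zero] at h2
  have hcop : (m' * m).Coprime (p ^ k) :=
    Nat.Coprime.pow_right k (Nat.Coprime.mul_left hm' hm)
  obtain ⟨u, t, hut⟩ := exists_mul_eq_one_add hq hcop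
  -- `x = (u m' m) x - t p^k x = p^k (u m' x₀ - t x)`
  refine ⟨u • m' • x₀ - t • x, ?_⟩
  have h3 : (u * (m' * m)) • x = x + (t * p ^ k) • x := by rw [hut, add_smul, one_smul]
  have h4 : (u * (m' * m)) • x = p ^ k • (u • m' • x₀) := by
    rw [mul_smul, mul_smul, h2, smul_comm (p ^ k) u, smul_comm m' (p ^ k)]
  rw [smul_sub, ← h4, h3, smul_comm (p ^ k) t, ← mul_smul t, add_sub_cancel_right]

/-- A `p`-isomorphism is surjective modulo `p^k`. -/
lemma IsPIso.modp_surjective (hp : p.Prime) (hf : IsPIso p f) (k : ℕ) (y : Y) :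
    ∃ (x : X) (y' : Y), y = f x + p ^ k • y' := by
  rcases Nat.eq_zero_or_pos k with rfl | hk
  · exact ⟨0, y, by simp⟩
  have hq : 1 < p ^ k := Nat.one_lt_pow hk.ne' hp.one_lt
  obtain ⟨m, hm, x₀, hx₀⟩ := hf.coker y
  obtain ⟨u, t, hut⟩ := exists_mul_eq_one_add hq (Nat.Coprime.pow_right k hm)
  refine ⟨u • x₀, -(t • y), ?_⟩
  have h3 : (u * m) • y = y + (t * p ^ k) • y := by rw [hut, add_smul, one_smul]
  rw [map_nsmul, hx₀, ← mul_smul, h3, smul_neg, smul_comm, ← mul_smul t, add_neg_cancel_right]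

end PIso

section FourLemma

/-! ### The four lemmas modulo `PTriv` groups (elementwise hypotheses) -/

variable {p} {A₁ A₂ A₃ A₄ B₁ B₂ B₃ B₄ : Type*}
  [AddCommGroup A₁] [AddCommGroup A₂] [AddCommGroup A₃] [AddCommGroup A₄]
  [AddCommGroup B₁] [AddCommGroup B₂] [AddCommGroup B₃] [AddCommGroup B₄]

/-- Mono four lemma modulo `PTriv`: rows `A₁ → A₂ → A₃ → A₄`, `B₁ → B₂ → B₃ → B₄` exact at
`A₂`... (only the exactness actually used is assumed), `f₁` has `PTriv` cokernel, `f₂`, `f₄` have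
`PTriv` kernel; then `f₃` has `PTriv` kernel. -/
theorem ker_pTriv_of_four
    (a₁ : A₁ →+ A₂) (a₂ : A₂ →+ A₃) (a₃ : A₃ →+ A₄)
    (b₁ : B₁ →+ B₂) (b₂ : B₂ →+ B₃) (b₃ : B₃ →+ B₄)
    (f₁ : A₁ →+ B₁) (f₂ : A₂ →+ B₂) (f₃ : A₃ →+ B₃) (f₄ : A₄ →+ B₄)
    (ha₃ : ∀ x, a₃ x = 0 → ∃ y, a₂ y = x) (ha₂ : ∀ x, a₂ (a₁ x) = 0)
    (hb₂ : ∀ y, b₂ y = 0 → ∃ z, b₁ z = y)
    (sq₁ : ∀ x, f₂ (a₁ x) = b₁ (f₁ x)) (sq₂ : ∀ x, f₃ (a₂ x) = b₂ (f₂ x))
    (sq₃ : ∀ x, f₄ (a₃ x) = b₃ (f₃ x))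
    (h₁ : ∀ y, ∃ m : ℕ, m.Coprime p ∧ ∃ x, f₁ x = m • y)
    (h₂ : ∀ x, f₂ x = 0 → ∃ m : ℕ, m.Coprime p ∧ m • x = 0)
    (h₄ : ∀ x, f₄ x = 0 → ∃ m : ℕ, m.Coprime p ∧ m • x = 0) :
    ∀ x, f₃ x = 0 → ∃ m : ℕ, m.Coprime p ∧ m • x = 0 := by
  intro x hx
  -- `a₃ x` is killed by `f₄`
  obtain ⟨m₄, hm₄, h4⟩ := h₄ (a₃ x) (by rw [sq₃, hx, map_zero])
  obtain ⟨y, hy⟩ := ha₃ (m₄ • x) (by rw [map_nsmul, h4])
  -- `f₂ y` maps to zero in `B₃`
  have h5 : b₂ (f₂ y) = 0 := by rw [← sq₂, hy, map_nsmul, hx, smul_zero]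
  obtain ⟨z, hz⟩ := hb₂ _ h5
  obtain ⟨m₁, hm₁, w, hw⟩ := h₁ z
  -- `f₂ (m₁ y - a₁ w) = 0`
  have h6 : f₂ (m₁ • y - a₁ w) = 0 := by
    rw [map_sub, map_nsmul, sq₁, hw, map_nsmul, hz, sub_self]
  obtain ⟨m₂, hm₂, h7⟩ := h₂ _ h6
  refine ⟨m₂ * (m₁ * m₄), Nat.Coprime.mul_left hm₂ (Nat.Coprime.mul_left hm₁ hm₄), ?_⟩
  have h8 : a₂ (m₂ • (m₁ • y - a₁ w)) = (m₂ * (m₁ * m₄)) • x := by
    rw [map_nsmul, map_sub, map_nsmul, hy, ha₂, sub_zero]
    simp only [mul_smul]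
  rw [← h8, h7, map_zero]

/-- Epi four lemma modulo `PTriv`: rows `A₁ → A₂ → A₃`, `B₁ → B₂ → B₃` with a fourth vertical map
`f₄`-analogue on the right: precisely, rows `A₂ → A₃ → A₄ → A₅` are replaced by the three maps
below; `f₂`, `f₄` have `PTriv` cokernel and `f₅` has `PTriv` kernel; then `f₃` has `PTriv`
cokernel. -/
theorem coker_pTriv_of_four {A₅ B₅ : Type*} [AddCommGroup A₅] [AddCommGroup B₅]
    (a₂ : A₂ →+ A₃) (a₃ : A₃ →+ A₄) (a₄ : A₄ →+ A₅)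
    (b₂ : B₂ →+ B₃) (b₃ : B₃ →+ B₄) (b₄ : B₄ →+ B₅)
    (f₂ : A₂ →+ B₂) (f₃ : A₃ →+ B₃) (f₄ : A₄ →+ B₄) (f₅ : A₅ →+ B₅)
    (ha₄ : ∀ x, a₄ x = 0 → ∃ y, a₃ y = x)
    (hb₃ : ∀ y, b₃ y = 0 → ∃ z, b₂ z = y) (hb₄ : ∀ y, b₄ (b₃ y) = 0)
    (sq₂ : ∀ x, f₃ (a₂ x) = b₂ (f₂ x)) (sq₃ : ∀ x, f₄ (a₃ x) = b₃ (f₃ x))
    (sq₄ : ∀ x, f₅ (a₄ x) = b₄ (f₄ x))
    (h₂ : ∀ y, ∃ m : ℕ, m.Coprime p ∧ ∃ x, f₂ x = m • y)
    (h₄ : ∀ y, ∃ m : ℕ, m.Coprime p ∧ ∃ x, f₄ x = m • y)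
    (h₅ : ∀ x, f₅ x = 0 → ∃ m : ℕ, m.Coprime p ∧ m • x = 0) :
    ∀ y, ∃ m : ℕ, m.Coprime p ∧ ∃ x, f₃ x = m • y := by
  intro y
  obtain ⟨m₄, hm₄, u, hu⟩ := h₄ (b₃ y)
  -- `a₄ u` is killed by `f₅`
  have h1 : f₅ (a₄ u) = 0 := by rw [sq₄, hu, map_nsmul, hb₄, smul_zero]
  obtain ⟨m₅, hm₅, h2⟩ := h₅ _ h1
  obtain ⟨v, hv⟩ := ha₄ (m₅ • u) (by rw [map_nsmul, h2])
  -- `f₃ v - (m₅ m₄) y` dies in `B₄`
  have h3 : b₃ (f₃ v - (m₅ * m₄) • y) = 0 := by
    rw [map_sub, ← sq₃, hv, map_nsmul, hu, map_nsmul, mul_smul, sub_self]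
  obtain ⟨z, hz⟩ := hb₃ _ h3
  obtain ⟨m₂, hm₂, w, hw⟩ := h₂ z
  refine ⟨m₂ * (m₅ * m₄), Nat.Coprime.mul_left hm₂ (Nat.Coprime.mul_left hm₅ hm₄),
    m₂ • v - a₂ w, ?_⟩
  rw [map_sub, map_nsmul, sq₂, hw, map_nsmul, hz, smul_sub, sub_sub_cancel]
  simp only [mul_smul]

end FourLemma

end Fermat.Agent.S55.PPart
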