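/-
S55 / GL1 part 5 (helper11): Galois-stable sets of primes with trivial `S`-class groups.

`L/K` Galois extension of number fields.
* `primesAbove L T`: the primes of `L` above a finite set `T` of primes of `K`; it is Galois-stable
  (`IsGalStable K (primesAbove L T)`) and its image under `underK K` is `T`.
* `galClosure K S`: the Galois saturation of a finite set `S` of primes of `L`.
* `exists_isClTrivial_primesAbove`: every finite set `T₁` of primes of `K` is contained in a finite
  set `T` with `Cl_T(K) = 0` and `Cl_{T_L}(L) = 0`.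
-/
import Mathlib
import Fermat.Agent.S14.GalDivisors
import Fermat.Agent.S55.SUnitGalois
import Fermat.Agent.S55.SUnitClass

set_option autoImplicit false

namespace Fermat.Agent.S55.SUnitStable

open NumberField IsDedekindDomain HeightOneSpectrum
open Fermat.Agent.S14.GalDiv Fermat.Agent.S55.SUnit Fermat.Agent.S55.SUnitGalois
open Fermat.Agent.S55.SUnitClass

variable {K : Type*} (L : Type*) [Field K] [Field L] [NumberField K] [NumberField L] [Algebra K L]

/-- The primes of `L` above a finite set of primes of `K`. -/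
noncomputable def primesAbove [DecidableEq (HeightOneSpectrum (𝓞 L))]
    (T : Finset (HeightOneSpectrum (𝓞 K))) : Finset (HeightOneSpectrum (𝓞 L)) :=
  T.biUnion (fibre K L)

variable {L}

@[simp] lemma mem_primesAbove [DecidableEq (HeightOneSpectrum (𝓞 L))]
    {T : Finset (HeightOneSpectrum (𝓞 K))} {w : HeightOneSpectrum (𝓞 L)} :
    w ∈ primesAbove L T ↔ underK K w ∈ T := by
  simp only [primesAbove, Finset.mem_biUnion, mem_fibre]
  constructor
  · rintro ⟨v, hv, rfl⟩; exact hv
  · intro h; exact ⟨_, h, rfl⟩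

lemma primesAbove_mono [DecidableEq (HeightOneSpectrum (𝓞 L))]
    {T T' : Finset (HeightOneSpectrum (𝓞 K))} (h : T ⊆ T') :
    primesAbove L T ⊆ primesAbove L T' := by
  intro w hw
  rw [mem_primesAbove] at hw ⊢
  exact h hw

lemma image_underK_primesAbove [DecidableEq (HeightOneSpectrum (𝓞 L))]
    [DecidableEq (HeightOneSpectrum (𝓞 K))] (T : Finset (HeightOneSpectrum (𝓞 K))) :
    (primesAbove L T).image (underK K) = T := by
  ext v
  simp only [Finset.mem_image, mem_primesAbove]
  constructor
  · rintro ⟨w, hw, rfl⟩; exact hw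
  · intro hv
    obtain ⟨w, rfl⟩ := underK_surjective K (L := L) v
    exact ⟨w, hv, rfl⟩

instance isGalStable_primesAbove [IsGalois K L] [DecidableEq (HeightOneSpectrum (𝓞 L))]
    (T : Finset (HeightOneSpectrum (𝓞 K))) : IsGalStable K (primesAbove L T) :=
  ⟨fun σ w hw => by
    rw [mem_primesAbove] at hw ⊢
    rwa [underK_smul]⟩

variable (K) in
/-- The Galois saturation of a finite set of primes of `L`. -/
noncomputable def galClosure [DecidableEq (HeightOneSpectrum (𝓞 L))] [Fintype (L ≃ₐ[K] L)]
    (S : Finset (HeightOneSpectrum (𝓞 L))) : Finset (HeightOneSpectrum (𝓞 L)) :=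
  S.biUnion fun w => Finset.univ.image fun σ : L ≃ₐ[K] L => σ • w

omit [NumberField K] [NumberField L] in
lemma mem_galClosure [DecidableEq (HeightOneSpectrum (𝓞 L))] [Fintype (L ≃ₐ[K] L)]
    {S : Finset (HeightOneSpectrum (𝓞 L))} {w : HeightOneSpectrum (𝓞 L)} :
    w ∈ galClosure K S ↔ ∃ w' ∈ S, ∃ σ : L ≃ₐ[K] L, σ • w' = w := by
  simp [galClosure]

lemma subset_galClosure [DecidableEq (HeightOneSpectrum (𝓞 L))] [Fintype (L ≃ₐ[K] L)]
    (S : Finset (HeightOneSpectrum (𝓞 L))) : S ⊆ galClosure K S := fun w hw =>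
  mem_galClosure.mpr ⟨w, hw, 1, one_smul _ w⟩

instance isGalStable_galClosure [DecidableEq (HeightOneSpectrum (𝓞 L))] [Fintype (L ≃ₐ[K] L)]
    (S : Finset (HeightOneSpectrum (𝓞 L))) : IsGalStable K (galClosure K S) :=
  ⟨fun σ w hw => by
    obtain ⟨w', hw', τ, rfl⟩ := mem_galClosure.mp hw
    exact mem_galClosure.mpr ⟨w', hw', σ * τ, mul_smul σ τ w'⟩⟩

/-- Every finite set of primes of `L` is contained in a Galois-stable finite set `S` with
`Cl_S(L) = 0`. -/
theorem exists_isGalStable_isClTrivial (K : Type*) [Field K] [NumberField K] [Algebra K L]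
    (S₁ : Finset (HeightOneSpectrum (𝓞 L))) :
    ∃ S : Finset (HeightOneSpectrum (𝓞 L)), S₁ ⊆ S ∧ IsGalStable K S ∧ IsClTrivial S := by
  classical
  have : Fintype (L ≃ₐ[K] L) := Fintype.ofFinite _
  obtain ⟨S₀, h1, h2⟩ := exists_finset_isClTrivial_of_subset S₁
  exact ⟨galClosure K S₀, h1.trans (subset_galClosure S₀), inferInstance,
    h2 _ (subset_galClosure S₀)⟩

variable (L) in
/-- Every finite set `T₁` of primes of `K` is contained in a finite set `T` such that
`Cl_T(K) = 0` and `Cl_{T_L}(L) = 0`, `T_L` the set of primes of `L` above `T`. -/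
theorem exists_isClTrivial_primesAbove [DecidableEq (HeightOneSpectrum (𝓞 L))]
    (T₁ : Finset (HeightOneSpectrum (𝓞 K))) :
    ∃ T₀ : Finset (HeightOneSpectrum (𝓞 K)), T₁ ⊆ T₀ ∧
      ∀ T, T₀ ⊆ T → IsClTrivial T ∧ IsClTrivial (primesAbove L T) := by
  classical
  obtain ⟨SK, hSK⟩ := exists_finset_isClTrivial K
  obtain ⟨SL, hSL⟩ := exists_finset_isClTrivial L
  refine ⟨T₁ ∪ SK ∪ SL.image (underK K), ?_, fun T hT => ⟨hSK T ?_, hSL _ ?_⟩⟩
  · intro v hv
    exact Finset.mem_union_left _ (Finset.mem_union_left _ hv)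
  · intro v hv
    exact hT (Finset.mem_union_left _ (Finset.mem_union_right _ hv))
  · intro w hw
    rw [mem_primesAbove]
    exact hT (Finset.mem_union_right _ (Finset.mem_image_of_mem _ hw))

end Fermat.Agent.S55.SUnitStable
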