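/-
S55 / CFT core, block (G4) "reciprocity by crossing", step X1 (elementary, Mathlib +
`S14/ArtinLemmaTwo` only).

For an odd prime `p`, finitely many integers `a ≥ 2`, and bounds `N`, `B`, there are a squarefree
modulus `m`, all of whose prime factors are `> B` and `≠ p`, prime to all the `a`'s, and a
character `χ : (ZMod m)ˣ →* ℂˣ` of `p`-power order such that `p ^ N ∣ orderOf (χ a)` for every `a`
of the given finite set.

Use: `a` ranges over the absolute norms `N v` of the finitely many places `v` where a global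
Brauer class `α` is non-trivial.  The fixed field `E` of `ker χ` inside `K(ζ_m)` is then a CYCLIC
extension of `p`-power degree, unramified at those `v`, with local degree divisible by `p ^ N`
there (Frobenius at `v` is `N v mod m`), so that `E` splits `α` and ramifies only where `α` is
locally trivial.

The proof is an induction on the finite set, adding one new prime `ℓ` with
`orderOf (a : ZMod ℓ) = p ^ N''` exactly (`N''` huge), and twisting the previous character by a
`p ^ (M' + e)`-th power of a `p`-power order character mod `ℓ`; among `|s| + 1` values of `e` at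
most `|s|` produce a cancellation of orders (pigeonhole).
-/
import Mathlib
import Fermat.Agent.S14.ArtinLemmaTwo

set_option autoImplicit false

namespace Fermat.Agent.S55.CrossChar

open Fermat.Agent.S14

section Group

variable {G : Type*} [CommGroup G] {p : ℕ}

lemma exists_orderOf_eq_of_pow_eq_one (hp : p.Prime) {x : G} {M : ℕ} (h : x ^ p ^ M = 1) :
    ∃ c ≤ M, orderOf x = p ^ c :=
  (Nat.dvd_prime_pow hp).1 (orderOf_dvd_of_pow_eq_one h)

lemma orderOf_pow_prime_pow (hp : p.Prime) {x : G} {d : ℕ} (h : orderOf x = p ^ d) (k : ℕ) :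
    orderOf (x ^ p ^ k) = p ^ (d - k) := by
  rw [orderOf_pow' x (pow_ne_zero k hp.ne_zero), h]
  rcases le_total d k with hdk | hkd
  · rw [Nat.gcd_eq_left (pow_dvd_pow p hdk), Nat.div_self (pow_pos hp.pos d),
      Nat.sub_eq_zero_of_le hdk, pow_zero]
  · rw [Nat.gcd_eq_right (pow_dvd_pow p hkd), Nat.pow_div hkd hp.pos]

lemma orderOf_mul_of_lt (hp : p.Prime) {x y : G} {a b : ℕ} (hx : orderOf x = p ^ a)
    (hy : orderOf y = p ^ b) (hab : a < b) : orderOf (x * y) = p ^ b := by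
  rw [← hy]
  refine (Commute.all x y).orderOf_mul_eq_right_of_forall_prime_mul_dvd ?_ ?_
  · exact orderOf_pos_iff.1 (hy ▸ pow_pos hp.pos b)
  · intro q hq hqx
    rw [hx] at hqx
    have hqp : q = p := (Nat.prime_dvd_prime_iff_eq hq hp).1 (hq.dvd_of_dvd_pow hqx)
    subst hqp
    rw [hx, hy, ← pow_succ']
    exact pow_dvd_pow q hab

/-- If `x`, `z` have `p`-power orders `p ^ c ≠ p ^ e` and `N ≤ c`, then `p ^ N ∣ orderOf (x * z)`. -/
lemma pow_dvd_orderOf_mul (hp : p.Prime) {x z : G} {N c e : ℕ} (hx : orderOf x = p ^ c)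
    (hz : orderOf z = p ^ e) (hN : N ≤ c) (hne : c ≠ e) : p ^ N ∣ orderOf (x * z) := by
  rcases lt_or_gt_of_ne hne with h | h
  · rw [orderOf_mul_of_lt hp hx hz h]; exact pow_dvd_pow p (hN.trans h.le)
  · rw [mul_comm, orderOf_mul_of_lt hp hz hx h]; exact pow_dvd_pow p hN

/-- The abstract induction step: given finitely many pairs `(x i, w i)` of elements of `p`-power
order with `p ^ N ∣ orderOf (x i)`, and a further pair `(x₀, w₀)` with `x₀ ^ p ^ M' = 1` and `w₀` of
huge order `p ^ N''`, some power `t` works simultaneously: `p ^ N` divides the orders of all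
`x i * w i ^ t` and of `x₀ * w₀ ^ t`. -/
theorem exists_scale (hp : p.Prime) {ι : Type*} [DecidableEq ι] (s : Finset ι) (x w : ι → G)
    (x₀ w₀ : G) {N M' S N'' : ℕ} (hN : 1 ≤ N)
    (hx : ∀ i ∈ s, x i ^ p ^ M' = 1) (hw : ∀ i ∈ s, w i ^ p ^ S = 1)
    (hxN : ∀ i ∈ s, p ^ N ∣ orderOf (x i))
    (hx₀ : x₀ ^ p ^ M' = 1) (hw₀ : orderOf w₀ = p ^ N'')
    (hN'' : N + 2 * M' + s.card + 1 ≤ N'') :
    ∃ t : ℕ, (∀ i ∈ s, p ^ N ∣ orderOf (x i * w i ^ t)) ∧ p ^ N ∣ orderOf (x₀ * w₀ ^ t) := by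
  have : Fact p.Prime := ⟨hp⟩
  set c : ι → ℕ := fun i => padicValNat p (orderOf (x i)) with hc
  set d : ι → ℕ := fun i => padicValNat p (orderOf (w i)) with hd
  have hcx : ∀ i ∈ s, orderOf (x i) = p ^ c i := by
    intro i hi
    obtain ⟨k, -, hk⟩ := exists_orderOf_eq_of_pow_eq_one hp (hx i hi)
    simp only [hc, hk, padicValNat.prime_pow]
  have hdw : ∀ i ∈ s, orderOf (w i) = p ^ d i := by
    intro i hi
    obtain ⟨k, -, hk⟩ := exists_orderOf_eq_of_pow_eq_one hp (hw i hi)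
    simp only [hd, hk, padicValNat.prime_pow]
  have hNc : ∀ i ∈ s, N ≤ c i := by
    intro i hi
    have := hxN i hi
    rw [hcx i hi] at this
    exact (Nat.pow_dvd_pow_iff_le_right hp.one_lt).1 this
  -- the possible bad exponent for `i`
  set f : ι → ℕ := fun i => d i - M' - c i with hf
  obtain ⟨e, he, hne⟩ : ∃ e ∈ Finset.range (s.card + 1), e ∉ s.image f := by
    apply Finset.exists_mem_notMem_of_card_lt_card
    calc (s.image f).card ≤ s.card := Finset.card_image_le
      _ < s.card + 1 := Nat.lt_succ_self _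
      _ = (Finset.range (s.card + 1)).card := (Finset.card_range _).symm
  rw [Finset.mem_range] at he
  refine ⟨p ^ (M' + e), ?_, ?_⟩
  · intro i hi
    have hz : orderOf (w i ^ p ^ (M' + e)) = p ^ (d i - (M' + e)) :=
      orderOf_pow_prime_pow hp (hdw i hi) _
    refine pow_dvd_orderOf_mul hp (hcx i hi) hz (hNc i hi) ?_
    intro hEq
    apply hne
    rw [Finset.mem_image]
    refine ⟨i, hi, ?_⟩
    have h1 := hNc i hi
    simp only [hf]
    omega
  · obtain ⟨c₀, hc₀, hxc₀⟩ := exists_orderOf_eq_of_pow_eq_one hp hx₀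
    have hz : orderOf (w₀ ^ p ^ (M' + e)) = p ^ (N'' - (M' + e)) :=
      orderOf_pow_prime_pow hp hw₀ _
    rw [orderOf_mul_of_lt hp hxc₀ hz (by omega)]
    exact pow_dvd_pow p (by omega)

end Group

section Main

variable {p : ℕ}

/-- A `p`-power order character modulo a prime `ℓ` on which a given unit of `p`-power order
keeps its order. -/
lemma exists_char_prime (hp : p.Prime) {ℓ : ℕ} [Fact ℓ.Prime] (u : (ZMod ℓ)ˣ) {n : ℕ}
    (hu : orderOf u = p ^ (n + 1)) :
    ∃ (ψ : (ZMod ℓ)ˣ →* ℂˣ) (S : ℕ), ψ ^ p ^ S = 1 ∧ orderOf (ψ u) = p ^ (n + 1) := by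
  have : Fact p.Prime := ⟨hp⟩
  -- a character separating `u ^ p ^ n` from `1`
  have hne : u ^ p ^ n ≠ 1 := by
    intro h
    have := orderOf_dvd_of_pow_eq_one h
    rw [hu, Nat.pow_dvd_pow_iff_le_right hp.one_lt] at this
    omega
  have : NeZero ((Monoid.exponent (ZMod ℓ)ˣ : ℕ) : ℂ) :=
    ⟨by exact_mod_cast Monoid.exponent_ne_zero_of_finite⟩
  obtain ⟨φ, hφ⟩ := CommGroup.exists_apply_ne_one_of_hasEnoughRootsOfUnity (ZMod ℓ)ˣ ℂ hne
  have hφu : orderOf (φ u) = p ^ (n + 1) := by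
    apply orderOf_eq_prime_pow
    · rwa [← map_pow]
    · rw [← map_pow, ← hu, pow_orderOf_eq_one, map_one]
  have hℓ1 : ℓ - 1 ≠ 0 := by
    have := (Fact.out : ℓ.Prime).two_le
    omega
  refine ⟨φ ^ (ordCompl[p] (ℓ - 1)), (ℓ - 1).factorization p, ?_, ?_⟩
  · refine MonoidHom.ext fun g => ?_
    rw [MonoidHom.pow_apply, MonoidHom.pow_apply, ← pow_mul, mul_comm,
      Nat.ordProj_mul_ordCompl_eq_self, ← map_pow, ZMod.units_pow_card_sub_one_eq_one, map_one,
      MonoidHom.one_apply]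
  · rw [MonoidHom.pow_apply, Nat.Coprime.orderOf_pow, hφu]
    rw [hφu]
    exact Nat.Coprime.pow_left _ (Nat.coprime_ordCompl hp hℓ1)

/-- Main lemma, for `1 ≤ N`. -/
theorem exists_char_aux (hp : p.Prime) (hp2 : p ≠ 2) {N : ℕ} (hN : 1 ≤ N) (B : ℕ)
    (s : Finset ℕ) (hs : ∀ a ∈ s, 2 ≤ a) :
    ∃ m : ℕ, Squarefree m ∧ (∀ ℓ : ℕ, ℓ.Prime → ℓ ∣ m → B < ℓ ∧ ℓ ≠ p) ∧
      (∀ a ∈ s, a.Coprime m) ∧
      ∃ (χ : (ZMod m)ˣ →* ℂˣ) (M : ℕ), χ ^ p ^ M = 1 ∧
        ∀ a ∈ s, ∀ u : (ZMod m)ˣ, (u : ZMod m) = (a : ZMod m) → p ^ N ∣ orderOf (χ u) := by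
  classical
  induction s using Finset.induction_on generalizing B with
  | empty =>
    refine ⟨1, squarefree_one, ?_, by simp, 1, 0, MonoidHom.ext fun g => by simp, by simp⟩
    intro ℓ hℓ hd
    exact absurd (Nat.dvd_one.1 hd) hℓ.ne_one
  | insert a s has ih =>
    obtain ⟨m', hsq, hpr', hcop, χ', M', hχ', hord⟩ :=
      ih (B + a) (fun b hb => hs b (Finset.mem_insert_of_mem hb))
    have ha : 2 ≤ a := hs a (Finset.mem_insert_self a s)
    have hm'0 : m' ≠ 0 := hsq.ne_zero
    have hpr : ∀ ℓ : ℕ, ℓ.Prime → ℓ ∣ m' → B < ℓ ∧ ℓ ≠ p := fun ℓ hℓ hd =>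
      ⟨lt_of_le_of_lt (Nat.le_add_right B a) (hpr' ℓ hℓ hd).1, (hpr' ℓ hℓ hd).2⟩
    have ham' : a.Coprime m' := by
      by_contra hcon
      obtain ⟨q, hq, hqa, hqm⟩ := Nat.Prime.not_coprime_iff_dvd.1 hcon
      have h1 := (hpr' q hq hqm).1
      have h2 := Nat.le_of_dvd (by omega) hqa
      omega
    -- choose the new prime
    set B₁ : ℕ := B + m' + a + s.sup id + N + 2 * M' + s.card + 1 with hB₁
    obtain ⟨ℓ, hℓ, hℓp, hBℓ, hcopℓ, hordℓ⟩ :=
      ArtinLemma.exists_prime_gt_orderOf_eq ha hp hp2 B₁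
    have : Fact ℓ.Prime := ⟨hℓ⟩
    have hℓm' : ¬ ℓ ∣ m' := by
      intro hd
      have := Nat.le_of_dvd (Nat.pos_of_ne_zero hm'0) hd
      omega
    have hcopm : Nat.Coprime m' ℓ := (Nat.Coprime.symm ((Nat.Prime.coprime_iff_not_dvd hℓ).2 hℓm'))
    have hbℓ : ∀ b ∈ s, b.Coprime ℓ := by
      intro b hb
      have hb2 := hs b (Finset.mem_insert_of_mem hb)
      have hble : b ≤ s.sup id := Finset.le_sup (f := id) hb
      refine Nat.Coprime.symm ((Nat.Prime.coprime_iff_not_dvd hℓ).2 ?_)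
      intro hd
      have := Nat.le_of_dvd (by omega) hd
      omega
    -- the character mod ℓ
    set ua : (ZMod ℓ)ˣ := ZMod.unitOfCoprime a hcopℓ with hua
    have huaord : orderOf ua = p ^ (B₁ + 1) := by
      rw [← orderOf_units, hua, ZMod.coe_unitOfCoprime, hordℓ]
    obtain ⟨ψ, S, hψ, hψa⟩ := exists_char_prime hp ua huaord
    -- the two families
    set x : ℕ → ℂˣ := fun b => if h : b.Coprime m' then χ' (ZMod.unitOfCoprime b h) else 1 with hx
    set w : ℕ → ℂˣ := fun b => if h : b.Coprime ℓ then ψ (ZMod.unitOfCoprime b h) else 1 with hw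
    have hχ'pow : ∀ g, χ' g ^ p ^ M' = 1 := fun g => by
      rw [← MonoidHom.pow_apply, hχ', MonoidHom.one_apply]
    have hψpow : ∀ g, ψ g ^ p ^ S = 1 := fun g => by
      rw [← MonoidHom.pow_apply, hψ, MonoidHom.one_apply]
    have hxpow : ∀ b, x b ^ p ^ M' = 1 := by
      intro b
      simp only [hx]
      split_ifs
      · exact hχ'pow _
      · exact one_pow _
    have hwpow : ∀ b, w b ^ p ^ S = 1 := by
      intro b
      simp only [hw]
      split_ifs
      · exact hψpow _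
      · exact one_pow _
    have hxN : ∀ b ∈ s, p ^ N ∣ orderOf (x b) := by
      intro b hb
      simp only [hx, dif_pos (hcop b hb)]
      exact hord b hb _ (ZMod.coe_unitOfCoprime b _)
    have hw₀ : orderOf (w a) = p ^ (B₁ + 1) := by
      simp only [hw, dif_pos hcopℓ]
      exact hψa
    obtain ⟨t, ht, ht₀⟩ := exists_scale hp s x w (x a) (w a) hN (fun b _ => hxpow b)
      (fun b _ => hwpow b) hxN (hxpow a) hw₀ (by omega)
    -- assemble
    have hd1 : m' ∣ m' * ℓ := Dvd.intro _ rfl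
    have hd2 : ℓ ∣ m' * ℓ := Dvd.intro_left _ rfl
    refine ⟨m' * ℓ, ?_, ?_, ?_, ?_⟩
    · exact (Nat.squarefree_mul hcopm).2 ⟨hsq, hℓ.squarefree⟩
    · intro q hq hqd
      rcases (Nat.Prime.dvd_mul hq).1 hqd with h | h
      · exact hpr q hq h
      · have : q = ℓ := (Nat.prime_dvd_prime_iff_eq hq hℓ).1 h
        subst this
        exact ⟨by omega, hℓp⟩
    · intro b hb
      rcases Finset.mem_insert.1 hb with rfl | hb
      · exact Nat.Coprime.mul_right ham' hcopℓ
      · exact Nat.Coprime.mul_right (hcop b hb) (hbℓ b hb)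
    · refine ⟨(χ'.comp (ZMod.unitsMap hd1)) * (ψ.comp (ZMod.unitsMap hd2)) ^ t, max M' S, ?_, ?_⟩
      · ext g
        simp only [MonoidHom.pow_apply, MonoidHom.mul_apply, MonoidHom.comp_apply,
          MonoidHom.one_apply, mul_pow]
        have h1 : χ' (ZMod.unitsMap hd1 g) ^ p ^ max M' S = 1 := by
          obtain ⟨k, hk⟩ := Nat.exists_eq_add_of_le (le_max_left M' S)
          rw [hk, pow_add, pow_mul, hχ'pow, one_pow]
        have h2 : ψ (ZMod.unitsMap hd2 g) ^ p ^ max M' S = 1 := by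
          obtain ⟨k, hk⟩ := Nat.exists_eq_add_of_le (le_max_right M' S)
          rw [hk, pow_add, pow_mul, hψpow, one_pow]
        rw [h1, ← pow_mul, mul_comm t, pow_mul, h2, one_pow, mul_one]
      · intro b hb u hub
        have hb' : b = a ∨ b ∈ s := Finset.mem_insert.1 hb
        have hbm' : b.Coprime m' := by
          rcases hb' with rfl | hb'
          · exact ham'
          · exact hcop b hb'
        have hbℓ' : b.Coprime ℓ := by
          rcases hb' with rfl | hb'
          · exact hcopℓ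
          · exact hbℓ b hb'
        have e1 : ZMod.unitsMap hd1 u = ZMod.unitOfCoprime b hbm' := by
          ext
          rw [ZMod.unitsMap_val, hub, ZMod.coe_unitOfCoprime, ZMod.cast_natCast hd1]
        have e2 : ZMod.unitsMap hd2 u = ZMod.unitOfCoprime b hbℓ' := by
          ext
          rw [ZMod.unitsMap_val, hub, ZMod.coe_unitOfCoprime, ZMod.cast_natCast hd2]
        have hval : ((χ'.comp (ZMod.unitsMap hd1)) * (ψ.comp (ZMod.unitsMap hd2)) ^ t) u
            = x b * w b ^ t := by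
          simp only [MonoidHom.pow_apply, MonoidHom.mul_apply, MonoidHom.comp_apply, e1, e2, hx, hw,
            dif_pos hbm', dif_pos hbℓ']
        rw [hval]
        rcases hb' with rfl | hb'
        · exact ht₀
        · exact ht b hb'

/-- **Crossing character lemma (X1).**  For an odd prime `p`, bounds `N`, `B` and a finite set `s`
of integers `≥ 2`, there are a squarefree `m` whose prime factors are all `> B` and `≠ p`, prime
to every `a ∈ s`, and a character `χ` of `(ZMod m)ˣ` of `p`-power order, such that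
`p ^ N ∣ orderOf (χ a)` for every `a ∈ s`. -/
theorem exists_char (hp : p.Prime) (hp2 : p ≠ 2) (N B : ℕ) (s : Finset ℕ)
    (hs : ∀ a ∈ s, 2 ≤ a) :
    ∃ m : ℕ, Squarefree m ∧ (∀ ℓ : ℕ, ℓ.Prime → ℓ ∣ m → B < ℓ ∧ ℓ ≠ p) ∧
      (∀ a ∈ s, a.Coprime m) ∧
      ∃ (χ : (ZMod m)ˣ →* ℂˣ) (M : ℕ), χ ^ p ^ M = 1 ∧
        ∀ a ∈ s, ∀ u : (ZMod m)ˣ, (u : ZMod m) = (a : ZMod m) → p ^ N ∣ orderOf (χ u) := by
  obtain ⟨m, h1, h2, h3, χ, M, h4, h5⟩ :=
    exists_char_aux hp hp2 (N := max N 1) (le_max_right _ _) B s hs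
  exact ⟨m, h1, h2, h3, χ, M, h4, fun a ha u hu =>
    (pow_dvd_pow p (le_max_left N 1)).trans (h5 a ha u hu)⟩

end Main

end Fermat.Agent.S55.CrossChar
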