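/-
S55 / level cohomology: INFLATION-RESTRICTION exactness in degree 2, level form.

For a member `U` of the level structure `𝒰` of `G` and a discrete module `A` satisfying
"Hilbert 90 on every layer below `U`", a class of `H²(𝒰, A)` whose restriction to `U` vanishes is
inflated from the layer `H²(G ⧸ U, A^U)`.
-/
import Fermat.Agent.S55.LevelLayerMore
import Fermat.Agent.S55.CFAbs

set_option autoImplicit false
set_option linter.unusedSectionVars false

open CategoryTheory groupCohomology

namespace Fermat.Agent.S55.LevelInfRes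

open Fermat.Agent.S55.Level Fermat.Agent.S55.LevelLayer Fermat.Agent.S55.GC.InfRes2
  Fermat.Agent.S55.CFAbs

universe u

section Layer

variable {k G : Type u} [CommRing k] [Group G] (A : Rep.{u} k G)
  (U W : Subgroup G) [U.Normal] [W.Normal] (hWU : W ≤ U)

/-- The map `U ⧸ (W ∩ U) →* G ⧸ W`. -/
def subQuotHom : ↥U ⧸ W.subgroupOf U →* G ⧸ W :=
  layerChangeHom U.subtype (le_refl (W.subgroupOf U))

lemma subQuotHom_mk (u : U) : subQuotHom U W (u : ↥U ⧸ W.subgroupOf U) = ((u : G) : G ⧸ W) := rfl

lemma subQuotHom_mem (x : ↥U ⧸ W.subgroupOf U) : subQuotHom U W x ∈ imQ U W := by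
  induction x using QuotientGroup.induction_on with | H u =>
  exact ⟨(u : G), u.2, rfl⟩

/-- The map `U ⧸ (W ∩ U) →* UW/W`. -/
def subQuotHom' : ↥U ⧸ W.subgroupOf U →* imQ U W :=
  (subQuotHom U W).codRestrict (imQ U W) (subQuotHom_mem U W)

lemma subQuotHom'_coe (x : ↥U ⧸ W.subgroupOf U) :
    ((subQuotHom' U W x : imQ U W) : G ⧸ W) = subQuotHom U W x := rfl

lemma subQuotHom'_bijective : Function.Bijective (subQuotHom' U W) := by
  constructor
  · rw [injective_iff_map_eq_one]
    intro x hx
    induction x using QuotientGroup.induction_on with | H u =>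
    have h1 : (((u : G) : G ⧸ W)) = 1 := congrArg Subtype.val hx
    rw [QuotientGroup.eq_one_iff] at h1
    exact (QuotientGroup.eq_one_iff u).2 (Subgroup.mem_subgroupOf.2 h1)
  · rintro ⟨y, u, hu, rfl⟩
    exact ⟨((⟨u, hu⟩ : U) : ↥U ⧸ W.subgroupOf U), rfl⟩

/-- `UW/W ≃* U ⧸ (W ∩ U)`. -/
noncomputable def subQuotEquiv : imQ U W ≃* ↥U ⧸ W.subgroupOf U :=
  (MulEquiv.ofBijective (subQuotHom' U W) (subQuotHom'_bijective U W)).symm

lemma subQuotHom_subQuotEquiv (y : imQ U W) :
    subQuotHom U W (subQuotEquiv U W y) = (y : G ⧸ W) := by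
  have h := (MulEquiv.ofBijective (subQuotHom' U W) (subQuotHom'_bijective U W)).apply_symm_apply y
  exact congrArg Subtype.val h

include hWU in
/-- An element invariant under `W ∩ U` is invariant under `W` (as `W ≤ U`). -/
lemma mem_invariants_of_subgroupOf
    (x : (Rep.res U.subtype A).quotientToInvariants (W.subgroupOf U)) (w : W) :
    A.ρ (w : G) (x : A) = (x : A) :=
  x.2 ⟨⟨(w : G), hWU w.2⟩, Subgroup.mem_subgroupOf.2 w.2⟩

/-- The comparison of coefficient modules `(A|_U)^{W ∩ U} → A^W` over `subQuotEquiv`. -/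
noncomputable def subQuotMod :
    Rep.res (subQuotEquiv U W).toMonoidHom
        ((Rep.res U.subtype A).quotientToInvariants (W.subgroupOf U)) ⟶
      Rep.res (imQ U W).subtype (A.quotientToInvariants W) :=
  Rep.ofHom ⟨LinearMap.codRestrict _ (Submodule.subtype _)
      fun x w => mem_invariants_of_subgroupOf A U W hWU x w, fun y => by
    obtain ⟨x, rfl⟩ := (MulEquiv.ofBijective (subQuotHom' U W)
      (subQuotHom'_bijective U W)).surjective y
    induction x using QuotientGroup.induction_on with | H u =>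
    ext a
    have h1 : (subQuotEquiv U W).toMonoidHom
        ((MulEquiv.ofBijective (subQuotHom' U W) (subQuotHom'_bijective U W))
          ((u : ↥U ⧸ W.subgroupOf U))) = (u : ↥U ⧸ W.subgroupOf U) :=
      (MulEquiv.ofBijective (subQuotHom' U W) (subQuotHom'_bijective U W)).symm_apply_apply _
    show ((((Rep.res U.subtype A).quotientToInvariants (W.subgroupOf U)).ρ
        ((subQuotEquiv U W).toMonoidHom
          ((MulEquiv.ofBijective (subQuotHom' U W) (subQuotHom'_bijective U W))
            ((u : ↥U ⧸ W.subgroupOf U)))) a :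
          (Rep.res U.subtype A).quotientToInvariants (W.subgroupOf U)) : A) = A.ρ (u : G) (a : A)
    rw [h1]
    rfl⟩

lemma subQuotMod_apply_coe
    (x : (Rep.res U.subtype A).quotientToInvariants (W.subgroupOf U)) :
    (((subQuotMod A U W hWU).hom x : A.quotientToInvariants W) : A) = (x : A) := rfl

/-- Restriction to `UW/W` on the layer `G ⧸ W` is, up to the identification
`UW/W = U ⧸ (W ∩ U)`, the layer form of the restriction to `U`. -/
theorem layerRes_comp_map :
    layerRes A U (U := W) 2 ≫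
        groupCohomology.map (subQuotEquiv U W).toMonoidHom (subQuotMod A U W hWU) 2 =
      res2 (A.quotientToInvariants W) (imQ U W) := by
  unfold layerRes layerChange
  rw [← groupCohomology.map_comp]
  refine groupCohomology.map_congr ?_ ?_ 2
  · ext y
    exact subQuotHom_subQuotEquiv U W y
  · rfl

end Layer

section Main

variable {k G : Type u} [CommRing k] [Group G] (𝒰 : LevelStructure G) (A : Rep.{u} k G)
  [IsDiscrete 𝒰 A] {U : Subgroup G} [U.Normal] (hU : U ∈ 𝒰.sets)
  [IsDiscrete (𝒰.restrict U) (Rep.res U.subtype A)]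

/-- Restriction on layers commutes with inflation between layers. -/
theorem infLayer_comp_layerRes {V W : Subgroup G} [V.Normal] [W.Normal] (h : W ≤ V) (n : ℕ) :
    infLayer A h n ≫ layerRes A U (U := W) n =
      layerRes A U (U := V) n ≫
        infLayer (Rep.res U.subtype A)
          (show W.subgroupOf U ≤ V.subgroupOf U from fun _ hx => h hx) n := by
  unfold infLayer layerRes layerChange
  rw [← groupCohomology.map_comp, ← groupCohomology.map_comp]
  refine groupCohomology.map_congr ?_ ?_ n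
  · ext x
    rfl
  · rfl

/-- **Inflation–restriction exactness in degree 2, level form.** -/
theorem exists_levelInf_eq_of_res_eq_zero
    (hH1 : ∀ (W : Subgroup G) [W.Normal], W ∈ 𝒰.sets → W ≤ U →
      H1ResVanishes (A.quotientToInvariants W) (imQ U W))
    (y : levelCohomology 𝒰 A 2)
    (hy : (levelCohomologyMap U.subtype (𝒰.restrict_refines U)
      (𝟙 (Rep.res U.subtype A)) 2).hom y = 0) :
    ∃ β : groupCohomology (A.quotientToInvariants U) 2, (levelInf 𝒰 A hU 2).hom β = y := by
  -- `y` comes from a layer `V ≤ U`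
  obtain ⟨V₀, hV₀, hV₀y⟩ := exists_levelInf_eq 𝒰 A y
  obtain ⟨V, hV, hVle⟩ := 𝒰.directed V₀ hV₀ U hU
  have := 𝒰.normal V hV
  obtain ⟨x, rfl⟩ := hV₀y V hV (hVle.trans inf_le_left)
  have hVU : V ≤ U := hVle.trans inf_le_right
  -- the restriction of `x` dies in a deeper layer of `U`
  have h1 := levelInf_levelCohomologyMap_apply U.subtype (𝒰.restrict_refines U)
    (𝟙 (Rep.res U.subtype A)) (le_refl (V.subgroupOf U)) hV (𝒰.mem_restrict_sets U hV) 2 x
  rw [hy] at h1
  obtain ⟨W₀', hW₀', hW₀'le, hW₀'x⟩ := exists_infLayer_eq_zero (𝒰.restrict U)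
    (Rep.res U.subtype A) (𝒰.mem_restrict_sets U hV) _ h1.symm
  obtain ⟨W₀, hW₀, rfl⟩ := hW₀'
  obtain ⟨W, hW, hWle⟩ := 𝒰.directed W₀ hW₀ V hV
  have := 𝒰.normal W hW
  have hWV : W ≤ V := hWle.trans inf_le_right
  have hWU : W ≤ U := hWV.trans hVU
  have hWW₀ : W.subgroupOf U ≤ W₀.subgroupOf U := fun _ hx => (hWle.trans inf_le_left) hx
  have hWVU : W.subgroupOf U ≤ V.subgroupOf U := fun _ hx => hWV hx
  have h2 := hW₀'x (W.subgroupOf U) (𝒰.mem_restrict_sets U hW) hWW₀ hWVU
  -- the class `x₁` on the layer `G ⧸ W`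
  set x₁ := (infLayer A hWV 2).hom x with hx₁
  have h3 : (layerRes A U (U := W) 2).hom x₁ = 0 := by
    have := congrArg (fun ψ => ModuleCat.Hom.hom ψ x) (infLayer_comp_layerRes A (U := U) hWV 2)
    exact this.trans h2
  have h4 : (res2 (A.quotientToInvariants W) (imQ U W)).hom x₁ = 0 := by
    rw [← layerRes_comp_map A U W hWU]
    show (groupCohomology.map _ _ 2).hom ((layerRes A U (U := W) 2).hom x₁) = 0
    rw [h3, map_zero]
  obtain ⟨β, hβ⟩ := exists_infLayer_eq A hWU (hH1 W hW hWU) x₁ h4
  refine ⟨β, ?_⟩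
  rw [← infLayer_levelInf_apply 𝒰 A hWU hU hW 2 β, hβ, hx₁,
    infLayer_levelInf_apply 𝒰 A hWV hV hW 2 x]

end Main

end Fermat.Agent.S55.LevelInfRes
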