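/-
S55 / BR5, part 2: discreteness of the restrictions of `M` and of its twisted dual for the local
level structures, from the frozen hypothesis `hsm` alone.
-/
import Fermat.Agent.S55.DualTwist
import Fermat.Agent.S55.LevelGalois

set_option autoImplicit false

open CategoryTheory groupCohomology ExtCitation

namespace Fermat.Agent.S55.DualTwistLevel

open Fermat.Agent.S55.Level Fermat.Agent.S55.DualTwist

local notation "Qbar" => AlgebraicClosure ℚ
local notation "Γ" => (AlgebraicClosure ℚ ≃ₐ[ℚ] AlgebraicClosure ℚ)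

/-- From `hsm` alone: the restriction of `M` along `r : H →* Gal(ℚ̄/ℚ)` is discrete for the local
level structure. -/
theorem isDiscrete_localLevel_res {k : Type} [CommRing k] {H : Type} [Group H] (r : H →* Γ)
    (M : Rep.{0} k Γ)
    (hsm : ∀ m : M, ∃ F : IntermediateField ℚ Qbar, FiniteDimensional ℚ F ∧
      ∀ s ∈ F.fixingSubgroup, M.ρ s m = m) :
    IsDiscrete (localLevel r) (Rep.res r M) :=
  ⟨fun a => by
    obtain ⟨F, hF, h⟩ := hsm a
    exact ⟨_, normalCore_comap_mem_localLevel r hF, fun u hu =>
      h (r u) (Subgroup.normalCore_le _ hu)⟩⟩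

variable {p : ℕ} [Fact p.Prime]

/-- The restriction of the twisted dual is discrete for the local level structure. -/
theorem isDiscrete_localLevel_res_dualTwist {H : Type} [Group H] (r : H →* Γ)
    (M : Rep.{0} (ZMod p) Γ) [FiniteDimensional (ZMod p) M]
    (hsm : ∀ m : M, ∃ F : IntermediateField ℚ Qbar, FiniteDimensional ℚ F ∧
      ∀ s ∈ F.fixingSubgroup, M.ρ s m = m) :
    IsDiscrete (localLevel r) (Rep.res r (M.dualTwist (cycloChar p))) :=
  isDiscrete_localLevel_res r _ (hsm_dualTwist M hsm)

/-- Same, with the twisted dual formed after restriction. -/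
theorem isDiscrete_localLevel_dualTwist_res {H : Type} [Group H] (r : H →* Γ)
    (M : Rep.{0} (ZMod p) Γ) [FiniteDimensional (ZMod p) M]
    (hsm : ∀ m : M, ∃ F : IntermediateField ℚ Qbar, FiniteDimensional ℚ F ∧
      ∀ s ∈ F.fixingSubgroup, M.ρ s m = m) :
    IsDiscrete (localLevel r) ((Rep.res r M).dualTwist ((cycloChar p).comp r)) := by
  rw [← res_dualTwist]
  exact isDiscrete_localLevel_res_dualTwist r M hsm

/-- From `hsm` alone: `M` is discrete for the local level structure of the identity (all finite
extensions of `ℚ`). -/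
theorem isDiscrete_localLevel_id {k : Type} [CommRing k] (M : Rep.{0} k Γ)
    (hsm : ∀ m : M, ∃ F : IntermediateField ℚ Qbar, FiniteDimensional ℚ F ∧
      ∀ s ∈ F.fixingSubgroup, M.ρ s m = m) :
    IsDiscrete (localLevel (MonoidHom.id Γ)) M :=
  isDiscrete_localLevel_res (MonoidHom.id Γ) M hsm

end Fermat.Agent.S55.DualTwistLevel
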