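/-
S55 (tier 4) — END-GAME linear algebra (helper12), Mathlib only.

The frozen S55 conclusion only asks for the EXISTENCE of a bilinear pairing
`B : sha₁ … →ₗ sha₂ … →ₗ ZMod p` that is nondegenerate on both sides.  For finite-dimensional
spaces this is equivalent to an equality of dimensions; this file provides that reduction in
exactly the `∃ B, (∀ y, (∀ x, B y x = 0) → y = 0) ∧ (∀ x, (∀ y, B y x = 0) → x = 0)` shape.
-/
import Mathlib

set_option autoImplicit false

namespace Fermat.Agent.S55.Endgame

open Module

variable {k : Type*} [Field k] {V W : Type*} [AddCommGroup V] [Module k V]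
  [AddCommGroup W] [Module k W]

/-- Two finite-dimensional spaces of the same dimension admit a pairing which is nondegenerate
on both sides (shape of the frozen S55 conclusion). -/
theorem exists_pairing_of_finrank_eq [FiniteDimensional k V] [FiniteDimensional k W]
    (h : finrank k V = finrank k W) :
    ∃ B : V →ₗ[k] W →ₗ[k] k,
      (∀ y, (∀ x, B y x = 0) → y = 0) ∧ (∀ x, (∀ y, B y x = 0) → x = 0) := by
  have h' : finrank k V = finrank k (Dual k W) := by rw [h, Subspace.dual_finrank_eq]
  let e : V ≃ₗ[k] Dual k W := LinearEquiv.ofFinrankEq V (Dual k W) h'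
  refine ⟨e.toLinearMap, ?_, ?_⟩
  · intro y hy
    have : e y = 0 := LinearMap.ext hy
    exact (LinearEquiv.map_eq_zero_iff e).1 this
  · intro x hx
    rw [← Module.forall_dual_apply_eq_zero_iff k x]
    intro φ
    obtain ⟨y, rfl⟩ := e.surjective φ
    exact hx y

/-- Conversely, a pairing nondegenerate on both sides between finite-dimensional spaces forces
equal dimensions (so nothing is lost by the reduction). -/
theorem finrank_eq_of_pairing [FiniteDimensional k V] [FiniteDimensional k W]
    (B : V →ₗ[k] W →ₗ[k] k)
    (hl : ∀ y, (∀ x, B y x = 0) → y = 0) (hr : ∀ x, (∀ y, B y x = 0) → x = 0) :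
    finrank k V = finrank k W := by
  have h1 : finrank k V ≤ finrank k (Dual k W) :=
    LinearMap.finrank_le_finrank_of_injective (f := B)
      ((injective_iff_map_eq_zero B).2 fun y hy => hl y fun x => by rw [hy]; rfl)
  have h2 : finrank k W ≤ finrank k (Dual k V) :=
    LinearMap.finrank_le_finrank_of_injective (f := B.flip)
      ((injective_iff_map_eq_zero B.flip).2 fun x hx => hr x fun y => by
        have := congrArg (fun f => f y) hx
        simpa using this)
  rw [Subspace.dual_finrank_eq] at h1 h2
  exact le_antisymm h1 h2

end Fermat.Agent.S55.Endgame
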