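/-
S55 / FINAL ASSEMBLY, dry run (helper23): the frozen S55 conclusion from the remaining named
inputs, in the exact shapes their owners deliver them.  This file checks that all landed pieces
compose; `S55.lean` is `result_of_inputs` applied to the instances.

Inputs:
* `Fq q` : local class formation over `ℚ_q` (LOC5), `Fb v` : local class formations at the places of
  `ℚ = ⊥` (the same LOC5 instance for the local field `K_v ⊆ Ω_q`), `hF` : their compatibility
  `inv_{K_v} ∘ res = inv_{ℚ_q}` (`InvariantBC.inv_bcMap` in degree one);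
* `H : BrauerInput p S ⊥ Fb` (only `recip` and `unit_res` are used): reciprocity over `ℚ`;
* `hbase` : the global base case `Main.BaseCase` for every `tr` with `tr ∘ ∂ = ∑_q inv_q`
  (= `Main.baseCase_of_triv` ∘ `BaseCaseTriv.baseCaseTriv_of_arithL` ∘ `ArithLInst.arithL_of_arithU`);
* `hloc` : `LocalBaseHyp₁` at every `q ∈ S` for `inv_q = RecipQ.invFamily` (LOC7 + LOC5).

The local and global Kummer finiteness are `Local.KummerFinite.hlocal`, `GL.Kummer.hkummer`
(landed, used inside).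
-/
import Fermat.Agent.S55.GL.RecipQ
import Fermat.Agent.S55.TraceGlue
import Fermat.Agent.S55.Local.KummerFinite

set_option autoImplicit false

open CategoryTheory IntermediateField

namespace Fermat.Agent.S55.FinalDryRun

open Fermat.Agent.S55.Level Fermat.Agent.S55.GaloisLevel Fermat.Agent.S55.GL.Places
  Fermat.Agent.S55.LevelTransport Fermat.Agent.S55.GL.BrauerLocal Fermat.Agent.S55.GL.QSMod
  Fermat.Agent.S55.GL.BrauerInst Fermat.Agent.S55.CF Fermat.Agent.S55.CFAbs
  Fermat.Agent.S55.DualTwist Fermat.Agent.S55.Local.LocalInv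
  ExtCitation groupCohomology Fermat.Agent.S55.Assembly Fermat.Agent.S55.Cone
  Fermat.Agent.S55.LevelDuality Fermat.Agent.S55.GL.RecipQ

local notation "Qbar" => AlgebraicClosure ℚ
local notation "Γ" => (AlgebraicClosure ℚ ≃ₐ[ℚ] AlgebraicClosure ℚ)

local instance isGaloisQbar_FD : IsGalois ℚ Qbar := Fermat.Agent.S55.Level.isGalois_Qbar
local instance factPrime_FD (q : Nat.Primes) : Fact (q : ℕ).Prime := ⟨q.2⟩

/-- **The frozen S55 from the remaining named inputs.** -/
theorem result_of_inputs {p : ℕ} [hp : Fact p.Prime] (S : Finset Nat.Primes) (hp2 : p ≠ 2)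
    (hpS : pPrime p ∈ S) {ζ : Qbar} (hζ : IsPrimitiveRoot ζ p)
    (Fb : ∀ v : FinPlace (⊥ : IntermediateField ℚ Qbar),
      Formation (levelv ⊥ v) (unitsRep (Kv ⊥ v) (PadicAlgCl (v.prime : ℕ))))
    (Fq : ∀ q : Nat.Primes, Formation (krullLevel ℚ_[(q : ℕ)] (PadicAlgCl (q : ℕ)))
      (unitsRep ℚ_[(q : ℕ)] (PadicAlgCl (q : ℕ))))
    (H : BrauerInput p S (⊥ : IntermediateField ℚ Qbar) Fb)
    (hF : ∀ (v : FinPlace (⊥ : IntermediateField ℚ Qbar))
      (x : levelCohomology (krullLevel ℚ_[(v.prime : ℕ)] (PadicAlgCl (v.prime : ℕ)))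
        (unitsRep ℚ_[(v.prime : ℕ)] (PadicAlgCl (v.prime : ℕ))) 2),
      (Fb v).inv ((bcMap ℚ_[(v.prime : ℕ)] (Kv ⊥ v) (PadicAlgCl (v.prime : ℕ)) 2).hom x) =
        (Fq v.prime).inv x)
    (M : Rep (ZMod p) Γ) [FiniteDimensional (ZMod p) M]
    (hsm : ∀ m : M, ∃ F : IntermediateField ℚ Qbar, FiniteDimensional ℚ F ∧
      ∀ s ∈ F.fixingSubgroup, M.ρ s m = m)
    (hMur : ∀ q : Nat.Primes, q ∉ S → ∀ A : ValuationSubring Qbar,
      A.LiesOverPrime (q : ℕ) → ∀ g ∈ A.inertiaSubgroupIn ℚ, M.ρ g = 1)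
    (hbase : ∀ [IsDiscrete (globalLevel S) (ofChar (k := ZMod p) (cycloChar p))],
      ∀ tr : Hc (localData S) (ofChar (k := ZMod p) (cycloChar p)) 3 →ₗ[ZMod p] ZMod p,
          (∀ w, tr (HcBd (localData S) (ofChar (k := ZMod p) (cycloChar p)) 2 w) =
            ∑ q, invFamily S hζ Fq q (w q)) →
            Fermat.Agent.S55.Main.BaseCase (localData S) (cycloChar p) tr)
    (hloc : ∀ [IsDiscrete (globalLevel S) (ofChar (k := ZMod p) (cycloChar p))],
      ∀ q, LocalBaseHyp₁ ((localData S).𝒱 q) ((cycloChar p).comp ((localData S).r q))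
          (invFamily S hζ Fq q) (restrictFamily ((localData S).𝒱 q))
          (restrictFamily_refines ((localData S).𝒱 q))) :
    ∃ B : sha₁ S (M.dualTwist (cycloChar p)) →ₗ[ZMod p] sha₂ S M →ₗ[ZMod p] ZMod p,
      (∀ y, (∀ x, B y x = 0) → y = 0) ∧ (∀ x, (∀ y, B y x = 0) → x = 0) :=
  Fermat.Agent.S55.TraceGlue.result_of_inv S hp2 hpS M hsm hMur
    (fun {_} => ⟨invFamily S hζ Fq, hrec_invFamily S hpS hζ Fb Fq H hF, hbase, hloc⟩)
    (fun q => Fermat.Agent.S55.Local.KummerFinite.hlocal q.1)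

end Fermat.Agent.S55.FinalDryRun
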