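/-
S55 (Poitou–Tate): the linear-algebra endgame.

From the four-term exact piece
  `V --γ--> H^* --δ--> H2 --β2--> L2`     (exact at `H^*` and at `H2`)
of the Poitou–Tate sequence, where `γ` is the transpose of the localisation map `β1 : H → W` under a
local pairing `P : V → W^*` which is nondegenerate on the `W`-side, one gets
  `dim ker β2 = dim ker β1`     (i.e. `dim Ш² = dim Ш¹`),
together with the finiteness of `ker β2` and a two-sided nondegenerate pairing.

Mathlib only.
-/
import Mathlib

set_option autoImplicit false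

namespace Fermat.Agent.S55.LAEndgame

open Module LinearMap

variable {k : Type*} [Field k]
variable {H W V H2 L2 : Type*}
  [AddCommGroup H] [Module k H] [AddCommGroup W] [Module k W] [AddCommGroup V] [Module k V]
  [AddCommGroup H2] [Module k H2] [AddCommGroup L2] [Module k L2]

/-- If `W` is finite-dimensional and the pairing `P : V → W^*` is nondegenerate on the `W`-side,
then `P` is surjective. -/
theorem surjective_of_nondegenerate_right [FiniteDimensional k W] (P : V →ₗ[k] Dual k W)
    (hP : ∀ w : W, (∀ v, P v w = 0) → w = 0) : Function.Surjective P := by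
  rw [← LinearMap.range_eq_top]
  have h : (LinearMap.range P).dualCoannihilator = ⊥ := by
    rw [eq_bot_iff]
    intro w hw
    rw [Submodule.mem_dualCoannihilator] at hw
    exact (Submodule.mem_bot k).mpr (hP w fun v ↦ hw (P v) (LinearMap.mem_range_self P v))
  have h2 := Subspace.dualCoannihilator_dualAnnihilator_eq (W := LinearMap.range P)
  rw [h, Submodule.dualAnnihilator_bot] at h2
  exact h2.symm

/-- If `γ` is the transpose of `β1` under a surjective pairing map `P`, then `γ` and the dual map
of `β1` have the same range. -/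
theorem range_eq_range_dualMap (β1 : H →ₗ[k] W) (P : V →ₗ[k] Dual k W)
    (hP : Function.Surjective P) (γ : V →ₗ[k] Dual k H)
    (hγ : ∀ v h, γ v h = P v (β1 h)) :
    LinearMap.range γ = LinearMap.range β1.dualMap := by
  have : γ = β1.dualMap ∘ₗ P := by
    ext v h
    simp [hγ]
  rw [this, LinearMap.range_comp, LinearMap.range_eq_top.mpr hP, Submodule.map_top]

/-- **Endgame, dimension form.** -/
theorem finrank_ker_eq [FiniteDimensional k H] (β1 : H →ₗ[k] W) (P : V →ₗ[k] Dual k W)
    (hP : Function.Surjective P) (γ : V →ₗ[k] Dual k H)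
    (hγ : ∀ v h, γ v h = P v (β1 h))
    (δ : Dual k H →ₗ[k] H2) (β2 : H2 →ₗ[k] L2)
    (h1 : LinearMap.ker δ = LinearMap.range γ) (h2 : LinearMap.ker β2 = LinearMap.range δ) :
    FiniteDimensional k (LinearMap.ker β2) ∧
      finrank k (LinearMap.ker β2) = finrank k (LinearMap.ker β1) := by
  rw [h2]
  refine ⟨inferInstance, ?_⟩
  have e1 := LinearMap.finrank_range_add_finrank_ker δ
  have e2 := LinearMap.finrank_range_add_finrank_ker β1
  rw [h1, range_eq_range_dualMap β1 P hP γ hγ, LinearMap.finrank_range_dualMap_eq_finrank_range,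
    Subspace.dual_finrank_eq] at e1
  omega

/-- **Endgame, pairing form**: the conclusion in the shape of the frozen S55 statement. -/
theorem exists_pairing [FiniteDimensional k H] (β1 : H →ₗ[k] W) (P : V →ₗ[k] Dual k W)
    (hP : Function.Surjective P) (γ : V →ₗ[k] Dual k H)
    (hγ : ∀ v h, γ v h = P v (β1 h))
    (δ : Dual k H →ₗ[k] H2) (β2 : H2 →ₗ[k] L2)
    (h1 : LinearMap.ker δ = LinearMap.range γ) (h2 : LinearMap.ker β2 = LinearMap.range δ) :
    ∃ B : LinearMap.ker β1 →ₗ[k] LinearMap.ker β2 →ₗ[k] k,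
      (∀ y, (∀ x, B y x = 0) → y = 0) ∧ (∀ x, (∀ y, B y x = 0) → x = 0) := by
  obtain ⟨hfin, hdim⟩ := finrank_ker_eq β1 P hP γ hγ δ β2 h1 h2
  have h' : finrank k (LinearMap.ker β1) = finrank k (Dual k (LinearMap.ker β2)) := by
    rw [Subspace.dual_finrank_eq, hdim]
  obtain ⟨e⟩ := FiniteDimensional.nonempty_linearEquiv_of_finrank_eq h'
  refine ⟨e.toLinearMap, fun y hy => ?_, fun x hx => ?_⟩
  · have : e y = 0 := LinearMap.ext fun x => by simpa using hy x
    exact e.map_eq_zero_iff.1 this
  · rw [← Module.forall_dual_apply_eq_zero_iff k x]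
    intro φ
    obtain ⟨y, rfl⟩ := e.surjective φ
    simpa using hx y

/-- Variant of `finrank_ker_eq` with the nondegeneracy of the local pairing on the `W`-side instead
of surjectivity of `P` (needs `W` finite-dimensional). -/
theorem finrank_ker_eq' [FiniteDimensional k H] [FiniteDimensional k W] (β1 : H →ₗ[k] W)
    (P : V →ₗ[k] Dual k W) (hP : ∀ w : W, (∀ v, P v w = 0) → w = 0) (γ : V →ₗ[k] Dual k H)
    (hγ : ∀ v h, γ v h = P v (β1 h))
    (δ : Dual k H →ₗ[k] H2) (β2 : H2 →ₗ[k] L2)
    (h1 : LinearMap.ker δ = LinearMap.range γ) (h2 : LinearMap.ker β2 = LinearMap.range δ) :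
    FiniteDimensional k (LinearMap.ker β2) ∧
      finrank k (LinearMap.ker β2) = finrank k (LinearMap.ker β1) :=
  finrank_ker_eq β1 P (surjective_of_nondegenerate_right P hP) γ hγ δ β2 h1 h2

/-- The nondegeneracy on the `W`-side is only needed on the range of `β1`: if `W` is not known to
be finite-dimensional, it suffices that the pairing restricted to `range β1` is nondegenerate on
that side (the range is finite-dimensional since `H` is). -/
theorem finrank_ker_eq'' [FiniteDimensional k H] (β1 : H →ₗ[k] W)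
    (P : V →ₗ[k] Dual k W) (hP : ∀ h : H, (∀ v, P v (β1 h) = 0) → β1 h = 0)
    (γ : V →ₗ[k] Dual k H) (hγ : ∀ v h, γ v h = P v (β1 h))
    (δ : Dual k H →ₗ[k] H2) (β2 : H2 →ₗ[k] L2)
    (h1 : LinearMap.ker δ = LinearMap.range γ) (h2 : LinearMap.ker β2 = LinearMap.range δ) :
    FiniteDimensional k (LinearMap.ker β2) ∧
      finrank k (LinearMap.ker β2) = finrank k (LinearMap.ker β1) := by
  -- replace `W` by `range β1` and `P` by its restriction
  let P' : V →ₗ[k] Dual k (LinearMap.range β1) := (LinearMap.range β1).subtype.dualMap ∘ₗ P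
  have hP' : ∀ w : LinearMap.range β1, (∀ v, P' v w = 0) → w = 0 := by
    rintro ⟨w, h, rfl⟩ hw
    refine Subtype.ext (hP h fun v ↦ ?_)
    simpa [P'] using hw v
  have := finrank_ker_eq' (β1.rangeRestrict) P' hP' γ
    (fun v h ↦ by simp [hγ, P']) δ β2 h1 h2
  rwa [LinearMap.ker_rangeRestrict] at this

/-- Transport of a two-sided nondegenerate pairing along linear equivalences (to move from the
kernels `ker β1`, `ker β2` of the abstract sequence to the frozen `sha₁`, `sha₂`). -/
theorem exists_pairing_of_equiv {X Y X' Y' : Type*} [AddCommGroup X] [Module k X]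
    [AddCommGroup Y] [Module k Y] [AddCommGroup X'] [Module k X'] [AddCommGroup Y'] [Module k Y']
    (eX : X ≃ₗ[k] X') (eY : Y ≃ₗ[k] Y')
    (h : ∃ B : X' →ₗ[k] Y' →ₗ[k] k,
      (∀ y, (∀ x, B y x = 0) → y = 0) ∧ (∀ x, (∀ y, B y x = 0) → x = 0)) :
    ∃ B : X →ₗ[k] Y →ₗ[k] k,
      (∀ y, (∀ x, B y x = 0) → y = 0) ∧ (∀ x, (∀ y, B y x = 0) → x = 0) := by
  obtain ⟨B, hl, hr⟩ := h
  refine ⟨(B.compl₂ eY.toLinearMap) ∘ₗ eX.toLinearMap, fun y hy ↦ ?_, fun x hx ↦ ?_⟩
  · have : eX y = 0 := hl (eX y) fun x' ↦ by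
      have := hy (eY.symm x')
      simpa using this
    exact eX.map_eq_zero_iff.1 this
  · have : eY x = 0 := hr (eY x) fun y' ↦ by
      have := hx (eX.symm y')
      simpa using this
    exact eY.map_eq_zero_iff.1 this

end Fermat.Agent.S55.LAEndgame
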