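/-
S55 (helper5, infrastructure for GLO11 / (HS) / (R) level forms): inflation from the cohomology of a
FINITE quotient-like group into level cohomology.

`(G, 𝒰)` a group with a level structure, `B : Rep k G` discrete; `H` a finite group, `A : Rep k H`,
`f : G →* H` whose kernel contains a member of `𝒰` (`IsLevelHom 𝒰 f`), `φ : res f A ⟶ B`.
Then `finInf 𝒰 f hf φ n : Hⁿ(H, A) ⟶ levelCohomology 𝒰 B n` (cochain formula
`(g₁,…,gₙ) ↦ φ (c (f g₁,…,f gₙ))`).  It is defined as `finiteLevelIso⁻¹ ≫ levelCohomologyMap`, so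
all functoriality is that of `levelCohomologyMap`:

* `finInf_comp_levelCohomologyMap` : post-composition with a change of group `(G', 𝒰') → (G, 𝒰)`
  (restriction, localisation);
* `map_comp_finInf`               : pre-composition with `groupCohomology.map` between finite groups
  (inflation between finite layers, layer isomorphisms);
* `levelInf_eq_finInf`            : helper15's `levelInf 𝒰 B hU n` is the special case
  `f = QuotientGroup.mk' U`, `φ = layerι B U`;
* `exists_finInf_eq_levelInf`, `exists_finInf_eq` : if `f` is onto with kernel in `𝒰` and `φ`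
  identifies `A` with `B^{ker f}`, then `finInf` has the same image as `levelInf (ker f)`; a
  cofinal family of such data is jointly surjective.
-/
import Fermat.Agent.S55.LevelLayer
import Fermat.Agent.S55.LevelTransport
import Fermat.Agent.S55.LevelH1

set_option autoImplicit false

open CategoryTheory

namespace Fermat.Agent.S55.LevelFiniteInf

open Fermat.Agent.S55.Level Fermat.Agent.S55.LevelLayer Fermat.Agent.S55.LevelTransport
  groupCohomology

universe u

section Def

variable {k G H : Type u} [CommRing k] [Group G] [Group H] [Finite H]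
  (𝒰 : LevelStructure G)

/-- `f : G →* H` is of finite level: its kernel contains a member of `𝒰`. -/
def IsLevelHom (f : G →* H) : Prop := ∃ U ∈ 𝒰.sets, U ≤ f.ker

variable {𝒰}

lemma IsLevelHom.refines {f : G →* H} (hf : IsLevelHom 𝒰 f) : 𝒰.Refines (finiteLevel H) f := by
  rintro W (rfl : W = ⊥)
  obtain ⟨U, hU, hle⟩ := hf
  exact ⟨U, hU, fun x hx => hle hx⟩

lemma isLevelHom_mk' {U : Subgroup G} [U.Normal] (hU : U ∈ 𝒰.sets) :
    IsLevelHom 𝒰 (QuotientGroup.mk' U) :=
  ⟨U, hU, by rw [QuotientGroup.ker_mk']⟩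

omit [Finite H] in
lemma IsLevelHom.comp_left {H' : Type u} [Group H'] [Finite H'] {f : G →* H}
    (hf : IsLevelHom 𝒰 f) (g : H →* H') : IsLevelHom 𝒰 (g.comp f) := by
  obtain ⟨U, hU, hle⟩ := hf
  exact ⟨U, hU, fun x hx => by
    rw [MonoidHom.mem_ker, MonoidHom.comp_apply, MonoidHom.mem_ker.1 (hle hx), map_one]⟩

omit [Finite H] in
lemma IsLevelHom.comp_right {G' : Type u} [Group G'] {𝒰' : LevelStructure G'} {f : G →* H}
    (hf : IsLevelHom 𝒰 f) {r : G' →* G} (hr : 𝒰'.Refines 𝒰 r) : IsLevelHom 𝒰' (f.comp r) := by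
  obtain ⟨U, hU, hle⟩ := hf
  obtain ⟨V, hV, hVU⟩ := hr U hU
  exact ⟨V, hV, fun x hx => by
    rw [MonoidHom.mem_ker, MonoidHom.comp_apply]
    exact MonoidHom.mem_ker.1 (hle (hVU hx))⟩

lemma refines_finiteLevel {H' : Type u} [Group H'] [Finite H'] (g : H →* H') :
    (finiteLevel H).Refines (finiteLevel H') g := by
  rintro W (rfl : W = ⊥)
  exact ⟨⊥, rfl, bot_le⟩

variable (𝒰) {B : Rep.{u} k G} [IsDiscrete 𝒰 B] {A : Rep.{u} k H}

/-- Inflation from the cohomology of the finite group `H` to level cohomology. -/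
noncomputable def finInf (f : G →* H) (hf : IsLevelHom 𝒰 f) (φ : Rep.res f A ⟶ B) (n : ℕ) :
    groupCohomology A n ⟶ levelCohomology 𝒰 B n :=
  (finiteLevelIso A n).inv ≫ levelCohomologyMap f hf.refines φ n

lemma finiteLevelIso_hom_comp_finInf (f : G →* H) (hf : IsLevelHom 𝒰 f) (φ : Rep.res f A ⟶ B)
    (n : ℕ) :
    (finiteLevelIso A n).hom ≫ finInf 𝒰 f hf φ n = levelCohomologyMap f hf.refines φ n := by
  unfold finInf
  rw [Iso.hom_inv_id_assoc]

end Def

section Functoriality

variable {k G H : Type u} [CommRing k] [Group G] [Group H] [Finite H]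
  (𝒰 : LevelStructure G) {B : Rep.{u} k G} [IsDiscrete 𝒰 B] {A : Rep.{u} k H}

/-- Post-composition with a change of group. -/
theorem finInf_comp_levelCohomologyMap {G' : Type u} [Group G'] (𝒰' : LevelStructure G')
    {B' : Rep.{u} k G'} [IsDiscrete 𝒰' B'] (f : G →* H) (hf : IsLevelHom 𝒰 f)
    (φ : Rep.res f A ⟶ B) (r : G' →* G) (hr : 𝒰'.Refines 𝒰 r) (ψ : Rep.res r B ⟶ B') (n : ℕ) :
    finInf 𝒰 f hf φ n ≫ levelCohomologyMap r hr ψ n =
      finInf 𝒰' (f.comp r) (hf.comp_right hr) ((Rep.resFunctor r).map φ ≫ ψ) n := by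
  unfold finInf
  rw [Category.assoc, ← levelCohomologyMap_comp f r hf.refines hr φ ψ n]

/-- Pre-composition with a change of finite group. -/
theorem map_comp_finInf {H' : Type u} [Group H'] [Finite H'] {A' : Rep.{u} k H'}
    (g : H →* H') (χ : Rep.res g A' ⟶ A) (f : G →* H) (hf : IsLevelHom 𝒰 f)
    (φ : Rep.res f A ⟶ B) (n : ℕ) :
    groupCohomology.map g χ n ≫ finInf 𝒰 f hf φ n =
      finInf 𝒰 (g.comp f) (hf.comp_left g) ((Rep.resFunctor f).map χ ≫ φ) n := by
  have h1 := levelCohomologyMap_comp_toGroupCohomology (𝒰 := finiteLevel H')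
    (𝒱 := finiteLevel H) g (refines_finiteLevel g) χ n
  -- `map g χ ≫ iso_A.inv = iso_{A'}.inv ≫ levelCohomologyMap g χ`
  have h2 : groupCohomology.map g χ n ≫ (finiteLevelIso A n).inv =
      (finiteLevelIso A' n).inv ≫ levelCohomologyMap g (refines_finiteLevel g) χ n := by
    rw [Iso.comp_inv_eq, Category.assoc, Iso.eq_inv_comp]
    exact h1.symm
  unfold finInf
  rw [← Category.assoc, h2, Category.assoc,
    ← levelCohomologyMap_comp g f (refines_finiteLevel g) hf.refines χ φ n]

/-- `finInf` only depends on the underlying maps. -/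
theorem finInf_congr {f f' : G →* H} (hff' : f = f') (hf : IsLevelHom 𝒰 f)
    (hf' : IsLevelHom 𝒰 f') (φ : Rep.res f A ⟶ B) (φ' : Rep.res f' A ⟶ B)
    (hφ : ∀ a : A.V, φ.hom a = φ'.hom a) (n : ℕ) :
    finInf 𝒰 f hf φ n = finInf 𝒰 f' hf' φ' n := by
  unfold finInf
  rw [levelCohomologyMap_congr hff' hf.refines hf'.refines φ φ' hφ n]

/-- helper15's `levelInf` is `finInf` for the quotient map. -/
theorem levelInf_eq_finInf {U : Subgroup G} [U.Normal] [Finite (G ⧸ U)] (hU : U ∈ 𝒰.sets)
    (n : ℕ) :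
    levelInf 𝒰 B hU n =
      finInf 𝒰 (QuotientGroup.mk' U) (isLevelHom_mk' hU) (layerι B U) n := by
  unfold finInf
  rw [Iso.eq_inv_comp]
  have hc : levelι (finiteLevel (G ⧸ U)) (B.quotientToInvariants U) ≫ levelInfComplex 𝒰 B hU =
      levelCochainsMap (QuotientGroup.mk' U) (isLevelHom_mk' hU).refines (layerι B U) := by
    ext m : 1
    refine ModuleCat.hom_ext (LinearMap.ext fun
      (x : levelCochains (finiteLevel (G ⧸ U)) (B.quotientToInvariants U) m) => Subtype.ext ?_)
    rfl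
  have h1 := HomologicalComplex.homologyMap_comp
    (levelι (finiteLevel (G ⧸ U)) (B.quotientToInvariants U)) (levelInfComplex 𝒰 B hU) n
  rw [hc] at h1
  exact h1.symm

end Functoriality

/-! ### Surjective `f` with kernel in `𝒰`, `A ≅ B^{ker f}` -/

section Surj

variable {k G H : Type u} [CommRing k] [Group G] [Group H] [Finite H]
  (𝒰 : LevelStructure G) {B : Rep.{u} k G} [IsDiscrete 𝒰 B] {A : Rep.{u} k H}
  (f : G →* H) (hsurj : Function.Surjective f) (φ : Rep.res f A ⟶ B)
  (hφ : Function.Injective φ.hom)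
  (hrange : ∀ b : B, (∀ u ∈ f.ker, B.ρ u b = b) → ∃ a : A, φ.hom a = b)

/-- The inverse of the canonical isomorphism `G ⧸ ker f ≃* H`. -/
noncomputable def kerQuotInv : H →* G ⧸ f.ker :=
  (QuotientGroup.quotientKerEquivOfSurjective f hsurj).symm.toMonoidHom

omit [Finite H] in
lemma kerQuotInv_apply (γ : G) : kerQuotInv f hsurj (f γ) = (γ : G ⧸ f.ker) := by
  unfold kerQuotInv
  show (QuotientGroup.quotientKerEquivOfSurjective f hsurj).symm (f γ) = _
  rw [MulEquiv.symm_apply_eq]
  rfl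

omit [Finite H] in
lemma kerQuotInv_comp : (kerQuotInv f hsurj).comp f = QuotientGroup.mk' f.ker :=
  MonoidHom.ext fun γ => kerQuotInv_apply f hsurj γ

omit [Finite H] in
lemma φ_mem_invariants (a : A) (u : f.ker) :
    (B.ρ.comp f.ker.subtype) u (φ.hom a) = φ.hom a := by
  have h1 := Rep.hom_comm_apply φ (u : G) a
  have h2 : (Rep.res f A).ρ (u : G) a = a := by
    show A.ρ (f (u : G)) a = a
    rw [MonoidHom.mem_ker.1 u.2, map_one]
    rfl
  rw [h2] at h1
  exact h1.symm

/-- `A ≃ B^{ker f}`. -/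
noncomputable def invEquiv : A.V ≃ₗ[k] (B.quotientToInvariants f.ker).V :=
  LinearEquiv.ofBijective
    (φ.hom.toLinearMap.codRestrict (Representation.invariants (B.ρ.comp f.ker.subtype))
      fun a u => φ_mem_invariants f φ a u)
    ⟨fun a a' h => hφ (congrArg Subtype.val h), fun b => by
      obtain ⟨a, ha⟩ := hrange b.1 fun u hu => b.2 ⟨u, hu⟩
      exact ⟨a, Subtype.ext ha⟩⟩

omit [Finite H] in
lemma invEquiv_apply_coe (a : A) : ((invEquiv f φ hφ hrange a : B.quotientToInvariants f.ker) : B) =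
    φ.hom a := rfl

/-- The inverse of `invEquiv`, as a morphism of representations of `H`. -/
noncomputable def invHom :
    Rep.res (kerQuotInv f hsurj) (B.quotientToInvariants f.ker) ⟶ A :=
  Rep.ofHom ⟨(invEquiv f φ hφ hrange).symm.toLinearMap, fun h => by
    obtain ⟨γ, rfl⟩ := hsurj h
    apply LinearMap.ext
    intro b
    obtain ⟨a, rfl⟩ := (invEquiv f φ hφ hrange).surjective b
    show (invEquiv f φ hφ hrange).symm
        ((B.quotientToInvariants f.ker).ρ (kerQuotInv f hsurj (f γ)) (invEquiv f φ hφ hrange a)) =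
      A.ρ (f γ) ((invEquiv f φ hφ hrange).symm (invEquiv f φ hφ hrange a))
    rw [LinearEquiv.symm_apply_apply, LinearEquiv.symm_apply_eq, kerQuotInv_apply]
    apply Subtype.ext
    rw [invEquiv_apply_coe]
    exact (Rep.hom_comm_apply φ γ a).symm⟩

omit [Finite H] in
lemma φ_invHom_apply (b : B.quotientToInvariants f.ker) :
    φ.hom ((invHom f hsurj φ hφ hrange).hom b) = (b : B) := by
  obtain ⟨a, rfl⟩ := (invEquiv f φ hφ hrange).surjective b
  show φ.hom ((invEquiv f φ hφ hrange).symm (invEquiv f φ hφ hrange a)) = _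
  rw [LinearEquiv.symm_apply_apply]
  rfl

include hsurj hφ hrange in
/-- If `f` is onto with kernel in `𝒰` and `φ` identifies `A` with `B^{ker f}`, the image of
`finInf` contains (in fact equals) the image of `levelInf (ker f)`. -/
theorem exists_finInf_eq_levelInf (hker : f.ker ∈ 𝒰.sets) (n : ℕ)
    (y' : groupCohomology (B.quotientToInvariants f.ker) n) :
    ∃ y : groupCohomology A n,
      (finInf 𝒰 f ⟨f.ker, hker, le_rfl⟩ φ n).hom y = (levelInf 𝒰 B hker n).hom y' := by
  haveI : Finite (G ⧸ f.ker) :=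
    Finite.of_equiv H (QuotientGroup.quotientKerEquivOfSurjective f hsurj).symm.toEquiv
  refine ⟨(groupCohomology.map (kerQuotInv f hsurj) (invHom f hsurj φ hφ hrange) n).hom y', ?_⟩
  have h1 := map_comp_finInf 𝒰 (kerQuotInv f hsurj) (invHom f hsurj φ hφ hrange) f
    ⟨f.ker, hker, le_rfl⟩ φ n
  have h2 : finInf 𝒰 ((kerQuotInv f hsurj).comp f)
      (IsLevelHom.comp_left ⟨f.ker, hker, le_rfl⟩ (kerQuotInv f hsurj))
      ((Rep.resFunctor f).map (invHom f hsurj φ hφ hrange) ≫ φ) n =
      finInf 𝒰 (QuotientGroup.mk' f.ker) (isLevelHom_mk' hker) (layerι B f.ker) n :=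
    finInf_congr 𝒰 (kerQuotInv_comp f hsurj) _ _ _ _
      (fun b => φ_invHom_apply f hsurj φ hφ hrange b) n
  rw [h2, ← levelInf_eq_finInf 𝒰 hker n] at h1
  have := congrArg (fun ψ => ModuleCat.Hom.hom ψ y') h1
  simp only [ModuleCat.hom_comp, LinearMap.comp_apply] at this
  exact this

end Surj

/-! ### A cofinal family of finite quotients is jointly surjective -/

section Cofinal

variable {k G : Type u} [CommRing k] [Group G] (𝒰 : LevelStructure G) {B : Rep.{u} k G}
  [IsDiscrete 𝒰 B]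

/-- Every class of level cohomology comes from `finInf` for every datum `(H, A, f, φ)` with `f`
onto, `ker f ∈ 𝒰` small enough, `A ≅ B^{ker f}`. -/
theorem exists_finInf_eq {n : ℕ} (x : levelCohomology 𝒰 B n) :
    ∃ U₀ ∈ 𝒰.sets, ∀ (H : Type u) [Group H] [Finite H] (A : Rep.{u} k H) (f : G →* H)
      (_ : Function.Surjective f) (φ : Rep.res f A ⟶ B) (_ : Function.Injective φ.hom)
      (_ : ∀ b : B, (∀ u ∈ f.ker, B.ρ u b = b) → ∃ a : A, φ.hom a = b)
      (hker : f.ker ∈ 𝒰.sets), f.ker ≤ U₀ →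
      ∃ y : groupCohomology A n, (finInf 𝒰 f ⟨f.ker, hker, le_rfl⟩ φ n).hom y = x := by
  obtain ⟨U₀, hU₀, hx⟩ := exists_levelInf_eq 𝒰 B x
  refine ⟨U₀, hU₀, fun H _ _ A f hsurj φ hφ hrange hker hle => ?_⟩
  obtain ⟨y', hy'⟩ := hx f.ker hker hle
  obtain ⟨y, hy⟩ := exists_finInf_eq_levelInf 𝒰 f hsurj φ hφ hrange hker n y'
  exact ⟨y, hy.trans hy'⟩

end Cofinal

end Fermat.Agent.S55.LevelFiniteInf
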