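/-
S55 / ALG4 (b): the acyclic hull for level cohomology.  `levelHullM 𝒰 M` = finite-level functions
`G → M` with `G` acting by right translation; it is discrete and its level cohomology vanishes in
positive degrees (explicit contracting homotopy), and every discrete `A` embeds into
`levelHull 𝒰 A`.  This gives dimension shifting for level cohomology.
-/
import Fermat.Agent.S55.LevelElem
import Fermat.Agent.S55.DevissageRep

set_option autoImplicit false

open CategoryTheory

namespace Fermat.Agent.S55.Level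

universe u

section Contract

variable {α : Type*} (op : α → α → α)

lemma contractNth_zero_cons {n : ℕ} (x : α) (g : Fin (n + 1) → α) :
    Fin.contractNth (0 : Fin (n + 2)) op (Fin.cons x g : Fin (n + 2) → α) =
      Fin.cons (op x (g 0)) (fun i : Fin n => g i.succ) := by
  funext k
  refine Fin.cases ?_ (fun i => ?_) k
  · rw [Fin.contractNth_apply_of_eq _ _ _ _ (by simp)]
    simp
  · rw [Fin.contractNth_apply_of_gt _ _ _ _ (by simp)]
    simp

lemma contractNth_succ_cons {n : ℕ} (j : Fin (n + 1)) (x : α) (g : Fin (n + 1) → α) :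
    Fin.contractNth j.succ op (Fin.cons x g : Fin (n + 2) → α) =
      Fin.cons x (Fin.contractNth j op g) := by
  funext k
  refine Fin.cases ?_ (fun i => ?_) k
  · rw [Fin.contractNth_apply_of_lt _ _ _ _ (by simp)]
    simp
  · have hR : (Fin.cons x (Fin.contractNth j op g) : Fin (n + 1) → α) i.succ =
        Fin.contractNth j op g i := Fin.cons_succ _ _ _
    rw [hR]
    rcases lt_trichotomy (i : ℕ) (j : ℕ) with h | h | h
    · rw [Fin.contractNth_apply_of_lt _ _ _ _ (by simpa using h),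
        Fin.contractNth_apply_of_lt _ _ _ _ h, ← Fin.succ_castSucc, Fin.cons_succ]
    · rw [Fin.contractNth_apply_of_eq _ _ _ _ (by simpa using h),
        Fin.contractNth_apply_of_eq _ _ _ _ h, ← Fin.succ_castSucc, Fin.cons_succ, Fin.cons_succ]
    · rw [Fin.contractNth_apply_of_gt _ _ _ _ (by simpa using h),
        Fin.contractNth_apply_of_gt _ _ _ _ h, Fin.cons_succ]

end Contract

section Hull

variable {k G : Type u} [CommRing k] [Group G] (𝒰 : LevelStructure G)

section Module

variable (M : Type u) [AddCommGroup M] [Module k M]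

/-- The module of finite-level functions `G → M` (right invariant under some member of `𝒰`). -/
def hullSubmodule : Submodule k (G → M) where
  carrier := {f | ∃ V ∈ 𝒰.sets, ∀ x : G, ∀ v ∈ V, f (x * v) = f x}
  add_mem' := by
    rintro f f' ⟨V, hV, h⟩ ⟨V', hV', h'⟩
    obtain ⟨W, hW, hWVV'⟩ := 𝒰.directed V hV V' hV'
    refine ⟨W, hW, fun x v hv => ?_⟩
    rw [Pi.add_apply, Pi.add_apply, h x v ((hWVV'.trans inf_le_left) hv),
      h' x v ((hWVV'.trans inf_le_right) hv)]
  zero_mem' := by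
    obtain ⟨V, hV⟩ := 𝒰.nonempty
    exact ⟨V, hV, fun _ _ _ => rfl⟩
  smul_mem' := by
    rintro c f ⟨V, hV, h⟩
    exact ⟨V, hV, fun x v hv => by rw [Pi.smul_apply, Pi.smul_apply, h x v hv]⟩

variable {M} in
lemma mem_hullSubmodule_iff (f : G → M) :
    f ∈ hullSubmodule (k := k) 𝒰 M ↔ ∃ V ∈ 𝒰.sets, ∀ x : G, ∀ v ∈ V, f (x * v) = f x := Iff.rfl

/-- Right translation on finite-level functions. -/
def hullRep : Representation k G (hullSubmodule (k := k) 𝒰 M) where
  toFun g :=
    { toFun := fun f => ⟨fun x => f.1 (x * g), by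
        obtain ⟨V, hV, h⟩ := f.2
        have hn := 𝒰.normal V hV
        refine ⟨V, hV, fun x v hv => ?_⟩
        have e : x * v * g = x * g * (g⁻¹ * v * g) := by group
        show f.1 (x * v * g) = f.1 (x * g)
        rw [e]
        exact h _ _ (by simpa using hn.conj_mem v hv g⁻¹)⟩
      map_add' := fun _ _ => rfl
      map_smul' := fun _ _ => rfl }
  map_one' := by
    ext f x
    simp
  map_mul' g h := by
    ext f x
    simp [mul_assoc]

variable {M} in
@[simp] lemma hullRep_apply_coe (g : G) (f : hullSubmodule (k := k) 𝒰 M) (x : G) :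
    (hullRep 𝒰 M g f).1 x = f.1 (x * g) := rfl

/-- Evaluation of a finite-level function at a point, as a linear map. -/
def hullEval (x : G) : hullSubmodule (k := k) 𝒰 M →ₗ[k] M where
  toFun f := f.1 x
  map_add' _ _ := rfl
  map_smul' _ _ := rfl

variable {M} in
@[simp] lemma hullEval_apply (x : G) (f : hullSubmodule (k := k) 𝒰 M) :
    hullEval 𝒰 M x f = f.1 x := rfl

end Module

/-- The acyclic hull for level cohomology attached to a module `M`: finite-level functions
`G → M` with `G` acting by right translation. -/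
noncomputable abbrev levelHullM (M : Type u) [AddCommGroup M] [Module k M] : Rep.{u} k G :=
  Rep.of (hullRep (k := k) 𝒰 M)

instance levelHullM_isDiscrete (M : Type u) [AddCommGroup M] [Module k M] :
    IsDiscrete 𝒰 (levelHullM (k := k) 𝒰 M) where
  exists_fix := by
    intro (f : hullSubmodule (k := k) 𝒰 M)
    obtain ⟨V, hV, h⟩ := f.2
    refine ⟨V, hV, fun u hu => Subtype.ext (funext fun x => ?_)⟩
    exact h x u hu

variable (A : Rep.{u} k G)

/-- The acyclic hull of `A` for level cohomology: finite-level functions `G → A` with `G` acting by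
right translation (it only depends on the underlying module of `A`). -/
noncomputable abbrev levelHull : Rep.{u} k G := levelHullM (k := k) 𝒰 A.V

variable [IsDiscrete 𝒰 A]

/-- `a ↦ (x ↦ ρ(x) a)`. -/
noncomputable def levelHullι : A ⟶ levelHull 𝒰 A :=
  Rep.ofHom (ρ := A.ρ) (σ := hullRep (k := k) 𝒰 A.V)
    ⟨{ toFun := fun a => ⟨fun x => A.ρ x a, by
          obtain ⟨V, hV, h⟩ := IsDiscrete.exists_fix (𝒰 := 𝒰) a
          refine ⟨V, hV, fun x v hv => ?_⟩
          show A.ρ (x * v) a = A.ρ x a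
          rw [map_mul, Module.End.mul_apply, h v hv]⟩
       map_add' := fun a b => Subtype.ext (funext fun x => map_add _ _ _)
       map_smul' := fun c a => Subtype.ext (funext fun x => map_smul _ _ _) },
      fun g => by
        ext a x
        show A.ρ x (A.ρ g a) = A.ρ (x * g) a
        rw [map_mul, Module.End.mul_apply]⟩

lemma levelHullι_apply_coe (a : A) (x : G) :
    (show hullSubmodule (k := k) 𝒰 A.V from (levelHullι 𝒰 A).hom a).1 x = A.ρ x a := rfl

lemma levelHullι_injective : Function.Injective (levelHullι 𝒰 A).hom := by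
  intro a b h
  have := levelHullι_apply_coe 𝒰 A a 1
  rw [h, levelHullι_apply_coe] at this
  simpa using this.symm

instance levelHullι_mono : Mono (levelHullι 𝒰 A) :=
  (Rep.mono_iff_injective _).2 (levelHullι_injective 𝒰 A)


section Homotopy

variable (M : Type u) [AddCommGroup M] [Module k M]

lemma cons_mul_cons {n : ℕ} (x v : G) (g t : Fin n → G) :
    (Fin.cons (x * v) (g * t) : Fin (n + 1) → G) =
      (Fin.cons x g : Fin (n + 1) → G) * (Fin.cons v t : Fin (n + 1) → G) := by
  funext i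
  refine Fin.cases ?_ (fun i => ?_) i
  · simp
  · simp

lemma hullS_mem {n : ℕ} {f : (Fin (n + 1) → G) → hullSubmodule (k := k) 𝒰 M}
    (hf : IsLevel 𝒰 f) (g : Fin n → G) :
    (fun x : G => (f (Fin.cons x g : Fin (n + 1) → G)).1 1) ∈ hullSubmodule (k := k) 𝒰 M := by
  obtain ⟨U, hU, h⟩ := hf
  refine ⟨U, hU, fun x v hv => ?_⟩
  show (f (Fin.cons (x * v) g : Fin (n + 1) → G)).1 1 = (f (Fin.cons x g : Fin (n + 1) → G)).1 1
  have e : (Fin.cons (x * v) g : Fin (n + 1) → G) =
      (Fin.cons x g : Fin (n + 1) → G) * (Fin.cons v 1 : Fin (n + 1) → G) := by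
    rw [← cons_mul_cons, mul_one]
  rw [e, h _ _ (fun i => ?_)]
  refine Fin.cases ?_ (fun i => ?_) i
  · simpa using hv
  · simp [U.one_mem]

/-- The contracting homotopy of the level complex of the hull:
`(s f)(g₁,…,gₙ)(x) = f(x,g₁,…,gₙ)(1)`. -/
def hullS {n : ℕ} (f : (Fin (n + 1) → G) → hullSubmodule (k := k) 𝒰 M) (hf : IsLevel 𝒰 f) :
    (Fin n → G) → hullSubmodule (k := k) 𝒰 M :=
  fun g => ⟨fun x : G => (f (Fin.cons x g : Fin (n + 1) → G)).1 1, hullS_mem 𝒰 M hf g⟩

lemma hullS_apply_coe {n : ℕ} (f : (Fin (n + 1) → G) → hullSubmodule (k := k) 𝒰 M)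
    (hf : IsLevel 𝒰 f) (g : Fin n → G) (x : G) :
    (hullS 𝒰 M f hf g).1 x = (f (Fin.cons x g : Fin (n + 1) → G)).1 1 := rfl

lemma hullS_isLevel {n : ℕ} (f : (Fin (n + 1) → G) → hullSubmodule (k := k) 𝒰 M)
    (hf : IsLevel 𝒰 f) : IsLevel 𝒰 (hullS 𝒰 M f hf) := by
  obtain ⟨U, hU, h⟩ := id hf
  refine ⟨U, hU, fun g s hs => Subtype.ext (funext fun x => ?_)⟩
  rw [hullS_apply_coe, hullS_apply_coe]
  have e : (Fin.cons x (g * s) : Fin (n + 1) → G) =
      (Fin.cons x g : Fin (n + 1) → G) * (Fin.cons 1 s : Fin (n + 1) → G) := by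
    rw [← cons_mul_cons, mul_one]
  rw [e, h _ _ (fun i => ?_)]
  refine Fin.cases ?_ (fun i => ?_) i
  · simp [U.one_mem]
  · simpa using hs i


/-- The key identity: a level cocycle of positive degree with values in the hull is the
coboundary of its image under the contracting homotopy. -/
theorem d_hullS_of_cocycle {n : ℕ} (f : (Fin (n + 1) → G) → hullSubmodule (k := k) 𝒰 M)
    (hf : IsLevel 𝒰 f)
    (hd : (inhomogeneousCochains.d (levelHullM (k := k) 𝒰 M) (n + 1)).hom f = 0) :
    (inhomogeneousCochains.d (levelHullM (k := k) 𝒰 M) n).hom (hullS 𝒰 M f hf) = f := by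
  funext g
  refine Subtype.ext (funext fun x => ?_)
  -- the cocycle condition at `(x, g)`, evaluated at `1`
  have key : hullEval 𝒰 M 1 (((inhomogeneousCochains.d (levelHullM (k := k) 𝒰 M) (n + 1)).hom f)
      (Fin.cons x g : Fin (n + 2) → G)) = 0 := by
    rw [hd]; rfl
  rw [inhomogeneousCochains.d_hom_apply] at key
  show hullEval 𝒰 M x (((inhomogeneousCochains.d (levelHullM (k := k) 𝒰 M) n).hom (hullS 𝒰 M f hf)) g) = _
  rw [inhomogeneousCochains.d_hom_apply]
  rw [map_add, map_sum] at key ⊢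
  rw [Fin.sum_univ_succ] at key
  simp only [map_smul, hullEval_apply, contractNth_zero_cons, contractNth_succ_cons,
    Fin.cons_zero, Fin.cons_succ, hullRep_apply_coe, hullS_apply_coe, one_mul, Fin.val_zero,
    Fin.val_succ, zero_add, pow_one, neg_smul, one_smul] at key ⊢
  have e : ∀ i : Fin (n + 1), (-1 : k) ^ ((i : ℕ) + 1 + 1) •
      (f (Fin.cons x (i.contractNth (fun x1 x2 => x1 * x2) g) : Fin (n + 1) → G)).1 1 =
      -((-1 : k) ^ ((i : ℕ) + 1) •
      (f (Fin.cons x (i.contractNth (fun x1 x2 => x1 * x2) g) : Fin (n + 1) → G)).1 1) := by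
    intro i
    rw [pow_succ, mul_neg_one, neg_smul]
  rw [Finset.sum_congr rfl fun i _ => e i, Finset.sum_neg_distrib] at key
  have e2 : ((-f (Fin.cons (x * g 0) fun i => g i.succ : Fin (n + 1) → G) :
      hullSubmodule (k := k) 𝒰 M)).1 1 =
      -((f (Fin.cons (x * g 0) fun i => g i.succ : Fin (n + 1) → G)).1 1) := rfl
  rw [e2] at key
  have key2 := eq_neg_of_add_eq_zero_left key
  show _ = (f fun i => g i).1 x
  rw [key2]
  abel

/-- **The hull is acyclic for level cohomology.** -/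
theorem isZero_levelCohomology_levelHullM (n : ℕ) :
    Limits.IsZero (levelCohomology 𝒰 (levelHullM (k := k) 𝒰 M) (n + 1)) := by
  have hsub : ∀ x : levelCohomology 𝒰 (levelHullM (k := k) 𝒰 M) (n + 1), x = 0 := by
    intro x
    obtain ⟨z, rfl⟩ := levelπ_surjective 𝒰 (levelHullM (k := k) 𝒰 M) (n + 1) x
    rw [levelπ_eq_zero_iff]
    have hz1 : IsLevel 𝒰 z.1 := z.2.1
    have hz2 : (inhomogeneousCochains.d (levelHullM (k := k) 𝒰 M) (n + 1)).hom z.1 = 0 := z.2.2
    exact ⟨hullS 𝒰 M z.1 hz1, hullS_isLevel 𝒰 M z.1 hz1, d_hullS_of_cocycle 𝒰 M z.1 hz1 hz2⟩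
  have : Subsingleton (levelCohomology 𝒰 (levelHullM (k := k) 𝒰 M) (n + 1)) :=
    ⟨fun a b => (hsub a).trans (hsub b).symm⟩
  exact ModuleCat.isZero_of_subsingleton _

end Homotopy

section Seq

open Limits

variable (A : Rep.{u} k G) [IsDiscrete 𝒰 A]

omit [IsDiscrete 𝒰 A] in
/-- The hull of a discrete representation is acyclic for level cohomology. -/
theorem isZero_levelCohomology_levelHull (n : ℕ) :
    IsZero (levelCohomology 𝒰 (levelHull 𝒰 A) (n + 1)) :=
  isZero_levelCohomology_levelHullM 𝒰 A.V n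

/-- The dimension-shifting sequence `0 ⟶ A ⟶ levelHull A ⟶ levelHull A / A ⟶ 0`. -/
noncomputable def levelHullSeq : ShortComplex (Rep.{u} k G) :=
  ShortComplex.mk (levelHullι 𝒰 A) (cokernel.π (levelHullι 𝒰 A)) (cokernel.condition _)

lemma levelHullSeq_shortExact : (levelHullSeq 𝒰 A).ShortExact where
  exact := ShortComplex.exact_cokernel _
  mono_f := inferInstanceAs (Mono (levelHullι 𝒰 A))
  epi_g := inferInstanceAs (Epi (cokernel.π (levelHullι 𝒰 A)))

instance levelHullSeq_isDiscrete₁ : IsDiscrete 𝒰 (levelHullSeq 𝒰 A).X₁ :=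
  inferInstanceAs (IsDiscrete 𝒰 A)

instance levelHullSeq_isDiscrete₂ : IsDiscrete 𝒰 (levelHullSeq 𝒰 A).X₂ :=
  inferInstanceAs (IsDiscrete 𝒰 (levelHull 𝒰 A))

instance levelHullSeq_isDiscrete₃ : IsDiscrete 𝒰 (levelHullSeq 𝒰 A).X₃ :=
  Devissage.isDiscrete_of_surjective (A := levelHull 𝒰 A) (cokernel.π (levelHullι 𝒰 A))
    ((Rep.epi_iff_surjective _).1 (inferInstanceAs (Epi (cokernel.π (levelHullι 𝒰 A)))))

end Seq

section Shift

open Limits

variable {𝒰}
variable {X : ShortComplex (Rep.{u} k G)} [IsDiscrete 𝒰 X.X₁] [IsDiscrete 𝒰 X.X₂]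
  [IsDiscrete 𝒰 X.X₃]

/-- If `Hʲ(X₂) = 0` then the connecting homomorphism `Hⁱ(X₃) ⟶ Hʲ(X₁)` is surjective. -/
theorem levelδ_surjective_of_isZero (hX : X.ShortExact) (i j : ℕ) (hij : i + 1 = j)
    (hz : IsZero (levelCohomology 𝒰 X.X₂ j)) :
    Function.Surjective (levelδ 𝒰 hX i j hij).hom := by
  intro y
  have hex := (ShortComplex.moduleCat_exact_iff _).1 (level_exact₁ 𝒰 hX i j hij)
  have : Subsingleton (levelCohomology 𝒰 X.X₂ j) := ModuleCat.subsingleton_of_isZero hz
  exact hex y (Subsingleton.elim (α := levelCohomology 𝒰 X.X₂ j) _ _)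

/-- If `Hⁱ(X₂) = 0` then the connecting homomorphism `Hⁱ(X₃) ⟶ Hʲ(X₁)` is injective. -/
theorem levelδ_injective_of_isZero (hX : X.ShortExact) (i j : ℕ) (hij : i + 1 = j)
    (hz : IsZero (levelCohomology 𝒰 X.X₂ i)) :
    Function.Injective (levelδ 𝒰 hX i j hij).hom := by
  rw [injective_iff_map_eq_zero]
  intro y hy
  have hex := (ShortComplex.moduleCat_exact_iff _).1 (level_exact₃ 𝒰 hX i j hij)
  obtain ⟨w, rfl⟩ := hex y hy
  have hs : Subsingleton (levelCohomology 𝒰 X.X₂ i) := ModuleCat.subsingleton_of_isZero hz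
  have hw : w = 0 := Subsingleton.elim (α := levelCohomology 𝒰 X.X₂ i) _ _
  rw [hw]
  exact map_zero _

end Shift

section ShiftHull

variable (A : Rep.{u} k G) [IsDiscrete 𝒰 A]

/-- Dimension shifting: `δ : Hⁿ(levelHull A / A) ⟶ Hⁿ⁺¹(A)` is surjective. -/
theorem levelδ_levelHullSeq_surjective (n : ℕ) :
    Function.Surjective (levelδ 𝒰 (levelHullSeq_shortExact 𝒰 A) n (n + 1) rfl).hom :=
  levelδ_surjective_of_isZero (levelHullSeq_shortExact 𝒰 A) n (n + 1) rfl
    (isZero_levelCohomology_levelHull 𝒰 A n)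

/-- Dimension shifting: `δ : Hⁿ⁺¹(levelHull A / A) ⟶ Hⁿ⁺²(A)` is bijective. -/
theorem levelδ_levelHullSeq_bijective (n : ℕ) :
    Function.Bijective (levelδ 𝒰 (levelHullSeq_shortExact 𝒰 A) (n + 1) (n + 2) rfl).hom :=
  ⟨levelδ_injective_of_isZero (levelHullSeq_shortExact 𝒰 A) (n + 1) (n + 2) rfl
      (isZero_levelCohomology_levelHull 𝒰 A n),
    levelδ_levelHullSeq_surjective 𝒰 A (n + 1)⟩

end ShiftHull

end Hull

end Fermat.Agent.S55.Level
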