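/-
S55 / ALG4 (e1): the cochain-level INDUCTION map `ind : C(U₀, B) ⟶ C(G, Coind_{U₀}^G B)` attached
to a section of `G → U₀\G`:
`(ind f)(g₁,…,gₙ)(x) = u(x) • f(v₁,…,vₙ)`, `u(x) = x s(x)⁻¹`,
`vᵢ = s(x g₁⋯gᵢ₋₁) gᵢ s(x g₁⋯gᵢ)⁻¹`.
It is a chain map, preserves level cochains, satisfies `sh ∘ ind = id` on cochains (so it induces
the inverse of the Shapiro isomorphism), and at a base point `σ = s(σ)` it is strictly compatible
with restriction to `σ⁻¹ U₀ σ` — the property that makes cone constructions strictly commutative.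
-/
import Fermat.Agent.S55.LevelShapiro

set_option autoImplicit false

open CategoryTheory

namespace Fermat.Agent.S55.Level

universe u

section Section

variable {G : Type u} [Group G] (U₀ : Subgroup G)

/-- A section of `G → U₀\G` (a choice of representatives of the right cosets `U₀ x`), normalised
at the trivial coset. -/
structure RightSection where
  /-- the representative of the coset `U₀ x` -/
  s : G → G
  s_mul : ∀ u ∈ U₀, ∀ x : G, s (u * x) = s x
  mul_inv_mem : ∀ x : G, x * (s x)⁻¹ ∈ U₀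
  s_one : s 1 = 1

variable {U₀}

/-- Sections exist. -/
theorem nonempty_rightSection : Nonempty (RightSection U₀) := by
  classical
  let r := QuotientGroup.rightRel U₀
  have hmk : ∀ (u : G), u ∈ U₀ → ∀ x : G, (Quotient.mk r (u * x)) = Quotient.mk r x := by
    intro u hu x
    apply Quotient.sound
    show QuotientGroup.rightRel U₀ (u * x) x
    rw [QuotientGroup.rightRel_apply]
    simp [U₀.inv_mem hu]
  have hout : ∀ x : G, x * ((Quotient.mk r x).out)⁻¹ ∈ U₀ := by
    intro x
    have h : QuotientGroup.rightRel U₀ (Quotient.mk r x).out x := Quotient.exact (Quotient.out_eq _)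
    rw [QuotientGroup.rightRel_apply] at h
    exact h
  refine ⟨⟨fun x => if x ∈ U₀ then 1 else (Quotient.mk r x).out, ?_, ?_, ?_⟩⟩
  · intro u hu x
    have hiff : u * x ∈ U₀ ↔ x ∈ U₀ := U₀.mul_mem_cancel_left hu
    by_cases hx : x ∈ U₀
    · simp [hx, hiff.2 hx]
    · have : ¬ (u * x ∈ U₀) := fun h => hx (hiff.1 h)
      simp only [if_neg hx, if_neg this]
      rw [hmk u hu x]
  · intro x
    by_cases hx : x ∈ U₀
    · simp [hx]
    · simp only [if_neg hx]
      exact hout x
  · simp [U₀.one_mem]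

namespace RightSection

variable (sec : RightSection U₀)

/-- The `U₀`-component of `x = u(x) · s(x)`. -/
def u (x : G) : U₀ := ⟨x * (sec.s x)⁻¹, sec.mul_inv_mem x⟩

@[simp] lemma coe_u (x : G) : (sec.u x : G) = x * (sec.s x)⁻¹ := rfl

lemma u_mul (v : U₀) (x : G) : sec.u ((v : G) * x) = v * sec.u x := by
  apply Subtype.ext
  simp [sec.s_mul v v.2 x, mul_assoc]

lemma u_mul_s (x : G) : (sec.u x : G) * sec.s x = x := by simp

lemma s_s (x : G) : sec.s (sec.s x) = sec.s x := by
  have h : sec.s x = ((sec.u x)⁻¹ : U₀) * x := by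
    simp
  conv_lhs => rw [h]
  exact sec.s_mul _ (SetLike.coe_mem _) x

lemma s_eq_of_mem {x σ : G} (h : x * σ⁻¹ ∈ U₀) : sec.s x = sec.s σ := by
  have : x = (x * σ⁻¹) * σ := by group
  rw [this]
  exact sec.s_mul _ h σ

/-- The homogeneous `U₀`-tuple `(u(x), u(x g₁), u(x g₁ g₂), …)`. -/
def Y {n : ℕ} (x : G) (g : Fin n → G) (i : Fin (n + 1)) : U₀ := sec.u (x * Fin.partialProd g i)

/-- The inhomogeneous `U₀`-tuple attached to `x` and `(g₁,…,gₙ)`:
`vᵢ = s(x g₁⋯gᵢ₋₁) gᵢ s(x g₁⋯gᵢ)⁻¹`. -/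
def V {n : ℕ} (x : G) (g : Fin n → G) (i : Fin n) : U₀ :=
  (sec.Y x g i.castSucc)⁻¹ * sec.Y x g i.succ

lemma coe_V {n : ℕ} (x : G) (g : Fin n → G) (i : Fin n) :
    (sec.V x g i : G) = sec.s (x * Fin.partialProd g i.castSucc) * g i *
      (sec.s (x * Fin.partialProd g i.succ))⁻¹ := by
  simp only [V, Y, Subgroup.coe_mul, Subgroup.coe_inv, coe_u, Fin.partialProd_succ]
  group

lemma partialProd_V {n : ℕ} (x : G) (g : Fin n → G) (i : Fin (n + 1)) :
    Fin.partialProd (sec.V x g) i = (sec.Y x g 0)⁻¹ * sec.Y x g i := by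
  have h := congrFun (Fin.partialProd_left_inv (sec.Y x g)) i
  simp only [Pi.smul_apply, smul_eq_mul] at h
  rw [← h, inv_mul_cancel_left]
  rfl

lemma Y_zero {n : ℕ} (x : G) (g : Fin n → G) : sec.Y x g 0 = sec.u x := by
  simp [Y]

/-- Compatibility of the `V`-tuple with contraction. -/
lemma V_contractNth {n : ℕ} (x : G) (g : Fin (n + 1) → G) (j : Fin (n + 1)) :
    sec.V x (Fin.contractNth j (· * ·) g) = Fin.contractNth j (· * ·) (sec.V x g) := by
  funext k
  rw [← Fin.inv_partialProd_mul_eq_contractNth, partialProd_V, partialProd_V]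
  simp only [V, Y, Fin.partialProd_contractNth, Function.comp_apply, Fin.succ_succAbove_succ]
  group

lemma V_zero {n : ℕ} (x : G) (g : Fin (n + 1) → G) :
    sec.u x * sec.V x g 0 = sec.u (x * g 0) := by
  have h1 : Fin.partialProd g (0 : Fin (n + 1)).succ = g 0 := by
    rw [Fin.partialProd_succ, Fin.castSucc_zero, Fin.partialProd_zero, one_mul]
  simp only [V, Y, h1, Fin.castSucc_zero, Fin.partialProd_zero, mul_one, mul_inv_cancel_left]

lemma V_succ {n : ℕ} (x : G) (g : Fin (n + 1) → G) (i : Fin n) :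
    sec.V x g i.succ = sec.V (x * g 0) (fun i => g i.succ) i := by
  simp only [V, Y]
  rw [← Fin.succ_castSucc, Fin.partialProd_succ', Fin.partialProd_succ', mul_assoc, mul_assoc]
  rfl

/-- Left `U₀`-invariance of the `V`-tuple. -/
lemma V_mul {n : ℕ} (v : U₀) (x : G) (g : Fin n → G) : sec.V ((v : G) * x) g = sec.V x g := by
  funext i
  simp only [V, Y, mul_assoc, u_mul]
  group

/-- `u` at a translate by an element of a normal subgroup contained in `U₀`. -/
lemma u_mul_right {W : Subgroup G} [W.Normal] (hW : W ≤ U₀) (y w : G) (hw : w ∈ W) :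
    sec.u (y * w) = ⟨y * w * y⁻¹, hW (Subgroup.Normal.conj_mem inferInstance w hw y)⟩ * sec.u y := by
  have e : y * w = (y * w * y⁻¹) * y := by group
  have h := sec.u_mul ⟨y * w * y⁻¹, hW (Subgroup.Normal.conj_mem inferInstance w hw y)⟩ y
  simp only at h
  rw [← e] at h
  exact h

lemma partialProd_mul_mem {W : Subgroup G} [W.Normal] {n : ℕ} (g t : Fin n → G)
    (ht : ∀ i, t i ∈ W) (i : Fin (n + 1)) :
    (Fin.partialProd g i)⁻¹ * Fin.partialProd (g * t) i ∈ W := by
  refine Fin.inductionOn i ?_ ?_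
  · simp [W.one_mem]
  · intro i hi
    rw [Fin.partialProd_succ, Fin.partialProd_succ, Pi.mul_apply]
    have e : (Fin.partialProd g i.castSucc * g i)⁻¹ *
        (Fin.partialProd (g * t) i.castSucc * (g i * t i)) =
        ((g i)⁻¹ * ((Fin.partialProd g i.castSucc)⁻¹ * Fin.partialProd (g * t) i.castSucc) *
          ((g i)⁻¹)⁻¹) * t i := by group
    rw [e]
    exact W.mul_mem (Subgroup.Normal.conj_mem inferInstance _ hi _) (ht i)

/-- Right multiplication of the arguments by elements of a normal subgroup `W ≤ U₀` changes the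
`V`-tuple by right multiplication by elements of `W`. -/
lemma V_mul_right {W : Subgroup G} [W.Normal] (hW : W ≤ U₀) {n : ℕ} (x : G) (g t : Fin n → G)
    (ht : ∀ i, t i ∈ W) :
    ∃ t' : Fin n → U₀, (∀ i, (t' i : G) ∈ W) ∧ sec.V x (g * t) = sec.V x g * t' := by
  have hY : ∀ i : Fin (n + 1), ∃ c : U₀, (c : G) ∈ W ∧ sec.Y x (g * t) i = c * sec.Y x g i := by
    intro i
    have hw := partialProd_mul_mem (W := W) g t ht i
    have e : x * Fin.partialProd (g * t) i =
        (x * Fin.partialProd g i) * ((Fin.partialProd g i)⁻¹ * Fin.partialProd (g * t) i) := by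
      group
    refine ⟨_, ?_, by rw [Y, e, sec.u_mul_right hW _ _ hw]; rfl⟩
    exact Subgroup.Normal.conj_mem inferInstance _ hw _
  choose c hc hYc using hY
  refine ⟨fun i => (sec.V x g i)⁻¹ * sec.V x (g * t) i, fun i => ?_, ?_⟩
  · have e : (sec.V x g i)⁻¹ * sec.V x (g * t) i =
        (sec.Y x g i.succ)⁻¹ * ((c i.castSucc)⁻¹ * c i.succ) * ((sec.Y x g i.succ)⁻¹)⁻¹ := by
      simp only [V, hYc]
      group
    show (((sec.V x g i)⁻¹ * sec.V x (g * t) i : U₀) : G) ∈ W
    rw [e]
    simp only [Subgroup.coe_mul, Subgroup.coe_inv]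
    exact Subgroup.Normal.conj_mem inferInstance _
      (W.mul_mem (W.inv_mem (hc _)) (hc _)) _
  · funext i
    simp only [Pi.mul_apply, mul_inv_cancel_left]

lemma conj_partialProd_mem {n : ℕ} (σ : G) (g : Fin n → G) (hg : ∀ i, σ * g i * σ⁻¹ ∈ U₀)
    (i : Fin (n + 1)) : σ * Fin.partialProd g i * σ⁻¹ ∈ U₀ := by
  refine Fin.inductionOn i ?_ ?_
  · simp [U₀.one_mem]
  · intro i hi
    rw [Fin.partialProd_succ]
    have e : σ * (Fin.partialProd g i.castSucc * g i) * σ⁻¹ =
        (σ * Fin.partialProd g i.castSucc * σ⁻¹) * (σ * g i * σ⁻¹) := by group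
    rw [e]
    exact U₀.mul_mem hi (hg i)

/-- At a base point `σ` which is its own representative, the `V`-tuple of a tuple in
`σ⁻¹ U₀ σ` is its conjugate by `σ`. -/
lemma V_of_s_eq {n : ℕ} (σ : G) (hσ : sec.s σ = σ) (g : Fin n → G)
    (hg : ∀ i, σ * g i * σ⁻¹ ∈ U₀) (i : Fin n) :
    sec.V σ g i = ⟨σ * g i * σ⁻¹, hg i⟩ := by
  have hY : ∀ i : Fin (n + 1), sec.Y σ g i =
      ⟨σ * Fin.partialProd g i * σ⁻¹, conj_partialProd_mem σ g hg i⟩ := by
    intro i
    apply Subtype.ext
    have e : σ * Fin.partialProd g i = (σ * Fin.partialProd g i * σ⁻¹) * σ := by group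
    have h1 : sec.s (σ * Fin.partialProd g i) = σ := by
      rw [e, sec.s_mul _ (conj_partialProd_mem σ g hg i), hσ]
    simp only [Y, coe_u, h1]
  apply Subtype.ext
  simp only [V, hY, Subgroup.coe_mul, Subgroup.coe_inv, Fin.partialProd_succ]
  group

lemma u_of_s_eq (σ : G) (hσ : sec.s σ = σ) : sec.u σ = 1 := by
  apply Subtype.ext
  simp [hσ]

end RightSection

end Section

section Ind

variable {k G : Type u} [CommRing k] [Group G] {U₀ : Subgroup G} (sec : RightSection U₀)
  (B : Rep.{u} k U₀)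

/-- Evaluation of a coinduced function at a point, as a linear map. -/
def coindEvalAt (x : G) : (Rep.coind U₀.subtype B).V →ₗ[k] B.V :=
  LinearMap.proj x ∘ₗ (B.ρ.coindV U₀.subtype).subtype

@[simp] lemma coindEvalAt_apply (x : G) (F : (Rep.coind U₀.subtype B).V) :
    coindEvalAt B x F = F.1 x := rfl

/-- The induction map on cochains, pointwise:
`(ind f)(g₁,…,gₙ)(x) = u(x) • f(v₁,…,vₙ)`. -/
def indFun {n : ℕ} (f : (Fin n → U₀) → B.V) (g : Fin n → G) : (Rep.coind U₀.subtype B).V :=
  ⟨fun x => B.ρ (sec.u x) (f (sec.V x g)), fun v x => by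
    show B.ρ (sec.u ((v : G) * x)) (f (sec.V ((v : G) * x) g)) =
      B.ρ v (B.ρ (sec.u x) (f (sec.V x g)))
    rw [sec.u_mul, sec.V_mul, map_mul]
    rfl⟩

lemma indFun_apply_coe {n : ℕ} (f : (Fin n → U₀) → B.V) (g : Fin n → G) (x : G) :
    (indFun sec B f g).1 x = B.ρ (sec.u x) (f (sec.V x g)) := rfl

/-- The induction map on cochains, as a linear map. -/
def indLin (n : ℕ) :
    ((Fin n → U₀) → B.V) →ₗ[k] ((Fin n → G) → (Rep.coind U₀.subtype B).V) where
  toFun f := indFun sec B f
  map_add' f f' := by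
    funext g
    refine Subtype.ext (funext fun x => ?_)
    show B.ρ (sec.u x) ((f + f') (sec.V x g)) = _
    rw [Pi.add_apply, map_add]
    rfl
  map_smul' c f := by
    funext g
    refine Subtype.ext (funext fun x => ?_)
    show B.ρ (sec.u x) ((c • f) (sec.V x g)) = _
    rw [Pi.smul_apply, map_smul]
    rfl

lemma indLin_apply (n : ℕ) (f : (Fin n → U₀) → B.V) : indLin sec B n f = indFun sec B f := rfl

/-- The induction map commutes with the differentials. -/
theorem d_indFun {n : ℕ} (f : (Fin n → U₀) → B.V) :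
    (inhomogeneousCochains.d (Rep.coind U₀.subtype B) n).hom (indFun sec B f) =
      indFun sec B ((inhomogeneousCochains.d B n).hom f) := by
  funext g
  refine Subtype.ext (funext fun x => ?_)
  show coindEvalAt B x ((inhomogeneousCochains.d (Rep.coind U₀.subtype B) n).hom
    (indFun sec B f) g) = B.ρ (sec.u x) ((inhomogeneousCochains.d B n).hom f (sec.V x g))
  rw [inhomogeneousCochains.d_hom_apply, inhomogeneousCochains.d_hom_apply, map_add, map_sum,
    map_add, map_sum]
  congr 1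
  · rw [coindEvalAt_apply, coind_ρ_apply_coe, indFun_apply_coe, ← Module.End.mul_apply,
      ← map_mul, sec.V_zero]
    congr 2
    funext i
    exact (sec.V_succ x g i).symm
  · refine Finset.sum_congr rfl fun j _ => ?_
    rw [map_smul, map_smul, coindEvalAt_apply, indFun_apply_coe, sec.V_contractNth]

/-- At a base point `σ` which is its own representative, the induced cochain on a tuple in
`σ⁻¹ U₀ σ` is the original cochain on the conjugate tuple. -/
lemma indFun_apply_of_s_eq {n : ℕ} (f : (Fin n → U₀) → B.V) (σ : G) (hσ : sec.s σ = σ)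
    (g : Fin n → G) (hg : ∀ i, σ * g i * σ⁻¹ ∈ U₀) :
    (indFun sec B f g).1 σ = f fun i => ⟨σ * g i * σ⁻¹, hg i⟩ := by
  rw [indFun_apply_coe, sec.u_of_s_eq σ hσ, map_one, funext (sec.V_of_s_eq σ hσ g hg)]
  rfl

/-- The induction map as a morphism of the full inhomogeneous cochain complexes. -/
noncomputable def indCochainsMap :
    groupCohomology.inhomogeneousCochains B ⟶
      groupCohomology.inhomogeneousCochains (Rep.coind U₀.subtype B) where
  f n := ModuleCat.ofHom (indLin sec B n)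
  comm' i j (hij : _ = _) := by
    subst hij
    refine ModuleCat.hom_ext (LinearMap.ext fun (f : (Fin i → U₀) → B.V) => ?_)
    simp only [groupCohomology.inhomogeneousCochains, CochainComplex.of_d, ModuleCat.hom_comp,
      ModuleCat.hom_ofHom, LinearMap.comp_apply]
    exact d_indFun sec B f

lemma indCochainsMap_f_apply {n : ℕ} (f : (Fin n → U₀) → B.V) :
    ((indCochainsMap sec B).f n).hom f = indFun sec B f := rfl

variable (𝒰 : LevelStructure G) [IsOpenSub 𝒰 U₀]

/-- The induction map preserves level cochains. -/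
theorem indFun_isLevel {n : ℕ} {f : (Fin n → U₀) → B.V} (hf : IsLevel (𝒰.restrict U₀) f) :
    IsLevel 𝒰 (indFun sec B f) := by
  obtain ⟨W₀, hW₀, hinv⟩ := hf
  obtain ⟨W, hW, hWU₀, hWW₀⟩ := IsOpenSub.exists_le_of_mem_restrict (𝒰 := 𝒰) hW₀
  have hn := 𝒰.normal W hW
  refine ⟨W, hW, fun g t ht => Subtype.ext (funext fun x => ?_)⟩
  rw [indFun_apply_coe, indFun_apply_coe]
  obtain ⟨t', ht', hV⟩ := sec.V_mul_right hWU₀ x g t ht
  rw [hV, hinv _ _ fun i => hWW₀ (show t' i ∈ W.subgroupOf U₀ from ht' i)]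

variable [IsDiscrete (𝒰.restrict U₀) B]

/-- **The induction map on level complexes** `C(U₀, B) ⟶ C(G, Coind B)`. -/
noncomputable def levelInd :
    levelComplex (𝒰.restrict U₀) B ⟶ levelComplex 𝒰 (Rep.coind U₀.subtype B) :=
  levelComplexHomMk (indCochainsMap sec B) fun _ _ hx => indFun_isLevel sec B 𝒰 hx

lemma levelInd_f_apply_coe {n : ℕ} (f : levelCochains (𝒰.restrict U₀) B n) (g : Fin n → G)
    (x : G) :
    ((show levelCochains 𝒰 (Rep.coind U₀.subtype B) n from
      ((levelInd sec B 𝒰).f n).hom f).1 g).1 x = B.ρ (sec.u x) (f.1 (sec.V x g)) := rfl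

/-- `sh ∘ ind = id` on cochains. -/
theorem levelInd_comp_sh :
    levelInd sec B 𝒰 ≫ levelCochainsMap U₀.subtype (𝒰.restrict_refines U₀)
      (Fermat.Agent.S55.GC.Shapiro.coindEval U₀ B) = 𝟙 _ := by
  ext n : 1
  refine ModuleCat.hom_ext (LinearMap.ext fun (f : levelCochains (𝒰.restrict U₀) B n) =>
    Subtype.ext (funext fun h => ?_))
  show B.ρ (sec.u 1) (f.1 (sec.V 1 (U₀.subtype ∘ h))) = f.1 h
  have h1 : sec.V 1 (U₀.subtype ∘ h) = h := by
    funext i
    rw [sec.V_of_s_eq 1 sec.s_one (U₀.subtype ∘ h) (fun i => by simp) i]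
    apply Subtype.ext
    simp
  rw [h1, sec.u_of_s_eq 1 sec.s_one, map_one]
  rfl

/-- On cohomology, the induction map is inverse to the Shapiro map. -/
theorem levelSh_levelInd (n : ℕ) (y : levelCohomology (𝒰.restrict U₀) B n) :
    (levelSh 𝒰 U₀ B n).hom ((HomologicalComplex.homologyMap (levelInd sec B 𝒰) n).hom y) = y := by
  have h : HomologicalComplex.homologyMap (levelInd sec B 𝒰) n ≫ levelSh 𝒰 U₀ B n = 𝟙 _ := by
    show HomologicalComplex.homologyMap _ n ≫ HomologicalComplex.homologyMap _ n = _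
    rw [← HomologicalComplex.homologyMap_comp, levelInd_comp_sh,
      HomologicalComplex.homologyMap_id]
  exact congrArg (fun φ => ModuleCat.Hom.hom φ y) h

theorem levelInd_levelSh (n : ℕ) (x : levelCohomology 𝒰 (Rep.coind U₀.subtype B) n) :
    (HomologicalComplex.homologyMap (levelInd sec B 𝒰) n).hom ((levelSh 𝒰 U₀ B n).hom x) = x :=
  (levelSh_bijective 𝒰 U₀ n B).1 (levelSh_levelInd sec B 𝒰 n _)

theorem levelInd_bijective (n : ℕ) :
    Function.Bijective (HomologicalComplex.homologyMap (levelInd sec B 𝒰) n).hom :=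
  ⟨fun a b hab => by
    rw [← levelSh_levelInd sec B 𝒰 n a, ← levelSh_levelInd sec B 𝒰 n b, hab],
   fun x => ⟨_, levelInd_levelSh sec B 𝒰 n x⟩⟩

end Ind

end Fermat.Agent.S55.Level
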