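/-
S55 / ALG4 (Mk0): level-cohomology version of `GC/SemiLocal.lean`.

* `bijective_pi_Hmap`: level cohomology commutes with finite products (a jointly bijective finite
  family of morphisms of discrete representations induces a bijection on level cohomology);
* `levelLoc 𝒰 π n`: the localisation map "restrict to an open subgroup `S`, then project by `π`";
  `levelLoc_eq`: it is `levelSh ∘ Hⁿ(toCoind π)`;
* `levelSemiLocal_bijective`: under the recognition criterion for a finite family of open
  subgroups, `Hⁿ(G, A) → ∏ i, Hⁿ(S i, B i)` is bijective.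
-/
import Fermat.Agent.S55.LevelShapiro
import Fermat.Agent.S55.GC.SemiLocal
import Fermat.Agent.S55.CF.LESElem

set_option autoImplicit false

open CategoryTheory

namespace Fermat.Agent.S55.Level

open Fermat.Agent.S55.CF Fermat.Agent.S55.GC.SemiLocal Fermat.Agent.S55.GC.Shapiro

universe u

variable {k G : Type u} [CommRing k] [Group G] (𝒰 : LevelStructure G)

section Products

variable {ι : Type*} {A : Rep.{u} k G} {A' : ι → Rep.{u} k G} [IsDiscrete 𝒰 A]
  [∀ i, IsDiscrete 𝒰 (A' i)] (p : ∀ i, A ⟶ A' i)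

lemma Hmap_sum {A B : Rep.{u} k G} [IsDiscrete 𝒰 A] [IsDiscrete 𝒰 B] {ι : Type*} (s : Finset ι)
    (φ : ι → (A ⟶ B)) (n : ℕ) : Hmap 𝒰 (∑ i ∈ s, φ i) n = ∑ i ∈ s, Hmap 𝒰 (φ i) n := by
  classical
  induction s using Finset.induction_on with
  | empty => simp only [Finset.sum_empty]; exact Hmap_zero 𝒰 n
  | insert a s ha ih => rw [Finset.sum_insert ha, Finset.sum_insert ha, Hmap_add, ih]

/-- **Level cohomology commutes with finite products**: a jointly bijective finite family of
morphisms `p i : A ⟶ A' i` of discrete representations induces a bijection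
`Hⁿ(A) → ∏ i, Hⁿ(A' i)` on level cohomology. -/
theorem bijective_pi_Hmap [Finite ι]
    (hp : Function.Bijective (fun (a : A) (i : ι) => (p i).hom a)) (n : ℕ) :
    Function.Bijective (fun (x : levelCohomology 𝒰 A n) (i : ι) => (Hmap 𝒰 (p i) n).hom x) := by
  classical
  have : Fintype ι := Fintype.ofFinite ι
  have hid : ∑ i, Hmap 𝒰 (p i) n ≫ Hmap 𝒰 (sec p hp i) n = 𝟙 (levelCohomology 𝒰 A n) := by
    have h := congrArg (fun φ => Hmap 𝒰 φ n) (sum_comp_sec p hp)
    simp only [Hmap_sum, Hmap_id, Hmap_comp] at h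
    exact h
  have hid' : ∀ z : levelCohomology 𝒰 A n, ∑ i, (Hmap 𝒰 (sec p hp i) n).hom
      ((Hmap 𝒰 (p i) n).hom z) = z := by
    intro z
    have h := congrArg (fun f : levelCohomology 𝒰 A n ⟶ levelCohomology 𝒰 A n => f.hom z) hid
    simpa [ModuleCat.hom_sum] using h
  have hps : ∀ (i j : ι) (y : levelCohomology 𝒰 (A' i) n),
      (Hmap 𝒰 (p j) n).hom ((Hmap 𝒰 (sec p hp i) n).hom y) =
        if h : i = j then h ▸ y else 0 := by
    intro i j y
    by_cases h : i = j
    · subst h
      have h1 : Hmap 𝒰 (sec p hp i) n ≫ Hmap 𝒰 (p i) n = 𝟙 _ := by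
        rw [← Hmap_comp, sec_comp_self, Hmap_id]
      have h2 := congrArg (fun f : levelCohomology 𝒰 (A' i) n ⟶ levelCohomology 𝒰 (A' i) n =>
        f.hom y) h1
      simpa using h2
    · have h1 : Hmap 𝒰 (sec p hp i) n ≫ Hmap 𝒰 (p j) n = 0 := by
        rw [← Hmap_comp, sec_comp_ne p hp (Ne.symm h), Hmap_zero]
      have h2 := congrArg (fun f : levelCohomology 𝒰 (A' i) n ⟶ levelCohomology 𝒰 (A' j) n =>
        f.hom y) h1
      simpa [h] using h2
  constructor
  · intro x y hxy
    rw [← hid' x, ← hid' y]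
    refine Finset.sum_congr rfl fun i _ => ?_
    have := congrFun hxy i
    simp only at this
    rw [this]
  · intro y
    refine ⟨∑ i, (Hmap 𝒰 (sec p hp i) n).hom (y i), ?_⟩
    funext j
    simp only [map_sum, hps]
    rw [Finset.sum_eq_single j]
    · simp
    · intro i _ hi; simp [hi]
    · intro h; exact absurd (Finset.mem_univ _) h

end Products

section Family

variable {ι : Type*} {A : Rep.{u} k G} [IsDiscrete 𝒰 A] {S : ι → Subgroup G}
  [∀ i, IsOpenSub 𝒰 (S i)] {B : ∀ i, Rep.{u} k (S i)} [∀ i, IsDiscrete (𝒰.restrict (S i)) (B i)]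
  (π : ∀ i, Rep.res (S i).subtype A ⟶ B i)

/-- The localisation map `Hⁿ(G, A) ⟶ Hⁿ(S, B)` of level cohomology: restrict to the open subgroup
`S`, then project by `π`. -/
noncomputable abbrev levelLoc {S : Subgroup G} {B : Rep.{u} k S}
    [IsDiscrete (𝒰.restrict S) B] (π : Rep.res S.subtype A ⟶ B) (n : ℕ) :
    levelCohomology 𝒰 A n ⟶ levelCohomology (𝒰.restrict S) B n :=
  levelCohomologyMap S.subtype (𝒰.restrict_refines S) π n

/-- `levelLoc π` is the level Shapiro map composed with `Hⁿ(toCoind π)`. -/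
lemma levelLoc_eq {S : Subgroup G} [IsOpenSub 𝒰 S] {B : Rep.{u} k S}
    [IsDiscrete (𝒰.restrict S) B] (π : Rep.res S.subtype A ⟶ B) (n : ℕ) :
    levelLoc 𝒰 π n = Hmap 𝒰 (toCoind π) n ≫ levelSh 𝒰 S B n := by
  show HomologicalComplex.homologyMap (levelCochainsMap S.subtype (𝒰.restrict_refines S) π) n =
    HomologicalComplex.homologyMap (levelMap 𝒰 (toCoind π)) n ≫
      HomologicalComplex.homologyMap (levelCochainsMap S.subtype (𝒰.restrict_refines S)
        (coindEval S B)) n
  rw [← HomologicalComplex.homologyMap_comp]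
  congr 1
  ext m : 1
  refine ModuleCat.hom_ext (LinearMap.ext fun (x : levelCochains 𝒰 A m) => Subtype.ext ?_)
  funext g
  show π.hom (x.1 (S.subtype ∘ g)) = π.hom (A.ρ 1 (x.1 (S.subtype ∘ g)))
  rw [map_one]
  rfl

/-- **Semi-local Shapiro for level cohomology, several orbits**: under the recognition criterion
of `GC/SemiLocal.lean` for a finite family of open subgroups `S i`, the product of the
localisation maps `Hⁿ(G, A) → ∏ i, Hⁿ(S i, B i)` of level cohomology is bijective. -/
theorem levelSemiLocal_bijective [Finite ι]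
    (hinj : ∀ a : A, (∀ i (g : G), (π i).hom (A.ρ g a) = 0) → a = 0)
    (hsurj : ∀ i (b : B i), ∃ a : A, (π i).hom a = b ∧
      (∀ g : G, g ∉ S i → (π i).hom (A.ρ g a) = 0) ∧
      ∀ j, j ≠ i → ∀ g : G, (π j).hom (A.ρ g a) = 0)
    (n : ℕ) :
    Function.Bijective (fun (x : levelCohomology 𝒰 A n) (i : ι) =>
      (levelLoc 𝒰 (π i) n).hom x) := by
  have : ∀ i, (S i).FiniteIndex := fun i => IsOpenSub.finiteIndex (𝒰 := 𝒰)
  have h1 := bijective_pi_Hmap 𝒰 (fun i => toCoind (π i))
    (toCoind_family_bijective π hinj hsurj) n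
  have h2 : Function.Bijective
      (fun (y : ∀ i, levelCohomology 𝒰 (Rep.coind (S i).subtype (B i)) n) (i : ι) =>
        (levelSh 𝒰 (S i) (B i) n).hom (y i)) := by
    have hb : ∀ i, Function.Bijective (levelSh 𝒰 (S i) (B i) n).hom := fun i =>
      levelSh_bijective 𝒰 (S i) n (B i)
    constructor
    · intro y y' h
      funext i
      exact (hb i).1 (congrFun h i)
    · intro z
      choose y hy using fun i => (hb i).2 (z i)
      exact ⟨y, funext hy⟩
  have h3 := h2.comp h1
  convert h3 using 1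
  funext x i
  simp only [Function.comp_apply]
  rw [levelLoc_eq]
  rfl

end Family

end Fermat.Agent.S55.Level
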