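/-
S55 (ALG15, part 2): cohomology with coefficients in a group that is torsion prime to `p` is again
torsion prime to `p` — for level cohomology (any level structure) and for ordinary group
cohomology of a finite group.  Hence such coefficient modules are invisible on `p`-torsion and
modulo `p` in every long exact sequence (`PPart.IsPIso`).
-/
import Fermat.Agent.S55.PPart
import Fermat.Agent.S55.LevelElem

set_option autoImplicit false

open CategoryTheory

namespace Fermat.Agent.S55.PPart

universe u

open Fermat.Agent.S55.Level

section Level

variable {p : ℕ} {k G : Type u} [CommRing k] [Group G] (𝒰 : LevelStructure G) (A : Rep.{u} k G)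
  [IsDiscrete 𝒰 A]

/-- Level cohomology of a coefficient module that is torsion prime to `p` is torsion prime to
`p`: a level cochain has finitely many values. -/
theorem pTriv_levelCohomology (hA : PTriv p A) (n : ℕ) : PTriv p (levelCohomology 𝒰 A n) := by
  intro x
  obtain ⟨z, rfl⟩ := levelπ_surjective 𝒰 A n x
  obtain ⟨m, hm, hmz⟩ := hA.exists_common (Set.range z.1) (IsLevel.finite_range z.2.1)
  refine ⟨m, hm, ?_⟩
  have hz : m • z = 0 := by
    refine Subtype.ext (funext fun g => ?_)
    exact hmz (z.1 g) ⟨g, rfl⟩
  rw [← map_nsmul, hz, map_zero]

end Level

section Finite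

variable {p : ℕ} {k G : Type u} [CommRing k] [Group G] [Finite G] (A : Rep.{u} k G)

/-- Group cohomology of a finite group with coefficients torsion prime to `p` is torsion prime to
`p`. -/
theorem pTriv_groupCohomology (hA : PTriv p A) (n : ℕ) : PTriv p (groupCohomology A n) := by
  intro (x : (groupCohomology.inhomogeneousCochains A).homology n)
  obtain ⟨z, rfl⟩ := homologyπ_surjective (groupCohomology.inhomogeneousCochains A) n x
  -- the underlying cochain has finitely many values
  let c : (Fin n → G) → A := ((groupCohomology.inhomogeneousCochains A).iCycles n).hom z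
  obtain ⟨m, hm, hmz⟩ := hA.exists_common (Set.range c) (Set.finite_range c)
  refine ⟨m, hm, ?_⟩
  have hz : m • z = 0 := by
    apply iCycles_injective (groupCohomology.inhomogeneousCochains A) n
    rw [map_nsmul, map_zero]
    funext g
    exact hmz (c g) ⟨g, rfl⟩
  show m • ((groupCohomology.inhomogeneousCochains A).homologyπ n).hom z = 0
  rw [← map_nsmul, hz, map_zero]

end Finite

end Fermat.Agent.S55.PPart
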