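/-
S55 (Poitou–Tate, Sha^1 / Sha^2 duality): reduction of the frozen statement to a dimension equality.
The frozen statement only asks for the EXISTENCE of a bilinear pairing which is nondegenerate
on both sides; for finite-dimensional spaces this is equivalent to equality of dimensions.
-/
import Fermat.Statements.S55

set_option autoImplicit false

open CategoryTheory Module groupCohomology ExtCitation

namespace Fermat.Agent.S55.Reduce

universe u v w

/-- Two finite-dimensional vector spaces of the same dimension carry a pairing that is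
nondegenerate on both sides. -/
theorem exists_pairing_of_finrank_eq {k : Type u} [Field k] {V : Type v} {W : Type w}
    [AddCommGroup V] [Module k V] [AddCommGroup W] [Module k W]
    [FiniteDimensional k V] [FiniteDimensional k W]
    (h : finrank k V = finrank k W) :
    ∃ B : V →ₗ[k] W →ₗ[k] k,
      (∀ y, (∀ x, B y x = 0) → y = 0) ∧ (∀ x, (∀ y, B y x = 0) → x = 0) := by
  have h' : finrank k V = finrank k (Module.Dual k W) := by
    rw [h, Subspace.dual_finrank_eq]
  obtain ⟨e⟩ := FiniteDimensional.nonempty_linearEquiv_of_finrank_eq h'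
  refine ⟨e.toLinearMap, fun y hy => ?_, fun x hx => ?_⟩
  · have : e y = 0 := LinearMap.ext fun x => by simpa using hy x
    exact e.map_eq_zero_iff.1 this
  · rw [← Module.forall_dual_apply_eq_zero_iff k x]
    intro φ
    obtain ⟨y, rfl⟩ := e.surjective φ
    simpa using hx y

/-- Conversely, a pairing that is nondegenerate on both sides between finite-dimensional spaces
forces equality of dimensions (so nothing weaker than the dimension equality can work). -/
theorem finrank_eq_of_pairing {k : Type u} [Field k] {V : Type v} {W : Type w}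
    [AddCommGroup V] [Module k V] [AddCommGroup W] [Module k W]
    [FiniteDimensional k V] [FiniteDimensional k W]
    (B : V →ₗ[k] W →ₗ[k] k)
    (hl : ∀ y, (∀ x, B y x = 0) → y = 0) (hr : ∀ x, (∀ y, B y x = 0) → x = 0) :
    finrank k V = finrank k W := by
  have h1 : finrank k V ≤ finrank k (Module.Dual k W) :=
    LinearMap.finrank_le_finrank_of_injective (f := B) (by
      rw [← LinearMap.ker_eq_bot, LinearMap.ker_eq_bot']
      intro y hy
      exact hl y fun x => by rw [hy]; rfl)
  have h2 : finrank k W ≤ finrank k (Module.Dual k V) :=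
    LinearMap.finrank_le_finrank_of_injective (f := B.flip) (by
      rw [← LinearMap.ker_eq_bot, LinearMap.ker_eq_bot']
      intro x hx
      exact hr x fun y => by
        have := LinearMap.congr_fun hx y
        simpa using this)
  rw [Subspace.dual_finrank_eq] at h1 h2
  exact le_antisymm h1 h2

/-- **Reduction of S55**: it suffices to prove that `Ш¹_S(M^∨(1))` and `Ш²_S(M)` are
finite-dimensional of the same dimension. -/
theorem result_of_finrank_eq
    {p : ℕ} [Fact p.Prime] (S : Finset Nat.Primes)
    (M : Rep (ZMod p) (AlgebraicClosure ℚ ≃ₐ[ℚ] AlgebraicClosure ℚ))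
    (h1 : Module.Finite (ZMod p) (sha₁ S (M.dualTwist (cycloChar p))))
    (h2 : Module.Finite (ZMod p) (sha₂ S M))
    (h : finrank (ZMod p) (sha₁ S (M.dualTwist (cycloChar p))) = finrank (ZMod p) (sha₂ S M)) :
    ∃ B : sha₁ S (M.dualTwist (cycloChar p)) →ₗ[ZMod p] sha₂ S M →ₗ[ZMod p] ZMod p,
      (∀ y, (∀ x, B y x = 0) → y = 0) ∧ (∀ x, (∀ y, B y x = 0) → x = 0) :=
  exists_pairing_of_finrank_eq h

/-- Variant: it suffices to give a linear isomorphism `Ш²_S(M) ≃ (Ш¹_S(M^∨(1)))^*`
(no finiteness hypothesis needed). -/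
theorem result_of_equiv_dual
    {p : ℕ} [Fact p.Prime] (S : Finset Nat.Primes)
    (M : Rep (ZMod p) (AlgebraicClosure ℚ ≃ₐ[ℚ] AlgebraicClosure ℚ))
    (e : sha₁ S (M.dualTwist (cycloChar p)) ≃ₗ[ZMod p] Module.Dual (ZMod p) (sha₂ S M)) :
    ∃ B : sha₁ S (M.dualTwist (cycloChar p)) →ₗ[ZMod p] sha₂ S M →ₗ[ZMod p] ZMod p,
      (∀ y, (∀ x, B y x = 0) → y = 0) ∧ (∀ x, (∀ y, B y x = 0) → x = 0) := by
  refine ⟨e.toLinearMap, fun y hy => ?_, fun x hx => ?_⟩
  · have : e y = 0 := LinearMap.ext fun x => by simpa using hy x
    exact e.map_eq_zero_iff.1 this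
  · rw [← Module.forall_dual_apply_eq_zero_iff (ZMod p) x]
    intro φ
    obtain ⟨y, rfl⟩ := e.surjective φ
    simpa using hx y

end Fermat.Agent.S55.Reduce
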